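import Fermat.Agent.Classic.Level.Perm

/-!
# The theorem of Frobenius: the group theory

`a : ℕ → G` a function on the primes with values in a finite group. If the permutation characters
of all `G ⧸ H` have average `1` over the primes (natural density), the same holds for every function
which is constant on the divisions of `G`.
-/

set_option autoImplicit false

namespace Fermat.Agent.Cor.Frob

open Filter Topology Fermat.Agent.Classic.Level

variable {G : Type*} [Fintype G]

/-- the average of `f` over the primes up to `x` -/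
noncomputable def avg (a : ℕ → G) (f : G → ℝ) (x : ℕ) : ℝ :=
  (∑ p ∈ (Finset.range (x + 1)).filter Nat.Prime, f (a p)) * Real.log x / x

/-- the average of `f` over the primes is the average over `G` -/
def HasAvg (a : ℕ → G) (f : G → ℝ) : Prop :=
  Tendsto (avg a f) atTop (𝓝 ((∑ g, f g) / Nat.card G))

variable {a : ℕ → G}

lemma HasAvg.add {f g : G → ℝ} (hf : HasAvg a f) (hg : HasAvg a g) :
    HasAvg a (fun x => f x + g x) := by
  have h := Tendsto.add hf hg
  rw [← add_div, ← Finset.sum_add_distrib] at h
  refine h.congr fun x => ?_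
  rw [avg, avg, avg, Finset.sum_add_distrib]
  ring

lemma HasAvg.const_mul {f : G → ℝ} (hf : HasAvg a f) (c : ℝ) :
    HasAvg a (fun x => c * f x) := by
  have h := Tendsto.const_mul c hf
  rw [← mul_div_assoc, Finset.mul_sum] at h
  refine h.congr fun x => ?_
  rw [avg, avg, ← Finset.mul_sum]
  ring

lemma HasAvg.zero : HasAvg a (fun _ => (0 : ℝ)) := by
  rw [HasAvg, Finset.sum_const_zero, zero_div]
  refine tendsto_const_nhds.congr fun x => ?_
  rw [avg, Finset.sum_const_zero, zero_mul, zero_div]

lemma HasAvg.sum {ι : Type*} (s : Finset ι) {f : ι → G → ℝ} (h : ∀ i ∈ s, HasAvg a (f i)) :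
    HasAvg a (fun x => ∑ i ∈ s, f i x) := by
  classical
  induction s using Finset.induction_on with
  | empty => simpa using HasAvg.zero
  | insert i s hi ih =>
    have h1 := (h i (Finset.mem_insert_self i s)).add
      (ih fun j hj => h j (Finset.mem_insert_of_mem hj))
    have h2 : (fun x => ∑ j ∈ insert i s, f j x) = fun x => f i x + ∑ j ∈ s, f j x := by
      funext x
      rw [Finset.sum_insert hi]
    rw [h2]
    exact h1

/-! ### Burnside -/

variable [Group G]

open Classical in
lemma sum_pH (H : Subgroup G) : ∑ g : G, (pH H g : ℝ) = Nat.card G := by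
  have h1 : ∀ g : G, pH H g * Nat.card H = ∑ x : G, if x⁻¹ * g * x ∈ H then 1 else 0 := by
    intro g
    rw [pH_mul_card, Finset.sum_boole, Nat.card_eq_fintype_card, Fintype.card_subtype, Nat.cast_id]
  have h2 : (∑ g : G, pH H g) * Nat.card H = Nat.card G * Nat.card H := by
    rw [Finset.sum_mul, Finset.sum_congr rfl fun g _ => h1 g, Finset.sum_comm]
    have h3 : ∀ x : G, (∑ g : G, if x⁻¹ * g * x ∈ H then 1 else 0) = Nat.card H := by
      intro x
      rw [Finset.sum_boole, Nat.cast_id, ← Fintype.card_subtype, ← Nat.card_eq_fintype_card]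
      refine Nat.card_congr ((MulAut.conj x⁻¹).toEquiv.subtypeEquiv fun g => ?_)
      change _ ↔ x⁻¹ * g * x⁻¹⁻¹ ∈ H
      rw [inv_inv]
    rw [Finset.sum_congr rfl fun x _ => h3 x, Finset.sum_const, smul_eq_mul, Finset.card_univ,
      Nat.card_eq_fintype_card (α := G)]
  have h3 : ∑ g : G, pH H g = Nat.card G :=
    Nat.eq_of_mul_eq_mul_right Nat.card_pos h2
  exact_mod_cast h3

/-! ### Cyclic groups -/

open Classical in
/-- the number of conjugates of `g` which generate `C` -/
noncomputable def gen (C : Subgroup G) (g : G) : ℝ :=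
  ∑ x : G, if Subgroup.zpowers (x⁻¹ * g * x) = C then 1 else 0

open Classical in
lemma sum_gen (C : Subgroup G) (g : G) :
    (Nat.card C : ℝ) * pH C g = ∑ D : Subgroup G, if D ≤ C then gen D g else 0 := by
  have h1 : ((pH C g * Nat.card C : ℕ) : ℝ) = ∑ x : G, if x⁻¹ * g * x ∈ C then (1 : ℝ) else 0 := by
    rw [pH_mul_card, Finset.sum_boole, Nat.card_eq_fintype_card, Fintype.card_subtype]
  rw [mul_comm, ← Nat.cast_mul, h1]
  have h2 : ∀ D : Subgroup G, (if D ≤ C then gen D g else 0) =
      ∑ x : G, if Subgroup.zpowers (x⁻¹ * g * x) = D then (if D ≤ C then (1 : ℝ) else 0) else 0 := by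
    intro D
    by_cases h : D ≤ C
    · simp only [if_pos h, gen]
    · simp only [if_neg h, ite_self, Finset.sum_const_zero]
  rw [Finset.sum_congr rfl fun D _ => h2 D, Finset.sum_comm]
  refine Finset.sum_congr rfl fun x _ => ?_
  rw [Finset.sum_ite_eq Finset.univ (Subgroup.zpowers (x⁻¹ * g * x)), if_pos (Finset.mem_univ _)]
  simp only [Subgroup.zpowers_le]

theorem hasAvg_gen (h : ∀ H : Subgroup G, HasAvg a fun g => (pH H g : ℝ)) (C : Subgroup G) :
    HasAvg a (gen C) := by
  classical
  induction C using WellFoundedLT.induction with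
  | ind C ih =>
    have h1 : gen C = fun g => (Nat.card C : ℝ) * pH C g +
        (-1) * ∑ D ∈ Finset.univ.filter (fun D : Subgroup G => D < C), gen D g := by
      funext g
      have h2 := sum_gen C g
      rw [← Finset.sum_filter] at h2
      have h3 : (Finset.univ.filter fun D : Subgroup G => D ≤ C) =
          insert C (Finset.univ.filter fun D : Subgroup G => D < C) := by
        ext D
        simp [le_iff_eq_or_lt]
      rw [h3, Finset.sum_insert (by simp)] at h2
      linarith
    rw [h1]
    refine ((h C).const_mul _).add ((HasAvg.sum _ fun D hD => ih D ?_).const_mul _)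
    exact (Finset.mem_filter.mp hD).2

/-! ### Functions constant on divisions -/

/-- **The theorem of Frobenius**, group theoretical part. -/
theorem HasAvg.of_division (h : ∀ H : Subgroup G, HasAvg a fun g => (pH H g : ℝ)) {f : G → ℝ}
    (hc : ∀ x g : G, f (x⁻¹ * g * x) = f g)
    (hz : ∀ g g' : G, Subgroup.zpowers g = Subgroup.zpowers g' → f g = f g') : HasAvg a f := by
  classical
  let F : Subgroup G → ℝ := fun C => if h : ∃ g, Subgroup.zpowers g = C then f h.choose else 0
  have hF : ∀ g : G, F (Subgroup.zpowers g) = f g := by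
    intro g
    have h1 : ∃ g', Subgroup.zpowers g' = Subgroup.zpowers g := ⟨g, rfl⟩
    change (if h : ∃ g', Subgroup.zpowers g' = Subgroup.zpowers g then f h.choose else 0) = _
    rw [dif_pos h1]
    exact hz _ _ h1.choose_spec
  have hG : (Nat.card G : ℝ) ≠ 0 := by exact_mod_cast (Nat.card_pos (α := G)).ne'
  have h1 : f = fun g => (Nat.card G : ℝ)⁻¹ * ∑ C : Subgroup G, F C * gen C g := by
    funext g
    have h2 : ∑ C : Subgroup G, F C * gen C g = Nat.card G * f g := by
      have h3 : ∀ C : Subgroup G, F C * gen C g =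
          ∑ x : G, if Subgroup.zpowers (x⁻¹ * g * x) = C then F C else 0 := by
        intro C
        rw [gen, Finset.mul_sum]
        refine Finset.sum_congr rfl fun x _ => ?_
        rw [mul_ite, mul_one, mul_zero]
      rw [Finset.sum_congr rfl fun C _ => h3 C, Finset.sum_comm]
      have h4 : ∀ x : G, (∑ C : Subgroup G,
          if Subgroup.zpowers (x⁻¹ * g * x) = C then F C else 0) = f g := by
        intro x
        rw [Finset.sum_ite_eq Finset.univ (Subgroup.zpowers (x⁻¹ * g * x)),
          if_pos (Finset.mem_univ _), hF, hc]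
      rw [Finset.sum_congr rfl fun x _ => h4 x, Finset.sum_const, nsmul_eq_mul, Finset.card_univ,
        Nat.card_eq_fintype_card]
    rw [h2, ← mul_assoc, inv_mul_cancel₀ hG, one_mul]
  rw [h1]
  exact (HasAvg.sum _ fun C _ => (hasAvg_gen h C).const_mul _).const_mul _

open Classical in
/-- **The theorem of Frobenius** for sets: `S` is a union of divisions. -/
theorem density_of_division (h : ∀ H : Subgroup G, HasAvg a fun g => (pH H g : ℝ)) {S : Set G}
    (hc : ∀ x g : G, g ∈ S → x⁻¹ * g * x ∈ S)
    (hz : ∀ g g' : G, Subgroup.zpowers g = Subgroup.zpowers g' → g ∈ S → g' ∈ S) :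
    Tendsto (fun x : ℕ => (((Finset.range (x + 1)).filter fun p => p.Prime ∧ a p ∈ S).card : ℝ) *
      Real.log x / x) atTop (𝓝 (Nat.card S / Nat.card G)) := by
  have h1 := HasAvg.of_division h (f := fun g => if g ∈ S then (1 : ℝ) else 0)
    (fun x g => by
      have h2 : x⁻¹ * g * x ∈ S ↔ g ∈ S := by
        refine ⟨fun h3 => ?_, hc x g⟩
        have h4 := hc x⁻¹ _ h3
        have h5 : x⁻¹⁻¹ * (x⁻¹ * g * x) * x⁻¹ = g := by group
        rwa [h5] at h4
      simp only [h2])
    (fun g g' hg => by
      have h2 : g ∈ S ↔ g' ∈ S := ⟨hz g g' hg, hz g' g hg.symm⟩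
      simp only [h2])
  have h3 : (∑ g : G, if g ∈ S then (1 : ℝ) else 0) = Nat.card S := by
    rw [Finset.sum_boole, Nat.card_eq_fintype_card, ← Set.toFinset_card]
    congr 2
    ext g
    simp
  rw [HasAvg, h3] at h1
  refine h1.congr fun x => ?_
  rw [avg, Finset.sum_boole, Finset.filter_filter]

end Fermat.Agent.Cor.Frob
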