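import Fermat.Agent.Corollaries.ZetaK.Tauber

/-!
# The Wiener-Ikehara theorem

`a n ≥ 0`, `F s = ∑ a n n ^ (-s)` converges for `1 < Re s`, and `F s - A / (s - 1)` extends to a
continuous function on `1 ≤ Re s`.  Then `∑_{n ≤ x} a n ∼ A x`.
-/

set_option autoImplicit false

open MeasureTheory Set Filter Topology

namespace Fermat.Agent.Cor

variable {a : ℕ → ℝ}

/-- the growth of the partial sums -/
theorem sum_Icc_le_rpow (ha : ∀ n, 0 ≤ a n)
    (hs : ∀ s : ℂ, 1 < s.re → LSeriesSummable (fun n => (a n : ℂ)) s) {r : ℝ} (hr : 1 < r) :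
    ∃ C : ℝ, 0 ≤ C ∧ ∀ N : ℕ, ∑ n ∈ Finset.Icc 1 N, a n ≤ C * (N : ℝ) ^ r := by
  have h1 := (hs (r : ℂ) (by simpa using hr)).norm
  refine ⟨∑' n, ‖LSeries.term (fun n => (a n : ℂ)) r n‖, tsum_nonneg fun _ => norm_nonneg _,
    fun N => ?_⟩
  have h2 : ∑ n ∈ Finset.Icc 1 N, ‖LSeries.term (fun n => (a n : ℂ)) r n‖ ≤
      ∑' n, ‖LSeries.term (fun n => (a n : ℂ)) r n‖ :=
    h1.sum_le_tsum _ fun _ _ => norm_nonneg _
  refine le_trans ?_ (mul_le_mul_of_nonneg_right h2 (by positivity))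
  rw [Finset.sum_mul]
  refine Finset.sum_le_sum fun n hn => ?_
  obtain ⟨hn1, hnN⟩ := Finset.mem_Icc.mp hn
  have hn0 : (0 : ℝ) < n := by exact_mod_cast hn1
  rw [LSeries.term_of_ne_zero (by omega), norm_div, Complex.norm_real,
    Real.norm_of_nonneg (ha n), Complex.norm_natCast_cpow_of_pos (by omega), Complex.ofReal_re,
    div_mul_eq_mul_div, le_div_iff₀ (by positivity)]
  have := ha n
  gcongr

theorem isBigO_sum_Icc (ha : ∀ n, 0 ≤ a n)
    (hs : ∀ s : ℂ, 1 < s.re → LSeriesSummable (fun n => (a n : ℂ)) s) {r : ℝ} (hr : 1 < r) :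
    (fun N : ℕ => ∑ n ∈ Finset.Icc 1 N, a n) =O[atTop] fun N : ℕ => (N : ℝ) ^ r := by
  obtain ⟨C, hC0, hC⟩ := sum_Icc_le_rpow ha hs hr
  refine Asymptotics.IsBigO.of_bound C (Eventually.of_forall fun N => ?_)
  rw [Real.norm_of_nonneg (Finset.sum_nonneg fun n _ => ha n),
    Real.norm_of_nonneg (by positivity)]
  exact hC N

/-- `S t = e ^ (-t) ∑_{n ≤ e ^ t} a n` -/
noncomputable def wiS (a : ℕ → ℝ) (t : ℝ) : ℝ :=
  (∑ n ∈ Finset.Icc 1 ⌊Real.exp t⌋₊, a n) * Real.exp (-t)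

theorem wiS_nonneg (ha : ∀ n, 0 ≤ a n) (t : ℝ) : 0 ≤ wiS a t :=
  mul_nonneg (Finset.sum_nonneg fun n _ => ha n) (Real.exp_pos _).le

theorem wiS_mul_exp (a : ℕ → ℝ) (t : ℝ) :
    wiS a t * Real.exp t = ∑ n ∈ Finset.Icc 1 ⌊Real.exp t⌋₊, a n := by
  unfold wiS
  rw [mul_assoc, ← Real.exp_add, neg_add_cancel, Real.exp_zero, mul_one]

theorem measurable_wiS (a : ℕ → ℝ) : Measurable (wiS a) := by
  unfold wiS
  have h1 : Measurable fun t : ℝ => ∑ n ∈ Finset.Icc 1 ⌊Real.exp t⌋₊, a n :=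
    (measurable_from_top (f := fun N : ℕ => ∑ n ∈ Finset.Icc 1 N, a n)).comp
      (Nat.measurable_floor.comp Real.measurable_exp)
  have h2 : Measurable fun t : ℝ => Real.exp (-t) := by fun_prop
  exact h1.mul h2

theorem wiS_le (ha : ∀ n, 0 ≤ a n)
    (hs : ∀ s : ℂ, 1 < s.re → LSeriesSummable (fun n => (a n : ℂ)) s) {r : ℝ} (hr : 1 < r) :
    ∃ C : ℝ, 0 ≤ C ∧ ∀ t : ℝ, wiS a t ≤ C * Real.exp ((r - 1) * t) := by
  obtain ⟨C, hC0, hC⟩ := sum_Icc_le_rpow ha hs hr
  refine ⟨C, hC0, fun t => ?_⟩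
  unfold wiS
  have h1 := hC ⌊Real.exp t⌋₊
  have h2 : ((⌊Real.exp t⌋₊ : ℕ) : ℝ) ^ r ≤ Real.exp (r * t) := by
    have h3 : ((⌊Real.exp t⌋₊ : ℕ) : ℝ) ≤ Real.exp t := Nat.floor_le (Real.exp_pos t).le
    calc ((⌊Real.exp t⌋₊ : ℕ) : ℝ) ^ r ≤ Real.exp t ^ r := by gcongr
      _ = Real.exp (r * t) := by rw [← Real.exp_mul, mul_comm]
  calc (∑ n ∈ Finset.Icc 1 ⌊Real.exp t⌋₊, a n) * Real.exp (-t) ≤
      (C * Real.exp (r * t)) * Real.exp (-t) := by
        gcongr
        exact h1.trans (by gcongr)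
    _ = C * Real.exp ((r - 1) * t) := by
        rw [mul_assoc, ← Real.exp_add]
        congr 2
        ring

theorem integrableOn_wiS (ha : ∀ n, 0 ≤ a n)
    (hs : ∀ s : ℂ, 1 < s.re → LSeriesSummable (fun n => (a n : ℂ)) s) {ε : ℝ} (hε : 0 < ε) :
    IntegrableOn (fun t => wiS a t * Real.exp (-(ε * t))) (Ioi 0) := by
  obtain ⟨C, hC0, hC⟩ := wiS_le ha hs (r := 1 + ε / 2) (by linarith)
  have h1 := (integrableOn_exp_neg (show 0 < ε / 2 by positivity)).const_mul C
  refine Integrable.mono h1 ?_ (Eventually.of_forall fun t => ?_)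
  · have h2 : Measurable fun t : ℝ => Real.exp (-(ε * t)) := by fun_prop
    exact ((measurable_wiS a).mul h2).aestronglyMeasurable
  · have h0 := wiS_nonneg ha t
    rw [Real.norm_of_nonneg (by positivity), Real.norm_of_nonneg (by positivity)]
    calc wiS a t * Real.exp (-(ε * t)) ≤
        (C * Real.exp ((1 + ε / 2 - 1) * t)) * Real.exp (-(ε * t)) := by
          gcongr
          exact hC t
      _ = C * Real.exp (-(ε / 2 * t)) := by
          rw [mul_assoc, ← Real.exp_add]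
          congr 2
          ring

/-- the Laplace transform of `S` -/
theorem integral_wiS (ha : ∀ n, 0 ≤ a n)
    (hs : ∀ s : ℂ, 1 < s.re → LSeriesSummable (fun n => (a n : ℂ)) s) {s : ℂ} (h : 0 < s.re) :
    ∫ t in Ioi (0 : ℝ), ((wiS a t : ℝ) : ℂ) * Complex.exp (-(s * t)) =
      LSeries (fun n => (a n : ℂ)) (s + 1) / (s + 1) := by
  have hs1 : s + 1 ≠ 0 := by
    intro h0
    have := congrArg Complex.re h0
    simp at this
    linarith
  have h1 := LSeries_eq_mul_integral_of_nonneg a (r := 1 + s.re / 2) (by positivity)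
    (s := s + 1) (by simp; linarith) (isBigO_sum_Icc ha hs (by linarith)) ha
  rw [h1, mul_div_cancel_left₀ _ hs1]
  have h2 := integral_comp_exp_Ioi (fun y : ℝ => (∑ k ∈ Finset.Icc 1 ⌊y⌋₊, (a k : ℂ)) *
    (y : ℂ) ^ (-(s + 1 + 1))) 0
  rw [Real.exp_zero] at h2
  rw [← h2]
  refine setIntegral_congr_fun measurableSet_Ioi fun t _ => ?_
  have h3 : ((Real.exp t : ℝ) : ℂ) ^ (-(s + 1 + 1)) = Complex.exp (-(s + 1 + 1) * t) := by
    rw [Complex.cpow_def_of_ne_zero (by
      rw [Ne, Complex.ofReal_eq_zero]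
      exact (Real.exp_pos t).ne'), ← Complex.ofReal_log (Real.exp_pos t).le, Real.log_exp]
    congr 1
    ring
  rw [h3, wiS, Complex.real_smul]
  push_cast
  have h4 : Complex.exp t * ((∑ n ∈ Finset.Icc 1 ⌊Real.exp t⌋₊, (a n : ℂ)) *
      Complex.exp (-(s + 1 + 1) * t)) = (∑ n ∈ Finset.Icc 1 ⌊Real.exp t⌋₊, (a n : ℂ)) *
      (Complex.exp t * Complex.exp (-(s + 1 + 1) * t)) := by ring
  rw [h4, ← Complex.exp_add, mul_assoc, ← Complex.exp_add]
  congr 2
  ring

/-- **The Wiener-Ikehara theorem** (in the form `S t → A`). -/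
theorem tauberDat_wiS {A : ℝ} {G : ℂ → ℂ} (ha : ∀ n, 0 ≤ a n)
    (hs : ∀ s : ℂ, 1 < s.re → LSeriesSummable (fun n => (a n : ℂ)) s)
    (hG : ContinuousOn G {s : ℂ | 1 ≤ s.re})
    (hF : ∀ s : ℂ, 1 < s.re → G s = LSeries (fun n => (a n : ℂ)) s - A / (s - 1)) :
    TauberDat (wiS a) A (fun s => (G (s + 1) - A) / (s + 1)) where
  nonneg := wiS_nonneg ha
  mono x y _ hxy := by
    rw [wiS_mul_exp, wiS_mul_exp]
    refine Finset.sum_le_sum_of_subset_of_nonneg ?_ fun n _ _ => ha n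
    refine Finset.Icc_subset_Icc le_rfl (Nat.floor_mono ?_)
    exact Real.exp_le_exp.mpr hxy
  meas := measurable_wiS a
  int ε hε := integrableOn_wiS ha hs hε
  cont := by
    have h1 : ContinuousOn (fun s : ℂ => G (s + 1)) {s : ℂ | 0 ≤ s.re} := by
      refine hG.comp (by fun_prop) fun s hs => ?_
      have : 0 ≤ s.re := hs
      simpa using this
    refine (h1.sub continuousOn_const).div (by fun_prop) fun s hs h0 => ?_
    have h2 := congrArg Complex.re h0
    have : 0 ≤ s.re := hs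
    simp at h2
    linarith
  lap s h := by
    have hs1 : s + 1 ≠ 0 := by
      intro h0
      have := congrArg Complex.re h0
      simp at this
      linarith
    have hs0 : s ≠ 0 := by
      rintro rfl
      simp at h
    have hint1 : IntegrableOn (fun t : ℝ => ((wiS a t : ℝ) : ℂ) * Complex.exp (-(s * t)))
        (Ioi 0) := by
      have h1 := (integrableOn_wiS ha hs h).ofReal (𝕜 := ℂ)
      refine (integrable_norm_iff ?_).mp ?_
      · have h2 : Measurable fun t : ℝ => Complex.exp (-(s * t)) := by fun_prop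
        exact ((Complex.measurable_ofReal.comp (measurable_wiS a)).mul h2).aestronglyMeasurable
      · refine (integrableOn_wiS ha hs h).congr (Eventually.of_forall fun t => ?_)
        simp only
        rw [norm_mul, Complex.norm_real, Real.norm_of_nonneg (wiS_nonneg ha t), Complex.norm_exp]
        simp
    have hint2 : IntegrableOn (fun t : ℝ => (A : ℂ) * Complex.exp (-(s * t))) (Ioi 0) := by
      have h1 := integrableOn_exp_mul_complex_Ioi (a := -s) (by simpa using h) 0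
      have h2 := h1.const_mul (A : ℂ)
      refine h2.congr (Eventually.of_forall fun t => ?_)
      simp only [neg_mul]
    have e1 : ∫ t in Ioi (0 : ℝ), ((wiS a t - A : ℝ) : ℂ) * Complex.exp (-(s * t)) =
        (∫ t in Ioi (0 : ℝ), ((wiS a t : ℝ) : ℂ) * Complex.exp (-(s * t))) -
        ∫ t in Ioi (0 : ℝ), (A : ℂ) * Complex.exp (-(s * t)) := by
      rw [← integral_sub hint1 hint2]
      congr 1
      ext t
      push_cast
      ring
    have e2 : ∫ t in Ioi (0 : ℝ), (A : ℂ) * Complex.exp (-(s * t)) = A / s := by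
      rw [integral_const_mul]
      have h1 := integral_exp_mul_complex_Ioi (a := -s) (by simpa using h) 0
      simp only [neg_mul, Complex.ofReal_zero, mul_zero, Complex.exp_zero, neg_div_neg_eq] at h1
      rw [h1]
      ring
    rw [e1, e2, integral_wiS ha hs h]
    have h1 := hF (s + 1) (by simpa using h)
    rw [add_sub_cancel_right] at h1
    rw [h1]
    field_simp
    ring

/-- **The Wiener-Ikehara theorem.** -/
theorem wiener_ikehara {A : ℝ} {G : ℂ → ℂ} (ha : ∀ n, 0 ≤ a n)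
    (hs : ∀ s : ℂ, 1 < s.re → LSeriesSummable (fun n => (a n : ℂ)) s)
    (hG : ContinuousOn G {s : ℂ | 1 ≤ s.re})
    (hF : ∀ s : ℂ, 1 < s.re → G s = LSeries (fun n => (a n : ℂ)) s - A / (s - 1)) :
    Tendsto (fun x : ℝ => (∑ n ∈ Finset.Icc 1 ⌊x⌋₊, a n) / x) atTop (𝓝 A) := by
  have h1 := (tauberDat_wiS ha hs hG hF).tendsto.comp Real.tendsto_log_atTop
  refine h1.congr' ?_
  filter_upwards [eventually_gt_atTop 0] with x hx
  simp only [Function.comp_apply, wiS]
  rw [Real.exp_neg, Real.exp_log hx, div_eq_mul_inv]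

/-- **The Wiener-Ikehara theorem**, along the integers. -/
theorem wiener_ikehara_nat {A : ℝ} {G : ℂ → ℂ} (ha : ∀ n, 0 ≤ a n)
    (hs : ∀ s : ℂ, 1 < s.re → LSeriesSummable (fun n => (a n : ℂ)) s)
    (hG : ContinuousOn G {s : ℂ | 1 ≤ s.re})
    (hF : ∀ s : ℂ, 1 < s.re → G s = LSeries (fun n => (a n : ℂ)) s - A / (s - 1)) :
    Tendsto (fun N : ℕ => (∑ n ∈ Finset.Icc 1 N, a n) / N) atTop (𝓝 A) := by
  have h1 := (wiener_ikehara ha hs hG hF).comp (tendsto_natCast_atTop_atTop (R := ℝ))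
  refine h1.congr fun N => ?_
  simp only [Function.comp_apply, Nat.floor_natCast]

end Fermat.Agent.Cor
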