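import Fermat.Agent.Corollaries.ZetaK.PrimeCount
import Fermat.Agent.Corollaries.ZetaK.WienerIkehara

/-!
# The prime number theorem in arithmetic progressions

`q ≥ 1`, `a` a unit mod `q`:

* `tendsto_psi_ap` : `(∑_{n ≤ x, n ≡ a} Λ(n)) / x → 1 / φ(q)`.
* `prime_number_theorem_ap` : `#{p ≤ x : p ≡ a mod q} · log x / x → 1 / φ(q)`.
* `prime_number_theorem`, `tendsto_psi_div`, `tendsto_theta_div` : the case `q = 1`.
-/

set_option autoImplicit false

noncomputable section

open Filter Topology ArithmeticFunction.vonMangoldt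

namespace Fermat.Agent.Cor

section AP

variable {q : ℕ} [NeZero q] {a : ZMod q}

/-- **`ψ(x; q, a) ~ x / φ(q)`.** -/
theorem tendsto_psi_ap (ha : IsUnit a) :
    Tendsto (fun x : ℝ => (∑ n ∈ Finset.Icc 1 ⌊x⌋₊, residueClass a n) / x) atTop
      (𝓝 (q.totient : ℝ)⁻¹) := by
  refine wiener_ikehara (G := LFunctionResidueClassAux a) (residueClass_nonneg a) (fun s hs => ?_)
    (continuousOn_LFunctionResidueClassAux a) fun s hs => ?_
  · exact LSeriesSummable_of_abscissaOfAbsConv_lt_re
      ((abscissaOfAbsConv_residueClass_le_one a).trans_lt (by exact_mod_cast hs))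
  · rw [eqOn_LFunctionResidueClassAux ha hs]
    push_cast
    rfl

theorem isCount_primes : IsCount (fun p : Nat.Primes => (p : ℕ)) 1 where
  two_le p := p.2.two_le
  fin x := (Set.finite_Iic x).preimage Subtype.val_injective.injOn
  card x := by
    have h1 : ((fun p : Nat.Primes => (p : ℕ)) '' {i : Nat.Primes | (i : ℕ) ≤ x}).ncard ≤ x := by
      refine (Set.ncard_le_ncard (t := ((Finset.Icc 1 x : Finset ℕ) : Set ℕ)) ?_
        (Finset.finite_toSet _)).trans ?_
      · rintro _ ⟨p, hp, rfl⟩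
        rw [Finset.coe_Icc]
        exact ⟨p.2.one_le, hp⟩
      · rw [Set.ncard_coe_finset, Nat.card_Icc]
        omega
    have h2 := Set.ncard_image_of_injective (f := fun p : Nat.Primes => (p : ℕ))
      {i : Nat.Primes | (i : ℕ) ≤ x} Subtype.val_injective
    rw [h2] at h1
    rw [one_mul]
    exact_mod_cast h1

omit [NeZero q] in
theorem residueClass_eq_tsum (a : ZMod q) (n : ℕ) : residueClass a n =
    ∑' r : {r : Nat.Primes × ℕ // (r.1 : ℕ) ^ (r.2 + 1) = n ∧
      (((r.1 : ℕ) ^ (r.2 + 1) : ℕ) : ZMod q) = a}, Real.log ((r.1.1 : ℕ) : ℝ) := by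
  by_cases h : IsPrimePow n ∧ (n : ZMod q) = a
  · obtain ⟨hn, ha⟩ := h
    obtain ⟨⟨p, k⟩, hpk⟩ := Nat.Primes.prodNatEquiv.surjective ⟨n, hn⟩
    have hpk' : (p : ℕ) ^ (k + 1) = n := congrArg Subtype.val hpk
    subst hpk'
    rw [tsum_eq_single (⟨(p, k), rfl, ha⟩ : {r : Nat.Primes × ℕ // (r.1 : ℕ) ^ (r.2 + 1) =
      (p : ℕ) ^ (k + 1) ∧ (((r.1 : ℕ) ^ (r.2 + 1) : ℕ) : ZMod q) = a})]
    · rw [residueClass, Set.indicator_of_mem (show _ ∈ {n : ℕ | (n : ZMod q) = a} from ha),
        ArithmeticFunction.vonMangoldt_apply_pow (Nat.succ_ne_zero k),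
        ArithmeticFunction.vonMangoldt_apply_prime p.2]
    · rintro ⟨⟨p', k'⟩, h1, h2⟩ hne
      exfalso
      apply hne
      have h3 : Nat.Primes.prodNatEquiv (p', k') = Nat.Primes.prodNatEquiv (p, k) :=
        Subtype.ext h1
      exact Subtype.ext (Nat.Primes.prodNatEquiv.injective h3)
  · have : IsEmpty {r : Nat.Primes × ℕ // (r.1 : ℕ) ^ (r.2 + 1) = n ∧
      (((r.1 : ℕ) ^ (r.2 + 1) : ℕ) : ZMod q) = a} := by
      refine ⟨fun r => h ?_⟩
      obtain ⟨⟨p, k⟩, h1, h2⟩ := r
      exact ⟨by rw [← h1]; exact p.2.isPrimePow.pow (Nat.succ_ne_zero k), by rw [← h1]; exact h2⟩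
    rw [tsum_empty, residueClass, Set.indicator_apply]
    split_ifs with h1
    · exact ArithmeticFunction.vonMangoldt_eq_zero_iff.2 fun hn => h ⟨hn, h1⟩
    · rfl

/-- **The prime number theorem in arithmetic progressions.** -/
theorem prime_number_theorem_ap' (ha : IsUnit a) :
    Tendsto (fun x : ℝ => (Nat.card {p : Nat.Primes // ((p : ℕ) : ℝ) ≤ x ∧
      ((p : ℕ) : ZMod q) = a} : ℝ) * Real.log x / x) atTop (𝓝 (q.totient : ℝ)⁻¹) := by
  have h := isCount_primes.count_of_psi (T := fun p k => (((p : ℕ) ^ (k + 1) : ℕ) : ZMod q) = a)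
    (residueClass_eq_tsum a) (tendsto_psi_ap ha)
  simpa only [zero_add, pow_one] using h

omit [NeZero q] in
/-- the set of the primes `p ≤ x`, `p ≡ a mod q` -/
theorem card_primes_ap (a : ZMod q) (x : ℝ) :
    Nat.card {p : Nat.Primes // ((p : ℕ) : ℝ) ≤ x ∧ ((p : ℕ) : ZMod q) = a} =
      ((Finset.Icc 1 ⌊x⌋₊).filter fun p : ℕ => p.Prime ∧ (p : ZMod q) = a).card := by
  classical
  rw [← Nat.card_eq_finsetCard]
  refine Nat.card_congr
    { toFun := fun p => ⟨((p.1 : Nat.Primes) : ℕ), ?_⟩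
      invFun := fun p => ⟨⟨p.1, (Finset.mem_filter.1 p.2).2.1⟩, ?_⟩
      left_inv := fun p => rfl
      right_inv := fun p => rfl }
  · rw [Finset.mem_filter, Finset.mem_Icc]
    exact ⟨⟨p.1.2.one_le, Nat.le_floor p.2.1⟩, p.1.2, p.2.2⟩
  · have h := Finset.mem_filter.1 p.2
    rw [Finset.mem_Icc] at h
    refine ⟨?_, h.2.2⟩
    exact (Nat.le_floor_iff' (Nat.pos_iff_ne_zero.1 h.1.1)).1 h.1.2

/-- **The prime number theorem in arithmetic progressions**:
`#{p ≤ x : p ≡ a mod q} ~ x / (φ(q) log x)`. -/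
theorem prime_number_theorem_ap (ha : IsUnit a) :
    Tendsto (fun x : ℝ => (((Finset.Icc 1 ⌊x⌋₊).filter
      fun p : ℕ => p.Prime ∧ (p : ZMod q) = a).card : ℝ) * Real.log x / x) atTop
      (𝓝 (q.totient : ℝ)⁻¹) :=
  (prime_number_theorem_ap' ha).congr fun x => by rw [card_primes_ap]

/-- the same for natural numbers `x` -/
theorem prime_number_theorem_ap_nat (ha : IsUnit a) :
    Tendsto (fun x : ℕ => (((Finset.Icc 1 x).filter
      fun p : ℕ => p.Prime ∧ (p : ZMod q) = a).card : ℝ) * Real.log x / x) atTop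
      (𝓝 (q.totient : ℝ)⁻¹) :=
  ((prime_number_theorem_ap ha).comp tendsto_natCast_atTop_atTop).congr fun x => by
    simp only [Function.comp_apply, Nat.floor_natCast]

end AP

/-! ### `q = 1` -/

/-- **The prime number theorem** (real `x`). -/
theorem prime_number_theorem_real :
    Tendsto (fun x : ℝ => (Nat.primeCounting ⌊x⌋₊ : ℝ) * Real.log x / x) atTop (𝓝 1) := by
  have h := prime_number_theorem_ap (q := 1) (a := 1) isUnit_one
  rw [Nat.totient_one, Nat.cast_one, inv_one] at h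
  refine h.congr fun x => ?_
  congr 3
  rw [Nat.primeCounting, Nat.primeCounting', Nat.count_eq_card_filter_range]
  congr 1
  ext p
  simp only [Finset.mem_filter, Finset.mem_Icc, Finset.mem_range, Subsingleton.elim (p : ZMod 1) 1,
    and_true]
  refine ⟨fun h => ⟨by omega, h.2⟩, fun h => ⟨⟨h.2.one_le, by omega⟩, h.2⟩⟩

/-- **The prime number theorem**: `π(x) log x / x → 1`. -/
theorem prime_number_theorem :
    Tendsto (fun x : ℕ => (Nat.primeCounting x : ℝ) * Real.log x / x) atTop (𝓝 1) :=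
  (prime_number_theorem_real.comp tendsto_natCast_atTop_atTop).congr fun x => by
    simp only [Function.comp_apply, Nat.floor_natCast]

/-- **The prime number theorem**: `π(x) ~ x / log x`. -/
theorem primeCounting_isEquivalent :
    Asymptotics.IsEquivalent atTop (fun x : ℝ => (Nat.primeCounting ⌊x⌋₊ : ℝ))
      (fun x : ℝ => x / Real.log x) := by
  refine (Asymptotics.isEquivalent_iff_tendsto_one ?_).2 ?_
  · filter_upwards [eventually_gt_atTop (1 : ℝ)] with x hx
    exact div_ne_zero (by positivity) (Real.log_pos hx).ne'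
  · refine prime_number_theorem_real.congr fun x => ?_
    simp only [Pi.div_apply]
    rw [div_div_eq_mul_div]

/-- **`ψ(x) ~ x`.** -/
theorem tendsto_psi_div : Tendsto (fun x : ℝ => Chebyshev.psi x / x) atTop (𝓝 1) := by
  have h := tendsto_psi_ap (q := 1) (a := 1) isUnit_one
  rw [Nat.totient_one, Nat.cast_one, inv_one] at h
  refine h.congr fun x => ?_
  congr 1
  rw [Chebyshev.psi]
  refine Finset.sum_congr (by ext; simp [Nat.succ_le_iff]) fun n _ => ?_
  exact Set.indicator_of_mem (show n ∈ {n : ℕ | (n : ZMod 1) = 1} from Subsingleton.elim _ _) _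

/-- **`θ(x) ~ x`.** -/
theorem tendsto_theta_div : Tendsto (fun x : ℝ => Chebyshev.theta x / x) atTop (𝓝 1) := by
  have h1 : Tendsto (fun x : ℝ => (Chebyshev.psi x - Chebyshev.theta x) / x) atTop (𝓝 0) := by
    have h2 : (fun x : ℝ => Chebyshev.psi x - Chebyshev.theta x) =o[atTop] (fun x : ℝ => x) :=
      Chebyshev.isBigO_psi_sub_theta_sqrt.trans_isLittleO (by
        refine Asymptotics.isLittleO_of_tendsto' ?_ ?_
        · filter_upwards [eventually_gt_atTop (0 : ℝ)] with x hx h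
          exact absurd h hx.ne'
        · refine (tendsto_inv_atTop_zero.comp Real.tendsto_sqrt_atTop).congr fun x => ?_
          rw [Function.comp_apply, Real.sqrt_div_self', one_div])
    exact h2.tendsto_div_nhds_zero
  have h2 := tendsto_psi_div.sub h1
  rw [sub_zero] at h2
  refine h2.congr fun x => ?_
  rw [← sub_div]
  congr 1
  ring

end Fermat.Agent.Cor
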