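import Mathlib

/-!
# Non-vanishing on the line `Re s = 1`: the two abstract arguments

`ne_zero_of_three_four_one` is the argument of Mertens, `ne_zero_of_nonneg` the argument of Landau
in the form: an entire function with a non-negative Dirichlet series is positive on the real axis.
-/

set_option autoImplicit false

open Complex Filter Topology Asymptotics

namespace Fermat.Agent.Cor

/-- `3 + 4 cos θ + cos 2 θ ≥ 0`: if `|Z (1+x)^3 X(1+x+it)^4 Y(1+x+2it)| ≥ 1` for all `x > 0`, `Z` has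
at most a simple pole at `1`, `X` is differentiable at `1 + it` and `Y` is continuous at `1 + 2it`,
then `X (1 + it) ≠ 0`. -/
theorem ne_zero_of_three_four_one {Z X Y : ℂ → ℂ} {t : ℝ}
    (hZ : (fun x : ℝ => Z (1 + x)) =O[𝓝[>] 0] fun x : ℝ => (1 : ℂ) / x)
    (hX : DifferentiableAt ℂ X (1 + I * t)) (hY : ContinuousAt Y (1 + 2 * I * t))
    (h : ∀ x : ℝ, 0 < x →
      1 ≤ ‖Z (1 + x) ^ 3 * X (1 + x + I * t) ^ 4 * Y (1 + x + 2 * I * t)‖) :
    X (1 + I * t) ≠ 0 := by
  intro Hz
  have hXO : (fun x : ℝ => X (1 + x + I * t)) =O[𝓝[>] 0] fun x : ℝ => (x : ℂ) := by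
    simp_rw [add_comm (1 : ℂ), add_assoc]
    have := hX.hasDerivAt
    rw [← zero_add (1 + _)] at this
    simpa only [zero_add, Hz, sub_zero]
      using (Complex.isBigO_comp_ofReal_nhds
        (this.comp_add_const 0 _).differentiableAt.isBigO_sub) |>.mono nhdsWithin_le_nhds
  have hYO : (fun x : ℝ => Y (1 + x + 2 * I * t)) =O[𝓝[>] 0] fun _ => (1 : ℂ) := by
    refine IsBigO.mono ?_ nhdsWithin_le_nhds
    simp_rw [add_comm (1 : ℂ), add_assoc]
    have hY' := hY
    rw [← zero_add (1 + _)] at hY'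
    exact hY'.comp (f := fun x : ℝ ↦ (x : ℂ) + (1 + 2 * I * t)) (x := 0)
      (by fun_prop) |>.tendsto.isBigO_one ℂ
  have help (x : ℝ) : ((1 / x) ^ 3 * x ^ 4 * 1 : ℂ) = x := by
    rcases eq_or_ne x 0 with rfl | h
    · rw [ofReal_zero, zero_pow (by lia), mul_zero, mul_one]
    · rw [one_div, inv_pow, pow_succ _ 3, ← mul_assoc,
        inv_mul_cancel₀ <| pow_ne_zero 3 (ofReal_ne_zero.mpr h), one_mul, mul_one]
  have H₀ : (fun _ : ℝ ↦ (1 : ℝ)) =O[𝓝[>] 0]
      fun x ↦ Z (1 + x) ^ 3 * X (1 + x + I * t) ^ 4 * Y (1 + x + 2 * I * t) :=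
    IsBigO.of_bound' <| eventually_nhdsWithin_of_forall
      fun x hx ↦ (norm_one (α := ℝ)).symm ▸ h x hx
  have H := (hZ.pow 3 |>.mul (hXO.pow 4)).mul hYO
  simp only [help] at H
  replace H := (H₀.trans H).norm_right
  simp only [norm_real] at H
  exact isLittleO_irrefl (.of_forall (fun _ ↦ one_ne_zero)) <|
    H.of_norm_right.trans_isLittleO <| isLittleO_id_one.mono nhdsWithin_le_nhds

/-- Let `a ≥ 0`, `a 1 > 0`, and let `W(s) L(s) / (s - 1)` be the Dirichlet series of `a` for `Re s`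
large, with `W`, `L` entire. If `W L` vanishes at some real point `y ≠ 1`, then `L 1 ≠ 0`. -/
theorem ne_zero_of_nonneg {a : ℕ → ℂ} (ha₀ : ∀ n, 0 ≤ (a n).re ∧ (a n).im = 0)
    (ha₁ : 0 < (a 1).re) {W L : ℂ → ℂ} (hW : Differentiable ℂ W) (hL : Differentiable ℂ L)
    {x : ℝ} (hx : LSeries.abscissaOfAbsConv a ≤ x) (hx1 : 1 ≤ x)
    (h : ∀ s : ℂ, x < s.re → W s * L s = (s - 1) * LSeries a s) {y : ℝ} (hy1 : y ≠ 1)
    (hy : W y * L y = 0) : L 1 ≠ 0 := by
  intro H
  open scoped ComplexOrder in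
  have h0 : (0 : ℕ → ℂ) ≤ a := fun n => by
    rw [Pi.zero_apply, Complex.le_def]
    exact ⟨by simpa using (ha₀ n).1, by simpa using (ha₀ n).2.symm⟩
  open scoped ComplexOrder in
  have h1 : (0 : ℂ) < a 1 := by
    rw [Complex.lt_def]
    exact ⟨by simpa using ha₁, by simpa using (ha₀ 1).2.symm⟩
  have hd : Differentiable ℂ (dslope L 1) := by
    rw [← differentiableOn_univ]
    exact (Complex.differentiableOn_dslope univ_mem).2 (differentiableOn_univ.2 hL)
  have hG : Differentiable ℂ fun s => W s * dslope L 1 s := hW.mul hd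
  have hval : ∀ s : ℂ, s ≠ 1 → W s * dslope L 1 s = W s * L s / (s - 1) := by
    intro s hs
    rw [dslope_of_ne _ hs, slope_def_field, H, sub_zero]
    ring
  have hE : Set.EqOn (fun s => W s * dslope L 1 s) (LSeries a) {s : ℂ | x < s.re} := by
    intro s hs
    have hs' : x < s.re := hs
    have hs1 : s ≠ 1 := by
      rintro rfl
      rw [one_re] at hs'
      exact absurd hs' (not_lt.2 hx1)
    change W s * dslope L 1 s = LSeries a s
    rw [hval s hs1, h s hs', mul_div_cancel_left₀ _ (sub_ne_zero.2 hs1)]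
  have hpos := LSeries.positive_of_differentiable_of_eqOn h0 h1 hG hx hE y
  have hy1' : (y : ℂ) ≠ 1 := by exact_mod_cast hy1
  rw [hval _ hy1', hy, zero_div] at hpos
  exact lt_irrefl _ hpos

end Fermat.Agent.Cor
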