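import Mathlib
import Fermat.Agent.ClassL.IdealSum

/-!
# Real class group characters: positivity of the coefficients of `ζ_K L_χ`

For a character `χ` of the class group with values `1` and `-1`, the divisor sums
`∑_{J ∣ I} χ(J)` are non-negative, and they are the building blocks of the Dirichlet
convolution `a_1 ⍟ a_χ`, where `a_χ(n)` is the sum of `χ` over the ideals of norm `n`.
-/

open scoped LSeries.notation nonZeroDivisors ComplexOrder

namespace Fermat.Agent.Cor.RealCh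

/-! ## Divisor sums in a factorial monoid with trivial units -/

section Abstract

variable {M : Type*} [CommMonoidWithZero M] [Nontrivial M] [UniqueFactorizationMonoid M]
  [Subsingleton Mˣ]

omit [Nontrivial M] in
theorem finite_dvd {x : M} (hx : x ≠ 0) : {d : M | d ∣ x}.Finite := by
  have : Fintype Mˣ := Fintype.ofSubsingleton 1
  rw [← Set.finite_coe_iff, Set.coe_ofPred]
  have h_fin := UniqueFactorizationMonoid.fintypeSubtypeDvd x hx
  exact Finite.of_fintype _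

open Classical in
/-- The finite set of divisors of a non-zero element (empty at `0`). -/
noncomputable def dvs (x : M) : Finset M :=
  if hx : x = 0 then ∅ else (finite_dvd hx).toFinset

omit [Nontrivial M] in
theorem mem_dvs {x d : M} (hx : x ≠ 0) : d ∈ dvs x ↔ d ∣ x := by
  classical
  unfold dvs
  rw [dif_neg hx]
  simp

/-- The divisor sum of a function. -/
noncomputable def dsum (g : M → ℂ) (x : M) : ℂ := ∑ d ∈ dvs x, g d

omit [Nontrivial M] in
theorem dsum_zero (g : M → ℂ) : dsum g (0 : M) = 0 := by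
  classical
  simp [dsum, dvs]

omit [Nontrivial M] in
theorem eq_of_dvd_dvd {a b : M} (hab : a ∣ b) (hba : b ∣ a) : a = b :=
  associated_iff_eq.1 (associated_of_dvd_dvd hab hba)

theorem dvs_one : dvs (1 : M) = {1} := by
  ext d
  rw [mem_dvs one_ne_zero, Finset.mem_singleton]
  constructor
  · intro hd
    exact eq_of_dvd_dvd hd (one_dvd d)
  · rintro rfl
    exact dvd_rfl

theorem dsum_one (g : M →*₀ ℂ) : dsum g (1 : M) = 1 := by
  unfold dsum
  rw [dvs_one, Finset.sum_singleton, map_one]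

omit [Nontrivial M] in
theorem dsum_mul (g : M →*₀ ℂ) {x y : M} (hx : x ≠ 0) (hy : y ≠ 0) (h : IsRelPrime x y) :
    dsum g (x * y) = dsum g x * dsum g y := by
  classical
  have hxy : x * y ≠ 0 := mul_ne_zero hx hy
  unfold dsum
  rw [Finset.sum_mul_sum, ← Finset.sum_product']
  symm
  refine Finset.sum_bij (fun p _ => p.1 * p.2) ?_ ?_ ?_ ?_
  · rintro ⟨a, b⟩ hab
    rw [Finset.mem_product, mem_dvs hx, mem_dvs hy] at hab
    rw [mem_dvs hxy]
    exact mul_dvd_mul hab.1 hab.2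
  · rintro ⟨a, b⟩ hab ⟨c, d⟩ hcd (heq : a * b = c * d)
    rw [Finset.mem_product, mem_dvs hx, mem_dvs hy] at hab hcd
    obtain ⟨ha, hb⟩ := hab
    obtain ⟨hc, hd⟩ := hcd
    simp only at ha hb hc hd
    have had : IsRelPrime a d := (h.of_dvd_left ha).of_dvd_right hd
    have hcb : IsRelPrime c b := (h.of_dvd_left hc).of_dvd_right hb
    have h1 : a ∣ c := had.dvd_of_dvd_mul_right (heq ▸ dvd_mul_right a b)
    have h2 : c ∣ a := hcb.dvd_of_dvd_mul_right (heq ▸ dvd_mul_right c d)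
    have hac : a = c := eq_of_dvd_dvd h1 h2
    have ha0 : a ≠ 0 := ne_zero_of_dvd_ne_zero hx ha
    subst hac
    have hbd : b = d := mul_left_cancel₀ ha0 heq
    rw [hbd]
  · intro e he
    rw [mem_dvs hxy] at he
    obtain ⟨a, b, ha, hb, rfl⟩ := exists_dvd_and_dvd_of_dvd_mul he
    exact ⟨(a, b), by rw [Finset.mem_product, mem_dvs hx, mem_dvs hy]; exact ⟨ha, hb⟩, rfl⟩
  · rintro ⟨a, b⟩ _
    exact (map_mul g a b).symm

omit [Nontrivial M] in
theorem dsum_prime_pow (g : M →*₀ ℂ) {p : M} (hp : Prime p) (n : ℕ) :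
    dsum g (p ^ n) = ∑ k ∈ Finset.range (n + 1), g p ^ k := by
  classical
  have hpn : p ^ n ≠ 0 := pow_ne_zero _ hp.ne_zero
  unfold dsum
  symm
  refine Finset.sum_bij (fun k _ => p ^ k) ?_ ?_ ?_ ?_
  · intro k hk
    rw [mem_dvs hpn]
    exact pow_dvd_pow p (Nat.lt_succ_iff.1 (Finset.mem_range.1 hk))
  · intro k _ l _ hkl
    exact (pow_inj_of_not_isUnit hp.not_isUnit hp.ne_zero).1 hkl
  · intro e he
    rw [mem_dvs hpn] at he
    obtain ⟨i, hi, hei⟩ := (dvd_prime_pow hp n).1 he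
    exact ⟨i, Finset.mem_range.2 (Nat.lt_succ_iff.2 hi), (associated_iff_eq.1 hei).symm⟩
  · intro k _
    exact (map_pow g p k).symm

theorem geom_nonneg {c : ℂ} (hc : c = 1 ∨ c = -1) (n : ℕ) :
    0 ≤ ∑ k ∈ Finset.range n, c ^ k := by
  rcases hc with rfl | rfl
  · simp
  · rcases Nat.even_or_odd n with hn | hn
    · rw [neg_one_geom_sum, if_pos hn]
    · rw [neg_one_geom_sum, if_neg (Nat.not_even_iff_odd.2 hn)]
      exact zero_le_one

/-- Divisor sums of a completely multiplicative function with values `1` and `-1` are `≥ 0`. -/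
theorem dsum_nonneg (g : M →*₀ ℂ) (hg : ∀ x, x ≠ 0 → g x = 1 ∨ g x = -1) (x : M) :
    0 ≤ dsum g x := by
  refine UniqueFactorizationMonoid.induction_on_coprime (P := fun x => 0 ≤ dsum g x) x ?_ ?_ ?_ ?_
  · simp only [dsum_zero]
    exact le_rfl
  · intro x hx
    have hx1 : x = 1 := by
      obtain ⟨u, rfl⟩ := hx
      rw [Subsingleton.elim u 1]
      rfl
    rw [hx1, dsum_one]
    exact zero_le_one
  · intro p i hp
    rw [dsum_prime_pow g hp]
    exact geom_nonneg (hg p hp.ne_zero) _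
  · intro x y hxy hx hy
    by_cases hx0 : x = 0
    · rw [hx0, zero_mul, dsum_zero]
    · by_cases hy0 : y = 0
      · rw [hy0, mul_zero, dsum_zero]
      · rw [dsum_mul g hx0 hy0 hxy]
        exact mul_nonneg hx hy

end Abstract

/-! ## Ideals of given norm and the convolution -/

section Ideals

open NumberField

variable (K : Type*) [Field K] [NumberField K]

/-- The ideals of norm `n`. -/
noncomputable def idl (n : ℕ) : Finset (Ideal (𝓞 K)) :=
  (Ideal.finite_setOfPred_absNorm_eq n).toFinset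

variable {K}

theorem mem_idl {n : ℕ} {I : Ideal (𝓞 K)} : I ∈ idl K n ↔ Ideal.absNorm I = n := by
  simp [idl]

theorem ne_zero_of_mem_idl {n : ℕ} (hn : n ≠ 0) {I : Ideal (𝓞 K)} (hI : I ∈ idl K n) :
    I ≠ 0 := by
  rintro rfl
  rw [mem_idl] at hI
  simp only [Ideal.zero_eq_bot, Ideal.absNorm_bot] at hI
  exact hn hI.symm

theorem idl_one : idl K 1 = {1} := by
  ext I
  rw [mem_idl, Finset.mem_singleton, Ideal.absNorm_eq_one_iff, Ideal.one_eq_top]

/-- The Dirichlet coefficients of a function on ideals. -/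
noncomputable def aIdl (g : Ideal (𝓞 K) → ℂ) (n : ℕ) : ℂ := ∑ I ∈ idl K n, g I

theorem aIdl_one_fun (n : ℕ) :
    aIdl (fun _ : Ideal (𝓞 K) => (1 : ℂ)) n = Nat.card {I : Ideal (𝓞 K) // Ideal.absNorm I = n} := by
  unfold aIdl
  rw [Finset.sum_const, nsmul_eq_mul, mul_one]
  congr 1
  rw [← Nat.card_eq_finsetCard]
  exact Nat.card_congr (Equiv.subtypeEquivRight fun I => mem_idl)

/-- **The Dirichlet convolution of `1` and `g` is the sum of the divisor sums.** -/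
theorem convolution_aIdl (g : Ideal (𝓞 K) → ℂ) {n : ℕ} (hn : n ≠ 0) :
    (aIdl (fun _ : Ideal (𝓞 K) => (1 : ℂ)) ⍟ aIdl g) n = ∑ I ∈ idl K n, dsum g I := by
  classical
  rw [LSeries.convolution_def]
  simp only [aIdl, dsum]
  have h1 : ∀ p : ℕ × ℕ, (∑ _I ∈ idl K p.1, (1 : ℂ)) * ∑ I ∈ idl K p.2, g I =
      ∑ q ∈ idl K p.1 ×ˢ idl K p.2, g q.2 := by
    intro p
    rw [Finset.sum_mul_sum, ← Finset.sum_product']
    simp
  simp only [h1]
  rw [Finset.sum_sigma', Finset.sum_sigma']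
  refine Finset.sum_bij (fun q _ => ⟨q.2.1 * q.2.2, q.2.2⟩) ?_ ?_ ?_ ?_
  · rintro ⟨⟨k, l⟩, ⟨A, B⟩⟩ hq
    simp only [Finset.mem_sigma, Nat.mem_divisorsAntidiagonal, Finset.mem_product, mem_idl] at hq ⊢
    obtain ⟨⟨hkl, -⟩, hA, hB⟩ := hq
    have hAB : Ideal.absNorm (A * B) = n := by rw [map_mul, hA, hB, hkl]
    refine ⟨hAB, ?_⟩
    rw [mem_dvs (ne_zero_of_mem_idl hn (mem_idl.2 hAB))]
    exact dvd_mul_left B A
  · rintro ⟨⟨k, l⟩, ⟨A, B⟩⟩ hq ⟨⟨k', l'⟩, ⟨A', B'⟩⟩ hq' heq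
    simp only [Finset.mem_sigma, Nat.mem_divisorsAntidiagonal, Finset.mem_product, mem_idl] at hq hq'
    obtain ⟨⟨hkl, -⟩, hA, hB⟩ := hq
    obtain ⟨⟨hkl', -⟩, hA', hB'⟩ := hq'
    simp only [Sigma.mk.injEq, heq_eq_eq] at heq
    obtain ⟨h2, rfl⟩ := heq
    have hB0 : B ≠ 0 := by
      rintro rfl
      simp only [Ideal.zero_eq_bot, Ideal.absNorm_bot] at hB
      rw [← hB, mul_zero] at hkl
      exact hn hkl.symm
    have h3 : A = A' := mul_right_cancel₀ hB0 h2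
    subst h3
    subst hA hB hA' hB'
    rfl
  · rintro ⟨I, J⟩ hIJ
    simp only [Finset.mem_sigma, mem_idl] at hIJ
    obtain ⟨hI, hJ⟩ := hIJ
    rw [mem_dvs (ne_zero_of_mem_idl hn (mem_idl.2 hI))] at hJ
    obtain ⟨A, rfl⟩ := hJ
    refine ⟨⟨(Ideal.absNorm A, Ideal.absNorm J), (A, J)⟩, ?_, ?_⟩
    · simp only [Finset.mem_sigma, Nat.mem_divisorsAntidiagonal, Finset.mem_product, mem_idl]
      refine ⟨⟨?_, hn⟩, trivial, trivial⟩
      rw [← hI, map_mul, mul_comm]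
    · simp only [Sigma.mk.injEq, heq_eq_eq, and_true]
      exact mul_comm _ _
  · rintro ⟨⟨k, l⟩, ⟨A, B⟩⟩ _
    rfl

open Classical in
/-- A character of the class group as a completely multiplicative function on ideals. -/
noncomputable def chI (χ : ClassGroup (𝓞 K) →* ℂˣ) : Ideal (𝓞 K) →*₀ ℂ where
  toFun I := if h : I = 0 then 0 else (χ (ClassGroup.mk0 ⟨I, mem_nonZeroDivisors_of_ne_zero h⟩) : ℂ)
  map_zero' := by simp
  map_one' := by
    rw [dif_neg one_ne_zero]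
    have : (⟨1, mem_nonZeroDivisors_of_ne_zero one_ne_zero⟩ : (Ideal (𝓞 K))⁰) = 1 := rfl
    rw [this, map_one, map_one, Units.val_one]
  map_mul' I J := by
    by_cases hI : I = 0
    · simp [hI]
    · by_cases hJ : J = 0
      · simp [hJ]
      · rw [dif_neg hI, dif_neg hJ, dif_neg (mul_ne_zero hI hJ)]
        have : (⟨I * J, mem_nonZeroDivisors_of_ne_zero (mul_ne_zero hI hJ)⟩ : (Ideal (𝓞 K))⁰) =
          ⟨I, mem_nonZeroDivisors_of_ne_zero hI⟩ * ⟨J, mem_nonZeroDivisors_of_ne_zero hJ⟩ := rfl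
        rw [this, map_mul, map_mul, Units.val_mul]

theorem chI_coe (χ : ClassGroup (𝓞 K) →* ℂˣ) (I : (Ideal (𝓞 K))⁰) :
    chI χ (I : Ideal (𝓞 K)) = (χ (ClassGroup.mk0 I) : ℂ) := by
  have h : (I : Ideal (𝓞 K)) ≠ 0 := nonZeroDivisors.coe_ne_zero I
  change (if h : (I : Ideal (𝓞 K)) = 0 then (0 : ℂ) else _) = _
  rw [dif_neg h]

theorem chI_pm {χ : ClassGroup (𝓞 K) →* ℂˣ} (hχ : χ ^ 2 = 1) (I : Ideal (𝓞 K)) (hI : I ≠ 0) :
    chI χ I = 1 ∨ chI χ I = -1 := by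
  have h1 : chI χ I = (χ (ClassGroup.mk0 ⟨I, mem_nonZeroDivisors_of_ne_zero hI⟩) : ℂ) :=
    chI_coe χ ⟨I, mem_nonZeroDivisors_of_ne_zero hI⟩
  have h2 : (χ ^ 2) (ClassGroup.mk0 ⟨I, mem_nonZeroDivisors_of_ne_zero hI⟩) = 1 := by
    rw [hχ]
    rfl
  rw [MonoidHom.pow_apply] at h2
  have h3 : (chI χ I) ^ 2 = 1 := by
    rw [h1, ← Units.val_pow_eq_pow_val, h2, Units.val_one]
  exact sq_eq_one_iff.1 h3

/-- The coefficients of `ζ_K(s) L(s, χ)` for a real character `χ` are non-negative. -/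
theorem convolution_nonneg {χ : ClassGroup (𝓞 K) →* ℂˣ} (hχ : χ ^ 2 = 1) :
    0 ≤ aIdl (fun _ : Ideal (𝓞 K) => (1 : ℂ)) ⍟ aIdl (chI χ) := by
  intro n
  by_cases hn : n = 0
  · rw [hn, LSeries.convolution_map_zero]
    exact le_rfl
  · rw [convolution_aIdl _ hn]
    exact Finset.sum_nonneg fun I _ => dsum_nonneg (chI χ) (chI_pm hχ) I

/-- The first coefficient of `ζ_K(s) L(s, χ)` is `1`. -/
theorem convolution_apply_one (χ : ClassGroup (𝓞 K) →* ℂˣ) :
    (aIdl (fun _ : Ideal (𝓞 K) => (1 : ℂ)) ⍟ aIdl (chI χ)) 1 = 1 := by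
  rw [convolution_aIdl _ one_ne_zero, idl_one, Finset.sum_singleton, dsum_one]

/-! ### The Dirichlet series -/

theorem term_aIdl (g : Ideal (𝓞 K) → ℂ) (s : ℂ) (n : ℕ) :
    LSeries.term (aIdl g) s n =
      ∑' I : (fun I : (Ideal (𝓞 K))⁰ => Ideal.absNorm (I : Ideal (𝓞 K))) ⁻¹' {n},
        g (I.1 : Ideal (𝓞 K)) * (Ideal.absNorm (I.1 : Ideal (𝓞 K)) : ℂ) ^ (-s) := by
  classical
  by_cases hn : n = 0
  · subst hn
    rw [LSeries.term_zero]
    have : IsEmpty ((fun I : (Ideal (𝓞 K))⁰ => Ideal.absNorm (I : Ideal (𝓞 K))) ⁻¹' {0}) :=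
      ⟨fun I => Ideal.absNorm_ne_zero_of_nonZeroDivisors I.1 I.2⟩
    rw [tsum_empty]
  · rw [LSeries.term_of_ne_zero hn]
    have hmem : ∀ I : idl K n, (I.1 : Ideal (𝓞 K)) ∈ (Ideal (𝓞 K))⁰ := fun I =>
      mem_nonZeroDivisors_of_ne_zero (ne_zero_of_mem_idl hn I.2)
    let e : (fun I : (Ideal (𝓞 K))⁰ => Ideal.absNorm (I : Ideal (𝓞 K))) ⁻¹' {n} ≃ idl K n :=
      { toFun := fun I => ⟨I.1.1, mem_idl.2 I.2⟩
        invFun := fun I => ⟨⟨I.1, hmem I⟩, mem_idl.1 I.2⟩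
        left_inv := fun I => rfl
        right_inv := fun I => rfl }
    rw [← e.symm.tsum_eq, tsum_fintype]
    simp only [aIdl, div_eq_mul_inv, Finset.sum_mul]
    rw [← Finset.sum_coe_sort (idl K n)]
    refine Finset.sum_congr rfl fun I _ => ?_
    have h1 : Ideal.absNorm ((e.symm I).1 : Ideal (𝓞 K)) = n := mem_idl.1 I.2
    rw [h1, Complex.cpow_neg]
    rfl

/-- The Dirichlet series of a function on ideals. -/
theorem lseriesHasSum_aIdl {g : Ideal (𝓞 K) → ℂ} {s : ℂ}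
    (hg : Summable fun I : (Ideal (𝓞 K))⁰ =>
      g (I : Ideal (𝓞 K)) * (Ideal.absNorm (I : Ideal (𝓞 K)) : ℂ) ^ (-s)) :
    LSeriesHasSum (aIdl g) s (∑' I : (Ideal (𝓞 K))⁰,
      g (I : Ideal (𝓞 K)) * (Ideal.absNorm (I : Ideal (𝓞 K)) : ℂ) ^ (-s)) := by
  have h := hg.hasSum.tsum_fiberwise fun I : (Ideal (𝓞 K))⁰ => Ideal.absNorm (I : Ideal (𝓞 K))
  unfold LSeriesHasSum
  rw [funext (term_aIdl g s)]
  exact h

theorem summable_chI (χ : ClassGroup (𝓞 K) →* ℂˣ) {s : ℂ} (hs : 1 < s.re) :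
    Summable fun I : (Ideal (𝓞 K))⁰ =>
      (χ (ClassGroup.mk0 I) : ℂ) * (Ideal.absNorm (I : Ideal (𝓞 K)) : ℂ) ^ (-s) := by
  refine Summable.of_norm_bounded (g := fun I => ClassL.nrm s.re I) (ClassL.summable_nrm hs)
    fun I => ?_
  have h : (χ (ClassGroup.mk0 I) : ℂ) ^ Fintype.card (ClassGroup (𝓞 K)) = 1 := by
    rw [← Units.val_pow_eq_pow_val, ← map_pow, pow_card_eq_one, map_one, Units.val_one]
  rw [norm_mul, Complex.norm_eq_one_of_pow_eq_one h Fintype.card_ne_zero, one_mul,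
    Complex.norm_natCast_cpow_of_pos (Ideal.absNorm_pos_of_nonZeroDivisors I), Complex.neg_re]
  exact le_rfl

/-- The Dirichlet series of a character of the class group. -/
theorem lseriesHasSum_chI (χ : ClassGroup (𝓞 K) →* ℂˣ) {s : ℂ} (hs : 1 < s.re) :
    LSeriesHasSum (aIdl (chI χ)) s (∑' I : (Ideal (𝓞 K))⁰,
      (χ (ClassGroup.mk0 I) : ℂ) * (Ideal.absNorm (I : Ideal (𝓞 K)) : ℂ) ^ (-s)) := by
  have h1 := summable_chI χ hs
  simp only [← chI_coe] at h1 ⊢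
  exact lseriesHasSum_aIdl h1

theorem aIdl_congr {g g' : Ideal (𝓞 K) → ℂ} (h : ∀ I, I ≠ 0 → g I = g' I) {n : ℕ} (hn : n ≠ 0) :
    aIdl g n = aIdl g' n :=
  Finset.sum_congr rfl fun I hI => h I (ne_zero_of_mem_idl hn hI)

theorem chI_one_apply (I : Ideal (𝓞 K)) (hI : I ≠ 0) :
    chI (1 : ClassGroup (𝓞 K) →* ℂˣ) I = 1 := by
  rw [show chI (1 : ClassGroup (𝓞 K) →* ℂˣ) I = _ from
    chI_coe 1 ⟨I, mem_nonZeroDivisors_of_ne_zero hI⟩]
  rfl

theorem convolution_chI (χ : ClassGroup (𝓞 K) →* ℂˣ) :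
    aIdl (chI (1 : ClassGroup (𝓞 K) →* ℂˣ)) ⍟ aIdl (chI χ) =
      aIdl (fun _ : Ideal (𝓞 K) => (1 : ℂ)) ⍟ aIdl (chI χ) :=
  LSeries.convolution_congr (fun hn => aIdl_congr chI_one_apply hn) fun _ => rfl

/-- The Dirichlet series of `a_1 ⍟ a_χ` is `ζ_K(s) L(s, χ)` for `Re s > 1`. -/
theorem lseriesHasSum_convolution (χ : ClassGroup (𝓞 K) →* ℂˣ) {s : ℂ} (hs : 1 < s.re) :
    LSeriesHasSum (aIdl (fun _ : Ideal (𝓞 K) => (1 : ℂ)) ⍟ aIdl (chI χ)) s
      ((∑' I : (Ideal (𝓞 K))⁰, (Ideal.absNorm (I : Ideal (𝓞 K)) : ℂ) ^ (-s)) *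
      ∑' I : (Ideal (𝓞 K))⁰,
        (χ (ClassGroup.mk0 I) : ℂ) * (Ideal.absNorm (I : Ideal (𝓞 K)) : ℂ) ^ (-s)) := by
  rw [← convolution_chI]
  have h2 := lseriesHasSum_chI (K := K) 1 hs
  simp only [MonoidHom.one_apply, Units.val_one, one_mul] at h2
  exact h2.convolution (lseriesHasSum_chI χ hs)

theorem abscissa_convolution_le (χ : ClassGroup (𝓞 K) →* ℂˣ) :
    LSeries.abscissaOfAbsConv (aIdl (fun _ : Ideal (𝓞 K) => (1 : ℂ)) ⍟ aIdl (chI χ)) ≤ 1 := by
  refine LSeries.abscissaOfAbsConv_le_of_forall_lt_LSeriesSummable fun y hy => ?_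
  exact (lseriesHasSum_convolution χ (by simpa using hy)).LSeriesSummable

/-- **Positivity for real characters.** If `ζ_K(s) L(s, χ)` with `χ² = 1` extends to an entire
function, this function is positive on the real axis. -/
theorem pos_of_differentiable_of_real {χ : ClassGroup (𝓞 K) →* ℂˣ} (hχ : χ ^ 2 = 1) {F : ℂ → ℂ}
    (hF : Differentiable ℂ F)
    (h : ∀ s : ℂ, 1 < s.re → F s =
      (∑' I : (Ideal (𝓞 K))⁰, (Ideal.absNorm (I : Ideal (𝓞 K)) : ℂ) ^ (-s)) *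
      ∑' I : (Ideal (𝓞 K))⁰,
        (χ (ClassGroup.mk0 I) : ℂ) * (Ideal.absNorm (I : Ideal (𝓞 K)) : ℂ) ^ (-s)) (y : ℝ) :
    0 < F y := by
  refine LSeries.positive_of_differentiable_of_eqOn (convolution_nonneg hχ)
    (by rw [convolution_apply_one]; exact zero_lt_one) hF (x := 1)
    (abscissa_convolution_le χ) ?_ y
  intro s hs
  rw [h s hs]
  exact (lseriesHasSum_convolution χ hs).LSeries_eq.symm

end Ideals

end Fermat.Agent.Cor.RealCh
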