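import Fermat.Agent.Corollaries.ZetaK.ThreeFourLK
import Fermat.Agent.Corollaries.ZetaK.Real
import Fermat.Agent.Corollaries.ZetaK.NonVanAbs

/-!
# Non-vanishing of the class group L-functions on `Re s = 1`
-/

set_option autoImplicit false

noncomputable section

namespace Fermat.Agent.Cor

open NumberField NumberField.InfinitePlace Fermat.Agent.Classic.Zeta Filter Topology Asymptotics
open scoped nonZeroDivisors Classical

universe u

variable {K : Type u} [Field K] [NumberField K]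

/-- `(s - 1) L(s, f)` as an entire function -/
def WK (f : ClassGroup (𝓞 K) → ℂ) (s : ℂ) : ℂ :=
  -(((|(discr K : ℝ)| : ℝ) : ℂ) ^ (-s / 2) * gs K s * XiF f s)

theorem differentiable_WK (f : ClassGroup (𝓞 K) → ℂ) : Differentiable ℂ (WK f) :=
  ((differentiable_absDisc_cpow.mul differentiable_gs).mul (differentiable_XiF f)).neg

theorem WK_eq (f : ClassGroup (𝓞 K) → ℂ) {s : ℂ} (h1 : s ≠ 1) :
    WK f s = (s - 1) * LF f s := by
  have h2 : (1 : ℂ) - s ≠ 0 := sub_ne_zero.2 h1.symm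
  rw [LF_eq_gs f h1, WK]
  field_simp
  ring

theorem gi_neg_two : gi K (-2) = 0 := by
  have h := rank_add_one (K := K)
  have hR : Complex.Gammaℝ (-2) = 0 :=
    Complex.Gammaℝ_eq_zero_iff.2 ⟨1, by norm_num⟩
  have hC : Complex.Gammaℂ (-2) = 0 := by
    rw [Complex.Gammaℂ_def]
    have : Complex.Gamma (-2) = 0 := by
      have h3 := Complex.Gamma_neg_nat_eq_zero 2
      simpa using h3
    rw [this, mul_zero]
  rw [gi, gam, inv_eq_zero, hR, hC]
  rcases Nat.eq_zero_or_pos (nrRealPlaces K) with h0 | h0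
  · have h1 : nrComplexPlaces K ≠ 0 := by omega
    rw [zero_pow h1, mul_zero]
  · rw [zero_pow h0.ne', zero_mul]

theorem gs_neg_two : gs K (-2) = 0 := by
  rw [gs_eq (by norm_num), gi_neg_two, zero_div]

theorem WK_neg_two (f : ClassGroup (𝓞 K) → ℂ) : WK f (-2) = 0 := by
  rw [WK, gs_neg_two, mul_zero, zero_mul, neg_zero]

/-- at most a simple pole at `1` -/
theorem isBigO_LF (f : ClassGroup (𝓞 K) → ℂ) :
    (fun x : ℝ => LF f (1 + x)) =O[𝓝[>] 0] fun x : ℝ => (1 : ℂ) / x := by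
  have h1 : (fun x : ℝ => WK f (1 + x)) =O[𝓝[>] 0] fun _ : ℝ => (1 : ℂ) := by
    refine IsBigO.mono ?_ nhdsWithin_le_nhds
    have hc : ContinuousAt (fun x : ℝ => WK f (1 + x)) 0 := by
      have := (differentiable_WK f).continuous
      exact (this.comp (by fun_prop : Continuous fun x : ℝ => (1 : ℂ) + x)).continuousAt
    exact hc.tendsto.isBigO_one ℂ
  have h2 := h1.mul (isBigO_refl (fun x : ℝ => (1 : ℂ) / x) (𝓝[>] 0))
  refine (h2.congr' ?_ ?_)
  · filter_upwards [self_mem_nhdsWithin] with x hx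
    have hx' : (x : ℂ) ≠ 0 := by
      have : x ≠ 0 := ne_of_gt hx
      exact_mod_cast this
    have h3 : (1 : ℂ) + x ≠ 1 := by
      intro h
      exact hx' (by linear_combination h)
    rw [WK_eq f h3, add_sub_cancel_left, mul_assoc, mul_comm, mul_assoc, one_div,
      inv_mul_cancel₀ hx', mul_one]
  · filter_upwards with x
    rw [one_mul]

theorem sum_char_eq_zero {χ : ClassGroup (𝓞 K) →* ℂˣ} (hχ : χ ≠ 1) :
    ∑ C : ClassGroup (𝓞 K), ((χ C : ℂˣ) : ℂ) = 0 := by
  have h : (Units.coeHom ℂ).comp χ ≠ 1 := by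
    intro h
    refine hχ (MonoidHom.ext fun C => Units.ext ?_)
    have := DFunLike.congr_fun h C
    simpa using this
  simpa using sum_hom_units_eq_zero _ h

theorem differentiable_LK {χ : ClassGroup (𝓞 K) →* ℂˣ} (hχ : χ ≠ 1) : Differentiable ℂ (LK χ) :=
  differentiable_LF (sum_char_eq_zero hχ)

theorem differentiableAt_LK (χ : ClassGroup (𝓞 K) →* ℂˣ) {s : ℂ} (h : s ≠ 1 ∨ χ ≠ 1) :
    DifferentiableAt ℂ (LK χ) s := by
  rcases h with h | h
  · exact differentiableAt_LF _ h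
  · exact differentiable_LK h s

/-- `L(s, χ)` on `Re s = 1`, from the inequality `3-4-1` and the real case at `s = 1`. -/
theorem LK_ne_zero_aux (χ : ClassGroup (𝓞 K) →* ℂˣ)
    (hreal : χ ^ 2 = 1 → χ ≠ 1 → LK χ 1 ≠ 0) {s : ℂ} (hs : s.re = 1) (h : s ≠ 1 ∨ χ ≠ 1) :
    LK χ s ≠ 0 := by
  by_cases h2 : χ ^ 2 = 1 ∧ s = 1
  · obtain ⟨h2, rfl⟩ := h2
    exact hreal h2 (h.resolve_left fun h' => h' rfl)
  · have hs' : s = 1 + Complex.I * s.im := by
      conv_lhs => rw [← Complex.re_add_im s, hs, Complex.ofReal_one, mul_comm]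
    rw [hs']
    refine ne_zero_of_three_four_one (Y := LK (χ ^ 2)) (isBigO_LF (K := K) fun _ => 1) ?_ ?_
      fun x hx => ?_
    · rw [← hs']
      exact differentiableAt_LK χ h
    · refine (differentiableAt_LK (χ ^ 2) ?_).continuousAt
      rcases not_and_or.1 h2 with h3 | h3
      · exact Or.inr h3
      · left
        intro h4
        apply h3
        have h5 : s.im = 0 := by
          have := congrArg Complex.im h4
          simpa using this
        rw [hs', h5]
        simp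
    · have h6 := one_le_norm_LK χ (σ := 1 + x) (by linarith) s.im
      rw [Complex.ofReal_add, Complex.ofReal_one] at h6
      rw [mul_comm Complex.I, mul_assoc 2, mul_comm Complex.I, ← mul_assoc]
      exact h6

/-- the real case: `ζ_K(s) L(s, χ)` has a Dirichlet series with non-negative coefficients -/
theorem LK_one_ne_zero_aux {χ : ClassGroup (𝓞 K) →* ℂˣ} (hχ : χ ≠ 1) {a : ℕ → ℂ}
    (ha0 : ∀ n, 0 ≤ (a n).re ∧ (a n).im = 0) (ha1 : 0 < (a 1).re)
    (hx : LSeries.abscissaOfAbsConv a ≤ ((1 : ℝ) : EReal))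
    (h : ∀ s : ℂ, 1 < s.re → zetaK K s * LK χ s = LSeries a s) : LK χ 1 ≠ 0 := by
  refine ne_zero_of_nonneg (W := WK (K := K) fun _ => 1) (L := LK χ) ha0 ha1 (differentiable_WK _)
    (differentiable_LK hχ) hx le_rfl (fun s hs => ?_) (y := -2) (by norm_num) ?_
  · rw [WK_eq _ (ne_one_of_re hs), mul_assoc]
    exact congrArg _ (h s hs)
  · push_cast
    rw [WK_neg_two, zero_mul]

/-- `L(1, χ) ≠ 0` for a real character of the class group -/
theorem LK_one_ne_zero_of_real {χ : ClassGroup (𝓞 K) →* ℂˣ} (h2 : χ ^ 2 = 1) (hχ : χ ≠ 1) :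
    LK χ 1 ≠ 0 := by
  refine LK_one_ne_zero_aux hχ (a := LSeries.convolution
    (RealCh.aIdl fun _ : Ideal (𝓞 K) => (1 : ℂ)) (RealCh.aIdl (RealCh.chI χ))) ?_ ?_ ?_ ?_
  · intro n
    have h := RealCh.convolution_nonneg h2 n
    rw [Pi.zero_apply, Complex.le_def] at h
    exact ⟨by simpa using h.1, by simpa using h.2.symm⟩
  · rw [RealCh.convolution_apply_one, Complex.one_re]
    exact one_pos
  · exact RealCh.abscissa_convolution_le χ
  · intro s hs
    rw [(RealCh.lseriesHasSum_convolution χ hs).LSeries_eq, zetaK_eq_tsum hs, LK_eq_tsum χ hs]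

/-- **Non-vanishing on the line `Re s = 1`** -/
theorem LK_ne_zero_of_re_eq_one (χ : ClassGroup (𝓞 K) →* ℂˣ) {s : ℂ} (hs : s.re = 1)
    (h : s ≠ 1 ∨ χ ≠ 1) : LK χ s ≠ 0 :=
  LK_ne_zero_aux χ LK_one_ne_zero_of_real hs h

/-- **Non-vanishing for `Re s ≥ 1`** of the L-function of a character of the class group. -/
theorem LK_ne_zero (χ : ClassGroup (𝓞 K) →* ℂˣ) {s : ℂ} (hs : 1 ≤ s.re) (h : s ≠ 1 ∨ χ ≠ 1) :
    LK χ s ≠ 0 := by
  rcases hs.eq_or_lt with h1 | h1
  · exact LK_ne_zero_of_re_eq_one χ h1.symm h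
  · exact LK_ne_zero_of_one_lt_re χ h1

/-- **The Dedekind zeta function has no zeros with `Re s ≥ 1`.** -/
theorem zetaK_ne_zero {s : ℂ} (hs : 1 ≤ s.re) (h : s ≠ 1) : zetaK K s ≠ 0 := by
  rw [← LK_one]
  exact LK_ne_zero 1 hs (Or.inl h)

/-- **`L(1, χ) ≠ 0`** for every non-trivial character of the class group. -/
theorem LK_one_ne_zero {χ : ClassGroup (𝓞 K) →* ℂˣ} (hχ : χ ≠ 1) : LK χ 1 ≠ 0 :=
  LK_ne_zero χ (by rw [Complex.one_re]) (Or.inr hχ)

end Fermat.Agent.Cor

end
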