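import Mathlib

/-!
# The inequality `3 + 4 cos θ + cos 2θ ≥ 0` for Euler products

Abstract form: products over any index set in the exponential-logarithmic form.
-/

set_option autoImplicit false

noncomputable section

open Complex

namespace Fermat.Agent.Cor

/-- The inequality for one Euler factor. -/
theorem threeFour_factor {a : ℝ} (ha₀ : 0 ≤ a) (ha₁ : a < 1) {z : ℂ} (hz : ‖z‖ = 1) :
    0 ≤ 3 * (-log (1 - a)).re + 4 * (-log (1 - a * z)).re + (-log (1 - a * z ^ 2)).re := by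
  have hac₀ : ‖(a : ℂ)‖ < 1 := by
    rw [Complex.norm_of_nonneg ha₀]
    exact ha₁
  have hac₁ : ‖a * z‖ < 1 := by rwa [norm_mul, hz, mul_one]
  have hac₂ : ‖a * z ^ 2‖ < 1 := by rwa [norm_mul, norm_pow, hz, one_pow, mul_one]
  rw [← ((hasSum_re <| hasSum_taylorSeries_neg_log hac₀).mul_left 3).add
    ((hasSum_re <| hasSum_taylorSeries_neg_log hac₁).mul_left 4) |>.add
    (hasSum_re <| hasSum_taylorSeries_neg_log hac₂) |>.tsum_eq]
  refine tsum_nonneg fun n ↦ ?_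
  simp only [← ofReal_pow, div_natCast_re, ofReal_re, mul_pow, mul_re, ofReal_im, zero_mul,
    sub_zero]
  rcases n.eq_zero_or_pos with rfl | hn
  · simp
  · simp only [← mul_div_assoc, ← add_div]
    refine div_nonneg ?_ n.cast_nonneg
    rw [← pow_mul, pow_mul', sq, mul_re, ← sq, ← sq, ← sq_norm_sub_sq_re, norm_pow, hz]
    have h1 : 3 * a ^ n + 4 * (a ^ n * (z ^ n).re) +
        a ^ n * ((z ^ n).re ^ 2 - ((1 ^ n) ^ 2 - (z ^ n).re ^ 2)) =
        2 * a ^ n * ((z ^ n).re + 1) ^ 2 := by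
      rw [one_pow]
      ring
    rw [h1]
    positivity

/-- **The inequality for products.** -/
theorem threeFour_prod {ι : Type*} {a : ι → ℝ} {z : ι → ℂ} (ha₀ : ∀ i, 0 ≤ a i)
    (ha₁ : ∀ i, a i < 1) (hz : ∀ i, ‖z i‖ = 1) (h₁ : Summable fun i => -log (1 - (a i : ℂ)))
    (h₂ : Summable fun i => -log (1 - a i * z i)) (h₃ : Summable fun i => -log (1 - a i * z i ^ 2)) :
    1 ≤ ‖exp (∑' i, -log (1 - (a i : ℂ))) ^ 3 * exp (∑' i, -log (1 - a i * z i)) ^ 4 *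
      exp (∑' i, -log (1 - a i * z i ^ 2))‖ := by
  rw [norm_mul, norm_mul, norm_pow, norm_pow, norm_exp, norm_exp, norm_exp, ← Real.exp_nat_mul,
    ← Real.exp_nat_mul, ← Real.exp_add, ← Real.exp_add, Real.one_le_exp_iff, re_tsum h₁,
    re_tsum h₂, re_tsum h₃, ← tsum_mul_left, ← tsum_mul_left,
    ← ((hasSum_re h₁.hasSum).summable.mul_left _).tsum_add
      ((hasSum_re h₂.hasSum).summable.mul_left _),
    ← (((hasSum_re h₁.hasSum).summable.mul_left _).add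
      ((hasSum_re h₂.hasSum).summable.mul_left _)).tsum_add (hasSum_re h₃.hasSum).summable]
  refine tsum_nonneg fun i => ?_
  have h4 := threeFour_factor (ha₀ i) (ha₁ i) (hz i)
  push_cast
  exact h4

/-- **The inequality for Euler products** with factors `1 - c_i n_i^{-s}`, `|c_i| = 1`. -/
theorem threeFour_euler {ι : Type*} {n : ι → ℕ} (hn : ∀ i, 2 ≤ n i) {c : ι → ℂ}
    (hc : ∀ i, ‖c i‖ = 1) {σ : ℝ} (hσ : 0 < σ) (t : ℝ)
    (h₁ : Summable fun i => -log (1 - (n i : ℂ) ^ (-(σ : ℂ))))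
    (h₂ : Summable fun i => -log (1 - c i * (n i : ℂ) ^ (-((σ : ℂ) + t * I))))
    (h₃ : Summable fun i => -log (1 - c i ^ 2 * (n i : ℂ) ^ (-((σ : ℂ) + 2 * t * I)))) :
    1 ≤ ‖exp (∑' i, -log (1 - (n i : ℂ) ^ (-(σ : ℂ)))) ^ 3 *
      exp (∑' i, -log (1 - c i * (n i : ℂ) ^ (-((σ : ℂ) + t * I)))) ^ 4 *
      exp (∑' i, -log (1 - c i ^ 2 * (n i : ℂ) ^ (-((σ : ℂ) + 2 * t * I))))‖ := by
  have hn0 : ∀ i, (n i : ℂ) ≠ 0 := fun i => by
    have := hn i
    exact_mod_cast (by omega : n i ≠ 0)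
  have hn0' : ∀ i, (0 : ℝ) < (n i : ℝ) := fun i => by
    have := hn i
    exact_mod_cast (by omega : 0 < n i)
  have e₁ : ∀ i, (((n i : ℝ) ^ (-σ) : ℝ) : ℂ) = (n i : ℂ) ^ (-(σ : ℂ)) := fun i => by
    rw [Complex.ofReal_cpow (hn0' i).le, ofReal_natCast, ofReal_neg]
  have e₂ : ∀ i, (n i : ℂ) ^ (-(σ : ℂ)) * (c i * (n i : ℂ) ^ (-(t * I))) =
      c i * (n i : ℂ) ^ (-((σ : ℂ) + t * I)) := fun i => by
    rw [neg_add, cpow_add _ _ (hn0 i)]
    ring
  have e₃ : ∀ i, (n i : ℂ) ^ (-(σ : ℂ)) * (c i * (n i : ℂ) ^ (-(t * I))) ^ 2 =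
      c i ^ 2 * (n i : ℂ) ^ (-((σ : ℂ) + 2 * t * I)) := fun i => by
    rw [neg_add, cpow_add _ _ (hn0 i), mul_pow, ← cpow_nat_mul]
    have h5 : ((2 : ℕ) : ℂ) * -(t * I) = -(2 * t * I) := by
      push_cast
      ring
    rw [h5]
    ring
  have key := threeFour_prod (a := fun i => (n i : ℝ) ^ (-σ))
    (z := fun i => c i * (n i : ℂ) ^ (-(t * I))) (fun i => Real.rpow_nonneg (hn0' i).le _)
    (fun i => Real.rpow_lt_one_of_one_lt_of_neg (by
      have := hn i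
      exact_mod_cast (by omega : 1 < n i)) (neg_lt_zero.mpr hσ)) (fun i => by
      rw [norm_mul, hc, one_mul, ← ofReal_natCast, norm_cpow_eq_rpow_re_of_pos (hn0' i)]
      simp)
  simp only [e₁, e₂, e₃] at key
  exact key h₁ h₂ h₃

end Fermat.Agent.Cor

end
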