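import Fermat.Agent.Corollaries.ZetaK.LEuler
import Fermat.Agent.Corollaries.ZetaK.ThreeFourAbs

/-!
# The inequality `3 + 4 cos θ + cos 2θ ≥ 0` for the L-functions of the class group (K7, (E))
-/

set_option autoImplicit false

noncomputable section

open NumberField Complex
open scoped nonZeroDivisors

namespace Fermat.Agent.Cor

variable {K : Type*} [Field K] [NumberField K]

/-- The norm of a prime ideal is at least two. -/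
theorem two_le_absNorm_prime (P : ClassL.Pr K) :
    2 ≤ Ideal.absNorm ((P.1 : (Ideal (𝓞 K))⁰) : Ideal (𝓞 K)) := by
  have h0 : Ideal.absNorm ((P.1 : (Ideal (𝓞 K))⁰) : Ideal (𝓞 K)) ≠ 0 :=
    Ideal.absNorm_ne_zero_of_nonZeroDivisors P.1
  have h1 : Ideal.absNorm ((P.1 : (Ideal (𝓞 K))⁰) : Ideal (𝓞 K)) ≠ 1 := fun h =>
    P.2.not_isUnit (Ideal.isUnit_iff.mpr (Ideal.absNorm_eq_one_iff.mp h))
  omega

/-- **The 3-4-1 inequality** in terms of the Euler products. -/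
theorem one_le_norm_exp (χ : ClassGroup (𝓞 K) →* ℂˣ) {σ : ℝ} (hσ : 1 < σ) (t : ℝ) :
    1 ≤ ‖exp (∑' P : ClassL.Pr K, -log (1 - chiHom (1 : ClassGroup (𝓞 K) →* ℂˣ) (σ : ℂ) P.1)) ^ 3 *
      exp (∑' P : ClassL.Pr K, -log (1 - chiHom χ ((σ : ℂ) + t * I) P.1)) ^ 4 *
      exp (∑' P : ClassL.Pr K, -log (1 - chiHom (χ ^ 2) ((σ : ℂ) + 2 * t * I) P.1))‖ := by
  have r1 : 1 < ((σ : ℂ)).re := by rwa [ofReal_re]
  have r2 : 1 < ((σ : ℂ) + t * I).re := by simpa using hσ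
  have r3 : 1 < ((σ : ℂ) + 2 * t * I).re := by
    have : ((σ : ℂ) + 2 * t * I).re = σ := by simp
    rwa [this]
  have h1 := summable_log_chi (1 : ClassGroup (𝓞 K) →* ℂˣ) r1
  have h2 := summable_log_chi χ r2
  have h3 := summable_log_chi (χ ^ 2) r3
  have e1 : ∀ P : ClassL.Pr K, chiHom (1 : ClassGroup (𝓞 K) →* ℂˣ) (σ : ℂ) P.1 =
      (Ideal.absNorm ((P.1 : (Ideal (𝓞 K))⁰) : Ideal (𝓞 K)) : ℂ) ^ (-(σ : ℂ)) := fun P => by
    rw [chiHom_apply, MonoidHom.one_apply, Units.val_one, one_mul]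
  have e3 : ∀ P : ClassL.Pr K, chiHom (χ ^ 2) ((σ : ℂ) + 2 * t * I) P.1 =
      ((χ (ClassGroup.mk0 P.1) : ℂˣ) : ℂ) ^ 2 *
      (Ideal.absNorm ((P.1 : (Ideal (𝓞 K))⁰) : Ideal (𝓞 K)) : ℂ) ^ (-((σ : ℂ) + 2 * t * I)) :=
    fun P => by
      rw [chiHom_apply, MonoidHom.pow_apply, Units.val_pow_eq_pow_val]
  simp only [e1] at h1 ⊢
  simp only [chiHom_apply] at h2
  simp only [e3] at h3 ⊢
  simp only [chiHom_apply]
  exact threeFour_euler (fun P => two_le_absNorm_prime P) (fun P => norm_chi χ _)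
    (zero_lt_one.trans hσ) t h1 h2 h3

/-- **The 3-4-1 inequality** for the L-functions of `1`, `χ` and `χ²`. -/
theorem one_le_norm_tsum (χ : ClassGroup (𝓞 K) →* ℂˣ) {σ : ℝ} (hσ : 1 < σ) (t : ℝ) :
    1 ≤ ‖(∑' J : (Ideal (𝓞 K))⁰, (((1 : ClassGroup (𝓞 K) →* ℂˣ) (ClassGroup.mk0 J) : ℂˣ) : ℂ) *
        (Ideal.absNorm (J : Ideal (𝓞 K)) : ℂ) ^ (-(σ : ℂ))) ^ 3 *
      (∑' J : (Ideal (𝓞 K))⁰, ((χ (ClassGroup.mk0 J) : ℂˣ) : ℂ) *
        (Ideal.absNorm (J : Ideal (𝓞 K)) : ℂ) ^ (-((σ : ℂ) + t * I))) ^ 4 *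
      ∑' J : (Ideal (𝓞 K))⁰, (((χ ^ 2) (ClassGroup.mk0 J) : ℂˣ) : ℂ) *
        (Ideal.absNorm (J : Ideal (𝓞 K)) : ℂ) ^ (-((σ : ℂ) + 2 * t * I))‖ := by
  have r1 : 1 < ((σ : ℂ)).re := by rwa [ofReal_re]
  have r2 : 1 < ((σ : ℂ) + t * I).re := by simpa using hσ
  have r3 : 1 < ((σ : ℂ) + 2 * t * I).re := by
    have : ((σ : ℂ) + 2 * t * I).re = σ := by simp
    rwa [this]
  rw [← exp_tsum_log_chi (1 : ClassGroup (𝓞 K) →* ℂˣ) r1, ← exp_tsum_log_chi χ r2,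
    ← exp_tsum_log_chi (χ ^ 2) r3]
  exact one_le_norm_exp χ hσ t

end Fermat.Agent.Cor

end
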