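import Fermat.Agent.Corollaries.ZetaK.LFun
import Fermat.Agent.Corollaries.ZetaK.ThreeFour

/-!
# The 3-4-1 inequality for `zetaK` and `LK` (K7, (E))
-/

set_option autoImplicit false

noncomputable section

open NumberField Complex Fermat.Agent.Classic.Zeta
open scoped nonZeroDivisors

namespace Fermat.Agent.Cor

universe u

variable {K : Type u} [Field K] [NumberField K]

/-- `LF f` as a sum over the ideals, for a character of the class group. -/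
theorem LK_eq_tsum (χ : ClassGroup (𝓞 K) →* ℂˣ) {s : ℂ} (hs : 1 < s.re) :
    LK χ s = ∑' J : (Ideal (𝓞 K))⁰, ((χ (ClassGroup.mk0 J) : ℂˣ) : ℂ) *
      (Ideal.absNorm (J : Ideal (𝓞 K)) : ℂ) ^ (-s) := by
  let e : (Σ C : ClassGroup (𝓞 K), {𝔞 : (Ideal (𝓞 K))⁰ // ClassGroup.mk0 𝔞 = C}) ≃
      (Ideal (𝓞 K))⁰ := Equiv.sigmaFiberEquiv (fun I : (Ideal (𝓞 K))⁰ => ClassGroup.mk0 I)
  have hsum : Summable fun c => ((χ (ClassGroup.mk0 (e c)) : ℂˣ) : ℂ) *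
      (Ideal.absNorm (e c : Ideal (𝓞 K)) : ℂ) ^ (-s) :=
    (e.summable_iff (f := fun J : (Ideal (𝓞 K))⁰ => ((χ (ClassGroup.mk0 J) : ℂˣ) : ℂ) *
      (Ideal.absNorm (J : Ideal (𝓞 K)) : ℂ) ^ (-s))).mpr
      (summable_norm_chiHom χ hs).of_norm
  rw [LK, LF_eq _ hs, ← e.tsum_eq, Summable.tsum_sigma hsum, tsum_fintype]
  refine Finset.sum_congr rfl fun C _ => ?_
  rw [zcK, ← tsum_mul_left]
  refine tsum_congr fun 𝔞 => ?_
  change _ = ((χ (ClassGroup.mk0 𝔞.1) : ℂˣ) : ℂ) *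
      (Ideal.absNorm ((𝔞.1 : (Ideal (𝓞 K))⁰) : Ideal (𝓞 K)) : ℂ) ^ (-s)
  rw [𝔞.2]

theorem LK_one : LK (1 : ClassGroup (𝓞 K) →* ℂˣ) = zetaK K := by
  rw [LK, zetaK]
  congr 1

theorem zetaK_eq_tsum {s : ℂ} (hs : 1 < s.re) :
    zetaK K s = ∑' J : (Ideal (𝓞 K))⁰, (Ideal.absNorm (J : Ideal (𝓞 K)) : ℂ) ^ (-s) := by
  rw [← LK_one, LK_eq_tsum _ hs]
  simp only [MonoidHom.one_apply, Units.val_one, one_mul]

/-- **The 3-4-1 inequality** for `zetaK`, `LK χ` and `LK (χ ^ 2)`. -/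
theorem one_le_norm_LK (χ : ClassGroup (𝓞 K) →* ℂˣ) {σ : ℝ} (hσ : 1 < σ) (t : ℝ) :
    1 ≤ ‖zetaK K (σ : ℂ) ^ 3 * LK χ ((σ : ℂ) + t * I) ^ 4 * LK (χ ^ 2) ((σ : ℂ) + 2 * t * I)‖ := by
  have r1 : 1 < ((σ : ℂ)).re := by rwa [ofReal_re]
  have r2 : 1 < ((σ : ℂ) + t * I).re := by simpa using hσ
  have r3 : 1 < ((σ : ℂ) + 2 * t * I).re := by
    have : ((σ : ℂ) + 2 * t * I).re = σ := by simp
    rwa [this]
  rw [← LK_one, LK_eq_tsum _ r1, LK_eq_tsum _ r2, LK_eq_tsum _ r3]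
  exact one_le_norm_tsum χ hσ t

/-- **The 3-4-1 inequality**, in the form with `1 + x`, `x > 0`. -/
theorem one_le_norm_LK' (χ : ClassGroup (𝓞 K) →* ℂˣ) (t : ℝ) {x : ℝ} (hx : 0 < x) :
    1 ≤ ‖zetaK K (1 + x) ^ 3 * LK χ (1 + x + I * t) ^ 4 * LK (χ ^ 2) (1 + x + 2 * I * t)‖ := by
  have h := one_le_norm_LK χ (σ := 1 + x) (by linarith) t
  have e1 : (((1 + x : ℝ) : ℂ)) = 1 + x := by push_cast; rfl
  rw [e1] at h
  rwa [show (1 : ℂ) + x + I * t = 1 + x + t * I by ring,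
    show (1 : ℂ) + x + 2 * I * t = 1 + x + 2 * t * I by ring]

theorem LK_ne_zero_of_one_lt_re (χ : ClassGroup (𝓞 K) →* ℂˣ) {s : ℂ} (hs : 1 < s.re) :
    LK χ s ≠ 0 := by
  rw [LK_eq_tsum χ hs]
  exact tsum_chi_ne_zero χ hs

end Fermat.Agent.Cor

end
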