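import Fermat.Agent.Classic.Zeta.Defs

/-!
# The inverse of the gamma factor of a number field

`(Γ_ℝ(s)^r₁ Γ_ℂ(s)^r₂)⁻¹` is entire; it vanishes to the order `r₁ + r₂` at `0, -2, -4, …`, to the
order `r₂` at `-1, -3, …`, and nowhere else.
-/

set_option autoImplicit false

noncomputable section

open NumberField NumberField.InfinitePlace Filter Topology Complex
open scoped Real

namespace Fermat.Agent.Cor

open Fermat.Agent.Classic.Zeta

universe u

/-- `1 / (s Γ_ℝ(s))`. -/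
def Ar (s : ℂ) : ℂ := (π : ℂ) ^ (s / 2) / 2 * (Gamma (s / 2 + 1))⁻¹

/-- `1 / (s Γ_ℂ(s))`. -/
def Ac (s : ℂ) : ℂ := (2 * π : ℂ) ^ s / 2 * (Gamma (s + 1))⁻¹

theorem pi_cpow_ne_zero (s : ℂ) : (π : ℂ) ^ s ≠ 0 := by
  rw [Ne, cpow_eq_zero_iff]
  simp [Real.pi_ne_zero]

theorem two_pi_cpow_ne_zero (s : ℂ) : (2 * π : ℂ) ^ s ≠ 0 := by
  rw [Ne, cpow_eq_zero_iff]
  simp [Real.pi_ne_zero]

theorem inv_Gammaℝ (s : ℂ) : (Gammaℝ s)⁻¹ = s * Ar s := by
  rw [Gammaℝ_def, mul_inv, one_div_Gamma_eq_self_mul_one_div_Gamma_add_one, Ar, neg_div, cpow_neg,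
    inv_inv]
  ring

theorem inv_Gammaℂ (s : ℂ) : (Gammaℂ s)⁻¹ = s * Ac s := by
  rw [Gammaℂ_def, mul_inv, mul_inv, one_div_Gamma_eq_self_mul_one_div_Gamma_add_one, Ac, cpow_neg,
    inv_inv]
  ring

theorem differentiable_Ar : Differentiable ℂ Ar := by
  unfold Ar
  refine Differentiable.mul (Differentiable.div_const ?_ _) ?_
  · exact fun s => ((differentiable_id.div_const 2) s).const_cpow
      (Or.inl (ofReal_ne_zero.2 Real.pi_ne_zero))
  · exact differentiable_one_div_Gamma.comp ((differentiable_id.div_const 2).add_const 1)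

theorem differentiable_Ac : Differentiable ℂ Ac := by
  unfold Ac
  refine Differentiable.mul (Differentiable.div_const ?_ _) ?_
  · exact fun s => (differentiable_id s).const_cpow
      (Or.inl (mul_ne_zero two_ne_zero (ofReal_ne_zero.2 Real.pi_ne_zero)))
  · exact differentiable_one_div_Gamma.comp (differentiable_id.add_const 1)

theorem Ar_zero : Ar 0 = 1 / 2 := by
  rw [Ar, zero_div, cpow_zero, zero_add, Gamma_one, inv_one, mul_one]

theorem Ac_zero : Ac 0 = 1 / 2 := by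
  rw [Ac, cpow_zero, zero_add, Gamma_one, inv_one, mul_one]

/-- `Ar` vanishes exactly at `-2, -4, …`. -/
theorem Ar_eq_zero_iff {s : ℂ} : Ar s = 0 ↔ ∃ m : ℕ, s = -(2 * (m + 1)) := by
  rw [Ar, mul_eq_zero, or_iff_right (div_ne_zero (pi_cpow_ne_zero _) two_ne_zero), inv_eq_zero,
    Gamma_eq_zero_iff]
  refine exists_congr fun m => ⟨fun h => ?_, fun h => ?_⟩
  · linear_combination 2 * h
  · rw [h]; ring

/-- `Ac` vanishes exactly at `-1, -2, …`. -/
theorem Ac_eq_zero_iff {s : ℂ} : Ac s = 0 ↔ ∃ m : ℕ, s = -(m + 1) := by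
  rw [Ac, mul_eq_zero, or_iff_right (div_ne_zero (two_pi_cpow_ne_zero _) two_ne_zero), inv_eq_zero,
    Gamma_eq_zero_iff]
  refine exists_congr fun m => ⟨fun h => ?_, fun h => ?_⟩
  · linear_combination h
  · rw [h]; ring

/-! ### Simple zeros of `1 / Γ` -/

/-- `1 / Γ` as a product: `1 / Γ (s) = s (s + 1) ⋯ (s + m) / Γ (s + m + 1)`. -/
theorem inv_Gamma_eq_prod (m : ℕ) (s : ℂ) :
    (Gamma s)⁻¹ = (∏ j ∈ Finset.range m, (s + j)) * (Gamma (s + m))⁻¹ := by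
  induction m with
  | zero => simp
  | succ m ih =>
    rw [ih, Finset.prod_range_succ, one_div_Gamma_eq_self_mul_one_div_Gamma_add_one (s + m)]
    push_cast
    rw [show s + (m : ℂ) + 1 = s + (m + 1) by ring]
    ring

/-- `1 / Γ` has simple zeros at the non-positive integers. -/
theorem exists_inv_Gamma (m : ℕ) : ∃ g : ℂ → ℂ, Differentiable ℂ g ∧ g (-(m : ℂ)) ≠ 0 ∧
    ∀ s, (Gamma s)⁻¹ = (s + m) * g s := by
  refine ⟨fun s => (∏ j ∈ Finset.range m, (s + j)) * (Gamma (s + m + 1))⁻¹, ?_, ?_, fun s => ?_⟩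
  · refine Differentiable.mul ?_ ?_
    · exact Differentiable.fun_finsetProd fun j _ => differentiable_id.add_const _
    · exact differentiable_one_div_Gamma.comp
        ((differentiable_id.add_const _).add_const _)
  · refine mul_ne_zero (Finset.prod_ne_zero_iff.2 fun j hj => ?_) ?_
    · have h1 : j < m := Finset.mem_range.1 hj
      intro h2
      have h3 : (j : ℂ) = m := by linear_combination h2
      exact absurd (Nat.cast_injective h3) h1.ne
    · rw [neg_add_cancel, zero_add, Gamma_one, inv_one]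
      exact one_ne_zero
  · rw [inv_Gamma_eq_prod m s, one_div_Gamma_eq_self_mul_one_div_Gamma_add_one (s + m)]
    ring

/-- The order of vanishing from a factorisation. -/
theorem order_eq_one {f g : ℂ → ℂ} {a : ℂ} (hf : Differentiable ℂ f) (hg : Differentiable ℂ g)
    (h0 : g a ≠ 0) (h : ∀ s, f s = (s - a) * g s) : analyticOrderAt f a = 1 := by
  rw [show (1 : ℕ∞) = ((1 : ℕ) : ℕ∞) from rfl, (hf.analyticAt a).analyticOrderAt_eq_natCast]
  refine ⟨g, hg.analyticAt a, h0, Eventually.of_forall fun s => ?_⟩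
  rw [pow_one, smul_eq_mul]
  exact h s

theorem order_eq_zero {f : ℂ → ℂ} {a : ℂ} (hf : Differentiable ℂ f) (h0 : f a ≠ 0) :
    analyticOrderAt f a = 0 :=
  (hf.analyticAt a).analyticOrderAt_eq_zero.2 h0

theorem analyticOrderAt_inv_Gamma (m : ℕ) :
    analyticOrderAt (fun s : ℂ => (Gamma s)⁻¹) (-(m : ℂ)) = 1 := by
  obtain ⟨g, hg, h0, h⟩ := exists_inv_Gamma m
  exact order_eq_one differentiable_one_div_Gamma hg h0 fun s => by rw [h s, sub_neg_eq_add]

theorem differentiable_pi_cpow : Differentiable ℂ fun s : ℂ => (π : ℂ) ^ (s / 2) :=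
  fun s => ((differentiable_id.div_const 2) s).const_cpow
    (Or.inl (ofReal_ne_zero.2 Real.pi_ne_zero))

theorem differentiable_two_pi_cpow : Differentiable ℂ fun s : ℂ => (2 * π : ℂ) ^ s :=
  fun s => (differentiable_id s).const_cpow
    (Or.inl (mul_ne_zero two_ne_zero (ofReal_ne_zero.2 Real.pi_ne_zero)))

theorem differentiable_inv_Gammaℂ : Differentiable ℂ fun s => (Gammaℂ s)⁻¹ := by
  have h : (fun s : ℂ => (Gammaℂ s)⁻¹) = fun s => s * Ac s := funext inv_Gammaℂ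
  rw [h]
  exact differentiable_id.mul differentiable_Ac

/-- `1 / Γ_ℝ` has simple zeros at `0, -2, -4, …`. -/
theorem analyticOrderAt_inv_Gammaℝ (m : ℕ) :
    analyticOrderAt (fun s : ℂ => (Gammaℝ s)⁻¹) (-(2 * m : ℂ)) = 1 := by
  obtain ⟨g, hg, h0, h⟩ := exists_inv_Gamma m
  refine order_eq_one (g := fun s => (π : ℂ) ^ (s / 2) / 2 * g (s / 2)) differentiable_Gammaℝ_inv
    ((differentiable_pi_cpow.div_const 2).mul (hg.comp (differentiable_id.div_const 2))) ?_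
    fun s => ?_
  · rw [show -(2 * m : ℂ) / 2 = -(m : ℂ) by ring]
    exact mul_ne_zero (div_ne_zero (pi_cpow_ne_zero _) two_ne_zero) h0
  · rw [Gammaℝ_def, mul_inv, h, neg_div, cpow_neg, inv_inv]
    ring

/-- `1 / Γ_ℂ` has simple zeros at `0, -1, -2, …`. -/
theorem analyticOrderAt_inv_Gammaℂ (m : ℕ) :
    analyticOrderAt (fun s : ℂ => (Gammaℂ s)⁻¹) (-(m : ℂ)) = 1 := by
  obtain ⟨g, hg, h0, h⟩ := exists_inv_Gamma m
  refine order_eq_one (g := fun s => (2 * π : ℂ) ^ s / 2 * g s) differentiable_inv_Gammaℂ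
    ((differentiable_two_pi_cpow.div_const 2).mul hg) ?_ fun s => ?_
  · exact mul_ne_zero (div_ne_zero (two_pi_cpow_ne_zero _) two_ne_zero) h0
  · rw [Gammaℂ_def, mul_inv, mul_inv, h, cpow_neg, inv_inv]
    ring

theorem inv_Gammaℝ_ne_zero {s : ℂ} (hs : ∀ m : ℕ, s ≠ -(2 * m)) : (Gammaℝ s)⁻¹ ≠ 0 := by
  rw [Ne, inv_eq_zero, Gammaℝ_eq_zero_iff]
  rintro ⟨m, h⟩
  exact hs m h

theorem inv_Gammaℂ_ne_zero {s : ℂ} (hs : ∀ m : ℕ, s ≠ -m) : (Gammaℂ s)⁻¹ ≠ 0 := by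
  rw [inv_Gammaℂ]
  refine mul_ne_zero ?_ fun h => ?_
  · simpa using hs 0
  · obtain ⟨m, hm⟩ := Ac_eq_zero_iff.1 h
    exact hs (m + 1) (by rw [hm]; push_cast; ring)

/-! ### The gamma factor -/

section Gam

variable (K : Type u) [Field K] [NumberField K]

theorem inv_gam (s : ℂ) :
    (gam K s)⁻¹ = (Gammaℝ s)⁻¹ ^ nrRealPlaces K * (Gammaℂ s)⁻¹ ^ nrComplexPlaces K := by
  rw [gam, mul_inv, inv_pow, inv_pow]

/-- `1 / γ(s) = s ^ (r₁ + r₂) Ar(s)^r₁ Ac(s)^r₂`. -/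
theorem inv_gam_eq (s : ℂ) :
    (gam K s)⁻¹ = s ^ (nrRealPlaces K + nrComplexPlaces K) *
      (Ar s ^ nrRealPlaces K * Ac s ^ nrComplexPlaces K) := by
  rw [inv_gam, inv_Gammaℝ, inv_Gammaℂ, mul_pow, mul_pow, pow_add]
  ring

theorem differentiable_inv_gam : Differentiable ℂ fun s => (gam K s)⁻¹ := by
  have h : (fun s => (gam K s)⁻¹) = fun s =>
      (Gammaℝ s)⁻¹ ^ nrRealPlaces K * (Gammaℂ s)⁻¹ ^ nrComplexPlaces K := funext (inv_gam K)
  rw [h]
  exact (differentiable_Gammaℝ_inv.fun_pow _).mul (differentiable_inv_Gammaℂ.fun_pow _)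

theorem inv_gam_ne_zero {s : ℂ} (hs : ∀ m : ℕ, s ≠ -m) : (gam K s)⁻¹ ≠ 0 := by
  rw [inv_gam]
  refine mul_ne_zero (pow_ne_zero _ (inv_Gammaℝ_ne_zero fun m h => hs (2 * m) ?_))
    (pow_ne_zero _ (inv_Gammaℂ_ne_zero hs))
  rw [h]; push_cast; ring

theorem gam_ne_zero {s : ℂ} (hs : ∀ m : ℕ, s ≠ -m) : gam K s ≠ 0 :=
  fun h => inv_gam_ne_zero K hs (by rw [h, inv_zero])

theorem gam_ne_zero_of_pos_re {s : ℂ} (hs : 0 < s.re) : gam K s ≠ 0 := by
  refine gam_ne_zero K fun m h => ?_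
  rw [h, neg_re, natCast_re] at hs
  have : (0 : ℝ) ≤ m := Nat.cast_nonneg m
  linarith

theorem analyticOrderAt_inv_gam (a : ℂ) :
    analyticOrderAt (fun s => (gam K s)⁻¹) a =
      nrRealPlaces K * analyticOrderAt (fun s : ℂ => (Gammaℝ s)⁻¹) a +
        nrComplexPlaces K * analyticOrderAt (fun s : ℂ => (Gammaℂ s)⁻¹) a := by
  have h : (fun s => (gam K s)⁻¹) = (fun s : ℂ => (Gammaℝ s)⁻¹) ^ nrRealPlaces K *
      (fun s : ℂ => (Gammaℂ s)⁻¹) ^ nrComplexPlaces K := funext (inv_gam K)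
  have h1 : AnalyticAt ℂ (fun s : ℂ => (Gammaℝ s)⁻¹) a := differentiable_Gammaℝ_inv.analyticAt a
  have h2 : AnalyticAt ℂ (fun s : ℂ => (Gammaℂ s)⁻¹) a := differentiable_inv_Gammaℂ.analyticAt a
  rw [h, analyticOrderAt_mul (h1.pow _) (h2.pow _), analyticOrderAt_pow h1,
    analyticOrderAt_pow h2, nsmul_eq_mul, nsmul_eq_mul]

/-- Order `r₁ + r₂` at `0, -2, -4, …`. -/
theorem analyticOrderAt_inv_gam_even (m : ℕ) :
    analyticOrderAt (fun s => (gam K s)⁻¹) (-(2 * m : ℂ)) =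
      ((nrRealPlaces K + nrComplexPlaces K : ℕ) : ℕ∞) := by
  have h1 := analyticOrderAt_inv_Gammaℂ (2 * m)
  rw [show (((2 * m : ℕ) : ℂ)) = 2 * m by push_cast; ring] at h1
  rw [analyticOrderAt_inv_gam, analyticOrderAt_inv_Gammaℝ, h1, mul_one, mul_one]
  push_cast
  rfl

/-- Order `r₂` at `-1, -3, …`. -/
theorem analyticOrderAt_inv_gam_odd (m : ℕ) :
    analyticOrderAt (fun s => (gam K s)⁻¹) (-(2 * m + 1 : ℂ)) =
      ((nrComplexPlaces K : ℕ) : ℕ∞) := by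
  have h1 := analyticOrderAt_inv_Gammaℂ (2 * m + 1)
  rw [show (((2 * m + 1 : ℕ) : ℂ)) = 2 * m + 1 by push_cast; ring] at h1
  have h2 : analyticOrderAt (fun s : ℂ => (Gammaℝ s)⁻¹) (-(2 * m + 1 : ℂ)) = 0 := by
    refine order_eq_zero differentiable_Gammaℝ_inv (inv_Gammaℝ_ne_zero fun j h => ?_)
    have h3 : ((2 * m + 1 : ℕ) : ℂ) = ((2 * j : ℕ) : ℂ) := by
      push_cast
      linear_combination -h
    have h4 : 2 * m + 1 = 2 * j := Nat.cast_injective h3
    omega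
  rw [analyticOrderAt_inv_gam, h2, h1, mul_zero, mul_one, zero_add]

/-- Order `r₁ + r₂` at `0`. -/
theorem analyticOrderAt_inv_gam_zero :
    analyticOrderAt (fun s => (gam K s)⁻¹) 0 =
      ((nrRealPlaces K + nrComplexPlaces K : ℕ) : ℕ∞) := by
  have h := analyticOrderAt_inv_gam_even K 0
  rwa [Nat.cast_zero, mul_zero, neg_zero] at h

end Gam

end Fermat.Agent.Cor
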