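import Fermat.Agent.Corollaries.ZetaK.LFun
import Fermat.Agent.Corollaries.ZetaK.GamInv

/-!
# The Dedekind zeta function at `1` and at `0`

The analytic continuation `zetaK K` of the Dedekind zeta function agrees with Mathlib's
`NumberField.dedekindZeta` for `Re s > 1`. It has a simple pole at `1`, with the residue
`2^r₁ (2π)^r₂ h R / (w √|d|)`; at `0` it vanishes to the order `r₁ + r₂ - 1`, with the leading
coefficient `- h R / w` (class number formula at `1` and at `0`). The same for the zeta function of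
each ideal class.
-/

set_option autoImplicit false

noncomputable section

open NumberField NumberField.InfinitePlace NumberField.Units Filter Topology Complex
open scoped Real

namespace Fermat.Agent.Cor

open Fermat.Agent.Classic.Zeta

universe u

variable (K : Type u) [Field K] [NumberField K]

/-- For `Re s > 1` the function `zetaK K` is Mathlib's Dedekind zeta function. -/
theorem zetaK_eq {s : ℂ} (hs : 1 < s.re) : zetaK K s = dedekindZeta K s := by
  rw [zetaK, LF_eq _ hs]
  simp only [one_mul]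
  exact (sum_zcl_bijective K hs Function.bijective_id).trans rfl

/-! ### The gamma factor at `1` -/

theorem gam_one : gam K 1 = ((π ^ nrComplexPlaces K : ℝ) : ℂ)⁻¹ := by
  rw [gam, Gammaℝ_one, Gammaℂ_one, one_pow, one_mul, one_div, inv_pow]
  push_cast
  rfl

theorem gs_one : gs K 1 = ((π ^ nrComplexPlaces K : ℝ) : ℂ) := by
  rw [gs_eq one_ne_zero, div_one, gi, gam_one, inv_inv]

theorem absDisc_cpow_one :
    ((|(discr K : ℝ)| : ℝ) : ℂ) ^ (-(1 : ℂ) / 2) = ((√|(discr K : ℝ)| : ℝ) : ℂ)⁻¹ := by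
  rw [neg_div, cpow_neg, Real.sqrt_eq_rpow, ofReal_cpow (abs_nonneg _)]
  push_cast
  rfl

/-! ### The class number formula -/

/-- the real points to the right of `1` -/
theorem tendsto_coe_nhdsGT_one :
    Tendsto (fun s : ℝ => (s : ℂ)) (𝓝[>] 1) (𝓝[≠] 1) := by
  refine tendsto_nhdsWithin_iff.2 ⟨?_, ?_⟩
  · have h := (continuous_ofReal.tendsto (1 : ℝ)).mono_left (nhdsWithin_le_nhds (s := Set.Ioi 1))
    rwa [ofReal_one] at h
  · filter_upwards [self_mem_nhdsWithin] with s hs
    have h1 : (1 : ℝ) < s := hs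
    simpa using h1.ne'

/-- the residue, in terms of the completed zeta function -/
theorem residue_eq_XiF :
    -(((|(discr K : ℝ)| : ℝ) : ℂ) ^ (-(1 : ℂ) / 2) * gs K 1 * XiF (K := K) (fun _ => 1) 1) =
      (dedekindZeta_residue K : ℂ) := by
  have h1 := (tendsto_LF (K := K) fun _ => 1).comp tendsto_coe_nhdsGT_one
  have h2 : Tendsto (fun s : ℝ => ((s : ℂ) - 1) * LF (K := K) (fun _ => 1) s) (𝓝[>] 1)
      (𝓝 (dedekindZeta_residue K : ℂ)) := by
    refine (tendsto_sub_one_mul_dedekindZeta_nhdsGT K).congr' ?_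
    filter_upwards [self_mem_nhdsWithin] with s hs
    have h3 : 1 < (s : ℂ).re := by rw [ofReal_re]; exact hs
    rw [← zetaK_eq K h3, zetaK]
  exact tendsto_nhds_unique h1 h2

/-- The zeta function `zetaK K` has the residue `2^r₁ (2π)^r₂ h R / (w √|d|)` at `1`. -/
theorem tendsto_sub_one_mul_zetaK :
    Tendsto (fun s => (s - 1) * zetaK K s) (𝓝[≠] 1) (𝓝 (dedekindZeta_residue K : ℂ)) := by
  have h := tendsto_LF (K := K) fun _ => 1
  rwa [residue_eq_XiF] at h

/-- `2^(r₁ + r₂) R / w` -/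
def clConst : ℝ :=
  2 ^ (nrRealPlaces K + nrComplexPlaces K) * regulator K / torsionOrder K

theorem clConst_pos : 0 < clConst K :=
  div_pos (mul_pos (by positivity) (regulator_pos K)) (Nat.cast_pos.2 (torsionOrder_pos K))

theorem residue_eq_clConst : dedekindZeta_residue K =
    (√|(discr K : ℝ)|)⁻¹ * π ^ nrComplexPlaces K * (classNumber K * clConst K) := by
  have hsq : √|(discr K : ℝ)| ≠ 0 := (Real.sqrt_pos.2 (disc_pos K)).ne'
  have hw : (torsionOrder K : ℝ) ≠ 0 := Nat.cast_ne_zero.2 (torsionOrder_pos K).ne'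
  rw [dedekindZeta_residue_def, clConst, pow_add, mul_pow]
  field_simp

theorem sum_one_classGroup : (∑ _C : ClassGroup (𝓞 K), (1 : ℂ)) = (classNumber K : ℂ) := by
  rw [Finset.sum_const, nsmul_one]
  rfl

variable {K} in
/-- **The class number formula, for every ideal class**: the value at `0` of the completed zeta
function of the ideal class `C` (multiplied by `s (1 - s)`). -/
theorem XiC_zero (C : ClassGroup (𝓞 K)) : XiC K C 0 = -(clConst K : ℂ) := by
  have h1 := residue_eq_XiF K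
  have hsq : √|(discr K : ℝ)| ≠ 0 := (Real.sqrt_pos.2 (disc_pos K)).ne'
  have hpi : (π : ℝ) ^ nrComplexPlaces K ≠ 0 := pow_ne_zero _ Real.pi_ne_zero
  have hc : (classNumber K : ℂ) ≠ 0 := Nat.cast_ne_zero.2 (classNumber_pos K).ne'
  rw [XiF_one _ C, sum_one_classGroup, gs_one, absDisc_cpow_one, residue_eq_clConst, ofReal_mul,
    ofReal_mul, ofReal_mul, ofReal_inv, ofReal_natCast] at h1
  have h2 : ((√|(discr K : ℝ)| : ℝ) : ℂ)⁻¹ * ((π ^ nrComplexPlaces K : ℝ) : ℂ) *
      (classNumber K : ℂ) ≠ 0 :=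
    mul_ne_zero (mul_ne_zero (inv_ne_zero (ofReal_ne_zero.2 hsq)) (ofReal_ne_zero.2 hpi)) hc
  refine mul_left_cancel₀ h2 ?_
  linear_combination -h1

variable {K} in
theorem XiC_one (C : ClassGroup (𝓞 K)) : XiC K C 1 = -(clConst K : ℂ) := by
  rw [XiC_one_eq C C, XiC_zero]

variable {K} in
theorem XiF_at_zero (f : ClassGroup (𝓞 K) → ℂ) : XiF f 0 = -((∑ C, f C) * (clConst K : ℂ)) := by
  rw [XiF_zero f 1, XiC_zero, mul_neg]

variable {K} in
theorem XiF_at_one (f : ClassGroup (𝓞 K) → ℂ) : XiF f 1 = -((∑ C, f C) * (clConst K : ℂ)) := by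
  rw [XiF_one f 1, XiC_zero, mul_neg]

variable {K} in
/-- The residue at `1` of the L-function of a class function. -/
theorem tendsto_sub_one_mul_LF (f : ClassGroup (𝓞 K) → ℂ) :
    Tendsto (fun s => (s - 1) * LF f s) (𝓝[≠] 1)
      (𝓝 ((∑ C, f C) * (dedekindZeta_residue K / classNumber K : ℝ))) := by
  have h := tendsto_LF f
  rw [XiF_at_one, gs_one, absDisc_cpow_one] at h
  have hc : (classNumber K : ℝ) ≠ 0 := Nat.cast_ne_zero.2 (classNumber_pos K).ne'
  have h1 : dedekindZeta_residue K / classNumber K =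
      (√|(discr K : ℝ)|)⁻¹ * π ^ nrComplexPlaces K * clConst K := by
    rw [residue_eq_clConst]
    field_simp
  rw [h1, ofReal_mul, ofReal_mul, ofReal_inv]
  convert h using 2
  ring

/-! ### The behaviour at `0` -/

/-- `(s γ(s))⁻¹ = s ^ (r₁ + r₂ - 1) Ar(s)^r₁ Ac(s)^r₂` -/
theorem gs_eq_pow (s : ℂ) :
    gs K s = s ^ rank K * (Ar s ^ nrRealPlaces K * Ac s ^ nrComplexPlaces K) := by
  have h1 : Continuous (gs K) := differentiable_gs.continuous
  have h2 : Continuous fun s : ℂ =>
      s ^ rank K * (Ar s ^ nrRealPlaces K * Ac s ^ nrComplexPlaces K) :=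
    (continuous_id.pow _).mul
      ((differentiable_Ar.continuous.pow _).mul (differentiable_Ac.continuous.pow _))
  refine congrFun (h1.ext_on (dense_compl_singleton (0 : ℂ)) h2 fun z hz => ?_) s
  have hz' : z ≠ 0 := hz
  rw [gs_eq hz', gi, inv_gam_eq, rank_add_one, pow_succ]
  field_simp

variable {K} in
/-- the cofactor of `s ^ (r₁ + r₂ - 1)` -/
def cofac (f : ClassGroup (𝓞 K) → ℂ) (s : ℂ) : ℂ :=
  ((|(discr K : ℝ)| : ℝ) : ℂ) ^ (-s / 2) *
    (Ar s ^ nrRealPlaces K * Ac s ^ nrComplexPlaces K) * (XiF f s / (1 - s))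

variable {K} in
theorem LF_eq_pow_mul (f : ClassGroup (𝓞 K) → ℂ) {s : ℂ} (hs : s ≠ 1) :
    LF f s = s ^ rank K * cofac f s := by
  rw [LF_eq_gs f hs, gs_eq_pow, cofac]
  ring

variable {K} in
theorem differentiableAt_cofac (f : ClassGroup (𝓞 K) → ℂ) {s : ℂ} (hs : s ≠ 1) :
    DifferentiableAt ℂ (cofac f) s :=
  ((differentiable_absDisc_cpow s).mul
    ((differentiable_Ar s |>.pow _).mul (differentiable_Ac s |>.pow _))).mul
    ((differentiable_XiF f s).div (by fun_prop) (sub_ne_zero.2 (Ne.symm hs)))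

variable {K} in
theorem cofac_zero (f : ClassGroup (𝓞 K) → ℂ) :
    cofac f 0 = -((∑ C, f C) * (regulator K / torsionOrder K : ℝ)) := by
  have hw : (torsionOrder K : ℂ) ≠ 0 := Nat.cast_ne_zero.2 (torsionOrder_pos K).ne'
  rw [cofac, Ar_zero, Ac_zero, XiF_at_zero, neg_zero, zero_div, cpow_zero, one_mul, sub_zero,
    div_one, ← pow_add, clConst]
  push_cast
  rw [one_div, inv_pow]
  field_simp

variable {K} in
/-- The leading term at `0` of the L-function of a class function. -/
theorem tendsto_LF_div_pow (f : ClassGroup (𝓞 K) → ℂ) :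
    Tendsto (fun s => LF f s / s ^ rank K) (𝓝[≠] 0)
      (𝓝 (-((∑ C, f C) * (regulator K / torsionOrder K : ℝ)))) := by
  have h1 : ContinuousAt (cofac f) 0 := (differentiableAt_cofac f zero_ne_one).continuousAt
  rw [← cofac_zero f]
  refine (h1.tendsto.mono_left nhdsWithin_le_nhds).congr' ?_
  have h2 : ∀ᶠ s : ℂ in 𝓝[≠] 0, s ≠ 1 :=
    nhdsWithin_le_nhds (isOpen_ne.mem_nhds zero_ne_one)
  filter_upwards [h2, self_mem_nhdsWithin] with s hs1 hs0
  have hs0' : s ≠ 0 := hs0
  rw [LF_eq_pow_mul f hs1, mul_comm, mul_div_assoc, div_self (pow_ne_zero _ hs0'), mul_one]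

variable {K} in
/-- The order of vanishing at `0` of the L-function of a class function with non-zero sum. -/
theorem analyticOrderAt_LF_zero {f : ClassGroup (𝓞 K) → ℂ} (hf : ∑ C, f C ≠ 0) :
    analyticOrderAt (LF f) 0 = (rank K : ℕ∞) := by
  have hU : ∀ᶠ s : ℂ in 𝓝 0, s ≠ 1 := isOpen_ne.mem_nhds zero_ne_one
  have han : AnalyticAt ℂ (LF f) 0 := by
    rw [analyticAt_iff_eventually_differentiableAt]
    filter_upwards [hU] with s hs using differentiableAt_LF f hs
  have hco : AnalyticAt ℂ (cofac f) 0 := by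
    rw [analyticAt_iff_eventually_differentiableAt]
    filter_upwards [hU] with s hs using differentiableAt_cofac f hs
  rw [han.analyticOrderAt_eq_natCast]
  refine ⟨cofac f, hco, ?_, ?_⟩
  · rw [cofac_zero]
    refine neg_ne_zero.2 (mul_ne_zero hf (ofReal_ne_zero.2 (div_pos (regulator_pos K) ?_).ne'))
    exact Nat.cast_pos.2 (torsionOrder_pos K)
  · filter_upwards [hU] with s hs
    rw [sub_zero, smul_eq_mul, LF_eq_pow_mul f hs]

/-- **The order of vanishing of the Dedekind zeta function at `0`** is `r₁ + r₂ - 1`, the rank of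
the unit group. -/
theorem analyticOrderAt_zetaK_zero : analyticOrderAt (zetaK K) 0 = (rank K : ℕ∞) := by
  refine analyticOrderAt_LF_zero ?_
  rw [sum_one_classGroup]
  exact Nat.cast_ne_zero.2 (classNumber_pos K).ne'

/-- **The class number formula at `0`**: `ζ_K(s) ~ - (h R / w) s ^ (r₁ + r₂ - 1)`. -/
theorem tendsto_zetaK_div_pow :
    Tendsto (fun s => zetaK K s / s ^ rank K) (𝓝[≠] 0)
      (𝓝 (-(classNumber K * regulator K / torsionOrder K : ℝ))) := by
  have h := tendsto_LF_div_pow (K := K) fun _ => 1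
  have h1 : (-(classNumber K * regulator K / torsionOrder K : ℝ) : ℂ) =
      -((classNumber K : ℂ) * (regulator K / torsionOrder K : ℝ)) := by
    push_cast
    ring
  rw [sum_one_classGroup, ← h1] at h
  exact h

/-! ### The value at `0` -/

/-- The regulator is `1` when the unit group is finite. -/
theorem regulator_of_rank_eq_zero (h : rank K = 0) : regulator K = 1 := by
  classical
  obtain ⟨w⟩ := (inferInstance : Nonempty (InfinitePlace K))
  have hc : Fintype.card {v : InfinitePlace K // v ≠ w} = Fintype.card (Fin (rank K)) := by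
    rw [Fintype.card_fin, rank, Fintype.card_subtype_compl, Fintype.card_subtype_eq]
  have e := Fintype.equivOfCardEq hc
  have : IsEmpty {v : InfinitePlace K // v ≠ w} := by
    rw [← Fintype.card_eq_zero_iff, hc, Fintype.card_fin, h]
  rw [regulator_eq_det K w e, Matrix.det_isEmpty, abs_one]

/-- The value at `0` when the unit group is finite (`K = ℚ` or `K` imaginary quadratic):
`ζ_K(0) = - h / w`. -/
theorem zetaK_zero (h : rank K = 0) : zetaK K 0 = -(classNumber K / torsionOrder K : ℂ) := by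
  rw [zetaK, LF_eq_pow_mul _ zero_ne_one, h, pow_zero, one_mul, cofac_zero, sum_one_classGroup,
    regulator_of_rank_eq_zero K h]
  push_cast
  ring

/-- `ζ_K(0) = 0` exactly if the unit group is infinite. -/
theorem zetaK_zero_eq_zero_iff : zetaK K 0 = 0 ↔ rank K ≠ 0 := by
  refine ⟨fun h1 h2 => ?_, fun h => ?_⟩
  · rw [zetaK_zero K h2, neg_eq_zero, div_eq_zero_iff] at h1
    rcases h1 with h1 | h1
    · exact (classNumber_pos K).ne' (Nat.cast_eq_zero.1 h1)
    · exact (torsionOrder_pos K).ne' (Nat.cast_eq_zero.1 h1)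
  · rw [zetaK, LF_eq_pow_mul _ zero_ne_one, zero_pow h, zero_mul]

/-! ### The pole at `1` -/

variable {K} in
/-- The L-function of a class function with non-zero sum has a simple pole at `1`. -/
theorem meromorphicOrderAt_LF_one {f : ClassGroup (𝓞 K) → ℂ} (hf : ∑ C, f C ≠ 0) :
    meromorphicOrderAt (LF f) 1 = -1 := by
  have hg : Differentiable ℂ fun s => -(((|(discr K : ℝ)| : ℝ) : ℂ) ^ (-s / 2) * gs K s *
      XiF f s) := ((differentiable_absDisc_cpow.mul differentiable_gs).mul (differentiable_XiF f)).neg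
  have hfac : ∀ s : ℂ, s ≠ 1 → LF f s = (s - 1) ^ (-1 : ℤ) • (-(((|(discr K : ℝ)| : ℝ) : ℂ) ^
      (-s / 2) * gs K s * XiF f s)) := fun s hs => by
    have h1 : s - 1 ≠ 0 := sub_ne_zero.2 hs
    have h2 : 1 - s ≠ 0 := sub_ne_zero.2 (Ne.symm hs)
    rw [LF_eq_gs f hs, zpow_neg_one, smul_eq_mul]
    field_simp
    ring
  have hfac' : ∀ᶠ s in 𝓝[≠] (1 : ℂ), LF f s = (s - 1) ^ (-1 : ℤ) • (-(((|(discr K : ℝ)| : ℝ) : ℂ) ^
      (-s / 2) * gs K s * XiF f s)) := by
    filter_upwards [self_mem_nhdsWithin] with s hs using hfac s hs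
  have hm : MeromorphicAt (LF f) 1 := by
    refine MeromorphicAt.congr ?_ (hfac'.mono fun s hs => hs.symm)
    exact (((MeromorphicAt.id 1).sub (MeromorphicAt.const 1 1)).zpow (-1)).smul
      (hg.analyticAt 1).meromorphicAt
  rw [show (-1 : WithTop ℤ) = ((-1 : ℤ) : WithTop ℤ) from rfl, meromorphicOrderAt_eq_int_iff hm]
  refine ⟨_, hg.analyticAt 1, ?_, hfac'⟩
  have hd : ((|(discr K : ℝ)| : ℝ) : ℂ) ^ (-(1 : ℂ) / 2) ≠ 0 := absDisc_cpow_ne_zero _
  refine neg_ne_zero.2 (mul_ne_zero (mul_ne_zero hd ?_) ?_)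
  · rw [gs_one]
    exact ofReal_ne_zero.2 (pow_ne_zero _ Real.pi_ne_zero)
  · rw [XiF_at_one]
    exact neg_ne_zero.2 (mul_ne_zero hf (ofReal_ne_zero.2 (clConst_pos K).ne'))

/-- The Dedekind zeta function has a simple pole at `1`. -/
theorem meromorphicOrderAt_zetaK_one : meromorphicOrderAt (zetaK K) 1 = -1 := by
  refine meromorphicOrderAt_LF_one ?_
  rw [sum_one_classGroup]
  exact Nat.cast_ne_zero.2 (classNumber_pos K).ne'

/-! ### The zeta function of an ideal class -/

variable {K} in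
/-- Every ideal class has the same residue `2^r₁ (2π)^r₂ R / (w √|d|)`. -/
theorem tendsto_sub_one_mul_zcK (C : ClassGroup (𝓞 K)) :
    Tendsto (fun s : ℝ => ((s : ℂ) - 1) * ∑' 𝔞 : {𝔞 : (nonZeroDivisors (Ideal (𝓞 K))) //
      ClassGroup.mk0 𝔞 = C}, ((Ideal.absNorm ((𝔞 : nonZeroDivisors (Ideal (𝓞 K))) :
        Ideal (𝓞 K)) : ℕ) : ℂ) ^ (-(s : ℂ))) (𝓝[>] 1)
      (𝓝 ((2 ^ nrRealPlaces K * (2 * π) ^ nrComplexPlaces K * regulator K /
        (torsionOrder K * √|(discr K : ℝ)|) : ℝ) : ℂ)) := by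
  classical
  have h := (tendsto_sub_one_mul_LF (K := K) fun C' => if C' = C then 1 else 0).comp
    tendsto_coe_nhdsGT_one
  have hc : (classNumber K : ℝ) ≠ 0 := Nat.cast_ne_zero.2 (classNumber_pos K).ne'
  have h1 : dedekindZeta_residue K / classNumber K =
      2 ^ nrRealPlaces K * (2 * π) ^ nrComplexPlaces K * regulator K /
        (torsionOrder K * √|(discr K : ℝ)|) := by
    rw [dedekindZeta_residue_def]
    field_simp
  rw [Finset.sum_ite_eq' Finset.univ C, if_pos (Finset.mem_univ _), one_mul, h1] at h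
  refine h.congr' ?_
  filter_upwards [self_mem_nhdsWithin] with s hs
  have h3 : 1 < (s : ℂ).re := by rw [ofReal_re]; exact hs
  rw [Function.comp_apply, LF_eq _ h3]
  simp only [ite_mul, one_mul, zero_mul]
  rw [Finset.sum_ite_eq' Finset.univ C, if_pos (Finset.mem_univ _)]
  rfl

end Fermat.Agent.Cor
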