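import Fermat.Agent.Corollaries.ZetaK.LamClass
import Fermat.Agent.Corollaries.ZetaK.ThreeFourLK
import Fermat.Agent.Corollaries.ZetaK.NonVan
import Fermat.Agent.Corollaries.ZetaK.ZetaOne
import Fermat.Agent.Corollaries.ZetaK.WienerIkehara

/-!
# The analytic input of the prime ideal theorem

The Dirichlet series of `LamC C` minus `(1/h)/(s - 1)` is continuous on `Re s ≥ 1`.
-/

set_option autoImplicit false
set_option linter.unusedSectionVars false

noncomputable section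

open NumberField NumberField.InfinitePlace nonZeroDivisors Complex Filter Topology

open scoped Classical

namespace Fermat.Agent.Cor

open Fermat.Agent.ClassL Fermat.Agent.Classic.Zeta

universe u

variable {K : Type u} [Field K] [NumberField K]

theorem Ls_eq_LK (χ : ClassGroup (𝓞 K) →* ℂˣ) {s : ℂ} (hs : 1 < s.re) : Ls χ s = LK χ s :=
  (LK_eq_tsum χ hs).symm

theorem deriv_Ls_eq (χ : ClassGroup (𝓞 K) →* ℂˣ) {s : ℂ} (hs : 1 < s.re) :
    deriv (Ls χ) s = deriv (LK χ) s := by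
  refine Filter.EventuallyEq.deriv_eq ?_
  filter_upwards [(isOpen_lt continuous_const Complex.continuous_re).mem_nhds hs] with w hw
  exact Ls_eq_LK χ hw

/-- the residue at `1` is not zero -/
theorem WK_one_ne_zero : WK (K := K) (fun _ => 1) 1 ≠ 0 := by
  rw [WK, residue_eq_XiF]
  exact_mod_cast dedekindZeta_residue_ne_zero K

/-- `W_χ`: `(s - 1) ζ_K(s)` for the trivial character, `L(s, χ)` else -/
def Wχ (χ : ClassGroup (𝓞 K) →* ℂˣ) : ℂ → ℂ :=
  if χ = 1 then WK (K := K) (fun _ => 1) else LK χ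

theorem differentiable_Wχ (χ : ClassGroup (𝓞 K) →* ℂˣ) : Differentiable ℂ (Wχ χ) := by
  rw [Wχ]
  split_ifs with h
  · exact differentiable_WK _
  · exact differentiable_LK h

theorem Wχ_ne_zero (χ : ClassGroup (𝓞 K) →* ℂˣ) {s : ℂ} (hs : 1 ≤ s.re) : Wχ χ s ≠ 0 := by
  have key : (s ≠ 1 ∨ χ ≠ 1) → LK χ s ≠ 0 := LK_ne_zero χ hs
  rw [Wχ]
  split_ifs with h
  · rcases eq_or_ne s 1 with rfl | h1
    · exact WK_one_ne_zero
    · rw [WK_eq _ h1]
      refine mul_ne_zero (sub_ne_zero.mpr h1) ?_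
      have := key (Or.inl h1)
      rw [h, LK_one] at this
      exact this
  · exact key (Or.inr h)

theorem logDeriv_LK (χ : ClassGroup (𝓞 K) →* ℂˣ) {s : ℂ} (hs : 1 < s.re) :
    -(deriv (LK χ) s / LK χ s) =
      -(deriv (Wχ χ) s / Wχ χ s) + if χ = 1 then 1 / (s - 1) else 0 := by
  rw [Wχ]
  split_ifs with h
  · subst h
    have h1 : s ≠ 1 := ne_one_of_re hs
    have h2 : s - 1 ≠ 0 := sub_ne_zero.mpr h1
    have hz : LK (1 : ClassGroup (𝓞 K) →* ℂˣ) s ≠ 0 := LK_ne_zero_of_one_lt_re 1 hs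
    have h3 : WK (K := K) (fun _ => 1) =ᶠ[𝓝 s] fun w => (w - 1) * LK (1 : ClassGroup (𝓞 K) →* ℂˣ) w := by
      filter_upwards [isOpen_ne.mem_nhds h1] with w hw
      rw [WK_eq _ hw, LK_one]
      rfl
    have h4 : HasDerivAt (fun w : ℂ => (w - 1) * LK (1 : ClassGroup (𝓞 K) →* ℂˣ) w)
        (1 * LK 1 s + (s - 1) * deriv (LK 1) s) s :=
      ((hasDerivAt_id s).sub_const 1).mul (differentiableAt_LK 1 (Or.inl h1)).hasDerivAt
    rw [h3.deriv_eq, h4.deriv, h3.eq_of_nhds]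
    field_simp
    ring
  · rw [add_zero]

/-- **The analytic input of the prime ideal theorem.** -/
theorem exists_landau (C : ClassGroup (𝓞 K)) :
    ∃ G : ℂ → ℂ, ContinuousOn G {s : ℂ | 1 ≤ s.re} ∧ ∀ s : ℂ, 1 < s.re →
      G s = LSeries (fun n => (LamC C n : ℂ)) s -
        (((Nat.card (ClassGroup (𝓞 K)) : ℝ)⁻¹ : ℝ) : ℂ) / (s - 1) := by
  refine ⟨fun s => (Nat.card (ClassGroup (𝓞 K)) : ℂ)⁻¹ *
    ∑ χ : ClassGroup (𝓞 K) →* ℂˣ, ((χ C : ℂˣ) : ℂ)⁻¹ * -(deriv (Wχ χ) s / Wχ χ s), ?_, ?_⟩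
  · refine continuousOn_const.mul (continuousOn_finsetSum _ fun χ _ =>
      continuousOn_const.mul (ContinuousOn.neg (ContinuousOn.div ?_ ?_ ?_)))
    · exact ((differentiable_Wχ χ).contDiff (n := 1)).continuous_deriv le_rfl |>.continuousOn
    · exact (differentiable_Wχ χ).continuous.continuousOn
    · intro s hs
      exact Wχ_ne_zero χ hs
  · intro s hs
    rw [LSeries_LamC C hs, LdC]
    have h : ∀ χ : ClassGroup (𝓞 K) →* ℂˣ, ((χ C : ℂˣ) : ℂ)⁻¹ * -(deriv (Ls χ) s / Ls χ s) =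
        ((χ C : ℂˣ) : ℂ)⁻¹ * -(deriv (Wχ χ) s / Wχ χ s) + if χ = 1 then 1 / (s - 1) else 0 := by
      intro χ
      rw [deriv_Ls_eq χ hs, Ls_eq_LK χ hs, logDeriv_LK χ hs, mul_add]
      congr 1
      split_ifs with h
      · rw [h, MonoidHom.one_apply, Units.val_one, inv_one, one_mul]
      · rw [mul_zero]
    simp only [h]
    rw [Finset.sum_add_distrib, Finset.sum_ite_eq' Finset.univ, if_pos (Finset.mem_univ _), mul_add]
    push_cast
    ring

/-- **The prime ideal theorem for `ψ`**: `∑_{N(P^k) ≤ x, [P^k] = C} log N(P) ~ x / h`. -/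
theorem tendsto_psi_class (C : ClassGroup (𝓞 K)) :
    Tendsto (fun x : ℝ => (∑ n ∈ Finset.Icc 1 ⌊x⌋₊, LamC C n) / x) atTop
      (𝓝 (Nat.card (ClassGroup (𝓞 K)) : ℝ)⁻¹) := by
  obtain ⟨G, hG, hF⟩ := exists_landau C
  exact wiener_ikehara (LamC_nonneg C) (fun s hs => lseriesSummable_LamC C hs) hG hF

end Fermat.Agent.Cor

end
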