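import Mathlib

/-!
# Forms and consequences of the prime number theorem

Everything from the single hypothesis `ψ(x) / x → 1` (`Chebyshev.psi`); the general part works for
every counting function `F` with `F(x) log x / x → A > 0`.
-/

set_option autoImplicit false

open Filter Topology

noncomputable section

namespace Fermat.Agent.Cor.PNT

/-! ### General counting functions -/

theorem tendsto_log_mul_div_log {c : ℝ} (hc : 0 < c) :
    Tendsto (fun x : ℝ => Real.log x / Real.log (c * x)) atTop (𝓝 1) := by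
  have h0 : Tendsto (fun x : ℝ => Real.log c / Real.log x) atTop (𝓝 0) :=
    tendsto_const_nhds.div_atTop Real.tendsto_log_atTop
  have h1 : Tendsto (fun x : ℝ => (Real.log c / Real.log x + 1)⁻¹) atTop (𝓝 1) := by
    simpa using (h0.add_const 1).inv₀ (by norm_num)
  refine h1.congr' ?_
  filter_upwards [eventually_gt_atTop 1] with x hx
  have hl : Real.log x ≠ 0 := (Real.log_pos hx).ne'
  rw [Real.log_mul hc.ne' (by linarith), div_add_one hl, inv_div]

/-- `F(c x) / (x / log x) → c A` -/
theorem tendsto_comp_mul {F : ℝ → ℝ} {A : ℝ}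
    (hF : Tendsto (fun x : ℝ => F x * Real.log x / x) atTop (𝓝 A)) {c : ℝ} (hc : 0 < c) :
    Tendsto (fun x : ℝ => F (c * x) * Real.log x / x) atTop (𝓝 (c * A)) := by
  have h1 : Tendsto (fun x : ℝ => c * x) atTop atTop := tendsto_id.const_mul_atTop hc
  have h2 := ((hF.comp h1).mul (tendsto_log_mul_div_log hc)).const_mul c
  rw [mul_one] at h2
  refine h2.congr' ?_
  filter_upwards [eventually_gt_atTop 1, h1.eventually_gt_atTop 1] with x hx hcx
  have hl : Real.log (c * x) ≠ 0 := (Real.log_pos hcx).ne'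
  have hx0 : x ≠ 0 := by linarith
  simp only [Function.comp_apply]
  field_simp

/-- **Short intervals**: `F((1 + ε) x) > F(x)` for large `x`. -/
theorem eventually_lt {F : ℝ → ℝ} {A : ℝ} (hA : 0 < A)
    (hF : Tendsto (fun x : ℝ => F x * Real.log x / x) atTop (𝓝 A)) {c : ℝ} (hc : 1 < c) :
    ∀ᶠ x : ℝ in atTop, F x < F (c * x) := by
  have h1 := tendsto_comp_mul hF (one_pos.trans hc)
  have h2 : A < c * A := by nlinarith
  obtain ⟨m, hm1, hm2⟩ := exists_between h2
  filter_upwards [hF.eventually_lt_const hm1, h1.eventually_const_lt hm2,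
    eventually_gt_atTop 1] with x hx1 hx2 hx
  have hl : 0 < Real.log x := Real.log_pos hx
  have hx0 : 0 < x := one_pos.trans hx
  have h3 := hx1.trans hx2
  rw [div_lt_div_iff_of_pos_right hx0] at h3
  exact lt_of_mul_lt_mul_right h3 hl.le

/-- **The inverse function**: if `q n → ∞` and `n log (q n) / q n → A` then
`q n / (n log n) → 1 / A`. -/
theorem tendsto_inv_fun {q : ℕ → ℝ} {A : ℝ} (hA : 0 < A) (hq : Tendsto q atTop atTop)
    (h : Tendsto (fun n : ℕ => (n : ℝ) * Real.log (q n) / q n) atTop (𝓝 A)) :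
    Tendsto (fun n : ℕ => q n / (n * Real.log n)) atTop (𝓝 A⁻¹) := by
  have hlq : Tendsto (fun n => Real.log (q n)) atTop atTop := Real.tendsto_log_atTop.comp hq
  have h1 : Tendsto (fun n : ℕ =>
      Real.log ((n : ℝ) * Real.log (q n) / q n) / Real.log (q n)) atTop
      (𝓝 0) := (h.log hA.ne').div_atTop hlq
  have h2 : Tendsto (fun n => Real.log (Real.log (q n)) / Real.log (q n)) atTop (𝓝 0) :=
    (Real.isLittleO_log_id_atTop.tendsto_div_nhds_zero).comp hlq
  -- `log n / log (q n) → 1`
  have h3 : Tendsto (fun n : ℕ => Real.log n / Real.log (q n)) atTop (𝓝 1) := by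
    have h4 : Tendsto (fun n : ℕ =>
        1 + Real.log ((n : ℝ) * Real.log (q n) / q n) / Real.log (q n) -
        Real.log (Real.log (q n)) / Real.log (q n)) atTop (𝓝 1) := by
      simpa using (h1.const_add 1).sub h2
    refine h4.congr' ?_
    filter_upwards [hq.eventually_gt_atTop 1, hlq.eventually_gt_atTop 0,
      eventually_gt_atTop 0] with n hn1 hn2 hn3
    have hn : (n : ℝ) ≠ 0 := by exact_mod_cast hn3.ne'
    rw [Real.log_div (mul_ne_zero hn hn2.ne') (by linarith), Real.log_mul hn hn2.ne']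
    field_simp
    ring
  have h5 := (h.inv₀ hA.ne').mul (h3.inv₀ one_ne_zero)
  rw [inv_one, mul_one] at h5
  refine h5.congr' ?_
  filter_upwards [hq.eventually_gt_atTop 1, hlq.eventually_gt_atTop 0,
    eventually_gt_atTop 1] with n hn1 hn2 hn3
  have hn : (n : ℝ) ≠ 0 := by
    have : n ≠ 0 := by omega
    exact_mod_cast this
  have hln : Real.log n ≠ 0 := (Real.log_pos (by exact_mod_cast hn3)).ne'
  have hq0 : q n ≠ 0 := by linarith
  field_simp

theorem tendsto_succ_mul_log : Tendsto (fun n : ℕ => (((n + 1 : ℕ) : ℝ) *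
    Real.log ((n + 1 : ℕ) : ℝ)) / (n * Real.log n)) atTop (𝓝 1) := by
  have h0 : Tendsto (fun n : ℕ => (((n + 1 : ℕ) : ℝ)) / n) atTop (𝓝 1) := by
    have := (tendsto_natCast_div_add_atTop (𝕜 := ℝ) 1).inv₀ one_ne_zero
    rw [inv_one] at this
    refine this.congr fun n => ?_
    rw [inv_div]
    push_cast
    rfl
  have h1 : Tendsto (fun n : ℕ => Real.log ((n + 1 : ℕ) : ℝ) / Real.log n) atTop (𝓝 1) := by
    have h2 : Tendsto (fun n : ℕ => 1 + Real.log ((((n + 1 : ℕ) : ℝ)) / n) / Real.log n) atTop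
        (𝓝 1) := by
      have h3 : Tendsto (fun n : ℕ => Real.log ((((n + 1 : ℕ) : ℝ)) / n) / Real.log n) atTop
          (𝓝 0) := (h0.log one_ne_zero).div_atTop
        (Real.tendsto_log_atTop.comp tendsto_natCast_atTop_atTop)
      simpa using h3.const_add 1
    refine h2.congr' ?_
    filter_upwards [eventually_gt_atTop 1] with n hn
    have hn0 : (n : ℝ) ≠ 0 := by
      have : n ≠ 0 := by omega
      exact_mod_cast this
    have hln : Real.log n ≠ 0 := (Real.log_pos (by exact_mod_cast hn)).ne'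
    rw [Real.log_div (by positivity) hn0]
    field_simp
    ring
  have h4 := h0.mul h1
  rw [mul_one] at h4
  refine h4.congr fun n => ?_
  rw [div_mul_div_comm]

/-- successive terms -/
theorem tendsto_succ_div {q : ℕ → ℝ} {B : ℝ} (hB : B ≠ 0)
    (h : Tendsto (fun n : ℕ => q n / (n * Real.log n)) atTop (𝓝 B)) :
    Tendsto (fun n : ℕ => q (n + 1) / q n) atTop (𝓝 1) := by
  have h1 := (h.comp (tendsto_add_atTop_nat 1)).mul ((h.inv₀ hB).mul tendsto_succ_mul_log)
  rw [mul_one, mul_inv_cancel₀ hB] at h1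
  refine h1.congr' ?_
  filter_upwards [eventually_gt_atTop 1] with n hn
  have hn0 : (n : ℝ) ≠ 0 := by
    have : n ≠ 0 := by omega
    exact_mod_cast this
  have hln : Real.log n ≠ 0 := (Real.log_pos (by exact_mod_cast hn)).ne'
  have hn1 : ((n + 1 : ℕ) : ℝ) ≠ 0 := by positivity
  have hln1 : Real.log ((n + 1 : ℕ) : ℝ) ≠ 0 :=
    (Real.log_pos (by exact_mod_cast (by omega : 1 < n + 1))).ne'
  simp only [Function.comp_apply]
  rw [inv_div]
  by_cases hq : q n = 0
  · simp [hq]
  field_simp

/-! ### The prime numbers -/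

section primes

variable (hψ : Tendsto (fun x : ℝ => Chebyshev.psi x / x) atTop (𝓝 1))

include hψ

/-- `θ(x) ~ x` -/
theorem tendsto_theta : Tendsto (fun x : ℝ => Chebyshev.theta x / x) atTop (𝓝 1) := by
  have h0 : Tendsto (fun x : ℝ => 2 * (Real.log x / x ^ (1 / 2 : ℝ))) atTop (𝓝 0) := by
    have := (isLittleO_log_rpow_atTop (r := 1 / 2) (by norm_num)).tendsto_div_nhds_zero
    simpa using this.const_mul 2
  have h1 : Tendsto (fun x : ℝ => Chebyshev.psi x / x - 2 * (Real.log x / x ^ (1 / 2 : ℝ))) atTop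
      (𝓝 1) := by
    simpa using hψ.sub h0
  refine tendsto_of_tendsto_of_tendsto_of_le_of_le' h1 hψ ?_ ?_
  · filter_upwards [eventually_ge_atTop 1] with x hx
    have hx0 : 0 < x := one_pos.trans_le hx
    have h2 := Chebyshev.psi_sub_theta_le hx
    rw [Real.sqrt_eq_rpow] at h2
    have h8 : x = x ^ (1 / 2 : ℝ) * x ^ (1 / 2 : ℝ) := by
      rw [← Real.rpow_add hx0]
      norm_num
    have h9 : x ^ (1 / 2 : ℝ) ≠ 0 := (Real.rpow_pos_of_pos hx0 _).ne'
    rw [sub_le_iff_le_add, ← sub_le_iff_le_add', ← sub_div, div_le_iff₀ hx0]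
    refine h2.trans (le_of_eq ?_)
    calc 2 * x ^ (1 / 2 : ℝ) * Real.log x =
        2 * (Real.log x / x ^ (1 / 2 : ℝ)) * (x ^ (1 / 2 : ℝ) * x ^ (1 / 2 : ℝ)) := by
          field_simp
      _ = _ := by rw [← h8]
  · filter_upwards [eventually_gt_atTop 0] with x hx
    exact div_le_div_of_nonneg_right (Chebyshev.theta_le_psi x) hx.le

/-- **The prime number theorem**, `π(x) log x / x → 1`. -/
theorem tendsto_primeCounting : Tendsto (fun x : ℝ =>
    (Nat.primeCounting ⌊x⌋₊ : ℝ) * Real.log x / x) atTop (𝓝 1) := by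
  have h1 := Chebyshev.primeCounting_sub_theta_div_log_isBigO
  have h2 : Tendsto (fun x : ℝ => ((Nat.primeCounting ⌊x⌋₊ : ℝ) -
      Chebyshev.theta x / Real.log x) * (Real.log x / x)) atTop (𝓝 0) := by
    have h3 : (fun x : ℝ => ((Nat.primeCounting ⌊x⌋₊ : ℝ) -
        Chebyshev.theta x / Real.log x) * (Real.log x / x)) =O[atTop]
        fun x : ℝ => (x / Real.log x ^ 2) * (Real.log x / x) :=
      h1.mul (Asymptotics.isBigO_refl _ _)
    refine h3.trans_tendsto ?_
    refine Real.tendsto_log_atTop.inv_tendsto_atTop.congr' ?_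
    filter_upwards [eventually_gt_atTop 1] with x hx
    have hl : Real.log x ≠ 0 := (Real.log_pos hx).ne'
    have hx0 : x ≠ 0 := by linarith
    simp only [Pi.inv_apply]
    field_simp
  have h4 := h2.add (tendsto_theta hψ)
  rw [zero_add] at h4
  refine h4.congr' ?_
  filter_upwards [eventually_gt_atTop 1] with x hx
  have hl : Real.log x ≠ 0 := (Real.log_pos hx).ne'
  have hx0 : x ≠ 0 := by linarith
  field_simp
  ring

/-- `π(x) ~ x / log x` -/
theorem isEquivalent_primeCounting : Asymptotics.IsEquivalent atTop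
    (fun x : ℝ => (Nat.primeCounting ⌊x⌋₊ : ℝ)) (fun x : ℝ => x / Real.log x) := by
  refine (Asymptotics.isEquivalent_iff_tendsto_one ?_).2 ?_
  · filter_upwards [eventually_gt_atTop 1] with x hx
    exact div_ne_zero (by linarith) (Real.log_pos hx).ne'
  · refine (tendsto_primeCounting hψ).congr' ?_
    filter_upwards [eventually_gt_atTop 1] with x hx
    simp only [Pi.div_apply]
    rw [div_div_eq_mul_div]

theorem tendsto_primeCounting_nat : Tendsto (fun n : ℕ =>
    (Nat.primeCounting n : ℝ) * Real.log n / n) atTop (𝓝 1) := by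
  refine ((tendsto_primeCounting hψ).comp tendsto_natCast_atTop_atTop).congr fun n => ?_
  simp only [Function.comp_apply, Nat.floor_natCast]

/-- the logarithm of the product of the primes `≤ n` -/
theorem tendsto_log_primorial : Tendsto (fun n : ℕ => Real.log (primorial n) / n) atTop (𝓝 1) := by
  refine ((tendsto_theta hψ).comp tendsto_natCast_atTop_atTop).congr fun n => ?_
  simp only [Function.comp_apply]
  rw [Chebyshev.theta_eq_log_primorial, Nat.floor_natCast]

/-- the logarithm of the least common multiple of `1, …, n` -/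
theorem tendsto_log_lcmUpto : Tendsto (fun n : ℕ => Real.log (Nat.lcmUpto n) / n) atTop
    (𝓝 1) := by
  refine (hψ.comp tendsto_natCast_atTop_atTop).congr fun n => ?_
  simp only [Function.comp_apply]
  rw [Chebyshev.psi_eq_log_lcmUpto]

/-- **The `n`-th prime number** is asymptotic to `n log n`. -/
theorem tendsto_nth_prime : Tendsto (fun n : ℕ =>
    (Nat.nth Nat.Prime n : ℝ) / (n * Real.log n)) atTop (𝓝 1) := by
  have hq : Tendsto (fun n : ℕ => (Nat.nth Nat.Prime n : ℝ)) atTop atTop := by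
    refine tendsto_natCast_atTop_atTop.comp (tendsto_atTop_mono (fun n => ?_) tendsto_id)
    exact (Nat.le_add_right n 2).trans (Nat.add_two_le_nth_prime n)
  have h1 : Tendsto (fun n : ℕ => ((n + 1 : ℕ) : ℝ) * Real.log (Nat.nth Nat.Prime n) /
      (Nat.nth Nat.Prime n : ℝ)) atTop (𝓝 1) := by
    refine ((tendsto_primeCounting hψ).comp hq).congr fun n => ?_
    simp only [Function.comp_apply, Nat.floor_natCast]
    have h2 : Nat.primeCounting (Nat.nth Nat.Prime n) = n + 1 := by
      rw [Nat.primeCounting, Nat.primeCounting', Nat.count_succ, Nat.count_nth_of_infinite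
        Nat.infinite_setOfPred_prime, if_pos (Nat.prime_nth_prime n)]
    rw [h2]
  have h3 : Tendsto (fun n : ℕ => (n : ℝ) / ((n + 1 : ℕ) : ℝ)) atTop (𝓝 1) := by
    refine (tendsto_natCast_div_add_atTop (𝕜 := ℝ) 1).congr fun n => ?_
    push_cast
    rfl
  have h4 : Tendsto (fun n : ℕ => (n : ℝ) * Real.log (Nat.nth Nat.Prime n) /
      (Nat.nth Nat.Prime n : ℝ)) atTop (𝓝 1) := by
    have h5 := h3.mul h1
    rw [one_mul] at h5
    refine h5.congr fun n => ?_
    have : ((n + 1 : ℕ) : ℝ) ≠ 0 := by positivity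
    field_simp
  simpa using tendsto_inv_fun one_pos hq h4

/-- consecutive primes -/
theorem tendsto_nth_prime_succ_div : Tendsto (fun n : ℕ =>
    (Nat.nth Nat.Prime (n + 1) : ℝ) / (Nat.nth Nat.Prime n : ℝ)) atTop (𝓝 1) :=
  tendsto_succ_div (q := fun n => (Nat.nth Nat.Prime n : ℝ)) one_ne_zero (tendsto_nth_prime hψ)

/-- **Primes in short intervals**: for every `c > 1` and all large `x` there is a prime in
`]x, c x]`. -/
theorem eventually_exists_prime {c : ℝ} (hc : 1 < c) :
    ∀ᶠ x : ℝ in atTop, ∃ p : ℕ, p.Prime ∧ x < p ∧ (p : ℝ) ≤ c * x := by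
  filter_upwards [eventually_lt one_pos (tendsto_primeCounting hψ) hc,
    eventually_gt_atTop 0] with x hx hx0
  have h1 : Nat.primeCounting ⌊x⌋₊ < Nat.primeCounting ⌊c * x⌋₊ := by exact_mod_cast hx
  by_contra hne
  push Not at hne
  refine absurd h1 (not_lt.2 ?_)
  have hcx : 0 ≤ c * x := by positivity
  rw [← Nat.primesLE_card_eq_primeCounting, ← Nat.primesLE_card_eq_primeCounting]
  refine Finset.card_le_card fun p hp => ?_
  rw [Nat.mem_primesLE] at hp ⊢
  refine ⟨?_, hp.2⟩
  by_contra hlt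
  have h2 : x < p := (Nat.floor_lt hx0.le).1 (not_le.1 hlt)
  exact absurd ((Nat.le_floor_iff hcx).1 hp.1) (not_le.2 (hne p hp.2 h2))

/-- **The quotients of two primes are dense** in the positive real numbers. -/
theorem exists_primes_div {a b : ℝ} (ha : 0 < a) (hab : a < b) :
    ∃ p q : ℕ, p.Prime ∧ q.Prime ∧ a < (p : ℝ) / q ∧ (p : ℝ) / q < b := by
  obtain ⟨m, hm1, hm2⟩ := exists_between hab
  have hc : 1 < m / a := (one_lt_div ha).2 hm1
  have h1 : Tendsto (fun n : ℕ => a * (Nat.nth Nat.Prime n : ℝ)) atTop atTop := by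
    refine Tendsto.const_mul_atTop ha ?_
    refine tendsto_natCast_atTop_atTop.comp (tendsto_atTop_mono (fun n => ?_) tendsto_id)
    exact (Nat.le_add_right n 2).trans (Nat.add_two_le_nth_prime n)
  obtain ⟨n, p, hp, hp1, hp2⟩ := (h1.eventually (eventually_exists_prime hψ hc)).exists
  have hq := Nat.prime_nth_prime n
  have hq0 : (0 : ℝ) < (Nat.nth Nat.Prime n : ℝ) := by exact_mod_cast hq.pos
  refine ⟨p, _, hp, hq, (lt_div_iff₀ hq0).2 hp1, (div_lt_iff₀ hq0).2 ?_⟩
  refine hp2.trans_lt ?_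
  rw [← mul_assoc, div_mul_cancel₀ _ ha.ne']
  exact mul_lt_mul_of_pos_right hm2 hq0

end primes

end Fermat.Agent.Cor.PNT

end
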