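import Fermat.Agent.Corollaries.ZetaK.PrimeCountK
import Fermat.Agent.Corollaries.ZetaK.LandauIn
import Fermat.Agent.Corollaries.ZetaK.PNTForms

/-!
# Prime ideals of an ideal class: equidistribution, short intervals

Consequences of the prime ideal theorem in the ideal classes (`tendsto_psi_class`).
-/

set_option autoImplicit false

noncomputable section

open NumberField nonZeroDivisors Filter Topology

open scoped Classical

namespace Fermat.Agent.Cor

open Fermat.Agent.ClassL

universe u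

variable (K : Type u) [Field K] [NumberField K]

/-- the prime ideal theorem in an ideal class, real version -/
theorem tendsto_card_class_real (C : ClassGroup (𝓞 K)) :
    Tendsto (fun x : ℝ => (Nat.card {P : Pr K // (nP P : ℝ) ≤ x ∧ ClassGroup.mk0 P.1 = C} : ℝ) *
      Real.log x / x) atTop (𝓝 (Nat.card (ClassGroup (𝓞 K)) : ℝ)⁻¹) := by
  obtain ⟨D, hD⟩ := exists_isCount K
  refine (hD.count_of_psi (T := fun P k => ClassGroup.mk0 P.1 ^ (k + 1) = C) (LamC_eq_and C)
    (tendsto_psi_class C)).congr fun x => ?_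
  simp only [zero_add, pow_one]

theorem classNumber_inv_pos : (0 : ℝ) < (Nat.card (ClassGroup (𝓞 K)) : ℝ)⁻¹ :=
  inv_pos.2 (by exact_mod_cast Nat.card_pos)

theorem finite_class_real (C : ClassGroup (𝓞 K)) (x : ℝ) :
    {P : Pr K | (nP P : ℝ) ≤ x ∧ ClassGroup.mk0 P.1 = C}.Finite := by
  refine (finite_nP K ⌊x⌋₊).subset fun P hP => ?_
  rw [Set.mem_ofPred_eq]
  rcases le_or_gt 0 x with hx | hx
  · exact (Nat.le_floor_iff hx).2 hP.1
  · exact absurd hP.1 (not_le.2 (hx.trans_le (Nat.cast_nonneg _)))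

/-- **Prime ideals of a class in short intervals**: for every ideal class `C` and every `c > 1`
there is, for all large `x`, a prime ideal of the class `C` whose norm is in `]x, c x]`. -/
theorem eventually_exists_prime_class (C : ClassGroup (𝓞 K)) {c : ℝ} (hc : 1 < c) :
    ∀ᶠ x : ℝ in atTop, ∃ P : Pr K, ClassGroup.mk0 P.1 = C ∧
      x < (Ideal.absNorm ((P.1 : (Ideal (𝓞 K))⁰) : Ideal (𝓞 K)) : ℝ) ∧
      (Ideal.absNorm ((P.1 : (Ideal (𝓞 K))⁰) : Ideal (𝓞 K)) : ℝ) ≤ c * x := by
  filter_upwards [PNT.eventually_lt (classNumber_inv_pos K) (tendsto_card_class_real K C) hc]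
    with x hx
  have h1 : Nat.card {P : Pr K // (nP P : ℝ) ≤ x ∧ ClassGroup.mk0 P.1 = C} <
      Nat.card {P : Pr K // (nP P : ℝ) ≤ c * x ∧ ClassGroup.mk0 P.1 = C} := by
    exact_mod_cast hx
  by_contra hne
  push Not at hne
  refine absurd h1 (not_lt.2 ?_)
  have hfin : Finite {P : Pr K // (nP P : ℝ) ≤ x ∧ ClassGroup.mk0 P.1 = C} :=
    (finite_class_real K C x).to_subtype
  refine Nat.card_le_card_of_injective
    (fun P : {P : Pr K // (nP P : ℝ) ≤ c * x ∧ ClassGroup.mk0 P.1 = C} =>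
      (⟨P.1, ⟨?_, P.2.2⟩⟩ : {P : Pr K // (nP P : ℝ) ≤ x ∧ ClassGroup.mk0 P.1 = C})) ?_
  · by_contra hlt
    exact absurd P.2.1 (not_le.2 (hne P.1 P.2.2 (not_le.1 hlt)))
  · intro P Q h
    exact Subtype.ext (congrArg
      (fun R : {P : Pr K // (nP P : ℝ) ≤ x ∧ ClassGroup.mk0 P.1 = C} => R.1) h)

/-- **Equidistribution of the prime ideals in the ideal classes**: the proportion of the prime
ideals of norm `≤ x` which are in the class `C` tends to `1 / h`. -/
theorem tendsto_card_class_div (C : ClassGroup (𝓞 K)) :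
    Tendsto (fun x : ℕ =>
      (Nat.card {P : Pr K // Ideal.absNorm ((P.1 : (Ideal (𝓞 K))⁰) : Ideal (𝓞 K)) ≤ x ∧
        ClassGroup.mk0 P.1 = C} : ℝ) /
      Nat.card {P : Pr K // Ideal.absNorm ((P.1 : (Ideal (𝓞 K))⁰) : Ideal (𝓞 K)) ≤ x}) atTop
      (𝓝 (Nat.card (ClassGroup (𝓞 K)) : ℝ)⁻¹) := by
  have h1 := fun C => tendsto_card_class K (LamC_eq_and C) (tendsto_psi_class C)
  have h2 : Tendsto (fun x : ℕ => (Nat.card {P : Pr K // nP P ≤ x} : ℝ) * Real.log x / x) atTop
      (𝓝 1) := tendsto_card_all K fun C => by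
    rw [one_div]
    exact h1 C
  have h3 := (h1 C).div h2 one_ne_zero
  rw [div_one] at h3
  refine h3.congr' ?_
  filter_upwards [eventually_gt_atTop 1] with x hx
  have hx0 : (x : ℝ) ≠ 0 := by
    have : x ≠ 0 := by omega
    exact_mod_cast this
  have hl : Real.log x ≠ 0 := (Real.log_pos (by exact_mod_cast hx)).ne'
  have key : ∀ a b : ℝ, a * Real.log x / x / (b * Real.log x / x) = a / b := fun a b => by
    rw [mul_div_assoc a, mul_div_assoc b, mul_div_mul_right _ _ (div_ne_zero hl hx0)]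
  exact key _ _

end Fermat.Agent.Cor

end
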