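import Fermat.Agent.Corollaries.ZetaK.PNTForms
import Fermat.Agent.Corollaries.ZetaK.PNTAP

/-!
# Consequences of the prime number theorem

The unconditional forms of `PNTForms` (the prime number theorem itself: `PNTAP`).
-/

set_option autoImplicit false

open Filter Topology

noncomputable section

namespace Fermat.Agent.Cor

/-- the product of the primes `≤ n` is `exp (n + o(n))` -/
theorem log_primorial_div_tendsto :
    Tendsto (fun n : ℕ => Real.log (primorial n) / n) atTop (𝓝 1) :=
  PNT.tendsto_log_primorial tendsto_psi_div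

/-- the least common multiple of `1, …, n` is `exp (n + o(n))` -/
theorem log_lcmUpto_div_tendsto :
    Tendsto (fun n : ℕ => Real.log (Nat.lcmUpto n) / n) atTop (𝓝 1) :=
  PNT.tendsto_log_lcmUpto tendsto_psi_div

/-- **The `n`-th prime number** is asymptotic to `n log n`. -/
theorem nth_prime_tendsto :
    Tendsto (fun n : ℕ => (Nat.nth Nat.Prime n : ℝ) / (n * Real.log n)) atTop (𝓝 1) :=
  PNT.tendsto_nth_prime tendsto_psi_div

/-- the quotient of two consecutive primes tends to `1` -/
theorem nth_prime_succ_div_tendsto : Tendsto (fun n : ℕ =>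
    (Nat.nth Nat.Prime (n + 1) : ℝ) / (Nat.nth Nat.Prime n : ℝ)) atTop (𝓝 1) :=
  PNT.tendsto_nth_prime_succ_div tendsto_psi_div

/-- **Primes in short intervals**: for every `c > 1` and all large `x` there is a prime in
`]x, c x]` (Bertrand's postulate is the case `c = 2`, for large `x`). -/
theorem eventually_exists_prime_between {c : ℝ} (hc : 1 < c) :
    ∀ᶠ x : ℝ in atTop, ∃ p : ℕ, p.Prime ∧ x < p ∧ (p : ℝ) ≤ c * x :=
  PNT.eventually_exists_prime tendsto_psi_div hc

/-- **The quotients of two primes are dense** in the positive real numbers. -/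
theorem exists_primes_div_between {a b : ℝ} (ha : 0 < a) (hab : a < b) :
    ∃ p q : ℕ, p.Prime ∧ q.Prime ∧ a < (p : ℝ) / q ∧ (p : ℝ) / q < b :=
  PNT.exists_primes_div tendsto_psi_div ha hab

/-- the same as a statement on the closure: the quotients of primes are dense in `[0, ∞[` -/
theorem closure_primes_div :
    closure {x : ℝ | ∃ p q : ℕ, p.Prime ∧ q.Prime ∧ x = (p : ℝ) / q} = Set.Ici 0 := by
  apply subset_antisymm
  · refine closure_minimal ?_ isClosed_Ici
    rintro _ ⟨p, q, -, -, rfl⟩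
    change (0 : ℝ) ≤ (p : ℝ) / (q : ℝ)
    positivity
  · intro x hx
    rw [Metric.mem_closure_iff]
    intro ε hε
    have hx0 : (0 : ℝ) ≤ x := hx
    obtain ⟨p, q, hp, hq, h1, h2⟩ := exists_primes_div_between (a := x + ε / 3)
      (b := x + ε / 2) (by positivity) (by linarith)
    refine ⟨_, ⟨p, q, hp, hq, rfl⟩, ?_⟩
    rw [Real.dist_eq, abs_sub_comm, abs_lt]
    constructor <;> linarith

/-- **Large gaps do not exist relative to the size**, small relative gaps do: for every `ε > 0`
one has `p_{n+1} - p_n ≤ ε p_n` for large `n`. -/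
theorem eventually_prime_gap_le {ε : ℝ} (hε : 0 < ε) : ∀ᶠ n : ℕ in atTop,
    (Nat.nth Nat.Prime (n + 1) : ℝ) - Nat.nth Nat.Prime n ≤ ε * Nat.nth Nat.Prime n := by
  filter_upwards [nth_prime_succ_div_tendsto.eventually_lt_const
    (show (1 : ℝ) < 1 + ε by linarith)] with n hn
  have h0 : (0 : ℝ) < (Nat.nth Nat.Prime n : ℝ) := by
    exact_mod_cast (Nat.prime_nth_prime n).pos
  rw [div_lt_iff₀ h0] at hn
  nlinarith

/-- **Primes in arithmetic progressions in short intervals.** -/
theorem eventually_exists_prime_ap {q : ℕ} [NeZero q] {a : ZMod q} (ha : IsUnit a) {c : ℝ}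
    (hc : 1 < c) : ∀ᶠ x : ℝ in atTop,
      ∃ p : ℕ, p.Prime ∧ (p : ZMod q) = a ∧ x < p ∧ (p : ℝ) ≤ c * x := by
  classical
  have hA : (0 : ℝ) < (q.totient : ℝ)⁻¹ :=
    inv_pos.2 (by exact_mod_cast Nat.totient_pos.2 (NeZero.pos q))
  filter_upwards [PNT.eventually_lt hA (prime_number_theorem_ap ha) hc,
    eventually_gt_atTop 0] with x hx hx0
  have h1 : ((Finset.Icc 1 ⌊x⌋₊).filter fun p : ℕ => p.Prime ∧ (p : ZMod q) = a).card <
      ((Finset.Icc 1 ⌊c * x⌋₊).filter fun p : ℕ => p.Prime ∧ (p : ZMod q) = a).card := by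
    exact_mod_cast hx
  by_contra hne
  push Not at hne
  refine absurd h1 (not_lt.2 (Finset.card_le_card fun p hp => ?_))
  have hcx : 0 ≤ c * x := by positivity
  rw [Finset.mem_filter, Finset.mem_Icc] at hp ⊢
  refine ⟨⟨hp.1.1, ?_⟩, hp.2⟩
  by_contra hlt
  have h2 : x < p := (Nat.floor_lt hx0.le).1 (not_le.1 hlt)
  exact absurd ((Nat.le_floor_iff hcx).1 hp.1.2) (not_le.2 (hne p hp.2.1 hp.2.2 h2))

end Fermat.Agent.Cor

end
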