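import Fermat.Agent.Corollaries.ZetaK.LEuler

/-!
# The logarithmic derivative of the class group L-functions

Index `q = (P, k) : Pr K × ℕ`, standing for the prime power `P^(k+1)`.

* `vm χ s q = log N(P) · χ(P^(k+1)) N(P^(k+1))^{-s}`;
* `hasSum_vm` : `∑_q vm χ s q = -L'(s, χ)/L(s, χ)` for `Re s > 1`, absolutely convergent;
* `LamC C n` : the sum of `log N(P)` over the prime powers of norm `n` in the class `C`;
* `LSeries_LamC` : its Dirichlet series.
-/

set_option autoImplicit false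
set_option linter.unusedSectionVars false

noncomputable section

open NumberField nonZeroDivisors Complex Filter Topology

open scoped Classical

namespace Fermat.Agent.Cor

open Fermat.Agent.ClassL

variable {K : Type*} [Field K] [NumberField K]

/-- the norm of a prime ideal -/
def nP (P : Pr K) : ℕ := Ideal.absNorm (P.1 : Ideal (𝓞 K))

theorem two_le_nP (P : Pr K) : 2 ≤ nP P := two_le_absNorm P

theorem nP_pos (P : Pr K) : 0 < nP P := by have := two_le_nP P; omega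

theorem log_nP_nonneg (P : Pr K) : 0 ≤ Real.log (nP P) :=
  Real.log_nonneg (by exact_mod_cast (one_le_two.trans (two_le_nP P)))

/-- `L(s, χ)` for `Re s > 1` -/
def Ls (χ : ClassGroup (𝓞 K) →* ℂˣ) (s : ℂ) : ℂ :=
  ∑' I : (Ideal (𝓞 K))⁰,
    (χ (ClassGroup.mk0 I) : ℂ) * (Ideal.absNorm (I : Ideal (𝓞 K)) : ℂ) ^ (-s)

theorem chiHom_pr (χ : ClassGroup (𝓞 K) →* ℂˣ) (s : ℂ) (P : Pr K) :
    chiHom χ s P.1 = (χ (ClassGroup.mk0 P.1) : ℂ) * (nP P : ℂ) ^ (-s) := rfl

theorem norm_chiHom_pr (χ : ClassGroup (𝓞 K) →* ℂˣ) (s : ℂ) (P : Pr K) :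
    ‖chiHom χ s P.1‖ = (nP P : ℝ) ^ (-s.re) := norm_chiHom χ s P.1

theorem norm_chiHom_pr_le_half (χ : ClassGroup (𝓞 K) →* ℂˣ) {s : ℂ} (hs : 1 < s.re) (P : Pr K) :
    ‖chiHom χ s P.1‖ ≤ 1 / 2 := by
  rw [norm_chiHom_pr]
  have h2 : (2 : ℝ) ≤ nP P := by exact_mod_cast two_le_nP P
  calc (nP P : ℝ) ^ (-s.re) ≤ (nP P : ℝ) ^ (-1 : ℝ) :=
        Real.rpow_le_rpow_of_exponent_le (by linarith) (by linarith)
    _ = (nP P : ℝ)⁻¹ := Real.rpow_neg_one _
    _ ≤ 2⁻¹ := inv_anti₀ (by norm_num) h2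
    _ = 1 / 2 := by norm_num

theorem hasDerivAt_chiHom (χ : ClassGroup (𝓞 K) →* ℂˣ) (s : ℂ) (P : Pr K) :
    HasDerivAt (fun w => chiHom χ w P.1) (-(Real.log (nP P) : ℂ) * chiHom χ s P.1) s := by
  have h0 : (nP P : ℂ) ≠ 0 := by exact_mod_cast (nP_pos P).ne'
  have h1 : HasDerivAt (fun w : ℂ => (nP P : ℂ) ^ (-w))
      ((nP P : ℂ) ^ (-s) * Complex.log (nP P) * (-1)) s :=
    ((hasDerivAt_id s).neg).const_cpow (Or.inl h0)
  have h2 := h1.const_mul (χ (ClassGroup.mk0 P.1) : ℂ)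
  refine h2.congr_deriv ?_
  rw [chiHom_pr, Complex.natCast_log]
  ring

theorem hasDerivAt_neg_log (χ : ClassGroup (𝓞 K) →* ℂˣ) {s : ℂ} (hs : 1 < s.re) (P : Pr K) :
    HasDerivAt (fun w => -Complex.log (1 - chiHom χ w P.1))
      (-((Real.log (nP P) : ℂ) * (chiHom χ s P.1 / (1 - chiHom χ s P.1)))) s := by
  have hz := norm_chiHom_pr_le_half χ hs P
  have hre : (chiHom χ s P.1).re < 1 := lt_of_le_of_lt ((Complex.re_le_norm _).trans hz)
    (by norm_num)
  have hslit : (1 - chiHom χ s P.1) ∈ Complex.slitPlane := by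
    left
    rw [sub_re, one_re]
    linarith
  have h1 := (((hasDerivAt_chiHom χ s P).const_sub 1).clog hslit).neg
  refine h1.congr_deriv ?_
  ring

/-- **The logarithmic derivative as a sum over the primes.** -/
theorem hasSum_log_deriv (χ : ClassGroup (𝓞 K) →* ℂˣ) {s : ℂ} (hs : 1 < s.re) :
    HasSum (fun P : Pr K => (Real.log (nP P) : ℂ) * (chiHom χ s P.1 / (1 - chiHom χ s P.1)))
      (-(deriv (Ls χ) s / Ls χ s)) := by
  obtain ⟨σ, hσ1, hσ⟩ := exists_between hs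
  have hU : IsOpen {w : ℂ | σ < w.re} := isOpen_lt continuous_const Complex.continuous_re
  have key := hasSum_deriv_of_summable_norm (ι := Pr K)
    (F := fun P w => -Complex.log (1 - chiHom χ w P.1)) (U := {w : ℂ | σ < w.re}) (z := s)
    (u := fun P => 3 / 2 * (nP P : ℝ) ^ (-σ)) ((summable_pr_rpow hσ1).mul_left _)
    (fun P w hw => (hasDerivAt_neg_log χ (hσ1.trans hw) P).differentiableAt.differentiableWithinAt)
    hU (fun P w hw => ?_) hσ
  · have h1 : (fun P : Pr K => deriv (fun w => -Complex.log (1 - chiHom χ w P.1)) s) =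
        fun P : Pr K => -((Real.log (nP P) : ℂ) * (chiHom χ s P.1 / (1 - chiHom χ s P.1))) :=
      funext fun P => (hasDerivAt_neg_log χ hs P).deriv
    have h2 : deriv (Ls χ) s = deriv (fun w : ℂ => ∑' P : Pr K,
        -Complex.log (1 - chiHom χ w P.1)) s * Ls χ s := by
      have h3 : Ls χ =ᶠ[𝓝 s] fun w => Complex.exp (∑' P : Pr K,
          -Complex.log (1 - chiHom χ w P.1)) := by
        filter_upwards [hU.mem_nhds hσ] with w hw
        exact (exp_tsum_log_chi χ (hσ1.trans hw)).symm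
      have h4 : DifferentiableAt ℂ (fun w : ℂ => ∑' P : Pr K,
          -Complex.log (1 - chiHom χ w P.1)) s := by
        have h5 := differentiableOn_tsum_of_summable_norm (ι := Pr K)
          (F := fun P w => -Complex.log (1 - chiHom χ w P.1)) (U := {w : ℂ | σ < w.re})
          (u := fun P => 3 / 2 * (nP P : ℝ) ^ (-σ)) ((summable_pr_rpow hσ1).mul_left _)
          (fun P w hw =>
            (hasDerivAt_neg_log χ (hσ1.trans hw) P).differentiableAt.differentiableWithinAt)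
          hU (fun P w hw => ?_)
        · exact h5.differentiableAt (hU.mem_nhds hσ)
        · rw [norm_neg, sub_eq_add_neg]
          refine (Complex.norm_log_one_add_half_le_self ?_).trans ?_
          · rw [norm_neg]
            exact norm_chiHom_pr_le_half χ (hσ1.trans hw) P
          · rw [norm_neg, norm_chiHom_pr]
            refine mul_le_mul_of_nonneg_left ?_ (by norm_num)
            exact Real.rpow_le_rpow_of_exponent_le
              (by exact_mod_cast (one_le_two.trans (two_le_nP P))) (neg_le_neg (le_of_lt hw))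
      rw [h3.deriv_eq, deriv_cexp h4, mul_comm, ← h3.eq_of_nhds]
    have h6 : Ls χ s ≠ 0 := tsum_chi_ne_zero χ hs
    rw [h1] at key
    have h7 := key.neg
    simp only [neg_neg] at h7
    rw [h2, mul_div_assoc, div_self h6, mul_one]
    exact h7
  · rw [norm_neg, sub_eq_add_neg]
    refine (Complex.norm_log_one_add_half_le_self ?_).trans ?_
    · rw [norm_neg]
      exact norm_chiHom_pr_le_half χ (hσ1.trans hw) P
    · rw [norm_neg, norm_chiHom_pr]
      refine mul_le_mul_of_nonneg_left ?_ (by norm_num)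
      exact Real.rpow_le_rpow_of_exponent_le
        (by exact_mod_cast (one_le_two.trans (two_le_nP P))) (neg_le_neg (le_of_lt hw))

/-! ### Prime powers -/

/-- `log N(P) · χ(P^(k+1)) N(P^(k+1))^{-s}` -/
def vm (χ : ClassGroup (𝓞 K) →* ℂˣ) (s : ℂ) (q : Pr K × ℕ) : ℂ :=
  (Real.log (nP q.1) : ℂ) * chiHom χ s (q.1.1 ^ (q.2 + 1))

theorem vm_eq (χ : ClassGroup (𝓞 K) →* ℂˣ) (s : ℂ) (q : Pr K × ℕ) :
    vm χ s q = (Real.log (nP q.1) : ℂ) * chiHom χ s q.1.1 ^ (q.2 + 1) := by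
  rw [vm, map_pow]

theorem vm_eq' (χ : ClassGroup (𝓞 K) →* ℂˣ) (s : ℂ) (q : Pr K × ℕ) :
    vm χ s q = (Real.log (nP q.1) : ℂ) * ((χ (ClassGroup.mk0 q.1.1 ^ (q.2 + 1)) : ℂˣ) : ℂ) *
      ((nP q.1 ^ (q.2 + 1) : ℕ) : ℂ) ^ (-s) := by
  have h : Ideal.absNorm ((q.1.1 ^ (q.2 + 1) : (Ideal (𝓞 K))⁰) : Ideal (𝓞 K)) =
      nP q.1 ^ (q.2 + 1) := by
    rw [SubmonoidClass.coe_pow, map_pow]
    rfl
  rw [vm, chiHom_apply, h, map_pow, ← mul_assoc]

theorem norm_vm (χ : ClassGroup (𝓞 K) →* ℂˣ) (s : ℂ) (q : Pr K × ℕ) :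
    ‖vm χ s q‖ = Real.log (nP q.1) * ((nP q.1 : ℝ) ^ (-s.re)) ^ (q.2 + 1) := by
  rw [vm_eq, norm_mul, norm_pow, norm_chiHom_pr, Complex.norm_real, Real.norm_eq_abs,
    abs_of_nonneg (log_nP_nonneg _)]

theorem hasSum_geom (χ : ClassGroup (𝓞 K) →* ℂˣ) {s : ℂ} (hs : 1 < s.re) (P : Pr K) :
    HasSum (fun k : ℕ => vm χ s (P, k))
      ((Real.log (nP P) : ℂ) * (chiHom χ s P.1 / (1 - chiHom χ s P.1))) := by
  have hz : ‖chiHom χ s P.1‖ < 1 :=
    (norm_chiHom_pr_le_half χ hs P).trans_lt (by norm_num)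
  have h := ((hasSum_geometric_of_norm_lt_one hz).mul_left (chiHom χ s P.1)).mul_left
    (Real.log (nP P) : ℂ)
  have e : (fun k : ℕ => vm χ s (P, k)) = fun k : ℕ =>
      (Real.log (nP P) : ℂ) * (chiHom χ s P.1 * chiHom χ s P.1 ^ k) := by
    funext k
    rw [vm_eq, pow_succ']
  rw [e, div_eq_mul_inv]
  exact h

/-- **Absolute convergence** of the sum over the prime powers. -/
theorem summable_norm_vm (χ : ClassGroup (𝓞 K) →* ℂˣ) {s : ℂ} (hs : 1 < s.re) :
    Summable fun q : Pr K × ℕ => ‖vm χ s q‖ := by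
  rw [summable_prod_of_nonneg fun _ => norm_nonneg _]
  have hr : 1 < ((s.re : ℂ)).re := by rwa [Complex.ofReal_re]
  -- comparison with the trivial character at the real point
  have h1 : ∀ q : Pr K × ℕ, ‖vm χ s q‖ = ‖vm (1 : ClassGroup (𝓞 K) →* ℂˣ) (s.re : ℂ) q‖ := by
    intro q
    rw [norm_vm, norm_vm, Complex.ofReal_re]
  have h2 : ∀ P : Pr K, HasSum (fun k : ℕ => ‖vm χ s (P, k)‖)
      (Real.log (nP P) * ((nP P : ℝ) ^ (-s.re) / (1 - (nP P : ℝ) ^ (-s.re)))) := by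
    intro P
    have h0 : (0 : ℝ) ≤ (nP P : ℝ) ^ (-s.re) := Real.rpow_nonneg (Nat.cast_nonneg _) _
    have h3 : (nP P : ℝ) ^ (-s.re) < 1 := by
      have := norm_chiHom_pr_le_half χ hs P
      rw [norm_chiHom_pr] at this
      linarith
    have h4 := ((hasSum_geometric_of_lt_one h0 h3).mul_left ((nP P : ℝ) ^ (-s.re))).mul_left
      (Real.log (nP P))
    have e : (fun k : ℕ => ‖vm χ s (P, k)‖) = fun k : ℕ =>
        Real.log (nP P) * ((nP P : ℝ) ^ (-s.re) * ((nP P : ℝ) ^ (-s.re)) ^ k) := by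
      funext k
      rw [norm_vm, pow_succ']
    rw [e, div_eq_mul_inv]
    exact h4
  refine ⟨fun P => (h2 P).summable, ?_⟩
  have h5 : (fun P : Pr K => ∑' k : ℕ, ‖vm χ s (P, k)‖) = fun P =>
      Real.log (nP P) * ((nP P : ℝ) ^ (-s.re) / (1 - (nP P : ℝ) ^ (-s.re))) :=
    funext fun P => (h2 P).tsum_eq
  rw [h5, ← Complex.summable_ofReal]
  refine (hasSum_log_deriv (1 : ClassGroup (𝓞 K) →* ℂˣ) hr).summable.congr fun P => ?_
  have h6 : chiHom (1 : ClassGroup (𝓞 K) →* ℂˣ) (s.re : ℂ) P.1 =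
      (((nP P : ℝ) ^ (-s.re) : ℝ) : ℂ) := by
    rw [chiHom_pr, MonoidHom.one_apply, Units.val_one, one_mul,
      Complex.ofReal_cpow (Nat.cast_nonneg _)]
    push_cast
    rfl
  rw [h6]
  push_cast
  rfl

/-- **The logarithmic derivative as a sum over the prime powers.** -/
theorem hasSum_vm (χ : ClassGroup (𝓞 K) →* ℂˣ) {s : ℂ} (hs : 1 < s.re) :
    HasSum (fun q : Pr K × ℕ => vm χ s q) (-(deriv (Ls χ) s / Ls χ s)) := by
  have h1 : Summable fun q : Pr K × ℕ => vm χ s q := (summable_norm_vm χ hs).of_norm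
  have h2 := h1.hasSum.prod_fiberwise fun P => hasSum_geom χ hs P
  have h3 := h2.unique (hasSum_log_deriv χ hs)
  rw [← h3]
  exact h1.hasSum

end Fermat.Agent.Cor

end
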