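import Fermat.Agent.Corollaries.ZetaK.PrimeCount
import Fermat.Agent.Corollaries.ZetaK.LogDeriv

/-!
# Counting prime ideals: the instance of `PrimeCount`
-/

set_option autoImplicit false
set_option linter.unusedSectionVars false

noncomputable section

open NumberField nonZeroDivisors Filter Topology

open scoped Classical

namespace Fermat.Agent.Cor

open Fermat.Agent.ClassL

variable (K : Type*) [Field K] [NumberField K]

theorem finite_nP (x : ℕ) : {P : Pr K | nP P ≤ x}.Finite := by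
  have h := Ideal.finite_setOfPred_absNorm_le₀ (S := 𝓞 K) x
  exact h.preimage (f := fun P : Pr K => P.1) Subtype.val_injective.injOn

theorem exists_card_ideals_le : ∃ D : ℝ, ∀ x : ℕ,
    (Nat.card {I : (Ideal (𝓞 K))⁰ // Ideal.absNorm (I : Ideal (𝓞 K)) ≤ x} : ℝ) ≤ D * x := by
  have h := (NumberField.Ideal.tendsto_norm_le_div_atTop₀ K).comp tendsto_natCast_atTop_atTop
  obtain ⟨D, hD⟩ := h.bddAbove_range
  refine ⟨D, fun x => ?_⟩
  rcases Nat.eq_zero_or_pos x with rfl | hx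
  · have : IsEmpty {I : (Ideal (𝓞 K))⁰ // Ideal.absNorm (I : Ideal (𝓞 K)) ≤ 0} := by
      refine ⟨fun I => ?_⟩
      have h1 := Nat.le_zero.1 I.2
      rw [Ideal.absNorm_eq_zero_iff] at h1
      exact nonZeroDivisors.coe_ne_zero I.1 h1
    rw [Nat.card_of_isEmpty]
    simp
  · have h1 := hD ⟨x, rfl⟩
    simp only [Function.comp_apply, Nat.cast_le] at h1
    rwa [div_le_iff₀ (by exact_mod_cast hx)] at h1

/-- at most `D x` prime ideals of norm `≤ x` -/
theorem exists_isCount : ∃ D : ℝ, IsCount (nP (K := K)) D := by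
  obtain ⟨D, hD⟩ := exists_card_ideals_le K
  refine ⟨D, two_le_nP, finite_nP K, fun x => le_trans ?_ (hD x)⟩
  rw [← Nat.card_coe_set_eq]
  have hfin : Finite {I : (Ideal (𝓞 K))⁰ // Ideal.absNorm (I : Ideal (𝓞 K)) ≤ x} :=
    (Ideal.finite_setOfPred_absNorm_le₀ (S := 𝓞 K) x).to_subtype
  exact_mod_cast Nat.card_le_card_of_injective
    (fun P : {P : Pr K | nP P ≤ x} =>
      (⟨P.1.1, P.2⟩ : {I : (Ideal (𝓞 K))⁰ // Ideal.absNorm (I : Ideal (𝓞 K)) ≤ x}))
    (fun P Q h => Subtype.ext (Subtype.ext (congrArg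
      (fun I : {I : (Ideal (𝓞 K))⁰ // Ideal.absNorm (I : Ideal (𝓞 K)) ≤ x} => I.1) h)))

/-- **Prime ideals in a class**, from the sum of `Λ`. -/
theorem tendsto_card_class {C : ClassGroup (𝓞 K)} {a : ℕ → ℝ}
    (ha : ∀ n, a n = ∑' q : {q : Pr K × ℕ // nP q.1 ^ (q.2 + 1) = n ∧
      ClassGroup.mk0 q.1.1 ^ (q.2 + 1) = C}, Real.log (nP q.1.1)) {A : ℝ}
    (hA : Tendsto (fun x : ℝ => (∑ n ∈ Finset.Icc 1 ⌊x⌋₊, a n) / x) atTop (𝓝 A)) :
    Tendsto (fun x : ℕ => (Nat.card {P : Pr K // nP P ≤ x ∧ ClassGroup.mk0 P.1 = C} : ℝ) *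
      Real.log x / x) atTop (𝓝 A) := by
  obtain ⟨D, hD⟩ := exists_isCount K
  refine (hD.count_of_psi_nat (T := fun P k => ClassGroup.mk0 P.1 ^ (k + 1) = C) ha hA).congr
    fun x => ?_
  simp only [zero_add, pow_one]

theorem finite_nP_class (C : ClassGroup (𝓞 K)) (x : ℕ) :
    Finite {P : Pr K // nP P ≤ x ∧ ClassGroup.mk0 P.1 = C} :=
  ((finite_nP K x).subset fun _ h => h.1).to_subtype

/-- the primes of norm `≤ x`, by classes -/
theorem card_eq_sum_class (x : ℕ) : Nat.card {P : Pr K // nP P ≤ x} =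
    ∑ C : ClassGroup (𝓞 K), Nat.card {P : Pr K // nP P ≤ x ∧ ClassGroup.mk0 P.1 = C} := by
  have : ∀ C : ClassGroup (𝓞 K), Finite {P : Pr K // nP P ≤ x ∧ ClassGroup.mk0 P.1 = C} :=
    fun C => finite_nP_class K C x
  rw [← Nat.card_sigma]
  refine Nat.card_congr
    { toFun := fun P => ⟨ClassGroup.mk0 P.1.1, P.1, P.2, rfl⟩
      invFun := fun P => ⟨P.2.1, P.2.2.1⟩
      left_inv := fun _ => rfl
      right_inv := ?_ }
  rintro ⟨C, P, hP, rfl⟩
  rfl

/-- all prime ideals, from the classes -/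
theorem tendsto_card_all {A : ℝ}
    (h : ∀ C : ClassGroup (𝓞 K), Tendsto (fun x : ℕ =>
      (Nat.card {P : Pr K // nP P ≤ x ∧ ClassGroup.mk0 P.1 = C} : ℝ) * Real.log x / x) atTop
      (𝓝 (A / Nat.card (ClassGroup (𝓞 K))))) :
    Tendsto (fun x : ℕ => (Nat.card {P : Pr K // nP P ≤ x} : ℝ) * Real.log x / x) atTop
      (𝓝 A) := by
  have h1 := tendsto_finsetSum Finset.univ fun (C : ClassGroup (𝓞 K)) _ => h C
  have h2 : ∑ _C : ClassGroup (𝓞 K), A / Nat.card (ClassGroup (𝓞 K)) = A := by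
    rw [Finset.sum_const, Finset.card_univ, nsmul_eq_mul, Nat.card_eq_fintype_card]
    field_simp
  rw [h2] at h1
  refine h1.congr fun x => ?_
  rw [card_eq_sum_class, Nat.cast_sum, Finset.sum_mul, Finset.sum_div]

end Fermat.Agent.Cor

end
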