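import Fermat.Agent.Classic.Level.Z5Final
import Fermat.Agent.Classic.Zeta.Compare
import Fermat.Agent.Classic.Zeta.Order

/-!
# Arithmetically equivalent number fields: the arithmetic part

If the completed Dirichlet series `ζ_K E_K = ζ_K' E_K'` (`E` the product of the Euler factors
at `N`) have the same gamma factor, then the uniqueness of the functional equation gives
`ζ_K E_K^* = ζ_K' E_K'^*`, and from the two equations `ζ_K = ζ_K'`.
-/

set_option autoImplicit false

noncomputable section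

open NumberField IsDedekindDomain Fermat.Agent.Classic.Disc Fermat.Agent.Classic.Zeta
open PowerSeries (X)
open scoped LSeries.notation ArithmeticFunction

namespace Fermat.Agent.Cor.AE

/-- the function `n ↦ n f(n)` -/
def tw (f : ArithmeticFunction ℂ) : ArithmeticFunction ℂ := ⟨fun n => (n : ℂ) * f n, by simp⟩

theorem tw_apply (f : ArithmeticFunction ℂ) (n : ℕ) : tw f n = (n : ℂ) * f n := rfl

theorem tw_mul (f g : ArithmeticFunction ℂ) : tw (f * g) = tw f * tw g := by
  ext n
  rw [tw_apply, ArithmeticFunction.mul_apply, ArithmeticFunction.mul_apply, Finset.mul_sum]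
  refine Finset.sum_congr rfl fun x hx => ?_
  rw [tw_apply, tw_apply]
  have h : (n : ℂ) = (x.1 : ℂ) * x.2 := by
    rw [← (Nat.mem_divisorsAntidiagonal.1 hx).1, Nat.cast_mul]
  rw [h]
  ring

theorem tw_one : tw 1 = 1 := by
  ext n
  rw [tw_apply, ArithmeticFunction.one_apply]
  split_ifs with h
  · rw [h, Nat.cast_one, mul_one]
  · rw [mul_zero]

theorem isMultiplicative_tw {f : ArithmeticFunction ℂ} (hf : f.IsMultiplicative) :
    (tw f).IsMultiplicative := by
  refine ⟨by rw [tw_apply, hf.1, Nat.cast_one, mul_one], ?_⟩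
  intro m n hmn
  rw [tw_apply, tw_apply, tw_apply, hf.2 hmn, Nat.cast_mul]
  ring

theorem Sp_tw (p : ℕ) (f : ArithmeticFunction ℂ) :
    Sp p (tw f) = PowerSeries.rescale (p : ℂ) (Sp p f) := by
  ext k
  rw [coeff_Sp, tw_apply, PowerSeries.coeff_rescale, coeff_Sp, Nat.cast_pow]

theorem toAF_ef' (ν : ℕ) : toArithmeticFunction (ef' ν) = tw (toArithmeticFunction (ef ν)) := by
  ext n
  rw [tw_apply]
  change (if n = 0 then 0 else ef' ν n) = (n : ℂ) * (if n = 0 then 0 else ef ν n)
  rcases eq_or_ne n 0 with h0 | h0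
  · rw [if_pos h0, if_pos h0, mul_zero]
  · rw [if_neg h0, if_neg h0, ef', ef]
    split_ifs with h1 h2
    · rw [h1, Nat.cast_one, mul_one]
    · rw [h2, mul_neg_one]
    · rw [mul_zero]

theorem toAF_efl' (l : List ℕ) :
    toArithmeticFunction (efl' l) = tw (toArithmeticFunction (efl l)) := by
  induction l with
  | nil =>
    have h : toArithmeticFunction (efl' []) = toArithmeticFunction (efl []) := rfl
    have h1 : toArithmeticFunction (efl []) = (1 : ArithmeticFunction ℂ) := by
      rw [toArithmeticFunction_efl, List.map_nil, List.prod_nil]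
    rw [h, h1, tw_one]
  | cons ν l ih =>
    rw [efl'_cons, efl_cons, toAF_convolution, toAF_convolution, ih, toAF_ef', tw_mul]

theorem ne_one_pow {p : ℕ} (hp : p.Prime) {k : ℕ} (hk : k ≠ 0) : ((p : ℂ)) ^ k ≠ 1 := by
  have h : 1 < p ^ k := Nat.one_lt_pow hk hp.one_lt
  intro h'
  have h2 : ((p ^ k : ℕ) : ℂ) = ((1 : ℕ) : ℂ) := by
    rw [Nat.cast_pow, h', Nat.cast_one]
  exact h.ne' (Nat.cast_injective h2)

/-- a power series with `T(pX) = T(X)` is constant -/
theorem eq_C_of_rescale {p : ℕ} (hp : p.Prime) {T : PowerSeries ℂ}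
    (h : PowerSeries.rescale (p : ℂ) T = T) : T = PowerSeries.C (PowerSeries.constantCoeff T) := by
  ext k
  rw [PowerSeries.coeff_C]
  split_ifs with hk
  · rw [hk, PowerSeries.coeff_zero_eq_constantCoeff_apply]
  · have h1 := congrArg (PowerSeries.coeff k) h
    rw [PowerSeries.coeff_rescale] at h1
    have h2 : ((p : ℂ) ^ k - 1) * PowerSeries.coeff k T = 0 := by linear_combination h1
    rcases mul_eq_zero.1 h2 with h3 | h3
    · exact absurd (sub_eq_zero.1 h3) (ne_one_pow hp hk)
    · exact h3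

/-- `S R = 1 = S' R'`, `S R(pX) = S' R'(pX)`, `R(0) = R'(0) = 1` give `S = S'` -/
theorem eq_of_rescale {p : ℕ} (hp : p.Prime) {S S' R R' : PowerSeries ℂ} (h : S * R = 1)
    (h' : S' * R' = 1)
    (hr : S * PowerSeries.rescale (p : ℂ) R = S' * PowerSeries.rescale (p : ℂ) R')
    (hR : PowerSeries.constantCoeff R = 1) (hR' : PowerSeries.constantCoeff R' = 1) : S = S' := by
  set ρ := PowerSeries.rescale (p : ℂ) with hρ
  have h1 : ρ S' * ρ R' = 1 := by rw [← map_mul, h', map_one]
  -- `T = R S'` satisfies `T(pX) = T(X)`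
  have hT : ρ (R * S') = R * S' := by
    rw [map_mul]
    calc ρ R * ρ S' = (S * R) * (S' * R') * (ρ R * ρ S') := by rw [h, h', one_mul, one_mul]
      _ = (S * ρ R) * (R * S' * R' * ρ S') := by ring
      _ = (S' * ρ R') * (R * S' * R' * ρ S') := by rw [hr]
      _ = (S' * R') * (ρ S' * ρ R') * (R * S') := by ring
      _ = R * S' := by rw [h', h1, one_mul, one_mul]
  have hc : PowerSeries.constantCoeff S' = 1 := by
    have := congrArg PowerSeries.constantCoeff h'
    rwa [map_mul, hR', mul_one, map_one] at this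
  have hT1 : R * S' = 1 := by
    rw [eq_C_of_rescale hp hT, map_mul, hR, hc, mul_one, map_one]
  calc S = S * (R * S') := by rw [hT1, mul_one]
    _ = (S * R) * S' := by ring
    _ = S' := by rw [h, one_mul]

/-- from the comparison of two functional equations: the conductors are equal and the duals agree -/
theorem eq_of_shift {a₁ a₂ : ℕ → ℂ} {D₁ D₂ : ℕ} (hD₁ : D₁ ≠ 0) (hD₂ : D₂ ≠ 0) (h₁ : a₁ 1 = 1)
    (h₂ : a₂ 1 = 1) (h : ∃ κ : ℂ, κ ≠ 0 ∧ ∀ n : ℕ, n ≠ 0 →
      (if D₂ ∣ n then a₁ (n / D₂) else 0) = κ * (if D₁ ∣ n then a₂ (n / D₁) else 0)) :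
    D₁ = D₂ ∧ ∀ n : ℕ, n ≠ 0 → a₁ n = a₂ n := by
  obtain ⟨κ, hκ, h⟩ := h
  have hd : D₁ ∣ D₂ := by
    by_contra hd
    have := h D₂ hD₂
    rw [if_pos dvd_rfl, Nat.div_self (Nat.pos_of_ne_zero hD₂), if_neg hd, h₁, mul_zero] at this
    exact one_ne_zero this
  have hd' : D₂ ∣ D₁ := by
    by_contra hd'
    have := h D₁ hD₁
    rw [if_neg hd', if_pos dvd_rfl, Nat.div_self (Nat.pos_of_ne_zero hD₁), h₂, mul_one] at this
    exact hκ this.symm
  have hD : D₁ = D₂ := Nat.dvd_antisymm hd hd'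
  subst hD
  have hκ1 : κ = 1 := by
    have := h D₁ hD₁
    rw [if_pos dvd_rfl, if_pos dvd_rfl, Nat.div_self (Nat.pos_of_ne_zero hD₁), h₁, h₂,
      mul_one] at this
    exact this.symm
  refine ⟨rfl, fun n hn => ?_⟩
  have := h (D₁ * n) (mul_ne_zero hD₁ hn)
  rwa [if_pos (dvd_mul_right _ _), if_pos (dvd_mul_right _ _),
    Nat.mul_div_cancel_left _ (Nat.pos_of_ne_zero hD₁), hκ1, one_mul] at this

end Fermat.Agent.Cor.AE

end
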