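import Fermat.Agent.Corollaries.ZetaK.Trivial
import Fermat.Agent.Corollaries.ZetaK.ZetaOne
import Fermat.Agent.Corollaries.ZetaK.NonVan
import Fermat.Agent.Corollaries.ZetaK.ArithEquivAux

/-!
# Arithmetically equivalent number fields

`zeta_eq_of_almost_all`: if for all primes `p` not dividing `N ≠ 0` the fields `K` and `K'` have the
same numbers of ideals of norm `p^k`, then they have the same numbers of ideals of every norm, that is
`ζ_K = ζ_K'` (the analytic half of a theorem of Perlis).

`arith_equiv`: if `ζ_K = ζ_K'`, then `K` and `K'` have the same numbers of real and of complex places,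
the same degree, the same discriminant and the same `h R / w`.
-/

set_option autoImplicit false

noncomputable section

open NumberField NumberField.InfinitePlace IsDedekindDomain Fermat.Agent.Classic.Disc
open Fermat.Agent.Classic.Zeta Fermat.Agent.FrobDensity
open PowerSeries (X)
open scoped LSeries.notation ArithmeticFunction

namespace Fermat.Agent.Cor.AE

open Fermat.Agent.Cor.ZetaK

universe u v

/-! ### The product of the Euler factors -/

/-- `∏ (1 - ν^{-s})` over a list -/
def fpL (l : List ℕ) (s : ℂ) : ℂ := (l.map fun ν : ℕ => 1 - (ν : ℂ) ^ (-s)).prod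

theorem fpL_cons (ν : ℕ) (l : List ℕ) (s : ℂ) :
    fpL (ν :: l) s = (1 - (ν : ℂ) ^ (-s)) * fpL l s := by
  rw [fpL, List.map_cons, List.prod_cons]
  rfl

theorem differentiable_fpL {l : List ℕ} (hl : ∀ ν ∈ l, 2 ≤ ν) : Differentiable ℂ (fpL l) := by
  induction l with
  | nil =>
    have h : fpL [] = fun _ => (1 : ℂ) := funext fun s => by simp [fpL]
    rw [h]
    exact differentiable_const _
  | cons ν l ih =>
    have hν : (ν : ℂ) ≠ 0 := by
      have := hl ν List.mem_cons_self
      rw [Nat.cast_ne_zero]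
      omega
    have h : fpL (ν :: l) = fun s => (1 - (ν : ℂ) ^ (-s)) * fpL l s := funext (fpL_cons ν l)
    rw [h]
    refine Differentiable.mul ?_ (ih fun μ hμ => hl μ (List.mem_cons_of_mem ν hμ))
    refine (differentiable_const _).sub fun s => ?_
    exact (differentiable_id.neg s).const_cpow (Or.inl hν)

theorem fpL_ne_zero {l : List ℕ} (hl : ∀ ν ∈ l, 2 ≤ ν) {s : ℂ} (hs : s.re < 0) :
    fpL l s ≠ 0 := by
  induction l with
  | nil => simp [fpL]
  | cons ν l ih =>
    rw [fpL_cons]
    refine mul_ne_zero ?_ (ih fun μ hμ => hl μ (List.mem_cons_of_mem ν hμ))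
    have hν := hl ν List.mem_cons_self
    intro h
    have h1 : ‖(ν : ℂ) ^ (-s)‖ = 1 := by
      rw [← sub_eq_zero.1 h, norm_one]
    rw [Complex.norm_natCast_cpow_of_pos (by omega), Complex.neg_re] at h1
    have h2 : (1 : ℝ) < (ν : ℝ) ^ (-s.re) :=
      Real.one_lt_rpow (by exact_mod_cast (by omega : 1 < ν)) (by linarith)
    linarith

theorem hasSum_efl {l : List ℕ} (hl : ∀ ν ∈ l, 2 ≤ ν) (s : ℂ) :
    LSeriesHasSum (efl l) s (fpL l s) := by
  induction l with
  | nil =>
    have h : LSeriesHasSum (fun n => if n = 1 then 1 else if n = 2 then (0 : ℂ) else 0) s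
      (1 + 0 / ((2 : ℕ) : ℂ) ^ s) := hasSum_ef le_rfl 0 s
    have h0 : (fun n => if n = 1 then 1 else if n = 2 then (0 : ℂ) else 0) = efl [] := by
      rw [efl_nil]
      funext n
      simp
    rw [h0, zero_div, add_zero] at h
    simpa [fpL] using h
  | cons ν l ih =>
    rw [efl_cons, fpL_cons]
    refine LSeriesHasSum.convolution ?_ (ih fun μ hμ => hl μ (List.mem_cons_of_mem ν hμ))
    have h := hasSum_ef (hl ν List.mem_cons_self) (-1) s
    have h1 : (1 : ℂ) + -1 / (ν : ℂ) ^ s = 1 - (ν : ℂ) ^ (-s) := by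
      rw [Complex.cpow_neg]
      ring
    rw [h1] at h
    exact h

/-! ### One field -/

section One

variable (K : Type u) [Field K] [NumberField K]

/-- the coefficients of the Dedekind zeta function -/
def zn : ℕ → ℂ := fun n => (Nat.card {I : Ideal (𝓞 K) // Ideal.absNorm I = n} : ℂ)

theorem zn_eq (n : ℕ) : zn K n = (idealCount K n : ℂ) := rfl

theorem toAF_zn : toArithmeticFunction (zn K) = zcA K := rfl

theorem zn_one : zn K 1 = 1 := by
  rw [zn_eq, idealCount_one, Nat.cast_one]

theorem two_le_of_mem_normList {N : ℕ} (hN : N ≠ 0) : ∀ ν ∈ normList K N, 2 ≤ ν := by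
  intro ν hν
  rw [normList, List.mem_map] at hν
  obtain ⟨v, hv, rfl⟩ := hν
  rw [Finset.mem_toList] at hv
  obtain ⟨ℓ, hℓ, -, h⟩ := exists_char v hN ((mem_above hN).mp hv)
  rw [absNorm_eq hℓ ((mem_above hℓ.ne_zero).mp h)]
  exact hℓ.two_le.trans (Nat.le_self_pow (fdeg_pos v).ne' ℓ)

theorem fe_zn_mul {N : ℕ} (hN : N ≠ 0) : FE (zn K ⍟ efl (normList K N))
    (zn K ⍟ efl' (normList K N)) ((discr K).natAbs * (normList K N).prod) (nrRealPlaces K)
    (nrComplexPlaces K) := by
  have h := FE.mul (zetaFE K) (fe_efl (two_le_of_mem_normList K hN))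
  rw [add_zero, add_zero] at h
  exact h

variable {K}

theorem exists_zeta_mul {N : ℕ} (hN : N ≠ 0) : ∃ σ : ℝ, 1 ≤ σ ∧ ∀ s : ℂ, σ < s.re →
    zetaK K s * fpL (normList K N) s = LSeries (zn K ⍟ efl (normList K N)) s := by
  obtain ⟨k, κ, Ξ, σ, -, -, hσ, H⟩ := zetaFE K
  refine ⟨σ, hσ, fun s hs => ?_⟩
  have h1 : LSeriesHasSum (zn K) s (LSeries (zn K) s) := (H s hs).1.LSeriesHasSum
  have h2 := h1.convolution (hasSum_efl (two_le_of_mem_normList K hN) s)
  rw [h2.LSeries_eq, zetaK_eq_dedekindZeta (lt_of_le_of_lt hσ hs)]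
  rfl

theorem analyticAt_zetaK {s : ℂ} (hs : s ≠ 1) : AnalyticAt ℂ (zetaK K) s := by
  refine DifferentiableOn.analyticAt (s := {z : ℂ | z ≠ 1}) (fun z hz => ?_)
    (isOpen_ne.mem_nhds hs)
  exact (differentiableAt_LF _ hz).differentiableWithinAt

theorem order_zeta_mul {N : ℕ} (hN : N ≠ 0) {s : ℂ} (hs : s.re < 0) :
    analyticOrderAt (fun z => zetaK K z * fpL (normList K N) z) s =
      analyticOrderAt (zetaK K) s := by
  have h1 : s ≠ 1 := by
    rintro rfl
    rw [Complex.one_re] at hs
    linarith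
  have hl := two_le_of_mem_normList K hN
  have hB : AnalyticAt ℂ (fpL (normList K N)) s := (differentiable_fpL hl).analyticAt s
  rw [ord_mul (analyticAt_zetaK h1) hB, ord_eq_zero hB (fpL_ne_zero hl hs), add_zero]

end One

/-! ### Two fields -/

section Two

variable {K : Type u} [Field K] [NumberField K] {K' : Type v} [Field K'] [NumberField K']

/-- the depleted zeta functions agree -/
theorem conv_eq {N : ℕ} (hN : N ≠ 0)
    (h : ∀ p : ℕ, p.Prime → ¬ p ∣ N → ∀ k : ℕ, idealCount K (p ^ k) = idealCount K' (p ^ k))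
    (n : ℕ) : (zn K ⍟ efl (normList K N)) n = (zn K' ⍟ efl (normList K' N)) n := by
  have key : zcA K * badE K N = zcA K' * badE K' N := by
    refine ext_Sp (isMultiplicative_zcA.mul (isMultiplicative_badE hN))
      (isMultiplicative_zcA.mul (isMultiplicative_badE hN)) fun p hp => ?_
    rw [Sp_zcA_mul_badE (localStmt K) hp hN, Sp_zcA_mul_badE (localStmt K') hp hN]
    split_ifs with hpN
    · rfl
    · ext k
      rw [coeff_Sp, coeff_Sp, zcA_apply (pow_ne_zero _ hp.ne_zero),
        zcA_apply (pow_ne_zero _ hp.ne_zero), h p hp hpN k]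
  refine eq_of_toAF ?_ (LSeries.convolution_map_zero _ _) (LSeries.convolution_map_zero _ _) n
  rw [toAF_convolution, toAF_convolution, ← badE_eq, ← badE_eq]
  exact key

theorem zeta_mul_eq {N : ℕ} (hN : N ≠ 0)
    (h : ∀ n : ℕ, (zn K ⍟ efl (normList K N)) n = (zn K' ⍟ efl (normList K' N)) n) {s : ℂ}
    (hs : s ≠ 1) :
    zetaK K s * fpL (normList K N) s = zetaK K' s * fpL (normList K' N) s := by
  obtain ⟨σ, hσ, h1⟩ := exists_zeta_mul (K := K) hN
  obtain ⟨σ', hσ', h2⟩ := exists_zeta_mul (K := K') hN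
  have key := eq_of_eq_re_large (σ := max σ σ')
    (f := fun s => WK (K := K) (fun _ => 1) s * fpL (normList K N) s)
    (g := fun s => WK (K := K') (fun _ => 1) s * fpL (normList K' N) s)
    ((differentiable_WK _).mul (differentiable_fpL (two_le_of_mem_normList K hN)))
    ((differentiable_WK _).mul (differentiable_fpL (two_le_of_mem_normList K' hN)))
    (fun z hz => by
      have hz1 := lt_of_le_of_lt (le_max_left σ σ') hz
      have hz2 := lt_of_le_of_lt (le_max_right σ σ') hz
      have hz0 : z ≠ 1 := ne_one_of_re (lt_of_le_of_lt hσ hz1)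
      change WK (K := K) (fun _ => 1) z * _ = WK (K := K') (fun _ => 1) z * _
      rw [WK_eq _ hz0, WK_eq _ hz0, mul_assoc, mul_assoc]
      refine congrArg _ ?_
      change zetaK K z * _ = zetaK K' z * _
      rw [h1 z hz1, h2 z hz2, funext h]) s
  rw [WK_eq _ hs, WK_eq _ hs, mul_assoc, mul_assoc] at key
  exact mul_left_cancel₀ (sub_ne_zero.2 hs) key

theorem order_eq {N : ℕ} (hN : N ≠ 0)
    (h : ∀ n : ℕ, (zn K ⍟ efl (normList K N)) n = (zn K' ⍟ efl (normList K' N)) n) {s : ℂ}
    (hs : s.re < 0) : analyticOrderAt (zetaK K) s = analyticOrderAt (zetaK K') s := by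
  have h1 : s ≠ 1 := by
    rintro rfl
    rw [Complex.one_re] at hs
    linarith
  rw [← order_zeta_mul hN hs, ← order_zeta_mul hN hs]
  refine analyticOrderAt_congr ?_
  filter_upwards [isOpen_ne.mem_nhds h1] with z hz
  exact zeta_mul_eq hN h hz

theorem places_eq {N : ℕ} (hN : N ≠ 0)
    (h : ∀ n : ℕ, (zn K ⍟ efl (normList K N)) n = (zn K' ⍟ efl (normList K' N)) n) :
    nrRealPlaces K = nrRealPlaces K' ∧ nrComplexPlaces K = nrComplexPlaces K' := by
  have h1 : analyticOrderAt (zetaK K) (-(2 * (1 : ℕ))) =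
      analyticOrderAt (zetaK K') (-(2 * (1 : ℕ))) := order_eq hN h (by norm_num)
  have h2 : analyticOrderAt (zetaK K) (-(2 * (1 : ℕ) - 1)) =
      analyticOrderAt (zetaK K') (-(2 * (1 : ℕ) - 1)) := order_eq hN h (by norm_num)
  rw [order_zetaK_neg_even le_rfl, order_zetaK_neg_even le_rfl] at h1
  rw [order_zetaK_neg_odd le_rfl, order_zetaK_neg_odd le_rfl] at h2
  have h1' : nrRealPlaces K + nrComplexPlaces K = nrRealPlaces K' + nrComplexPlaces K' := by
    exact_mod_cast h1
  have h2' : nrComplexPlaces K = nrComplexPlaces K' := by exact_mod_cast h2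
  exact ⟨by omega, h2'⟩

/-- the comparison of the functional equations -/
theorem dual_eq {N : ℕ} (hN : N ≠ 0)
    (h : ∀ n : ℕ, (zn K ⍟ efl (normList K N)) n = (zn K' ⍟ efl (normList K' N)) n) :
    (discr K).natAbs * (normList K N).prod = (discr K').natAbs * (normList K' N).prod ∧
      ∀ n : ℕ, n ≠ 0 →
        (zn K ⍟ efl' (normList K N)) n = (zn K' ⍟ efl' (normList K' N)) n := by
  obtain ⟨hr1, hr2⟩ := places_eq hN h
  have f1 := fe_zn_mul K hN
  have f2 := fe_zn_mul K' hN
  rw [← hr1, ← hr2, ← funext h] at f2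
  have hp : ∀ (F : Type _) [Field F] [NumberField F], (discr F).natAbs * (normList F N).prod ≠ 0 :=
    fun F _ _ => mul_ne_zero (Int.natAbs_ne_zero.2 (discr_ne_zero F))
      (prod_ne_zero_of_two_le (two_le_of_mem_normList F hN))
  refine eq_of_shift (hp K) ?_ ?_ ?_ (FE.compare (hp K) ?_ f1 f2)
  · exact mul_ne_zero (Int.natAbs_ne_zero.2 (discr_ne_zero K'))
      (prod_ne_zero_of_two_le (two_le_of_mem_normList K' hN))
  · rw [convolution_one, zn_one, efl'_one, mul_one]
  · rw [convolution_one, zn_one, efl'_one, mul_one]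
  · exact mul_ne_zero (Int.natAbs_ne_zero.2 (discr_ne_zero K'))
      (prod_ne_zero_of_two_le (two_le_of_mem_normList K' hN))

theorem constantCoeff_euler (F : Type*) [Field F] [NumberField F] (p : ℕ) :
    PowerSeries.constantCoeff (∏ v ∈ above F p, (1 - X ^ fdeg v) : PowerSeries ℂ) = 1 := by
  rw [map_prod]
  refine Finset.prod_eq_one fun v _ => ?_
  rw [map_sub, map_pow, map_one, PowerSeries.constantCoeff_X, zero_pow (fdeg_pos v).ne', sub_zero]

/-- **Almost all Euler factors determine the Dedekind zeta function** (Perlis). -/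
theorem zeta_eq_of_almost_all {N : ℕ} (hN : N ≠ 0)
    (h : ∀ p : ℕ, p.Prime → ¬ p ∣ N → ∀ k : ℕ, idealCount K (p ^ k) = idealCount K' (p ^ k))
    (n : ℕ) (hn : n ≠ 0) : idealCount K n = idealCount K' n := by
  obtain ⟨-, hd⟩ := dual_eq hN (conv_eq hN h)
  have hd' : zcA K * tw (badE K N) = zcA K' * tw (badE K' N) := by
    rw [badE_eq, badE_eq, ← toAF_efl', ← toAF_efl', ← toAF_zn, ← toAF_zn, ← toAF_convolution,
      ← toAF_convolution]
    ext m
    change (if m = 0 then 0 else _) = (if m = 0 then 0 else _)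
    split_ifs with hm
    · rfl
    · exact hd m hm
  have key : zcA K = zcA K' := by
    refine ext_Sp isMultiplicative_zcA isMultiplicative_zcA fun p hp => ?_
    by_cases hpN : p ∣ N
    · have h1 := congrArg (Sp p) hd'
      rw [Sp_mul hp, Sp_mul hp, Sp_tw, Sp_tw, Sp_badE hp hN, Sp_badE hp hN, if_pos hpN,
        if_pos hpN] at h1
      exact eq_of_rescale hp (localStmt K p hp) (localStmt K' p hp) h1
        (constantCoeff_euler K p) (constantCoeff_euler K' p)
    · ext k
      rw [coeff_Sp, coeff_Sp, zcA_apply (pow_ne_zero _ hp.ne_zero),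
        zcA_apply (pow_ne_zero _ hp.ne_zero), h p hp hpN k]
  have h2 : zcA K n = zcA K' n := by rw [key]
  rw [zcA_apply hn, zcA_apply hn] at h2
  exact_mod_cast h2

end Two

end Fermat.Agent.Cor.AE

end
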