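import Fermat.Agent.Corollaries.ZetaK.GammaOrd

/-!
# Gamma factors `Γ_ℝ ^ r₁ Γ_ℂ ^ r₂`: zeros of the inverse, quotient at `s` and `1 - s`

Abstract form of the trivial zeros and of the explicit functional equation.
-/

set_option autoImplicit false

open Complex

namespace Fermat.Agent.Cor.ZetaK

/-- the gamma factor -/
noncomputable def gm (r₁ r₂ : ℕ) (s : ℂ) : ℂ := Gammaℝ s ^ r₁ * Gammaℂ s ^ r₂

theorem inv_gm (r₁ r₂ : ℕ) (s : ℂ) :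
    (gm r₁ r₂ s)⁻¹ = (Gammaℝ s)⁻¹ ^ r₁ * (Gammaℂ s)⁻¹ ^ r₂ := by
  rw [gm, mul_inv, inv_pow, inv_pow]

theorem differentiable_inv_gm (r₁ r₂ : ℕ) : Differentiable ℂ fun s => (gm r₁ r₂ s)⁻¹ := by
  simp_rw [inv_gm]
  exact (differentiable_Gammaℝ_inv.pow r₁).mul (differentiable_inv_Gammaℂ.pow r₂)

open scoped Classical in
/-- order of the inverse of the gamma factor -/
theorem analyticOrderAt_inv_gm (r₁ r₂ : ℕ) (s : ℂ) :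
    analyticOrderAt (fun z => (gm r₁ r₂ z)⁻¹) s =
      (if ∃ k : ℕ, s = -(2 * k) then (r₁ : ℕ∞) else 0) +
        (if ∃ k : ℕ, s = -k then (r₂ : ℕ∞) else 0) := by
  simp_rw [inv_gm]
  have hR : AnalyticAt ℂ (fun z => (Gammaℝ z)⁻¹ ^ r₁) s :=
    (differentiable_Gammaℝ_inv.pow r₁).analyticAt s
  have hC : AnalyticAt ℂ (fun z => (Gammaℂ z)⁻¹ ^ r₂) s :=
    (differentiable_inv_Gammaℂ.pow r₂).analyticAt s
  rw [ord_mul hR hC, ord_pow (analyticAt_inv_Gammaℝ s), ord_pow (analyticAt_inv_Gammaℂ s),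
    analyticOrderAt_inv_Gammaℝ, analyticOrderAt_inv_Gammaℂ]
  congr 1 <;> split_ifs <;> simp

theorem Gammaℂ_ne_zero {s : ℂ} (hs : ∀ n : ℕ, s ≠ -n) : Gammaℂ s ≠ 0 := by
  have hpi : (2 * Real.pi : ℂ) ≠ 0 := by simp [Real.pi_ne_zero]
  rw [Gammaℂ_def]
  refine mul_ne_zero (mul_ne_zero two_ne_zero ?_) ?_
  · rw [Ne, cpow_eq_zero_iff]
    exact fun h => hpi h.1
  · rw [Ne, Gamma_eq_zero_iff]
    rintro ⟨n, hn⟩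
    exact hs n hn

theorem Gammaℝ_ne_zero {s : ℂ} (hs : ∀ n : ℕ, s ≠ -n) : Gammaℝ s ≠ 0 := by
  rw [Ne, Gammaℝ_eq_zero_iff]
  rintro ⟨n, hn⟩
  exact hs (2 * n) (by rw [hn]; push_cast; ring)

theorem gm_ne_zero (r₁ r₂ : ℕ) {s : ℂ} (hs : ∀ n : ℕ, s ≠ -n) : gm r₁ r₂ s ≠ 0 :=
  mul_ne_zero (pow_ne_zero _ (Gammaℝ_ne_zero hs)) (pow_ne_zero _ (Gammaℂ_ne_zero hs))

theorem ne_neg_natCast_of_re_pos {s : ℂ} (hs : 0 < s.re) (n : ℕ) : s ≠ -n := by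
  rintro rfl
  rw [neg_re, natCast_re] at hs
  have : (0 : ℝ) ≤ n := Nat.cast_nonneg n
  linarith

/-- `Γ_ℝ(s) / Γ_ℝ(1 - s)` -/
theorem quot_Gammaℝ {s : ℂ} (hs : ∀ n : ℕ, s ≠ -n) :
    Gammaℝ s * (Gammaℝ (1 - s))⁻¹ = Gammaℂ s * cos (Real.pi * s / 2) := by
  rw [inv_Gammaℝ_one_sub hs]
  have := Gammaℝ_ne_zero hs
  field_simp

/-- `Γ_ℂ(s) / Γ_ℂ(1 - s)` -/
theorem quot_Gammaℂ {s : ℂ} (hs : ∀ n : ℕ, s ≠ -n) :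
    Gammaℂ s * (Gammaℂ (1 - s))⁻¹ =
      Gammaℂ s ^ 2 * (cos (Real.pi * s / 2) * sin (Real.pi * s / 2)) := by
  have h1 : Gammaℂ (1 - s) = Gammaℝ (1 - s) * Gammaℝ (2 - s) := by
    rw [← Gammaℝ_mul_Gammaℝ_add_one, show (1 : ℂ) - s + 1 = 2 - s by ring]
  have h2 : Gammaℂ s = Gammaℝ s * Gammaℝ (s + 1) := (Gammaℝ_mul_Gammaℝ_add_one s).symm
  have h3 := Gammaℝ_ne_zero hs
  have h4 : Gammaℝ (s + 1) ≠ 0 := by
    intro h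
    apply Gammaℂ_ne_zero hs
    rw [h2, h, mul_zero]
  rw [h1, mul_inv, inv_Gammaℝ_one_sub hs, inv_Gammaℝ_two_sub hs]
  rw [h2]
  field_simp

/-- the quotient of the gamma factors at `s` and `1 - s` -/
theorem quot_gm (r₁ r₂ : ℕ) {s : ℂ} (hs : ∀ n : ℕ, s ≠ -n) :
    gm r₁ r₂ s * (gm r₁ r₂ (1 - s))⁻¹ = Gammaℂ s ^ (r₁ + 2 * r₂) *
      cos (Real.pi * s / 2) ^ (r₁ + r₂) * sin (Real.pi * s / 2) ^ r₂ := by
  have h : gm r₁ r₂ s * (gm r₁ r₂ (1 - s))⁻¹ =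
      (Gammaℝ s * (Gammaℝ (1 - s))⁻¹) ^ r₁ * (Gammaℂ s * (Gammaℂ (1 - s))⁻¹) ^ r₂ := by
    rw [inv_gm, gm, mul_pow, mul_pow]
    ring
  rw [h, quot_Gammaℝ hs, quot_Gammaℂ hs, mul_pow, mul_pow, mul_pow, pow_add, pow_add, pow_mul]
  ring

/-- abstract trivial zeros: `Z = Ξ / (s (1 - s) D^(s/2) γ)` with `Ξ s₀ ≠ 0`. -/
theorem order_of_div {Ξ Z : ℂ → ℂ} {D : ℂ} (hD : D ≠ 0) {r₁ r₂ : ℕ} (hΞ : Differentiable ℂ Ξ)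
    (hZ : ∀ s, s ≠ 0 → s ≠ 1 → Z s = Ξ s / (s * (1 - s) * (D ^ (s / 2) * gm r₁ r₂ s)))
    {s : ℂ} (h0 : s ≠ 0) (h1 : s ≠ 1) (hs : Ξ s ≠ 0) :
    analyticOrderAt Z s = analyticOrderAt (fun z => (gm r₁ r₂ z)⁻¹) s := by
  have hev : Z =ᶠ[nhds s] fun z => (Ξ z * (D ^ (z / 2))⁻¹ * (z * (1 - z))⁻¹) * (gm r₁ r₂ z)⁻¹ := by
    filter_upwards [isOpen_ne.mem_nhds h0, isOpen_ne.mem_nhds h1] with z hz0 hz1
    rw [hZ z hz0 hz1, div_eq_mul_inv, mul_inv, mul_inv (D ^ (z / 2))]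
    ring
  have hDn : ∀ z : ℂ, D ^ (z / 2) ≠ 0 := fun z => by
    rw [Ne, cpow_eq_zero_iff]
    exact fun h => hD h.1
  have hDd : Differentiable ℂ fun z : ℂ => (D ^ (z / 2))⁻¹ :=
    (Differentiable.const_cpow (differentiable_id.div_const 2) (Or.inl hD)).inv hDn
  have hq : AnalyticAt ℂ (fun z : ℂ => (z * (1 - z))⁻¹) s := by
    refine AnalyticAt.inv ?_ (mul_ne_zero h0 (sub_ne_zero.mpr h1.symm))
    fun_prop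
  have hA : AnalyticAt ℂ (fun z : ℂ => Ξ z * (D ^ (z / 2))⁻¹ * (z * (1 - z))⁻¹) s :=
    ((hΞ.analyticAt s).mul (hDd.analyticAt s)).mul hq
  rw [analyticOrderAt_congr hev, ord_mul hA ((differentiable_inv_gm r₁ r₂).analyticAt s),
    ord_eq_zero hA, zero_add]
  exact mul_ne_zero (mul_ne_zero hs (inv_ne_zero (hDn s)))
    (inv_ne_zero (mul_ne_zero h0 (sub_ne_zero.mpr h1.symm)))

/-- abstract explicit functional equation -/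
theorem fe_of_div {Ξ Ξ' Z Z' : ℂ → ℂ} {D : ℂ} (hD : D ≠ 0) {r₁ r₂ : ℕ}
    (hZ : ∀ s, s ≠ 0 → s ≠ 1 → Z s = Ξ s / (s * (1 - s) * (D ^ (s / 2) * gm r₁ r₂ s)))
    (hZ' : ∀ s, s ≠ 0 → s ≠ 1 → Z' s = Ξ' s / (s * (1 - s) * (D ^ (s / 2) * gm r₁ r₂ s)))
    (hΞ : ∀ s, Ξ (1 - s) = Ξ' s) {s : ℂ} (h1 : s ≠ 1) (hs : ∀ n : ℕ, s ≠ -n) :
    Z (1 - s) = D ^ (s - 1 / 2) * cos (Real.pi * s / 2) ^ (r₁ + r₂) *
      sin (Real.pi * s / 2) ^ r₂ * Gammaℂ s ^ (r₁ + 2 * r₂) * Z' s := by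
  have h0 : s ≠ 0 := by simpa using hs 0
  have h2 : 1 - s ≠ 0 := sub_ne_zero.mpr h1.symm
  have h3 : 1 - s ≠ 1 := by
    intro h
    exact h0 (by linear_combination -h)
  have hDn : ∀ z : ℂ, D ^ z ≠ 0 := fun z => by
    rw [Ne, cpow_eq_zero_iff]
    exact fun h => hD h.1
  have hpow : D ^ (s / 2) * (D ^ ((1 - s) / 2))⁻¹ = D ^ (s - 1 / 2) := by
    rw [← cpow_neg, ← cpow_add _ _ hD]
    congr 1
    ring
  have hg := gm_ne_zero r₁ r₂ hs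
  have hquot := quot_gm r₁ r₂ hs
  rw [hZ _ h2 h3, hZ' s h0 h1, hΞ, ← hpow]
  have e : D ^ (s / 2) * (D ^ ((1 - s) / 2))⁻¹ * cos (Real.pi * s / 2) ^ (r₁ + r₂) *
      sin (Real.pi * s / 2) ^ r₂ * Gammaℂ s ^ (r₁ + 2 * r₂) =
      D ^ (s / 2) * (D ^ ((1 - s) / 2))⁻¹ * (gm r₁ r₂ s * (gm r₁ r₂ (1 - s))⁻¹) := by
    rw [hquot]
    ring
  rw [e, sub_sub_cancel]
  have h5 := hDn (s / 2)
  have h6 := hDn ((1 - s) / 2)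
  generalize D ^ (s / 2) = v at h5 ⊢
  generalize D ^ ((1 - s) / 2) = u at h6 ⊢
  generalize gm r₁ r₂ s = g at hg ⊢
  generalize gm r₁ r₂ (1 - s) = w
  rcases eq_or_ne w 0 with rfl | hw
  · simp
  · field_simp

end Fermat.Agent.Cor.ZetaK
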