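import Mathlib

/-!
# Elements without fixed points (Jordan, Cameron - Cohen)

A transitive group of permutations of a finite set `X` with at least two elements contains
`≥ |G| / |X|` elements without fixed points.
-/

set_option autoImplicit false

namespace Fermat.Agent.Cor.Frob

open MulAction

variable {G X : Type*} [Group G] [MulAction G X]

/-- **The theorem of Jordan**, in the form of Cameron and Cohen. -/
theorem card_le_fixedPointFree [Finite G] [Finite X] [IsPretransitive G X]
    (h : 2 ≤ Nat.card X) :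
    Nat.card G ≤ Nat.card X * Nat.card {g : G // ∀ x : X, g • x ≠ x} := by
  classical
  have := Fintype.ofFinite G
  have := Fintype.ofFinite X
  rw [Nat.card_eq_fintype_card] at h
  rw [Nat.card_eq_fintype_card, Nat.card_eq_fintype_card, Nat.card_eq_fintype_card]
  obtain ⟨x₀, x₁, hx⟩ := Fintype.exists_pair_of_one_lt_card (α := X) (by omega)
  set n : ℤ := ((Fintype.card X : ℕ) : ℤ) with hn
  set χ : G → ℤ := fun g => (Fintype.card (fixedBy X g) : ℤ) with hχ
  have h1 : ∑ g : G, χ g = Fintype.card G := by
    have h2 := sum_card_fixedBy_eq_card_orbits_mul_card_group G X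
    have h3 : Subsingleton (Quotient (orbitRel G X)) :=
      (pretransitive_iff_subsingleton_quotient G X).mp inferInstance
    have h5 : Fintype.card (Quotient (orbitRel G X)) = 1 :=
      Fintype.card_eq_one_iff.mpr ⟨Quotient.mk _ x₀, fun y => Subsingleton.elim _ _⟩
    rw [h5, one_mul] at h2
    rw [← h2, Nat.cast_sum]
  have h2 : 2 * (Fintype.card G : ℤ) ≤ ∑ g : G, χ g ^ 2 := by
    have h3 := sum_card_fixedBy_eq_card_orbits_mul_card_group G (X × X)
    have h4 : 2 ≤ Fintype.card (Quotient (orbitRel G (X × X))) := by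
      rw [Nat.succ_le_iff, Fintype.one_lt_card_iff]
      refine ⟨Quotient.mk _ (x₀, x₀), Quotient.mk _ (x₀, x₁), fun h => hx ?_⟩
      obtain ⟨g, hg⟩ := Quotient.exact h
      have h5 : g • x₀ = x₀ := congrArg Prod.fst hg
      have h6 : g • x₁ = x₀ := congrArg Prod.snd hg
      exact smul_left_cancel g (h5.trans h6.symm)
    have h5 : ∀ g : G, (Fintype.card (fixedBy (X × X) g) : ℤ) = χ g ^ 2 := by
      intro g
      have e : fixedBy (X × X) g ≃ fixedBy X g × fixedBy X g :=
        { toFun := fun y => (⟨y.1.1, congrArg Prod.fst y.2⟩, ⟨y.1.2, congrArg Prod.snd y.2⟩)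
          invFun := fun y => ⟨(y.1.1, y.2.1), Prod.ext y.1.2 y.2.2⟩
          left_inv := fun _ => rfl
          right_inv := fun _ => rfl }
      rw [Fintype.card_congr e, Fintype.card_prod, hχ]
      push_cast
      ring
    rw [← Finset.sum_congr rfl fun g _ => h5 g, ← Nat.cast_sum, h3, Nat.cast_mul]
    have h6 : (2 : ℤ) ≤ Fintype.card (Quotient (orbitRel G (X × X))) := by exact_mod_cast h4
    exact mul_le_mul_of_nonneg_right h6 (Nat.cast_nonneg _)
  have h3 : ∀ g : G, (χ g - 1) * (χ g - n) ≤ if ∀ x : X, g • x ≠ x then n else 0 := by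
    intro g
    have h4 : χ g ≤ n := by
      simp only [hχ, hn]
      exact_mod_cast Fintype.card_subtype_le _
    have h5 : (0 : ℤ) ≤ χ g := Nat.cast_nonneg _
    split_ifs with h6
    · have h7 : χ g = 0 := by
        have h8 : IsEmpty (fixedBy X g) := ⟨fun x => h6 x.1 x.2⟩
        simp only [hχ, Fintype.card_eq_zero, Nat.cast_zero]
      rw [h7]
      linarith
    · push Not at h6
      obtain ⟨x, hx⟩ := h6
      have h7 : 1 ≤ χ g := by
        have h8 : Nonempty (fixedBy X g) := ⟨⟨x, hx⟩⟩
        simp only [hχ]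
        exact_mod_cast Fintype.card_pos
      nlinarith
  have h4 := Finset.sum_le_sum fun g (_ : g ∈ Finset.univ) => h3 g
  have h5 : ∑ g : G, (χ g - 1) * (χ g - n) =
      ∑ g : G, χ g ^ 2 - (n + 1) * ∑ g : G, χ g + n * Fintype.card G := by
    rw [Finset.mul_sum, ← Finset.sum_sub_distrib]
    have h6 : n * (Fintype.card G : ℤ) = ∑ _g : G, n := by
      rw [Finset.sum_const, nsmul_eq_mul, Finset.card_univ, mul_comm]
    rw [h6, ← Finset.sum_add_distrib]
    exact Finset.sum_congr rfl fun g _ => by ring
  rw [h5, h1, ← Finset.sum_filter, Finset.sum_const, nsmul_eq_mul, ← Fintype.card_subtype] at h4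
  have h6 : (Fintype.card G : ℤ) ≤ n * Fintype.card {g : G // ∀ x : X, g • x ≠ x} := by
    linarith
  rw [hn] at h6
  exact_mod_cast h6

end Fermat.Agent.Cor.Frob
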