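import Fermat.Agent.Corollaries.ZetaK.PrimesInClass
import Fermat.Agent.Corollaries.ZetaK.NonVan

/-!
# Every ideal class contains infinitely many prime ideals of residue degree one
-/

set_option autoImplicit false

noncomputable section

namespace Fermat.Agent.Cor

open NumberField Filter Topology Set Fermat.Agent.ClassL Module
open scoped nonZeroDivisors

universe u

variable {K : Type u} [Field K] [NumberField K]

theorem deg_absNorm_span (p : ℕ) :
    Ideal.absNorm (Ideal.span {(p : 𝓞 K)}) = p ^ finrank ℚ K := by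
  rw [Ideal.absNorm_span_natCast, RingOfIntegers.rank]

/-- the rational prime below a prime -/
theorem deg_exists_prime (P : Pr K) : ∃ p : ℕ, p.Prime ∧ (p : 𝓞 K) ∈ (P.1 : Ideal (𝓞 K)) ∧
    ∃ f, 0 < f ∧ Ideal.absNorm (P.1 : Ideal (𝓞 K)) = p ^ f := by
  have hP : (P.1 : Ideal (𝓞 K)).IsPrime := Ideal.isPrime_of_prime P.2
  have h2 := two_le_absNorm P
  have key : ∀ n : ℕ, n ≠ 0 → (n : 𝓞 K) ∈ (P.1 : Ideal (𝓞 K)) →
      ∃ p : ℕ, p.Prime ∧ (p : 𝓞 K) ∈ (P.1 : Ideal (𝓞 K)) := by
    intro n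
    induction n using Nat.recOnMul with
    | zero => intro h; exact absurd rfl h
    | one =>
      intro _ h
      rw [Nat.cast_one] at h
      exact absurd ((Ideal.eq_top_iff_one _).mpr h) hP.ne_top
    | prime p hp => intro _ h; exact ⟨p, hp, h⟩
    | mul a b iha ihb =>
      intro h0 h
      rw [Nat.cast_mul] at h
      rcases hP.mem_or_mem h with h | h
      · exact iha (left_ne_zero_of_mul h0) h
      · exact ihb (right_ne_zero_of_mul h0) h
  obtain ⟨p, hp, hpP⟩ := key _ (by omega) (Ideal.absNorm_mem (P.1 : Ideal (𝓞 K)))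
  refine ⟨p, hp, hpP, ?_⟩
  have h3 : (P.1 : Ideal (𝓞 K)) ∣ Ideal.span {(p : 𝓞 K)} :=
    Ideal.dvd_span_singleton.mpr hpP
  have h4 := Ideal.absNorm_dvd_absNorm_of_le (Ideal.le_of_dvd h3)
  rw [deg_absNorm_span, Nat.dvd_prime_pow hp] at h4
  obtain ⟨f, -, hf⟩ := h4
  refine ⟨f, ?_, hf⟩
  rcases Nat.eq_zero_or_pos f with h0 | h0
  · rw [h0, pow_zero] at hf
    omega
  · exact h0

/-- at most `[K : ℚ]` primes above `p` -/
theorem deg_card_above_le {p : ℕ} (hp : p.Prime) (T : Finset (Pr K))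
    (h : ∀ P ∈ T, (p : 𝓞 K) ∈ (P.1 : Ideal (𝓞 K))) : T.card ≤ finrank ℚ K := by
  classical
  have hinj : Function.Injective fun P : Pr K => (P.1 : Ideal (𝓞 K)) :=
    fun P Q h => Subtype.ext (Subtype.ext h)
  have h1 : ∏ I ∈ T.image fun P : Pr K => (P.1 : Ideal (𝓞 K)), I ∣ Ideal.span {(p : 𝓞 K)} := by
    refine Finset.prod_primes_dvd _ ?_ ?_
    · intro I hI
      obtain ⟨P, -, rfl⟩ := Finset.mem_image.mp hI
      exact P.2
    · intro I hI
      obtain ⟨P, hP, rfl⟩ := Finset.mem_image.mp hI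
      exact Ideal.dvd_span_singleton.mpr (h P hP)
  rw [Finset.prod_image fun P _ Q _ h => hinj h] at h1
  have h2 := Ideal.absNorm_dvd_absNorm_of_le (Ideal.le_of_dvd h1)
  rw [deg_absNorm_span, map_prod] at h2
  have h3 : p ^ T.card ≤ ∏ P ∈ T, Ideal.absNorm (P.1 : Ideal (𝓞 K)) := by
    rw [← Finset.prod_const]
    refine Finset.prod_le_prod' fun P hP => ?_
    obtain ⟨q, hq, -, f, hf, hN⟩ := deg_exists_prime P
    have h4 := Ideal.absNorm_dvd_absNorm_of_le
      (Ideal.le_of_dvd (Ideal.dvd_span_singleton.mpr (h P hP)))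
    rw [deg_absNorm_span, hN] at h4
    have h5 : q ∣ p := hq.dvd_of_dvd_pow ((dvd_pow_self q hf.ne').trans h4)
    rw [(Nat.prime_dvd_prime_iff_eq hq hp).mp h5] at hN
    rw [hN]
    exact Nat.le_self_pow hf.ne' p
  have h6 := h3.trans (Nat.le_of_dvd (pow_pos hp.pos _) h2)
  exact (Nat.pow_le_pow_iff_right hp.one_lt).mp h6

/-- the primes of residue degree `≥ 2` have a convergent sum -/
theorem summable_deg_two : Summable (Set.indicator
    {P : Pr K | ¬ (Ideal.absNorm (P.1 : Ideal (𝓞 K))).Prime}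
      fun P => ((Ideal.absNorm (P.1 : Ideal (𝓞 K)) : ℕ) : ℝ)⁻¹) := by
  classical
  choose p hp hmem f hf hN using deg_exists_prime (K := K)
  have hz : Summable fun n : ℕ => ((n : ℝ) ^ 2)⁻¹ := Real.summable_nat_pow_inv.mpr (by norm_num)
  refine summable_of_sum_le (c := (finrank ℚ K : ℝ) * ∑' n : ℕ, ((n : ℝ) ^ 2)⁻¹) (fun P => ?_) fun T => ?_
  · exact Set.indicator_nonneg (fun _ _ => by positivity) _
  · have h1 : ∀ P ∈ T, Set.indicator {P : Pr K | ¬ (Ideal.absNorm (P.1 : Ideal (𝓞 K))).Prime}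
        (fun P => ((Ideal.absNorm (P.1 : Ideal (𝓞 K)) : ℕ) : ℝ)⁻¹) P ≤ ((p P : ℝ) ^ 2)⁻¹ := by
      intro P _
      by_cases h : P ∈ {P : Pr K | ¬ (Ideal.absNorm (P.1 : Ideal (𝓞 K))).Prime}
      · rw [Set.indicator_of_mem h]
        have h' : ¬ (Ideal.absNorm (P.1 : Ideal (𝓞 K))).Prime := h
        have hf2 : 2 ≤ f P := by
          by_contra hlt
          have : f P = 1 := by have := hf P; omega
          apply h'
          rw [hN P, this, pow_one]
          exact hp P
        have hp0 : 0 < p P := (hp P).pos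
        refine inv_anti₀ (by positivity) ?_
        rw [hN P]
        exact_mod_cast Nat.pow_le_pow_right hp0 hf2
      · rw [Set.indicator_of_notMem h]
        positivity
    refine (Finset.sum_le_sum h1).trans ?_
    have h2 : ∑ P ∈ T, ((p P : ℝ) ^ 2)⁻¹ =
        ∑ q ∈ T.image p, ∑ P ∈ T with p P = q, ((p P : ℝ) ^ 2)⁻¹ :=
      (Finset.sum_fiberwise_of_maps_to (fun P hP => Finset.mem_image_of_mem p hP) _).symm
    rw [h2]
    have h3 : ∀ q ∈ T.image p, ∑ P ∈ T with p P = q, ((p P : ℝ) ^ 2)⁻¹ ≤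
        (finrank ℚ K : ℝ) * ((q : ℝ) ^ 2)⁻¹ := by
      intro q hq
      obtain ⟨P₀, -, hP₀⟩ := Finset.mem_image.mp hq
      have hqp : q.Prime := hP₀ ▸ hp P₀
      have h4 : ∑ P ∈ T with p P = q, ((p P : ℝ) ^ 2)⁻¹ =
          ∑ P ∈ T with p P = q, ((q : ℝ) ^ 2)⁻¹ := by
        refine Finset.sum_congr rfl fun P hP => ?_
        rw [(Finset.mem_filter.mp hP).2]
      rw [h4, Finset.sum_const, nsmul_eq_mul]
      refine mul_le_mul_of_nonneg_right ?_ (by positivity)
      have h5 := deg_card_above_le (K := K) hqp (T.filter fun P => p P = q) fun P hP => by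
        have h6 := hmem P
        rwa [(Finset.mem_filter.mp hP).2] at h6
      exact_mod_cast h5
    refine (Finset.sum_le_sum h3).trans ?_
    rw [← Finset.mul_sum]
    exact mul_le_mul_of_nonneg_left (hz.sum_le_tsum _ fun _ _ => by positivity) (by positivity)

/-- **Every class contains infinitely many prime ideals of residue degree one**, from
`L(1, χ) ≠ 0`; moreover the sum of `1 / N(P)` over them diverges. -/
theorem not_summable_deg_one_of_nonvanishing
    (hNV : ∀ χ : ClassGroup (𝓞 K) →* ℂˣ, χ ≠ 1 → LK χ 1 ≠ 0) (C : ClassGroup (𝓞 K)) :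
    ¬ Summable (Set.indicator
      {P : Pr K | ClassGroup.mk0 P.1 = C ∧ (Ideal.absNorm (P.1 : Ideal (𝓞 K))).Prime}
      fun P => ((Ideal.absNorm (P.1 : Ideal (𝓞 K)) : ℕ) : ℝ)⁻¹) := by
  intro h
  refine not_summable_pr_of_nonvanishing hNV C ?_
  refine Summable.of_nonneg_of_le (fun P => Set.indicator_nonneg (fun _ _ => by positivity) _)
    (fun P => ?_) (h.add summable_deg_two)
  have h0 : (0 : ℝ) ≤ ((Ideal.absNorm (P.1 : Ideal (𝓞 K)) : ℕ) : ℝ)⁻¹ := by positivity
  by_cases hC : ClassGroup.mk0 P.1 = C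
  · rw [Set.indicator_of_mem (show P ∈ {P : Pr K | ClassGroup.mk0 P.1 = C} from hC)]
    by_cases hp : (Ideal.absNorm (P.1 : Ideal (𝓞 K))).Prime
    · rw [Set.indicator_of_mem (show P ∈ {P : Pr K | ClassGroup.mk0 P.1 = C ∧
        (Ideal.absNorm (P.1 : Ideal (𝓞 K))).Prime} from ⟨hC, hp⟩)]
      have := Set.indicator_nonneg (s := {P : Pr K | ¬ (Ideal.absNorm (P.1 : Ideal (𝓞 K))).Prime})
        (f := fun P => ((Ideal.absNorm (P.1 : Ideal (𝓞 K)) : ℕ) : ℝ)⁻¹)
        (fun _ _ => by positivity) P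
      linarith
    · rw [Set.indicator_of_mem (show P ∈
        {P : Pr K | ¬ (Ideal.absNorm (P.1 : Ideal (𝓞 K))).Prime} from hp)]
      have := Set.indicator_nonneg (s := {P : Pr K | ClassGroup.mk0 P.1 = C ∧
          (Ideal.absNorm (P.1 : Ideal (𝓞 K))).Prime})
        (f := fun P => ((Ideal.absNorm (P.1 : Ideal (𝓞 K)) : ℕ) : ℝ)⁻¹)
        (fun _ _ => by positivity) P
      linarith
  · rw [Set.indicator_of_notMem (show P ∉ {P : Pr K | ClassGroup.mk0 P.1 = C} from hC)]
    exact add_nonneg (Set.indicator_nonneg (fun _ _ => by positivity) _)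
      (Set.indicator_nonneg (fun _ _ => by positivity) _)

theorem infinite_deg_one_of_nonvanishing
    (hNV : ∀ χ : ClassGroup (𝓞 K) →* ℂˣ, χ ≠ 1 → LK χ 1 ≠ 0) (C : ClassGroup (𝓞 K)) :
    {P : Pr K | ClassGroup.mk0 P.1 = C ∧
      (Ideal.absNorm (P.1 : Ideal (𝓞 K))).Prime}.Infinite := by
  intro hfin
  refine not_summable_deg_one_of_nonvanishing hNV C ?_
  refine summable_of_ne_finset_zero (s := hfin.toFinset) fun i hi => ?_
  rw [Set.Finite.mem_toFinset] at hi
  exact Set.indicator_of_notMem hi _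

/-! ### The unconditional theorems -/

/-- **Every ideal class contains infinitely many prime ideals.** -/
theorem infinite_primes_in_class (C : ClassGroup (𝓞 K)) :
    {P : Pr K | ClassGroup.mk0 P.1 = C}.Infinite :=
  infinite_pr_of_nonvanishing (fun _ h => LK_one_ne_zero h) C

/-- **Every ideal class contains infinitely many prime ideals**, in terms of the places. -/
theorem infinite_places_in_class (C : ClassGroup (𝓞 K)) :
    {v : IsDedekindDomain.HeightOneSpectrum (𝓞 K) |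
      ClassGroup.mk0 ⟨v.asIdeal, mem_nonZeroDivisors_of_ne_zero v.ne_bot⟩ = C}.Infinite :=
  infinite_places_of_nonvanishing (fun _ h => LK_one_ne_zero h) C

/-- **Every ideal class contains infinitely many prime ideals of residue degree one.** -/
theorem infinite_deg_one_in_class (C : ClassGroup (𝓞 K)) :
    {P : Pr K | ClassGroup.mk0 P.1 = C ∧ (Ideal.absNorm (P.1 : Ideal (𝓞 K))).Prime}.Infinite :=
  infinite_deg_one_of_nonvanishing (fun _ h => LK_one_ne_zero h) C

/-- **The sum of `1 / N(P)` over the prime ideals of residue degree one in an ideal class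
diverges.** -/
theorem not_summable_deg_one_in_class (C : ClassGroup (𝓞 K)) :
    ¬ Summable (Set.indicator
      {P : Pr K | ClassGroup.mk0 P.1 = C ∧ (Ideal.absNorm (P.1 : Ideal (𝓞 K))).Prime}
      fun P => ((Ideal.absNorm (P.1 : Ideal (𝓞 K)) : ℕ) : ℝ)⁻¹) :=
  not_summable_deg_one_of_nonvanishing (fun _ h => LK_one_ne_zero h) C

/-- **Every ideal class contains a prime ideal of residue degree one**, of norm larger than a
given bound. -/
theorem exists_deg_one_in_class (C : ClassGroup (𝓞 K)) (B : ℕ) :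
    ∃ P : Pr K, ClassGroup.mk0 P.1 = C ∧ (Ideal.absNorm (P.1 : Ideal (𝓞 K))).Prime ∧
      B < Ideal.absNorm (P.1 : Ideal (𝓞 K)) := by
  by_contra h
  push Not at h
  refine infinite_deg_one_in_class C ?_
  have hfin : {I : Ideal (𝓞 K) | Ideal.absNorm I ∈ Set.Icc 0 B}.Finite :=
    Ideal.finite_setOf_absNorm_le B |>.subset fun I hI => hI.2
  refine Set.Finite.of_finite_image (f := fun P : Pr K => (P.1 : Ideal (𝓞 K)))
    (hfin.subset ?_) fun P _ Q _ h => Subtype.ext (Subtype.ext h)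
  rintro _ ⟨P, ⟨hP, hP'⟩, rfl⟩
  exact ⟨Nat.zero_le _, h P hP hP'⟩

end Fermat.Agent.Cor
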