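import Fermat.Agent.ClassL.Euler
import Mathlib.NumberTheory.NumberField.Completion.FinitePlace

/-!
# The Euler product of the Dedekind zeta function

For every number field `K` and `1 < re s`, grouped by the rational primes:
`∏_p ∏_{v | p} (1 - N v ^ (-s)) = (ζ_K s)⁻¹`.
-/

set_option autoImplicit false

open NumberField IsDedekindDomain nonZeroDivisors Filter Topology

namespace Fermat.Agent.Cor

variable {K : Type*} [Field K] [NumberField K]

open scoped Classical in
/-- the norm character `I ↦ N I ^ (-s)` -/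
noncomputable def nchar (s : ℂ) : (Ideal (𝓞 K))⁰ →* ℂ where
  toFun I := (Ideal.absNorm (I : Ideal (𝓞 K)) : ℂ) ^ (-s)
  map_one' := by simp
  map_mul' I J := by
    rw [Submonoid.coe_mul, map_mul, Nat.cast_mul, Complex.natCast_mul_natCast_cpow]

lemma nchar_apply (s : ℂ) (I : (Ideal (𝓞 K))⁰) :
    nchar s I = (Ideal.absNorm (I : Ideal (𝓞 K)) : ℂ) ^ (-s) := rfl

lemma EulerK.absNorm_pos (I : (Ideal (𝓞 K))⁰) : 0 < Ideal.absNorm (I : Ideal (𝓞 K)) :=
  Nat.pos_of_ne_zero (Ideal.absNorm_ne_zero_of_nonZeroDivisors I)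

lemma norm_nchar (s : ℂ) (I : (Ideal (𝓞 K))⁰) : ‖nchar s I‖ = Fermat.Agent.ClassL.nrm s.re I := by
  rw [nchar_apply, Fermat.Agent.ClassL.nrm, Complex.norm_natCast_cpow_of_pos (EulerK.absNorm_pos I), Complex.neg_re]

lemma summable_norm_nchar {s : ℂ} (hs : 1 < s.re) :
    Summable fun I : (Ideal (𝓞 K))⁰ => ‖nchar s I‖ := by
  simp_rw [norm_nchar]
  exact Fermat.Agent.ClassL.summable_nrm hs

/-- the Dedekind zeta function as a sum over the non-zero ideals, complex `s` -/
theorem tsum_nchar {s : ℂ} (hs : 1 < s.re) :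
    ∑' I : (Ideal (𝓞 K))⁰, nchar s I = dedekindZeta K s := by
  have hfib : ∀ n : ℕ, Finite {I : (Ideal (𝓞 K))⁰ // Ideal.absNorm (I : Ideal (𝓞 K)) = n} := by
    intro n
    have := (Ideal.finite_setOfPred_absNorm_eq (S := 𝓞 K) n).to_subtype
    exact Finite.of_injective (fun I : {I : (Ideal (𝓞 K))⁰ // Ideal.absNorm (I : Ideal (𝓞 K)) = n} =>
      (⟨I.1.1, I.2⟩ : {I : Ideal (𝓞 K) | Ideal.absNorm I = n})) (fun I J h => by
        have h1 := congrArg (fun x => x.1) h
        apply Subtype.ext; apply Subtype.ext; exact h1)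
  let e : (Σ n : ℕ, {I : (Ideal (𝓞 K))⁰ // Ideal.absNorm (I : Ideal (𝓞 K)) = n}) ≃ (Ideal (𝓞 K))⁰ :=
    Equiv.sigmaFiberEquiv (fun I : (Ideal (𝓞 K))⁰ => Ideal.absNorm (I : Ideal (𝓞 K)))
  have hsum : Summable fun c => nchar s (e c) :=
    (e.summable_iff).mpr (summable_norm_nchar hs).of_norm
  rw [← e.tsum_eq, Summable.tsum_sigma hsum, dedekindZeta, LSeries]
  refine tsum_congr fun n => ?_
  have h1 : ∀ c : {I : (Ideal (𝓞 K))⁰ // Ideal.absNorm (I : Ideal (𝓞 K)) = n},
      nchar s (e ⟨n, c⟩) = (n : ℂ) ^ (-s) := by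
    intro c
    change (Ideal.absNorm (c.1 : Ideal (𝓞 K)) : ℂ) ^ (-s) = _
    rw [c.2]
  have := hfib n
  have : Fintype {I : (Ideal (𝓞 K))⁰ // Ideal.absNorm (I : Ideal (𝓞 K)) = n} := Fintype.ofFinite _
  rw [tsum_congr h1, tsum_fintype, Finset.sum_const, Finset.card_univ, nsmul_eq_mul]
  rcases Nat.eq_zero_or_pos n with rfl | hn
  · have hs0 : -s ≠ 0 := by
      intro h
      rw [neg_eq_zero] at h
      rw [h, Complex.zero_re] at hs
      linarith
    rw [LSeries.term_zero, Nat.cast_zero, Complex.zero_cpow hs0, mul_zero]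
  · rw [LSeries.term_of_ne_zero hn.ne', Complex.cpow_neg, div_eq_mul_inv]
    congr 1
    rw [← Nat.card_eq_fintype_card]
    have : Nat.card {I : (Ideal (𝓞 K))⁰ // Ideal.absNorm (I : Ideal (𝓞 K)) = n} =
        Nat.card {I : Ideal (𝓞 K) // Ideal.absNorm I = n} := by
      refine Nat.card_congr
        { toFun := fun I => ⟨I.1.1, I.2⟩
          invFun := fun I => ⟨⟨I.1, mem_nonZeroDivisors_of_ne_zero (by
            rintro h
            have := I.2
            rw [h, Ideal.zero_eq_bot, Ideal.absNorm_bot] at this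
            omega)⟩, I.2⟩
          left_inv := fun I => rfl
          right_inv := fun I => rfl }
    rw [this]

/-- places and prime ideals -/
noncomputable def EulerK.toPr (v : HeightOneSpectrum (𝓞 K)) : Fermat.Agent.ClassL.Pr K :=
  ⟨⟨v.asIdeal, mem_nonZeroDivisors_of_ne_zero v.ne_bot⟩, v.prime⟩

lemma EulerK.toPr_injective : Function.Injective (EulerK.toPr (K := K)) := by
  intro v w h
  apply HeightOneSpectrum.ext
  exact congrArg (fun P : Fermat.Agent.ClassL.Pr K => ((P.1 : (Ideal (𝓞 K))⁰) : Ideal (𝓞 K))) h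

lemma EulerK.toPr_surjective : Function.Surjective (EulerK.toPr (K := K)) := by
  intro P
  refine ⟨⟨P.1, Ideal.isPrime_of_prime P.2, P.2.ne_zero⟩, ?_⟩
  exact Subtype.ext (Subtype.ext rfl)

/-- every place lies over a rational prime -/
lemma EulerK.exists_natCast_mem (v : HeightOneSpectrum (𝓞 K)) :
    ∃ p : Nat.Primes, ((p : ℕ) : 𝓞 K) ∈ v.asIdeal := by
  have h0 : Ideal.absNorm v.asIdeal ≠ 0 := by
    rw [Ne, Ideal.absNorm_eq_zero_iff]
    exact v.ne_bot
  have key : ∀ n : ℕ, n ≠ 0 → (n : 𝓞 K) ∈ v.asIdeal →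
      ∃ q : Nat.Primes, ((q : ℕ) : 𝓞 K) ∈ v.asIdeal := by
    intro n
    induction n using Nat.recOnMul with
    | zero => intro h; exact absurd rfl h
    | one =>
      intro _ h
      exfalso
      apply v.isPrime.ne_top
      rw [Ideal.eq_top_iff_one]
      simpa using h
    | prime p hp => intro _ h; exact ⟨⟨p, hp⟩, h⟩
    | mul a b iha ihb =>
      intro hab h
      rw [Nat.cast_mul] at h
      rcases v.isPrime.mem_or_mem h with h | h
      · exact iha (left_ne_zero_of_mul hab) h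
      · exact ihb (right_ne_zero_of_mul hab) h
  exact key _ h0 (Ideal.absNorm_mem _)

lemma EulerK.prime_eq_of_mem {v : HeightOneSpectrum (𝓞 K)} {p q : Nat.Primes}
    (h : ((p : ℕ) : 𝓞 K) ∈ v.asIdeal) (h' : ((q : ℕ) : 𝓞 K) ∈ v.asIdeal) : p = q := by
  by_contra hne
  have hne' : (p : ℕ) ≠ q := fun h => hne (Subtype.ext h)
  have h1 : IsCoprime ((p : ℕ) : ℤ) ((q : ℕ) : ℤ) :=
    Nat.isCoprime_iff_coprime.mpr ((Nat.coprime_primes p.2 q.2).mpr hne')
  obtain ⟨a, b, hab⟩ := h1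
  apply v.isPrime.ne_top
  rw [Ideal.eq_top_iff_one]
  have h2 : (1 : 𝓞 K) = (a : 𝓞 K) * ((p : ℕ) : 𝓞 K) + (b : 𝓞 K) * ((q : ℕ) : 𝓞 K) := by
    exact_mod_cast congrArg (fun z : ℤ => (z : 𝓞 K)) hab.symm
  rw [h2]
  exact v.asIdeal.add_mem (v.asIdeal.mul_mem_left _ h) (v.asIdeal.mul_mem_left _ h')

open scoped Classical in
/-- **Euler product**, grouped by rational primes. -/
theorem tendsto_euler {s : ℂ} (hs : 1 < s.re) (T : Nat.Primes → Finset (HeightOneSpectrum (𝓞 K)))
    (hT : ∀ p v, v ∈ T p ↔ ((p : ℕ) : 𝓞 K) ∈ v.asIdeal) :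
    Tendsto (fun S : Finset Nat.Primes =>
      (∏ p ∈ S, ∏ v ∈ T p, (1 - (Ideal.absNorm v.asIdeal : ℂ) ^ (-s))) * dedekindZeta K s)
      atTop (𝓝 1) := by
  have h := Fermat.Agent.ClassL.tendsto_prod (K := K) (f := nchar s) (summable_norm_nchar hs)
  rw [tsum_nchar hs] at h
  let U : Finset Nat.Primes → Finset (Fermat.Agent.ClassL.Pr K) := fun S => (S.biUnion T).image EulerK.toPr
  have hU : Tendsto U atTop atTop := by
    refine tendsto_atTop_finset_of_monotone (fun S S' hSS' => ?_) (fun P => ?_)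
    · exact Finset.image_subset_image (Finset.biUnion_subset_biUnion_of_subset_left _ hSS')
    · obtain ⟨v, rfl⟩ := EulerK.toPr_surjective P
      obtain ⟨p, hp⟩ := EulerK.exists_natCast_mem v
      refine ⟨{p}, ?_⟩
      rw [Finset.mem_image]
      exact ⟨v, by rw [Finset.singleton_biUnion]; exact (hT p v).mpr hp, rfl⟩
  refine (h.comp hU).congr fun S => ?_
  simp only [Function.comp_apply, U]
  congr 1
  rw [Finset.prod_image (fun v _ w _ h => EulerK.toPr_injective h), Finset.prod_biUnion]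
  · rfl
  · intro p _ q _ hpq
    rw [Function.onFun, Finset.disjoint_left]
    intro v hv hv'
    exact hpq (EulerK.prime_eq_of_mem ((hT p v).mp hv) ((hT q v).mp hv'))

theorem dedekindZeta_ne_zero_of_one_lt_re {s : ℂ} (hs : 1 < s.re) : dedekindZeta K s ≠ 0 := by
  intro h0
  have h := Fermat.Agent.ClassL.tendsto_prod (K := K) (f := nchar s) (summable_norm_nchar hs)
  rw [tsum_nchar hs, h0] at h
  simp only [mul_zero] at h
  exact zero_ne_one (tendsto_nhds_unique tendsto_const_nhds h)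

/-- **Euler product**, grouped by rational primes. -/
theorem hasProd_euler {s : ℂ} (hs : 1 < s.re) (T : Nat.Primes → Finset (HeightOneSpectrum (𝓞 K)))
    (hT : ∀ p v, v ∈ T p ↔ ((p : ℕ) : 𝓞 K) ∈ v.asIdeal) :
    HasProd (fun p : Nat.Primes => ∏ v ∈ T p, (1 - (Ideal.absNorm v.asIdeal : ℂ) ^ (-s)))
      (dedekindZeta K s)⁻¹ := by
  have h0 := dedekindZeta_ne_zero_of_one_lt_re (K := K) hs
  have h := (tendsto_euler hs T hT).mul_const (dedekindZeta K s)⁻¹
  rw [one_mul] at h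
  refine (h.congr fun S => ?_)
  rw [mul_assoc, mul_inv_cancel₀ h0, mul_one]

end Fermat.Agent.Cor
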