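import Fermat.Agent.ClassL.Euler

/-!
# The prime ideal theorem as a hypothesis

`PIT F` is the statement of the prime ideal theorem for the number field `F`.
-/

set_option autoImplicit false

open NumberField Filter Topology
open scoped nonZeroDivisors

namespace Fermat.Agent.Cor

/-- The prime ideal theorem for `F`: the number of prime ideals of norm at most `x`, times
`log x / x`, tends to `1`. -/
def PIT (F : Type*) [Field F] [NumberField F] : Prop :=
  Tendsto (fun x : ℕ => (Nat.card {P : ClassL.Pr F //
    Ideal.absNorm ((P.1 : (Ideal (𝓞 F))⁰) : Ideal (𝓞 F)) ≤ x} : ℝ) * Real.log x / x) atTop (𝓝 1)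

end Fermat.Agent.Cor
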