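import Fermat.Agent.Classic.Level.EmbAbove
import Fermat.Agent.Classic.Level.FixField
import Fermat.Agent.Corollaries.ZetaK.FrobDefs

/-!
# Prime ideals of degree one and fixed points of Frobenius

From the prime ideal theorem for the fixed field of `ρ⁻¹(H)`: the sum of the numbers of fixed points of
the Frobenius elements on `G ⧸ H`, over the primes at most `x`, is asymptotic to `x / log x`.
-/

set_option autoImplicit false

open NumberField Filter Topology IsDedekindDomain
open scoped nonZeroDivisors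
open Fermat.Agent.Classic.Disc Fermat.Agent.Classic.Emb Fermat.Agent.Frob

namespace Fermat.Agent.Cor

/-- the prime numbers at most `x` -/
def primesTo (x : ℕ) : Finset ℕ := (Finset.range (x + 1)).filter Nat.Prime

theorem mem_primesTo {x p : ℕ} : p ∈ primesTo x ↔ p ≤ x ∧ p.Prime := by
  rw [primesTo, Finset.mem_filter, Finset.mem_range, Nat.lt_succ_iff]

section Field

variable {F : Type*} [Field F] [NumberField F]

/-- Prime ideals and places. -/
def prPlace : ClassL.Pr F ≃ HeightOneSpectrum (𝓞 F) where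
  toFun P := ⟨((P.1 : (Ideal (𝓞 F))⁰) : Ideal (𝓞 F)), Ideal.isPrime_of_prime P.2, P.2.ne_zero⟩
  invFun v := ⟨⟨v.asIdeal, mem_nonZeroDivisors_of_ne_zero v.ne_bot⟩, v.prime⟩
  left_inv _ := rfl
  right_inv _ := rfl

theorem prPlace_asIdeal (P : ClassL.Pr F) :
    (prPlace P).asIdeal = ((P.1 : (Ideal (𝓞 F))⁰) : Ideal (𝓞 F)) := rfl

/-- every place lies above a prime number -/
theorem exists_above (v : HeightOneSpectrum (𝓞 F)) : ∃ p : ℕ, p.Prime ∧ v ∈ above F p := by
  obtain ⟨p, hp, h⟩ := Fermat.Agent.LT.Tower.Fr.exists_prime_mem v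
  exact ⟨p, hp, (mem_above hp.ne_zero).mpr h⟩

/-- a place lies above one prime number only -/
theorem above_unique {v : HeightOneSpectrum (𝓞 F)} {p q : ℕ} (hp : p.Prime) (hq : q.Prime)
    (h1 : v ∈ above F p) (h2 : v ∈ above F q) : p = q := by
  have h3 := absNorm_eq hp ((mem_above hp.ne_zero).mp h1)
  have h4 := absNorm_eq hq ((mem_above hq.ne_zero).mp h2)
  have h5 : p ∣ q ^ fdeg v := by
    rw [← h4, h3]
    exact dvd_pow_self p (fdeg_pos v).ne'
  exact (Nat.prime_dvd_prime_iff_eq hp hq).mp (hp.dvd_of_dvd_pow h5)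

/-- the number of places above a prime number is at most the degree -/
theorem card_above_le {p : ℕ} (hp : p.Prime) : (above F p).card ≤ Module.finrank ℚ F := by
  rw [← sum_ram_fdeg hp, Finset.card_eq_sum_ones]
  exact Finset.sum_le_sum fun v _ => Nat.one_le_iff_ne_zero.mpr
    (Nat.mul_ne_zero (ram_pos v).ne' (fdeg_pos v).ne')

/-- the norm of a place is at least the prime number below -/
theorem le_absNorm {v : HeightOneSpectrum (𝓞 F)} {p : ℕ} (hp : p.Prime) (h : v ∈ above F p) :
    p ≤ Ideal.absNorm v.asIdeal := by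
  rw [absNorm_eq hp ((mem_above hp.ne_zero).mp h)]
  exact Nat.le_self_pow (fdeg_pos v).ne' p

/-- the number of prime ideals of norm at most `x`, by prime numbers -/
theorem natCard_pr (x : ℕ) :
    Nat.card {P : ClassL.Pr F // Ideal.absNorm ((P.1 : (Ideal (𝓞 F))⁰) : Ideal (𝓞 F)) ≤ x} =
      ∑ p ∈ primesTo x, ((above F p).filter fun v => Ideal.absNorm v.asIdeal ≤ x).card := by
  classical
  rw [← Finset.card_biUnion]
  · have e : {P : ClassL.Pr F // Ideal.absNorm ((P.1 : (Ideal (𝓞 F))⁰) : Ideal (𝓞 F)) ≤ x} ≃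
        {v : HeightOneSpectrum (𝓞 F) // v ∈ (primesTo x).biUnion
          fun p => (above F p).filter fun v => Ideal.absNorm v.asIdeal ≤ x} := by
      refine prPlace.subtypeEquiv fun P => ?_
      rw [Finset.mem_biUnion, ← prPlace_asIdeal]
      constructor
      · intro h
        obtain ⟨p, hp, hv⟩ := exists_above (prPlace P)
        exact ⟨p, mem_primesTo.mpr ⟨(le_absNorm hp hv).trans h, hp⟩,
          Finset.mem_filter.mpr ⟨hv, h⟩⟩
      · rintro ⟨p, -, h⟩
        exact (Finset.mem_filter.mp h).2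
    rw [Nat.card_congr e, Nat.card_eq_fintype_card, Fintype.card_coe]
  · intro p hp q hq hpq
    rw [Function.onFun, Finset.disjoint_left]
    intro v h1 h2
    exact hpq (above_unique (mem_primesTo.mp hp).2 (mem_primesTo.mp hq).2
      (Finset.mem_filter.mp h1).1 (Finset.mem_filter.mp h2).1)

/-- the places of degree one above `p` -/
noncomputable def degOne (F : Type*) [Field F] [NumberField F] (p : ℕ) : ℕ :=
  ((above F p).filter fun v => fdeg v = 1).card

theorem degOne_le {p : ℕ} (hp : p.Prime) : degOne F p ≤ Module.finrank ℚ F :=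
  (Finset.card_filter_le _ _).trans (card_above_le hp)

/-- the places of degree one dominate -/
theorem natCard_pr_le (x : ℕ) :
    ∑ p ∈ primesTo x, degOne F p ≤
      Nat.card {P : ClassL.Pr F // Ideal.absNorm ((P.1 : (Ideal (𝓞 F))⁰) : Ideal (𝓞 F)) ≤ x} ∧
    Nat.card {P : ClassL.Pr F // Ideal.absNorm ((P.1 : (Ideal (𝓞 F))⁰) : Ideal (𝓞 F)) ≤ x} ≤
      ∑ p ∈ primesTo x, degOne F p + Module.finrank ℚ F * Nat.sqrt x := by
  classical
  rw [natCard_pr]
  have key : ∀ p ∈ primesTo x, degOne F p ≤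
      ((above F p).filter fun v => Ideal.absNorm v.asIdeal ≤ x).card ∧
      ((above F p).filter fun v => Ideal.absNorm v.asIdeal ≤ x).card ≤
        degOne F p + (if p ≤ Nat.sqrt x then Module.finrank ℚ F else 0) := by
    intro p hp
    obtain ⟨hpx, hp⟩ := mem_primesTo.mp hp
    constructor
    · refine Finset.card_le_card fun v hv => ?_
      rw [Finset.mem_filter] at hv ⊢
      refine ⟨hv.1, ?_⟩
      rw [absNorm_eq hp ((mem_above hp.ne_zero).mp hv.1), hv.2, pow_one]
      exact hpx
    · split_ifs with h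
      · exact (Finset.card_filter_le _ _).trans ((card_above_le hp).trans (Nat.le_add_left _ _))
      · rw [add_zero]
        refine Finset.card_le_card fun v hv => ?_
        rw [Finset.mem_filter] at hv ⊢
        refine ⟨hv.1, ?_⟩
        by_contra h1
        apply h
        have h2 : 2 ≤ fdeg v := by
          have := fdeg_pos v
          omega
        have h3 := hv.2
        rw [absNorm_eq hp ((mem_above hp.ne_zero).mp hv.1)] at h3
        rw [Nat.le_sqrt']
        exact (Nat.pow_le_pow_right hp.pos h2).trans h3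
  refine ⟨Finset.sum_le_sum fun p hp => (key p hp).1, ?_⟩
  refine (Finset.sum_le_sum fun p hp => (key p hp).2).trans ?_
  rw [Finset.sum_add_distrib]
  refine Nat.add_le_add_left ?_ _
  rw [← Finset.sum_filter, Finset.sum_const, smul_eq_mul, mul_comm]
  refine Nat.mul_le_mul_left _ ?_
  have h1 : (primesTo x).filter (fun p => p ≤ Nat.sqrt x) ⊆ Finset.Icc 1 (Nat.sqrt x) := by
    intro p hp
    rw [Finset.mem_filter, mem_primesTo] at hp
    exact Finset.mem_Icc.mpr ⟨hp.1.2.pos, hp.2⟩
  refine (Finset.card_le_card h1).trans ?_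
  rw [Nat.card_Icc, Nat.add_sub_cancel]

end Field

/-! ### Limits -/

theorem tendsto_log_div : Tendsto (fun x : ℕ => Real.log x / x) atTop (𝓝 0) :=
  Real.isLittleO_log_id_atTop.tendsto_div_nhds_zero.comp tendsto_natCast_atTop_atTop

theorem tendsto_sqrt_log : Tendsto (fun x : ℕ => (Nat.sqrt x : ℝ) * Real.log x / x) atTop (𝓝 0) := by
  have h1 : Tendsto (fun x : ℕ => Real.log x / (x : ℝ) ^ (1 / 2 : ℝ)) atTop (𝓝 0) :=
    (isLittleO_log_rpow_atTop (by norm_num : (0 : ℝ) < 1 / 2)).tendsto_div_nhds_zero.comp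
      tendsto_natCast_atTop_atTop
  refine squeeze_zero (fun x => by positivity) (fun x => ?_) h1
  rcases Nat.eq_zero_or_pos x with rfl | hx
  · simp
  have hx' : (0 : ℝ) < x := by exact_mod_cast hx
  rw [← Real.sqrt_eq_rpow]
  have hs : (0 : ℝ) < √(x : ℝ) := Real.sqrt_pos.mpr hx'
  have hlog : 0 ≤ Real.log (x : ℝ) := Real.log_natCast_nonneg x
  have h2 : (Nat.sqrt x : ℝ) ≤ √(x : ℝ) := Real.nat_sqrt_le_real_sqrt
  have h3 : Real.log (x : ℝ) / √(x : ℝ) = √(x : ℝ) * Real.log x / x := by
    rw [div_eq_div_iff hs.ne' hx'.ne']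
    have := Real.mul_self_sqrt hx'.le
    linear_combination (-Real.log (x : ℝ)) * this
  rw [h3]
  gcongr

/-- a bounded number of primes does not matter -/
theorem tendsto_of_bounded {f g : ℕ → ℝ} {C : ℝ} (h : ∀ x, |f x - g x| ≤ C) {l : ℝ}
    (hf : Tendsto (fun x : ℕ => f x * Real.log x / x) atTop (𝓝 l)) :
    Tendsto (fun x : ℕ => g x * Real.log x / x) atTop (𝓝 l) := by
  have h0 : Tendsto (fun x : ℕ => (f x - g x) * Real.log x / x) atTop (𝓝 0) := by
    have h1 : Tendsto (fun x : ℕ => C * (Real.log x / x)) atTop (𝓝 0) := by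
      simpa using tendsto_log_div.const_mul C
    refine squeeze_zero_norm (fun x => ?_) h1
    rw [mul_div_assoc, norm_mul, Real.norm_eq_abs, Real.norm_eq_abs,
      abs_of_nonneg (div_nonneg (Real.log_natCast_nonneg x) (Nat.cast_nonneg x))]
    exact mul_le_mul_of_nonneg_right (h x)
      (div_nonneg (Real.log_natCast_nonneg x) (Nat.cast_nonneg x))
  have h2 := hf.sub h0
  rw [sub_zero] at h2
  refine h2.congr fun x => ?_
  ring

/-- **The prime ideal theorem for the prime ideals of degree one.** -/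
theorem PIT.degOne {F : Type*} [Field F] [NumberField F] (h : PIT F) :
    Tendsto (fun x : ℕ => (∑ p ∈ primesTo x, (degOne F p : ℝ)) * Real.log x / x) atTop (𝓝 1) := by
  set N : ℕ → ℝ := fun x => (Nat.card {P : ClassL.Pr F //
    Ideal.absNorm ((P.1 : (Ideal (𝓞 F))⁰) : Ideal (𝓞 F)) ≤ x} : ℝ) with hN
  set A : ℕ → ℝ := fun x => ∑ p ∈ primesTo x, (Cor.degOne F p : ℝ) with hA
  have h1 : ∀ x, A x ≤ N x := fun x => by
    have := (natCard_pr_le (F := F) x).1
    simp only [hA, hN]
    exact_mod_cast this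
  have h2 : ∀ x, N x ≤ A x + Module.finrank ℚ F * Nat.sqrt x := fun x => by
    have := (natCard_pr_le (F := F) x).2
    simp only [hA, hN]
    exact_mod_cast this
  have h3 : Tendsto (fun x : ℕ => (N x - A x) * Real.log x / x) atTop (𝓝 0) := by
    have h4 : Tendsto (fun x : ℕ => (Module.finrank ℚ F : ℝ) * ((Nat.sqrt x : ℝ) * Real.log x / x))
        atTop (𝓝 0) := by
      simpa using tendsto_sqrt_log.const_mul (Module.finrank ℚ F : ℝ)
    refine squeeze_zero (fun x => ?_) (fun x => ?_) h4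
    · exact div_nonneg (mul_nonneg (sub_nonneg.mpr (h1 x)) (Real.log_natCast_nonneg x))
        (Nat.cast_nonneg x)
    · have h5 : N x - A x ≤ Module.finrank ℚ F * Nat.sqrt x := by linarith [h2 x]
      rw [mul_div_assoc, mul_div_assoc, ← mul_assoc]
      exact mul_le_mul_of_nonneg_right h5
        (div_nonneg (Real.log_natCast_nonneg x) (Nat.cast_nonneg x))
  have h4 : Tendsto (fun x : ℕ => N x * Real.log x / x) atTop (𝓝 1) := h
  have h5 := h4.sub h3
  rw [sub_zero] at h5
  refine h5.congr fun x => ?_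
  ring

/-! ### Frobenius -/

section Frobenius

open Fermat.Agent.Classic.Level

variable {G : Type*} [Group G] {ρ : GQ →* G} {H : Subgroup G}

/-- at all but finitely many primes the number of places of degree one is the number of fixed points
of Frobenius -/
theorem exists_degOne_eq (T : FixField ρ H) (hs : Function.Surjective ρ) :
    ∃ D : ℕ, D ≠ 0 ∧ ∀ p : ℕ, p.Prime → ¬ p ∣ D →
      ∀ A : ValuationSubring (AlgebraicClosure ℚ), A.LiesOverPrime p →
      ∀ σ : GQ, A.IsFrobeniusAt σ p → degOne T.F p = pH H (ρ σ) := by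
  classical
  obtain ⟨D, hD, h⟩ := exists_sum_fdeg T.F
  refine ⟨D, hD, fun p hp hpD A hA σ hσ => ?_⟩
  have h1 := h p hp hpD A hA σ hσ 1
  rw [pow_one, T.card_fixed hs] at h1
  rw [← h1, degOne, Finset.card_eq_sum_ones]
  have h2 : (above T.F p).filter (fun v => fdeg v = 1) =
      (above T.F p).filter (fun v => fdeg v ∣ 1) :=
    Finset.filter_congr fun v _ => Nat.dvd_one.symm
  rw [h2]
  exact Finset.sum_congr rfl fun v hv => (Nat.dvd_one.mp (Finset.mem_filter.mp hv).2).symm

/-- **Fixed points of Frobenius**: the mean number of fixed points of the Frobenius elements on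
`G ⧸ H` is one, with natural density. -/
theorem tendsto_sum_pH (T : FixField ρ H) (hs : Function.Surjective ρ)
    (hPIT : PIT T.F) {φ : ℕ → GQ}
    (hφ : ∀ p : ℕ, p.Prime → ∃ A : ValuationSubring (AlgebraicClosure ℚ),
      A.LiesOverPrime p ∧ A.IsFrobeniusAt (φ p) p) :
    Tendsto (fun x : ℕ => (∑ p ∈ (Finset.range (x + 1)).filter Nat.Prime, (pH H (ρ (φ p)) : ℝ)) *
      Real.log x / x) atTop (𝓝 1) := by
  obtain ⟨D, hD, h⟩ := exists_degOne_eq T hs
  refine tendsto_of_bounded (C := ∑ p ∈ D.primeFactors,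
    |(Cor.degOne T.F p : ℝ) - pH H (ρ (φ p))|) (fun x => ?_) hPIT.degOne
  have h0 : ∀ p ∈ primesTo x, p ∉ D.primeFactors →
      (Cor.degOne T.F p : ℝ) - pH H (ρ (φ p)) = 0 := by
    intro p hp hpD
    have hp' := (mem_primesTo.mp hp).2
    obtain ⟨A, hA, hσ⟩ := hφ p hp'
    rw [h p hp' (fun hd => hpD (Nat.mem_primeFactors.mpr ⟨hp', hd, hD⟩)) A hA _ hσ, sub_self]
  change |∑ p ∈ primesTo x, (Cor.degOne T.F p : ℝ) - ∑ p ∈ primesTo x, (pH H (ρ (φ p)) : ℝ)| ≤ _
  rw [← Finset.sum_sub_distrib]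
  refine (Finset.abs_sum_le_sum_abs _ _).trans ?_
  rw [← Finset.sum_filter_add_sum_filter_not (primesTo x) (· ∈ D.primeFactors)]
  have h1 : ∑ p ∈ (primesTo x).filter (fun p => p ∉ D.primeFactors),
      |(Cor.degOne T.F p : ℝ) - pH H (ρ (φ p))| = 0 := by
    refine Finset.sum_eq_zero fun p hp => ?_
    rw [Finset.mem_filter] at hp
    rw [h0 p hp.1 hp.2, abs_zero]
  rw [h1, add_zero]
  refine Finset.sum_le_sum_of_subset_of_nonneg (fun p hp => (Finset.mem_filter.mp hp).2)
    fun p _ _ => abs_nonneg _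

end Frobenius

end Fermat.Agent.Cor
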