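import Fermat.Agent.Corollaries.ZetaK.Rat
import Fermat.Agent.ClassL.Euler

/-!
# The prime ideals of `𝓞 ℚ` are the prime numbers
-/

set_option autoImplicit false

noncomputable section

open NumberField Ideal
open scoped nonZeroDivisors

namespace Fermat.Agent.Cor

theorem prime_span_natCast {p : ℕ} (hp : p.Prime) : Prime (span {(p : 𝓞 ℚ)}) := by
  have h0 : (p : 𝓞 ℚ) ≠ 0 := by exact_mod_cast hp.ne_zero
  have h1 : Prime (p : 𝓞 ℚ) := by
    rw [← MulEquiv.prime_iff (Rat.ringOfIntegersEquiv : 𝓞 ℚ ≃+* ℤ).toMulEquiv]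
    have h2 : (Rat.ringOfIntegersEquiv : 𝓞 ℚ ≃+* ℤ).toMulEquiv (p : 𝓞 ℚ) = (p : ℤ) :=
      map_natCast Rat.ringOfIntegersEquiv p
    rw [h2]
    exact Nat.prime_iff_prime_int.mp hp
  exact Ideal.prime_of_isPrime (by rwa [Ne, span_singleton_eq_bot])
    ((span_singleton_prime h0).mpr h1)

theorem absNorm_prime_rat {I : Ideal (𝓞 ℚ)} (hI : Prime I) : (absNorm I).Prime := by
  obtain ⟨n, rfl⟩ := exists_eq_span_natCast I
  rw [absNorm_span_nat]
  have h1 : Prime (n : 𝓞 ℚ) := by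
    have h0 : (n : 𝓞 ℚ) ≠ 0 := by
      intro h
      exact hI.ne_zero (by rw [h, Submodule.zero_eq_bot, span_singleton_eq_bot])
    exact (span_singleton_prime h0).mp (isPrime_of_prime hI)
  rw [← MulEquiv.prime_iff (Rat.ringOfIntegersEquiv : 𝓞 ℚ ≃+* ℤ).toMulEquiv] at h1
  have h2 : (Rat.ringOfIntegersEquiv : 𝓞 ℚ ≃+* ℤ).toMulEquiv (n : 𝓞 ℚ) = (n : ℤ) :=
    map_natCast Rat.ringOfIntegersEquiv n
  rw [h2] at h1
  exact Nat.prime_iff_prime_int.mpr h1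

/-- the prime ideals of `𝓞 ℚ` and the prime numbers -/
def prRat : ClassL.Pr ℚ ≃ Nat.Primes where
  toFun P := ⟨absNorm ((P.1 : (Ideal (𝓞 ℚ))⁰) : Ideal (𝓞 ℚ)), absNorm_prime_rat P.2⟩
  invFun p := ⟨⟨span {((p : ℕ) : 𝓞 ℚ)}, mem_nonZeroDivisors_of_ne_zero
    (prime_span_natCast p.2).ne_zero⟩, prime_span_natCast p.2⟩
  left_inv P := by
    refine Subtype.ext (Subtype.ext ?_)
    obtain ⟨n, hn⟩ := exists_eq_span_natCast ((P.1 : (Ideal (𝓞 ℚ))⁰) : Ideal (𝓞 ℚ))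
    simp only [hn, absNorm_span_nat]
  right_inv p := Subtype.ext (absNorm_span_nat _)

theorem prRat_apply (P : ClassL.Pr ℚ) :
    ((prRat P : Nat.Primes) : ℕ) = absNorm ((P.1 : (Ideal (𝓞 ℚ))⁰) : Ideal (𝓞 ℚ)) := rfl

/-- the number of prime ideals of `𝓞 ℚ` of norm `≤ x` -/
theorem card_pr_rat (x : ℕ) :
    Nat.card {P : ClassL.Pr ℚ // absNorm ((P.1 : (Ideal (𝓞 ℚ))⁰) : Ideal (𝓞 ℚ)) ≤ x} =
      Nat.primeCounting x := by
  have e1 : {P : ClassL.Pr ℚ // absNorm ((P.1 : (Ideal (𝓞 ℚ))⁰) : Ideal (𝓞 ℚ)) ≤ x} ≃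
      {p : Nat.Primes // (p : ℕ) ≤ x} := prRat.subtypeEquiv fun P => by rw [prRat_apply]
  have e2 : {p : Nat.Primes // (p : ℕ) ≤ x} ≃
      ((Finset.range (x + 1)).filter Nat.Prime : Finset ℕ) :=
    { toFun := fun p => ⟨p.1, by
        rw [Finset.mem_filter, Finset.mem_range]
        exact ⟨Nat.lt_succ_of_le p.2, p.1.2⟩⟩
      invFun := fun p => ⟨⟨p.1, (Finset.mem_filter.mp p.2).2⟩,
        Nat.le_of_lt_succ (Finset.mem_range.mp (Finset.mem_filter.mp p.2).1)⟩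
      left_inv := fun _ => rfl
      right_inv := fun _ => rfl }
  rw [Nat.card_congr (e1.trans e2), Nat.card_eq_fintype_card, Fintype.card_coe,
    Nat.primeCounting, Nat.primeCounting', Nat.count_eq_card_filter_range]

end Fermat.Agent.Cor

end
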