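import Fermat.Agent.Corollaries.ZetaK.LandauIn
import Fermat.Agent.Corollaries.ZetaK.PrimeCountK
import Fermat.Agent.Corollaries.ZetaK.RatPrimes

/-!
# The prime ideal theorem

For every number field `K` the number of prime ideals of norm `≤ x` is asymptotic to `x / log x`,
and every ideal class has its share `1 / h` (Landau 1903, 1907).

The analytic input (`LandauIn`) is the Tauberian theorem of Wiener and Ikehara for the function
`LamC C`, the non-vanishing of the class group `L`-functions on the line `Re s = 1` and the simple
pole of `ζ_K` at `1`; `PrimeCountK` passes from `∑ Λ_C(n)` to the number of prime ideals.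
-/

set_option autoImplicit false

noncomputable section

open NumberField nonZeroDivisors Filter Topology

open scoped Classical

namespace Fermat.Agent.Cor

open Fermat.Agent.ClassL

universe u

variable (K : Type u) [Field K] [NumberField K]

/-- **The prime ideal theorem for an ideal class** (Landau): the number of prime ideals of norm
`≤ x` in a given class of the ideal class group is asymptotic to `(1 / h) x / log x`. -/
theorem prime_ideal_theorem_class (C : ClassGroup (𝓞 K)) :
    Tendsto (fun x : ℕ => (Nat.card {P : ClassL.Pr K //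
        Ideal.absNorm ((P.1 : (Ideal (𝓞 K))⁰) : Ideal (𝓞 K)) ≤ x ∧ ClassGroup.mk0 P.1 = C} : ℝ) *
      Real.log x / x) atTop (𝓝 (1 / Nat.card (ClassGroup (𝓞 K)))) := by
  rw [one_div]
  exact tendsto_card_class K (LamC_eq_and C) (tendsto_psi_class C)

/-- **The prime ideal theorem** (Landau): the number of prime ideals of norm `≤ x` of a number
field is asymptotic to `x / log x`. -/
theorem prime_ideal_theorem :
    Tendsto (fun x : ℕ => (Nat.card {P : ClassL.Pr K //
        Ideal.absNorm ((P.1 : (Ideal (𝓞 K))⁰) : Ideal (𝓞 K)) ≤ x} : ℝ) *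
      Real.log x / x) atTop (𝓝 1) :=
  tendsto_card_all K fun C => prime_ideal_theorem_class K C

/-- The number of non-zero prime ideals `v` of norm `≤ x` (Mathlib's `HeightOneSpectrum`). -/
theorem prime_ideal_theorem_places :
    Tendsto (fun x : ℕ => (Nat.card {v : IsDedekindDomain.HeightOneSpectrum (𝓞 K) //
        Ideal.absNorm v.asIdeal ≤ x} : ℝ) * Real.log x / x) atTop (𝓝 1) := by
  refine (prime_ideal_theorem K).congr fun x => ?_
  congr 3
  refine Nat.card_congr
    { toFun := fun P => ⟨⟨((P.1.1 : (Ideal (𝓞 K))⁰) : Ideal (𝓞 K)),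
        Ideal.isPrime_of_prime P.1.2, P.1.2.ne_zero⟩, P.2⟩
      invFun := fun v => ⟨⟨⟨v.1.asIdeal, mem_nonZeroDivisors_of_ne_zero v.1.ne_bot⟩,
        v.1.prime⟩, v.2⟩
      left_inv := fun _ => rfl
      right_inv := fun _ => rfl }

/-- The case `K = ℚ`, class number one: the prime number theorem. -/
theorem prime_number_theorem_of_rat :
    Tendsto (fun x : ℕ => (Nat.primeCounting x : ℝ) * Real.log x / x) atTop (𝓝 1) := by
  refine (prime_ideal_theorem ℚ).congr fun x => ?_
  rw [card_pr_rat x]

end Fermat.Agent.Cor

end
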