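import Mathlib

/-!
# The cycle type of a permutation and the fixed points of its powers

* `card_fix_pow` : the number of fixed points of `s ^ k` is the sum of the lengths of the cycles
  whose length divides `k` (fixed points are cycles of length one);
* `ext_of_sum` : a multiset `m` of positive numbers is determined by the sums
  `∑_{f ∈ m, f ∣ k} f`;
* `parts_eq` : both together.
-/

set_option autoImplicit false

namespace Fermat.Agent.Cor.Frob

open Equiv Equiv.Perm

section Perm

variable {α : Type*} [Fintype α] [DecidableEq α]

/-- the points of a cycle fixed by a power of the permutation -/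
lemma card_fiber (s : Perm α) (k : ℕ) {c : Perm α} (hc : c ∈ s.cycleFactorsFinset) :
    (s.support.filter fun x => (s ^ k) x = x ∧ s.cycleOf x = c).card =
      if c.support.card ∣ k then c.support.card else 0 := by
  have hcy : c.IsCycle := (mem_cycleFactorsFinset_iff.mp hc).1
  have h1 : ∀ x ∈ c.support, s.cycleOf x = c := fun x hx =>
    (cycle_is_cycleOf hx hc).symm
  have h2 : ∀ x, s.cycleOf x = c → x ∈ s.support → x ∈ c.support := by
    intro x hx hs
    rw [← hx, mem_support_cycleOf_iff]
    exact ⟨SameCycle.refl s x, hs⟩
  have h3 : ∀ x ∈ c.support, (s ^ k) x = x ↔ c ^ k = 1 := by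
    intro x hx
    rw [hcy.pow_eq_one_iff' (mem_support.mp hx), ← cycleOf_pow_apply_self, h1 x hx]
  have h4 : c ^ k = 1 ↔ c.support.card ∣ k := by
    rw [← hcy.orderOf, orderOf_dvd_iff_pow_eq_one]
  split_ifs with h
  · congr 1
    ext x
    rw [Finset.mem_filter]
    constructor
    · rintro ⟨hx, -, hxc⟩
      exact h2 x hxc hx
    · intro hx
      exact ⟨mem_cycleFactorsFinset_support_le hc hx, (h3 x hx).mpr (h4.mpr h), h1 x hx⟩
  · rw [Finset.card_eq_zero, Finset.filter_eq_empty_iff]
    rintro x hx ⟨hk, hxc⟩
    exact h (h4.mp ((h3 x (h2 x hxc hx)).mp hk))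

/-- **Fixed points of a power of a permutation.** -/
theorem card_fix_pow (s : Perm α) (k : ℕ) :
    (Finset.univ.filter fun x => (s ^ k) x = x).card =
      (s.partition.parts.filter (· ∣ k)).sum := by
  rw [parts_partition, Multiset.filter_add, Multiset.sum_add]
  have h1 : ((Multiset.replicate (Fintype.card α - s.support.card) 1).filter (· ∣ k)).sum =
      Fintype.card α - s.support.card := by
    rw [Multiset.filter_eq_self.mpr fun a ha => ?_, Multiset.sum_replicate, smul_eq_mul, mul_one]
    rw [Multiset.eq_of_mem_replicate ha]
    exact one_dvd k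
  have h2 : (s.cycleType.filter (· ∣ k)).sum =
      (s.support.filter fun x => (s ^ k) x = x).card := by
    have h3 : (s.support.filter fun x => (s ^ k) x = x).card =
        ∑ c ∈ s.cycleFactorsFinset,
          ((s.support.filter fun x => (s ^ k) x = x).filter fun x => s.cycleOf x = c).card :=
      Finset.card_eq_sum_card_fiberwise fun x hx =>
        cycleOf_mem_cycleFactorsFinset_iff.mpr (Finset.mem_filter.mp hx).1
    rw [h3, cycleType_def, Multiset.filter_map, Finset.sum_congr rfl fun c hc => by
      rw [Finset.filter_filter, card_fiber s k hc]]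
    rw [← Finset.sum_filter]
    rfl
  have h5 : (Finset.univ.filter fun x => (s ^ k) x = x) =
      (s.support.filter fun x => (s ^ k) x = x) ∪ s.supportᶜ := by
    ext x
    simp only [Finset.mem_filter, Finset.mem_univ, true_and, Finset.mem_union, Finset.mem_compl]
    constructor
    · intro h
      by_cases hx : x ∈ s.support
      · exact Or.inl ⟨hx, h⟩
      · exact Or.inr hx
    · rintro (h | h)
      · exact h.2
      · exact pow_apply_eq_self_of_apply_eq_self (notMem_support.mp h) k
  rw [h1, h2, h5, Finset.card_union_of_disjoint, Finset.card_compl]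
  rw [Finset.disjoint_left]
  intro x hx hx'
  exact (Finset.mem_compl.mp hx') (Finset.mem_filter.mp hx).1

end Perm

/-- A multiset of positive numbers is determined by the sums over the divisors of `k`. -/
theorem ext_of_sum {m m' : Multiset ℕ} (hm : ∀ x ∈ m, 0 < x) (hm' : ∀ x ∈ m', 0 < x)
    (h : ∀ k, (m.filter (· ∣ k)).sum = (m'.filter (· ∣ k)).sum) : m = m' := by
  have hs : ∀ (m : Multiset ℕ) (k : ℕ), k ≠ 0 →
      (m.filter (· ∣ k)).sum = ∑ d ∈ k.divisors, m.count d * d := by
    intro m k hk
    rw [Finset.sum_multiset_count_of_subset (m.filter (· ∣ k)) k.divisors]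
    · refine Finset.sum_congr rfl fun d hd => ?_
      rw [Multiset.count_filter_of_pos (p := (· ∣ k)) (Nat.dvd_of_mem_divisors hd), smul_eq_mul]
    · intro d hd
      rw [Multiset.mem_toFinset, Multiset.mem_filter] at hd
      exact Nat.mem_divisors.mpr ⟨hd.2, hk⟩
  refine Multiset.ext.mpr fun k => ?_
  induction k using Nat.strong_induction_on with
  | _ k ih =>
    rcases Nat.eq_zero_or_pos k with rfl | hk
    · rw [Multiset.count_eq_zero_of_notMem fun h0 => (hm 0 h0).false,
        Multiset.count_eq_zero_of_notMem fun h0 => (hm' 0 h0).false]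
    · have h1 := h k
      rw [hs m k hk.ne', hs m' k hk.ne', ← Nat.insert_self_properDivisors hk.ne',
        Finset.sum_insert Nat.self_notMem_properDivisors,
        Finset.sum_insert Nat.self_notMem_properDivisors,
        Finset.sum_congr rfl fun d hd => by
          rw [ih d (Nat.mem_properDivisors.mp hd).2]] at h1
      exact Nat.eq_of_mul_eq_mul_right hk (Nat.add_right_cancel h1)

/-- The cycle type of a permutation is determined by the numbers of fixed points of its powers. -/
theorem parts_eq {α : Type*} [Fintype α] [DecidableEq α] {s : Perm α} {m : Multiset ℕ}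
    (hm : ∀ x ∈ m, 0 < x)
    (h : ∀ k, (m.filter (· ∣ k)).sum = Nat.card {x : α // (s ^ k) x = x}) :
    m = s.partition.parts := by
  refine ext_of_sum hm (fun x hx => s.partition.parts_pos hx) fun k => ?_
  rw [h k, ← card_fix_pow, Nat.card_eq_fintype_card, Fintype.card_subtype]

/-- Permutations which generate the same group have the same cycle type. -/
theorem parts_of_zpowers {α : Type*} [Fintype α] [DecidableEq α] {s t : Perm α}
    (h : Subgroup.zpowers s = Subgroup.zpowers t) : s.partition.parts = t.partition.parts := by
  refine ext_of_sum (fun x hx => s.partition.parts_pos hx) (fun x hx => t.partition.parts_pos hx)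
    fun k => ?_
  rw [← card_fix_pow, ← card_fix_pow]
  have key : ∀ s t : Perm α, Subgroup.zpowers s = Subgroup.zpowers t → ∀ x,
      (s ^ k) x = x → (t ^ k) x = x := by
    intro s t h x hx
    have h1 : t ∈ Subgroup.zpowers s := by
      rw [h]
      exact Subgroup.mem_zpowers t
    obtain ⟨n, rfl⟩ := Subgroup.mem_zpowers_iff.mp h1
    rw [← zpow_natCast, ← zpow_mul, mul_comm, zpow_mul, zpow_natCast]
    exact zpow_apply_eq_self_of_apply_eq_self hx n
  congr 1
  ext x
  rw [Finset.mem_filter, Finset.mem_filter]
  exact and_congr_right fun _ => ⟨key s t h x, key t s h.symm x⟩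

end Fermat.Agent.Cor.Frob
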