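import Fermat.Agent.Corollaries.ZetaK.LFun

/-!
# Complex conjugation

`LF_conj`: `L(conj f, conj s) = conj L(f, s)` for every class function `f`; in particular
`LK_conj`: `L(χ⁻¹, conj s) = conj L(χ, s)` and `zetaK_conj`: `ζ_K(conj s) = conj ζ_K(s)`.
-/

set_option autoImplicit false

noncomputable section

namespace Fermat.Agent.Cor

open Fermat.Agent.Classic.Zeta NumberField Complex
open scoped nonZeroDivisors ComplexConjugate

universe u

/-! ### General lemmas -/

theorem natCast_cpow_conj (n : ℕ) (s : ℂ) : (n : ℂ) ^ conj s = conj ((n : ℂ) ^ s) := by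
  rw [cpow_conj _ _ (by rw [natCast_arg]; exact Real.pi_pos.ne), conj_natCast]

theorem ofReal_cpow_conj {x : ℝ} (hx : 0 ≤ x) (s : ℂ) : (x : ℂ) ^ conj s = conj ((x : ℂ) ^ s) := by
  rw [cpow_conj _ _ (by rw [arg_ofReal_of_nonneg hx]; exact Real.pi_pos.ne), conj_ofReal]

theorem Gammaℝ_conj (s : ℂ) : Gammaℝ (conj s) = conj (Gammaℝ s) := by
  rw [Gammaℝ_def, Gammaℝ_def, map_mul, ← Gamma_conj, map_div₀, conj_ofNat,
    ← ofReal_cpow_conj Real.pi_pos.le, map_div₀, map_neg, conj_ofNat]

theorem Gammaℂ_conj (s : ℂ) : Gammaℂ (conj s) = conj (Gammaℂ s) := by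
  have h : ((2 : ℂ) * (Real.pi : ℂ)) = ((2 * Real.pi : ℝ) : ℂ) := by push_cast; rfl
  rw [Gammaℂ_def, Gammaℂ_def, map_mul, map_mul, ← Gamma_conj, conj_ofNat, h,
    ← ofReal_cpow_conj (by positivity), map_neg]

/-- two entire functions which are conjugate on a half plane are conjugate everywhere -/
theorem conj_of_halfPlane {g g' : ℂ → ℂ} (hg : Differentiable ℂ g) (hg' : Differentiable ℂ g')
    {c : ℝ} (h : ∀ s : ℂ, c < s.re → g' (conj s) = conj (g s)) (s : ℂ) :
    g' (conj s) = conj (g s) := by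
  have h1 : Differentiable ℂ (conj ∘ g' ∘ conj) := fun s =>
    differentiableAt_conj_conj_iff.mpr (hg' (conj s))
  have h2 : conj ∘ g' ∘ conj = g := by
    refine AnalyticOnNhd.eq_of_eventuallyEq (z₀ := ((c + 1 : ℝ) : ℂ))
      (fun z _ => h1.analyticAt z) (fun z _ => hg.analyticAt z) ?_
    have h3 : {z : ℂ | c < z.re} ∈ nhds (((c + 1 : ℝ) : ℂ)) :=
      (isOpen_lt continuous_const continuous_re).mem_nhds (by simp)
    filter_upwards [h3] with z hz
    have h4 := h z hz
    change conj (g' (conj z)) = g z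
    rw [h4, Complex.conj_conj]
  have h3 := congrFun h2 s
  change conj (g' (conj s)) = g s at h3
  rw [← h3, Complex.conj_conj]

theorem deriv_conj {g g' : ℂ → ℂ} (h : ∀ s, g' (conj s) = conj (g s)) (s : ℂ) :
    deriv g' (conj s) = conj (deriv g s) := by
  have h1 : g = conj ∘ g' ∘ conj := by
    funext z
    change g z = conj (g' (conj z))
    rw [h, Complex.conj_conj]
  rw [h1, deriv_conj_conj]
  change _ = conj (conj (deriv g' (conj s)))
  rw [Complex.conj_conj]

theorem dslope_conj {g g' : ℂ → ℂ} (h : ∀ s, g' (conj s) = conj (g s)) {a : ℂ} (ha : conj a = a)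
    (s : ℂ) : dslope g' a (conj s) = conj (dslope g a s) := by
  by_cases hs : s = a
  · subst hs
    have h1 := deriv_conj h s
    rw [ha] at h1 ⊢
    rw [dslope_same, dslope_same, h1]
  · have hs' : conj s ≠ a := fun h1 => hs (by rw [← ha, ← h1, Complex.conj_conj])
    have h2 : g' a = conj (g a) := by
      conv_lhs => rw [← ha]
      exact h a
    rw [dslope_of_ne _ hs', dslope_of_ne _ hs, slope_def_field, slope_def_field, h, h2, map_div₀,
      map_sub, map_sub, ha]

section Zeta

variable {K : Type u} [Field K] [NumberField K]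

theorem zcK_conj (C : ClassGroup (𝓞 K)) (s : ℂ) : zcK C (conj s) = conj (zcK C s) := by
  unfold zcK
  rw [Complex.conj_tsum]
  refine tsum_congr fun 𝔞 => ?_
  rw [← map_neg, natCast_cpow_conj]

theorem gam_conj (s : ℂ) : gam K (conj s) = conj (gam K s) := by
  unfold gam
  rw [Gammaℝ_conj, Gammaℂ_conj, map_mul, map_pow, map_pow]

theorem gi_conj (s : ℂ) : gi K (conj s) = conj (gi K s) := by
  rw [gi, gi, gam_conj, map_inv₀]

theorem gs_conj (s : ℂ) : gs K (conj s) = conj (gs K s) :=
  dslope_conj gi_conj (map_zero _) s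

/-- the function `Ξ` of an ideal class is real on the real axis -/
theorem XiC_conj (C : ClassGroup (𝓞 K)) (s : ℂ) : XiC K C (conj s) = conj (XiC K C s) := by
  refine conj_of_halfPlane (differentiable_XiC C) (differentiable_XiC C) (c := 1)
    (fun s hs => ?_) s
  rw [XiC_eq C hs, XiC_eq C (by rwa [conj_re]), zcK_conj, gam_conj]
  have h2 : conj s / 2 = conj (s / 2) := by rw [map_div₀, conj_ofNat]
  rw [h2, ofReal_cpow_conj (abs_nonneg _)]
  simp only [map_mul, map_sub, map_one]

theorem XiF_conj (f : ClassGroup (𝓞 K) → ℂ) (s : ℂ) :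
    XiF (fun C => conj (f C)) (conj s) = conj (XiF f s) := by
  unfold XiF
  rw [map_sum]
  exact Finset.sum_congr rfl fun C _ => by rw [XiC_conj, map_mul]

/-- **Complex conjugation.** -/
theorem LF_conj (f : ClassGroup (𝓞 K) → ℂ) (s : ℂ) :
    LF (fun C => conj (f C)) (conj s) = conj (LF f s) := by
  unfold LF
  have h1 : XiF (fun C => conj (f C)) 1 = conj (XiF f 1) := by
    rw [← XiF_conj, map_one]
  have h2 : -conj s / 2 = conj (-s / 2) := by rw [map_div₀, conj_ofNat, map_neg]
  have h3 : gs K (conj s) = conj (gs K s) := gs_conj s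
  have h4 : dslope (XiF fun C => conj (f C)) 1 (conj s) = conj (dslope (XiF f) 1 s) :=
    dslope_conj (XiF_conj f) (map_one _) s
  rw [h1, h2, h3, h4, ofReal_cpow_conj (abs_nonneg _)]
  simp only [map_mul, map_sub, map_one, map_div₀]

/-- the complex conjugate of a character of the class group is its inverse -/
theorem conj_char (χ : ClassGroup (𝓞 K) →* ℂˣ) (C : ClassGroup (𝓞 K)) :
    conj (χ C : ℂ) = (χ⁻¹ C : ℂˣ) := by
  have h1 : (χ C : ℂ) ^ Nat.card (ClassGroup (𝓞 K)) = 1 := by
    rw [← Units.val_pow_eq_pow_val, ← map_pow, pow_card_eq_one', map_one, Units.val_one]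
  have h2 : ‖(χ C : ℂ)‖ = 1 := Complex.norm_eq_one_of_pow_eq_one h1 Nat.card_pos.ne'
  rw [MonoidHom.inv_apply, Units.val_inv_eq_inv_val, Complex.inv_eq_conj h2]

theorem LK_conj (χ : ClassGroup (𝓞 K) →* ℂˣ) (s : ℂ) :
    LK χ⁻¹ (conj s) = conj (LK χ s) := by
  unfold LK
  rw [← LF_conj]
  congr 1
  funext C
  rw [conj_char]

theorem LK_eq_zero_conj_iff (χ : ClassGroup (𝓞 K) →* ℂˣ) (s : ℂ) :
    LK χ⁻¹ (conj s) = 0 ↔ LK χ s = 0 := by
  rw [LK_conj, map_eq_zero]

variable (K) in
/-- **The Dedekind zeta function commutes with complex conjugation.** -/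
theorem zetaK_conj (s : ℂ) : zetaK K (conj s) = conj (zetaK K s) := by
  unfold zetaK
  rw [← LF_conj]
  congr 1
  funext C
  rw [map_one]

variable (K) in
theorem zetaK_eq_zero_conj_iff (s : ℂ) : zetaK K (conj s) = 0 ↔ zetaK K s = 0 := by
  rw [zetaK_conj, map_eq_zero]

variable (K) in
/-- the Dedekind zeta function is real on the real axis -/
theorem im_zetaK_ofReal (x : ℝ) : (zetaK K x).im = 0 := by
  rw [← Complex.conj_eq_iff_im, ← zetaK_conj, conj_ofReal]

end Zeta

end Fermat.Agent.Cor
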