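import Fermat.Agent.Corollaries.ZetaK.LFun
import Fermat.Agent.Corollaries.ZetaK.TrivAbs
import Fermat.Agent.Corollaries.ZetaK.EulerK

/-!
# Trivial zeros and the explicit functional equation of the Dedekind zeta function

`ζ_K` has no zero with `1 < re s`; for `re s < 0` its zeros are the negative even integers, of order
`r₁ + r₂`, and the negative odd integers, of order `r₂`.
-/

set_option autoImplicit false

noncomputable section

namespace Fermat.Agent.Cor

open NumberField NumberField.InfinitePlace Fermat.Agent.Classic.Zeta Complex ZetaK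
open scoped nonZeroDivisors Classical

universe u

variable {K : Type u} [Field K] [NumberField K]

theorem gam_eq_gm (s : ℂ) : gam K s = gm (nrRealPlaces K) (nrComplexPlaces K) s := rfl

theorem LF_eq_div_gm (f : ClassGroup (𝓞 K) → ℂ) (s : ℂ) (h0 : s ≠ 0) (h1 : s ≠ 1) :
    LF f s = XiF f s / (s * (1 - s) * (((|(discr K : ℝ)| : ℝ) : ℂ) ^ (s / 2) *
      gm (nrRealPlaces K) (nrComplexPlaces K) s)) := by
  rw [LF_eq_div f h0 h1, gam_eq_gm, mul_assoc (s * (1 - s))]

/-- `L(s, f) ≠ 0` implies `Ξ(s, f) ≠ 0` for `re s > 1`. -/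
theorem XiF_ne_zero {f : ClassGroup (𝓞 K) → ℂ} {s : ℂ} (hs : 1 < s.re) (h : LF f s ≠ 0) :
    XiF f s ≠ 0 := by
  rw [LF_eq f hs] at h
  rw [XiF_eq f hs]
  have h0 : s ≠ 0 := ne_zero_of_re hs
  have h1 : s ≠ 1 := ne_one_of_re hs
  refine mul_ne_zero (mul_ne_zero h0 (sub_ne_zero.mpr h1.symm))
    (mul_ne_zero (mul_ne_zero ?_ ?_) h)
  · rw [Ne, cpow_eq_zero_iff]
    exact fun h' => absDisc_ne_zero h'.1
  · rw [gam_eq_gm]
    exact gm_ne_zero _ _ (ne_neg_natCast_of_re_pos (by linarith))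

/-- **Order at the points with `re s < 0`** of the L-function of a class function, where the
completed function does not vanish. -/
theorem order_LF {f : ClassGroup (𝓞 K) → ℂ} {s : ℂ} (hs : s.re < 0) (h : XiF f s ≠ 0) :
    analyticOrderAt (LF f) s =
      (if ∃ k : ℕ, s = -(2 * k) then (nrRealPlaces K : ℕ∞) else 0) +
        (if ∃ k : ℕ, s = -k then (nrComplexPlaces K : ℕ∞) else 0) := by
  have h0 : s ≠ 0 := by rintro rfl; simp at hs
  have h1 : s ≠ 1 := by rintro rfl; simp at hs; linarith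
  rw [order_of_div absDisc_ne_zero (differentiable_XiF f) (LF_eq_div_gm f) h0 h1 h,
    analyticOrderAt_inv_gm]

theorem order_LF_neg_even {f : ClassGroup (𝓞 K) → ℂ} {m : ℕ} (hm : 1 ≤ m)
    (h : XiF f (-(2 * m)) ≠ 0) :
    analyticOrderAt (LF f) (-(2 * m)) = (nrRealPlaces K + nrComplexPlaces K : ℕ) := by
  have hre : (-(2 * (m : ℂ))).re < 0 := by
    have : (1 : ℝ) ≤ m := by exact_mod_cast hm
    simp only [neg_re, mul_re, re_ofNat, natCast_re, im_ofNat, natCast_im, mul_zero, sub_zero]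
    linarith
  rw [order_LF hre h, if_pos ⟨m, rfl⟩, if_pos ⟨2 * m, by push_cast; ring⟩, Nat.cast_add]

theorem order_LF_neg_odd {f : ClassGroup (𝓞 K) → ℂ} {m : ℕ} (hm : 1 ≤ m)
    (h : XiF f (-(2 * m - 1)) ≠ 0) :
    analyticOrderAt (LF f) (-(2 * m - 1)) = (nrComplexPlaces K : ℕ) := by
  have hre : (-(2 * (m : ℂ) - 1)).re < 0 := by
    have : (1 : ℝ) ≤ m := by exact_mod_cast hm
    simp only [neg_re, sub_re, mul_re, re_ofNat, natCast_re, im_ofNat, natCast_im, mul_zero,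
      sub_zero, one_re]
    linarith
  rw [order_LF hre h, if_neg, if_pos, zero_add]
  · refine ⟨2 * m - 1, ?_⟩
    rw [Nat.cast_sub (by omega)]
    push_cast
    ring
  · rintro ⟨k, hk⟩
    have h1 : (2 * (m : ℂ) - 1) = 2 * k := by linear_combination -hk
    have h2 : (2 * (m : ℤ) - 1) = 2 * k := by exact_mod_cast h1
    omega

/-- **The explicit functional equation**, for class functions. -/
theorem LF_one_sub (f : ClassGroup (𝓞 K) → ℂ) {s : ℂ} (h1 : s ≠ 1) (hs : ∀ n : ℕ, s ≠ -n) :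
    LF f (1 - s) = ((|(discr K : ℝ)| : ℝ) : ℂ) ^ (s - 1 / 2) *
      cos (Real.pi * s / 2) ^ (nrRealPlaces K + nrComplexPlaces K) *
      sin (Real.pi * s / 2) ^ nrComplexPlaces K * Gammaℂ s ^ Module.finrank ℚ K *
      LF (fun C => f (diffClass K * C⁻¹)) s := by
  rw [← card_add_two_mul_card_eq_rank (K := K)]
  exact fe_of_div absDisc_ne_zero (LF_eq_div_gm f) (LF_eq_div_gm _) (XiF_one_sub f) h1 hs

/-! ### The Dedekind zeta function -/

theorem zetaK_eq_dedekindZeta {s : ℂ} (hs : 1 < s.re) : zetaK K s = dedekindZeta K s := by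
  rw [zetaK, LF_eq _ hs, (zetaSumStmt K).1 s hs]
  simp

/-- no zeros in the half plane of absolute convergence -/
theorem zetaK_ne_zero_of_one_lt_re {s : ℂ} (hs : 1 < s.re) : zetaK K s ≠ 0 := by
  rw [zetaK_eq_dedekindZeta hs]
  exact dedekindZeta_ne_zero_of_one_lt_re hs

theorem XiF_one_ne_zero_of_re_neg {s : ℂ} (hs : s.re < 0) :
    XiF (fun _ : ClassGroup (𝓞 K) => 1) s ≠ 0 := by
  have h := XiF_one_sub (fun _ : ClassGroup (𝓞 K) => 1) (1 - s)
  rw [sub_sub_cancel] at h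
  rw [h]
  have hs' : 1 < (1 - s).re := by
    rw [sub_re, one_re]
    linarith
  exact XiF_ne_zero hs' (zetaK_ne_zero_of_one_lt_re hs')

/-- **Order of `ζ_K`** at the points with `re s < 0` -/
theorem order_zetaK {s : ℂ} (hs : s.re < 0) : analyticOrderAt (zetaK K) s =
    (if ∃ k : ℕ, s = -(2 * k) then (nrRealPlaces K : ℕ∞) else 0) +
      (if ∃ k : ℕ, s = -k then (nrComplexPlaces K : ℕ∞) else 0) :=
  order_LF hs (XiF_one_ne_zero_of_re_neg hs)

/-- **Trivial zeros**: `ζ_K` has a zero of order `r₁ + r₂` at `-2, -4, -6, …`. -/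
theorem order_zetaK_neg_even {m : ℕ} (hm : 1 ≤ m) :
    analyticOrderAt (zetaK K) (-(2 * m)) = (nrRealPlaces K + nrComplexPlaces K : ℕ) :=
  order_LF_neg_even hm (XiF_one_ne_zero_of_re_neg (by
    have : (1 : ℝ) ≤ m := by exact_mod_cast hm
    simp only [neg_re, mul_re, re_ofNat, natCast_re, im_ofNat, natCast_im, mul_zero, sub_zero]
    linarith))

/-- **Trivial zeros**: `ζ_K` has a zero of order `r₂` at `-1, -3, -5, …`. -/
theorem order_zetaK_neg_odd {m : ℕ} (hm : 1 ≤ m) :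
    analyticOrderAt (zetaK K) (-(2 * m - 1)) = (nrComplexPlaces K : ℕ) :=
  order_LF_neg_odd hm (XiF_one_ne_zero_of_re_neg (by
    have : (1 : ℝ) ≤ m := by exact_mod_cast hm
    simp only [neg_re, sub_re, mul_re, re_ofNat, natCast_re, im_ofNat, natCast_im, mul_zero,
      sub_zero, one_re]
    linarith))

/-- **All zeros of `ζ_K` with `re s < 0`.** -/
theorem zetaK_eq_zero_iff {s : ℂ} (hs : s.re < 0) : zetaK K s = 0 ↔
    (∃ m : ℕ, s = -(2 * m)) ∨ (nrComplexPlaces K ≠ 0 ∧ ∃ m : ℕ, s = -m) := by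
  have h0 : s ≠ 0 := by rintro rfl; simp at hs
  have h1 : s ≠ 1 := by rintro rfl; simp at hs; linarith
  have hX := XiF_one_ne_zero_of_re_neg (K := K) hs
  have hg : zetaK K s = 0 ↔ gm (nrRealPlaces K) (nrComplexPlaces K) s = 0 := by
    rw [zetaK, LF_eq_div_gm _ s h0 h1, div_eq_zero_iff, or_iff_right hX, mul_eq_zero, mul_eq_zero,
      mul_eq_zero, or_iff_right h0.symm.symm, sub_eq_zero, or_iff_right h1.symm, or_iff_right]
    rw [cpow_eq_zero_iff]
    exact fun h' => absDisc_ne_zero h'.1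
  have hr : nrRealPlaces K + nrComplexPlaces K ≠ 0 := by
    rw [← card_eq_nrRealPlaces_add_nrComplexPlaces]
    exact Fintype.card_ne_zero
  have hR : Gammaℝ s = 0 ↔ ∃ m : ℕ, s = -(2 * m) := Gammaℝ_eq_zero_iff
  have hC : Gammaℂ s = 0 ↔ ∃ m : ℕ, s = -m := by
    constructor
    · intro h
      by_contra hne
      push Not at hne
      exact Gammaℂ_ne_zero hne h
    · rintro ⟨m, rfl⟩
      rw [Gammaℂ_def, (Gamma_eq_zero_iff _).mpr ⟨m, rfl⟩, mul_zero]
  rw [hg, gm, mul_eq_zero, pow_eq_zero_iff', pow_eq_zero_iff', hR, hC]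
  constructor
  · rintro (h | h)
    · exact Or.inl h.1
    · exact Or.inr ⟨h.2, h.1⟩
  · rintro (⟨m, rfl⟩ | h)
    · rcases eq_or_ne (nrRealPlaces K) 0 with h2 | h2
      · refine Or.inr ⟨⟨2 * m, by push_cast; ring⟩, fun h3 => hr (by rw [h2, h3])⟩
      · exact Or.inl ⟨⟨m, rfl⟩, h2⟩
    · exact Or.inr ⟨h.2, h.1⟩

/-- **The explicit functional equation of `ζ_K`.** -/
theorem zetaK_one_sub {s : ℂ} (h1 : s ≠ 1) (hs : ∀ n : ℕ, s ≠ -n) :
    zetaK K (1 - s) = ((|(discr K : ℝ)| : ℝ) : ℂ) ^ (s - 1 / 2) *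
      cos (Real.pi * s / 2) ^ (nrRealPlaces K + nrComplexPlaces K) *
      sin (Real.pi * s / 2) ^ nrComplexPlaces K * Gammaℂ s ^ Module.finrank ℚ K *
      zetaK K s :=
  LF_one_sub (fun _ => 1) h1 hs

end Fermat.Agent.Cor

end
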