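import Fermat.Agent.Corollaries.ZetaK.HeckeL
import Fermat.Agent.Corollaries.ZetaK.Trivial
import Fermat.Agent.Corollaries.ZetaK.ThreeFourLK
import Fermat.Agent.Corollaries.ZetaK.Conj
import Fermat.Agent.Corollaries.ZetaK.ZetaOne
import Fermat.Agent.Corollaries.ZetaK.NonVan

/-!
# Zeros of the L-functions of the characters of the class group

`χ : ClassGroup (𝓞 K) →* ℂˣ`. Explicit functional equation (`LK_one_sub`); for `re s < 0` the zeros
of `LK χ` are the trivial ones, with exact orders. For `χ ≠ 1`: `LK χ` has a zero of order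
`r₁ + r₂` at `0`, with leading coefficient `χ(𝔡) √|d| / (2 ^ (r₁ + r₂) π ^ r₂) L(1, χ⁻¹)`; all other
zeros of `LK χ` lie in `0 < re s < 1`, and they are stable under `s ↦ 1 - conj s`.
-/

set_option autoImplicit false

noncomputable section

namespace Fermat.Agent.Cor

open NumberField NumberField.InfinitePlace Fermat.Agent.Classic.Zeta Complex ZetaK
open scoped nonZeroDivisors Classical Topology ComplexConjugate

universe u

variable {K : Type u} [Field K] [NumberField K]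

/-! ### All characters -/

theorem XiF_cf_ne_zero_of_one_lt_re (χ : ClassGroup (𝓞 K) →* ℂˣ) {s : ℂ} (hs : 1 < s.re) :
    XiF (cf χ) s ≠ 0 :=
  XiF_ne_zero hs (LK_ne_zero_of_one_lt_re χ hs)

theorem XiF_cf_one_sub (χ : ClassGroup (𝓞 K) →* ℂˣ) (s : ℂ) :
    XiF (cf χ) (1 - s) = cf χ (diffClass K) * XiF (cf χ⁻¹) s := by
  rw [XiF_one_sub, XiF, XiF, Finset.mul_sum]
  exact Finset.sum_congr rfl fun C _ => by rw [cf_mul, cf_inv]; ring

theorem XiF_cf_ne_zero_of_re_neg (χ : ClassGroup (𝓞 K) →* ℂˣ) {s : ℂ} (hs : s.re < 0) :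
    XiF (cf χ) s ≠ 0 := by
  have h1 := XiF_cf_one_sub χ (1 - s)
  rw [sub_sub_cancel] at h1
  rw [h1]
  refine mul_ne_zero (cf_ne_zero _ _) (XiF_cf_ne_zero_of_one_lt_re _ ?_)
  rw [sub_re, one_re]
  linarith

/-- **The order of `L(s, χ)` for `re s < 0`**, any character of the class group. -/
theorem order_LK (χ : ClassGroup (𝓞 K) →* ℂˣ) {s : ℂ} (hs : s.re < 0) :
    analyticOrderAt (LK χ) s = (if ∃ k : ℕ, s = -(2 * k) then (nrRealPlaces K : ℕ∞) else 0) +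
      (if ∃ k : ℕ, s = -k then (nrComplexPlaces K : ℕ∞) else 0) :=
  order_LF hs (XiF_cf_ne_zero_of_re_neg χ hs)

/-- **Trivial zeros**: order `r₁ + r₂` at `-2, -4, -6, …`. -/
theorem order_LK_neg_even (χ : ClassGroup (𝓞 K) →* ℂˣ) {m : ℕ} (hm : 1 ≤ m) :
    analyticOrderAt (LK χ) (-(2 * m)) = (nrRealPlaces K + nrComplexPlaces K : ℕ) :=
  order_LF_neg_even hm (XiF_cf_ne_zero_of_re_neg χ (by
    have : (1 : ℝ) ≤ m := by exact_mod_cast hm
    simp only [neg_re, mul_re, re_ofNat, natCast_re, im_ofNat, natCast_im, mul_zero, sub_zero]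
    linarith))

/-- **Trivial zeros**: order `r₂` at `-1, -3, -5, …`. -/
theorem order_LK_neg_odd (χ : ClassGroup (𝓞 K) →* ℂˣ) {m : ℕ} (hm : 1 ≤ m) :
    analyticOrderAt (LK χ) (-(2 * m - 1)) = (nrComplexPlaces K : ℕ) :=
  order_LF_neg_odd hm (XiF_cf_ne_zero_of_re_neg χ (by
    have : (1 : ℝ) ≤ m := by exact_mod_cast hm
    simp only [neg_re, sub_re, mul_re, re_ofNat, natCast_re, im_ofNat, natCast_im, mul_zero,
      sub_zero, one_re]
    linarith))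

/-- **The explicit functional equation of `L(s, χ)`.** -/
theorem LK_one_sub (χ : ClassGroup (𝓞 K) →* ℂˣ) {s : ℂ} (h1 : s ≠ 1) (hs : ∀ n : ℕ, s ≠ -n) :
    LK χ (1 - s) = cf χ (diffClass K) * (((|(discr K : ℝ)| : ℝ) : ℂ) ^ (s - 1 / 2) *
      cos (Real.pi * s / 2) ^ (nrRealPlaces K + nrComplexPlaces K) *
      sin (Real.pi * s / 2) ^ nrComplexPlaces K * Gammaℂ s ^ Module.finrank ℚ K *
      LK χ⁻¹ s) := by
  have h2 : (fun C => cf χ (diffClass K * C⁻¹)) = fun C => cf χ (diffClass K) * cf χ⁻¹ C := by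
    funext C
    rw [cf_mul, cf_inv]
  rw [LK_eq_LF χ, LF_one_sub _ h1 hs, h2, LF_const_mul _ _ h1, LK_eq_LF χ⁻¹]
  ring

/-! ### Non-trivial characters -/

theorem order_gi (s : ℂ) : analyticOrderAt (gi K) s =
    (if ∃ k : ℕ, s = -(2 * k) then (nrRealPlaces K : ℕ∞) else 0) +
      (if ∃ k : ℕ, s = -k then (nrComplexPlaces K : ℕ∞) else 0) :=
  analyticOrderAt_inv_gm _ _ s

/-- The order of `L(s, χ)` at any point. -/
theorem order_LK_add {χ : ClassGroup (𝓞 K) →* ℂˣ} (hχ : χ ≠ 1) (s : ℂ) :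
    analyticOrderAt (LK χ) s = analyticOrderAt (gi K) s + analyticOrderAt (LamK χ) s := by
  have h1 : LK χ = (fun s : ℂ => ((|(discr K : ℝ)| : ℝ) : ℂ) ^ (-s / 2)) * gi K * LamK χ := by
    funext s
    exact LK_eq hχ s
  have h2 : AnalyticAt ℂ (fun s : ℂ => ((|(discr K : ℝ)| : ℝ) : ℂ) ^ (-s / 2)) s :=
    differentiable_absDisc_cpow.analyticAt s
  have h3 : AnalyticAt ℂ (gi K) s := differentiable_gi.analyticAt s
  rw [h1, analyticOrderAt_mul (h2.mul h3) ((differentiable_LamK χ).analyticAt s),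
    analyticOrderAt_mul h2 h3, h2.analyticOrderAt_eq_zero.mpr (absDisc_cpow_ne_zero _), zero_add]

/-- The completed L-function has no zero with `1 ≤ re s`. -/
theorem LamK_ne_zero_of_one_le_re {χ : ClassGroup (𝓞 K) →* ℂˣ} (hχ : χ ≠ 1) {s : ℂ}
    (hs : 1 ≤ s.re) : LamK χ s ≠ 0 := by
  have h1 : gam K s ≠ 0 := by
    rw [gam_eq_gm]
    exact gm_ne_zero _ _ (ne_neg_natCast_of_re_pos (by linarith))
  rw [LamK_eq hχ h1]
  exact mul_ne_zero (mul_ne_zero (absDisc_cpow_ne_zero _) h1) (LK_ne_zero χ hs (Or.inr hχ))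

/-- The completed L-function has no zero with `re s ≤ 0`. -/
theorem LamK_ne_zero_of_re_nonpos {χ : ClassGroup (𝓞 K) →* ℂˣ} (hχ : χ ≠ 1) {s : ℂ}
    (hs : s.re ≤ 0) : LamK χ s ≠ 0 := by
  have h1 := LamK_one_sub hχ (1 - s)
  rw [sub_sub_cancel] at h1
  rw [h1]
  refine mul_ne_zero (cf_ne_zero _ _) (LamK_ne_zero_of_one_le_re (inv_ne_one hχ) ?_)
  rw [sub_re, one_re]
  linarith

/-- The zeros of the completed L-function lie in the critical strip. -/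
theorem re_mem_of_LamK_eq_zero {χ : ClassGroup (𝓞 K) →* ℂˣ} (hχ : χ ≠ 1) {s : ℂ}
    (h : LamK χ s = 0) : 0 < s.re ∧ s.re < 1 := by
  constructor
  · by_contra h1
    exact LamK_ne_zero_of_re_nonpos hχ (not_lt.mp h1) h
  · by_contra h1
    exact LamK_ne_zero_of_one_le_re hχ (not_lt.mp h1) h

/-- In `0 < re s` the zeros of `L(s, χ)` are those of the completed L-function. -/
theorem LK_eq_zero_iff_LamK {χ : ClassGroup (𝓞 K) →* ℂˣ} (hχ : χ ≠ 1) {s : ℂ} (hs : 0 < s.re) :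
    LK χ s = 0 ↔ LamK χ s = 0 := by
  have h1 : gam K s ≠ 0 := by
    rw [gam_eq_gm]
    exact gm_ne_zero _ _ (ne_neg_natCast_of_re_pos hs)
  rw [LK_eq hχ, mul_eq_zero, mul_eq_zero, or_iff_right]
  rintro (h | h)
  · exact absDisc_cpow_ne_zero _ h
  · exact h1 (inv_eq_zero.mp h)

/-- **The order of `L(s, χ)` for `re s ≤ 0`**, `χ ≠ 1`. -/
theorem order_LK_of_re_nonpos {χ : ClassGroup (𝓞 K) →* ℂˣ} (hχ : χ ≠ 1) {s : ℂ}
    (hs : s.re ≤ 0) :
    analyticOrderAt (LK χ) s = (if ∃ k : ℕ, s = -(2 * k) then (nrRealPlaces K : ℕ∞) else 0) +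
      (if ∃ k : ℕ, s = -k then (nrComplexPlaces K : ℕ∞) else 0) := by
  rw [order_LK_add hχ, order_gi,
    ((differentiable_LamK χ).analyticAt s).analyticOrderAt_eq_zero.mpr
      (LamK_ne_zero_of_re_nonpos hχ hs), add_zero]

/-- **`L(s, χ)` has a zero of order `r₁ + r₂` at `s = 0`**, `χ ≠ 1`. -/
theorem order_LK_zero {χ : ClassGroup (𝓞 K) →* ℂˣ} (hχ : χ ≠ 1) :
    analyticOrderAt (LK χ) 0 = (nrRealPlaces K + nrComplexPlaces K : ℕ) := by
  rw [order_LK_of_re_nonpos hχ (by rw [zero_re]), if_pos ⟨0, by simp⟩, if_pos ⟨0, by simp⟩,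
    Nat.cast_add]

/-- **All zeros of `L(s, χ)`**, `χ ≠ 1`: the trivial ones, and those in the critical strip. -/
theorem LK_eq_zero_iff {χ : ClassGroup (𝓞 K) →* ℂˣ} (hχ : χ ≠ 1) {s : ℂ} : LK χ s = 0 ↔
    (∃ m : ℕ, s = -(2 * m)) ∨ (nrComplexPlaces K ≠ 0 ∧ ∃ m : ℕ, s = -m) ∨
      (0 < s.re ∧ s.re < 1 ∧ LamK χ s = 0) := by
  have hr : nrRealPlaces K + nrComplexPlaces K ≠ 0 := by
    rw [← card_eq_nrRealPlaces_add_nrComplexPlaces]
    exact Fintype.card_ne_zero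
  have hR : Gammaℝ s = 0 ↔ ∃ m : ℕ, s = -(2 * m) := Gammaℝ_eq_zero_iff
  have hC : Gammaℂ s = 0 ↔ ∃ m : ℕ, s = -m := by
    constructor
    · intro h
      by_contra hne
      push Not at hne
      exact Gammaℂ_ne_zero hne h
    · rintro ⟨m, rfl⟩
      rw [Gammaℂ_def, (Gamma_eq_zero_iff _).mpr ⟨m, rfl⟩, mul_zero]
  have hg : gam K s = 0 ↔
      (∃ m : ℕ, s = -(2 * m)) ∨ (nrComplexPlaces K ≠ 0 ∧ ∃ m : ℕ, s = -m) := by
    rw [gam, mul_eq_zero, pow_eq_zero_iff', pow_eq_zero_iff', hR, hC]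
    constructor
    · rintro (h | h)
      · exact Or.inl h.1
      · exact Or.inr ⟨h.2, h.1⟩
    · rintro (⟨m, rfl⟩ | h)
      · rcases eq_or_ne (nrRealPlaces K) 0 with h2 | h2
        · refine Or.inr ⟨⟨2 * m, by push_cast; ring⟩, fun h3 => hr (by rw [h2, h3])⟩
        · exact Or.inl ⟨⟨m, rfl⟩, h2⟩
      · exact Or.inr ⟨h.2, h.1⟩
  rw [LK_eq hχ, mul_eq_zero, mul_eq_zero, inv_eq_zero, or_iff_right (absDisc_cpow_ne_zero _), hg,
    or_assoc]
  refine or_congr_right (or_congr_right ⟨fun h => ?_, fun h => h.2.2⟩)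
  exact ⟨(re_mem_of_LamK_eq_zero hχ h).1, (re_mem_of_LamK_eq_zero hχ h).2, h⟩

/-- `L(s, χ) ≠ 0` on the line `re s = 0`, outside `s = 0`. -/
theorem LK_ne_zero_of_re_eq_zero {χ : ClassGroup (𝓞 K) →* ℂˣ} (hχ : χ ≠ 1) {s : ℂ}
    (hs : s.re = 0) (h0 : s ≠ 0) : LK χ s ≠ 0 := by
  intro h
  rcases (LK_eq_zero_iff hχ).mp h with ⟨m, rfl⟩ | ⟨-, m, rfl⟩ | ⟨h1, -, -⟩
  · refine h0 ?_
    have h1 : (m : ℝ) = 0 := by simpa using hs
    rw [Nat.cast_eq_zero] at h1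
    rw [h1, Nat.cast_zero, mul_zero, neg_zero]
  · refine h0 ?_
    have h1 : (m : ℝ) = 0 := by simpa using hs
    rw [Nat.cast_eq_zero] at h1
    rw [h1, Nat.cast_zero, neg_zero]
  · exact h1.ne' hs

/-- **Symmetry of the zeros**, `0 < re s < 1`. -/
theorem LK_eq_zero_iff_one_sub {χ : ClassGroup (𝓞 K) →* ℂˣ} (hχ : χ ≠ 1) {s : ℂ}
    (h0 : 0 < s.re) (h1 : s.re < 1) : LK χ s = 0 ↔ LK χ⁻¹ (1 - s) = 0 := by
  have h2 : 0 < (1 - s).re := by
    rw [sub_re, one_re]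
    linarith
  have h3 := LamK_one_sub hχ (1 - s)
  rw [sub_sub_cancel] at h3
  rw [LK_eq_zero_iff_LamK hχ h0, LK_eq_zero_iff_LamK (inv_ne_one hχ) h2, h3, mul_eq_zero,
    or_iff_right (cf_ne_zero _ _)]

/-- **The zeros in the critical strip are symmetric with respect to the critical line.** -/
theorem LK_eq_zero_iff_one_sub_conj {χ : ClassGroup (𝓞 K) →* ℂˣ} (hχ : χ ≠ 1) {s : ℂ}
    (h0 : 0 < s.re) (h1 : s.re < 1) : LK χ s = 0 ↔ LK χ (1 - conj s) = 0 := by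
  rw [LK_eq_zero_iff_one_sub hχ h0 h1]
  have h2 : LK χ⁻¹ (1 - s) = conj (LK χ (1 - conj s)) := by
    rw [← LK_conj, map_sub, map_one, conj_conj]
  rw [h2, map_eq_zero]

/-! ### The leading coefficient at `0` -/

/-- The value of the completed L-function at `0`. -/
theorem LamK_zero {χ : ClassGroup (𝓞 K) →* ℂˣ} (hχ : χ ≠ 1) :
    LamK χ 0 = cf χ (diffClass K) *
      (((√|(discr K : ℝ)| / Real.pi ^ nrComplexPlaces K : ℝ) : ℂ) * LK χ⁻¹ 1) := by
  have h1 := LamK_one_sub hχ 1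
  have h2 : ((|(discr K : ℝ)| : ℝ) : ℂ) ^ ((1 : ℂ) / 2) = ((√|(discr K : ℝ)| : ℝ) : ℂ) := by
    rw [Real.sqrt_eq_rpow, ofReal_cpow (abs_nonneg _)]
    push_cast
    rfl
  rw [sub_self] at h1
  rw [h1, LamK_eq (inv_ne_one hχ) (gam_ne_zero_base (by norm_num)), gam_one, h2]
  push_cast
  ring

/-- **The leading coefficient of `L(s, χ)` at `s = 0`**, `χ ≠ 1`. -/
theorem tendsto_LK_div_pow {χ : ClassGroup (𝓞 K) →* ℂˣ} (hχ : χ ≠ 1) :
    Filter.Tendsto (fun s => LK χ s / s ^ (nrRealPlaces K + nrComplexPlaces K)) (𝓝[≠] 0)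
      (𝓝 (cf χ (diffClass K) * (((√|(discr K : ℝ)| /
        (2 ^ (nrRealPlaces K + nrComplexPlaces K) * Real.pi ^ nrComplexPlaces K) : ℝ) : ℂ) *
          LK χ⁻¹ 1))) := by
  have hc : Continuous fun s : ℂ => ((|(discr K : ℝ)| : ℝ) : ℂ) ^ (-s / 2) *
      (Ar s ^ nrRealPlaces K * Ac s ^ nrComplexPlaces K) * LamK χ s :=
    (differentiable_absDisc_cpow.continuous.mul ((differentiable_Ar.continuous.pow _).mul
      (differentiable_Ac.continuous.pow _))).mul (differentiable_LamK χ).continuous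
  have h0 : ((|(discr K : ℝ)| : ℝ) : ℂ) ^ (-(0 : ℂ) / 2) *
      (Ar 0 ^ nrRealPlaces K * Ac 0 ^ nrComplexPlaces K) * LamK χ 0 =
      cf χ (diffClass K) * (((√|(discr K : ℝ)| /
        (2 ^ (nrRealPlaces K + nrComplexPlaces K) * Real.pi ^ nrComplexPlaces K) : ℝ) : ℂ) *
          LK χ⁻¹ 1) := by
    rw [neg_zero, zero_div, cpow_zero, one_mul, Ar_zero, Ac_zero, ← pow_add, LamK_zero hχ,
      one_div, inv_pow]
    push_cast
    field_simp
  rw [← h0]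
  refine ((hc.tendsto 0).mono_left nhdsWithin_le_nhds).congr' ?_
  filter_upwards [self_mem_nhdsWithin] with s hs
  have hs' : s ^ (nrRealPlaces K + nrComplexPlaces K) ≠ 0 := pow_ne_zero _ hs
  rw [LK_eq hχ, inv_gam_eq]
  field_simp

end Fermat.Agent.Cor

end
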