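import Fermat.Agent.Corollaries.ZetaK.AbelDisc
import Fermat.Agent.Corollaries.KW.Final

/-!
# Abelian number fields and Dirichlet characters

Let `K` be an abelian number field, that is, `[IsAbelianGalois ℚ K]`.  By the Kronecker-Weber
theorem (`KW.kronecker_weber`) `K` embeds into a cyclotomic field `ℚ(ζ_n)`, `n = level K`; let
`dirChars K` be the set of the Dirichlet characters modulo `n` which are trivial on the
automorphisms fixing the image of `K`.  The files `AbelLocal`, `AbelZeta` and `AbelDisc` treat the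
subfields of cyclotomic fields; here the results are carried over to `K` itself:

* `card_dirChars`: there are `[K : ℚ]` characters;
* `prod_dirChars`: `∏ (1 - χ(p) T) = (1 - T ^ f) ^ g` for every prime `p`, ramified or not;
* `zetaK_eq_prod_dirChars`, `dedekindZeta_eq_prod_dirChars`: `ζ_K(s) = ∏ L(s, χ)`;
* `residue_eq_prod_dirChars`: the residue of `ζ_K` at `1` is `∏ L(1, χ)` over `χ ≠ 1`;
* `natAbs_discr_eq_prod`, `discr_eq_prod`: the conductor-discriminant formula;
* `prod_rootNumber_dirChars`: the product of the root numbers is `1`;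
* `card_even_dirChars`, `card_odd_dirChars`: the numbers of even and odd characters;
* `dvd_discr_iff`: the ramified primes are those which divide the conductor of a character;
* `exists_quadratic_character`, `decomposition_law`: the character of a quadratic field, and
  the decomposition law.

In all of these `χ` is understood as the primitive character inducing it.
-/

set_option autoImplicit false

noncomputable section

namespace Fermat.Agent.Cor.Abel

open NumberField NumberField.InfinitePlace Ideal DirichletCharacter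

universe u v

/-! ### Transport along an isomorphism -/

section Transport

variable {K : Type u} {K' : Type v} [Field K] [NumberField K] [Field K'] [NumberField K']

theorem liesOver_of_mem' {R : Type*} [CommRing R] {p : ℕ} (hp : p.Prime) (P : Ideal R)
    [hP : P.IsPrime] (h : (p : R) ∈ P) : P.LiesOver (span {(p : ℤ)}) := by
  have hp' : Fact p.Prime := ⟨hp⟩
  have hmax : (span {(p : ℤ)}).IsMaximal := Int.ideal_span_isMaximal_of_prime p
  refine ⟨hmax.eq_of_le (Ideal.IsPrime.under ℤ P).ne_top ?_⟩
  rw [Ideal.span_singleton_le_iff_mem, Ideal.under_def, Ideal.mem_comap]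
  simpa using h

theorem absNorm_map_ringEquiv (e : K ≃+* K') (I : Ideal (𝓞 K)) :
    absNorm (I.map (RingOfIntegers.mapRingEquiv e)) = absNorm I := by
  rw [absNorm_apply, absNorm_apply, Submodule.cardQuot_apply, Submodule.cardQuot_apply]
  exact (Nat.card_congr (Ideal.quotientEquiv I _ (RingOfIntegers.mapRingEquiv e) rfl).toEquiv).symm

/-- The bijection between the ideals of isomorphic fields. -/
def idealEquiv {K : Type u} {K' : Type v} [Field K] [Field K'] (e : K ≃+* K') :
    Ideal (𝓞 K) ≃ Ideal (𝓞 K') where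
  toFun I := I.map (RingOfIntegers.mapRingEquiv e)
  invFun I := I.comap (RingOfIntegers.mapRingEquiv e)
  left_inv _ := Ideal.comap_map_of_bijective _ (RingOfIntegers.mapRingEquiv e).bijective
  right_inv I := Ideal.map_comap_of_surjective _ (RingOfIntegers.mapRingEquiv e).surjective I

theorem absNorm_idealEquiv (e : K ≃+* K') (I : Ideal (𝓞 K)) :
    absNorm (idealEquiv e I) = absNorm I := absNorm_map_ringEquiv e I

theorem dedekindZeta_congr (e : K ≃+* K') (s : ℂ) : dedekindZeta K s = dedekindZeta K' s := by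
  rw [dedekindZeta, dedekindZeta]
  congr 1
  funext n
  congr 1
  exact Nat.card_congr ((idealEquiv e).subtypeEquiv fun I => by rw [absNorm_idealEquiv])

theorem zetaK_congr (e : K ≃+* K') {s : ℂ} (hs : s ≠ 1) : zetaK K s = zetaK K' s :=
  eq_of_eq_re_gt_one (f := zetaK K) (g := zetaK K') (fun _ hs => differentiableAt_LF _ hs)
    (fun _ hs => differentiableAt_LF _ hs)
    (fun s hs => by rw [zetaK_eq K hs, zetaK_eq K' hs, dedekindZeta_congr e]) hs

theorem residue_congr (e : K ≃+* K') : dedekindZeta_residue K = dedekindZeta_residue K' := by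
  have h1 := tendsto_sub_one_mul_zetaK K
  have h2 := tendsto_sub_one_mul_zetaK K'
  have h3 := tendsto_nhds_unique (h1.congr' ?_) h2
  · exact_mod_cast h3
  · filter_upwards [self_mem_nhdsWithin] with s hs
    rw [zetaK_congr e hs]

omit [NumberField K] [NumberField K'] in
theorem idealEquiv_isPrime (e : K ≃+* K') (P : Ideal (𝓞 K)) [P.IsPrime] :
    (idealEquiv e P).IsPrime :=
  Ideal.map_isPrime_of_equiv (RingOfIntegers.mapRingEquiv e)

omit [NumberField K] [NumberField K'] in
theorem liesOver_idealEquiv (e : K ≃+* K') {p : ℕ} (hp : p.Prime) (P : Ideal (𝓞 K)) [P.IsPrime]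
    [P.LiesOver (span {(p : ℤ)})] : (idealEquiv e P).LiesOver (span {(p : ℤ)}) := by
  have := idealEquiv_isPrime e P
  refine liesOver_of_mem' hp _ ?_
  have h := Ideal.mem_map_of_mem (RingOfIntegers.mapRingEquiv e) (mem_of_liesOver (p := p) P)
  rwa [map_natCast] at h

omit [NumberField K] [NumberField K'] in
/-- the bijection between the primes above `p` of isomorphic fields -/
theorem ncard_primesOver_congr (e : K ≃+* K') {p : ℕ} (hp : p.Prime) :
    ((span {(p : ℤ)}).primesOver (𝓞 K)).ncard = ((span {(p : ℤ)}).primesOver (𝓞 K')).ncard := by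
  refine Set.ncard_congr (fun P _ => idealEquiv e P) ?_ ?_ ?_
  · rintro P ⟨hP, hP'⟩
    exact ⟨idealEquiv_isPrime e P, liesOver_idealEquiv e hp P⟩
  · intro P Q _ _ h
    exact (idealEquiv e).injective h
  · rintro P ⟨hP, hP'⟩
    have h1 : (P.comap (RingOfIntegers.mapRingEquiv e)).IsPrime := Ideal.comap_isPrime _ _
    refine ⟨P.comap (RingOfIntegers.mapRingEquiv e), ⟨h1, liesOver_of_mem' hp _ ?_⟩,
      (idealEquiv e).right_inv P⟩
    rw [Ideal.mem_comap, map_natCast]
    exact mem_of_liesOver (p := p) P

theorem inertiaDeg_congr (e : K ≃+* K') {p : ℕ} (hp : p.Prime) (P : Ideal (𝓞 K)) [P.IsPrime]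
    [P.LiesOver (span {(p : ℤ)})] : (idealEquiv e P).inertiaDeg ℤ = P.inertiaDeg ℤ := by
  have := idealEquiv_isPrime e P
  have := liesOver_idealEquiv e hp P
  refine Nat.pow_right_injective hp.two_le ?_
  simp only
  rw [pow_inertiaDeg p, pow_inertiaDeg p, absNorm_idealEquiv]

theorem nrRealPlaces_congr (e : K ≃+* K') : nrRealPlaces K = nrRealPlaces K' := by
  classical
  rw [← card_real_embeddings, ← card_real_embeddings]
  refine Fintype.card_congr (Equiv.subtypeEquiv
    { toFun := fun φ : K →+* ℂ => φ.comp e.symm.toRingHom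
      invFun := fun φ : K' →+* ℂ => φ.comp e.toRingHom
      left_inv := fun φ => by ext x; simp
      right_inv := fun φ => by ext x; simp } fun φ => ?_)
  simp only [Equiv.coe_fn_mk, ComplexEmbedding.isReal_iff]
  constructor
  · intro h
    ext x
    exact congrArg (fun ψ : K →+* ℂ => ψ (e.symm x)) h
  · intro h
    ext x
    have h1 := congrArg (fun ψ : K' →+* ℂ => ψ (e x)) h
    simpa [ComplexEmbedding.conjugate_coe_eq] using h1

theorem nrComplexPlaces_congr (e : K ≃+* K') : nrComplexPlaces K = nrComplexPlaces K' := by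
  have h1 := card_add_two_mul_card_eq_rank (K := K)
  have h2 := card_add_two_mul_card_eq_rank (K := K')
  have h3 := nrRealPlaces_congr e
  have h4 : Module.finrank ℚ K = Module.finrank ℚ K' :=
    (AlgEquiv.ofRingEquiv (f := e) fun x => by simp : K ≃ₐ[ℚ] K').toLinearEquiv.finrank_eq
  omega

end Transport

/-! ### Abelian fields -/

section Abelian

variable (K : Type u) [Field K] [NumberField K] [IsAbelianGalois ℚ K]

/-- A level of an abelian field `K`: an `n` such that `K` embeds into `ℚ(ζ_n)`. -/
def level : ℕ := (KW.kronecker_weber K).choose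

instance neZero_level : NeZero (level K) := ⟨(KW.kronecker_weber K).choose_spec.1.ne'⟩

instance isCyclotomicExtension_level :
    IsCyclotomicExtension {level K} ℚ (CyclotomicField (level K) ℚ) := by
  have : NeZero ((level K : ℕ) : ℚ) := ⟨by exact_mod_cast NeZero.ne (level K)⟩
  exact CyclotomicField.isCyclotomicExtension (level K) ℚ

/-- The embedding of an abelian field into a cyclotomic field. -/
def emb : K →ₐ[ℚ] CyclotomicField (level K) ℚ := (KW.kronecker_weber K).choose_spec.2.some

/-- The image of an abelian field in a cyclotomic field. -/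
def img : IntermediateField ℚ (CyclotomicField (level K) ℚ) := (emb K).fieldRange

/-- The isomorphism of `K` with its image in a cyclotomic field. -/
def toImg : K ≃+* img K := (AlgEquiv.ofInjectiveField (emb K)).toRingEquiv

/-- **The Dirichlet characters of an abelian field `K`**: the characters `χ` of level `level K` with
`χ(a) = 1` for all `a` such that `ζ ↦ ζ ^ a` is the identity on `K`. -/
def dirChars : Finset (DirichletCharacter ℂ (level K)) := chars (level K) (img K)

theorem one_mem_dirChars : (1 : DirichletCharacter ℂ (level K)) ∈ dirChars K := one_mem_chars _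

theorem mul_mem_chars {n : ℕ} [NeZero n] {L : Type*} [Field L] [NumberField L]
    [IsCyclotomicExtension {n} ℚ L] (F : IntermediateField ℚ L) {χ ψ : DirichletCharacter ℂ n}
    (hχ : χ ∈ chars n F) (hψ : ψ ∈ chars n F) : χ * ψ ∈ chars n F := by
  rw [mem_chars] at hχ hψ ⊢
  intro σ hσ
  rw [MulChar.mul_apply, hχ σ hσ, hψ σ hσ, one_mul]

variable {K} in
theorem mul_mem_dirChars {χ ψ : DirichletCharacter ℂ (level K)} (hχ : χ ∈ dirChars K)
    (hψ : ψ ∈ dirChars K) : χ * ψ ∈ dirChars K := mul_mem_chars _ hχ hψ

variable {K} in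
theorem inv_mem_dirChars {χ : DirichletCharacter ℂ (level K)} (hχ : χ ∈ dirChars K) :
    χ⁻¹ ∈ dirChars K := inv_mem_chars _ hχ

theorem card_dirChars : (dirChars K).card = Module.finrank ℚ K := by
  rw [dirChars, card_chars]
  exact (LinearEquiv.finrank_eq (AlgEquiv.ofInjectiveField (emb K)).toLinearEquiv).symm

/-- **The Euler factors of an abelian field**: `∏ (1 - χ(p) T) = (1 - T ^ f) ^ g`. -/
theorem prod_dirChars {p : ℕ} (hp : p.Prime) (P : Ideal (𝓞 K)) [P.IsPrime]
    [P.LiesOver (span {(p : ℤ)})] (T : ℂ) :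
    ∏ χ ∈ dirChars K, (1 - χ.primitiveCharacter p * T) =
      (1 - T ^ P.inertiaDeg ℤ) ^ ((span {(p : ℤ)}).primesOver (𝓞 K)).ncard := by
  have hp' : Fact p.Prime := ⟨hp⟩
  have h1 := idealEquiv_isPrime (toImg K) P
  have h2 := liesOver_idealEquiv (toImg K) hp P
  rw [dirChars, prod_chars p (img K) (idealEquiv (toImg K) P) T,
    inertiaDeg_congr (toImg K) hp P, ncard_primesOver_congr (toImg K) hp]

/-- **The zeta function of an abelian number field** is the product of the Dirichlet
`L`-functions of its primitive characters. -/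
theorem zetaK_eq_prod_dirChars {s : ℂ} (hs : s ≠ 1) :
    zetaK K s = ∏ χ ∈ dirChars K, χ.primitiveCharacter.LFunction s := by
  rw [zetaK_congr (toImg K) hs, zetaK_eq_prod (n := level K) (img K) hs, dirChars]

/-- Mathlib's Dedekind zeta function of an abelian number field. -/
theorem dedekindZeta_eq_prod_dirChars {s : ℂ} (hs : 1 < s.re) :
    dedekindZeta K s = ∏ χ ∈ dirChars K, χ.primitiveCharacter.LFunction s := by
  rw [dedekindZeta_congr (toImg K), dedekindZeta_eq_prod (n := level K) (img K) hs, dirChars]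

/-- **The class number formula of an abelian number field.** -/
theorem residue_eq_prod_dirChars : (dedekindZeta_residue K : ℂ) =
    ∏ χ ∈ (dirChars K).erase 1, χ.primitiveCharacter.LFunction 1 := by
  rw [residue_congr (toImg K), residue_eq_prod (n := level K) (img K), dirChars]

/-- **The conductor-discriminant formula.** -/
theorem natAbs_discr_eq_prod : (discr K).natAbs = ∏ χ ∈ dirChars K, χ.conductor := by
  rw [discr_eq_discr_of_ringEquiv K (toImg K), natAbs_discr_eq (n := level K) (img K), dirChars]

/-- The product of the root numbers of the characters of an abelian field is `1`. -/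
theorem prod_rootNumber_dirChars :
    ∏ χ ∈ dirChars K, χ.primitiveCharacter.rootNumber = 1 :=
  prod_rootNumber_eq_one (img K)

open scoped Classical in
/-- The number of even characters of `K` is the number of its infinite places. -/
theorem card_even_dirChars : ((dirChars K).filter fun χ => χ.Even).card =
    nrRealPlaces K + nrComplexPlaces K := by
  rw [nrRealPlaces_congr (toImg K), nrComplexPlaces_congr (toImg K),
    ← numEven_eq (n := level K) (img K)]
  rfl

open scoped Classical in
/-- The number of odd characters of `K` is the number of its complex places. -/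
theorem card_odd_dirChars :
    ((dirChars K).filter fun χ => ¬ χ.Even).card = nrComplexPlaces K := by
  rw [nrComplexPlaces_congr (toImg K), ← numOdd_eq (n := level K) (img K)]
  rfl

/-- The conductor-discriminant formula with sign. -/
theorem discr_eq_prod : discr K = (-1) ^ nrComplexPlaces K *
    ((∏ χ ∈ dirChars K, χ.conductor : ℕ) : ℤ) := by
  rw [← natAbs_discr_eq_prod, ← sign_discr, Int.sign_mul_natAbs]

/-- **A prime is ramified in an abelian field if and only if it divides the conductor of one of its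
characters.** -/
theorem dvd_discr_iff {p : ℕ} (hp : p.Prime) :
    (p : ℤ) ∣ discr K ↔ ∃ χ ∈ dirChars K, p ∣ χ.conductor := by
  rw [Int.natCast_dvd, natAbs_discr_eq_prod, Prime.dvd_finsetProd_iff hp.prime]

end Abelian

/-! ### Quadratic fields -/

section Quadratic

variable (K : Type u) [Field K] [NumberField K]

theorem isAbelianGalois_of_finrank_two (h : Module.finrank ℚ K = 2) : IsAbelianGalois ℚ K := by
  have : Algebra.IsQuadraticExtension ℚ K := { finrank_eq_two' := h }
  have h1 : IsGalois ℚ K := inferInstance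
  have h2 : IsCyclic Gal(K/ℚ) := inferInstance
  exact { h1 with
    is_comm := ⟨fun a b => by
      have := IsCyclic.commGroup (α := Gal(K/ℚ))
      exact (IsCyclic.isMulCommutative (α := Gal(K/ℚ))).is_comm.comm a b⟩ }

/-- **The character of a quadratic field**: for a quadratic field `K` there is a primitive quadratic
Dirichlet character `χ` of level `|d_K|` with `ζ_K(s) = ζ(s) L(s, χ)`. -/
theorem exists_quadratic_character (h : Module.finrank ℚ K = 2) :
    ∃ (N : ℕ) (_ : NeZero N) (χ : DirichletCharacter ℂ N),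
      N = (discr K).natAbs ∧ χ.IsPrimitive ∧ χ ≠ 1 ∧ χ ^ 2 = 1 ∧
      (∀ s : ℂ, s ≠ 1 → zetaK K s = riemannZeta s * χ.LFunction s) ∧
      (∀ s : ℂ, 1 < s.re → dedekindZeta K s = riemannZeta s * χ.LFunction s) ∧
      (dedekindZeta_residue K : ℂ) = χ.LFunction 1 ∧ χ.rootNumber = 1 ∧
      (χ.Even ↔ nrComplexPlaces K = 0) ∧
      ∀ (p : ℕ), p.Prime → ∀ (P : Ideal (𝓞 K)) [P.IsPrime] [P.LiesOver (span {(p : ℤ)})] (T : ℂ),
        (1 - T) * (1 - χ p * T) =
          (1 - T ^ P.inertiaDeg ℤ) ^ ((span {(p : ℤ)}).primesOver (𝓞 K)).ncard := by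
  classical
  have hab := isAbelianGalois_of_finrank_two K h
  have h1 : ((dirChars K).erase 1).card = 1 := by
    rw [Finset.card_erase_of_mem (one_mem_dirChars K), card_dirChars, h]
  obtain ⟨ψ, hψ⟩ := Finset.card_eq_one.mp h1
  have hψm : ψ ∈ (dirChars K).erase 1 := by
    rw [hψ]
    exact Finset.mem_singleton_self ψ
  have hψ1 : ψ ≠ 1 := Finset.ne_of_mem_erase hψm
  have hψ2 : ψ * ψ = 1 := by
    by_contra hne
    have h2 : ψ * ψ ∈ (dirChars K).erase 1 := Finset.mem_erase.mpr
      ⟨hne, mul_mem_dirChars (Finset.mem_of_mem_erase hψm) (Finset.mem_of_mem_erase hψm)⟩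
    rw [hψ, Finset.mem_singleton] at h2
    exact hψ1 (mul_eq_left.mp h2)
  have hprod : ∀ {M : Type} [CommMonoid M] (f : DirichletCharacter ℂ (level K) → M),
      ∏ χ ∈ dirChars K, f χ = f 1 * f ψ := by
    intro M _ f
    rw [← Finset.mul_prod_erase _ _ (one_mem_dirChars K), hψ, Finset.prod_singleton]
  refine ⟨ψ.conductor, inferInstance, ψ.primitiveCharacter, ?_,
    ψ.primitiveCharacter_isPrimitive, ?_, ?_, fun s hs => ?_, fun s hs => ?_, ?_, ?_, ?_,
    fun p hp P _ _ T => ?_⟩
  · rw [natAbs_discr_eq_prod, hprod, conductor_one, one_mul]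
  · rwa [Ne, primitiveCharacter_eq_one_iff]
  · refine changeLevel_injective ψ.conductor_dvd_level ?_
    rw [map_pow, changeLevel_primitiveCharacter, map_one, sq, hψ2]
  · rw [zetaK_eq_prod_dirChars K hs, hprod, LFunction_primitiveCharacter_one]
  · rw [dedekindZeta_eq_prod_dirChars K hs, hprod, LFunction_primitiveCharacter_one]
  · rw [residue_eq_prod_dirChars, hψ, Finset.prod_singleton]
  · have h2 := prod_rootNumber_dirChars K
    rw [hprod] at h2
    have h3 : (1 : DirichletCharacter ℂ (level K)).primitiveCharacter.rootNumber = 1 := by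
      have h4 : ∀ {N : ℕ} [NeZero N] (hN : N = 1) (χ : DirichletCharacter ℂ N),
          χ.rootNumber = 1 := by
        intro N _ hN χ
        subst hN
        exact rootNumber_modOne χ
      exact h4 conductor_one _
    rwa [h3, one_mul] at h2
  · rw [even_primitiveCharacter_iff]
    have h2 := card_odd_dirChars K
    constructor
    · intro he
      rw [← h2, Finset.card_eq_zero, Finset.filter_eq_empty_iff]
      intro χ hχ
      rw [not_not]
      by_cases hχ1 : χ = 1
      · rw [hχ1, DirichletCharacter.Even]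
        exact MulChar.one_apply isUnit_one.neg
      · have h3 : χ ∈ (dirChars K).erase 1 := Finset.mem_erase.mpr ⟨hχ1, hχ⟩
        rw [hψ, Finset.mem_singleton] at h3
        rwa [h3]
    · intro h0
      rw [h0, Finset.card_eq_zero, Finset.filter_eq_empty_iff] at h2
      exact not_not.mp (h2 (Finset.mem_of_mem_erase hψm))
  · rw [← prod_dirChars K hp P T, hprod]
    congr 1
    have h3 : (1 : DirichletCharacter ℂ (level K)).primitiveCharacter p = 1 := by
      rw [primitiveCharacter_one]
      refine MulChar.one_apply ?_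
      have : Subsingleton (ZMod (1 : DirichletCharacter ℂ (level K)).conductor) := by
        rw [conductor_one]
        infer_instance
      exact isUnit_of_subsingleton _
    rw [h3, one_mul]

variable {K} in
/-- **The decomposition law in a quadratic field**: a prime `p` is split, inert or ramified in `K`
according to `χ(p) = 1, -1, 0`. -/
theorem decomposition_law (h : Module.finrank ℚ K = 2) {N : ℕ} [NeZero N]
    {χ : DirichletCharacter ℂ N} (hN : N = (discr K).natAbs)
    (H : ∀ (p : ℕ), p.Prime → ∀ (P : Ideal (𝓞 K)) [P.IsPrime] [P.LiesOver (span {(p : ℤ)})]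
      (T : ℂ), (1 - T) * (1 - χ p * T) =
        (1 - T ^ P.inertiaDeg ℤ) ^ ((span {(p : ℤ)}).primesOver (𝓞 K)).ncard)
    {p : ℕ} (hp : p.Prime) :
    (χ p = 1 ↔ ((span {(p : ℤ)}).primesOver (𝓞 K)).ncard = 2) ∧
    (χ p = -1 ↔ ((span {(p : ℤ)}).primesOver (𝓞 K)).ncard = 1 ∧ ¬ (p : ℤ) ∣ discr K) ∧
    (χ p = 0 ↔ (p : ℤ) ∣ discr K) := by
  have hp' : Fact p.Prime := ⟨hp⟩
  have hab := isAbelianGalois_of_finrank_two K h
  have hmax : (span {(p : ℤ)}).IsMaximal := Int.ideal_span_isMaximal_of_prime p
  obtain ⟨P, _, _⟩ := exists_maximal_ideal_liesOver_of_isIntegral (span {(p : ℤ)}) (S := 𝓞 K)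
  have h0 : χ p = 0 ↔ (p : ℤ) ∣ discr K := by
    rw [Int.natCast_dvd, ← hN]
    constructor
    · intro h1
      by_contra h2
      have h3 : IsUnit ((p : ℕ) : ZMod N) := (ZMod.isUnit_iff_coprime _ _).mpr
        ((Nat.Prime.coprime_iff_not_dvd hp).mpr h2)
      exact (h3.map χ).ne_zero h1
    · intro h1
      refine MulChar.map_nonunit _ fun h2 => ?_
      rw [ZMod.isUnit_iff_coprime] at h2
      exact (Nat.Prime.coprime_iff_not_dvd hp).mp h2 h1
  have hT := H p hp P (-1)
  set g := ((span {(p : ℤ)}).primesOver (𝓞 K)).ncard with hg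
  have hg0 : 0 < g := Nat.pos_of_ne_zero (IsDedekindDomain.primesOver_ncard_ne_zero _ _)
  have hf0 : 0 < P.inertiaDeg ℤ := P.inertiaDeg_pos ℤ
  have hefg : g * (P.ramificationIdx ℤ * P.inertiaDeg ℤ) = 2 := by
    have h1 := ncard_primesOver_mul_ramificationIdxIn_mul_inertiaDegIn (span {(p : ℤ)}) (𝓞 K)
      Gal(K/ℚ)
    rwa [IsGalois.card_aut_eq_finrank, h, ramificationIdxIn_eq_ramificationIdx (span {(p : ℤ)}) P
      Gal(K/ℚ), inertiaDegIn_eq_inertiaDeg (span {(p : ℤ)}) P Gal(K/ℚ)] at h1
  have hle : g * P.inertiaDeg ℤ ≤ 2 := by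
    rw [← hefg]
    refine Nat.mul_le_mul_left g ?_
    exact Nat.le_mul_of_pos_left _ (P.ramificationIdx_pos ℤ)
  have hcases : (P.inertiaDeg ℤ = 1 ∧ g = 1) ∨ (P.inertiaDeg ℤ = 1 ∧ g = 2) ∨
      (P.inertiaDeg ℤ = 2 ∧ g = 1) := by
    have key : ∀ f g : ℕ, 0 < f → 0 < g → g * f ≤ 2 →
        (f = 1 ∧ g = 1) ∨ (f = 1 ∧ g = 2) ∨ (f = 2 ∧ g = 1) := by
      intro f g hf hg hle
      have h1 : g ≤ 2 := (Nat.le_mul_of_pos_right g hf).trans hle
      have h2 : f ≤ 2 := (Nat.le_mul_of_pos_left _ hg).trans hle
      interval_cases g <;> interval_cases f <;> simp_all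
    exact key _ _ hf0 hg0 hle
  rcases hcases with ⟨hf, hg1⟩ | ⟨hf, hg1⟩ | ⟨hf, hg1⟩
  · rw [hf, hg1] at hT
    have h1 : χ p = 0 := by linear_combination hT / 2
    refine ⟨?_, ?_, h0⟩
    · rw [h1, hg1]; norm_num
    · rw [h1]
      constructor
      · intro h2; norm_num at h2
      · rintro ⟨-, h2⟩; exact absurd (h0.mp h1) h2
  · rw [hf, hg1] at hT
    have h1 : χ p = 1 := by linear_combination hT / 2
    refine ⟨by simp [h1, hg1], ?_, h0⟩
    rw [h1, hg1]; norm_num
  · rw [hf, hg1] at hT
    have h1 : χ p = -1 := by linear_combination hT / 2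
    refine ⟨by rw [h1, hg1]; norm_num, ?_, h0⟩
    refine ⟨fun _ => ⟨hg1, fun h2 => ?_⟩, fun _ => h1⟩
    rw [h0.mpr h2] at h1
    norm_num at h1

end Quadratic

end Fermat.Agent.Cor.Abel
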