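import Fermat.Agent.Classic.Level.Disc.Norm
import Fermat.Agent.Classic.Level.Disc.Tame
import Fermat.Agent.ClassL.Euler

/-!
# The natural density of the primes which split completely

For a finite Galois extension `K / ℚ` of degree `n` the primes which split completely in `K` have
natural density `1 / n`: consequence of the prime ideal theorem for `K`.
-/

set_option autoImplicit false
set_option linter.unusedSectionVars false

open NumberField IsDedekindDomain Ideal Filter Topology nonZeroDivisors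
open Fermat.Agent.Classic.Disc

namespace Fermat.Agent.Cor

variable (K : Type*) [Field K] [NumberField K]

/-- the prime number `p` splits completely in `K`: it has `[K : ℚ]` places above it -/
def SplitsIn (p : ℕ) : Prop := (above K p).card = Module.finrank ℚ K

variable {K}

lemma card_above_le_split {p : ℕ} (hp : p.Prime) : (above K p).card ≤ Module.finrank ℚ K := by
  rw [← sum_ram_fdeg (F := K) hp, Finset.card_eq_sum_ones]
  exact Finset.sum_le_sum fun v _ => Nat.one_le_iff_ne_zero.mpr
    (Nat.mul_ne_zero (ram_pos v).ne' (fdeg_pos v).ne')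

/-- splitting completely = all ramification indices and residue degrees are one -/
theorem splitsIn_iff {p : ℕ} (hp : p.Prime) :
    SplitsIn K p ↔ ∀ v ∈ above K p, ram v = 1 ∧ fdeg v = 1 := by
  rw [SplitsIn, ← sum_ram_fdeg (F := K) hp, Finset.card_eq_sum_ones]
  constructor
  · intro h v hv
    have h1 := (Finset.sum_eq_sum_iff_of_le (fun w _ => Nat.one_le_iff_ne_zero.mpr
      (Nat.mul_ne_zero (ram_pos w).ne' (fdeg_pos w).ne'))).mp h v hv
    exact ⟨Nat.eq_one_of_mul_eq_one_right h1.symm, Nat.eq_one_of_mul_eq_one_left h1.symm⟩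
  · intro h
    refine Finset.sum_congr rfl fun v hv => ?_
    rw [(h v hv).1, (h v hv).2]

/-- the places above `p` in a Galois extension have the same residue degree and ramification
index -/
lemma eq_of_galois [IsGalois ℚ K] {p : ℕ} (hp : p.Prime) {v w : HeightOneSpectrum (𝓞 K)}
    (hv : (p : 𝓞 K) ∈ v.asIdeal) (hw : (p : 𝓞 K) ∈ w.asIdeal) :
    ram v = ram w ∧ fdeg v = fdeg w := by
  have := liesOver hp hv
  have := liesOver hp hw
  have := span_isMaximal hp
  have := v.isPrime
  have := w.isPrime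
  refine ⟨?_, ?_⟩
  · exact Ideal.ramificationIdx_eq_of_isGaloisGroup (span {(p : ℤ)}) v.asIdeal w.asIdeal
      (K ≃ₐ[ℚ] K)
  · exact Ideal.inertiaDeg_eq_of_isGaloisGroup (span {(p : ℤ)}) v.asIdeal w.asIdeal
      (K ≃ₐ[ℚ] K)

/-- a prime number which does not divide the discriminant is unramified -/
lemma ram_eq_one {p : ℕ} (hp : p.Prime) (hd : ¬ p ∣ (discr K).natAbs)
    {v : HeightOneSpectrum (𝓞 K)} (hv : v ∈ above K p) : ram v = 1 := by
  have h1 := le_wild (F := K) hp
  rw [padicValNat.eq_zero_of_not_dvd hd, zero_add, ← sum_ram_fdeg (F := K) hp, fSum] at h1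
  have h2 : ∀ w ∈ above K p, fdeg w ≤ ram w * fdeg w := fun w _ =>
    Nat.le_mul_of_pos_left _ (ram_pos w)
  have h3 := (Finset.sum_eq_sum_iff_of_le h2).mp (le_antisymm (Finset.sum_le_sum h2) h1) v hv
  have h4 : ram v * fdeg v = 1 * fdeg v := by rw [one_mul]; exact h3.symm
  exact Nat.eq_of_mul_eq_mul_right (fdeg_pos v) h4

section count

/-- the places of norm at most `x` above `p` -/
noncomputable def aboveLe (K : Type*) [Field K] [NumberField K] (p x : ℕ) :
    Finset (HeightOneSpectrum (𝓞 K)) :=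
  (above K p).filter fun v => absNorm v.asIdeal ≤ x

/-- the prime numbers up to `x` -/
def primesLe (x : ℕ) : Finset ℕ := (Finset.range (x + 1)).filter Nat.Prime

lemma mem_primesLe {x p : ℕ} : p ∈ primesLe x ↔ p.Prime ∧ p ≤ x := by
  rw [primesLe, Finset.mem_filter, Finset.mem_range, Nat.lt_succ_iff, and_comm]

lemma le_absNorm_split {p : ℕ} (hp : p.Prime) {v : HeightOneSpectrum (𝓞 K)}
    (hv : (p : 𝓞 K) ∈ v.asIdeal) : p ≤ absNorm v.asIdeal := by
  rw [absNorm_eq hp hv]
  exact Nat.le_self_pow (fdeg_pos v).ne' p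

/-- the number of places of norm at most `x`, prime number by prime number -/
lemma natCard_le (x : ℕ) :
    Nat.card {v : HeightOneSpectrum (𝓞 K) // absNorm v.asIdeal ≤ x} =
      ∑ p ∈ primesLe x, (aboveLe K p x).card := by
  classical
  rw [← Finset.card_biUnion]
  · have hmem : ∀ v : HeightOneSpectrum (𝓞 K),
        v ∈ (primesLe x).biUnion (fun p => aboveLe K p x) ↔ absNorm v.asIdeal ≤ x := by
      intro v
      rw [Finset.mem_biUnion]
      constructor
      · rintro ⟨p, _, hv⟩
        exact (Finset.mem_filter.mp hv).2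
      · intro hv
        obtain ⟨p, hp, hpv⟩ := exists_prime_above v
        exact ⟨p, mem_primesLe.mpr ⟨hp, (le_absNorm_split hp hpv).trans hv⟩,
          Finset.mem_filter.mpr ⟨(mem_above hp.ne_zero).mpr hpv, hv⟩⟩
    rw [← Fintype.card_coe, ← Nat.card_eq_fintype_card]
    exact Nat.card_congr (Equiv.subtypeEquivRight fun v => (hmem v).symm)
  · intro p hp q hq hpq
    rw [Function.onFun, Finset.disjoint_left]
    intro v hv hv'
    rw [aboveLe, Finset.mem_filter] at hv hv'
    have hp' := (mem_primesLe.mp hp).1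
    have hq' := (mem_primesLe.mp hq).1
    exact hpq (Fermat.Agent.Classic.Disc.prime_unique hp' hq' ((mem_above hp'.ne_zero).mp hv.1)
      ((mem_above hq'.ne_zero).mp hv'.1))

variable (K) in
open scoped Classical in
/-- the number of the primes up to `x` which split completely -/
noncomputable def splitCount (x : ℕ) : ℕ := ((primesLe x).filter (SplitsIn K)).card

variable (K) in
lemma splitCount_eq (x : ℕ) :
    splitCount K x = Nat.card {p : ℕ // p.Prime ∧ p ≤ x ∧ SplitsIn K p} := by
  classical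
  rw [splitCount, ← Fintype.card_coe, ← Nat.card_eq_fintype_card]
  refine Nat.card_congr (Equiv.subtypeEquivRight fun p => ?_)
  rw [Finset.mem_filter, mem_primesLe, and_assoc]

lemma card_aboveLe_le {p x : ℕ} (hp : p.Prime) :
    (aboveLe K p x).card ≤ Module.finrank ℚ K :=
  (Finset.card_filter_le _ _).trans (card_above_le_split hp)

lemma card_aboveLe_of_split {p x : ℕ} (hp : p.Prime) (hx : p ≤ x) (h : SplitsIn K p) :
    (aboveLe K p x).card = Module.finrank ℚ K := by
  have h1 : aboveLe K p x = above K p := by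
    rw [aboveLe, Finset.filter_eq_self]
    intro v hv
    rw [absNorm_eq hp ((mem_above hp.ne_zero).mp hv), (((splitsIn_iff hp).mp h) v hv).2, pow_one]
    exact hx
  rw [h1]
  exact h

/-- in a Galois extension a prime number which does not split completely and has a place of norm
at most `x` is ramified or at most `√x` -/
lemma mem_of_not_split [IsGalois ℚ K] {p x : ℕ} (hp : p.Prime) (h : ¬ SplitsIn K p)
    (hne : (aboveLe K p x).card ≠ 0) :
    p ∈ (discr K).natAbs.primeFactors ∪ Finset.range (Nat.sqrt x + 1) := by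
  rw [Finset.card_ne_zero] at hne
  obtain ⟨v, hv⟩ := hne
  rw [aboveLe, Finset.mem_filter] at hv
  have hpv := (mem_above hp.ne_zero).mp hv.1
  rw [Finset.mem_union, Nat.mem_primeFactors, Finset.mem_range, Nat.lt_succ_iff]
  by_cases hd : p ∣ (discr K).natAbs
  · exact Or.inl ⟨hp, hd, by simpa using discr_ne_zero K⟩
  · right
    have hf : 2 ≤ fdeg v := by
      by_contra hlt
      have hf1 : fdeg v = 1 := le_antisymm (by omega) (fdeg_pos v)
      refine h ((splitsIn_iff hp).mpr fun w hw => ?_)
      have h1 := eq_of_galois hp ((mem_above hp.ne_zero).mp hw) hpv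
      exact ⟨ram_eq_one hp hd hw, h1.2.trans hf1⟩
    rw [Nat.le_sqrt, ← pow_two]
    refine le_trans (Nat.pow_le_pow_right hp.pos hf) ?_
    rw [← absNorm_eq hp hpv]
    exact hv.2

variable (K) in
/-- the comparison of the two counting functions -/
theorem natCard_bounds [IsGalois ℚ K] (x : ℕ) :
    Module.finrank ℚ K * splitCount K x ≤
        Nat.card {v : HeightOneSpectrum (𝓞 K) // absNorm v.asIdeal ≤ x} ∧
      Nat.card {v : HeightOneSpectrum (𝓞 K) // absNorm v.asIdeal ≤ x} ≤
        Module.finrank ℚ K * splitCount K x +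
          Module.finrank ℚ K * ((discr K).natAbs.primeFactors.card + (Nat.sqrt x + 1)) := by
  classical
  set n := Module.finrank ℚ K with hn
  rw [natCard_le, ← Finset.sum_filter_add_sum_filter_not (primesLe x) (SplitsIn K)]
  have h1 : ∑ p ∈ (primesLe x).filter (SplitsIn K), (aboveLe K p x).card =
      n * splitCount K x := by
    rw [splitCount, mul_comm, ← smul_eq_mul, ← Finset.sum_const]
    refine Finset.sum_congr rfl fun p hp => ?_
    rw [Finset.mem_filter, mem_primesLe] at hp
    exact card_aboveLe_of_split hp.1.1 hp.1.2 hp.2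
  rw [h1]
  refine ⟨Nat.le_add_right _ _, Nat.add_le_add_left ?_ _⟩
  set T := (discr K).natAbs.primeFactors ∪ Finset.range (Nat.sqrt x + 1) with hT
  calc ∑ p ∈ (primesLe x).filter (fun p => ¬ SplitsIn K p), (aboveLe K p x).card
      ≤ ∑ p ∈ (primesLe x).filter (fun p => ¬ SplitsIn K p), (if p ∈ T then n else 0) := by
        refine Finset.sum_le_sum fun p hp => ?_
        rw [Finset.mem_filter, mem_primesLe] at hp
        by_cases h0 : (aboveLe K p x).card = 0
        · rw [h0]
          exact Nat.zero_le _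
        · rw [if_pos (mem_of_not_split hp.1.1 hp.2 h0)]
          exact card_aboveLe_le hp.1.1
    _ = ∑ p ∈ ((primesLe x).filter (fun p => ¬ SplitsIn K p)).filter (· ∈ T), n :=
        (Finset.sum_filter _ _).symm
    _ ≤ ∑ _p ∈ T, n := Finset.sum_le_sum_of_subset (fun p hp => (Finset.mem_filter.mp hp).2)
    _ = n * T.card := by rw [Finset.sum_const, smul_eq_mul, mul_comm]
    _ ≤ n * ((discr K).natAbs.primeFactors.card + (Nat.sqrt x + 1)) := by
        refine Nat.mul_le_mul_left _ ((Finset.card_union_le _ _).trans ?_)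
        rw [Finset.card_range]

end count

section limit

/-- the places are the prime ideals -/
noncomputable def prEquiv (K : Type*) [Field K] [NumberField K] :
    HeightOneSpectrum (𝓞 K) ≃ ClassL.Pr K where
  toFun v := ⟨⟨v.asIdeal, mem_nonZeroDivisors_of_ne_zero v.ne_bot⟩, v.prime⟩
  invFun P := ⟨(P.1 : Ideal (𝓞 K)), Ideal.isPrime_of_prime P.2, P.2.ne_zero⟩
  left_inv _ := rfl
  right_inv _ := rfl

lemma natCard_pr_split (K : Type*) [Field K] [NumberField K] (x : ℕ) :
    Nat.card {P : ClassL.Pr K // absNorm ((P.1 : (Ideal (𝓞 K))⁰) : Ideal (𝓞 K)) ≤ x} =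
      Nat.card {v : HeightOneSpectrum (𝓞 K) // absNorm v.asIdeal ≤ x} :=
  (Nat.card_congr ((prEquiv K).subtypeEquiv fun _ => Iff.rfl)).symm

lemma tendsto_sqrt_mul_log_div (D : ℝ) :
    Tendsto (fun x : ℕ => (D + (Nat.sqrt x + 1)) * Real.log x / x) atTop (𝓝 0) := by
  have h1 : Tendsto (fun x : ℝ => Real.log x / x ^ (1 / 2 : ℝ)) atTop (𝓝 0) :=
    (isLittleO_log_rpow_atTop (by norm_num)).tendsto_div_nhds_zero
  have h2 : Tendsto (fun x : ℕ => (|D| + 2) * (Real.log x / (x : ℝ) ^ (1 / 2 : ℝ))) atTop (𝓝 0) := by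
    have := (h1.comp tendsto_natCast_atTop_atTop).const_mul (|D| + 2)
    rwa [mul_zero] at this
  refine squeeze_zero_norm' ?_ h2
  filter_upwards [eventually_ge_atTop 1] with x hx
  have hx1 : (1 : ℝ) ≤ x := by exact_mod_cast hx
  have hx0 : (0 : ℝ) < x := by linarith
  have hlog : 0 ≤ Real.log x := Real.log_nonneg hx1
  have hs0 : 0 < (x : ℝ) ^ (1 / 2 : ℝ) := Real.rpow_pos_of_pos hx0 _
  have hs1 : 1 ≤ (x : ℝ) ^ (1 / 2 : ℝ) := Real.one_le_rpow hx1 (by norm_num)
  have hss : (x : ℝ) ^ (1 / 2 : ℝ) * (x : ℝ) ^ (1 / 2 : ℝ) = x := by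
    rw [← Real.rpow_add hx0]
    norm_num
  have hsq : (Nat.sqrt x : ℝ) ≤ (x : ℝ) ^ (1 / 2 : ℝ) := by
    rw [← Real.sqrt_eq_rpow]
    exact Real.nat_sqrt_le_real_sqrt
  have hb : |D + (Nat.sqrt x + 1)| ≤ (|D| + 2) * (x : ℝ) ^ (1 / 2 : ℝ) := by
    have h3 : |D + ((Nat.sqrt x : ℝ) + 1)| ≤ |D| + ((Nat.sqrt x : ℝ) + 1) := by
      refine (abs_add_le _ _).trans (add_le_add le_rfl ?_)
      rw [abs_of_nonneg (by positivity)]
    have h4 : |D| ≤ |D| * (x : ℝ) ^ (1 / 2 : ℝ) := le_mul_of_one_le_right (abs_nonneg _) hs1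
    nlinarith
  rw [Real.norm_eq_abs, abs_div, abs_mul, abs_of_nonneg hlog, abs_of_pos hx0]
  calc |D + (Nat.sqrt x + 1)| * Real.log x / x
      ≤ (|D| + 2) * (x : ℝ) ^ (1 / 2 : ℝ) * Real.log x / x := by gcongr
    _ = (|D| + 2) * (Real.log x / (x : ℝ) ^ (1 / 2 : ℝ)) := by
        rw [mul_div_assoc, mul_assoc]
        congr 1
        rw [← mul_div_assoc, div_eq_div_iff hx0.ne' hs0.ne', mul_right_comm, hss, mul_comm]

/-- **The natural density of the completely split primes is `1 / [K : ℚ]`.** -/
theorem split_density (K : Type*) [Field K] [NumberField K] [IsGalois ℚ K]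
    (hPIT : Tendsto (fun x : ℕ => (Nat.card {P : ClassL.Pr K //
      absNorm ((P.1 : (Ideal (𝓞 K))⁰) : Ideal (𝓞 K)) ≤ x} : ℝ) * Real.log x / x) atTop (𝓝 1)) :
    Tendsto (fun x : ℕ => (Nat.card {p : ℕ // p.Prime ∧ p ≤ x ∧ SplitsIn K p} : ℝ) *
      Real.log x / x) atTop (𝓝 (1 / Module.finrank ℚ K)) := by
  set n := Module.finrank ℚ K with hn
  have hn0 : (0 : ℝ) < n := by exact_mod_cast Module.finrank_pos
  set D := (discr K).natAbs.primeFactors.card with hD
  set N : ℕ → ℕ := fun x => Nat.card {v : HeightOneSpectrum (𝓞 K) // absNorm v.asIdeal ≤ x} with hN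
  have h1 : Tendsto (fun x : ℕ => (N x : ℝ) * Real.log x / x) atTop (𝓝 1) := by
    refine hPIT.congr fun x => ?_
    rw [natCard_pr_split]
  have h2 : Tendsto (fun x : ℕ => ((N x : ℝ) - n * splitCount K x) * Real.log x / x)
      atTop (𝓝 0) := by
    refine squeeze_zero' ?_ ?_ (by
      have := (tendsto_sqrt_mul_log_div (D : ℝ)).const_mul (n : ℝ)
      rwa [mul_zero] at this)
    · filter_upwards [eventually_ge_atTop 1] with x hx
      have hx1 : (1 : ℝ) ≤ x := by exact_mod_cast hx
      have h3 : (n : ℝ) * splitCount K x ≤ N x := by exact_mod_cast (natCard_bounds K x).1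
      exact div_nonneg (mul_nonneg (by linarith) (Real.log_nonneg hx1)) (by linarith)
    · filter_upwards [eventually_ge_atTop 1] with x hx
      have hx1 : (1 : ℝ) ≤ x := by exact_mod_cast hx
      have h3 : (N x : ℝ) ≤ n * splitCount K x + n * (D + (Nat.sqrt x + 1)) := by
        exact_mod_cast (natCard_bounds K x).2
      have h4 := Real.log_nonneg hx1
      rw [← mul_div_assoc, ← mul_assoc]
      have h5 : (N x : ℝ) - n * splitCount K x ≤ n * (D + (Nat.sqrt x + 1)) := by linarith
      gcongr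
  have h3 : Tendsto (fun x : ℕ => (n : ℝ)⁻¹ * ((N x : ℝ) * Real.log x / x -
      ((N x : ℝ) - n * splitCount K x) * Real.log x / x)) atTop (𝓝 (1 / n)) := by
    have := (h1.sub h2).const_mul ((n : ℝ)⁻¹)
    rw [sub_zero, mul_one] at this
    rwa [one_div]
  refine h3.congr fun x => ?_
  rw [← splitCount_eq]
  field_simp
  ring

end limit

end Fermat.Agent.Cor
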