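import Fermat.Agent.Corollaries.ZetaK.FrobCor
import Fermat.Agent.Corollaries.ZetaK.Landau

/-!
# The density theorem of Frobenius

The theorems of `FrobMain`, `FrobType` and `FrobCor`, with the prime ideal theorem inserted.
All densities are natural densities: `HasDensity P d` says that the number of primes `p ≤ x` with
`P p` is asymptotic to `d x / log x`.
-/

set_option autoImplicit false

namespace Fermat.Agent.Cor.Frob.Final

open NumberField Fermat.Agent.Frob Fermat.Agent.Classic.Disc

/-- The prime ideal theorem, in the form used as a hypothesis in `FrobMain`. -/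
theorem pit (F : Type) [Field F] [NumberField F] : PIT F := prime_ideal_theorem F

/-- **The density theorem of Frobenius** (natural density): `G` a finite quotient of
`Gal(ℚ̄/ℚ)`, `S` a union of divisions (stable under conjugation and under passing to another
generator of the same cyclic group), `φ p` a Frobenius element at some place above `p`. -/
theorem frobenius_density {G : Type*} [Group G] [Finite G] {ρ : GQ →* G}
    (hker : IsOpen (ρ.ker : Set GQ)) (hs : Function.Surjective ρ) {φ : ℕ → GQ}
    (hφ : ∀ p : ℕ, p.Prime → ∃ A : ValuationSubring (AlgebraicClosure ℚ),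
      A.LiesOverPrime p ∧ A.IsFrobeniusAt (φ p) p) {S : Set G}
    (hc : ∀ x g : G, g ∈ S → x⁻¹ * g * x ∈ S)
    (hz : ∀ g g' : G, Subgroup.zpowers g = Subgroup.zpowers g' → g ∈ S → g' ∈ S) :
    HasDensity (fun p => ρ (φ p) ∈ S) ((Nat.card S : ℝ) / Nat.card G) :=
  Frob.frobenius_density hker hs (fun F _ _ => pit F) hφ hc hz

variable (K : Type*) [Field K] [NumberField K]

/-- **The density theorem of Frobenius for decomposition types**: the primes `p` such that the
residue degrees of the places of `K` above `p` are given by the multiset `m` have density
`#{s ∈ G : the cycle type of s is m} / |G|`, `G` the Galois group of the normal closure of `K`,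
acting on the embeddings of `K`. -/
theorem hasDensity_decType (m : Multiset ℕ) :
    HasDensity (fun p => decType K p = m)
      ((Nat.card {s : GalK K // cycType K s = m} : ℝ) / Nat.card (GalK K)) :=
  Frob.hasDensity_decType (fun F _ _ => pit F) m

/-- the same for a set `P` of decomposition types -/
theorem hasDensity_of_decType (P : Multiset ℕ → Prop) :
    HasDensity (fun p => P (decType K p))
      ((Nat.card {s : GalK K // P (cycType K s)} : ℝ) / Nat.card (GalK K)) :=
  Frob.hasDensity_of_decType (fun F _ _ => pit F) P

/-- The primes which split completely in `K` have density `1 / |G|`, `G` the Galois group of the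
normal closure of `K`. -/
theorem hasDensity_splits :
    HasDensity (fun p => (above K p).card = Module.finrank ℚ K)
      ((1 : ℝ) / Nat.card (GalK K)) :=
  Frob.hasDensity_splits fun F _ _ => pit F

/-- The primes which split completely in a Galois extension `K` of `ℚ` have density
`1 / [K : ℚ]`. -/
theorem hasDensity_splits_of_isGalois [IsGalois ℚ K] :
    HasDensity (fun p => (above K p).card = Module.finrank ℚ K)
      ((1 : ℝ) / Module.finrank ℚ K) :=
  Frob.hasDensity_splits_of_isGalois fun F _ _ => pit F

/-- **Jordan, Serre**: for `K ≠ ℚ` the primes without a place of degree one in `K` have a density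
which is at least `1 / [K : ℚ]`. -/
theorem hasDensity_no_degree_one (hK : 2 ≤ Module.finrank ℚ K) :
    ∃ d : ℝ, (1 : ℝ) / Module.finrank ℚ K ≤ d ∧
      HasDensity (fun p => ∀ v ∈ above K p,
        fdeg v ≠ 1) d :=
  Frob.hasDensity_no_degree_one (fun F _ _ => pit F) hK

/-- In a number field of prime degree infinitely many primes are inert: they have a positive
density. -/
theorem hasDensity_inert (hK : (Module.finrank ℚ K).Prime) :
    ∃ d : ℝ, 0 < d ∧ HasDensity (fun p => decType K p = {Module.finrank ℚ K}) d :=
  Frob.hasDensity_inert (fun F _ _ => pit F) hK

end Fermat.Agent.Cor.Frob.Final
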