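import Fermat.Agent.Corollaries.ZetaK.FrobType
import Fermat.Agent.Corollaries.ZetaK.Jordan

/-!
# Consequences of the density theorem of Frobenius

* `hasDensity_splits` : the primes which split completely in `K` have density `1 / |GalK K|`,
  `hasDensity_splits_of_isGalois` : `1 / [K : ℚ]` for `K / ℚ` Galois;
* `hasDensity_inert` : for `[K : ℚ]` prime the inert primes have positive density;
* `hasDensity_no_degree_one` : (Jordan, Serre) for `K ≠ ℚ` the primes without a place of degree one
  in `K` have density at least `1 / [K : ℚ]`.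
-/

set_option autoImplicit false

namespace Fermat.Agent.Cor.Frob

open Filter Topology NumberField IsDedekindDomain
open Fermat.Agent.Frob Fermat.Agent.Classic.Disc Fermat.Agent.Classic.Emb

local notation "Qbar" => AlgebraicClosure ℚ

section Perm

variable {α : Type*} [Fintype α] [DecidableEq α]

lemma one_mem_parts_iff (s : Equiv.Perm α) : 1 ∈ s.partition.parts ↔ ∃ x, s x = x := by
  have h := card_fix_pow s 1
  rw [pow_one] at h
  constructor
  · intro h1
    have h2 : 0 < (Finset.univ.filter fun x => s x = x).card := by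
      rw [h]
      have h3 : 1 ∈ s.partition.parts.filter (· ∣ 1) := Multiset.mem_filter.mpr ⟨h1, dvd_rfl⟩
      exact Nat.lt_of_lt_of_le one_pos (Multiset.single_le_sum (fun _ _ => Nat.zero_le _) _ h3)
    obtain ⟨x, hx⟩ := Finset.card_pos.mp h2
    exact ⟨x, (Finset.mem_filter.mp hx).2⟩
  · rintro ⟨x, hx⟩
    by_contra h1
    have h2 : s.partition.parts.filter (· ∣ 1) = 0 :=
      Multiset.filter_eq_nil.mpr fun y hy hy1 => h1 (Nat.dvd_one.mp hy1 ▸ hy)
    rw [h2, Multiset.sum_zero, Finset.card_eq_zero] at h
    exact Finset.notMem_empty x (h ▸ Finset.mem_filter.mpr ⟨Finset.mem_univ x, hx⟩)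

lemma parts_eq_replicate_iff (s : Equiv.Perm α) :
    s.partition.parts = Multiset.replicate (Fintype.card α) 1 ↔ s = 1 := by
  constructor
  · intro h
    have h1 := card_fix_pow s 1
    rw [pow_one, h, Multiset.filter_eq_self.mpr fun a ha => by
      rw [Multiset.eq_of_mem_replicate ha], Multiset.sum_replicate, smul_eq_mul, mul_one,
      ← Finset.card_univ] at h1
    have h2 := Finset.eq_of_subset_of_card_le (Finset.filter_subset _ _) h1.ge
    ext x
    have h3 : x ∈ Finset.univ.filter fun x => s x = x := by
      rw [h2]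
      exact Finset.mem_univ x
    exact (Finset.mem_filter.mp h3).2
  · rintro rfl
    rw [Equiv.Perm.parts_partition, Equiv.Perm.cycleType_one, Equiv.Perm.support_one,
      Finset.card_empty, zero_add, Nat.sub_zero]

lemma parts_of_orderOf {s : Equiv.Perm α} (h : (Fintype.card α).Prime)
    (hs : orderOf s = Fintype.card α) : s.partition.parts = {Fintype.card α} := by
  have h1 : s.IsCycle := Equiv.Perm.isCycle_of_prime_order'' h hs
  have h2 := h1.orderOf
  rw [Equiv.Perm.parts_partition, h1.cycleType, ← h2, hs, Nat.sub_self, Multiset.replicate_zero,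
    add_zero]

end Perm

variable (K : Type*) [Field K] [NumberField K]

instance isPretransitive_galK : MulAction.IsPretransitive (GalK K) (K →+* Qbar) where
  exists_smul_eq j j' := by
    obtain ⟨h, hh⟩ := Fermat.Agent.LT.Tower.exists_extend j j'
    exact ⟨⟨embPerm K h, h, rfl⟩, RingHom.ext hh⟩

lemma natCard_emb : Nat.card (K →+* Qbar) = Module.finrank ℚ K := by
  rw [Nat.card_eq_fintype_card]
  exact NumberField.Embeddings.card K Qbar

/-- The degree divides the order of the Galois group of the normal closure. -/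
lemma finrank_dvd_card_galK : Module.finrank ℚ K ∣ Nat.card (GalK K) := by
  obtain ⟨j⟩ : Nonempty (K →+* Qbar) := by
    refine (Nat.card_pos_iff.mp ?_).1
    rw [natCard_emb]
    exact Module.finrank_pos
  rw [← natCard_emb, ← MulAction.index_stabilizer_of_transitive (GalK K) j]
  exact Subgroup.index_dvd_card _

variable {K}

omit [NumberField K] in
lemma card_decType (p : ℕ) : (decType K p).card = (above K p).card := by
  rw [decType, Multiset.card_map]
  rfl

omit [NumberField K] in
lemma one_mem_decType_iff {p : ℕ} : 1 ∈ decType K p ↔ ∃ v ∈ above K p, fdeg v = 1 := by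
  rw [decType, Multiset.mem_map]
  rfl

/-- `p` splits completely in `K` iff there are `[K : ℚ]` places above `p`. -/
lemma decType_eq_replicate_iff {p : ℕ} (hp : p.Prime) :
    decType K p = Multiset.replicate (Module.finrank ℚ K) 1 ↔
      (above K p).card = Module.finrank ℚ K := by
  constructor
  · intro h
    rw [← card_decType, h, Multiset.card_replicate]
  · intro h
    rw [Multiset.eq_replicate, card_decType]
    refine ⟨h, fun b hb => ?_⟩
    obtain ⟨v, hv, rfl⟩ := Multiset.mem_map.mp hb
    have h1 : ∑ _v ∈ above K p, 1 = ∑ v ∈ above K p, ram v * fdeg v := by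
      rw [sum_ram_fdeg hp, ← h, Finset.card_eq_sum_ones]
    have h2 := (Finset.sum_eq_sum_iff_of_le fun v _ =>
      Nat.one_le_iff_ne_zero.mpr (Nat.mul_ne_zero (ram_pos v).ne' (fdeg_pos v).ne')).mp h1 v hv
    exact Nat.eq_one_of_mul_eq_one_left h2.symm

lemma one_mem_cycType_iff (s : Equiv.Perm (K →+* Qbar)) : 1 ∈ cycType K s ↔ ∃ j, s j = j := by
  classical
  rw [cycType]
  convert one_mem_parts_iff s

lemma cycType_eq_replicate_iff (s : Equiv.Perm (K →+* Qbar)) :
    cycType K s = Multiset.replicate (Module.finrank ℚ K) 1 ↔ s = 1 := by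
  classical
  rw [cycType, ← natCard_emb, Nat.card_eq_fintype_card]
  convert parts_eq_replicate_iff s

/-- **Complete splitting**: density `1 / |GalK K|`. -/
theorem hasDensity_splits (hPIT : ∀ (F : Type) [Field F] [NumberField F], PIT F) :
    HasDensity (fun p => (above K p).card = Module.finrank ℚ K)
      ((1 : ℝ) / Nat.card (GalK K)) := by
  have h := hasDensity_decType (K := K) hPIT (Multiset.replicate (Module.finrank ℚ K) 1)
  have h1 : Nat.card {s : GalK K //
      cycType K s = Multiset.replicate (Module.finrank ℚ K) 1} = 1 := by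
    rw [Nat.card_eq_one_iff_unique]
    refine ⟨⟨fun a b => ?_⟩, ⟨⟨1, (cycType_eq_replicate_iff _).mpr rfl⟩⟩⟩
    have ha := (cycType_eq_replicate_iff _).mp a.2
    have hb := (cycType_eq_replicate_iff _).mp b.2
    exact Subtype.ext (Subtype.ext (ha.trans hb.symm))
  rw [h1, Nat.cast_one] at h
  exact h.congr one_ne_zero fun p hp _ => decType_eq_replicate_iff hp

/-- **The theorem of Jordan and Serre**: for `K ≠ ℚ` the primes without a place of degree one in `K`
have a density which is at least `1 / [K : ℚ]`. -/
theorem hasDensity_no_degree_one (hPIT : ∀ (F : Type) [Field F] [NumberField F], PIT F)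
    (hK : 2 ≤ Module.finrank ℚ K) :
    ∃ d : ℝ, (1 : ℝ) / Module.finrank ℚ K ≤ d ∧
      HasDensity (fun p => ∀ v ∈ above K p, fdeg v ≠ 1) d := by
  have h := hasDensity_of_decType (K := K) hPIT fun m => 1 ∉ m
  refine ⟨_, ?_, h.congr one_ne_zero fun p hp _ => ?_⟩
  · have h1 := card_le_fixedPointFree (G := GalK K) (X := K →+* Qbar) (by rwa [natCard_emb])
    rw [natCard_emb] at h1
    have h2 : Nat.card {g : GalK K // ∀ x : K →+* Qbar, g • x ≠ x} =
        Nat.card {s : GalK K // 1 ∉ cycType K s} := by
      refine Nat.card_congr (Equiv.subtypeEquivRight fun s => ?_)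
      rw [one_mem_cycType_iff, not_exists]
      rfl
    rw [h2] at h1
    have h3 : (0 : ℝ) < Module.finrank ℚ K := by
      exact_mod_cast Module.finrank_pos
    have h4 : (0 : ℝ) < Nat.card (GalK K) := by exact_mod_cast Nat.card_pos
    rw [div_le_div_iff₀ h3 h4, one_mul, mul_comm]
    exact_mod_cast h1
  · rw [one_mem_decType_iff]
    push Not
    rfl

/-- For `K` of prime degree the inert primes have positive density. -/
theorem hasDensity_inert (hPIT : ∀ (F : Type) [Field F] [NumberField F], PIT F)
    (hK : (Module.finrank ℚ K).Prime) :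
    ∃ d : ℝ, 0 < d ∧ HasDensity (fun p => decType K p = {Module.finrank ℚ K}) d := by
  classical
  refine ⟨_, ?_, hasDensity_decType (K := K) hPIT {Module.finrank ℚ K}⟩
  have : Fact (Module.finrank ℚ K).Prime := ⟨hK⟩
  obtain ⟨s, hs⟩ := exists_prime_orderOf_dvd_card' (Module.finrank ℚ K) (finrank_dvd_card_galK K)
  have h1 : (Fintype.card (K →+* Qbar)) = Module.finrank ℚ K := NumberField.Embeddings.card K Qbar
  have h2 : cycType K s = {Module.finrank ℚ K} := by
    rw [cycType, ← h1]
    convert parts_of_orderOf (s := (s : Equiv.Perm (K →+* Qbar))) (h1 ▸ hK) ?_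
    rw [h1, ← hs, Subgroup.orderOf_coe]
  have h3 : 0 < Nat.card {s : GalK K // cycType K s = {Module.finrank ℚ K}} := by
    have : Nonempty {s : GalK K // cycType K s = {Module.finrank ℚ K}} := ⟨⟨s, h2⟩⟩
    exact Nat.card_pos
  have h4 : 0 < Nat.card (GalK K) := Nat.card_pos
  positivity

/-! ### Galois extensions -/

/-- For `L / ℚ` normal an element of `Gal(ℚ̄/ℚ)` acts on the embeddings as it acts on one of them. -/
lemma embPerm_eq_of_isGalois {L : Type*} [Field L] [NumberField L] [IsGalois ℚ L] {σ τ : GQ}
    {j : L →+* Qbar} (h : ∀ x, σ (j x) = τ (j x)) : embPerm L σ = embPerm L τ := by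
  let : Algebra L Qbar := j.toAlgebra
  have : IsScalarTower ℚ L Qbar := IsScalarTower.of_algebraMap_eq' (Subsingleton.elim _ _)
  ext j' x
  obtain ⟨a, ha⟩ := (Normal.algHomEquivAut ℚ Qbar L).symm.surjective j'.toRatAlgHom
  have h1 : j' x = j (a x) := by
    have h2 := DFunLike.congr_fun ha x
    exact h2.symm
  rw [embPerm_apply, embPerm_apply, h1, h]

lemma card_galK_of_isGalois (L : Type*) [Field L] [NumberField L] [IsGalois ℚ L] :
    Nat.card (GalK L) = Module.finrank ℚ L := by
  obtain ⟨j⟩ : Nonempty (L →+* Qbar) := by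
    refine (Nat.card_pos_iff.mp ?_).1
    rw [natCard_emb]
    exact Module.finrank_pos
  rw [← natCard_emb]
  refine Nat.card_congr (Equiv.ofBijective (fun s : GalK L => s • j) ⟨?_, fun j' => ?_⟩)
  · rintro ⟨_, σ, rfl⟩ ⟨_, τ, rfl⟩ h
    exact Subtype.ext (embPerm_eq_of_isGalois fun x => RingHom.congr_fun h x)
  · exact MulAction.exists_smul_eq (GalK L) j j'

/-- **Complete splitting in a Galois extension**: density `1 / [L : ℚ]`. -/
theorem hasDensity_splits_of_isGalois {L : Type*} [Field L] [NumberField L] [IsGalois ℚ L]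
    (hPIT : ∀ (F : Type) [Field F] [NumberField F], PIT F) :
    HasDensity (fun p => (above L p).card = Module.finrank ℚ L)
      ((1 : ℝ) / Module.finrank ℚ L) := by
  have h := hasDensity_splits (K := L) hPIT
  rwa [card_galK_of_isGalois] at h

end Fermat.Agent.Cor.Frob
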