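import Fermat.Agent.Corollaries.ZetaK.NormForm

/-!
# Primes represented by binary quadratic forms (Dirichlet, Weber)

Every positive definite binary quadratic form of fundamental discriminant represents infinitely
many primes; every binary quadratic form of fundamental discriminant represents infinitely many
primes up to sign.

The form `a x² + b x y + c y²` of discriminant `D` is `N(α) / N(𝔞)`, `α = a x - θ y`, for the ideal
`𝔞 = (a, θ)`, `θ = (-b + √D) / 2`, of the ring of integers of `ℚ(√D)`, and the class of `𝔞⁻¹`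
contains infinitely many prime ideals of degree one.
-/

set_option autoImplicit false

open QuadraticAlgebra NumberField

namespace Fermat.Agent.Cor

/-- `D` is a fundamental discriminant different from `1`, i.e. the discriminant of a quadratic
field: `D ≡ 1 mod 4` is squarefree, or `D = 4 m` with `m ≡ 2, 3 mod 4` squarefree. -/
def IsFundDiscr (D : ℤ) : Prop :=
  (D % 4 = 1 ∧ Squarefree D ∧ D ≠ 1) ∨ ∃ m : ℤ, D = 4 * m ∧ (m % 4 = 2 ∨ m % 4 = 3) ∧ Squarefree m

theorem IsFundDiscr.not_isSquare {D : ℤ} (h : IsFundDiscr D) : ¬ IsSquare D := by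
  rintro ⟨t, ht⟩
  rcases h with ⟨h1, h2, h3⟩ | ⟨m, rfl, h1, h2⟩
  · have h4 : IsUnit t := h2 t ⟨1, by rw [ht, mul_one]⟩
    rcases Int.isUnit_iff.mp h4 with rfl | rfl <;> exact h3 (by rw [ht]; norm_num)
  · have h4 : (2 : ℤ) ∣ t := by
      have h5 : (2 : ℤ) ∣ t * t := ⟨2 * m, by rw [← ht]; ring⟩
      rcases Int.prime_two.dvd_or_dvd h5 with h | h <;> exact h
    obtain ⟨r, rfl⟩ := h4
    have h5 : m = r * r := by linarith
    have h6 : IsUnit r := h2 r ⟨1, by rw [h5, mul_one]⟩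
    rcases Int.isUnit_iff.mp h6 with rfl | rfl <;> omega

/-- the key property -/
theorem IsFundDiscr.key {D s E : ℤ} (h : IsFundDiscr D) (hD : D = s ^ 2 * E)
    (hE : E % 4 = 0 ∨ E % 4 = 1) : IsUnit s := by
  rcases h with ⟨h1, h2, h3⟩ | ⟨m, rfl, h1, h2⟩
  · exact h2 s ⟨E, by rw [hD]; ring⟩
  · -- `4 m = s² E`
    rcases Int.even_or_odd' s with ⟨r, rfl | rfl⟩
    · have h4 : m = r ^ 2 * E := by linarith
      have h5 : IsUnit r := h2 r ⟨E, by rw [h4]; ring⟩
      rcases Int.isUnit_iff.mp h5 with rfl | rfl <;> omega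
    · have h4 : (4 : ℤ) ∣ E := by
        have h5 : (4 : ℤ) ∣ (2 * r + 1) ^ 2 * E := ⟨m, hD.symm⟩
        have h6 : IsCoprime (4 : ℤ) ((2 * r + 1) ^ 2) := ⟨-(r ^ 2 + r), 1, by ring⟩
        exact h6.dvd_of_dvd_mul_left h5
      obtain ⟨F, rfl⟩ := h4
      have h5 : m = (2 * r + 1) ^ 2 * F := by linarith
      exact h2 _ ⟨F, by rw [h5]; ring⟩

/-- integrality in the quadratic field of discriminant `D` -/
theorem IsFundDiscr.integral {D : ℤ} (h : IsFundDiscr D) {T N : ℤ} {y : ℚ}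
    (hy : (T : ℚ) ^ 2 - 4 * N = D * y ^ 2) : ∃ k : ℤ, y = k := by
  -- `s² (T² - 4N) = D r²` with `y = r / s`
  have hs0 : (y.den : ℚ) ≠ 0 := by exact_mod_cast y.den_nz
  have h1 : (y.den : ℤ) ^ 2 * (T ^ 2 - 4 * N) = D * y.num ^ 2 := by
    have h2 : ((y.den : ℚ)) ^ 2 * ((T : ℚ) ^ 2 - 4 * N) = D * (y.num : ℚ) ^ 2 := by
      rw [hy]
      have h3 : (y.num : ℚ) = y * y.den := (Rat.mul_den_eq_num y).symm
      rw [h3]
      ring
    exact_mod_cast h2
  have hcop : IsCoprime ((y.den : ℤ) ^ 2) (y.num ^ 2) := by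
    refine IsCoprime.pow ?_
    rw [Int.isCoprime_iff_gcd_eq_one]
    have := y.reduced
    rw [Int.gcd_comm]
    simpa [Int.gcd, Nat.Coprime] using this
  have h2 : ((y.den : ℤ) ^ 2) ∣ D := hcop.dvd_of_dvd_mul_right ⟨_, h1.symm⟩
  obtain ⟨E, hE⟩ := h2
  have hs1 : (y.den : ℤ) ≠ 0 := by exact_mod_cast y.den_nz
  have h3 : T ^ 2 - 4 * N = E * y.num ^ 2 := by
    have h4 : (y.den : ℤ) ^ 2 * (T ^ 2 - 4 * N) = (y.den : ℤ) ^ 2 * (E * y.num ^ 2) := by
      rw [h1, hE]; ring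
    exact mul_left_cancel₀ (pow_ne_zero 2 hs1) h4
  have hD4 : D % 4 = 0 ∨ D % 4 = 1 := by
    rcases h with ⟨h1, -⟩ | ⟨m, rfl, -⟩
    · exact Or.inr h1
    · left; omega
  have hE4 : E % 4 = 0 ∨ E % 4 = 1 := by
    have hT4 : T ^ 2 % 4 = 0 ∨ T ^ 2 % 4 = 1 := by
      rcases Int.even_or_odd' T with ⟨t, rfl | rfl⟩
      · left; ring_nf; omega
      · right; ring_nf; omega
    rcases Int.even_or_odd' (y.den : ℤ) with ⟨r, hr | hr⟩
    · -- `y.num` is odd
      have hodd : y.num % 2 = 1 := by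
        by_contra hcon
        have h5 : (2 : ℤ) ∣ y.num := by omega
        have h6 : (2 : ℤ) ∣ (y.den : ℤ) := ⟨r, hr⟩
        have h7 : IsUnit (2 : ℤ) :=
          hcop.isUnit_of_dvd' (Dvd.dvd.pow h6 two_ne_zero) (Dvd.dvd.pow h5 two_ne_zero)
        rcases Int.isUnit_iff.mp h7 with h8 | h8 <;> omega
      obtain ⟨n, hn⟩ : ∃ n, y.num = 2 * n + 1 := ⟨y.num / 2, by omega⟩
      rw [hn] at h3
      have h9 : T ^ 2 = E + 4 * (N + E * (n ^ 2 + n)) := by linarith
      omega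
    · rw [hr] at hE
      have h9 : D = E + 4 * (E * (r ^ 2 + r)) := by rw [hE]; ring
      omega
  have hu := h.key hE hE4
  have h5 : y.den = 1 := by
    have := Int.isUnit_iff.mp hu
    omega
  exact ⟨y.num, by rw [← Rat.mul_den_eq_num y, h5]; simp⟩

section Field

variable {a b c : ℤ}

/-- the field `ℚ(θ)`, `θ² = -ac - bθ` -/
abbrev QF (a b c : ℤ) : Type := QuadraticAlgebra ℚ (-((a : ℚ) * c)) (-(b : ℚ))

theorem fact_of_not_isSquare (h : ¬ IsSquare (b ^ 2 - 4 * a * c)) :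
    Fact (∀ r : ℚ, r ^ 2 ≠ -((a : ℚ) * c) + -(b : ℚ) * r) := by
  refine ⟨fun r hr => h ?_⟩
  rw [← Rat.isSquare_intCast_iff]
  refine ⟨2 * r + b, ?_⟩
  push_cast
  linear_combination (-4 : ℚ) * hr

variable [hF : Fact (∀ r : ℚ, r ^ 2 ≠ -((a : ℚ) * c) + -(b : ℚ) * r)]

instance : NumberField (QF a b c) where
  to_charZero := inferInstance
  to_finiteDimensional := inferInstance

omit hF in
theorem omega_sq (a b c : ℤ) : (ω : QF a b c) * ω =
    -(((a : ℤ) : QF a b c) * ((c : ℤ) : QF a b c)) - ((b : ℤ) : QF a b c) * ω := by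
  ext <;> simp

theorem isIntegral_omega : IsIntegral ℤ (ω : QF a b c) := by
  refine ⟨Polynomial.X ^ 2 + Polynomial.C b * Polynomial.X + Polynomial.C (a * c), ?_, ?_⟩
  · monicity!
  · have h := omega_sq a b c
    rw [Polynomial.eval₂_add, Polynomial.eval₂_add, Polynomial.eval₂_mul, Polynomial.eval₂_pow,
      Polynomial.eval₂_X, Polynomial.eval₂_C, Polynomial.eval₂_C, eq_intCast, eq_intCast,
      Int.cast_mul]
    linear_combination h

/-- `θ` as an algebraic integer -/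
noncomputable def thetaQ (a b c : ℤ) [Fact (∀ r : ℚ, r ^ 2 ≠ -((a : ℚ) * c) + -(b : ℚ) * r)] :
    𝓞 (QF a b c) := ⟨ω, isIntegral_omega⟩

theorem coe_thetaQ : ((thetaQ a b c : 𝓞 (QF a b c)) : QF a b c) = ω := rfl

theorem thetaQ_sq : (thetaQ a b c) * thetaQ a b c =
    -(((a : ℤ) : 𝓞 (QF a b c)) * ((c : ℤ) : 𝓞 (QF a b c))) -
      ((b : ℤ) : 𝓞 (QF a b c)) * thetaQ a b c := by
  apply RingOfIntegers.ext
  rw [RingOfIntegers.coe_eq_algebraMap, RingOfIntegers.coe_eq_algebraMap, map_sub, map_neg,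
    map_mul, map_mul, map_mul, map_intCast, map_intCast, map_intCast]
  exact omega_sq a b c

/-- the coordinates of an integral combination -/
theorem coe_comb (x y : ℤ) : (((x : 𝓞 (QF a b c)) + y * thetaQ a b c : 𝓞 (QF a b c)) :
    QF a b c) = ⟨(x : ℚ), (y : ℚ)⟩ := by
  have h : (((x : 𝓞 (QF a b c)) + y * thetaQ a b c : 𝓞 (QF a b c)) : QF a b c) =
      ((x : ℤ) : QF a b c) + ((y : ℤ) : QF a b c) * ω := by
    rw [RingOfIntegers.coe_eq_algebraMap, map_add, map_mul, map_intCast, map_intCast]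
    rfl
  rw [h]
  ext <;> simp

theorem exists_trace_norm (z : 𝓞 (QF a b c)) : ∃ T N : ℤ,
    (QuadraticAlgebra.trace (z : QF a b c) : ℚ) = T ∧
    (QuadraticAlgebra.norm (z : QF a b c) : ℚ) = N := by
  have hz : IsIntegral ℤ (z : QF a b c) := z.2
  have hz' : IsIntegral ℤ (star (z : QF a b c)) :=
    map_isIntegral_int (starRingEnd (QF a b c)) hz
  have h1 : IsIntegral ℤ (QuadraticAlgebra.trace (z : QF a b c) : ℚ) := by
    have h := hz.add hz'
    rw [← algebraMap_trace_eq_add_star] at h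
    exact (isIntegral_algebraMap_iff (algebraMap ℚ (QF a b c)).injective).mp h
  have h2 : IsIntegral ℤ (QuadraticAlgebra.norm (z : QF a b c) : ℚ) := by
    have h := hz.mul hz'
    rw [← algebraMap_norm_eq_mul_star] at h
    exact (isIntegral_algebraMap_iff (algebraMap ℚ (QF a b c)).injective).mp h
  obtain ⟨T, hT⟩ := IsIntegrallyClosed.isIntegral_iff.mp h1
  obtain ⟨N, hN⟩ := IsIntegrallyClosed.isIntegral_iff.mp h2
  exact ⟨T, N, hT.symm, hN.symm⟩

theorem exists_comb (hD : IsFundDiscr (b ^ 2 - 4 * a * c)) (z : 𝓞 (QF a b c)) :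
    ∃ x y : ℤ, z = (x : 𝓞 (QF a b c)) + y * thetaQ a b c := by
  obtain ⟨T, N, hT, hN⟩ := exists_trace_norm z
  have hkey : (T : ℚ) ^ 2 - 4 * N = ((b ^ 2 - 4 * a * c : ℤ) : ℚ) * (z : QF a b c).im ^ 2 := by
    rw [← hT, ← hN, trace_def, norm_def]
    push_cast
    ring
  obtain ⟨k, hk⟩ := hD.integral hkey
  -- the parity of the trace
  have hpar : ∃ x : ℤ, T = 2 * x - b * k := by
    have h1 : T ^ 2 - 4 * N = (b ^ 2 - 4 * a * c) * k ^ 2 := by
      rw [hk] at hkey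
      exact_mod_cast hkey
    have h2 : (2 : ℤ) ∣ T + b * k := by
      have h3 : (2 : ℤ) ∣ (T + b * k) ^ 2 :=
        ⟨(T + b * k) * (b * k) + 2 * N - 2 * a * c * k ^ 2, by linarith⟩
      exact Int.prime_two.dvd_of_dvd_pow h3
    obtain ⟨x, hx⟩ := h2
    exact ⟨x, by linarith⟩
  obtain ⟨x, hx⟩ := hpar
  refine ⟨x, k, RingOfIntegers.ext ?_⟩
  rw [coe_comb]
  ext
  · change (z : QF a b c).re = (x : ℚ)
    rw [trace_def, hk] at hT
    rw [hx] at hT
    push_cast at hT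
    linarith
  · exact hk

/-! ### The ideal `(a, θ)` -/

/-- the ideal `(a, θ)` -/
noncomputable def idealQ (a b c : ℤ) [Fact (∀ r : ℚ, r ^ 2 ≠ -((a : ℚ) * c) + -(b : ℚ) * r)] :
    Ideal (𝓞 (QF a b c)) := Ideal.span {((a : ℤ) : 𝓞 (QF a b c)), thetaQ a b c}

theorem exists_of_mem_idealQ (hD : IsFundDiscr (b ^ 2 - 4 * a * c)) {α : 𝓞 (QF a b c)}
    (h : α ∈ idealQ a b c) :
    ∃ x y : ℤ, α = ((x * a : ℤ) : 𝓞 (QF a b c)) + y * thetaQ a b c := by
  obtain ⟨u, v, rfl⟩ := Ideal.mem_span_pair.mp h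
  obtain ⟨u0, u1, rfl⟩ := exists_comb hD u
  obtain ⟨v0, v1, rfl⟩ := exists_comb hD v
  refine ⟨u0 - c * v1, u1 * a + v0 - b * v1, ?_⟩
  push_cast
  linear_combination (v1 : 𝓞 (QF a b c)) * thetaQ_sq (a := a) (b := b) (c := c)

theorem intCast_mem_idealQ (hD : IsFundDiscr (b ^ 2 - 4 * a * c)) {n : ℤ} :
    ((n : ℤ) : 𝓞 (QF a b c)) ∈ idealQ a b c ↔ a ∣ n := by
  constructor
  · intro h
    obtain ⟨x, y, hxy⟩ := exists_of_mem_idealQ hD h
    have h1 := congrArg (fun z : 𝓞 (QF a b c) => (z : QF a b c)) hxy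
    have h2 := coe_comb (a := a) (b := b) (c := c) n 0
    have h3 := coe_comb (a := a) (b := b) (c := c) (x * a) y
    rw [Int.cast_zero, zero_mul, add_zero] at h2
    beta_reduce at h1
    rw [h2, h3] at h1
    have h4 : (n : ℚ) = ((x * a : ℤ) : ℚ) := congrArg QuadraticAlgebra.re h1
    have h5 : n = x * a := by exact_mod_cast h4
    exact ⟨x, by rw [h5, mul_comm]⟩
  · rintro ⟨k, rfl⟩
    rw [Int.cast_mul]
    exact Ideal.mul_mem_right _ _ (Ideal.subset_span (Set.mem_insert _ _))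

theorem thetaQ_mem : thetaQ a b c ∈ idealQ a b c :=
  Ideal.subset_span (Set.mem_insert_of_mem _ rfl)

theorem absNorm_idealQ (hD : IsFundDiscr (b ^ 2 - 4 * a * c)) :
    Ideal.absNorm (idealQ a b c) = a.natAbs := by
  let f : ℤ →+* 𝓞 (QF a b c) ⧸ idealQ a b c :=
    (Ideal.Quotient.mk (idealQ a b c)).comp (Int.castRingHom _)
  have hsurj : Function.Surjective f := by
    intro q
    obtain ⟨z, rfl⟩ := Ideal.Quotient.mk_surjective q
    obtain ⟨x, y, rfl⟩ := exists_comb hD z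
    refine ⟨x, ?_⟩
    change Ideal.Quotient.mk (idealQ a b c) ((x : ℤ) : 𝓞 (QF a b c)) = _
    rw [Ideal.Quotient.eq]
    have h1 : ((x : ℤ) : 𝓞 (QF a b c)) - (x + y * thetaQ a b c) =
        -((y : ℤ) : 𝓞 (QF a b c)) * thetaQ a b c := by ring
    rw [h1]
    exact Ideal.mul_mem_left _ _ thetaQ_mem
  have hker : RingHom.ker f = Ideal.span {a} := by
    ext n
    rw [RingHom.mem_ker, Ideal.mem_span_singleton, ← intCast_mem_idealQ hD]
    exact Ideal.Quotient.eq_zero_iff_mem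
  have e := (Ideal.quotEquivOfEq hker).symm.trans (RingHom.quotientKerEquivOfSurjective hsurj)
  have e2 := Int.quotientSpanEquivZMod a
  rw [Ideal.absNorm_apply, Submodule.cardQuot_apply, ← Nat.card_congr e.toEquiv,
    Nat.card_congr e2.toEquiv, Nat.card_zmod]

theorem norm_comb (x y : ℤ) :
    Algebra.norm ℤ (((x * a : ℤ) : 𝓞 (QF a b c)) + y * thetaQ a b c) =
      a * (a * x ^ 2 - b * x * y + c * y ^ 2) := by
  have h1 : ((Algebra.norm ℤ (((x * a : ℤ) : 𝓞 (QF a b c)) + y * thetaQ a b c) : ℤ) : ℚ) =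
      ((a * (a * x ^ 2 - b * x * y + c * y ^ 2) : ℤ) : ℚ) := by
    rw [Algebra.coe_norm_int, coe_comb]
    have h2 : ∀ z : QF a b c, Algebra.norm ℚ z = QuadraticAlgebra.norm z := by
      intro z
      rw [← QuadraticAlgebra.det_toLinearMap_eq_norm, Algebra.norm_apply]
      rfl
    rw [h2, norm_def]
    push_cast
    ring
  exact_mod_cast h1

end Field

theorem IsFundDiscr.left_ne_zero {a b c : ℤ} (hD : IsFundDiscr (b ^ 2 - 4 * a * c)) : a ≠ 0 := by
  rintro rfl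
  exact hD.not_isSquare ⟨b, by ring⟩

/-- **A binary quadratic form of fundamental discriminant represents, up to sign, a prime larger
than a given bound.** -/
theorem exists_prime_quadForm {a b c : ℤ} (hD : IsFundDiscr (b ^ 2 - 4 * a * c)) (B : ℕ) :
    ∃ p : ℕ, p.Prime ∧ B < p ∧ ∃ x y : ℤ, |a * x ^ 2 + b * x * y + c * y ^ 2| = p := by
  have : Fact (∀ r : ℚ, r ^ 2 ≠ -((a : ℚ) * c) + -(b : ℚ) * r) :=
    fact_of_not_isSquare hD.not_isSquare
  have ha := hD.left_ne_zero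
  have hbot : idealQ a b c ≠ ⊥ := by
    intro h
    have h1 := absNorm_idealQ hD
    rw [h, Ideal.absNorm_bot] at h1
    exact ha (Int.natAbs_eq_zero.mp h1.symm)
  obtain ⟨p, hp, hB, α, hα, hN⟩ := exists_prime_norm_form hbot B
  obtain ⟨x, y, rfl⟩ := exists_of_mem_idealQ hD hα
  rw [norm_comb, absNorm_idealQ hD, Int.natAbs_mul, mul_comm] at hN
  have h1 := Nat.eq_of_mul_eq_mul_right (Int.natAbs_pos.mpr ha) hN
  refine ⟨p, hp, hB, x, -y, ?_⟩
  rw [← h1, Int.natCast_natAbs]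
  congr 1
  ring

/-- **Every binary quadratic form of fundamental discriminant represents infinitely many primes
up to sign.** -/
theorem infinite_primes_quadForm {a b c : ℤ} (hD : IsFundDiscr (b ^ 2 - 4 * a * c)) :
    {p : ℕ | p.Prime ∧ ∃ x y : ℤ, |a * x ^ 2 + b * x * y + c * y ^ 2| = p}.Infinite := by
  refine Set.infinite_of_forall_exists_gt fun B => ?_
  obtain ⟨p, hp, hB, h⟩ := exists_prime_quadForm hD B
  exact ⟨p, ⟨hp, h⟩, hB⟩

/-- **Dirichlet, Weber: every positive definite binary quadratic form of fundamental discriminant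
represents infinitely many primes.** -/
theorem infinite_primes_posDef {a b c : ℤ} (ha : 0 < a) (hneg : b ^ 2 - 4 * a * c < 0)
    (hD : IsFundDiscr (b ^ 2 - 4 * a * c)) :
    {p : ℕ | p.Prime ∧ ∃ x y : ℤ, a * x ^ 2 + b * x * y + c * y ^ 2 = p}.Infinite := by
  refine (infinite_primes_quadForm hD).mono ?_
  rintro p ⟨hp, x, y, h⟩
  refine ⟨hp, x, y, ?_⟩
  rw [← h, abs_of_nonneg]
  have h1 : 4 * a * (a * x ^ 2 + b * x * y + c * y ^ 2) =
      (2 * a * x + b * y) ^ 2 + -(b ^ 2 - 4 * a * c) * y ^ 2 := by ring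
  have h2 : 0 ≤ 4 * a * (a * x ^ 2 + b * x * y + c * y ^ 2) := by
    rw [h1]
    exact add_nonneg (sq_nonneg _) (mul_nonneg (by linarith) (sq_nonneg _))
  exact nonneg_of_mul_nonneg_right h2 (by linarith)

/-! ### Examples -/

/-- **For a squarefree number `n`, `n % 8 ≠ 3`, infinitely many primes are of the form
`x² + n y²`.** -/
theorem infinite_primes_sq_add_mul_sq {n : ℕ} (hn : Squarefree n) (h8 : n % 8 ≠ 3) :
    {p : ℕ | p.Prime ∧ ∃ x y : ℕ, p = x ^ 2 + n * y ^ 2}.Infinite := by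
  have hn0 : n ≠ 0 := hn.ne_zero
  have h04 : n % 4 ≠ 0 := by
    intro h
    have h1 : 2 * 2 ∣ n := by omega
    have h2 : IsUnit 2 := hn 2 h1
    exact absurd (Nat.isUnit_iff.mp h2) (by norm_num)
  have hsq : Squarefree (-(n : ℤ)) := by
    rw [← Int.squarefree_natAbs, Int.natAbs_neg, Int.natAbs_natCast]
    exact hn
  by_cases h4 : n % 4 = 3
  · -- `n ≡ 7 mod 8`
    obtain ⟨k, hk⟩ : ∃ k : ℕ, n + 1 = 8 * k := ⟨(n + 1) / 8, by omega⟩
    have hkn : (n : ℤ) = 8 * k - 1 := by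
      have : (n : ℤ) + 1 = 8 * k := by exact_mod_cast hk
      linarith
    have hdisc : (1 : ℤ) ^ 2 - 4 * 1 * (2 * (k : ℤ)) = -(n : ℤ) := by rw [hkn]; ring
    have hD : IsFundDiscr ((1 : ℤ) ^ 2 - 4 * 1 * (2 * (k : ℤ))) := by
      rw [hdisc]
      exact Or.inl ⟨by omega, hsq, by omega⟩
    have hinf := infinite_primes_posDef (a := 1) (b := 1) (c := 2 * (k : ℤ)) one_pos
      (by rw [hdisc]; omega) hD
    refine ((hinf.sdiff (Set.finite_singleton 2))).mono ?_
    rintro p ⟨⟨hp, x, y, hxy⟩, hp2⟩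
    refine ⟨hp, ?_⟩
    have hodd : p % 2 = 1 := by
      rcases hp.eq_two_or_odd with h | h
      · exact absurd h hp2
      · exact h
    -- `y` is even
    obtain ⟨z, hz⟩ : ∃ z, y = 2 * z := by
      by_contra hcon
      have hy : ∃ t, y = 2 * t + 1 := ⟨y / 2, by
        have : ¬ ∃ z, y = 2 * z := hcon
        by_contra h'
        exact this ⟨y / 2, by omega⟩⟩
      obtain ⟨t, rfl⟩ := hy
      obtain ⟨s, rfl | rfl⟩ := Int.even_or_odd' x
      · have h1 : (p : ℤ) = 2 * (2 * s ^ 2 + s * (2 * t + 1) + k * (2 * t + 1) ^ 2) := by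
          rw [← hxy]; ring
        omega
      · have h1 : (p : ℤ) = 2 * (2 * s ^ 2 + 2 * s + (2 * s + 1) * t + s + 1 +
            k * (2 * t + 1) ^ 2) := by
          rw [← hxy]; ring
        omega
    refine ⟨(x + z).natAbs, z.natAbs, ?_⟩
    have h1 : (p : ℤ) = ((x + z).natAbs : ℤ) ^ 2 + (n : ℤ) * (z.natAbs : ℤ) ^ 2 := by
      rw [Int.natAbs_sq, Int.natAbs_sq, ← hxy, hz, hkn]
      ring
    exact_mod_cast h1
  · have hdisc : (0 : ℤ) ^ 2 - 4 * 1 * (n : ℤ) = 4 * -(n : ℤ) := by ring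
    have hD : IsFundDiscr ((0 : ℤ) ^ 2 - 4 * 1 * (n : ℤ)) :=
      Or.inr ⟨-(n : ℤ), hdisc, by omega, hsq⟩
    have hinf := infinite_primes_posDef (a := 1) (b := 0) (c := (n : ℤ)) one_pos
      (by rw [hdisc]; omega) hD
    refine hinf.mono ?_
    rintro p ⟨hp, x, y, hxy⟩
    refine ⟨hp, x.natAbs, y.natAbs, ?_⟩
    have h1 : (p : ℤ) = (x.natAbs : ℤ) ^ 2 + (n : ℤ) * (y.natAbs : ℤ) ^ 2 := by
      rw [Int.natAbs_sq, Int.natAbs_sq, ← hxy]
      ring
    exact_mod_cast h1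

/-- **Infinitely many primes are of the form `2 x² + 2 x y + 3 y²`** (the second class of
discriminant `-20`; the first class is `x² + 5 y²`). -/
theorem infinite_primes_two_two_three :
    {p : ℕ | p.Prime ∧ ∃ x y : ℤ, 2 * x ^ 2 + 2 * x * y + 3 * y ^ 2 = p}.Infinite :=
  infinite_primes_posDef (a := 2) (b := 2) (c := 3) (by norm_num) (by norm_num)
    (Or.inr ⟨-5, by norm_num, by norm_num, by
      rw [← Int.squarefree_natAbs]
      exact (by norm_num : Nat.Prime 5).squarefree⟩)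

end Fermat.Agent.Cor
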