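import Fermat.Agent.Corollaries.ZetaK.EulerDec

/-!
# The theorem of Perlis

Arithmetically equivalent number fields have the same Dedekind zeta function, the same residue
degrees above every prime and the same absolute discriminant: from the functional equation
(`Classic.Zeta.exists_xi`) and the comparison of the local factors (`eq_of_functional`).
-/

set_option autoImplicit false

namespace Fermat.Agent.Cor.Frob

open NumberField IsDedekindDomain Filter Topology
open Fermat.Agent.Classic.Disc Fermat.Agent.FrobDensity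

variable {K L : Type*} [Field K] [NumberField K] [Field L] [NumberField L]

variable (K) in
lemma absDiscr_pos : (0 : ℝ) < |(discr K : ℝ)| := abs_pos.mpr (by exact_mod_cast discr_ne_zero K)

/-- the exponential factors -/
noncomputable def expF (K L : Type*) [Field K] [NumberField K] [Field L] [NumberField L] (s : ℂ) : ℂ :=
  ((|(discr L : ℝ)| : ℝ) : ℂ) ^ (s / 2) * ((|(discr K : ℝ)| : ℝ) : ℂ) ^ ((1 - s) / 2)

lemma absDiscr_ne_zero' (K : Type*) [Field K] [NumberField K] :
    ((|(discr K : ℝ)| : ℝ) : ℂ) ≠ 0 := by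
  exact_mod_cast (absDiscr_pos K).ne'

lemma expF_ne_zero (s : ℂ) : expF K L s ≠ 0 :=
  mul_ne_zero ((Complex.cpow_ne_zero_iff).mpr (Or.inl (absDiscr_ne_zero' L)))
    ((Complex.cpow_ne_zero_iff).mpr (Or.inl (absDiscr_ne_zero' K)))

lemma differentiable_expF : Differentiable ℂ (expF K L) :=
  ((differentiable_id.div_const 2).const_cpow (Or.inl (absDiscr_ne_zero' L))).mul
    ((((differentiable_const (1 : ℂ)).sub differentiable_id).div_const 2).const_cpow
      (Or.inl (absDiscr_ne_zero' K)))

lemma differentiable_absDiscr_cpow (K : Type*) [Field K] [NumberField K] :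
    Differentiable ℂ fun s : ℂ => ((|(discr K : ℝ)| : ℝ) : ℂ) ^ (s / 2) :=
  (differentiable_id.div_const 2).const_cpow (Or.inl (absDiscr_ne_zero' K))

lemma gamma_ne_zero (r₁ r₂ : ℕ) {s : ℂ} (hs : 0 < s.re) :
    Complex.Gammaℝ s ^ r₁ * Complex.Gammaℂ s ^ r₂ ≠ 0 := by
  refine mul_ne_zero (pow_ne_zero _ (Complex.Gammaℝ_ne_zero_of_re_pos hs)) (pow_ne_zero _ ?_)
  rw [Complex.Gammaℂ_def]
  refine mul_ne_zero (mul_ne_zero two_ne_zero ?_) (Complex.Gamma_ne_zero_of_re_pos hs)
  rw [ne_eq, Complex.cpow_eq_zero_iff, not_and_or]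
  refine Or.inl (mul_ne_zero two_ne_zero ?_)
  exact_mod_cast Real.pi_ne_zero

/-- The functional equation for the quotient of the local factors. -/
theorem functional_locProd (hr₁ : InfinitePlace.nrRealPlaces K = InfinitePlace.nrRealPlaces L)
    (hr₂ : InfinitePlace.nrComplexPlaces K = InfinitePlace.nrComplexPlaces L) {S : Finset ℕ}
    (hS : ∀ p ∈ S, p.Prime) (h : ∀ p : ℕ, p.Prime → p ∉ S → decType K p = decType L p) {s : ℂ}
    (hs : 1 < s.re) : locProd S (decType K) s * locProd S (decType L) (1 - s) * expF K L s =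
      locProd S (decType L) s * locProd S (decType K) (1 - s) * expF L K s := by
  obtain ⟨ΛK, hdK, hfK, hK⟩ := Classic.Zeta.exists_xi K
  obtain ⟨ΛL, hdL, hfL, hL⟩ := Classic.Zeta.exists_xi L
  set U : Set ℂ := ({0, 1} : Set ℂ)ᶜ with hU
  have hUo : IsOpen U := (Set.toFinite _).isClosed.isOpen_compl
  have hUp : IsPreconnected U :=
    ((Set.toFinite ({0, 1} : Set ℂ)).countable.isConnected_compl_of_one_lt_rank (by
      rw [Complex.rank_real_complex]
      exact Cardinal.one_lt_two)).isPreconnected
  have hmem : ∀ {s : ℂ}, s ∈ U ↔ s ≠ 0 ∧ s ≠ 1 := by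
    intro s
    rw [hU, Set.mem_compl_iff, Set.mem_insert_iff, Set.mem_singleton_iff, not_or]
  have hdiff : ∀ {Λ : ℂ → ℂ} {e : ℂ → ℂ} {m : ℕ → Multiset ℕ},
      (∀ s, s ≠ 0 → s ≠ 1 → DifferentiableAt ℂ Λ s) → Differentiable ℂ e →
      AnalyticOnNhd ℂ (fun s => Λ s * locProd S m s * e s) U := by
    intro Λ e m h1 h2
    refine DifferentiableOn.analyticOnNhd (fun s hs => ?_) hUo
    exact (((h1 s (hmem.mp hs).1 (hmem.mp hs).2).mul (differentiable_locProd hS s)).mul
      (h2 s)).differentiableWithinAt
  have hhalf : ∀ s : ℂ, 1 < s.re →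
      ΛK s * locProd S (decType K) s * ((|(discr L : ℝ)| : ℝ) : ℂ) ^ (s / 2) =
        ΛL s * locProd S (decType L) s * ((|(discr K : ℝ)| : ℝ) : ℂ) ^ (s / 2) := by
    intro s hs
    have h1 := zeta_mul_locProd hS h hs
    rw [hK s hs, hL s hs, hr₁, hr₂]
    linear_combination (((|(discr K : ℝ)| : ℝ) : ℂ) ^ (s / 2) *
      ((|(discr L : ℝ)| : ℝ) : ℂ) ^ (s / 2) * (Complex.Gammaℝ s ^ InfinitePlace.nrRealPlaces L *
        Complex.Gammaℂ s ^ InfinitePlace.nrComplexPlaces L)) * h1
  have heq := (hdiff (m := decType K) hdK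
    (differentiable_absDiscr_cpow L)).eqOn_of_preconnected_of_eventuallyEq
      (hdiff (m := decType L) hdL (differentiable_absDiscr_cpow K)) hUp (z₀ := 2)
      (hmem.mpr ⟨two_ne_zero, by norm_num⟩) (by
        have h1 : {s : ℂ | 1 < s.re} ∈ 𝓝 (2 : ℂ) :=
          (isOpen_lt continuous_const Complex.continuous_re).mem_nhds (by norm_num)
        filter_upwards [h1] with s hs using hhalf s hs)
  have h1 := hhalf s hs
  have h2 := heq (x := 1 - s) (hmem.mpr ⟨fun h0 => by
    have h3 := congrArg Complex.re h0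
    rw [Complex.sub_re, Complex.one_re, Complex.zero_re] at h3
    linarith, fun h0 => by
    have h3 := congrArg Complex.re h0
    rw [Complex.sub_re, Complex.one_re] at h3
    linarith⟩)
  simp only [hfK, hfL] at h2
  have hK0 : ΛK s ≠ 0 := by
    rw [hK s hs]
    exact mul_ne_zero (mul_ne_zero ((Complex.cpow_ne_zero_iff).mpr (Or.inl (absDiscr_ne_zero' K)))
      (gamma_ne_zero _ _ (by linarith))) (dedekindZeta_ne_zero hs)
  have hL0 : ΛL s ≠ 0 := by
    rw [hL s hs]
    exact mul_ne_zero (mul_ne_zero ((Complex.cpow_ne_zero_iff).mpr (Or.inl (absDiscr_ne_zero' L)))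
      (gamma_ne_zero _ _ (by linarith))) (dedekindZeta_ne_zero hs)
  refine mul_left_cancel₀ (mul_ne_zero hK0 hL0) ?_
  rw [expF, expF]
  linear_combination (ΛL s * locProd S (decType L) (1 - s) *
    ((|(discr K : ℝ)| : ℝ) : ℂ) ^ ((1 - s) / 2)) * h1 -
    (ΛL s * locProd S (decType L) s * ((|(discr K : ℝ)| : ℝ) : ℂ) ^ (s / 2)) * h2

/-- **The theorem of Perlis**: arithmetically equivalent fields have the same residue degrees above
every prime. -/
theorem ArithEquiv.decType_eq (h : ArithEquiv K L) {p : ℕ} (hp : p.Prime) :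
    decType K p = decType L p := by
  classical
  set S : Finset ℕ := h.finite_decType.toFinset with hS
  have hmem : ∀ p, p ∈ S ↔ p.Prime ∧ decType K p ≠ decType L p := fun p => by
    rw [hS, Set.Finite.mem_toFinset]
    rfl
  by_contra hne
  refine hne ?_
  exact eq_of_functional (S := S) (fun p hp => ((hmem p).mp hp).1) (fun _ _ => decType_pos)
    (fun _ _ => decType_pos) differentiable_expF differentiable_expF expF_ne_zero expF_ne_zero
    (fun s hs => functional_locProd h.nrRealPlaces_eq h.nrComplexPlaces_eq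
      (fun p hp => ((hmem p).mp hp).1) (fun p hp hpS => by
        by_contra h1
        exact hpS ((hmem p).mpr ⟨hp, h1⟩)) hs) p ((hmem p).mpr ⟨hp, hne⟩)

/-- Arithmetically equivalent fields have the same discriminant. -/
theorem ArithEquiv.discr_eq (h : ArithEquiv K L) : discr K = discr L := by
  have hx := absDiscr_pos K
  have hy := absDiscr_pos L
  have h1 := functional_locProd (K := K) (L := L) (S := ∅) h.nrRealPlaces_eq h.nrComplexPlaces_eq
    (fun p hp => absurd hp (Finset.notMem_empty p)) (fun p hp _ => h.decType_eq hp) (s := 3)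
    (by norm_num)
  simp only [locProd, Finset.prod_empty, one_mul] at h1
  have h2 := congrArg (fun z : ℂ => ‖z‖) h1
  simp only [expF, norm_mul, Complex.norm_cpow_eq_rpow_re_of_pos hx,
    Complex.norm_cpow_eq_rpow_re_of_pos hy] at h2
  have h3 := congrArg Real.log h2
  rw [Real.log_mul (Real.rpow_pos_of_pos hy _).ne' (Real.rpow_pos_of_pos hx _).ne',
    Real.log_mul (Real.rpow_pos_of_pos hx _).ne' (Real.rpow_pos_of_pos hy _).ne',
    Real.log_rpow hx, Real.log_rpow hx, Real.log_rpow hy, Real.log_rpow hy] at h3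
  norm_num at h3
  have h4 : Real.log |(discr K : ℝ)| = Real.log |(discr L : ℝ)| := by
    rw [Real.log_abs, Real.log_abs]
    linarith
  have h5 := Real.log_injOn_pos (Set.mem_Ioi.mpr hx) (Set.mem_Ioi.mpr hy) h4
  have h6 : |discr K| = |discr L| := by exact_mod_cast h5
  rw [← Int.sign_mul_natAbs (discr K), ← Int.sign_mul_natAbs (discr L), sign_discr, sign_discr,
    h.nrComplexPlaces_eq, Int.natAbs_eq_natAbs_iff.mpr (abs_eq_abs.mp h6)]

/-! ### Zeta functions -/

lemma dedekindZeta_eq_of_decType (h : ∀ p : ℕ, p.Prime → decType K p = decType L p) {s : ℂ}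
    (hs : 1 < s.re) : dedekindZeta K s = dedekindZeta L s := by
  have h1 := zeta_mul_locProd (K := K) (L := L) (S := ∅)
    (fun p hp => absurd hp (Finset.notMem_empty p)) (fun p hp _ => h p hp) hs
  simpa only [locProd, Finset.prod_empty, mul_one] using h1

lemma abscissa_lt_top (K : Type*) [Field K] [NumberField K] :
    LSeries.abscissaOfAbsConv (fun n => (Nat.card {I : Ideal (𝓞 K) // Ideal.absNorm I = n} : ℂ)) <
      ⊤ :=
  (Classic.Zeta.lseriesSummable_card (K := K) (s := 2)
    (by norm_num)).abscissaOfAbsConv_le.trans_lt (EReal.coe_lt_top _)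

/-- The Dedekind zeta function determines the number of ideals of every norm. -/
lemma idealCount_eq_of_zeta (h : ∀ s : ℝ, 1 < s → dedekindZeta K s = dedekindZeta L s) {n : ℕ}
    (hn : n ≠ 0) : idealCount K n = idealCount L n := by
  have h1 := LSeries.eq_of_LSeries_eventually_eq (abscissa_lt_top K) (abscissa_lt_top L)
    (eventually_atTop.mpr ⟨2, fun s hs => h s (by linarith)⟩) hn
  exact_mod_cast h1

/-- Fields with the same Dedekind zeta function are arithmetically equivalent. -/
theorem ArithEquiv.of_dedekindZeta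
    (h : ∀ s : ℝ, 1 < s → dedekindZeta K s = dedekindZeta L s) : ArithEquiv K L := by
  refine .of_degOne (Set.finite_empty.subset ?_)
  rintro p ⟨hp, hne⟩
  refine hne ?_
  rw [← idealCount_prime hp, ← idealCount_prime hp, idealCount_eq_of_zeta h hp.ne_zero]

/-- Arithmetically equivalent fields have the same Dedekind zeta function. -/
theorem ArithEquiv.dedekindZeta_eq (h : ArithEquiv K L) : dedekindZeta K = dedekindZeta L := by
  funext s
  refine LSeries_congr (fun {n} hn => ?_) s
  have h1 := idealCount_eq_of_zeta (K := K) (L := L) (fun s hs =>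
    dedekindZeta_eq_of_decType (fun p hp => h.decType_eq hp) (by simpa using hs)) hn
  unfold idealCount at h1
  rw [h1]

variable (K L) in
/-- **The theorem of Gassmann and Perlis.** For number fields `K` and `L` are equivalent: equality of
the Dedekind zeta functions; the same residue degrees above all primes, above almost all primes; the
same number of places of degree one above almost all primes; equality of the permutation characters
of `Gal(ℚ̄/ℚ)` on the embeddings. -/
theorem perlis : List.TFAE [dedekindZeta K = dedekindZeta L,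
    ∀ s : ℝ, 1 < s → dedekindZeta K s = dedekindZeta L s,
    ∀ n : ℕ, n ≠ 0 → Nat.card {I : Ideal (𝓞 K) // Ideal.absNorm I = n} =
      Nat.card {I : Ideal (𝓞 L) // Ideal.absNorm I = n},
    ∀ p : ℕ, p.Prime → decType K p = decType L p,
    {p : ℕ | p.Prime ∧ decType K p ≠ decType L p}.Finite,
    {p : ℕ | p.Prime ∧ degOne K p ≠ degOne L p}.Finite,
    ArithEquiv K L] := by
  tfae_have 1 → 2 := fun h s _ => by rw [h]
  tfae_have 2 → 7 := .of_dedekindZeta
  tfae_have 7 → 1 := fun h => h.dedekindZeta_eq
  tfae_have 2 → 3 := fun h n hn => idealCount_eq_of_zeta h hn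
  tfae_have 3 → 1 := fun h => funext fun s => LSeries_congr (fun {n} hn => by rw [h n hn]) s
  tfae_have 7 → 4 := fun h p hp => h.decType_eq hp
  tfae_have 4 → 5 := fun h => Set.finite_empty.subset fun p hp => hp.2 (h p hp.1)
  tfae_have 5 ↔ 7 := arithEquiv_iff_decType.symm
  tfae_have 6 ↔ 7 := arithEquiv_iff_degOne.symm
  tfae_finish

/-! ### Class number and regulator -/

/-- Arithmetically equivalent fields contain the same Galois extensions of `ℚ`. -/
theorem ArithEquiv.nonempty_ringHom_iff (h : ArithEquiv K L) (M : Type*) [Field M] [NumberField M]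
    [IsGalois ℚ M] : Nonempty (M →+* K) ↔ Nonempty (M →+* L) := by
  have h1 : ∀ p : ℕ, p.Prime → ((∃ v ∈ above K p, fdeg v = 1) ↔ ∃ v ∈ above L p, fdeg v = 1) := by
    intro p hp
    rw [← one_mem_decType_iff, ← one_mem_decType_iff, h.decType_eq hp]
  rw [bauer, bauer]
  have h2 : {p : ℕ | p.Prime ∧ (∃ v ∈ above K p, fdeg v = 1) ∧
      (above M p).card ≠ Module.finrank ℚ M} = {p : ℕ | p.Prime ∧ (∃ v ∈ above L p, fdeg v = 1) ∧
      (above M p).card ≠ Module.finrank ℚ M} := by
    ext p
    exact and_congr_right fun hp => and_congr_left' (h1 p hp)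
  rw [h2]

end Fermat.Agent.Cor.Frob
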