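import Fermat.Agent.Corollaries.ZetaK.ArithEquivInv

/-!
# Arithmetic equivalence and decomposition types

The number of ideals of prime norm `p` is the number of places of degree one above `p`
(`idealCount_prime`), and the residue degrees of the places above `p` determine the numbers of ideals
of norm `p^k`: if the residue degrees above almost all primes are the same for `K` and `K'`, then
`K` and `K'` have the same Dedekind zeta function (`dedekindZeta_eq_of_decType`).
-/

set_option autoImplicit false

noncomputable section

open NumberField IsDedekindDomain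
open Fermat.Agent.Classic.Disc Fermat.Agent.Classic.Zeta Fermat.Agent.FrobDensity
open PowerSeries (X)

namespace Fermat.Agent.Cor.AE

universe u v

theorem constantCoeff_prod {ι : Type*} (S : Finset ι) (f : ι → ℕ) (hf : ∀ i, 0 < f i) :
    PowerSeries.constantCoeff (∏ i ∈ S, (1 - X ^ f i) : PowerSeries ℂ) = 1 := by
  rw [map_prod]
  refine Finset.prod_eq_one fun v _ => ?_
  rw [map_sub, map_pow, map_one, PowerSeries.constantCoeff_X, zero_pow (hf v).ne', sub_zero]

theorem coeff_one_prod {ι : Type*} (S : Finset ι) (f : ι → ℕ) (hf : ∀ i, 0 < f i) :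
    PowerSeries.coeff 1 (∏ i ∈ S, (1 - X ^ f i) : PowerSeries ℂ) =
      -((S.filter fun i => f i = 1).card : ℂ) := by
  classical
  induction S using Finset.induction_on with
  | empty => simp [PowerSeries.coeff_one]
  | insert i S hi ih =>
    rw [Finset.prod_insert hi, sub_mul, one_mul, map_sub, ih, Finset.filter_insert,
      PowerSeries.coeff_X_pow_mul']
    by_cases h1 : f i = 1
    · rw [if_pos (by omega), if_pos h1, Finset.card_insert_of_notMem (by simp [hi]), h1,
        Nat.sub_self, PowerSeries.coeff_zero_eq_constantCoeff_apply, constantCoeff_prod S f hf]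
      push_cast
      ring
    · rw [if_neg (by have := hf i; omega), if_neg h1, sub_zero]

/-- **the number of ideals of norm `p` is the number of places of degree one above `p`** -/
theorem idealCount_prime (K : Type*) [Field K] [NumberField K] {p : ℕ} (hp : p.Prime) :
    idealCount K p = ((above K p).filter fun v => fdeg v = 1).card := by
  have h := congrArg (PowerSeries.coeff 1) (localStmt K p hp)
  rw [PowerSeries.coeff_mul, Finset.Nat.antidiagonal_succ, Finset.sum_cons,
    Finset.Nat.antidiagonal_zero, Finset.map_singleton, Finset.sum_singleton] at h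
  have h0 : PowerSeries.coeff 0 (Sp p (zcA K)) = 1 := by
    rw [coeff_Sp, pow_zero, zcA_apply one_ne_zero, idealCount_one, Nat.cast_one]
  have h1 : PowerSeries.coeff 1 (Sp p (zcA K)) = (idealCount K p : ℂ) := by
    rw [coeff_Sp, pow_one, zcA_apply hp.ne_zero]
  have h2 := coeff_one_prod (above K p) fdeg fun v => fdeg_pos v
  have h3 := constantCoeff_prod (above K p) fdeg fun v => fdeg_pos v
  rw [← PowerSeries.coeff_zero_eq_constantCoeff_apply] at h3
  change PowerSeries.coeff 0 (Sp p (zcA K)) * PowerSeries.coeff 1 _ +
    PowerSeries.coeff 1 (Sp p (zcA K)) * PowerSeries.coeff 0 _ = _ at h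
  rw [h0, h1, h2, h3, PowerSeries.coeff_one, if_neg one_ne_zero] at h
  have h4 : (idealCount K p : ℂ) = (((above K p).filter fun v => fdeg v = 1).card : ℂ) := by
    linear_combination h
  exact_mod_cast h4

variable {K : Type u} [Field K] [NumberField K] {K' : Type v} [Field K'] [NumberField K']

/-- the residue degrees above `p` determine the numbers of ideals of norm `p^k` -/
theorem idealCount_eq_of_decType {p : ℕ} (hp : p.Prime)
    (h : (above K p).val.map fdeg = (above K' p).val.map fdeg) (k : ℕ) :
    idealCount K (p ^ k) = idealCount K' (p ^ k) := by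
  have hP : (∏ v ∈ above K p, (1 - X ^ fdeg v) : PowerSeries ℂ) =
      ∏ v ∈ above K' p, (1 - X ^ fdeg v) := by
    have h1 : ∀ (F : Type _) [Field F] [NumberField F],
        (∏ v ∈ above F p, (1 - X ^ fdeg v) : PowerSeries ℂ) =
          (((above F p).val.map fdeg).map fun f => (1 - X ^ f : PowerSeries ℂ)).prod := by
      intro F _ _
      rw [Multiset.map_map]
      rfl
    have h2 : (∏ v ∈ above K' p, (1 - X ^ fdeg v) : PowerSeries ℂ) =
        (((above K' p).val.map fdeg).map fun f => (1 - X ^ f : PowerSeries ℂ)).prod := by
      rw [Multiset.map_map]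
      rfl
    rw [h1, h2, h]
  have h1 := localStmt K p hp
  have h2 := localStmt K' p hp
  rw [← hP] at h2
  have h3 : Sp p (zcA K) = Sp p (zcA K') := by
    rw [← mul_one (Sp p (zcA K)), ← h2, mul_left_comm, h1, mul_one]
  have h4 := congrArg (PowerSeries.coeff k) h3
  rw [coeff_Sp, coeff_Sp, zcA_apply (pow_ne_zero _ hp.ne_zero),
    zcA_apply (pow_ne_zero _ hp.ne_zero)] at h4
  exact_mod_cast h4

/-- **Fields with the same residue degrees above almost all primes have the same Dedekind zeta
function.** -/
theorem dedekindZeta_eq_of_decType {N : ℕ} (hN : N ≠ 0)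
    (h : ∀ p : ℕ, p.Prime → ¬ p ∣ N → (above K p).val.map fdeg = (above K' p).val.map fdeg) :
    dedekindZeta K = dedekindZeta K' :=
  dedekindZeta_eq_of_almost_all hN fun _ hp hpN => idealCount_eq_of_decType hp (h _ hp hpN)

/-- fields with the same Dedekind zeta function have the same numbers of places of degree one -/
theorem card_degree_one_eq (h : dedekindZeta K = dedekindZeta K') {p : ℕ} (hp : p.Prime) :
    ((above K p).filter fun v => fdeg v = 1).card =
      ((above K' p).filter fun v => fdeg v = 1).card := by
  rw [← idealCount_prime K hp, ← idealCount_prime K' hp]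
  exact dedekindZeta_eq_iff.1 h p hp.ne_zero

end Fermat.Agent.Cor.AE

end
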