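import Fermat.Agent.Corollaries.ZetaK.Jordan

/-!
# Groups of small degree with the same permutation character

`exists_fixed` : a group acts on two finite sets `X` and `X'`, every element has the same number of
fixed points on `X` and on `X'`, and `X` has at most five elements. If the group fixes a point of `X`,
it fixes a point of `X'`. (For sets with seven elements this is false.)
-/

set_option autoImplicit false
set_option linter.unusedSectionVars false

namespace Fermat.Agent.Cor.AE

open MulAction Equiv

/-- a set with two elements has a permutation without fixed points -/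
theorem exists_derangement {A : Type*} [Finite A] (h : 2 ≤ Nat.card A) :
    ∃ σ : Perm A, ∀ a, σ a ≠ a := by
  classical
  have h1 := Frob.card_le_fixedPointFree (G := Perm A) (X := A) h
  have h2 : 0 < Nat.card {g : Perm A // ∀ x : A, g • x ≠ x} := by
    rcases Nat.eq_zero_or_pos (Nat.card {g : Perm A // ∀ x : A, g • x ≠ x}) with h3 | h3
    · rw [h3, mul_zero] at h1
      exact absurd h1 (not_le.2 Nat.card_pos)
    · exact h3
  obtain ⟨⟨g, hg⟩⟩ := (Nat.card_pos_iff.1 h2).1
  exact ⟨g, hg⟩

section Action

variable {G : Type*} [Group G] [Finite G]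

/-- actions with the same numbers of fixed points have the same number of orbits -/
theorem card_orbits_eq {X X' : Type*} [Finite X] [Finite X'] [MulAction G X] [MulAction G X']
    (h : ∀ g : G, Nat.card (fixedBy X g) = Nat.card (fixedBy X' g)) :
    Nat.card (Quotient (orbitRel G X)) = Nat.card (Quotient (orbitRel G X')) := by
  classical
  have := Fintype.ofFinite G
  have := Fintype.ofFinite X
  have := Fintype.ofFinite X'
  have h1 := sum_card_fixedBy_eq_card_orbits_mul_card_group G X
  have h2 := sum_card_fixedBy_eq_card_orbits_mul_card_group G X'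
  have h3 : ∀ g : G, Fintype.card (fixedBy X g) = Fintype.card (fixedBy X' g) := by
    intro g
    rw [← Nat.card_eq_fintype_card, ← Nat.card_eq_fintype_card]
    exact h g
  rw [Finset.sum_congr rfl fun g _ => h3 g, h2] at h1
  rw [Nat.card_eq_fintype_card, Nat.card_eq_fintype_card]
  exact (Nat.eq_of_mul_eq_mul_right Fintype.card_pos h1).symm

/-- if there are two orbits, the second one is the complement of the first one -/
theorem exists_second {X : Type*} [MulAction G X]
    (h : Nat.card (Quotient (orbitRel G X)) = 2) (x : X) :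
    ∃ y : X, y ∉ orbit G x ∧ ∀ z : X, z ∈ orbit G x ∨ z ∈ orbit G y := by
  obtain ⟨q, hq, hq'⟩ := (Nat.card_eq_two_iff' (Quotient.mk (orbitRel G X) x)).1 h
  induction q using Quotient.inductionOn with
  | h y =>
    refine ⟨y, fun h => hq (Quotient.sound h), fun z => ?_⟩
    by_cases hz : (Quotient.mk (orbitRel G X) z) = Quotient.mk (orbitRel G X) x
    · exact Or.inl (Quotient.exact hz)
    · exact Or.inr (Quotient.exact (hq' _ hz))

theorem card_add_card {X : Type*} [Finite X] [MulAction G X] {x y : X} (h : y ∉ orbit G x)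
    (h' : ∀ z : X, z ∈ orbit G x ∨ z ∈ orbit G y) :
    Nat.card (orbit G x) + Nat.card (orbit G y) = Nat.card X := by
  have hd : Disjoint (orbit G x) (orbit G y) := by
    rw [Set.disjoint_left]
    intro z hz hz'
    refine h ?_
    rw [← orbit_eq_iff.2 hz, orbit_eq_iff.2 hz']
    exact mem_orbit_self y
  rw [Nat.card_coe_set_eq, Nat.card_coe_set_eq, ← Set.ncard_union_eq hd, ← Set.ncard_univ]
  congr 1
  ext z
  simp only [Set.mem_union, Set.mem_univ, iff_true]
  exact h' z

theorem two_le_card_orbit {X : Type*} [Finite X] [MulAction G X] {y : X} {g : G} (h : g • y ≠ y) :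
    2 ≤ Nat.card (orbit G y) := by
  have h1 : 1 < Nat.card (orbit G y) := by
    rw [Finite.one_lt_card_iff_nontrivial]
    exact ⟨⟨g • y, mem_orbit y g⟩, ⟨y, mem_orbit_self y⟩, fun h2 => h (congrArg Subtype.val h2)⟩
  exact h1

theorem card_orbit_dvd {X : Type*} [MulAction G X] (y : X) : Nat.card (orbit G y) ∣ Nat.card G := by
  rw [Nat.card_coe_set_eq, ← index_stabilizer]
  exact Subgroup.index_dvd_card _

/-- **A group which fixes a point of `X` fixes a point of `X'`**, for faithful actions. -/
theorem exists_fixed_aux {X X' : Type*} [Finite X] [Finite X'] [MulAction G X] [MulAction G X']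
    [FaithfulSMul G X'] (h : ∀ g : G, Nat.card (fixedBy X g) = Nat.card (fixedBy X' g))
    (hn : Nat.card X ≤ 5) (x : X) (hx : ∀ g : G, g • x = x) : ∃ y : X', ∀ g : G, g • y = y := by
  classical
  by_contra hno
  push Not at hno
  have hcard : Nat.card X = Nat.card X' := by
    have h1 := h 1
    rw [fixedBy_one_eq_univ, fixedBy_one_eq_univ] at h1
    simpa using h1
  -- every element has a fixed point on `X'`
  have hfix : ∀ g : G, ∃ y : X', g • y = y := by
    intro g
    have h1 : 0 < Nat.card (fixedBy X g) := by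
      have : Nonempty (fixedBy X g) := ⟨⟨x, hx g⟩⟩
      exact Nat.card_pos
    rw [h g] at h1
    obtain ⟨⟨y, hy⟩⟩ := (Nat.card_pos_iff.1 h1).1
    exact ⟨y, hy⟩
  obtain ⟨y₁, -⟩ := hfix 1
  -- the orbits on `X'` have at least two elements
  have horb : ∀ y : X', 2 ≤ Nat.card (orbit G y) := fun y => by
    obtain ⟨g, hg⟩ := hno y
    exact two_le_card_orbit hg
  have hle : Nat.card (Quotient (orbitRel G X')) ≤ 2 := by
    have := Fintype.ofFinite (Quotient (orbitRel G X'))
    have h1 : Nat.card X' = ∑ ω : Quotient (orbitRel G X'), Nat.card (orbit G ω.out) := by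
      rw [Nat.card_congr (selfEquivSigmaOrbits G X'), Nat.card_sigma]
    have h2 : ∑ _ω : Quotient (orbitRel G X'), 2 ≤
        ∑ ω : Quotient (orbitRel G X'), Nat.card (orbit G ω.out) :=
      Finset.sum_le_sum fun ω _ => horb _
    rw [← h1, Finset.sum_const, smul_eq_mul, Finset.card_univ, ← Nat.card_eq_fintype_card] at h2
    omega
  have hpos : 0 < Nat.card (Quotient (orbitRel G X')) := by
    have : Nonempty (Quotient (orbitRel G X')) := ⟨Quotient.mk _ y₁⟩
    exact Nat.card_pos
  rcases (by omega : Nat.card (Quotient (orbitRel G X')) = 1 ∨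
    Nat.card (Quotient (orbitRel G X')) = 2) with h1 | h1
  · -- one orbit: Jordan
    have hsub : Subsingleton (Quotient (orbitRel G X')) := (Nat.card_eq_one_iff_unique.1 h1).1
    have htr : IsPretransitive G X' := (pretransitive_iff_subsingleton_quotient G X').2 hsub
    have h2 : 2 ≤ Nat.card X' := (horb y₁).trans (Nat.card_le_card_of_injective _
      Subtype.val_injective)
    have h3 := Frob.card_le_fixedPointFree (G := G) (X := X') h2
    have h4 : Nat.card {g : G // ∀ y : X', g • y ≠ y} = 0 := by
      rw [Nat.card_eq_zero]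
      refine Or.inl ⟨fun g => ?_⟩
      obtain ⟨y, hy⟩ := hfix g.1
      exact g.2 y hy
    rw [h4, mul_zero] at h3
    exact absurd h3 (not_le.2 Nat.card_pos)
  · -- two orbits
    have h2 : Nat.card (Quotient (orbitRel G X)) = 2 := (card_orbits_eq h).trans h1
    obtain ⟨x₂, hx₂, hx₂'⟩ := exists_second h2 x
    obtain ⟨y₂, hy₂, hy₂'⟩ := exists_second h1 y₁
    have e1 := card_add_card hx₂ hx₂'
    have e2 := card_add_card hy₂ hy₂'
    have e3 : Nat.card (orbit G x) = 1 := by
      rw [Nat.card_eq_one_iff_unique]
      refine ⟨⟨?_⟩, ⟨⟨x, mem_orbit_self x⟩⟩⟩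
      rintro ⟨-, ⟨g, rfl⟩⟩ ⟨-, ⟨g', rfl⟩⟩
      apply Subtype.ext
      change g • x = g' • x
      rw [hx, hx]
    have e4 := card_orbit_dvd (G := G) x₂
    set φ : G →* Perm (orbit G y₁) × Perm (orbit G y₂) :=
      (toPermHom G (orbit G y₁)).prod (toPermHom G (orbit G y₂)) with hφ
    have hφ1 : ∀ g : G, ∀ z : orbit G y₁, (((φ g).1 z : orbit G y₁) : X') = g • (z : X') :=
      fun g z => rfl
    have hφ2 : ∀ g : G, ∀ z : orbit G y₂, (((φ g).2 z : orbit G y₂) : X') = g • (z : X') :=
      fun g z => rfl
    have hinj : Function.Injective φ := by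
      rw [injective_iff_map_eq_one]
      intro g hg
      refine FaithfulSMul.eq_of_smul_eq_smul (α := X') fun z => ?_
      rw [one_smul]
      rcases hy₂' z with hz | hz
      · have := hφ1 g ⟨z, hz⟩
        rw [hg] at this
        exact this.symm
      · have := hφ2 g ⟨z, hz⟩
        rw [hg] at this
        exact this.symm
    have e5 : Nat.card G ∣ Nat.card (Perm (orbit G y₁) × Perm (orbit G y₂)) :=
      Subgroup.card_dvd_of_injective φ hinj
    have e6 : Nat.card (Perm (orbit G y₁) × Perm (orbit G y₂)) =
        (Nat.card (orbit G y₁)).factorial * (Nat.card (orbit G y₂)).factorial := by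
      rw [Nat.card_prod, Nat.card_perm, Nat.card_perm]
    have a1 := horb y₁
    have a2 := horb y₂
    have hG0 : Nat.card G ≠ 0 := Nat.card_pos.ne'
    -- `n = 5`: the image is the full group
    have hfull : Nat.card X = 5 → False := by
      intro h5
      have c1 : Nat.card (orbit G x₂) = 4 := by omega
      have c2 : Nat.card (Perm (orbit G y₁) × Perm (orbit G y₂)) = 12 ∧ 3 ∣ Nat.card G := by
        rcases (by omega : (Nat.card (orbit G y₁) = 2 ∧ Nat.card (orbit G y₂) = 3) ∨
          (Nat.card (orbit G y₁) = 3 ∧ Nat.card (orbit G y₂) = 2)) with ⟨b1, b2⟩ | ⟨b1, b2⟩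
        · refine ⟨by rw [e6, b1, b2]; rfl, ?_⟩
          rw [← b2]
          exact card_orbit_dvd y₂
        · refine ⟨by rw [e6, b1, b2]; rfl, ?_⟩
          rw [← b1]
          exact card_orbit_dvd y₁
      rw [c1] at e4
      have c3 : 12 ∣ Nat.card G :=
        Nat.Coprime.mul_dvd_of_dvd_of_dvd (by norm_num : Nat.Coprime 4 3) e4 c2.2
      have c4 : Function.Bijective φ := by
        refine hinj.bijective_of_nat_card_le ?_
        rw [c2.1]
        exact Nat.le_of_dvd (Nat.pos_of_ne_zero hG0) c3
      obtain ⟨σ₁, hσ₁⟩ := exists_derangement a1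
      obtain ⟨σ₂, hσ₂⟩ := exists_derangement a2
      obtain ⟨g, hg⟩ := c4.2 (σ₁, σ₂)
      obtain ⟨z, hz⟩ := hfix g
      rcases hy₂' z with hz' | hz'
      · refine hσ₁ ⟨z, hz'⟩ (Subtype.ext ?_)
        have := hφ1 g ⟨z, hz'⟩
        rw [hg] at this
        exact this.trans hz
      · refine hσ₂ ⟨z, hz'⟩ (Subtype.ext ?_)
        have := hφ2 g ⟨z, hz'⟩
        rw [hg] at this
        exact this.trans hz
    rcases (by omega : Nat.card X = 4 ∨ Nat.card X = 5) with h4 | h5
    · have b1 : Nat.card (orbit G y₁) = 2 := by omega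
      have b2 : Nat.card (orbit G y₂) = 2 := by omega
      have b3 : Nat.card (orbit G x₂) = 3 := by omega
      rw [b3] at e4
      rw [e6, b1, b2] at e5
      have : 3 ∣ 4 := e4.trans (by simpa using e5)
      omega
    · exact hfull h5

end Action

/-- **A group which fixes a point of `X` fixes a point of `X'`** if the actions have the same numbers
of fixed points and `X` has at most five elements. -/
theorem exists_fixed {Γ : Type*} [Group Γ] {X X' : Type*} [Finite X] [Finite X'] (a : Γ →* Perm X)
    (b : Γ →* Perm X') (h : ∀ g : Γ, Nat.card {x // a g x = x} = Nat.card {y // b g y = y})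
    (hn : Nat.card X ≤ 5) (x : X) (hx : ∀ g : Γ, a g x = x) : ∃ y : X', ∀ g : Γ, b g y = y := by
  classical
  set G : Subgroup (Perm X × Perm X') := (a.prod b).range with hG
  let _ : MulAction G X := MulAction.compHom X ((MonoidHom.fst (Perm X) (Perm X')).comp G.subtype)
  let _ : MulAction G X' := MulAction.compHom X' ((MonoidHom.snd (Perm X) (Perm X')).comp G.subtype)
  have s1 : ∀ (g : G) (z : X), g • z = (g : Perm X × Perm X').1 z := fun _ _ => rfl
  have s2 : ∀ (g : G) (z : X'), g • z = (g : Perm X × Perm X').2 z := fun _ _ => rfl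
  have hch : ∀ g : G, Nat.card (fixedBy X g) = Nat.card (fixedBy X' g) := by
    rintro ⟨-, ⟨γ, rfl⟩⟩
    exact h γ
  have hcard : Nat.card X = Nat.card X' := by
    have h1 := h 1
    simpa using h1
  have hfa : FaithfulSMul G X' := by
    refine ⟨fun {g₁ g₂} he => ?_⟩
    obtain ⟨γ, hγ⟩ := (g₁⁻¹ * g₂).2
    have h1 : b γ = 1 := by
      have h2 : (((g₁⁻¹ * g₂ : G) : Perm X × Perm X')).2 = 1 := by
        ext z
        change ((g₁ : Perm X × Perm X').2⁻¹ * (g₂ : Perm X × Perm X').2) z = z
        have h3 := he z
        rw [s2, s2] at h3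
        rw [Perm.mul_apply, ← h3]
        simp
      rw [← hγ] at h2
      exact h2
    have h4 : a γ = 1 := by
      have h5 := h γ
      rw [h1] at h5
      have h6 : Nat.card {y : X' // (1 : Perm X') y = y} = Nat.card X' := by simp
      rw [h6, ← hcard] at h5
      have h7 : ∀ z : X, a γ z = z := by
        have h8 : {z : X | a γ z = z} = Set.univ := by
          refine Set.eq_of_subset_of_ncard_le (Set.subset_univ _) ?_
          rw [Set.ncard_univ, ← h5]
          exact (Nat.card_coe_set_eq {z : X | a γ z = z}).le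
        intro z
        exact (Set.ext_iff.1 h8 z).2 trivial
      ext z
      exact h7 z
    have h9 : g₁⁻¹ * g₂ = 1 := by
      apply Subtype.ext
      rw [← hγ]
      exact Prod.ext h4 h1
    exact (inv_mul_eq_one.1 h9)
  obtain ⟨y, hy⟩ := exists_fixed_aux (G := G) hch hn x (by
    rintro ⟨-, ⟨γ, rfl⟩⟩
    exact hx γ)
  exact ⟨y, fun γ => hy ⟨_, ⟨γ, rfl⟩⟩⟩

end Fermat.Agent.Cor.AE
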