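import Fermat.Agent.Corollaries.ZetaK.Gassmann
import Fermat.Agent.Corollaries.ZetaK.ArithEquivType
import Fermat.Agent.Corollaries.ZetaK.GassGroup

/-!
# Gassmann's criterion for the Dedekind zeta function

Two number fields `K` and `K'` have the same Dedekind zeta function if and only if every
`σ ∈ Gal(ℚ̄/ℚ)` fixes as many embeddings of `K` in `ℚ̄` as of `K'` (`dedekindZeta_eq_iff_arithEquiv`).
In this case `K` and `K'` have the same normal closure (`conjField_eq_of_dedekindZeta_eq`) and the same
number of roots of unity, hence the same product of class number and regulator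
(`classNumber_mul_regulator_eq`), and they are isomorphic if one of them is Galois over `ℚ`
(`nonempty_ringEquiv_of_isGalois`) or of degree at most five (`nonempty_ringEquiv_of_finrank_le`).
-/

set_option autoImplicit false
set_option linter.unusedSectionVars false

noncomputable section

open NumberField NumberField.InfinitePlace NumberField.Units IsDedekindDomain
open Fermat.Agent.Classic.Disc

namespace Fermat.Agent.Cor.AE

universe u v

local notation "Qbar" => AlgebraicClosure ℚ

variable {K : Type u} [Field K] [NumberField K] {K' : Type v} [Field K'] [NumberField K']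

/-- **Gassmann's criterion**: `ζ_K = ζ_K'` if and only if the permutation characters of
`Gal(ℚ̄/ℚ)` on the embeddings of `K` and of `K'` are equal. -/
theorem dedekindZeta_eq_iff_arithEquiv : dedekindZeta K = dedekindZeta K' ↔ Frob.ArithEquiv K K' := by
  classical
  constructor
  · intro h
    rw [Frob.arithEquiv_iff_degOne]
    refine Set.Finite.subset Set.finite_empty fun p hp => hp.2 ?_
    exact card_degree_one_eq h hp.1
  · intro h
    have hfin := Frob.arithEquiv_iff_decType.1 h
    refine dedekindZeta_eq_of_decType (N := ∏ p ∈ hfin.toFinset, p) ?_ fun p hp hpN => ?_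
    · refine Finset.prod_ne_zero_iff.2 fun p hp => ?_
      rw [Set.Finite.mem_toFinset] at hp
      exact hp.1.ne_zero
    · by_contra hne
      refine hpN (Finset.dvd_prod_of_mem (fun p => p) ?_)
      rw [Set.Finite.mem_toFinset]
      exact ⟨hp, hne⟩

/-- fields with the same Dedekind zeta function have the same normal closure -/
theorem conjField_eq_of_dedekindZeta_eq (h : dedekindZeta K = dedekindZeta K') :
    Frob.conjField K = Frob.conjField K' :=
  (dedekindZeta_eq_iff_arithEquiv.1 h).conjField_eq

/-- a field which is Galois over `ℚ` is determined by its Dedekind zeta function -/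
theorem nonempty_ringEquiv_of_isGalois [IsGalois ℚ K] (h : dedekindZeta K = dedekindZeta K') :
    Nonempty (K ≃+* K') :=
  (dedekindZeta_eq_iff_arithEquiv.1 h).nonempty_ringEquiv

/-! ### Roots of unity -/

theorem exists_fixed_emb (h : Frob.ArithEquiv K K') {σ : Qbar ≃ₐ[ℚ] Qbar} {j : K →+* Qbar}
    (hj : ∀ x, σ (j x) = j x) : ∃ j' : K' →+* Qbar, ∀ x, σ (j' x) = j' x := by
  have h1 : 0 < Frob.fixCard K σ := by
    have : Nonempty {j : K →+* Qbar // Frob.embPerm K σ j = j} := ⟨⟨j, RingHom.ext hj⟩⟩
    exact Nat.card_pos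
  rw [h σ] at h1
  obtain ⟨⟨j', hj'⟩⟩ := (Nat.card_pos_iff.1 h1).1
  exact ⟨j', fun x => RingHom.congr_fun hj' x⟩

/-- arithmetically equivalent fields contain the same roots of unity -/
theorem exists_primitiveRoot (h : Frob.ArithEquiv K K') {m : ℕ} [NeZero m] {ζ : K}
    (hζ : IsPrimitiveRoot ζ m) : ∃ ζ' : K', IsPrimitiveRoot ζ' m := by
  let j' : K' →ₐ[ℚ] Qbar := IsAlgClosed.lift
  let j₀ : K →ₐ[ℚ] Qbar := IsAlgClosed.lift
  have hω : IsPrimitiveRoot (j₀ ζ) m := hζ.map_of_injective j₀.injective
  have hmem : j₀ ζ ∈ j'.fieldRange := by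
    rw [← InfiniteGalois.fixedField_fixingSubgroup j'.fieldRange,
      IntermediateField.mem_fixedField_iff]
    intro σ hσ
    rw [IntermediateField.mem_fixingSubgroup_iff] at hσ
    obtain ⟨j, hj⟩ := exists_fixed_emb h.symm (σ := σ) (j := (j' : K' →+* Qbar))
      fun x => hσ _ ⟨x, rfl⟩
    have hζj : IsPrimitiveRoot (j ζ) m := hζ.map_of_injective j.injective
    obtain ⟨i, -, hi⟩ := hζj.eq_pow_of_pow_eq_one hω.pow_eq_one
    rw [← hi, map_pow, hj]
  obtain ⟨ζ', hζ'⟩ := hmem
  refine ⟨ζ', IsPrimitiveRoot.of_map_of_injective (f := j') ?_ j'.injective⟩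
  rw [show j' ζ' = j₀ ζ from hζ']
  exact hω

theorem exists_primitiveRoot_torsionOrder (F : Type*) [Field F] [NumberField F] :
    ∃ ζ : F, IsPrimitiveRoot ζ (torsionOrder F) := by
  obtain ⟨g, hg⟩ := IsCyclic.exists_ofOrder_eq_natCard (α := torsion F)
  refine ⟨((g : (𝓞 F)ˣ) : F), ?_⟩
  have h1 : orderOf g = torsionOrder F := hg
  have h2 : orderOf (((g : (𝓞 F)ˣ) : F)) = torsionOrder F := by
    rw [← h1, ← Subgroup.orderOf_coe]
    exact orderOf_injective ((algebraMap (𝓞 F) F).toMonoidHom.comp (_root_.Units.coeHom (𝓞 F)))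
      (coe_injective F) (g : (𝓞 F)ˣ)
  rw [← h2]
  exact IsPrimitiveRoot.orderOf _

theorem torsionOrder_dvd (h : Frob.ArithEquiv K K') : torsionOrder K ∣ torsionOrder K' := by
  obtain ⟨ζ, hζ⟩ := exists_primitiveRoot_torsionOrder K
  obtain ⟨ζ', hζ'⟩ := exists_primitiveRoot h hζ
  exact dvd_torsionOrder_of_isPrimitiveRoot hζ'

/-- fields with the same Dedekind zeta function have the same number of roots of unity -/
theorem torsionOrder_eq_of_dedekindZeta_eq (h : dedekindZeta K = dedekindZeta K') :
    torsionOrder K = torsionOrder K' :=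
  have h' := dedekindZeta_eq_iff_arithEquiv.1 h
  Nat.dvd_antisymm (torsionOrder_dvd h') (torsionOrder_dvd h'.symm)

/-- **Fields with the same Dedekind zeta function have the same product of class number and
regulator.** -/
theorem classNumber_mul_regulator_eq (h : dedekindZeta K = dedekindZeta K') :
    (classNumber K : ℝ) * regulator K = classNumber K' * regulator K' := by
  have h1 := (invariants_of_dedekindZeta_eq h).2.2.2.2
  rw [torsionOrder_eq_of_dedekindZeta_eq h] at h1
  exact (div_left_inj' (Nat.cast_ne_zero.2 (torsionOrder_ne_zero K'))).1 h1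

/-! ### Fields of small degree -/

/-- Let `K` and `K'` be arithmetically equivalent of degree at most five. Then `K'` embeds in `K`. -/
theorem exists_ringHom_of_finrank_le (h : Frob.ArithEquiv K K') (hn : Module.finrank ℚ K ≤ 5) :
    Nonempty (K' →+* K) := by
  obtain ⟨j⟩ := Frob.nonempty_emb K
  set S : Subgroup (Qbar ≃ₐ[ℚ] Qbar) :=
    (MulAction.stabilizer (Equiv.Perm (K →+* Qbar)) j).comap (Frob.embPerm K) with hS
  have hmem : ∀ σ : Qbar ≃ₐ[ℚ] Qbar, σ ∈ S ↔ Frob.embPerm K σ j = j := fun σ => Iff.rfl
  obtain ⟨i, hi⟩ := exists_fixed ((Frob.embPerm K).comp S.subtype)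
    ((Frob.embPerm K').comp S.subtype) (fun σ => h σ) (by rw [Frob.natCard_emb]; exact hn) j
    (fun σ => (hmem _).1 σ.2)
  obtain ⟨f, -⟩ := Frob.exists_ringHom_of_fix (j := j) (i := i) fun σ hσ x =>
    RingHom.congr_fun (hi ⟨σ, (hmem σ).2 (RingHom.ext hσ)⟩) x
  exact ⟨f⟩

/-- **Number fields of degree at most five with the same Dedekind zeta function are isomorphic.** -/
theorem nonempty_ringEquiv_of_finrank_le (hn : Module.finrank ℚ K ≤ 5)
    (h : dedekindZeta K = dedekindZeta K') : Nonempty (K ≃+* K') := by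
  have h' := dedekindZeta_eq_iff_arithEquiv.1 h
  obtain ⟨f⟩ := exists_ringHom_of_finrank_le h' hn
  have h2 := h'.finrank_eq
  have h3 : Function.Surjective f.toRatAlgHom.toLinearMap :=
    (LinearMap.injective_iff_surjective_of_finrank_eq_finrank
      (f := f.toRatAlgHom.toLinearMap) h2.symm).mp f.injective
  exact ⟨(RingEquiv.ofBijective f ⟨f.injective, h3⟩).symm⟩

end Fermat.Agent.Cor.AE

end
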