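import Fermat.Agent.Corollaries.ZetaK.GassGroup

/-!
# Transitive groups of degree six with the same permutation character

`exists_stabilizer_le` : a finite group `G` acts transitively on `X` and on `X'`, every element has the
same number of fixed points on `X` and on `X'`, and `X` has six elements. Then the stabilizer of a
point of `X` is contained in the stabilizer of a point of `X'`.
-/

set_option autoImplicit false
set_option linter.unusedSectionVars false

namespace Fermat.Agent.Cor.AE

open MulAction Equiv

section Three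

variable {G : Type*} [Group G] [Finite G] {X : Type*} [Finite X] [MulAction G X]

theorem card_orbit_out (y : X) :
    Nat.card (orbit G (Quotient.mk (orbitRel G X) y).out) = Nat.card (orbit G y) := by
  have h : (Quotient.mk (orbitRel G X) y).out ∈ orbit G y := Quotient.mk_out (s := orbitRel G X) y
  rw [orbit_eq_iff.2 h]

theorem card_eq_sum [Fintype (Quotient (orbitRel G X))] :
    Nat.card X = ∑ ω : Quotient (orbitRel G X), Nat.card (orbit G ω.out) := by
  rw [Nat.card_congr (selfEquivSigmaOrbits G X), Nat.card_sigma]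

theorem exists_three (h : Nat.card (Quotient (orbitRel G X)) = 3) (x : X) :
    ∃ y z : X, (∀ w, w ∈ orbit G x ∨ w ∈ orbit G y ∨ w ∈ orbit G z) ∧ y ∉ orbit G x ∧
      z ∉ orbit G x ∧
      Nat.card (orbit G x) + Nat.card (orbit G y) + Nat.card (orbit G z) = Nat.card X := by
  classical
  have := Fintype.ofFinite (Quotient (orbitRel G X))
  set q : Quotient (orbitRel G X) := Quotient.mk _ x with hq
  have h1 : ((Finset.univ : Finset (Quotient (orbitRel G X))).erase q).card = 2 := by
    rw [Finset.card_erase_of_mem (Finset.mem_univ _), Finset.card_univ, ← Nat.card_eq_fintype_card,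
      h]
  obtain ⟨a, b, hab, hs⟩ := Finset.card_eq_two.1 h1
  have ha : a ≠ q := Finset.ne_of_mem_erase (s := Finset.univ) (by rw [hs]; simp)
  have hb : b ≠ q := Finset.ne_of_mem_erase (s := Finset.univ) (by rw [hs]; simp)
  have hall : ∀ ω : Quotient (orbitRel G X), ω = q ∨ ω = a ∨ ω = b := by
    intro ω
    by_cases hω : ω = q
    · exact Or.inl hω
    · have : ω ∈ (Finset.univ : Finset (Quotient (orbitRel G X))).erase q :=
        Finset.mem_erase.2 ⟨hω, Finset.mem_univ _⟩
      rw [hs, Finset.mem_insert, Finset.mem_singleton] at this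
      exact Or.inr this
  have hsum := card_eq_sum (G := G) (X := X)
  rw [← Finset.add_sum_erase _ _ (Finset.mem_univ q), hs, Finset.sum_pair hab] at hsum
  induction a using Quotient.inductionOn with
  | h y =>
    induction b using Quotient.inductionOn with
    | h z =>
      rw [hq, card_orbit_out, card_orbit_out, card_orbit_out] at hsum
      refine ⟨y, z, fun w => ?_, fun hy => ha (Quotient.sound hy), fun hz => hb (Quotient.sound hz),
        ?_⟩
      · rcases hall (Quotient.mk _ w) with hw | hw | hw
        · exact Or.inl (Quotient.exact hw)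
        · exact Or.inr (Or.inl (Quotient.exact hw))
        · exact Or.inr (Or.inr (Quotient.exact hw))
      · omega

theorem fixed_of_card_orbit {y : X} (h : Nat.card (orbit G y) = 1) (g : G) : g • y = y := by
  have h1 := (Nat.card_eq_one_iff_unique.1 h).1
  have h2 := h1.elim ⟨g • y, mem_orbit y g⟩ ⟨y, mem_orbit_self y⟩
  exact congrArg Subtype.val h2

theorem card_orbit_of_fixed {y : X} (h : ∀ g : G, g • y = y) : Nat.card (orbit G y) = 1 := by
  rw [Nat.card_eq_one_iff_unique]
  refine ⟨⟨?_⟩, ⟨⟨y, mem_orbit_self y⟩⟩⟩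
  rintro ⟨-, ⟨g, rfl⟩⟩ ⟨-, ⟨g', rfl⟩⟩
  apply Subtype.ext
  change g • y = g' • y
  rw [h, h]

/-- a group of order dividing `8` with three orbits on six points, one of which is a point: there is
a second fixed point, and the other four points are an orbit -/
theorem exists_second_fixed (h : Nat.card (Quotient (orbitRel G X)) = 3) (hX : Nat.card X = 6)
    (hG : Nat.card G ∣ 8) {x : X} (hx : ∀ g : G, g • x = x) :
    ∃ y z : X, y ≠ x ∧ (∀ g : G, g • y = y) ∧ Nat.card (orbit G z) = 4 ∧
      ∀ w, w = x ∨ w = y ∨ w ∈ orbit G z := by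
  obtain ⟨y, z, hall, hy, hz, hsum⟩ := exists_three h x
  rw [card_orbit_of_fixed hx, hX] at hsum
  have ay := (card_orbit_dvd (G := G) y).trans hG
  have az := (card_orbit_dvd (G := G) z).trans hG
  have hne : ∀ {w : X}, w ∉ orbit G x → w ≠ x := by
    rintro w hw rfl
    exact hw (mem_orbit_self _)
  have hxo : ∀ {w : X}, w ∈ orbit G x → w = x := by
    rintro w ⟨g, rfl⟩
    exact hx g
  have hfo : ∀ {u w : X}, (∀ g : G, g • u = u) → w ∈ orbit G u → w = u := by
    rintro u w hu ⟨g, rfl⟩
    exact hu g
  have hcases : (Nat.card (orbit G y) = 1 ∧ Nat.card (orbit G z) = 4) ∨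
      (Nat.card (orbit G y) = 4 ∧ Nat.card (orbit G z) = 1) := by
    have h1 : Nat.card (orbit G y) ≤ 5 := by omega
    have h2 : Nat.card (orbit G z) = 5 - Nat.card (orbit G y) := by omega
    rw [h2] at az
    generalize Nat.card (orbit G y) = m at *
    interval_cases m <;> simp_all
  rcases hcases with ⟨c1, c2⟩ | ⟨c1, c2⟩
  · have hf := fixed_of_card_orbit c1
    refine ⟨y, z, hne hy, hf, c2, fun w => ?_⟩
    rcases hall w with hw | hw | hw
    · exact Or.inl (hxo hw)
    · exact Or.inr (Or.inl (hfo hf hw))
    · exact Or.inr (Or.inr hw)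
  · have hf := fixed_of_card_orbit c2
    refine ⟨z, y, hne hz, hf, c1, fun w => ?_⟩
    rcases hall w with hw | hw | hw
    · exact Or.inl (hxo hw)
    · exact Or.inr (Or.inr hw)
    · exact Or.inr (Or.inl (hfo hf hw))

end Three

theorem perm_comm {A : Type*} [Finite A] (h : Nat.card A = 2) (σ τ : Perm A) : σ * τ = τ * σ := by
  have h1 : Nat.card (Perm A) = 2 := by rw [Nat.card_perm, h]; rfl
  have : Fact (Nat.Prime 2) := ⟨Nat.prime_two⟩
  have h2 : IsCyclic (Perm A) := isCyclic_of_prime_card h1
  exact (IsCyclic.isMulCommutative (α := Perm A)).is_comm.comm σ τ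

/-! ### A group which fixes a point -/

section Fix

variable {G : Type*} [Group G] [Finite G] {X X' : Type*} [Finite X] [Finite X'] [MulAction G X]
  [MulAction G X']

/-- A group which acts on two sets with six elements with the same numbers of fixed points, which
fixes a point of `X` and no point of `X'`, has three orbits on `X'`, with two elements. -/
theorem three_orbits [FaithfulSMul G X']
    (h : ∀ g : G, Nat.card (fixedBy X g) = Nat.card (fixedBy X' g)) (hn : Nat.card X = 6) {x : X}
    (hx : ∀ g : G, g • x = x) (hno : ∀ y : X', ∃ g : G, g • y ≠ y) :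
    Nat.card (Quotient (orbitRel G X')) = 3 ∧ ∀ y : X', Nat.card (orbit G y) = 2 := by
  classical
  have hcard : Nat.card X = Nat.card X' := by
    have h1 := h 1
    rw [fixedBy_one_eq_univ, fixedBy_one_eq_univ] at h1
    simpa using h1
  have hfix : ∀ g : G, ∃ y : X', g • y = y := by
    intro g
    have h1 : 0 < Nat.card (fixedBy X g) := by
      have : Nonempty (fixedBy X g) := ⟨⟨x, hx g⟩⟩
      exact Nat.card_pos
    rw [h g] at h1
    obtain ⟨⟨y, hy⟩⟩ := (Nat.card_pos_iff.1 h1).1
    exact ⟨y, hy⟩
  obtain ⟨y₁, -⟩ := hfix 1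
  have horb : ∀ y : X', 2 ≤ Nat.card (orbit G y) := fun y => by
    obtain ⟨g, hg⟩ := hno y
    exact two_le_card_orbit hg
  have := Fintype.ofFinite (Quotient (orbitRel G X'))
  have hs := card_eq_sum (G := G) (X := X')
  have h2 : ∑ _ω : Quotient (orbitRel G X'), 2 ≤
      ∑ ω : Quotient (orbitRel G X'), Nat.card (orbit G ω.out) :=
    Finset.sum_le_sum fun ω _ => horb _
  rw [← hs, Finset.sum_const, smul_eq_mul, Finset.card_univ, ← Nat.card_eq_fintype_card] at h2
  have hpos : 0 < Nat.card (Quotient (orbitRel G X')) := by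
    have : Nonempty (Quotient (orbitRel G X')) := ⟨Quotient.mk _ y₁⟩
    exact Nat.card_pos
  have hG0 : Nat.card G ≠ 0 := Nat.card_pos.ne'
  rcases (by omega : Nat.card (Quotient (orbitRel G X')) = 1 ∨
    Nat.card (Quotient (orbitRel G X')) = 2 ∨ Nat.card (Quotient (orbitRel G X')) = 3) with
      h1 | h1 | h1
  · -- one orbit: Jordan
    exfalso
    have hsub : Subsingleton (Quotient (orbitRel G X')) := (Nat.card_eq_one_iff_unique.1 h1).1
    have htr : IsPretransitive G X' := (pretransitive_iff_subsingleton_quotient G X').2 hsub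
    have h3 := Frob.card_le_fixedPointFree (G := G) (X := X') (by omega)
    have h4 : Nat.card {g : G // ∀ y : X', g • y ≠ y} = 0 := by
      rw [Nat.card_eq_zero]
      refine Or.inl ⟨fun g => ?_⟩
      obtain ⟨y, hy⟩ := hfix g.1
      exact g.2 y hy
    rw [h4, mul_zero] at h3
    exact absurd h3 (not_le.2 Nat.card_pos)
  · -- two orbits: the order
    exfalso
    have h3 : Nat.card (Quotient (orbitRel G X)) = 2 := (card_orbits_eq h).trans h1
    obtain ⟨x₂, hx₂, hx₂'⟩ := exists_second h3 x
    obtain ⟨y₂, hy₂, hy₂'⟩ := exists_second h1 y₁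
    have e1 := card_add_card hx₂ hx₂'
    have e2 := card_add_card hy₂ hy₂'
    have e3 := card_orbit_of_fixed hx
    have e4 := card_orbit_dvd (G := G) x₂
    set φ : G →* Perm (orbit G y₁) × Perm (orbit G y₂) :=
      (toPermHom G (orbit G y₁)).prod (toPermHom G (orbit G y₂)) with hφ
    have hφ1 : ∀ g : G, ∀ z : orbit G y₁, (((φ g).1 z : orbit G y₁) : X') = g • (z : X') :=
      fun g z => rfl
    have hφ2 : ∀ g : G, ∀ z : orbit G y₂, (((φ g).2 z : orbit G y₂) : X') = g • (z : X') :=
      fun g z => rfl
    have hinj : Function.Injective φ := by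
      rw [injective_iff_map_eq_one]
      intro g hg
      refine FaithfulSMul.eq_of_smul_eq_smul (α := X') fun z => ?_
      rw [one_smul]
      rcases hy₂' z with hz | hz
      · have := hφ1 g ⟨z, hz⟩
        rw [hg] at this
        exact this.symm
      · have := hφ2 g ⟨z, hz⟩
        rw [hg] at this
        exact this.symm
    have e5 : Nat.card G ∣ Nat.card (Perm (orbit G y₁) × Perm (orbit G y₂)) :=
      Subgroup.card_dvd_of_injective φ hinj
    rw [Nat.card_prod, Nat.card_perm, Nat.card_perm] at e5
    have a1 := horb y₁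
    have a2 := horb y₂
    have c1 : Nat.card (orbit G x₂) = 5 := by omega
    rw [c1] at e4
    have e6 := e4.trans e5
    have c2 : Nat.card (orbit G y₁) ≤ 4 := by omega
    have c3 : Nat.card (orbit G y₂) = 6 - Nat.card (orbit G y₁) := by omega
    rw [c3] at e6
    generalize Nat.card (orbit G y₁) = m at *
    interval_cases m
    · exact absurd e6 (by decide)
    · exact absurd e6 (by decide)
    · exact absurd e6 (by decide)
  · refine ⟨h1, fun y => ?_⟩
    have h3 : ∀ ω : Quotient (orbitRel G X'), Nat.card (orbit G ω.out) = 2 := by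
      by_contra hne
      push Not at hne
      obtain ⟨ω, hω⟩ := hne
      have h4 : ∑ _ω : Quotient (orbitRel G X'), 2 <
          ∑ ω : Quotient (orbitRel G X'), Nat.card (orbit G ω.out) :=
        Finset.sum_lt_sum (fun ω _ => horb _)
          ⟨ω, Finset.mem_univ _, lt_of_le_of_ne (horb _) (Ne.symm hω)⟩
      rw [← hs, Finset.sum_const, smul_eq_mul, Finset.card_univ, ← Nat.card_eq_fintype_card, h1,
        ← hcard, hn] at h4
      omega
    rw [← card_orbit_out]
    exact h3 _

/-- such a group has order four, is commutative, and its non-trivial elements have exactly two fixed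
points -/
theorem card_eq_four [FaithfulSMul G X] [FaithfulSMul G X']
    (h : ∀ g : G, Nat.card (fixedBy X g) = Nat.card (fixedBy X' g)) (hn : Nat.card X = 6) {x : X}
    (hx : ∀ g : G, g • x = x) (hno : ∀ y : X', ∃ g : G, g • y ≠ y) :
    Nat.card G = 4 ∧ (∀ g k : G, g * k = k * g) ∧ (∀ g : G, g ≠ 1 → Nat.card (fixedBy X g) = 2) ∧
      ∀ y : X', Nat.card (orbit G y) = 2 := by
  classical
  obtain ⟨h3, h2⟩ := three_orbits h hn hx hno
  have hcard : Nat.card X = Nat.card X' := by
    have h1 := h 1
    rw [fixedBy_one_eq_univ, fixedBy_one_eq_univ] at h1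
    simpa using h1
  have hcomm : ∀ g k : G, g * k = k * g := by
    intro g k
    refine FaithfulSMul.eq_of_smul_eq_smul (α := X') fun y => ?_
    have h4 := perm_comm (h2 y) (toPermHom G (orbit G y) g) (toPermHom G (orbit G y) k)
    have h5 := congrArg Subtype.val (DFunLike.congr_fun h4 ⟨y, mem_orbit_self y⟩)
    rw [mul_smul, mul_smul]
    exact h5
  have h8 : Nat.card G ∣ 8 := by
    have hne : Nonempty X' := by
      rw [← Finite.card_pos_iff, ← hcard, hn]
      norm_num
    obtain ⟨y₁⟩ := hne
    obtain ⟨y₂, y₃, hall, -, -, -⟩ := exists_three h3 y₁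
    set φ : G →* Perm (orbit G y₁) × Perm (orbit G y₂) × Perm (orbit G y₃) :=
      (toPermHom G (orbit G y₁)).prod ((toPermHom G (orbit G y₂)).prod (toPermHom G (orbit G y₃)))
      with hφ
    have hφ1 : ∀ g : G, ∀ z : orbit G y₁, (((φ g).1 z : orbit G y₁) : X') = g • (z : X') :=
      fun g z => rfl
    have hφ2 : ∀ g : G, ∀ z : orbit G y₂, (((φ g).2.1 z : orbit G y₂) : X') = g • (z : X') :=
      fun g z => rfl
    have hφ3 : ∀ g : G, ∀ z : orbit G y₃, (((φ g).2.2 z : orbit G y₃) : X') = g • (z : X') :=
      fun g z => rfl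
    have hinj : Function.Injective φ := by
      rw [injective_iff_map_eq_one]
      intro g hg
      refine FaithfulSMul.eq_of_smul_eq_smul (α := X') fun z => ?_
      rw [one_smul]
      rcases hall z with hz | hz | hz
      · have := hφ1 g ⟨z, hz⟩
        rw [hg] at this
        exact this.symm
      · have := hφ2 g ⟨z, hz⟩
        rw [hg] at this
        exact this.symm
      · have := hφ3 g ⟨z, hz⟩
        rw [hg] at this
        exact this.symm
    have e5 := Subgroup.card_dvd_of_injective φ hinj
    rw [Nat.card_prod, Nat.card_prod, Nat.card_perm, Nat.card_perm, Nat.card_perm, h2, h2, h2] at e5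
    exact e5
  obtain ⟨y, z, hyx, hy, hz, hall⟩ :=
    exists_second_fixed ((card_orbits_eq h).trans h3) hn h8 hx
  have htriv : ∀ g : G, ∀ k : G, g • (k • z) = k • z → g = 1 := by
    intro g k hk
    have hgz : g • z = z := by
      rw [← mul_smul, hcomm, mul_smul] at hk
      exact smul_left_cancel k hk
    refine FaithfulSMul.eq_of_smul_eq_smul (α := X) fun w => ?_
    rw [one_smul]
    rcases hall w with rfl | rfl | ⟨k', rfl⟩
    · exact hx g
    · exact hy g
    · change g • (k' • z) = k' • z
      rw [← mul_smul, hcomm, mul_smul, hgz]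
  refine ⟨?_, hcomm, fun g hg => ?_, h2⟩
  · have h4 : stabilizer G z = ⊥ := by
      rw [eq_bot_iff]
      intro g hg
      rw [Subgroup.mem_bot]
      refine htriv g 1 ?_
      rw [one_smul]
      exact hg
    have h5 := index_stabilizer G z
    rw [h4, Subgroup.index_bot, ← Nat.card_coe_set_eq, hz] at h5
    exact h5
  · have h4 : fixedBy X g = {x, y} := by
      ext w
      rw [mem_fixedBy, Set.mem_insert_iff, Set.mem_singleton_iff]
      constructor
      · intro hw
        rcases hall w with h5 | h5 | ⟨k, rfl⟩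
        · exact Or.inl h5
        · exact Or.inr h5
        · exact absurd (htriv g k hw) hg
      · rintro (rfl | rfl)
        · exact hx g
        · exact hy g
    rw [h4, Nat.card_coe_set_eq, Set.ncard_pair hyx.symm]

end Fix

/-! ### The transitive group -/

section Transitive

variable {G : Type*} [Group G] [Finite G] {X X' : Type*} [Finite X] [Finite X'] [MulAction G X]
  [MulAction G X']

theorem card_fixedBy_conj (a g : G) :
    Nat.card (fixedBy X (a⁻¹ * g * a)) = Nat.card (fixedBy X g) := by
  refine Nat.card_congr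
    { toFun := fun z => ⟨a • (z : X), ?_⟩
      invFun := fun z => ⟨a⁻¹ • (z : X), ?_⟩
      left_inv := fun z => Subtype.ext (inv_smul_smul a (z : X))
      right_inv := fun z => Subtype.ext (smul_inv_smul a (z : X)) }
  · have hz : (a⁻¹ * g * a) • (z : X) = z := z.2
    rw [mem_fixedBy]
    calc g • a • (z : X) = a • ((a⁻¹ * g * a) • (z : X)) := by
          rw [← mul_smul, ← mul_smul]
          congr 1
          group
      _ = a • (z : X) := by rw [hz]
  · have hz : g • (z : X) = z := z.2
    rw [mem_fixedBy]
    calc (a⁻¹ * g * a) • a⁻¹ • (z : X) = a⁻¹ • g • (z : X) := by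
          rw [← mul_smul, ← mul_smul]
          congr 1
          group
      _ = a⁻¹ • (z : X) := by rw [hz]

theorem card_eq_mul (y : X) [IsPretransitive G X] :
    Nat.card G = Nat.card X * Nat.card (stabilizer G y) := by
  rw [← Subgroup.index_mul_card (stabilizer G y), index_stabilizer, orbit_eq_univ, Set.ncard_univ]

/-- **Transitive groups of degree six**: the stabilizer of a point of `X` fixes a point of `X'`. -/
theorem exists_stabilizer_le [FaithfulSMul G X] [FaithfulSMul G X'] [IsPretransitive G X]
    (h : ∀ g : G, Nat.card (fixedBy X g) = Nat.card (fixedBy X' g)) (hn : Nat.card X = 6) (x : X) :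
    ∃ y : X', stabilizer G x ≤ stabilizer G y := by
  classical
  by_contra hno
  push Not at hno
  have hcard : Nat.card X = Nat.card X' := by
    have h1 := h 1
    rw [fixedBy_one_eq_univ, fixedBy_one_eq_univ] at h1
    simpa using h1
  set H := stabilizer G x with hH
  obtain ⟨hH4, hcomm, hH2, horb⟩ := card_eq_four (G := H) (X := X) (X' := X') (fun g => h g) hn
    (x := x) (fun g => g.2) (fun y => by
      obtain ⟨g, hg, hgy⟩ := SetLike.not_le_iff_exists.1 (hno y)
      exact ⟨⟨g, hg⟩, hgy⟩)
  have hG : Nat.card G = 24 := by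
    rw [card_eq_mul x, hn, ← hH, hH4]
  -- the non-trivial elements with a fixed point have exactly two fixed points
  have hfix2 : ∀ g : G, g ≠ 1 → (∃ z : X, g • z = z) → Nat.card (fixedBy X g) = 2 := by
    rintro g hg ⟨z, hz⟩
    obtain ⟨a, rfl⟩ := exists_smul_eq G x z
    have h1 : a⁻¹ * g * a ∈ H := by
      change (a⁻¹ * g * a) • x = x
      rw [mul_smul, mul_smul, hz, inv_smul_smul]
    rw [← card_fixedBy_conj a g]
    refine hH2 ⟨a⁻¹ * g * a, h1⟩ fun h2 => hg ?_
    have h3 : a⁻¹ * g * a = 1 := congrArg Subtype.val h2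
    have h4 : g = a * (a⁻¹ * g * a) * a⁻¹ := by group
    rw [h4, h3]
    group
  have hfix2' : ∀ g : G, g ≠ 1 → ∀ y : X', g • y = y → Nat.card (fixedBy X' g) = 2 := by
    intro g hg y hy
    rw [← h g]
    refine hfix2 g hg ?_
    have h1 : 0 < Nat.card (fixedBy X' g) := by
      have : Nonempty (fixedBy X' g) := ⟨⟨y, hy⟩⟩
      exact Nat.card_pos
    rw [← h g] at h1
    obtain ⟨⟨z, hz⟩⟩ := (Nat.card_pos_iff.1 h1).1
    exact ⟨z, hz⟩
  -- `G` is transitive on `X'`
  have htr : IsPretransitive G X' := by
    have h1 : Nat.card (Quotient (orbitRel G X)) = 1 := by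
      rw [Nat.card_eq_one_iff_unique]
      exact ⟨(pretransitive_iff_subsingleton_quotient G X).1 inferInstance, ⟨Quotient.mk _ x⟩⟩
    rw [card_orbits_eq h, Nat.card_eq_one_iff_unique] at h1
    exact (pretransitive_iff_subsingleton_quotient G X').2 h1.1
  have hS4 : ∀ y : X', Nat.card (stabilizer G y) = 4 := by
    intro y
    have h1 := card_eq_mul (G := G) y
    rw [hG, ← hcard, hn] at h1
    omega
  -- the stabilizer of a point of `X'` has a second fixed point
  have hsecond : ∀ y : X', ∃ y₂ : X', y₂ ≠ y ∧ ∀ g ∈ stabilizer G y, g • y₂ = y₂ := by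
    intro y
    have h1 : Nat.card (Quotient (orbitRel (stabilizer G y) X')) = 3 := by
      have := Fintype.ofFinite X'
      have := Fintype.ofFinite (stabilizer G y)
      have h2 := sum_card_fixedBy_eq_card_orbits_mul_card_group (stabilizer G y) X'
      have h3 : ∀ g : stabilizer G y, Fintype.card (fixedBy X' g) = if g = 1 then 6 else 2 := by
        intro g
        rw [← Nat.card_eq_fintype_card]
        split_ifs with hg
        · rw [hg, fixedBy_one_eq_univ, Nat.card_coe_set_eq, Set.ncard_univ, ← hcard, hn]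
        · exact hfix2' g (fun h4 => hg (Subtype.ext h4)) y g.2
      rw [Finset.sum_congr rfl fun g _ => h3 g, Finset.sum_ite, Finset.sum_const, Finset.sum_const,
        Finset.filter_eq', if_pos (Finset.mem_univ _), Finset.card_singleton,
        Finset.filter_ne', Finset.card_erase_of_mem (Finset.mem_univ _), Finset.card_univ,
        ← Nat.card_eq_fintype_card, hS4, ← Nat.card_eq_fintype_card, smul_eq_mul, smul_eq_mul] at h2
      omega
    obtain ⟨y₂, -, hne, hf, -, -⟩ := exists_second_fixed h1 (by rw [← hcard, hn])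
      (by rw [hS4]; norm_num) (x := y) (fun g => g.2)
    exact ⟨y₂, hne, fun g hg => hf ⟨g, hg⟩⟩
  -- a common non-trivial element makes the stabilizers equal
  have hstar : ∀ g : G, g ≠ 1 → ∀ y z : X', g • y = y → g • z = z →
      stabilizer G z = stabilizer G y := by
    intro g hg y z hy hz
    obtain ⟨y₂, hne, hf⟩ := hsecond y
    have h1 : ({y, y₂} : Set X') = fixedBy X' g := by
      refine Set.eq_of_subset_of_ncard_le ?_ ?_
      · rintro w (rfl | rfl)
        · exact hy
        · exact hf g hy
      · rw [Set.ncard_pair hne.symm, ← Nat.card_coe_set_eq, hfix2' g hg y hy]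
    have h2 : z ∈ ({y, y₂} : Set X') := by
      rw [h1]
      exact hz
    rcases h2 with rfl | h2
    · rfl
    · rw [Set.mem_singleton_iff] at h2
      subst h2
      refine (Subgroup.eq_of_le_of_card_ge (fun k hk => hf k hk) ?_).symm
      rw [hS4, hS4]
  have hS1 : ∀ y : X', ∃ g : G, g ≠ 1 ∧ g • y = y := by
    intro y
    have h1 : 1 < Nat.card (stabilizer G y) := by
      rw [hS4]
      norm_num
    rw [Finite.one_lt_card_iff_nontrivial] at h1
    obtain ⟨g, hg⟩ := exists_ne (1 : stabilizer G y)
    exact ⟨g, fun h2 => hg (Subtype.ext h2), g.2⟩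
  -- the elements of `H` keep the stabilizers
  have hkeep : ∀ k ∈ H, ∀ y : X', stabilizer G (k • y) = stabilizer G y := by
    intro k hk y
    have h1 : 1 < Nat.card (stabilizer H y) := by
      have h2 := Subgroup.index_mul_card (stabilizer H y)
      rw [index_stabilizer, ← Nat.card_coe_set_eq, horb, hH4] at h2
      omega
    rw [Finite.one_lt_card_iff_nontrivial] at h1
    obtain ⟨⟨g, hg⟩, hg1⟩ := exists_ne (1 : stabilizer H y)
    have hgy : (g : G) • y = y := hg
    refine hstar (g : G) (fun h2 => hg1 (Subtype.ext (Subtype.ext h2))) y (k • y) hgy ?_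
    have h3 : (g : G) * k = k * (g : G) := congrArg Subtype.val (hcomm g ⟨k, hk⟩)
    rw [← mul_smul, h3, mul_smul, hgy]
  set T : Set G := {k | ∀ y : X', stabilizer G (k • y) = stabilizer G y} with hT
  have hconj : ∀ g : G, ∀ k ∈ H, g * k * g⁻¹ ∈ T := by
    intro g k hk y
    rw [mul_smul, mul_smul, stabilizer_smul_eq_stabilizer_map_conj, hkeep k hk,
      ← stabilizer_smul_eq_stabilizer_map_conj, smul_inv_smul]
  -- `T` has at most four elements
  have hT4 : T.ncard ≤ 4 := by
    have hne : Nonempty X' := by
      rw [← Finite.card_pos_iff, ← hcard, hn]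
      norm_num
    obtain ⟨y₁⟩ := hne
    obtain ⟨y₂, hy₂⟩ : ∃ y₂ : X', stabilizer G y₂ ≠ stabilizer G y₁ := by
      by_contra hall
      push Not at hall
      obtain ⟨g, hg, hg'⟩ := hS1 y₁
      refine hg (FaithfulSMul.eq_of_smul_eq_smul (α := X') fun z => ?_)
      rw [one_smul]
      have : g ∈ stabilizer G z := by
        rw [hall z]
        exact hg'
      exact this
    have hF : ∀ y : X', {z : X' | stabilizer G z = stabilizer G y}.ncard ≤ 2 := by
      intro y
      obtain ⟨g, hg, hg'⟩ := hS1 y
      have h1 : {z : X' | stabilizer G z = stabilizer G y} ⊆ fixedBy X' g := by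
        intro z hz
        have : g ∈ stabilizer G z := by
          rw [show stabilizer G z = stabilizer G y from hz]
          exact hg'
        exact this
      refine (Set.ncard_le_ncard h1).trans ?_
      rw [← Nat.card_coe_set_eq, hfix2' g hg y hg']
    have h1 : T.ncard ≤ ({z : X' | stabilizer G z = stabilizer G y₁} ×ˢ
        {z : X' | stabilizer G z = stabilizer G y₂}).ncard := by
      refine Set.ncard_le_ncard_of_injOn (fun k => (k • y₁, k • y₂)) (fun k hk => ⟨hk y₁, hk y₂⟩)
        fun k hk k' hk' he => ?_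
      have e1 : k • y₁ = k' • y₁ := congrArg Prod.fst he
      have e2 : k • y₂ = k' • y₂ := congrArg Prod.snd he
      by_contra hkk
      refine hy₂ (hstar (k'⁻¹ * k) (fun h3 => hkk (inv_mul_eq_one.1 h3).symm) y₁ y₂ ?_ ?_)
      · rw [mul_smul, e1, inv_smul_smul]
      · rw [mul_smul, e2, inv_smul_smul]
    rw [Set.ncard_prod] at h1
    exact h1.trans (Nat.mul_le_mul (hF y₁) (hF y₂))
  have hTH : (H : Set G) = T := by
    refine Set.eq_of_subset_of_ncard_le (fun k hk => hkeep k hk) ?_
    have h1 : (H : Set G).ncard = 4 := by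
      rw [← hH4]
      rfl
    rw [h1]
    exact hT4
  -- so `H` is trivial
  have hlt : 1 < Nat.card H := by
    rw [hH4]
    norm_num
  rw [Finite.one_lt_card_iff_nontrivial] at hlt
  obtain ⟨⟨k, hk⟩, hk1⟩ := exists_ne (1 : H)
  refine hk1 (Subtype.ext (FaithfulSMul.eq_of_smul_eq_smul (α := X) fun z => ?_))
  change k • z = (1 : G) • z
  rw [one_smul]
  obtain ⟨g, rfl⟩ := exists_smul_eq G x z
  have h1 : g⁻¹ * k * g⁻¹⁻¹ ∈ (H : Set G) := by
    rw [hTH]
    exact hconj g⁻¹ k hk
  rw [inv_inv] at h1
  have h2 : (g⁻¹ * k * g) • x = x := h1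
  rw [mul_smul, mul_smul, inv_smul_eq_iff] at h2
  exact h2

end Transitive

end Fermat.Agent.Cor.AE
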