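import Fermat.Agent.Corollaries.ZetaK.ArithEquivKD

/-!
# Two non-isomorphic number fields with the same Dedekind zeta function

The fields `ℚ(3^(1/8))` and `ℚ(48^(1/8))` have the same Dedekind zeta function (Perlis): `16` is an
eighth power modulo every odd prime `p`, so that `𝔽_p[X]/(X^8 - 3) ≅ 𝔽_p[X]/(X^8 - 48)`.
They are not isomorphic: otherwise `√2` would be in `ℚ(3^(1/8))`, and then the norm of `3^(1/8)`
to `ℚ(√2)` would be `± √3`.
-/

set_option autoImplicit false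

noncomputable section

open NumberField IsDedekindDomain Polynomial IntermediateField
open Fermat.Agent.FrobDensity

namespace Fermat.Agent.Cor.AE

/-! ### `16` is an eighth power modulo every odd prime -/

theorem isSquare_two_or {p : ℕ} [Fact p.Prime] (hp : p ≠ 2) :
    IsSquare (2 : ZMod p) ∨ IsSquare (-2 : ZMod p) ∨ IsSquare (-1 : ZMod p) := by
  have h2 : (-2 : ZMod p) ≠ 0 := by
    rw [neg_ne_zero]
    intro h
    have h' : ((2 : ℕ) : ZMod p) = 0 := by exact_mod_cast h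
    rw [ZMod.natCast_eq_zero_iff, Nat.prime_dvd_prime_iff_eq Fact.out Nat.prime_two] at h'
    exact hp h'
  by_contra h
  push Not at h
  obtain ⟨h1, h3, h4⟩ := h
  have a := quadraticChar_neg_one_iff_not_isSquare.2 h1
  have b := quadraticChar_neg_one_iff_not_isSquare.2 h4
  have c : quadraticChar (ZMod p) (-2) = 1 := by
    rw [show (-2 : ZMod p) = -1 * 2 by ring, map_mul, a, b]
    norm_num
  exact h3 ((quadraticChar_one_iff_isSquare h2).1 c)

theorem exists_pow_eight {p : ℕ} [Fact p.Prime] (hp : p ≠ 2) :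
    ∃ c : ZMod p, c ≠ 0 ∧ c ^ 8 = 16 := by
  have h16 : (16 : ZMod p) ≠ 0 := by
    intro h
    have h' : ((2 ^ 4 : ℕ) : ZMod p) = 0 := by
      push_cast
      rw [← h]
    rw [ZMod.natCast_eq_zero_iff] at h'
    exact hp ((Nat.prime_dvd_prime_iff_eq Fact.out Nat.prime_two).1
      ((Fact.out : p.Prime).dvd_of_dvd_pow h'))
  suffices h : ∃ c : ZMod p, c ^ 8 = 16 by
    obtain ⟨c, hc⟩ := h
    refine ⟨c, ?_, hc⟩
    rintro rfl
    rw [zero_pow (by norm_num)] at hc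
    exact h16 hc.symm
  rcases isSquare_two_or hp with ⟨b, hb⟩ | ⟨b, hb⟩ | ⟨b, hb⟩
  · refine ⟨b, ?_⟩
    calc b ^ 8 = (b * b) ^ 4 := by ring
      _ = 16 := by rw [← hb]; norm_num
  · refine ⟨b, ?_⟩
    calc b ^ 8 = (b * b) ^ 4 := by ring
      _ = 16 := by rw [← hb]; norm_num
  · refine ⟨1 + b, ?_⟩
    have h0 : 1 + b * b = 0 := by rw [← hb]; ring
    calc (1 + b) ^ 8 = (1 + b * b + 2 * b) ^ 4 := by ring
      _ = 16 * (b * b) ^ 2 := by rw [h0]; ring
      _ = 16 := by rw [← hb]; norm_num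

theorem exists_quot_equiv {p : ℕ} [Fact p.Prime] (hp : p ≠ 2) :
    Nonempty (((ZMod p)[X] ⧸ Ideal.span {(X ^ 8 - C 3 : (ZMod p)[X])}) ≃+*
      ((ZMod p)[X] ⧸ Ideal.span {(X ^ 8 - C 48 : (ZMod p)[X])})) := by
  obtain ⟨c, hc0, hc⟩ := exists_pow_eight hp
  have : Invertible c := invertibleOfNonzero hc0
  have h16 : (16 : ZMod p) ≠ 0 := by
    rw [← hc]
    exact pow_ne_zero _ hc0
  have hu : IsUnit (C (16 : ZMod p)) := isUnit_C.2 (isUnit_iff_ne_zero.2 h16)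
  refine ⟨(Ideal.quotientEquiv _ _ (algEquivCMulXAddC c 0).toRingEquiv ?_).symm⟩
  rw [Ideal.map_span, Set.image_singleton]
  have h1 : (algEquivCMulXAddC c 0) (X ^ 8 - C 48 : (ZMod p)[X]) = C 16 * (X ^ 8 - C 3) := by
    rw [algEquivCMulXAddC_apply]
    simp only [map_sub, map_pow, aeval_X, aeval_C, algebraMap_eq, C_0, add_zero, mul_pow]
    rw [← C_pow, hc, mul_sub, ← C_mul]
    norm_num
  change Ideal.span {(X ^ 8 - C 3 : (ZMod p)[X])} =
    Ideal.span {(algEquivCMulXAddC c 0) (X ^ 8 - C 48 : (ZMod p)[X])}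
  rw [h1, Ideal.span_singleton_eq_span_singleton]
  exact associated_unit_mul_right _ _ hu

/-! ### The fields -/

/-- Eisenstein polynomials `X^8 - a` -/
theorem irreducible_X_pow {a : ℕ} (h3 : 3 ∣ a) (h9 : ¬ 9 ∣ a) :
    Irreducible (X ^ 8 - C (a : ℤ) : ℤ[X]) := by
  have hm : (X ^ 8 - C (a : ℤ) : ℤ[X]).Monic := monic_X_pow_sub_C _ (by norm_num)
  have hd : (X ^ 8 - C (a : ℤ) : ℤ[X]).natDegree = 8 := natDegree_X_pow_sub_C
  have hP : (Ideal.span {(3 : ℤ)}).IsPrime := by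
    rw [Ideal.span_singleton_prime (by norm_num)]
    exact Int.prime_three
  refine IsEisensteinAt.irreducible (𝓟 := Ideal.span {(3 : ℤ)}) ⟨?_, ?_, ?_⟩ hP hm.isPrimitive
    (by rw [hd]; norm_num)
  · rw [hm.leadingCoeff]
    exact fun h => hP.ne_top ((Ideal.eq_top_iff_one _).2 h)
  · intro n hn
    rw [hd] at hn
    rw [coeff_sub, coeff_X_pow, if_neg hn.ne, zero_sub, neg_mem_iff, coeff_C]
    split_ifs
    · rw [Ideal.mem_span_singleton]
      exact_mod_cast h3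
    · exact Ideal.zero_mem _
  · rw [coeff_sub, coeff_X_pow, if_neg (by norm_num), zero_sub, neg_mem_iff, coeff_C_zero,
      Ideal.span_singleton_pow, Ideal.mem_span_singleton]
    intro h
    exact h9 (by exact_mod_cast h)

section Field

variable {r : ℝ} {a : ℕ} (hr : r ^ 8 = a)

include hr

theorem isIntegral_root : IsIntegral ℚ r :=
  ⟨X ^ 8 - C (a : ℚ), monic_X_pow_sub_C _ (by norm_num), by simp [hr]⟩

theorem gen_pow : (AdjoinSimple.gen ℚ r) ^ 8 = (a : ℚ⟮r⟯) := by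
  apply Subtype.ext
  push_cast
  rw [AdjoinSimple.coe_gen, hr]

theorem numberField_root : NumberField ℚ⟮r⟯ where
  to_charZero := inferInstance
  to_finiteDimensional := adjoin.finiteDimensional (isIntegral_root hr)

theorem isIntegral_gen : IsIntegral ℤ (AdjoinSimple.gen ℚ r) := by
  refine IsIntegral.of_pow (n := 8) (by norm_num) ?_
  rw [gen_pow hr]
  have h := isIntegral_algebraMap (R := ℤ) (A := ℚ⟮r⟯) (x := (a : ℤ))
  rwa [map_natCast] at h

/-- the root as an algebraic integer -/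
def rt : 𝓞 ℚ⟮r⟯ := ⟨AdjoinSimple.gen ℚ r, isIntegral_gen hr⟩

theorem coe_rt : ((rt hr : 𝓞 ℚ⟮r⟯) : ℚ⟮r⟯) = AdjoinSimple.gen ℚ r := rfl

theorem rt_pow : (rt hr) ^ 8 = (a : 𝓞 ℚ⟮r⟯) := by
  apply RingOfIntegers.ext
  push_cast
  exact gen_pow hr

theorem minpoly_rt (h3 : 3 ∣ a) (h9 : ¬ 9 ∣ a) :
    minpoly ℤ (rt hr) = X ^ 8 - C (a : ℤ) := by
  have hint : IsIntegral ℤ (rt hr) := RingOfIntegers.isIntegral _
  have h1 : minpoly ℤ (rt hr) ∣ X ^ 8 - C (a : ℤ) := by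
    refine minpoly.isIntegrallyClosed_dvd hint ?_
    simp [rt_pow hr]
  have h2 : Associated (minpoly ℤ (rt hr)) (X ^ 8 - C (a : ℤ)) :=
    ((irreducible_X_pow h3 h9).dvd_iff.1 h1).resolve_left (minpoly.not_isUnit _ _) |>.symm
  exact eq_of_monic_of_associated (minpoly.monic hint) (monic_X_pow_sub_C _ (by norm_num)) h2

theorem finrank_root (h3 : 3 ∣ a) (h9 : ¬ 9 ∣ a) : Module.finrank ℚ ℚ⟮r⟯ = 8 := by
  rw [adjoin.finrank (isIntegral_root hr)]
  have hm : (X ^ 8 - C (a : ℤ) : ℤ[X]).Monic := monic_X_pow_sub_C _ (by norm_num)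
  have h1 := (IsPrimitive.Int.irreducible_iff_irreducible_map_cast hm.isPrimitive).1
    (irreducible_X_pow h3 h9)
  have h2 : (X ^ 8 - C (a : ℤ) : ℤ[X]).map (Int.castRingHom ℚ) = X ^ 8 - C (a : ℚ) := by
    simp
  rw [h2] at h1
  rw [← minpoly.eq_of_irreducible_of_monic h1 (by simp [hr])
    (monic_X_pow_sub_C _ (by norm_num)), natDegree_X_pow_sub_C]

end Field

/-! ### `√2` is not in the first field -/

theorem rat_sq_ne {q : ℚ} {n : ℕ} (hn : ¬ IsSquare n) : q ^ 2 ≠ n := by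
  intro h
  refine hn (Rat.isSquare_natCast_iff.1 ⟨q, ?_⟩)
  rw [← h, sq]

theorem pow_eight_eq {x y : ℝ} (hy : 0 ≤ y) (h : x ^ 8 = y ^ 4) : x ^ 2 = y := by
  have h1 : (x ^ 2) ^ 4 = y ^ 4 := by rw [← h]; ring
  exact (pow_left_inj₀ (sq_nonneg x) hy (by norm_num)).1 h1

theorem sq_ne_two {r : ℝ} (hr : r ^ 8 = (3 : ℕ)) (t : ℚ⟮r⟯) : t ^ 2 ≠ 2 := by
  intro ht
  have : NumberField ℚ⟮r⟯ := numberField_root hr
  have hti : IsIntegral ℚ t := Algebra.IsIntegral.isIntegral t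
  -- the degree of `ℚ(t)`
  have hirr : Irreducible (X ^ 2 - C (2 : ℚ)) := by
    refine X_pow_sub_C_irreducible_of_prime Nat.prime_two fun b hb => ?_
    refine rat_sq_ne (q := b) (n := 2) ?_ (by exact_mod_cast hb)
    norm_num
  have hmp : X ^ 2 - C (2 : ℚ) = minpoly ℚ t :=
    minpoly.eq_of_irreducible_of_monic hirr (by simp [ht]) (monic_X_pow_sub_C _ (by norm_num))
  have hL : Module.finrank ℚ ℚ⟮t⟯ = 2 := by
    rw [adjoin.finrank hti, ← hmp, natDegree_X_pow_sub_C]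
  have hK : Module.finrank ℚ ℚ⟮r⟯ = 8 := finrank_root hr dvd_rfl (by norm_num)
  have hKL : Module.finrank ℚ⟮t⟯ ℚ⟮r⟯ = 4 := by
    have h := Module.finrank_mul_finrank ℚ ℚ⟮t⟯ ℚ⟮r⟯
    rw [hL, hK] at h
    omega
  -- the norm
  set c : ℚ⟮t⟯ := Algebra.norm ℚ⟮t⟯ (AdjoinSimple.gen ℚ r) with hc
  have hc8 : c ^ 8 = 81 := by
    rw [hc, ← map_pow, gen_pow hr]
    have h := Algebra.norm_algebraMap (R := ℚ⟮t⟯) (S := ℚ⟮r⟯) (3 : ℚ⟮t⟯)
    rw [hKL] at h
    have h' : algebraMap ℚ⟮t⟯ ℚ⟮r⟯ 3 = ((3 : ℕ) : ℚ⟮r⟯) := by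
      rw [map_ofNat]
      rfl
    rw [← h', h]
    norm_num
  have hcr : ((c : ℚ⟮r⟯) : ℝ) ^ 2 = 3 := by
    refine pow_eight_eq (by norm_num) ?_
    have h := congrArg (fun x : ℚ⟮t⟯ => ((x : ℚ⟮r⟯) : ℝ)) hc8
    simp only [SubmonoidClass.coe_pow] at h
    rw [h]
    norm_num
    rfl
  -- the element `c` is `u + w t`
  obtain ⟨u, w, hcuw⟩ : ∃ u w : ℚ, (c : ℚ⟮r⟯) = algebraMap ℚ _ w * t + algebraMap ℚ _ u := by
    have hmem : (c : ℚ⟮r⟯) ∈ ℚ⟮t⟯.toSubalgebra := c.2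
    rw [adjoin_simple_toSubalgebra_of_isAlgebraic hti.isAlgebraic,
      Algebra.adjoin_singleton_eq_range_aeval, AlgHom.mem_range] at hmem
    obtain ⟨f, hf⟩ := hmem
    have hroot : aeval t (X ^ 2 - C (2 : ℚ)) = 0 := by simp [ht]
    rw [← aeval_modByMonic_eq_self_of_root hroot] at hf
    have hdeg : (f %ₘ (X ^ 2 - C (2 : ℚ))).natDegree ≤ 1 := by
      have := natDegree_modByMonic_lt f (monic_X_pow_sub_C (2 : ℚ) (n := 2) (by norm_num))
        (by
          intro h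
          have := congrArg natDegree h
          rw [natDegree_X_pow_sub_C, natDegree_one] at this
          omega)
      rw [natDegree_X_pow_sub_C] at this
      omega
    obtain ⟨w, u, h⟩ := exists_eq_X_add_C_of_natDegree_le_one hdeg
    refine ⟨u, w, ?_⟩
    rw [← hf, h]
    simp
  have htr : ((t : ℚ⟮r⟯) : ℝ) ^ 2 = 2 := by
    have h := congrArg (fun x : ℚ⟮r⟯ => (x : ℝ)) ht
    simp only [SubmonoidClass.coe_pow] at h
    rw [h]
    rfl
  have hcr' : ((c : ℚ⟮r⟯) : ℝ) = (w : ℝ) * (t : ℝ) + (u : ℝ) := by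
    rw [hcuw]
    push_cast
    simp
  set T : ℝ := (t : ℝ) with hT
  have e1 : ((u ^ 2 + 2 * w ^ 2 - 3 : ℚ) : ℝ) + ((2 * u * w : ℚ) : ℝ) * T = 0 := by
    rw [hcr'] at hcr
    push_cast
    linear_combination hcr - (w : ℝ) ^ 2 * htr
  by_cases huw : 2 * u * w = 0
  · rw [huw, Rat.cast_zero, zero_mul, add_zero] at e1
    have e2 : u ^ 2 + 2 * w ^ 2 - 3 = 0 := by exact_mod_cast e1
    have huw' : u = 0 ∨ w = 0 := by
      rcases mul_eq_zero.1 huw with h | h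
      · left
        linarith
      · exact Or.inr h
    rcases huw' with h | h
    · rw [h] at e2
      refine rat_sq_ne (q := 2 * w) (n := 6) ?_ ?_
      · norm_num
      · push_cast
        linarith
    · rw [h] at e2
      refine rat_sq_ne (q := u) (n := 3) ?_ ?_
      · norm_num
      · push_cast
        linarith
  · have h1 : ((2 * u * w : ℚ) : ℝ) ≠ 0 := by exact_mod_cast huw
    have h2 : T = (((-(u ^ 2 + 2 * w ^ 2 - 3) / (2 * u * w) : ℚ)) : ℝ) := by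
      rw [Rat.cast_div, eq_div_iff h1]
      push_cast at e1 ⊢
      linarith
    rw [h2] at htr
    refine rat_sq_ne (q := -(u ^ 2 + 2 * w ^ 2 - 3) / (2 * u * w)) (n := 2) ?_
      (by exact_mod_cast htr)
    norm_num

/-! ### The theorem -/

theorem exists_root (a : ℕ) : ∃ r : ℝ, 0 ≤ r ∧ r ^ 8 = a := by
  refine ⟨(a : ℝ) ^ ((8 : ℕ) : ℝ)⁻¹, by positivity, ?_⟩
  exact Real.rpow_inv_natCast_pow (by positivity) (by norm_num)

theorem not_iso {r s : ℝ} (hr : r ^ 8 = (3 : ℕ)) (hs : s ^ 8 = (48 : ℕ)) :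
    ¬ Nonempty (ℚ⟮r⟯ ≃+* ℚ⟮s⟯) := by
  rintro ⟨e⟩
  set y : ℚ⟮r⟯ := e.symm (AdjoinSimple.gen ℚ s) with hy
  have hy8 : y ^ 8 = ((48 : ℕ) : ℚ⟮r⟯) := by
    rw [hy, ← map_pow, gen_pow hs, map_natCast]
  have hyr : (y : ℝ) ^ 8 = 48 := by
    have h := congrArg (fun x : ℚ⟮r⟯ => (x : ℝ)) hy8
    simp only [SubmonoidClass.coe_pow] at h
    rw [h]
    push_cast
    rfl
  have hr0 : r ≠ 0 := by
    rintro rfl
    norm_num at hr
  have hq : ((y : ℝ) / r) ^ 2 = 2 := by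
    refine pow_eight_eq (by norm_num) ?_
    rw [div_pow, hyr, hr]
    norm_num
  refine sq_ne_two hr (y / AdjoinSimple.gen ℚ r) ?_
  apply Subtype.ext
  push_cast
  rw [AdjoinSimple.coe_gen, hq]
  rfl

theorem idealCount_octic {r s : ℝ} (hr : r ^ 8 = (3 : ℕ)) (hs : s ^ 8 = (48 : ℕ))
    [NumberField ℚ⟮r⟯] [NumberField ℚ⟮s⟯] (n : ℕ) (hn : n ≠ 0) :
    idealCount ℚ⟮r⟯ n = idealCount ℚ⟮s⟯ n := by
  refine idealCount_eq_of_quotients (adjoin.powerBasis (isIntegral_root hr)) (θ := rt hr)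
    (by rw [adjoin.powerBasis_gen]; rfl) (adjoin.powerBasis (isIntegral_root hs)) (θ' := rt hs)
    (by rw [adjoin.powerBasis_gen]; rfl) (N := 2) two_ne_zero (fun p hp hp2 => ?_) n hn
  have : Fact p.Prime := ⟨hp⟩
  rw [minpoly_rt hr dvd_rfl (by norm_num), minpoly_rt hs (by norm_num) (by norm_num)]
  have h1 : ∀ a : ℕ, (X ^ 8 - C (a : ℤ) : ℤ[X]).map (Int.castRingHom (ZMod p)) =
      X ^ 8 - C (a : ZMod p) := fun a => by simp
  rw [h1, h1]
  exact_mod_cast exists_quot_equiv (p := p) fun h => hp2 (h ▸ dvd_rfl)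

/-- **Two non-isomorphic number fields with the same Dedekind zeta function**: the fields generated
by the real eighth roots of `3` and of `48`. -/
theorem exists_arith_equiv_not_iso :
    ∃ (K K' : IntermediateField ℚ ℝ) (_ : NumberField K) (_ : NumberField K'),
      Module.finrank ℚ K = 8 ∧ dedekindZeta K = dedekindZeta K' ∧ discr K = discr K' ∧
        ¬ Nonempty (K ≃+* K') := by
  obtain ⟨r, -, hr⟩ := exists_root 3
  obtain ⟨s, -, hs⟩ := exists_root 48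
  have h1 : NumberField ℚ⟮r⟯ := numberField_root hr
  have h2 : NumberField ℚ⟮s⟯ := numberField_root hs
  have h3 := idealCount_octic hr hs
  exact ⟨ℚ⟮r⟯, ℚ⟮s⟯, h1, h2, finrank_root hr dvd_rfl (by norm_num), dedekindZeta_eq_iff.2 h3,
    discr_eq h3, not_iso hr hs⟩

end Fermat.Agent.Cor.AE

end
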