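import Fermat.Agent.Corollaries.ZetaK.GassmannZeta
import Fermat.Agent.Corollaries.ZetaK.GassSixGroup
import Fermat.Agent.Corollaries.ZetaK.Octic

/-!
# Perlis' theorem for fields of degree at most six

Number fields of degree at most six with the same Dedekind zeta function are isomorphic
(`nonempty_ringEquiv_of_finrank_le_six`). The fields generated by real eighth roots of `3` and of `48`
have the same Dedekind zeta function and are not isomorphic (`octic`).
-/

set_option autoImplicit false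
set_option linter.unusedSectionVars false

noncomputable section

open NumberField NumberField.InfinitePlace NumberField.Units IsDedekindDomain
open MulAction Equiv

namespace Fermat.Agent.Cor.AE

theorem perm_eq_one {Y : Type*} [Finite Y] (s : Perm Y)
    (hs : Nat.card {y // s y = y} = Nat.card Y) : s = 1 := by
  have h8 : {z : Y | s z = z} = Set.univ := by
    refine Set.eq_of_subset_of_ncard_le (Set.subset_univ _) ?_
    rw [Set.ncard_univ, ← hs]
    exact (Nat.card_coe_set_eq {z : Y | s z = z}).le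
  ext z
  exact (Set.ext_iff.1 h8 z).2 trivial

/-- **Groups of degree six with the same permutation character**, for homomorphisms to permutation
groups. -/
theorem exists_fixed_six {Γ : Type*} [Group Γ] {X X' : Type*} [Finite X] [Finite X']
    (a : Γ →* Perm X) (b : Γ →* Perm X')
    (h : ∀ g : Γ, Nat.card {x // a g x = x} = Nat.card {y // b g y = y}) (hn : Nat.card X = 6)
    (htr : ∀ x y : X, ∃ g : Γ, a g x = y) (x : X) :
    ∃ y : X', ∀ g : Γ, a g x = x → b g y = y := by
  classical
  set G : Subgroup (Perm X × Perm X') := (a.prod b).range with hG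
  let _ : MulAction G X := MulAction.compHom X ((MonoidHom.fst (Perm X) (Perm X')).comp G.subtype)
  let _ : MulAction G X' := MulAction.compHom X' ((MonoidHom.snd (Perm X) (Perm X')).comp G.subtype)
  have s1 : ∀ (g : G) (z : X), g • z = (g : Perm X × Perm X').1 z := fun _ _ => rfl
  have s2 : ∀ (g : G) (z : X'), g • z = (g : Perm X × Perm X').2 z := fun _ _ => rfl
  have hch : ∀ g : G, Nat.card (fixedBy X g) = Nat.card (fixedBy X' g) := by
    rintro ⟨-, ⟨γ, rfl⟩⟩
    exact h γ
  have hcard : Nat.card X = Nat.card X' := by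
    have h1 := h 1
    simpa using h1
  have key : ∀ γ : Γ, a γ = 1 ↔ b γ = 1 := by
    intro γ
    constructor
    · intro h1
      refine perm_eq_one (b γ) ?_
      rw [← h γ, h1, ← hcard]
      simp
    · intro h1
      refine perm_eq_one (a γ) ?_
      rw [h γ, h1, hcard]
      simp
  have hfa' : FaithfulSMul G X' := by
    refine ⟨fun {g₁ g₂} he => ?_⟩
    obtain ⟨γ, hγ⟩ := (g₁⁻¹ * g₂).2
    have h1 : b γ = 1 := by
      have h2 : (((g₁⁻¹ * g₂ : G) : Perm X × Perm X')).2 = 1 := by
        ext z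
        change ((g₁ : Perm X × Perm X').2⁻¹ * (g₂ : Perm X × Perm X').2) z = z
        have h3 := he z
        rw [s2, s2] at h3
        rw [Perm.mul_apply, ← h3]
        simp
      rw [← hγ] at h2
      exact h2
    have h9 : g₁⁻¹ * g₂ = 1 := by
      apply Subtype.ext
      rw [← hγ]
      exact Prod.ext ((key γ).2 h1) h1
    exact inv_mul_eq_one.1 h9
  have hfa : FaithfulSMul G X := by
    refine ⟨fun {g₁ g₂} he => ?_⟩
    obtain ⟨γ, hγ⟩ := (g₁⁻¹ * g₂).2
    have h1 : a γ = 1 := by
      have h2 : (((g₁⁻¹ * g₂ : G) : Perm X × Perm X')).1 = 1 := by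
        ext z
        change ((g₁ : Perm X × Perm X').1⁻¹ * (g₂ : Perm X × Perm X').1) z = z
        have h3 := he z
        rw [s1, s1] at h3
        rw [Perm.mul_apply, ← h3]
        simp
      rw [← hγ] at h2
      exact h2
    have h9 : g₁⁻¹ * g₂ = 1 := by
      apply Subtype.ext
      rw [← hγ]
      exact Prod.ext h1 ((key γ).1 h1)
    exact inv_mul_eq_one.1 h9
  have hpt : IsPretransitive G X := by
    refine ⟨fun y z => ?_⟩
    obtain ⟨γ, hγ⟩ := htr y z
    exact ⟨⟨_, ⟨γ, rfl⟩⟩, hγ⟩
  obtain ⟨y, hy⟩ := exists_stabilizer_le (G := G) hch hn x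
  exact ⟨y, fun γ hγ => hy (show (⟨_, ⟨γ, rfl⟩⟩ : G) ∈ stabilizer G x from hγ)⟩

universe u v

local notation "Qbar" => AlgebraicClosure ℚ

variable {K : Type u} [Field K] [NumberField K] {K' : Type v} [Field K'] [NumberField K']

/-- `Gal(ℚ̄/ℚ)` is transitive on the embeddings -/
theorem embPerm_transitive (j j' : K →+* Qbar) : ∃ σ : Qbar ≃ₐ[ℚ] Qbar, Frob.embPerm K σ j = j' := by
  obtain ⟨⟨-, σ, rfl⟩, h⟩ := MulAction.exists_smul_eq (Frob.GalK K) j j'
  exact ⟨σ, h⟩

/-- **Perlis**: number fields of degree at most six with the same Dedekind zeta function are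
isomorphic. -/
theorem nonempty_ringEquiv_of_finrank_le_six (hn : Module.finrank ℚ K ≤ 6)
    (h : dedekindZeta K = dedekindZeta K') : Nonempty (K ≃+* K') := by
  rcases (by omega : Module.finrank ℚ K ≤ 5 ∨ Module.finrank ℚ K = 6) with h5 | h6
  · exact nonempty_ringEquiv_of_finrank_le h5 h
  have h' := dedekindZeta_eq_iff_arithEquiv.1 h
  obtain ⟨j⟩ := Frob.nonempty_emb K
  obtain ⟨i, hi⟩ := exists_fixed_six (Frob.embPerm K) (Frob.embPerm K') (fun σ => h' σ)
    (by rw [Frob.natCard_emb]; exact h6) embPerm_transitive j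
  obtain ⟨f, -⟩ := Frob.exists_ringHom_of_fix (j := j) (i := i) fun σ hσ x =>
    RingHom.congr_fun (hi σ (RingHom.ext hσ)) x
  have h2 := h'.finrank_eq
  have h3 : Function.Surjective f.toRatAlgHom.toLinearMap :=
    (LinearMap.injective_iff_surjective_of_finrank_eq_finrank
      (f := f.toRatAlgHom.toLinearMap) h2.symm).mp f.injective
  exact ⟨(RingEquiv.ofBijective f ⟨f.injective, h3⟩).symm⟩

open IntermediateField in
/-- **The eighth roots of `3` and of `48`**: the fields `ℚ(r)` and `ℚ(s)`, `r⁸ = 3`, `s⁸ = 48`, real,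
have the same Dedekind zeta function and are not isomorphic. -/
theorem octic {r s : ℝ} (hr : r ^ 8 = 3) (hs : s ^ 8 = 48) [NumberField ℚ⟮r⟯]
    [NumberField ℚ⟮s⟯] : Module.finrank ℚ ℚ⟮r⟯ = 8 ∧ dedekindZeta ℚ⟮r⟯ = dedekindZeta ℚ⟮s⟯ ∧
      discr ℚ⟮r⟯ = discr ℚ⟮s⟯ ∧ ¬ Nonempty (ℚ⟮r⟯ ≃+* ℚ⟮s⟯) := by
  have hr' : r ^ 8 = ((3 : ℕ) : ℝ) := by exact_mod_cast hr
  have hs' : s ^ 8 = ((48 : ℕ) : ℝ) := by exact_mod_cast hs
  have h3 := idealCount_octic hr' hs'
  exact ⟨finrank_root hr' dvd_rfl (by norm_num), dedekindZeta_eq_iff.2 h3, discr_eq h3,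
    not_iso hr' hs'⟩

end Fermat.Agent.Cor.AE

end
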