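import Fermat.Agent.Corollaries.ZetaK.WienerIkehara

/-!
# The Möbius and Liouville functions, squarefree numbers

* `wiener_ikehara_of_residue` : the theorem of Wiener and Ikehara for `(s - 1) ∑ a(n) n^{-s}`.
* `tendsto_sum_moebius` : `∑_{n ≤ x} μ(n) = o(x)`.
* `tendsto_sum_liouville` : `∑_{n ≤ x} λ(n) = o(x)`.
* `tendsto_card_squarefree` : `#{n ≤ x squarefree} ~ 6 x / π²`.
-/

set_option autoImplicit false

noncomputable section

open Filter Topology Complex ArithmeticFunction

open scoped LSeries.notation ArithmeticFunction.Moebius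

namespace Fermat.Agent.Cor

/-- **The theorem of Wiener and Ikehara**, for `Z(s) = (s - 1) ∑ a(n) n^{-s}` continuous on
`Re s ≥ 1` and differentiable at `1`: `∑_{n ≤ x} a(n) ~ Z(1) x`. -/
theorem wiener_ikehara_of_residue {a : ℕ → ℝ} (ha : ∀ n, 0 ≤ a n)
    (hs : ∀ s : ℂ, 1 < s.re → LSeriesSummable (fun n => (a n : ℂ)) s) {Z : ℂ → ℂ}
    (hZ : ContinuousOn Z {s | 1 ≤ s.re}) (hZ1 : DifferentiableAt ℂ Z 1)
    (hF : ∀ s : ℂ, 1 < s.re → (s - 1) * LSeries (fun n => (a n : ℂ)) s = Z s) {A : ℝ}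
    (hA : Z 1 = A) : Tendsto (fun x : ℝ => (∑ n ∈ Finset.Icc 1 ⌊x⌋₊, a n) / x) atTop (𝓝 A) := by
  refine wiener_ikehara (G := dslope Z 1) ha hs (fun s hs1 => ?_) fun s hs1 => ?_
  · rcases eq_or_ne s 1 with rfl | h
    · exact (continuousAt_dslope_same.2 hZ1).continuousWithinAt
    · exact (continuousWithinAt_dslope_of_ne h).2 (hZ s hs1)
  · have h : s ≠ 1 := by
      rintro rfl
      simp at hs1
    have h1 : s - 1 ≠ 0 := sub_ne_zero.2 h
    rw [dslope_of_ne _ h, slope_def_field, hA, ← hF s hs1]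
    field_simp

/-- `(s - 1) ζ(s)`, entire -/
def zet (s : ℂ) : ℂ := DirichletCharacter.LFunctionTrivChar₁ 1 s

theorem differentiable_zet : Differentiable ℂ zet :=
  DirichletCharacter.differentiable_LFunctionTrivChar₁ 1

theorem zet_one : zet 1 = 1 := by
  simp [zet]

theorem zet_of_ne {s : ℂ} (hs : s ≠ 1) : zet s = (s - 1) * riemannZeta s := by
  rw [zet, DirichletCharacter.LFunctionTrivChar₁, Function.update_of_ne hs,
    DirichletCharacter.LFunctionTrivChar, DirichletCharacter.LFunction_modOne_eq]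

theorem zet_ne_zero {s : ℂ} (hs : 1 ≤ s.re) : zet s ≠ 0 := by
  rcases eq_or_ne s 1 with rfl | h
  · rw [zet_one]
    exact one_ne_zero
  · rw [zet_of_ne h]
    exact mul_ne_zero (sub_ne_zero.2 h) (riemannZeta_ne_zero_of_one_le_re hs)

theorem ne_one_of_one_lt_re {s : ℂ} (hs : 1 < s.re) : s ≠ 1 := by
  rintro rfl
  simp at hs

/-- `⌊x⌋ / x → 1` -/
theorem tendsto_sum_one_div :
    Tendsto (fun x : ℝ => (∑ _n ∈ Finset.Icc 1 ⌊x⌋₊, (1 : ℝ)) / x) atTop (𝓝 1) := by
  refine (tendsto_nat_floor_div_atTop (R := ℝ)).congr fun x => ?_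
  rw [Finset.sum_const, Nat.card_Icc, Nat.add_sub_cancel, nsmul_one]

/-- If `|f| ≤ 1` and `(s - 1)² ∑ f(n) n^{-s}`... : the mean value of a bounded real function
whose Dirichlet series, times `s - 1`, is continuous on `Re s ≥ 1`, differentiable at `1`. -/
theorem tendsto_mean_of_residue {f : ℕ → ℝ} (hf : ∀ n, |f n| ≤ 1) {W : ℂ → ℂ}
    (hW : ContinuousOn W {s | 1 ≤ s.re}) (hW1 : DifferentiableAt ℂ W 1)
    (hF : ∀ s : ℂ, 1 < s.re → (s - 1) * LSeries (fun n => (f n : ℂ)) s = W s) {B : ℝ}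
    (hB : W 1 = B) : Tendsto (fun x : ℝ => (∑ n ∈ Finset.Icc 1 ⌊x⌋₊, f n) / x) atTop (𝓝 B) := by
  have hs : ∀ s : ℂ, 1 < s.re → LSeriesSummable (fun n => (f n : ℂ)) s := fun s hs =>
    LSeriesSummable_of_bounded_of_one_lt_re (m := 1)
      (fun n _ => by rw [Complex.norm_real]; exact hf n) hs
  have h1 := wiener_ikehara_of_residue (a := fun n => 1 + f n) (Z := fun s => zet s + W s)
    (A := 1 + B) (fun n => by have := neg_le_of_abs_le (hf n); linarith)
    (fun s hs1 => by
      simp only [Complex.ofReal_add, Complex.ofReal_one]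
      exact (LSeriesSummable_one_iff.2 hs1).add (hs s hs1))
    (differentiable_zet.continuous.continuousOn.add hW)
    ((differentiable_zet 1).add hW1)
    (fun s hs1 => by
      simp only [Complex.ofReal_add, Complex.ofReal_one]
      have h2 : LSeries ((fun _ : ℕ => (1 : ℂ)) + fun n => (f n : ℂ)) s =
          LSeries (fun _ : ℕ => (1 : ℂ)) s + LSeries (fun n => (f n : ℂ)) s :=
        LSeries_add (LSeriesSummable_one_iff.2 hs1) (hs s hs1)
      have h3 : LSeries (fun _ : ℕ => (1 : ℂ)) s = riemannZeta s :=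
        LSeries_one_eq_riemannZeta hs1
      have h4 : (fun n : ℕ => (1 : ℂ) + (f n : ℂ)) =
        (fun _ : ℕ => (1 : ℂ)) + fun n => (f n : ℂ) := rfl
      rw [h4, h2, h3, mul_add, hF s hs1, zet_of_ne (ne_one_of_one_lt_re hs1)])
    (by rw [zet_one, hB]; push_cast; rfl)
  have h2 := h1.sub tendsto_sum_one_div
  rw [add_sub_cancel_left] at h2
  refine h2.congr fun x => ?_
  rw [Finset.sum_add_distrib, add_div, add_sub_cancel_left]

/-- **`∑_{n ≤ x} μ(n) = o(x)`.** -/
theorem tendsto_sum_moebius :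
    Tendsto (fun x : ℝ => (∑ n ∈ Finset.Icc 1 ⌊x⌋₊, (μ n : ℝ)) / x) atTop (𝓝 0) := by
  refine tendsto_mean_of_residue (f := fun n => (μ n : ℝ)) (W := fun s => (s - 1) ^ 2 / zet s)
    (fun n => by exact_mod_cast abs_moebius_le_one) ?_ ?_ (fun s hs => ?_) (by simp)
  · exact ContinuousOn.div (by fun_prop) differentiable_zet.continuous.continuousOn
      fun s hs => zet_ne_zero hs
  · exact DifferentiableAt.div (by fun_prop) (differentiable_zet 1)
      (zet_ne_zero (by simp))
  · have h1 : LSeries (fun n => ((μ n : ℝ) : ℂ)) s = (riemannZeta s)⁻¹ := by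
      have h2 := LSeries_one_mul_Lseries_moebius hs
      rw [LSeries_one_eq_riemannZeta hs] at h2
      have h3 : (fun n => ((μ n : ℝ) : ℂ)) = ↗μ := by
        ext n
        push_cast
        rfl
      rw [h3]
      exact eq_inv_of_mul_eq_one_right h2
    have h4 : s - 1 ≠ 0 := sub_ne_zero.2 (ne_one_of_one_lt_re hs)
    have h5 := riemannZeta_ne_zero_of_one_lt_re hs
    rw [h1, zet_of_ne (ne_one_of_one_lt_re hs)]
    field_simp

/-! ### The Liouville function -/

/-- `n ↦ λ(n) n^{-s}` -/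
def liouHom {s : ℂ} (hs : s ≠ 0) : ℕ →*₀ ℂ where
  toFun n := (liouville n : ℂ) * (n : ℂ) ^ (-s)
  map_zero' := by simp
  map_one' := by simp [liouville_apply_one]
  map_mul' m n := by
    have h := (riemannZetaSummandHom hs).map_mul m n
    simp only [riemannZetaSummandHom, MonoidWithZeroHom.coe_mk, ZeroHom.coe_mk] at h
    rw [h, liouville_apply_mul]
    push_cast
    ring

theorem abs_liouville_le (n : ℕ) : |(liouville n : ℝ)| ≤ 1 := by
  rcases eq_or_ne n 0 with rfl | hn
  · simp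
  · rw [liouville_apply hn]
    push_cast
    rw [abs_pow, abs_neg, abs_one, one_pow]

theorem norm_prime_cpow_lt {s : ℂ} (hs : 1 < s.re) (p : Nat.Primes) : ‖(p : ℂ) ^ (-s)‖ < 1 := by
  rw [Complex.norm_natCast_cpow_of_pos p.2.pos]
  exact Real.rpow_lt_one_of_one_lt_of_neg (by exact_mod_cast p.2.one_lt) (by simp; linarith)

theorem summable_liouHom {s : ℂ} (hs : 1 < s.re) :
    Summable fun n => ‖liouHom (Complex.ne_zero_of_one_lt_re hs) n‖ := by
  refine (summable_riemannZetaSummand hs).of_nonneg_of_le (fun _ => norm_nonneg _) fun n => ?_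
  simp only [liouHom, riemannZetaSummandHom, MonoidWithZeroHom.coe_mk, ZeroHom.coe_mk, norm_mul]
  refine mul_le_of_le_one_left (norm_nonneg _) ?_
  rw [← Complex.ofReal_intCast, Complex.norm_real]
  exact abs_liouville_le n

/-- **`∑ λ(n) n^{-s} = ζ(2 s) / ζ(s)`.** -/
theorem LSeries_liouville_mul {s : ℂ} (hs : 1 < s.re) :
    LSeries (fun n => ((liouville n : ℝ) : ℂ)) s * riemannZeta s = riemannZeta (2 * s) := by
  have h0 := Complex.ne_zero_of_one_lt_re hs
  have h1 : LSeries (fun n => ((liouville n : ℝ) : ℂ)) s = ∑' n, liouHom h0 n := by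
    refine tsum_congr fun n => ?_
    rcases eq_or_ne n 0 with rfl | hn
    · simp
    · rw [LSeries.term_of_ne_zero hn]
      simp only [liouHom, MonoidWithZeroHom.coe_mk, ZeroHom.coe_mk, Complex.cpow_neg]
      push_cast
      rw [div_eq_mul_inv]
  have h2 := (EulerProduct.eulerProduct_completely_multiplicative_hasProd
    (summable_liouHom hs)).mul (riemannZeta_eulerProduct_hasProd hs)
  have hs2 : 1 < (2 * s).re := by
    simp
    linarith
  have h3 := riemannZeta_eulerProduct_hasProd hs2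
  rw [h1]
  refine h2.unique ?_
  convert h3 using 2 with p
  have h4 : liouHom h0 p = -((p : ℂ) ^ (-s)) := by
    simp only [liouHom, MonoidWithZeroHom.coe_mk, ZeroHom.coe_mk]
    rw [liouville_apply p.2.ne_zero, ArithmeticFunction.cardFactors_apply_prime p.2]
    simp
  have h5 : ((p : ℕ) : ℂ) ^ (-(2 * s)) = ((p : ℂ) ^ (-s)) ^ 2 := by
    rw [← Complex.cpow_nat_mul]
    congr 1
    push_cast
    ring
  rw [h4, h5, ← mul_inv]
  congr 1
  ring

/-- **`∑_{n ≤ x} λ(n) = o(x)`.** -/
theorem tendsto_sum_liouville :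
    Tendsto (fun x : ℝ => (∑ n ∈ Finset.Icc 1 ⌊x⌋₊, (liouville n : ℝ)) / x) atTop (𝓝 0) := by
  have hd : ∀ s : ℂ, 1 ≤ s.re → DifferentiableAt ℂ (fun s => riemannZeta (2 * s)) s := by
    intro s hs
    have h1 : DifferentiableAt ℂ riemannZeta (2 * s) := by
      refine differentiableAt_riemannZeta fun h => ?_
      have h2 := congrArg Complex.re h
      simp at h2
      linarith
    exact h1.comp s (by fun_prop)
  refine tendsto_mean_of_residue (f := fun n => (liouville n : ℝ))
    (W := fun s => (s - 1) ^ 2 * riemannZeta (2 * s) / zet s) abs_liouville_le ?_ ?_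
    (fun s hs => ?_) (by simp)
  · refine ContinuousOn.div (ContinuousOn.mul (by fun_prop) fun s hs => ?_)
      differentiable_zet.continuous.continuousOn fun s hs => zet_ne_zero hs
    exact (hd s hs).continuousAt.continuousWithinAt
  · exact DifferentiableAt.div (DifferentiableAt.mul (by fun_prop) (hd 1 (by simp)))
      (differentiable_zet 1) (zet_ne_zero (by simp))
  · have h1 := LSeries_liouville_mul hs
    have h4 : s - 1 ≠ 0 := sub_ne_zero.2 (ne_one_of_one_lt_re hs)
    have h5 := riemannZeta_ne_zero_of_one_lt_re hs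
    rw [zet_of_ne (ne_one_of_one_lt_re hs), ← h1]
    field_simp

/-! ### Squarefree numbers -/

/-- `n ↦ μ(n)² n^{-s}` -/
def sqf (s : ℂ) (n : ℕ) : ℂ := (if Squarefree n then 1 else 0) * (n : ℂ) ^ (-s)

theorem sqf_mul (s : ℂ) {m n : ℕ} (h : m.Coprime n) : sqf s (m * n) = sqf s m * sqf s n := by
  have h1 : ((m * n : ℕ) : ℂ) ^ (-s) = (m : ℂ) ^ (-s) * (n : ℂ) ^ (-s) := by
    rw [Nat.cast_mul, Complex.natCast_mul_natCast_cpow]
  simp only [sqf, h1, Nat.squarefree_mul h, ite_and]
  split_ifs <;> ring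

theorem sqf_pow (s : ℂ) (p : Nat.Primes) : ∑' e : ℕ, sqf s ((p : ℕ) ^ e) = 1 + (p : ℂ) ^ (-s) := by
  rw [tsum_eq_sum (s := Finset.range 2)]
  · simp [Finset.sum_range_succ, sqf, p.2.prime.squarefree]
  · intro e he
    rw [Finset.mem_range, not_lt] at he
    have h1 : ¬ Squarefree ((p : ℕ) ^ e) := by
      rw [Nat.squarefree_pow_iff p.2.ne_one (by omega)]
      rintro ⟨-, h⟩
      omega
    rw [sqf, if_neg h1, zero_mul]

theorem summable_sqf {s : ℂ} (hs : 1 < s.re) : Summable fun n => ‖sqf s n‖ := by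
  refine (summable_riemannZetaSummand hs).of_nonneg_of_le (fun _ => norm_nonneg _) fun n => ?_
  simp only [sqf, riemannZetaSummandHom, MonoidWithZeroHom.coe_mk, ZeroHom.coe_mk, norm_mul]
  refine mul_le_of_le_one_left (norm_nonneg _) ?_
  split_ifs <;> simp

/-- **`∑ μ(n)² n^{-s} = ζ(s) / ζ(2 s)`.** -/
theorem LSeries_squarefree_mul {s : ℂ} (hs : 1 < s.re) :
    LSeries (fun n => (((if Squarefree n then 1 else 0 : ℝ)) : ℂ)) s * riemannZeta (2 * s) =
      riemannZeta s := by
  have h0 := Complex.ne_zero_of_one_lt_re hs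
  have h1 : LSeries (fun n => (((if Squarefree n then 1 else 0 : ℝ)) : ℂ)) s = ∑' n, sqf s n := by
    refine tsum_congr fun n => ?_
    rcases eq_or_ne n 0 with rfl | hn
    · simp [sqf]
    · rw [LSeries.term_of_ne_zero hn, sqf, Complex.cpow_neg, div_eq_mul_inv]
      split_ifs <;> simp
  have hs2 : 1 < (2 * s).re := by
    simp
    linarith
  have h2 := (EulerProduct.eulerProduct_hasProd (f := sqf s) (by simp [sqf]) (sqf_mul s)
    (summable_sqf hs) (by simp [sqf])).mul (riemannZeta_eulerProduct_hasProd hs2)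
  rw [h1]
  refine h2.unique ?_
  convert riemannZeta_eulerProduct_hasProd hs using 2 with p
  have h5 : ((p : ℕ) : ℂ) ^ (-(2 * s)) = ((p : ℂ) ^ (-s)) ^ 2 := by
    rw [← Complex.cpow_nat_mul]
    congr 1
    push_cast
    ring
  rw [sqf_pow, h5]
  have hp := norm_prime_cpow_lt hs p
  have h6 : (1 : ℂ) - (p : ℂ) ^ (-s) ≠ 0 := by
    intro h
    rw [← sub_eq_zero.1 h] at hp
    simp at hp
  have h7 : (1 : ℂ) + (p : ℂ) ^ (-s) ≠ 0 := by
    intro h
    rw [← neg_eq_of_add_eq_zero_right h] at hp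
    simp at hp
  have h8 : (1 : ℂ) - ((p : ℂ) ^ (-s)) ^ 2 = (1 - (p : ℂ) ^ (-s)) * (1 + (p : ℂ) ^ (-s)) := by ring
  rw [h8, mul_inv, mul_comm, mul_assoc, inv_mul_cancel₀ h7, mul_one]

/-- **The density of the squarefree numbers is `6 / π²`.** -/
theorem tendsto_card_squarefree :
    Tendsto (fun x : ℝ => (((Finset.Icc 1 ⌊x⌋₊).filter fun n : ℕ => Squarefree n).card : ℝ) / x)
      atTop (𝓝 (6 / Real.pi ^ 2)) := by
  have hd : ∀ s : ℂ, 1 ≤ s.re → DifferentiableAt ℂ (fun s => riemannZeta (2 * s)) s := by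
    intro s hs
    have h1 : DifferentiableAt ℂ riemannZeta (2 * s) := by
      refine differentiableAt_riemannZeta fun h => ?_
      have h2 := congrArg Complex.re h
      simp at h2
      linarith
    exact h1.comp s (by fun_prop)
  have hne : ∀ s : ℂ, 1 ≤ s.re → riemannZeta (2 * s) ≠ 0 := by
    intro s hs
    refine riemannZeta_ne_zero_of_one_lt_re ?_
    simp
    linarith
  have h := tendsto_mean_of_residue (f := fun n => if Squarefree n then 1 else 0)
    (W := fun s => zet s / riemannZeta (2 * s)) (B := 6 / Real.pi ^ 2)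
    (fun n => by split_ifs <;> simp) ?_ ?_
    (fun s hs => ?_) ?_
  · refine h.congr fun x => ?_
    rw [Finset.card_filter]
    push_cast
    rfl
  · refine ContinuousOn.div differentiable_zet.continuous.continuousOn (fun s hs => ?_)
      fun s hs => hne s hs
    exact (hd s hs).continuousAt.continuousWithinAt
  · exact DifferentiableAt.div (differentiable_zet 1) (hd 1 (by simp)) (hne 1 (by simp))
  · have h1 := LSeries_squarefree_mul hs
    have h5 := hne s hs.le
    rw [zet_of_ne (ne_one_of_one_lt_re hs), eq_div_iff h5, mul_assoc, h1]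
  · rw [zet_one, mul_one, riemannZeta_two]
    push_cast
    field_simp

end Fermat.Agent.Cor
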