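import Mathlib

/-!
# Entire functions of order less than two with finitely many zeros

`HasGrowth F`: `‖F z‖ ≤ exp (A (1 + ‖z‖)^{3/2})`. An entire function with this growth and without
zeros is `c e^{b z}` (`eq_exp_of_growth`); with finitely many zeros it is `P(z) e^{b z}`
(`eq_poly_mul_exp`). Consequently an entire function with this growth which grows faster than every
exponential on the positive reals has infinitely many zeros (`infinite_zeros_of_growth`).
-/

set_option autoImplicit false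

noncomputable section

namespace Fermat.Agent.Cor

open Complex Metric Filter Topology Set

/-- the growth function `(1 + r)^{3/2}` -/
def grw (r : ℝ) : ℝ := (1 + r) * √(1 + r)

theorem one_le_grw {r : ℝ} (hr : 0 ≤ r) : 1 ≤ grw r := by
  have h1 : 1 ≤ √(1 + r) := by
    rw [Real.one_le_sqrt]
    linarith
  unfold grw
  nlinarith

theorem le_grw {r : ℝ} (hr : 0 ≤ r) : 1 + r ≤ grw r := by
  have h1 : 1 ≤ √(1 + r) := by
    rw [Real.one_le_sqrt]
    linarith
  unfold grw
  nlinarith

theorem grw_mono {r s : ℝ} (hr : 0 ≤ r) (h : r ≤ s) : grw r ≤ grw s := by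
  unfold grw
  exact mul_le_mul (by linarith) (Real.sqrt_le_sqrt (by linarith)) (Real.sqrt_nonneg _)
    (by linarith)

/-- order less than two -/
def HasGrowth (F : ℂ → ℂ) : Prop := ∃ A : ℝ, ∀ z, ‖F z‖ ≤ Real.exp (A * grw ‖z‖)

theorem HasGrowth.exists_nonneg {F : ℂ → ℂ} (h : HasGrowth F) :
    ∃ A : ℝ, 0 ≤ A ∧ ∀ z, ‖F z‖ ≤ Real.exp (A * grw ‖z‖) := by
  obtain ⟨A, hA⟩ := h
  refine ⟨max A 0, le_max_right _ _, fun z => (hA z).trans (Real.exp_le_exp.mpr ?_)⟩
  have := one_le_grw (norm_nonneg z)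
  exact mul_le_mul_of_nonneg_right (le_max_left _ _) (by linarith)

/-- a bound with a constant in front -/
theorem hasGrowth_of_le {F : ℂ → ℂ} {C A : ℝ} (h : ∀ z, ‖F z‖ ≤ C * Real.exp (A * grw ‖z‖)) :
    HasGrowth F := by
  refine ⟨A + max C 1, fun z => (h z).trans ?_⟩
  have h1 := one_le_grw (norm_nonneg z)
  have h2 : (1 : ℝ) ≤ max C 1 := le_max_right _ _
  rw [add_mul, Real.exp_add, mul_comm (Real.exp _)]
  refine mul_le_mul_of_nonneg_right ?_ (Real.exp_nonneg _)
  calc C ≤ max C 1 := le_max_left _ _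
    _ ≤ max C 1 * grw ‖z‖ := le_mul_of_one_le_right (by linarith) h1
    _ ≤ Real.exp (max C 1 * grw ‖z‖) := by
        have := Real.add_one_le_exp (max C 1 * grw ‖z‖)
        linarith

theorem HasGrowth.mul {F G : ℂ → ℂ} (hF : HasGrowth F) (hG : HasGrowth G) :
    HasGrowth fun z => F z * G z := by
  obtain ⟨A, hA⟩ := hF
  obtain ⟨B, hB⟩ := hG
  refine ⟨A + B, fun z => ?_⟩
  rw [norm_mul, add_mul, Real.exp_add]
  exact mul_le_mul (hA z) (hB z) (norm_nonneg _) (Real.exp_nonneg _)

theorem HasGrowth.add {F G : ℂ → ℂ} (hF : HasGrowth F) (hG : HasGrowth G) :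
    HasGrowth fun z => F z + G z := by
  obtain ⟨A, hA0, hA⟩ := hF.exists_nonneg
  obtain ⟨B, hB0, hB⟩ := hG.exists_nonneg
  refine hasGrowth_of_le (C := 2) (A := A + B) fun z => ?_
  have h1 := one_le_grw (norm_nonneg z)
  refine (norm_add_le _ _).trans ?_
  have h2 : ‖F z‖ ≤ Real.exp ((A + B) * grw ‖z‖) :=
    (hA z).trans (Real.exp_le_exp.mpr (by nlinarith))
  have h3 : ‖G z‖ ≤ Real.exp ((A + B) * grw ‖z‖) :=
    (hB z).trans (Real.exp_le_exp.mpr (by nlinarith))
  linarith

/-- removing the zeros at one point -/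
theorem exists_divide {F : ℂ → ℂ} (hF : Differentiable ℂ F) (h0 : ∃ z, F z ≠ 0) (a : ℂ) :
    ∃ (n : ℕ) (G : ℂ → ℂ), Differentiable ℂ G ∧ G a ≠ 0 ∧ ∀ z, F z = (z - a) ^ n * G z := by
  have hd : ∀ {g : ℂ → ℂ}, Differentiable ℂ g → Differentiable ℂ (dslope g a) := by
    intro g hg
    rw [← differentiableOn_univ, Complex.differentiableOn_dslope Filter.univ_mem]
    exact hg.differentiableOn
  have hit : ∀ n : ℕ, Differentiable ℂ ((Function.swap dslope a)^[n] F) := by
    intro n
    induction n with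
    | zero => exact hF
    | succ n ih =>
      rw [Function.iterate_succ_apply']
      exact hd ih
  have han : AnalyticAt ℂ F a := hF.analyticAt a
  obtain ⟨p, hp⟩ := han
  have hp0 : p ≠ 0 := by
    rintro rfl
    obtain ⟨z, hz⟩ := h0
    apply hz
    have h1 : F =ᶠ[𝓝 a] 0 := by
      have := hp.eventually_eq_zero
      filter_upwards [this] with w hw using hw
    have h2 := AnalyticOnNhd.eq_of_eventuallyEq (𝕜 := ℂ) (z₀ := a)
      (hF.differentiableOn.analyticOnNhd isOpen_univ)
      ((differentiable_const (0 : ℂ)).differentiableOn.analyticOnNhd isOpen_univ) (g := fun _ => 0) h1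
    exact congrFun h2 z
  refine ⟨p.order, (Function.swap dslope a)^[p.order] F, hit _, ?_, ?_⟩
  · exact hp.iterate_dslope_fslope_ne_zero hp0
  · exact hp.eq_pow_order_mul_iterate_dslope

/-- growth of the quotient -/
theorem HasGrowth.of_mul_pow {F G : ℂ → ℂ} (hF : HasGrowth F) (hG : Differentiable ℂ G) {a : ℂ}
    {n : ℕ} (h : ∀ z, F z = (z - a) ^ n * G z) : HasGrowth G := by
  obtain ⟨A, hA0, hA⟩ := hF.exists_nonneg
  obtain ⟨C, hC⟩ := (isCompact_closedBall a 1).exists_bound_of_continuousOn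
    hG.continuous.continuousOn
  refine hasGrowth_of_le (C := max C 1) (A := A) fun z => ?_
  have h1 := one_le_grw (norm_nonneg z)
  have h2 : (1 : ℝ) ≤ max C 1 := le_max_right _ _
  have h3 : (1 : ℝ) ≤ Real.exp (A * grw ‖z‖) := Real.one_le_exp (by positivity)
  rcases le_or_gt (dist z a) 1 with hz | hz
  · have h4 := hC z (mem_closedBall.mpr hz)
    calc ‖G z‖ ≤ C := h4
      _ ≤ max C 1 := le_max_left _ _
      _ ≤ max C 1 * Real.exp (A * grw ‖z‖) := le_mul_of_one_le_right (by linarith) h3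
  · have h4 : ‖G z‖ ≤ ‖F z‖ := by
      rw [h z, norm_mul, norm_pow]
      rw [dist_eq_norm] at hz
      exact le_mul_of_one_le_left (norm_nonneg _) (one_le_pow₀ hz.le)
    calc ‖G z‖ ≤ Real.exp (A * grw ‖z‖) := h4.trans (hA z)
      _ ≤ max C 1 * Real.exp (A * grw ‖z‖) := le_mul_of_one_le_left (by linarith) h2

/-- `(1 + 2 R)^{3/2} / R² → 0` -/
theorem tendsto_grw_div : Tendsto (fun R : ℝ => grw R / R ^ 2) atTop (𝓝 0) := by
  have h1 : ∀ᶠ R : ℝ in atTop, grw R / R ^ 2 ≤ 4 / √R := by
    filter_upwards [eventually_ge_atTop (1 : ℝ)] with R hR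
    have h2 : grw R ≤ (2 * R) * √(4 * R) := by
      unfold grw
      gcongr
      · linarith
      · linarith
    have h3 : √(4 * R) = 2 * √R := by
      rw [Real.sqrt_mul (by norm_num), show (4 : ℝ) = 2 ^ 2 by norm_num,
        Real.sqrt_sq (by norm_num)]
    have h4 : 0 < √R := Real.sqrt_pos.mpr (by linarith)
    rw [div_le_div_iff₀ (by positivity) h4]
    have h5 : √R * √R = R := Real.mul_self_sqrt (by linarith)
    calc grw R * √R ≤ (2 * R) * (2 * √R) * √R := by rw [← h3]; gcongr
      _ = 4 * R * (√R * √R) := by ring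
      _ = 4 * R ^ 2 := by rw [h5]; ring
  refine squeeze_zero' ?_ h1 ?_
  · filter_upwards [eventually_ge_atTop (1 : ℝ)] with R hR
    have := one_le_grw (r := R) (by linarith)
    positivity
  · exact Tendsto.div_atTop tendsto_const_nhds Real.tendsto_sqrt_atTop

/-- **Zero free entire functions of order less than two.** -/
theorem eq_exp_of_growth {G : ℂ → ℂ} (hG : Differentiable ℂ G) (h0 : ∀ z, G z ≠ 0)
    (hg : HasGrowth G) : ∃ b : ℂ, ∀ z, G z = G 0 * exp (b * z) := by
  obtain ⟨A, hA0, hA⟩ := hg.exists_nonneg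
  have hG' : Differentiable ℂ (deriv G) := by
    rw [← differentiableOn_univ]
    exact hG.differentiableOn.deriv isOpen_univ
  have hh : Differentiable ℂ fun z => deriv G z / G z := hG'.div hG h0
  obtain ⟨g, hg0, hgd⟩ := (hh.isExactOn_univ).with_val_at 0 (log (G 0))
  have hgd' : ∀ z, HasDerivAt g (deriv G z / G z) z := fun z => hgd z (mem_univ z)
  have hgdiff : Differentiable ℂ g := fun z => (hgd' z).differentiableAt
  -- `G = exp g`
  have hexp : ∀ z, exp (g z) = G z := by
    have h1 : ∀ z, HasDerivAt (fun z => G z * exp (-g z)) 0 z := by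
      intro z
      have h2 := (hG z).hasDerivAt.mul ((hgd' z).neg.cexp)
      refine h2.congr_deriv ?_
      field_simp [h0 z]
      ring
    have h3 : ∀ z, G z * exp (-g z) = G 0 * exp (-g 0) := fun z =>
      is_const_of_deriv_eq_zero (fun z => (h1 z).differentiableAt) (fun z => (h1 z).deriv) z 0
    intro z
    have h4 := h3 z
    rw [hg0, exp_neg, exp_neg, exp_log (h0 0), mul_inv_cancel₀ (h0 0)] at h4
    exact ((mul_inv_eq_one₀ (exp_ne_zero _)).mp h4).symm
  have hre : ∀ z, (g z).re ≤ A * grw ‖z‖ := by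
    intro z
    have h1 := hA z
    rw [← hexp z, norm_exp] at h1
    exact Real.exp_le_exp.mp h1
  -- the second derivative vanishes
  have hbound : ∀ {R : ℝ}, 1 ≤ R → ∀ z, ‖z‖ ≤ R / 2 →
      ‖g z‖ ≤ 2 * (A * grw R + 1) + 3 * ‖g 0‖ := by
    intro R hR z hz
    have hR0 : 0 < R := by linarith
    have h1 : 0 ≤ A * grw R := mul_nonneg hA0 (by have := one_le_grw hR0.le; linarith)
    have hmaps : Set.MapsTo g (ball 0 R) {z | z.re ≤ A * grw R + 1} := by
      intro w hw
      rw [mem_ball_zero_iff] at hw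
      have h2 := hre w
      have h3 := grw_mono (norm_nonneg w) hw.le
      have h4 : A * grw ‖w‖ ≤ A * grw R := mul_le_mul_of_nonneg_left h3 hA0
      simp only [Set.mem_ofPred_eq]
      linarith
    have hz' : z ∈ ball (0 : ℂ) R := by
      rw [mem_ball_zero_iff]; linarith
    have h5 := borelCaratheodory (by linarith : 0 < A * grw R + 1) hgdiff.differentiableOn
      hmaps hR0 hz'
    have h6 : 0 < R - ‖z‖ := by linarith
    have h7 : 2 * (A * grw R + 1) * ‖z‖ / (R - ‖z‖) ≤ 2 * (A * grw R + 1) := by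
      rw [div_le_iff₀ h6]
      nlinarith
    have h8 : ‖g 0‖ * (R + ‖z‖) / (R - ‖z‖) ≤ 3 * ‖g 0‖ := by
      rw [div_le_iff₀ h6]
      nlinarith [norm_nonneg (g 0)]
    linarith
  have hsec : ∀ z, iteratedDeriv 2 g z = 0 := by
    intro z
    have hlim : Tendsto (fun R : ℝ =>
        (Nat.factorial 2 : ℝ) * (2 * (A * grw R + 1) + 3 * ‖g 0‖) / (R / 4) ^ 2) atTop (𝓝 0) := by
      have h1 := tendsto_grw_div
      have h2 : Tendsto (fun R : ℝ => (1 : ℝ) / R ^ 2) atTop (𝓝 0) :=
        Tendsto.div_atTop tendsto_const_nhds (tendsto_pow_atTop two_ne_zero)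
      have h3 := (h1.const_mul (64 * A)).add (h2.const_mul (64 + 96 * ‖g 0‖))
      rw [mul_zero, mul_zero, add_zero] at h3
      refine h3.congr' ?_
      filter_upwards [eventually_gt_atTop (0 : ℝ)] with R hR
      rw [Nat.factorial_two]
      field_simp
      push_cast
      ring
    have hle : ∀ᶠ R : ℝ in atTop, ‖iteratedDeriv 2 g z‖ ≤
        (Nat.factorial 2 : ℝ) * (2 * (A * grw R + 1) + 3 * ‖g 0‖) / (R / 4) ^ 2 := by
      filter_upwards [eventually_ge_atTop (max 1 (4 * ‖z‖))] with R hR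
      have hR1 : 1 ≤ R := (le_max_left _ _).trans hR
      have hR2 : 4 * ‖z‖ ≤ R := (le_max_right _ _).trans hR
      refine norm_iteratedDeriv_le_of_forall_mem_sphere_norm_le 2 (by linarith)
        hgdiff.diffContOnCl fun w hw => ?_
      apply hbound hR1
      rw [mem_sphere, dist_eq_norm] at hw
      calc ‖w‖ = ‖(w - z) + z‖ := by rw [sub_add_cancel]
        _ ≤ ‖w - z‖ + ‖z‖ := norm_add_le _ _
        _ ≤ R / 2 := by rw [hw]; linarith
    have h1 := ge_of_tendsto hlim hle
    exact norm_le_zero_iff.mp h1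
  -- hence the first derivative is constant
  have hg1 : ∀ z, deriv g z = deriv g 0 := by
    have hdd : Differentiable ℂ (deriv g) := by
      rw [← differentiableOn_univ]
      exact hgdiff.differentiableOn.deriv isOpen_univ
    have h1 : ∀ z, deriv (deriv g) z = 0 := by
      intro z
      have h2 := hsec z
      rw [iteratedDeriv_succ, iteratedDeriv_one] at h2
      exact h2
    exact fun z => is_const_of_deriv_eq_zero hdd h1 z 0
  refine ⟨deriv g 0, fun z => ?_⟩
  have h1 : ∀ z, HasDerivAt (fun z => g z - deriv g 0 * z) 0 z := by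
    intro z
    have h2 := (hgdiff z).hasDerivAt.sub ((hasDerivAt_id z).const_mul (deriv g 0))
    refine h2.congr_deriv ?_
    rw [hg1 z, mul_one, sub_self]
  have h3 := is_const_of_deriv_eq_zero (fun z => (h1 z).differentiableAt)
    (fun z => (h1 z).deriv) z 0
  simp only [mul_zero, sub_zero] at h3
  rw [← hexp z, ← hexp 0, ← exp_add, ← h3]
  congr 1
  ring

/-- **Entire functions of order less than two with finitely many zeros.** -/
theorem eq_poly_mul_exp {F : ℂ → ℂ} (hF : Differentiable ℂ F) (h0 : ∃ z, F z ≠ 0)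
    (hg : HasGrowth F) (hfin : {z | F z = 0}.Finite) :
    ∃ (P : Polynomial ℂ) (b : ℂ), ∀ z, F z = P.eval z * exp (b * z) := by
  classical
  obtain ⟨S, hS⟩ : ∃ S : Finset ℂ, ∀ z, F z = 0 → z ∈ S :=
    ⟨hfin.toFinset, fun z hz => hfin.mem_toFinset.mpr hz⟩
  clear hfin
  induction S using Finset.induction_on generalizing F with
  | empty =>
    obtain ⟨b, hb⟩ := eq_exp_of_growth hF (fun z hz => absurd (hS z hz) (Finset.notMem_empty z)) hg
    exact ⟨Polynomial.C (F 0), b, fun z => by rw [Polynomial.eval_C]; exact hb z⟩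
  | insert a S _ ih =>
    obtain ⟨n, G, hG, hGa, hFG⟩ := exists_divide hF h0 a
    have hG0 : ∃ z, G z ≠ 0 := ⟨a, hGa⟩
    obtain ⟨P, b, hP⟩ := ih hG hG0 (hg.of_mul_pow hG hFG) (by
      intro z hz
      have h1 : F z = 0 := by rw [hFG z, hz, mul_zero]
      rcases Finset.mem_insert.mp (hS z h1) with rfl | h2
      · exact absurd hz hGa
      · exact h2)
    refine ⟨(Polynomial.X - Polynomial.C a) ^ n * P, b, fun z => ?_⟩
    rw [hFG z, hP z]
    simp only [Polynomial.eval_mul, Polynomial.eval_pow, Polynomial.eval_sub, Polynomial.eval_X,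
      Polynomial.eval_C]
    ring

/-- polynomials times exponentials on the positive real axis -/
theorem exists_bound_poly_exp (P : Polynomial ℂ) (b : ℂ) :
    ∃ B : ℝ, ∀ x : ℝ, 0 ≤ x → ‖P.eval (x : ℂ) * exp (b * x)‖ ≤ Real.exp (B * (1 + x)) := by
  have hP : ∃ B : ℝ, 0 ≤ B ∧ ∀ x : ℝ, 0 ≤ x → ‖P.eval (x : ℂ)‖ ≤ Real.exp (B * (1 + x)) := by
    induction P using Polynomial.induction_on' with
    | add p q hp hq =>
      obtain ⟨B, hB0, hB⟩ := hp
      obtain ⟨C, hC0, hC⟩ := hq
      refine ⟨B + C + 1, by linarith, fun x hx => ?_⟩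
      rw [Polynomial.eval_add]
      refine (norm_add_le _ _).trans ((add_le_add (hB x hx) (hC x hx)).trans ?_)
      have h1 : Real.exp (B * (1 + x)) ≤ Real.exp ((B + C) * (1 + x)) :=
        Real.exp_le_exp.mpr (by nlinarith)
      have h2 : Real.exp (C * (1 + x)) ≤ Real.exp ((B + C) * (1 + x)) :=
        Real.exp_le_exp.mpr (by nlinarith)
      have h3 : (2 : ℝ) ≤ Real.exp (1 * (1 + x)) := by
        have := Real.add_one_le_exp (1 * (1 + x))
        linarith
      have h4 : Real.exp ((B + C + 1) * (1 + x)) =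
          Real.exp ((B + C) * (1 + x)) * Real.exp (1 * (1 + x)) := by
        rw [← Real.exp_add]; congr 1; ring
      rw [h4]
      nlinarith [Real.exp_pos ((B + C) * (1 + x))]
    | monomial n a =>
      refine ⟨n + ‖a‖, by positivity, fun x hx => ?_⟩
      rw [Polynomial.eval_monomial, norm_mul, norm_pow, norm_real, Real.norm_eq_abs,
        abs_of_nonneg hx]
      have h1 : x ^ n ≤ Real.exp (n * (1 + x)) := by
        have h2 : x ≤ Real.exp (1 + x) := by
          have := Real.add_one_le_exp (1 + x)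
          linarith
        calc x ^ n ≤ Real.exp (1 + x) ^ n := by gcongr
          _ = Real.exp (n * (1 + x)) := by rw [← Real.exp_nat_mul]
      have h3 : ‖a‖ ≤ Real.exp (‖a‖ * (1 + x)) := by
        have h4 := Real.add_one_le_exp (‖a‖ * (1 + x))
        nlinarith [norm_nonneg a]
      calc ‖a‖ * x ^ n ≤ Real.exp (‖a‖ * (1 + x)) * Real.exp (n * (1 + x)) := by gcongr
        _ = Real.exp ((n + ‖a‖) * (1 + x)) := by rw [← Real.exp_add]; congr 1; ring
  obtain ⟨B, hB0, hB⟩ := hP
  refine ⟨B + ‖b‖, fun x hx => ?_⟩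
  rw [norm_mul, norm_exp, add_mul, Real.exp_add]
  refine mul_le_mul (hB x hx) (Real.exp_le_exp.mpr ?_) (Real.exp_nonneg _) (Real.exp_nonneg _)
  have h1 : (b * (x : ℂ)).re ≤ ‖b‖ * x := by
    refine (re_le_norm _).trans ?_
    rw [norm_mul, norm_real, Real.norm_eq_abs, abs_of_nonneg hx]
  nlinarith [norm_nonneg b]

/-- **Infinitely many zeros**: an entire function of order less than two which grows faster than
every exponential on the positive real axis has infinitely many zeros. -/
theorem infinite_zeros_of_growth {F : ℂ → ℂ} (hF : Differentiable ℂ F) (hg : HasGrowth F)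
    (hlow : ∀ B : ℝ, ∃ x : ℝ, 0 ≤ x ∧ Real.exp (B * (1 + x)) < ‖F x‖) :
    {z | F z = 0}.Infinite := by
  intro hfin
  have h0 : ∃ z, F z ≠ 0 := by
    obtain ⟨x, -, hx⟩ := hlow 0
    refine ⟨x, fun h => ?_⟩
    rw [h, norm_zero] at hx
    exact absurd hx (not_lt.mpr (Real.exp_nonneg _))
  obtain ⟨P, b, h⟩ := eq_poly_mul_exp hF h0 hg hfin
  obtain ⟨B, hB⟩ := exists_bound_poly_exp P b
  obtain ⟨x, hx0, hx⟩ := hlow B
  rw [h x] at hx
  exact absurd (hB x hx0) (not_le.mpr hx)

end Fermat.Agent.Cor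

end
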