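import Fermat.Agent.Corollaries.ZetaK.Bauer
import Fermat.Agent.Frob.DensityAnalytic
import Fermat.Prelude.Def_GaloisRep_ComplexConjugation

/-!
# Arithmetically equivalent number fields

`K`, `L` number fields. `ArithEquiv K L` : every element of `Gal(ℚ̄/ℚ)` fixes as many embeddings of
`K` as of `L` (Gassmann). This is equivalent to each of

* the residue degrees above `p` are the same for almost all `p` (`arithEquiv_iff_decType`),
* the numbers of places of degree one above `p` are the same for almost all `p`
  (`arithEquiv_iff_degOne`),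

and follows from the equality of the Dedekind zeta functions (`ArithEquiv.of_dedekindZeta`).
Arithmetically equivalent fields have the same degree, the same number of real places and the same
normal closure; they are isomorphic if one of them is Galois over `ℚ`.
-/

set_option autoImplicit false

namespace Fermat.Agent.Cor.Frob

open NumberField IsDedekindDomain Filter
open Fermat.Agent.Frob Fermat.Agent.Classic.Disc Fermat.Agent.Classic.Emb

local notation "Qbar" => AlgebraicClosure ℚ

variable (K L : Type*) [Field K] [NumberField K] [Field L] [NumberField L]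

/-- the number of embeddings of `K` in `ℚ̄` fixed by `σ` -/
noncomputable def fixCard (σ : GQ) : ℕ := Nat.card {j : K →+* Qbar // embPerm K σ j = j}

/-- **Arithmetically equivalent** number fields: the permutation characters of `Gal(ℚ̄/ℚ)` on the
embeddings are equal. -/
def ArithEquiv : Prop := ∀ σ : GQ, fixCard K σ = fixCard L σ

variable {K L}

omit [NumberField K] in
lemma fixCard_eq_of_pow {σ φ : GQ} {k k' : ℕ} (h : embPerm K φ = embPerm K σ ^ k)
    (h' : embPerm K σ = embPerm K φ ^ k') : fixCard K φ = fixCard K σ := by
  refine Nat.card_congr (Equiv.subtypeEquivRight fun j => ⟨fun hj => ?_, fun hj => ?_⟩)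
  · rw [h']
    exact Equiv.Perm.pow_apply_eq_self_of_apply_eq_self hj k'
  · rw [h]
    exact Equiv.Perm.pow_apply_eq_self_of_apply_eq_self hj k

/-- The number of cycles of length one is the number of fixed embeddings. -/
lemma count_one_cycType (σ : GQ) : (cycType K (embPerm K σ)).count 1 = fixCard K σ := by
  classical
  have h := card_fix_pow (embPerm K σ) 1
  have h1 : ∀ m : Multiset ℕ, (m.filter (· ∣ 1)).sum = m.count 1 := by
    intro m
    have h2 : m.filter (· ∣ 1) = m.filter (1 = ·) :=
      Multiset.filter_congr fun x _ => by rw [Nat.dvd_one, eq_comm]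
    rw [h2, Multiset.filter_eq, Multiset.sum_replicate, smul_eq_mul, mul_one]
  rw [h1, pow_one] at h
  rw [fixCard, Nat.card_eq_fintype_card, Fintype.card_subtype, cycType]
  convert h.symm

lemma cycType_eq_of_fixCard {σ τ : GQ} (h : ∀ k : ℕ, fixCard K (σ ^ k) = fixCard L (τ ^ k)) :
    cycType K (embPerm K σ) = cycType L (embPerm L τ) := by
  classical
  refine ext_of_sum (fun x hx => ?_) (fun x hx => ?_) fun k => ?_
  · rw [cycType] at hx
    exact Nat.Partition.parts_pos _ hx
  · rw [cycType] at hx
    exact Nat.Partition.parts_pos _ hx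
  · have hK := card_fix_pow (embPerm K σ) k
    have hL := card_fix_pow (embPerm L τ) k
    have h1 := h k
    rw [fixCard, fixCard, Nat.card_eq_fintype_card, Nat.card_eq_fintype_card, Fintype.card_subtype,
      Fintype.card_subtype, map_pow, map_pow] at h1
    rw [cycType, cycType]
    convert hK.symm.trans (Eq.trans ?_ hL) using 2
    convert h1

lemma fixCard_eq_of_cycType {σ τ : GQ} (h : cycType K (embPerm K σ) = cycType L (embPerm L τ)) :
    fixCard K σ = fixCard L τ := by
  rw [← count_one_cycType, h, count_one_cycType]

theorem arithEquiv_iff_cycType :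
    ArithEquiv K L ↔ ∀ σ : GQ, cycType K (embPerm K σ) = cycType L (embPerm L σ) :=
  ⟨fun h _ => cycType_eq_of_fixCard fun _ => h _, fun h σ => fixCard_eq_of_cycType (h σ)⟩

lemma degOne_eq_count (p : ℕ) : degOne K p = (decType K p).count 1 := by
  classical
  rw [degOne, decType, Multiset.count_map]
  have h : (above K p).filter (fun v => fdeg v = 1) =
      (above K p).filter fun v => 1 = fdeg v := Finset.filter_congr fun v _ => eq_comm
  rw [h]
  rfl

/-- The number of places of degree one determines the permutation character. -/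
theorem ArithEquiv.of_degOne (h : {p : ℕ | p.Prime ∧ degOne K p ≠ degOne L p}.Finite) :
    ArithEquiv K L := by
  intro σ
  obtain ⟨D, hD, hK⟩ := decType_eq (K := K)
  obtain ⟨D', hD', hL⟩ := decType_eq (K := L)
  obtain ⟨p, hp, hpS, A, hA, φ, hφ, k, k', ⟨h1, h1'⟩, ⟨h2, h2'⟩⟩ :=
    exists_frob K L σ (h.union ((D * D').primeFactors.finite_toSet))
  have hpD : ¬ p ∣ D * D' := fun hd => hpS (Or.inr (Nat.mem_primeFactors.mpr
    ⟨hp, hd, Nat.mul_ne_zero hD hD'⟩))
  have h3 : degOne K p = degOne L p := by
    by_contra h4
    exact hpS (Or.inl ⟨hp, h4⟩)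
  rw [degOne_eq_count, degOne_eq_count, hK p hp (fun hd => hpD (hd.mul_right _)) A hA φ hφ,
    hL p hp (fun hd => hpD (hd.mul_left _)) A hA φ hφ, count_one_cycType, count_one_cycType] at h3
  rw [← fixCard_eq_of_pow h1 h1', ← fixCard_eq_of_pow h2 h2', h3]

theorem ArithEquiv.finite_decType (h : ArithEquiv K L) :
    {p : ℕ | p.Prime ∧ decType K p ≠ decType L p}.Finite := by
  obtain ⟨D, hD, hK⟩ := decType_eq (K := K)
  obtain ⟨D', hD', hL⟩ := decType_eq (K := L)
  refine ((D * D').primeFactors.finite_toSet).subset ?_
  rintro p ⟨hp, hne⟩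
  rw [Finset.mem_coe, Nat.mem_primeFactors]
  refine ⟨hp, ?_, Nat.mul_ne_zero hD hD'⟩
  by_contra hpD
  obtain ⟨A, hA, φ, hφ⟩ := exists_frobenius p hp
  refine hne ?_
  rw [hK p hp (fun hd => hpD (hd.mul_right _)) A hA φ hφ,
    hL p hp (fun hd => hpD (hd.mul_left _)) A hA φ hφ]
  exact arithEquiv_iff_cycType.mp h φ

/-- **Gassmann**: arithmetically equivalent fields are the fields with the same residue degrees above
almost all primes. -/
theorem arithEquiv_iff_decType :
    ArithEquiv K L ↔ {p : ℕ | p.Prime ∧ decType K p ≠ decType L p}.Finite :=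
  ⟨fun h => h.finite_decType, fun h => .of_degOne (h.subset fun p hp =>
    ⟨hp.1, fun h1 => hp.2 (by rw [degOne_eq_count, degOne_eq_count, h1])⟩)⟩

/-- It is enough to know the number of places of degree one. -/
theorem arithEquiv_iff_degOne :
    ArithEquiv K L ↔ {p : ℕ | p.Prime ∧ degOne K p ≠ degOne L p}.Finite :=
  ⟨fun h => h.finite_decType.subset fun p hp =>
    ⟨hp.1, fun h1 => hp.2 (by rw [degOne_eq_count, degOne_eq_count, h1])⟩, .of_degOne⟩

/-! ### Consequences -/

omit [NumberField K] [NumberField L] in
lemma ArithEquiv.symm (h : ArithEquiv K L) : ArithEquiv L K := fun σ => (h σ).symm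

lemma fixCard_le (σ : GQ) : fixCard K σ ≤ Module.finrank ℚ K := by
  rw [← natCard_emb]
  exact Finite.card_subtype_le _

/-- `σ` fixes all embeddings iff it fixes `[K : ℚ]` embeddings. -/
lemma fixCard_eq_finrank_iff {σ : GQ} : fixCard K σ = Module.finrank ℚ K ↔ embPerm K σ = 1 := by
  classical
  rw [← natCard_emb, fixCard]
  constructor
  · intro h
    ext1 j
    by_contra hj
    have h1 := Fintype.card_subtype_lt (p := fun j => embPerm K σ j = j) hj
    rw [Nat.card_eq_fintype_card, Nat.card_eq_fintype_card] at h
    exact h1.ne h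
  · intro h
    rw [h]
    exact Nat.card_congr (Equiv.subtypeUnivEquiv fun _ => rfl)

/-- Arithmetically equivalent fields have the same degree. -/
theorem ArithEquiv.finrank_eq (h : ArithEquiv K L) : Module.finrank ℚ K = Module.finrank ℚ L := by
  rw [← fixCard_eq_finrank_iff.mpr (map_one (embPerm K)),
    ← fixCard_eq_finrank_iff.mpr (map_one (embPerm L)), h 1]

lemma ArithEquiv.embPerm_eq_one_iff (h : ArithEquiv K L) (σ : GQ) :
    embPerm K σ = 1 ↔ embPerm L σ = 1 := by
  rw [← fixCard_eq_finrank_iff, ← fixCard_eq_finrank_iff, h σ, h.finrank_eq]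

variable (K) in
lemma mem_fixingSubgroup_conjField {σ : GQ} :
    σ ∈ (conjField K).fixingSubgroup ↔ embPerm K σ = 1 := by
  rw [IntermediateField.mem_fixingSubgroup_iff]
  constructor
  · intro h
    ext j x
    exact h _ (mem_conjField j x)
  · intro h
    have h1 : conjField K ≤ IntermediateField.fixedField (Subgroup.zpowers σ) := by
      refine iSup_le fun j => ?_
      rintro _ ⟨x, rfl⟩
      rw [IntermediateField.mem_fixedField_iff]
      have h2 : σ (j x) = j x := RingHom.congr_fun (DFunLike.congr_fun h j) x
      intro τ hτ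
      have h3 : Subgroup.zpowers σ ≤ MulAction.stabilizer GQ (j x) := by
        rw [Subgroup.zpowers_le, MulAction.mem_stabilizer_iff]
        exact h2
      exact h3 hτ
    intro x hx
    exact (IntermediateField.mem_fixedField_iff _ _).mp (h1 hx) σ (Subgroup.mem_zpowers σ)

/-- Arithmetically equivalent fields have the same normal closure in `ℚ̄`. -/
theorem ArithEquiv.conjField_eq (h : ArithEquiv K L) : conjField K = conjField L := by
  have h1 : (conjField K).fixingSubgroup = (conjField L).fixingSubgroup := by
    ext σ
    rw [mem_fixingSubgroup_conjField, mem_fixingSubgroup_conjField, h.embPerm_eq_one_iff]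
  rw [← InfiniteGalois.fixedField_fixingSubgroup (conjField K), h1,
    InfiniteGalois.fixedField_fixingSubgroup]

/-- Arithmetically equivalent fields are isomorphic if one of them is Galois over `ℚ`. -/
theorem ArithEquiv.nonempty_ringEquiv [IsGalois ℚ K] (h : ArithEquiv K L) :
    Nonempty (K ≃+* L) := by
  obtain ⟨j⟩ := nonempty_emb K
  obtain ⟨i⟩ := nonempty_emb L
  obtain ⟨f, -⟩ := exists_ringHom_of_fix (j := j) (i := i) fun σ hσ => by
    have h1 : embPerm K σ = embPerm K 1 := embPerm_eq_of_isGalois (j := j) hσ
    rw [map_one, h.embPerm_eq_one_iff] at h1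
    exact fun x => RingHom.congr_fun (DFunLike.congr_fun h1 i) x
  have h2 := h.finrank_eq
  have h3 : Function.Surjective f.toRatAlgHom.toLinearMap := by
    have h4 := (LinearMap.injective_iff_surjective_of_finrank_eq_finrank
      (f := f.toRatAlgHom.toLinearMap) h2.symm).mp f.injective
    exact h4
  exact ⟨(RingEquiv.ofBijective f ⟨f.injective, h3⟩).symm⟩

variable (K) in
lemma bijective_comp_complexEmbedding :
    Function.Bijective fun j : K →+* Qbar => complexEmbedding.toRingHom.comp j := by
  rw [Fintype.bijective_iff_injective_and_card]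
  refine ⟨fun j j' h => RingHom.ext fun x => ?_, ?_⟩
  · exact complexEmbedding.toRingHom.injective (RingHom.congr_fun h x)
  · rw [Embeddings.card K Qbar, Embeddings.card K ℂ]

/-- The number of real places is the number of embeddings fixed by complex conjugation. -/
lemma nrRealPlaces_eq_fixCard : InfinitePlace.nrRealPlaces K = fixCard K complexConjugation := by
  classical
  rw [← InfinitePlace.card_real_embeddings, fixCard, ← Nat.card_eq_fintype_card]
  symm
  refine Nat.card_congr ((Equiv.ofBijective _ (bijective_comp_complexEmbedding K)).subtypeEquiv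
    fun j => ?_)
  rw [Equiv.ofBijective_apply, ComplexEmbedding.isReal_iff, RingHom.ext_iff, RingHom.ext_iff]
  refine forall_congr' fun x => ?_
  rw [ComplexEmbedding.conjugate_coe_eq, embPerm_apply]
  have h1 := complexEmbedding_complexConjugation (j x)
  change _ ↔ starRingEnd ℂ (complexEmbedding (j x)) = complexEmbedding (j x)
  rw [← h1]
  exact complexEmbedding.injective.eq_iff.symm

theorem ArithEquiv.nrRealPlaces_eq (h : ArithEquiv K L) :
    InfinitePlace.nrRealPlaces K = InfinitePlace.nrRealPlaces L := by
  rw [nrRealPlaces_eq_fixCard, nrRealPlaces_eq_fixCard, h]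

theorem ArithEquiv.nrComplexPlaces_eq (h : ArithEquiv K L) :
    InfinitePlace.nrComplexPlaces K = InfinitePlace.nrComplexPlaces L := by
  have h1 := InfinitePlace.card_add_two_mul_card_eq_rank K
  have h2 := InfinitePlace.card_add_two_mul_card_eq_rank L
  have h3 := h.nrRealPlaces_eq
  have h4 := h.finrank_eq
  omega

end Fermat.Agent.Cor.Frob
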