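import Fermat.Agent.Corollaries.ZetaK.DegOne

/-!
# Primes represented by norm forms

For every non-zero ideal `𝔞` of the ring of integers of a number field there are infinitely many
primes `p` with `|N(α)| = p N(𝔞)` for some `α ∈ 𝔞`.
-/

set_option autoImplicit false

noncomputable section

namespace Fermat.Agent.Cor

open NumberField Fermat.Agent.ClassL
open scoped nonZeroDivisors

universe u

variable {K : Type u} [Field K] [NumberField K]

theorem exists_prime_norm_form {𝔞 : Ideal (𝓞 K)} (h𝔞 : 𝔞 ≠ ⊥) (B : ℕ) :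
    ∃ p : ℕ, p.Prime ∧ B < p ∧ ∃ α ∈ 𝔞, (Algebra.norm ℤ α).natAbs = p * Ideal.absNorm 𝔞 := by
  let J : (Ideal (𝓞 K))⁰ := ⟨𝔞, mem_nonZeroDivisors_of_ne_zero h𝔞⟩
  obtain ⟨P, hP, hp, hB⟩ := exists_deg_one_in_class (ClassGroup.mk0 J)⁻¹ B
  have h1 : ClassGroup.mk0 (P.1 * J) = 1 := by
    rw [map_mul, hP, inv_mul_cancel]
  rw [ClassGroup.mk0_eq_one_iff] at h1
  obtain ⟨⟨α, hα⟩⟩ := h1
  have h2 : (P.1 : Ideal (𝓞 K)) * 𝔞 = Ideal.span {α} := hα
  refine ⟨_, hp, hB, α, ?_, ?_⟩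
  · have h3 : α ∈ (P.1 : Ideal (𝓞 K)) * 𝔞 := by
      rw [h2]
      exact Ideal.mem_span_singleton_self α
    have h4 : (P.1 : Ideal (𝓞 K)) * 𝔞 ≤ 𝔞 := Ideal.mul_le_right
    exact h4 h3
  · rw [← Ideal.absNorm_span_singleton, ← h2, map_mul]

/-- **Norm forms represent infinitely many primes.** -/
theorem infinite_primes_norm_form {𝔞 : Ideal (𝓞 K)} (h𝔞 : 𝔞 ≠ ⊥) :
    {p : ℕ | p.Prime ∧
      ∃ α ∈ 𝔞, (Algebra.norm ℤ α).natAbs = p * Ideal.absNorm 𝔞}.Infinite := by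
  refine Set.infinite_of_forall_exists_gt fun B => ?_
  obtain ⟨p, hp, hB, h⟩ := exists_prime_norm_form h𝔞 B
  exact ⟨p, ⟨hp, h⟩, hB⟩

/-- **Infinitely many primes are absolute values of norms of algebraic integers of `K`.** -/
theorem infinite_primes_norm (K : Type u) [Field K] [NumberField K] :
    {p : ℕ | p.Prime ∧ ∃ α : 𝓞 K, (Algebra.norm ℤ α).natAbs = p}.Infinite := by
  refine (infinite_primes_norm_form (K := K) (𝔞 := ⊤) top_ne_bot).mono ?_
  rintro p ⟨hp, α, -, hα⟩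
  rw [Ideal.absNorm_top, mul_one] at hα
  exact ⟨hp, α, hα⟩

end Fermat.Agent.Cor
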