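import Fermat.Agent.Corollaries.ZetaK.Landau
import Fermat.Agent.Corollaries.ZetaK.NormForm

/-!
# The natural density of the primes represented by norm forms of quadratic fields

* `prime_ideal_theorem_class_deg_one`: the number of the prime ideals of residue degree one and
  norm `≤ x` in a given ideal class is asymptotic to `(1 / h) x / log x`.
* `density_norm_form`: `K` quadratic, `𝔞` a non-zero ideal: the number of the primes `p ≤ x` with
  `|N(α)| = p N(𝔞)` for some `α ∈ 𝔞` is asymptotic to `(1 / h) x / log x`, resp.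
  `(1 / 2h) x / log x` if the class of `𝔞` has order at most two.
-/

set_option autoImplicit false

noncomputable section

namespace Fermat.Agent.Cor

open NumberField Filter Topology Fermat.Agent.ClassL Module
open scoped nonZeroDivisors

universe u

/-! ### Limits -/

theorem qd_log_div : Tendsto (fun x : ℕ => Real.log x / x) atTop (𝓝 0) :=
  Real.isLittleO_log_id_atTop.tendsto_div_nhds_zero.comp tendsto_natCast_atTop_atTop

theorem qd_sqrt_log :
    Tendsto (fun x : ℕ => (Nat.sqrt x : ℝ) * Real.log x / x) atTop (𝓝 0) := by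
  have h1 : Tendsto (fun x : ℕ => Real.log x / (x : ℝ) ^ (1 / 2 : ℝ)) atTop (𝓝 0) :=
    (isLittleO_log_rpow_atTop (by norm_num : (0 : ℝ) < 1 / 2)).tendsto_div_nhds_zero.comp
      tendsto_natCast_atTop_atTop
  refine squeeze_zero (fun x => by positivity) (fun x => ?_) h1
  rcases Nat.eq_zero_or_pos x with rfl | hx
  · simp
  have hx' : (0 : ℝ) < x := by exact_mod_cast hx
  rw [← Real.sqrt_eq_rpow]
  have hs : (0 : ℝ) < √(x : ℝ) := Real.sqrt_pos.mpr hx'
  have hlog : 0 ≤ Real.log (x : ℝ) := Real.log_natCast_nonneg x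
  have h2 : (Nat.sqrt x : ℝ) ≤ √(x : ℝ) := Real.nat_sqrt_le_real_sqrt
  have h3 : Real.log (x : ℝ) / √(x : ℝ) = √(x : ℝ) * Real.log x / x := by
    rw [div_eq_div_iff hs.ne' hx'.ne']
    have := Real.mul_self_sqrt hx'.le
    linear_combination (-Real.log (x : ℝ)) * this
  rw [h3]
  gcongr

/-- an error `≤ A √x + B` does not matter -/
theorem qd_tendsto_of_bounded {f g : ℕ → ℝ} {A B : ℝ}
    (h : ∀ x : ℕ, |f x - g x| ≤ A * Nat.sqrt x + B) {l : ℝ}
    (hf : Tendsto (fun x : ℕ => f x * Real.log x / x) atTop (𝓝 l)) :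
    Tendsto (fun x : ℕ => g x * Real.log x / x) atTop (𝓝 l) := by
  have h0 : Tendsto (fun x : ℕ => (f x - g x) * Real.log x / x) atTop (𝓝 0) := by
    have h1 : Tendsto (fun x : ℕ => A * ((Nat.sqrt x : ℝ) * Real.log x / x) +
        B * (Real.log x / x)) atTop (𝓝 0) := by
      simpa using (qd_sqrt_log.const_mul A).add (qd_log_div.const_mul B)
    refine squeeze_zero_norm (fun x => ?_) h1
    rw [mul_div_assoc, norm_mul, Real.norm_eq_abs, Real.norm_eq_abs,
      abs_of_nonneg (div_nonneg (Real.log_natCast_nonneg x) (Nat.cast_nonneg x))]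
    refine (mul_le_mul_of_nonneg_right (h x)
      (div_nonneg (Real.log_natCast_nonneg x) (Nat.cast_nonneg x))).trans (le_of_eq ?_)
    ring
  have h2 := hf.sub h0
  rw [sub_zero] at h2
  refine h2.congr fun x => ?_
  ring

section General

variable {K : Type u} [Field K] [NumberField K]

theorem qd_finite (x : ℕ) : {P : Pr K | Ideal.absNorm (P.1 : Ideal (𝓞 K)) ≤ x}.Finite := by
  have h := Ideal.finite_setOfPred_absNorm_le₀ (S := 𝓞 K) x
  exact h.preimage (f := fun P : Pr K => P.1) Subtype.val_injective.injOn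

variable (K) in
/-- the prime ideals of norm `≤ x` -/
def prLe (x : ℕ) : Finset (Pr K) := (qd_finite (K := K) x).toFinset

theorem mem_prLe {x : ℕ} {P : Pr K} :
    P ∈ prLe K x ↔ Ideal.absNorm (P.1 : Ideal (𝓞 K)) ≤ x := by
  rw [prLe, Set.Finite.mem_toFinset]
  rfl

open scoped Classical in
/-- there are at most `[K : ℚ] (√x + 1)` prime ideals of norm `≤ x` and residue degree `≥ 2` -/
theorem card_deg_two_le (x : ℕ) :
    ((prLe K x).filter fun P => ¬ (Ideal.absNorm (P.1 : Ideal (𝓞 K))).Prime).card ≤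
      finrank ℚ K * (Nat.sqrt x + 1) := by
  choose p hp hmem f hf hN using deg_exists_prime (K := K)
  set S := (prLe K x).filter fun P => ¬ (Ideal.absNorm (P.1 : Ideal (𝓞 K))).Prime with hS
  have h1 : S.card ≤ finrank ℚ K * (S.image p).card := by
    refine Finset.card_le_mul_card_image S _ fun q hq => ?_
    obtain ⟨P₀, -, hP₀⟩ := Finset.mem_image.mp hq
    exact deg_card_above_le (hP₀ ▸ hp P₀) _ fun P hP => by
      have h6 := hmem P
      rwa [(Finset.mem_filter.mp hP).2] at h6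
  have h2 : S.image p ⊆ Finset.range (Nat.sqrt x + 1) := by
    intro q hq
    obtain ⟨P, hP, rfl⟩ := Finset.mem_image.mp hq
    rw [hS, Finset.mem_filter, mem_prLe] at hP
    have hf2 : 2 ≤ f P := by
      by_contra hlt
      have : f P = 1 := by have := hf P; omega
      apply hP.2
      rw [hN P, this, pow_one]
      exact hp P
    rw [Finset.mem_range, Nat.lt_succ_iff, Nat.le_sqrt']
    refine le_trans ?_ hP.1
    rw [hN P]
    exact Nat.pow_le_pow_right (hp P).pos hf2
  refine h1.trans (Nat.mul_le_mul_left _ ?_)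
  exact (Finset.card_le_card h2).trans (by rw [Finset.card_range])

open scoped Classical in
/-- **The prime ideal theorem for the prime ideals of residue degree one in an ideal class.** -/
theorem prime_ideal_theorem_class_deg_one (C : ClassGroup (𝓞 K)) :
    Tendsto (fun x : ℕ => (((prLe K x).filter fun P => ClassGroup.mk0 P.1 = C ∧
        (Ideal.absNorm (P.1 : Ideal (𝓞 K))).Prime).card : ℝ) * Real.log x / x) atTop
      (𝓝 (1 / Nat.card (ClassGroup (𝓞 K)))) := by
  refine qd_tendsto_of_bounded (A := finrank ℚ K) (B := finrank ℚ K) (fun x => ?_)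
    (prime_ideal_theorem_class K C)
  have h1 : Nat.card {P : Pr K // Ideal.absNorm ((P.1 : (Ideal (𝓞 K))⁰) : Ideal (𝓞 K)) ≤ x ∧
      ClassGroup.mk0 P.1 = C} = ((prLe K x).filter fun P => ClassGroup.mk0 P.1 = C).card := by
    rw [Nat.subtype_card]
    intro P
    rw [Finset.mem_filter, mem_prLe]
  rw [h1]
  have h2 := Finset.card_filter_add_card_filter_not (s := (prLe K x).filter fun P =>
    ClassGroup.mk0 P.1 = C) (fun P => (Ideal.absNorm (P.1 : Ideal (𝓞 K))).Prime)
  rw [Finset.filter_filter, Finset.filter_filter] at h2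
  have h3 : ((prLe K x).filter fun P => ClassGroup.mk0 P.1 = C ∧
      ¬ (Ideal.absNorm (P.1 : Ideal (𝓞 K))).Prime).card ≤ finrank ℚ K * (Nat.sqrt x + 1) := by
    refine (Finset.card_le_card fun P hP => ?_).trans (card_deg_two_le x)
    rw [Finset.mem_filter] at hP ⊢
    exact ⟨hP.1, hP.2.2⟩
  rw [← h2, Nat.cast_add, add_sub_cancel_left, Nat.abs_cast]
  have h4 : (((prLe K x).filter fun P => ClassGroup.mk0 P.1 = C ∧
      ¬ (Ideal.absNorm (P.1 : Ideal (𝓞 K))).Prime).card : ℝ) ≤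
      (finrank ℚ K * (Nat.sqrt x + 1) : ℕ) := by exact_mod_cast h3
  refine h4.trans (le_of_eq ?_)
  push_cast
  ring

/-- a prime `p` is represented by the norm form of `𝔞` iff some prime ideal of norm `p` lies in
the class of `𝔞⁻¹` -/
theorem norm_form_iff (J : (Ideal (𝓞 K))⁰) {p : ℕ} (hp : p.Prime) :
    (∃ α ∈ (J : Ideal (𝓞 K)), (Algebra.norm ℤ α).natAbs = p * Ideal.absNorm (J : Ideal (𝓞 K))) ↔
      ∃ P : Pr K, Ideal.absNorm (P.1 : Ideal (𝓞 K)) = p ∧
        ClassGroup.mk0 P.1 = (ClassGroup.mk0 J)⁻¹ := by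
  have hJ0 : (J : Ideal (𝓞 K)) ≠ 0 := nonZeroDivisors.coe_ne_zero J
  have hJN : Ideal.absNorm (J : Ideal (𝓞 K)) ≠ 0 := by
    rw [Ne, Ideal.absNorm_eq_zero_iff]
    exact hJ0
  constructor
  · rintro ⟨α, hα, hN⟩
    have h1 : (J : Ideal (𝓞 K)) ∣ Ideal.span {α} := Ideal.dvd_span_singleton.mpr hα
    obtain ⟨I, hI⟩ := h1
    have h2 : Ideal.absNorm I = p := by
      rw [← Ideal.absNorm_span_singleton, hI, map_mul, mul_comm] at hN
      exact Nat.eq_of_mul_eq_mul_right (Nat.pos_of_ne_zero hJN) hN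
    have hI0 : I ≠ ⊥ := by
      rintro rfl
      rw [Ideal.absNorm_bot] at h2
      exact hp.ne_zero h2.symm
    have hIp : I.IsPrime := Ideal.isPrime_of_irreducible_absNorm (by rw [h2]; exact hp)
    refine ⟨⟨⟨I, mem_nonZeroDivisors_of_ne_zero hI0⟩, Ideal.prime_of_isPrime hI0 hIp⟩, h2, ?_⟩
    rw [eq_inv_iff_mul_eq_one, ← map_mul, ClassGroup.mk0_eq_one_iff]
    refine ⟨⟨α, ?_⟩⟩
    have h3 : I * (J : Ideal (𝓞 K)) = Ideal.span {α} := by rw [hI, mul_comm]
    exact h3
  · rintro ⟨P, hP, hC⟩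
    have h1 : ClassGroup.mk0 (P.1 * J) = 1 := by
      rw [map_mul, hC, inv_mul_cancel]
    rw [ClassGroup.mk0_eq_one_iff] at h1
    obtain ⟨⟨α, hα⟩⟩ := h1
    have h2 : (P.1 : Ideal (𝓞 K)) * (J : Ideal (𝓞 K)) = Ideal.span {α} := hα
    refine ⟨α, ?_, ?_⟩
    · have h3 : α ∈ (P.1 : Ideal (𝓞 K)) * (J : Ideal (𝓞 K)) := by
        rw [h2]
        exact Ideal.mem_span_singleton_self α
      have h4 : (P.1 : Ideal (𝓞 K)) * (J : Ideal (𝓞 K)) ≤ (J : Ideal (𝓞 K)) :=
        Ideal.mul_le_right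
      exact h4 h3
    · rw [← Ideal.absNorm_span_singleton, ← h2, map_mul, hP]

end General

/-! ### Quadratic fields -/

section Quadratic

variable {K : Type u} [Field K] [NumberField K]

/-- the prime ideals of norm `p` in a quadratic field -/
theorem exists_conj_prime (h2 : finrank ℚ K = 2) {p : ℕ} (hp : p.Prime) {P : Pr K}
    (hP : Ideal.absNorm (P.1 : Ideal (𝓞 K)) = p) :
    ∃ Q : Pr K, Ideal.absNorm (Q.1 : Ideal (𝓞 K)) = p ∧
      ClassGroup.mk0 Q.1 = (ClassGroup.mk0 P.1)⁻¹ ∧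
      Ideal.span {(p : 𝓞 K)} = (P.1 : Ideal (𝓞 K)) * (Q.1 : Ideal (𝓞 K)) ∧
      ∀ R : Pr K, Ideal.absNorm (R.1 : Ideal (𝓞 K)) = p → R = P ∨ R = Q := by
  have h1 : (P.1 : Ideal (𝓞 K)) ∣ Ideal.span {(p : 𝓞 K)} := by
    refine Ideal.dvd_span_singleton.mpr ?_
    have := Ideal.absNorm_mem (P.1 : Ideal (𝓞 K))
    rwa [hP] at this
  obtain ⟨I, hI⟩ := h1
  have hIN : Ideal.absNorm I = p := by
    have h3 := congrArg Ideal.absNorm hI
    rw [deg_absNorm_span, h2, map_mul, hP, pow_two] at h3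
    exact (Nat.eq_of_mul_eq_mul_left hp.pos h3).symm
  have hI0 : I ≠ ⊥ := by
    rintro rfl
    rw [Ideal.absNorm_bot] at hIN
    exact hp.ne_zero hIN.symm
  have hIp : I.IsPrime := Ideal.isPrime_of_irreducible_absNorm (by rw [hIN]; exact hp)
  refine ⟨⟨⟨I, mem_nonZeroDivisors_of_ne_zero hI0⟩, Ideal.prime_of_isPrime hI0 hIp⟩, hIN, ?_,
    hI, ?_⟩
  · rw [eq_inv_iff_mul_eq_one, ← map_mul, ClassGroup.mk0_eq_one_iff]
    refine ⟨⟨(p : 𝓞 K), ?_⟩⟩
    have h3 : I * (P.1 : Ideal (𝓞 K)) = Ideal.span {(p : 𝓞 K)} := by rw [hI, mul_comm]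
    exact h3
  · intro R hR
    have h4 : (R.1 : Ideal (𝓞 K)) ∣ (P.1 : Ideal (𝓞 K)) * I := by
      rw [← hI]
      refine Ideal.dvd_span_singleton.mpr ?_
      have := Ideal.absNorm_mem (R.1 : Ideal (𝓞 K))
      rwa [hR] at this
    rcases R.2.dvd_or_dvd h4 with h | h
    · left
      refine pr_dvd_pr ?_
      rw [nonZeroDivisors_dvd_iff_dvd_coe]
      exact h
    · right
      refine pr_dvd_pr ?_
      rw [nonZeroDivisors_dvd_iff_dvd_coe]
      exact h

/-- an unramified prime is not a square -/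
theorem span_ne_mul_self {p : ℕ} (hpd : ¬ p ∣ (discr K).natAbs) {P : Pr K}
    (hP : Ideal.absNorm (P.1 : Ideal (𝓞 K)) = p) (hp : p.Prime)
    (h : Ideal.span {(p : 𝓞 K)} = (P.1 : Ideal (𝓞 K)) * (P.1 : Ideal (𝓞 K))) : False := by
  have hPp : (P.1 : Ideal (𝓞 K)).IsPrime := Ideal.isPrime_of_prime P.2
  have hmap : (Ideal.span {(p : ℤ)}).map (algebraMap ℤ (𝓞 K)) = Ideal.span {(p : 𝓞 K)} := by
    rw [Ideal.map_span, Set.image_singleton]
    simp
  have hmax : (Ideal.span {(p : ℤ)}).IsMaximal := by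
    have hprime : (Ideal.span {(p : ℤ)}).IsPrime := by
      rw [Ideal.span_singleton_prime (by exact_mod_cast hp.ne_zero)]
      exact Nat.prime_iff_prime_int.mp hp
    exact hprime.isMaximal (by simpa using hp.ne_zero)
  have h1 := pow_sub_one_dvd_differentIdeal ℤ (p := Ideal.span {(p : ℤ)})
    (P.1 : Ideal (𝓞 K)) 2 (by simpa using hp.ne_zero) (by rw [hmap, h, pow_two])
  have h2 := Ideal.absNorm_dvd_absNorm_of_le (Ideal.le_of_dvd h1)
  rw [pow_one, hP, absNorm_differentIdeal K (𝓞 K)] at h2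
  exact hpd h2

open scoped Classical in
/-- the weight of the class of `J` in a quadratic field: `2` if its order is at most two, else `1` -/
def qdWeight (J : (Ideal (𝓞 K))⁰) : ℕ := if ClassGroup.mk0 J ^ 2 = 1 then 2 else 1

theorem qdWeight_pos (J : (Ideal (𝓞 K))⁰) : 0 < qdWeight J := by
  unfold qdWeight
  split_ifs <;> norm_num

theorem qdWeight_le (J : (Ideal (𝓞 K))⁰) : qdWeight J ≤ 2 := by
  unfold qdWeight
  split_ifs <;> norm_num

open scoped Classical in
/-- the number of prime ideals of norm `p` in the class of `J⁻¹` -/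
theorem card_fiber (h2 : finrank ℚ K = 2) (J : (Ideal (𝓞 K))⁰) {p : ℕ} (hp : p.Prime)
    (hex : ∃ P : Pr K, Ideal.absNorm (P.1 : Ideal (𝓞 K)) = p ∧
      ClassGroup.mk0 P.1 = (ClassGroup.mk0 J)⁻¹) {F : Finset (Pr K)}
    (hF : ∀ P, P ∈ F ↔ Ideal.absNorm (P.1 : Ideal (𝓞 K)) = p ∧
      ClassGroup.mk0 P.1 = (ClassGroup.mk0 J)⁻¹) :
    F.card ≤ 2 ∧ (¬ p ∣ (discr K).natAbs → F.card = qdWeight J) := by
  obtain ⟨P, hP, hPC⟩ := hex
  obtain ⟨Q, hQ, hQC, hPQ, hall⟩ := exists_conj_prime h2 hp hP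
  have hsub : F ⊆ {P, Q} := by
    intro R hR
    rw [Finset.mem_insert, Finset.mem_singleton]
    exact hall R ((hF R).mp hR).1
  refine ⟨(Finset.card_le_card hsub).trans Finset.card_le_two, fun hpd => ?_⟩
  have hne : P ≠ Q := by
    rintro rfl
    exact span_ne_mul_self hpd hP hp hPQ
  have hiff : ClassGroup.mk0 Q.1 = (ClassGroup.mk0 J)⁻¹ ↔ ClassGroup.mk0 J ^ 2 = 1 := by
    rw [hQC, hPC, inv_inv, pow_two, eq_inv_iff_mul_eq_one]
  by_cases hC : ClassGroup.mk0 J ^ 2 = 1
  · have hFe : F = {P, Q} := by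
      refine Finset.Subset.antisymm hsub fun R hR => ?_
      rw [Finset.mem_insert, Finset.mem_singleton] at hR
      rcases hR with rfl | rfl
      · exact (hF _).mpr ⟨hP, hPC⟩
      · exact (hF _).mpr ⟨hQ, hiff.mpr hC⟩
    rw [hFe, Finset.card_pair hne, qdWeight, if_pos hC]
  · have hFe : F = {P} := by
      refine Finset.Subset.antisymm (fun R hR => ?_) fun R hR => ?_
      · have h3 := hsub hR
        rw [Finset.mem_insert, Finset.mem_singleton] at h3
        rw [Finset.mem_singleton]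
        rcases h3 with h3 | h3
        · exact h3
        · exact absurd (hiff.mp (h3 ▸ ((hF R).mp hR).2)) hC
      · rw [Finset.mem_singleton] at hR
        subst hR
        exact (hF _).mpr ⟨hP, hPC⟩
    rw [hFe, Finset.card_singleton, qdWeight, if_neg hC]

/-- **The density of the primes represented by the norm form of an ideal of a quadratic field**:
`1 / h`, or `1 / 2h` if the class of the ideal has order at most two. -/
theorem density_norm_form (h2 : finrank ℚ K = 2) (J : (Ideal (𝓞 K))⁰) :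
    Tendsto (fun x : ℕ => (Nat.card {p : ℕ // p ≤ x ∧ p.Prime ∧ ∃ α ∈ (J : Ideal (𝓞 K)),
        (Algebra.norm ℤ α).natAbs = p * Ideal.absNorm (J : Ideal (𝓞 K))} : ℝ) *
      Real.log x / x) atTop
      (𝓝 (1 / (qdWeight J * Nat.card (ClassGroup (𝓞 K))))) := by
  classical
  set C : ClassGroup (𝓞 K) := (ClassGroup.mk0 J)⁻¹ with hC
  set D : ℕ → Finset (Pr K) := fun x => (prLe K x).filter fun P => ClassGroup.mk0 P.1 = C ∧
    (Ideal.absNorm (P.1 : Ideal (𝓞 K))).Prime with hDdef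
  set R : ℕ → Finset ℕ := fun x => (Finset.range (x + 1)).filter fun p => p.Prime ∧
    ∃ α ∈ (J : Ideal (𝓞 K)), (Algebra.norm ℤ α).natAbs = p * Ideal.absNorm (J : Ideal (𝓞 K))
    with hRdef
  have hR : ∀ x p, p ∈ R x ↔ p ≤ x ∧ p.Prime ∧ ∃ P : Pr K,
      Ideal.absNorm (P.1 : Ideal (𝓞 K)) = p ∧ ClassGroup.mk0 P.1 = C := by
    intro x p
    rw [hRdef, Finset.mem_filter, Finset.mem_range, Nat.lt_succ_iff]
    refine and_congr_right fun _ => and_congr_right fun hp => ?_
    exact norm_form_iff J hp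
  have hD : ∀ x P, P ∈ D x ↔ Ideal.absNorm (P.1 : Ideal (𝓞 K)) ≤ x ∧ ClassGroup.mk0 P.1 = C ∧
      (Ideal.absNorm (P.1 : Ideal (𝓞 K))).Prime := by
    intro x P
    rw [hDdef, Finset.mem_filter, mem_prLe]
  have hcard : ∀ x : ℕ, Nat.card {p : ℕ // p ≤ x ∧ p.Prime ∧ ∃ α ∈ (J : Ideal (𝓞 K)),
      (Algebra.norm ℤ α).natAbs = p * Ideal.absNorm (J : Ideal (𝓞 K))} = (R x).card := by
    intro x
    rw [Nat.subtype_card]
    intro p
    rw [hRdef, Finset.mem_filter, Finset.mem_range, Nat.lt_succ_iff]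
  simp_rw [hcard]
  set w : ℕ := qdWeight J with hw
  have hw0 : (w : ℝ) ≠ 0 := by exact_mod_cast (qdWeight_pos J).ne'
  set M : ℕ := (discr K).natAbs.divisors.card with hM
  have hdisc0 : (discr K).natAbs ≠ 0 := Int.natAbs_ne_zero.mpr (discr_ne_zero K)
  -- the comparison
  have key : ∀ x : ℕ, |((D x).card : ℝ) - w * (R x).card| ≤ 0 * Nat.sqrt x + 2 * M := by
    intro x
    have h3 : (D x).card = ∑ p ∈ R x,
        ((D x).filter fun P => Ideal.absNorm (P.1 : Ideal (𝓞 K)) = p).card := by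
      refine Finset.card_eq_sum_card_fiberwise fun P hP => ?_
      have hP' := (hD x P).mp hP
      exact (hR x _).mpr ⟨hP'.1, hP'.2.2, P, rfl, hP'.2.1⟩
    have h4 : ∀ p ∈ R x, |(((D x).filter fun P =>
        Ideal.absNorm (P.1 : Ideal (𝓞 K)) = p).card : ℝ) - w| ≤
        if p ∣ (discr K).natAbs then 2 else 0 := by
      intro p hp
      obtain ⟨hpx, hpp, hex⟩ := (hR x p).mp hp
      have hF : ∀ P, P ∈ ((D x).filter fun P => Ideal.absNorm (P.1 : Ideal (𝓞 K)) = p) ↔
          Ideal.absNorm (P.1 : Ideal (𝓞 K)) = p ∧ ClassGroup.mk0 P.1 = (ClassGroup.mk0 J)⁻¹ := by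
        intro P
        rw [Finset.mem_filter, hD]
        constructor
        · rintro ⟨⟨-, h5, -⟩, h6⟩
          exact ⟨h6, h5⟩
        · rintro ⟨h5, h6⟩
          exact ⟨⟨h5.le.trans hpx, h6, h5 ▸ hpp⟩, h5⟩
      obtain ⟨h5, h6⟩ := card_fiber h2 J hpp hex hF
      by_cases hpd : p ∣ (discr K).natAbs
      · rw [if_pos hpd]
        have h7 : (((D x).filter fun P =>
          Ideal.absNorm (P.1 : Ideal (𝓞 K)) = p).card : ℝ) ≤ 2 := by exact_mod_cast h5
        have h8 : (w : ℝ) ≤ 2 := by exact_mod_cast qdWeight_le J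
        have h9 : (0 : ℝ) ≤ w := Nat.cast_nonneg _
        have h10 : (0 : ℝ) ≤ (((D x).filter fun P =>
          Ideal.absNorm (P.1 : Ideal (𝓞 K)) = p).card : ℝ) := Nat.cast_nonneg _
        rw [abs_le]
        constructor <;> linarith
      · rw [if_neg hpd, h6 hpd, sub_self, abs_zero]
    have h5 : ((D x).card : ℝ) - w * (R x).card = ∑ p ∈ R x,
        ((((D x).filter fun P => Ideal.absNorm (P.1 : Ideal (𝓞 K)) = p).card : ℝ) - w) := by
      rw [Finset.sum_sub_distrib, Finset.sum_const, nsmul_eq_mul, mul_comm (w : ℝ)]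
      congr 1
      exact_mod_cast h3
    rw [h5, zero_mul, zero_add]
    refine (Finset.abs_sum_le_sum_abs _ _).trans ((Finset.sum_le_sum h4).trans ?_)
    rw [← Finset.sum_filter, Finset.sum_const, nsmul_eq_mul, mul_comm]
    have h6 : ((R x).filter fun p => p ∣ (discr K).natAbs) ⊆ (discr K).natAbs.divisors := by
      intro p hp
      rw [Nat.mem_divisors]
      exact ⟨(Finset.mem_filter.mp hp).2, hdisc0⟩
    have h7 : (((R x).filter fun p => p ∣ (discr K).natAbs).card : ℝ) ≤ M := by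
      exact_mod_cast Finset.card_le_card h6
    linarith
  have h3 := qd_tendsto_of_bounded key (prime_ideal_theorem_class_deg_one C)
  have h4 := h3.const_mul ((w : ℝ)⁻¹)
  have h5 : (w : ℝ)⁻¹ * (1 / (Nat.card (ClassGroup (𝓞 K)) : ℝ)) =
      1 / (w * Nat.card (ClassGroup (𝓞 K))) := by
    rw [one_div, one_div, mul_inv]
  rw [h5] at h4
  refine h4.congr fun x => ?_
  field_simp

end Quadratic

end Fermat.Agent.Cor
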