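import Mathlib

/-!
# The Dedekind zeta function of `ℚ` is the Riemann zeta function
-/

set_option autoImplicit false

noncomputable section

open NumberField Ideal

namespace Fermat.Agent.Cor

/-- Every ideal of `𝓞 ℚ` is generated by its norm. -/
theorem exists_eq_span_natCast (I : Ideal (𝓞 ℚ)) : ∃ m : ℕ, I = span {(m : 𝓞 ℚ)} := by
  obtain ⟨a, ha⟩ : ∃ a : ℤ, I.map (Rat.ringOfIntegersEquiv : 𝓞 ℚ →+* ℤ) = span {a} :=
    (IsPrincipalIdealRing.principal (I.map (Rat.ringOfIntegersEquiv : 𝓞 ℚ →+* ℤ))).principal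
  refine ⟨a.natAbs, ?_⟩
  have h1 : span {a} = span {((a.natAbs : ℕ) : ℤ)} := by
    rw [Ideal.span_singleton_eq_span_singleton]
    exact (Int.associated_natAbs a)
  rw [h1] at ha
  have h2 := congrArg (Ideal.map (Rat.ringOfIntegersEquiv.symm : ℤ →+* 𝓞 ℚ)) ha
  rw [Ideal.map_map, Ideal.map_span] at h2
  have h3 : ((Rat.ringOfIntegersEquiv.symm : ℤ →+* 𝓞 ℚ).comp
      (Rat.ringOfIntegersEquiv : 𝓞 ℚ →+* ℤ)) = RingHom.id _ := by
    ext x
    simp
  rw [h3, Ideal.map_id] at h2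
  rw [h2]
  simp

theorem absNorm_span_nat (m : ℕ) : absNorm (span {(m : 𝓞 ℚ)}) = m := by
  rw [absNorm_span_natCast, RingOfIntegers.rank, Module.finrank_self, pow_one]

theorem card_absNorm_rat (n : ℕ) : Nat.card {I : Ideal (𝓞 ℚ) // absNorm I = n} = 1 := by
  rw [Nat.card_eq_one_iff_unique]
  refine ⟨⟨?_⟩, ⟨⟨span {(n : 𝓞 ℚ)}, absNorm_span_nat n⟩⟩⟩
  rintro ⟨I, hI⟩ ⟨J, hJ⟩
  obtain ⟨a, rfl⟩ := exists_eq_span_natCast I
  obtain ⟨b, rfl⟩ := exists_eq_span_natCast J
  rw [absNorm_span_nat] at hI hJ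
  subst hI
  simp [hJ]

/-- `ζ_ℚ = ζ` in the half plane of convergence. -/
theorem dedekindZeta_rat {s : ℂ} (hs : 1 < s.re) : dedekindZeta ℚ s = riemannZeta s := by
  rw [← LSeries_one_eq_riemannZeta hs, dedekindZeta]
  congr 1
  funext n
  simp [card_absNorm_rat]

/-- The identity theorem in the form used for zeta functions: two functions which are holomorphic
outside `1` and agree for `Re s > 1` agree outside `1`. -/
theorem eq_of_eq_re_gt_one {f g : ℂ → ℂ} (hf : ∀ s, s ≠ 1 → DifferentiableAt ℂ f s)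
    (hg : ∀ s, s ≠ 1 → DifferentiableAt ℂ g s) (h : ∀ s : ℂ, 1 < s.re → f s = g s) {s : ℂ}
    (hs : s ≠ 1) : f s = g s := by
  have ho : IsOpen ({1}ᶜ : Set ℂ) := isOpen_compl_singleton
  have hfa : AnalyticOnNhd ℂ f {1}ᶜ :=
    (DifferentiableOn.analyticOnNhd (fun z hz => (hf z hz).differentiableWithinAt) ho)
  have hga : AnalyticOnNhd ℂ g {1}ᶜ :=
    (DifferentiableOn.analyticOnNhd (fun z hz => (hg z hz).differentiableWithinAt) ho)
  have hc : IsPreconnected ({1}ᶜ : Set ℂ) :=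
    (isConnected_compl_singleton_of_one_lt_rank (by simp) 1).isPreconnected
  have h2 : (2 : ℂ) ∈ ({1}ᶜ : Set ℂ) := by simp
  have he : f =ᶠ[nhds 2] g := by
    have : {s : ℂ | 1 < s.re} ∈ nhds (2 : ℂ) :=
      (isOpen_lt continuous_const Complex.continuous_re).mem_nhds (by simp)
    filter_upwards [this] with z hz using h z hz
  exact hfa.eqOn_of_preconnected_of_eventuallyEq hga hc h2 he hs

end Fermat.Agent.Cor
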