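import Fermat.Agent.Corollaries.ZetaK.AbelLocal
import Fermat.Agent.Corollaries.ZetaK.EulerK
import Fermat.Agent.Corollaries.ZetaK.Rat
import Fermat.Agent.Corollaries.ZetaK.ZetaOne

/-!
# The zeta function of an abelian number field

Let `L = ℚ(ζ_n)`, `F` a subfield and `chars n F` the set of the Dirichlet characters of level `n`
which are trivial on `Gal(L/F)`.

* `zetaK_eq_prod`: `ζ_F(s) = ∏ L(s, χ)`, where `χ` runs through the primitive characters of `F`;
* `residue_eq_prod`: the residue of `ζ_F` at `1` is `∏ L(1, χ)`, `χ ≠ 1`.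
-/

set_option autoImplicit false

noncomputable section

namespace Fermat.Agent.Cor.Abel

open NumberField IsDedekindDomain Ideal DirichletCharacter
open IsCyclotomicExtension.Rat

instance neZero_conductor {n : ℕ} [NeZero n] (χ : DirichletCharacter ℂ n) : NeZero χ.conductor :=
  ⟨χ.conductor_ne_zero⟩

/-- **Euler product** of a Dirichlet `L`-function, inverted. -/
theorem hasProd_dirichlet {N : ℕ} [NeZero N] (χ : DirichletCharacter ℂ N) {s : ℂ}
    (hs : 1 < s.re) :
    HasProd (fun p : Nat.Primes => 1 - χ p * (p : ℂ) ^ (-s)) (χ.LFunction s)⁻¹ := by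
  have h := DirichletCharacter.LSeries_eulerProduct_hasProd χ hs
  have h0 := DirichletCharacter.LSeries_ne_zero_of_one_lt_re χ hs
  rw [LFunction_eq_LSeries χ hs]
  have h1 := Filter.Tendsto.inv₀ h h0
  refine h1.congr fun S => ?_
  simp only
  rw [← Finset.prod_inv_distrib]
  exact Finset.prod_congr rfl fun p _ => by rw [inv_inv]

section Places

variable {K : Type*} [Field K] [NumberField K]

omit [NumberField K] in
theorem liesOver_of_mem {p : ℕ} (hp : p.Prime) (v : HeightOneSpectrum (𝓞 K))
    (h : (p : 𝓞 K) ∈ v.asIdeal) : v.asIdeal.LiesOver (span {(p : ℤ)}) := by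
  have hp' : Fact p.Prime := ⟨hp⟩
  have hmax : (span {(p : ℤ)}).IsMaximal := Int.ideal_span_isMaximal_of_prime p
  refine ⟨?_⟩
  have hne : v.asIdeal.under ℤ ≠ ⊤ := by
    intro htop
    have := v.isPrime
    exact (Ideal.IsPrime.under ℤ v.asIdeal).ne_top htop
  refine hmax.eq_of_le hne ?_
  rw [Ideal.span_singleton_le_iff_mem, Ideal.under_def, Ideal.mem_comap]
  simpa using h

omit [NumberField K] in
theorem mem_of_liesOver {p : ℕ} (P : Ideal (𝓞 K)) [hP : P.LiesOver (span {(p : ℤ)})] :
    (p : 𝓞 K) ∈ P := by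
  have h1 : (p : ℤ) ∈ P.under ℤ := by
    rw [← hP.over]
    exact Ideal.mem_span_singleton_self _
  rw [Ideal.under_def, Ideal.mem_comap] at h1
  simpa using h1

/-- The places above `p` and the prime ideals above `p`. -/
theorem ncard_places (p : ℕ) (hp : p.Prime) :
    {v : HeightOneSpectrum (𝓞 K) | (p : 𝓞 K) ∈ v.asIdeal}.ncard =
      ((span {(p : ℤ)}).primesOver (𝓞 K)).ncard := by
  refine Set.ncard_congr (fun v _ => v.asIdeal) ?_ ?_ ?_
  · intro v hv
    exact ⟨v.isPrime, liesOver_of_mem hp v hv⟩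
  · intro v w _ _ h
    exact HeightOneSpectrum.ext h
  · rintro P ⟨hP, hP'⟩
    have hPb : P ≠ ⊥ := Ideal.ne_bot_of_liesOver_of_ne_bot
      (p := span {(p : ℤ)}) (by simpa using hp.ne_zero) P
    exact ⟨⟨P, hP, hPb⟩, mem_of_liesOver P, rfl⟩

theorem finite_places (p : ℕ) (hp : p.Prime) :
    {v : HeightOneSpectrum (𝓞 K) | (p : 𝓞 K) ∈ v.asIdeal}.Finite := by
  refine Set.finite_of_ncard_ne_zero ?_
  rw [ncard_places p hp]
  have hp' : Fact p.Prime := ⟨hp⟩
  have : (span {(p : ℤ)}).IsMaximal := Int.ideal_span_isMaximal_of_prime p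
  exact IsDedekindDomain.primesOver_ncard_ne_zero (span {(p : ℤ)}) (𝓞 K)

end Places

variable {n : ℕ} [NeZero n] {L : Type*} [Field L] [NumberField L]
  [hL : IsCyclotomicExtension {n} ℚ L] (F : IntermediateField ℚ L)

/-- **The Dedekind zeta function of an abelian field** in the half plane of convergence. -/
theorem dedekindZeta_eq_prod {s : ℂ} (hs : 1 < s.re) :
    dedekindZeta F s = ∏ χ ∈ chars n F, χ.primitiveCharacter.LFunction s := by
  classical
  have hGL : IsGalois ℚ L := IsCyclotomicExtension.isGalois {n} ℚ L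
  have hGF : IsGalois ℚ F := isGalois_sub (n := n) F
  let T : Nat.Primes → Finset (HeightOneSpectrum (𝓞 F)) := fun p =>
    (finite_places (K := F) (p : ℕ) p.2).toFinset
  have hT : ∀ (p : Nat.Primes) v, v ∈ T p ↔ ((p : ℕ) : 𝓞 F) ∈ v.asIdeal := fun p v => by
    rw [Set.Finite.mem_toFinset, Set.mem_ofPred_eq]
  have h1 := hasProd_euler (K := F) hs T hT
  have h2 : HasProd (fun p : Nat.Primes => ∏ χ ∈ chars n F,
      (1 - χ.primitiveCharacter p * (p : ℂ) ^ (-s)))
      (∏ χ ∈ chars n F, (χ.primitiveCharacter.LFunction s)⁻¹) :=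
    hasProd_prod fun χ _ => hasProd_dirichlet χ.primitiveCharacter hs
  have h3 : (fun p : Nat.Primes => ∏ v ∈ T p, (1 - (Ideal.absNorm v.asIdeal : ℂ) ^ (-s))) =
      fun p : Nat.Primes => ∏ χ ∈ chars n F,
        (1 - χ.primitiveCharacter p * (p : ℂ) ^ (-s)) := by
    funext p
    have hp : Fact (p : ℕ).Prime := ⟨p.2⟩
    have hmax : (span {((p : ℕ) : ℤ)}).IsMaximal := Int.ideal_span_isMaximal_of_prime (p : ℕ)
    obtain ⟨P, _, _⟩ := exists_maximal_ideal_liesOver_of_isIntegral (span {((p : ℕ) : ℤ)})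
      (S := 𝓞 F)
    rw [prod_chars (p : ℕ) F P]
    have h4 : ∀ v ∈ T p, (1 - (Ideal.absNorm v.asIdeal : ℂ) ^ (-s)) =
        1 - ((p : ℂ) ^ (-s)) ^ P.inertiaDeg ℤ := by
      intro v hv
      have hv' := liesOver_of_mem p.2 v ((hT p v).mp hv)
      have hvp := v.isPrime
      rw [← pow_inertiaDeg (p : ℕ) v.asIdeal,
        inertiaDeg_eq_of_isGaloisGroup (span {((p : ℕ) : ℤ)}) v.asIdeal P Gal(F/ℚ),
        Nat.cast_pow, ← Complex.natCast_cpow_natCast_mul, ← Complex.cpow_nat_mul]
    rw [Finset.prod_congr rfl h4, Finset.prod_const]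
    congr 1
    rw [← Set.ncard_eq_toFinset_card _ (finite_places (K := F) (p : ℕ) p.2),
      ncard_places (p : ℕ) p.2]
  rw [h3] at h1
  have h4 := h1.unique h2
  rw [Finset.prod_inv_distrib] at h4
  exact inv_injective h4

/-- **The Dedekind zeta function of an abelian field**: it is the product of the Dirichlet
`L`-functions of its primitive characters. -/
theorem zetaK_eq_prod {s : ℂ} (hs : s ≠ 1) :
    zetaK F s = ∏ χ ∈ chars n F, χ.primitiveCharacter.LFunction s := by
  refine eq_of_eq_re_gt_one (f := zetaK F)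
    (g := fun s => ∏ χ ∈ chars n F, χ.primitiveCharacter.LFunction s)
    (fun s hs => differentiableAt_LF _ hs) (fun s hs => ?_) (fun s hs => ?_) hs
  · exact DifferentiableAt.fun_finsetProd fun χ _ =>
      differentiableAt_LFunction χ.primitiveCharacter s (Or.inl hs)
  · rw [zetaK_eq F hs, dedekindZeta_eq_prod (n := n) F hs]

/-! ### The residue -/

omit [NeZero n] in
theorem primitiveCharacter_eq_one_iff [NeZero n] (χ : DirichletCharacter ℂ n) :
    χ.primitiveCharacter = 1 ↔ χ = 1 := by
  constructor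
  · intro h
    rw [← χ.changeLevel_primitiveCharacter, h, changeLevel_one]
  · rintro rfl
    exact primitiveCharacter_one

theorem LFunction_of_level_one {N : ℕ} [NeZero N] (hN : N = 1) (χ : DirichletCharacter ℂ N)
    (s : ℂ) : χ.LFunction s = riemannZeta s := by
  subst hN
  rw [LFunction_modOne_eq]

theorem LFunction_primitiveCharacter_one (s : ℂ) :
    (1 : DirichletCharacter ℂ n).primitiveCharacter.LFunction s = riemannZeta s :=
  LFunction_of_level_one conductor_one _ s

theorem one_mem_chars : (1 : DirichletCharacter ℂ n) ∈ chars n F := by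
  rw [mem_chars]
  intro σ _
  exact MulChar.one_apply (Units.isUnit _)

/-- `ζ_F = ζ · ∏ L(χ)`, the product over the non-trivial characters of `F`. -/
theorem zetaK_eq_mul_prod {s : ℂ} (hs : s ≠ 1) :
    zetaK F s = riemannZeta s *
      ∏ χ ∈ (chars n F).erase 1, χ.primitiveCharacter.LFunction s := by
  rw [zetaK_eq_prod (n := n) F hs, ← Finset.mul_prod_erase _ _ (one_mem_chars F),
    LFunction_primitiveCharacter_one]

/-- **The class number formula of an abelian field**: the residue of its zeta function is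
`∏ L(1, χ)`, the product over the non-trivial characters of the field. -/
theorem residue_eq_prod :
    (dedekindZeta_residue F : ℂ) =
      ∏ χ ∈ (chars n F).erase 1, χ.primitiveCharacter.LFunction 1 := by
  have h1 := tendsto_sub_one_mul_zetaK F
  have h2 : Filter.Tendsto (fun s => ((s - 1) * riemannZeta s) *
      ∏ χ ∈ (chars n F).erase 1, χ.primitiveCharacter.LFunction s) (nhdsWithin 1 {1}ᶜ)
      (nhds (1 * ∏ χ ∈ (chars n F).erase 1, χ.primitiveCharacter.LFunction 1)) := by
    refine Filter.Tendsto.mul riemannZeta_residue_one ?_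
    refine tendsto_finsetProd _ fun χ hχ => ?_
    have hne : χ.primitiveCharacter ≠ 1 := by
      rw [Ne, primitiveCharacter_eq_one_iff]
      exact Finset.ne_of_mem_erase hχ
    exact ((differentiable_LFunction hne).continuous.tendsto 1).mono_left nhdsWithin_le_nhds
  rw [one_mul] at h2
  refine tendsto_nhds_unique h1 (h2.congr' ?_)
  filter_upwards [self_mem_nhdsWithin] with s hs
  rw [zetaK_eq_mul_prod (n := n) F hs, mul_assoc]

end Fermat.Agent.Cor.Abel
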