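import Fermat.Agent.Corollaries.ZetaK.RelBern

/-!
# Hasse's unit index of `ℚ(ζ_p)` is `1`

`indexRealUnits_prime`: every unit of the `p`-th cyclotomic field, `p` an odd prime, is the product
of a real unit and a root of unity (Kummer's lemma on units), in Mathlib's formulation
`IsCMField.indexRealUnits K = 1`; hence `class_number_prime`:
**`h(ℚ(ζ_p)) = h(ℚ(ζ_p)⁺) · 2p ∏_{χ odd} (-(1/(2p)) ∑_a a χ(a))`**.
-/

set_option autoImplicit false

noncomputable section

universe u

open Finset DirichletCharacter NumberField NumberField.Units NumberField.IsCMField Ideal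
open IsCyclotomicExtension

namespace Fermat.Agent.Cor.RelClass

section root

variable {p : ℕ} [hp : Fact p.Prime] {K : Type u} [Field K] [NumberField K]
  (P : Ideal (𝓞 K)) [hP : P.IsPrime]

omit [NumberField K] in
/-- The `p`-th roots of unity are congruent to `1` modulo a prime above `p`. -/
theorem mk_root (hpP : (p : 𝓞 K) ∈ P) {x : 𝓞 K} (hx : x ^ p = 1) : Ideal.Quotient.mk P x = 1 := by
  have hchar : CharP (𝓞 K ⧸ P) p := by
    rw [CharP.charP_iff_prime_eq_zero hp.out]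
    have h := Ideal.Quotient.eq_zero_iff_mem.mpr hpP
    rwa [map_natCast] at h
  have h1 : (Ideal.Quotient.mk P x - 1) ^ p = 0 := by
    rw [sub_pow_char, ← map_pow, hx, map_one, one_pow, sub_self]
  exact sub_eq_zero.mp (pow_eq_zero_iff hp.out.ne_zero |>.mp h1)

/-- Complex conjugation is trivial modulo a prime above `p`. -/
theorem mk_conj [hK : IsCyclotomicExtension {p} ℚ K] [IsCMField K] (hpP : (p : 𝓞 K) ∈ P)
    (x : 𝓞 K) : Ideal.Quotient.mk P (ringOfIntegersComplexConj K x) = Ideal.Quotient.mk P x := by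
  have hζ := zeta_spec p ℚ K
  have hK' : IsCyclotomicExtension {p ^ (0 + 1)} ℚ K := by simpa using hK
  have hζ' : IsPrimitiveRoot (zeta p ℚ K) (p ^ (0 + 1)) := by simp [hζ]
  set f : 𝓞 K →ₐ[ℤ] 𝓞 K ⧸ P := (Ideal.Quotient.mk P).toIntAlgHom with hf
  set g : 𝓞 K →ₐ[ℤ] 𝓞 K ⧸ P := ((Ideal.Quotient.mk P).comp
    (ringOfIntegersComplexConj K : 𝓞 K →+* 𝓞 K)).toIntAlgHom with hg
  have h1 : g = f := by
    refine (hζ'.integralPowerBasisOfPrimePow).algHom_ext ?_
    rw [IsPrimitiveRoot.integralPowerBasisOfPrimePow_gen]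
    have h2 : (hζ'.toInteger : 𝓞 K) ^ p = 1 := by
      have := hζ'.toInteger_isPrimitiveRoot.pow_eq_one
      simpa using this
    change Ideal.Quotient.mk P (ringOfIntegersComplexConj K hζ'.toInteger) =
      Ideal.Quotient.mk P hζ'.toInteger
    rw [mk_root P hpP h2, mk_root P hpP (by rw [← map_pow, h2, map_one])]
  exact DFunLike.congr_fun h1 x

end root

/-- **Hasse's unit index of `ℚ(ζ_p)` is `1`.** -/
theorem indexRealUnits_prime (p : ℕ) [hp : Fact p.Prime] (hp2 : p ≠ 2) (K : Type u) [Field K]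
    [NumberField K] [hK : IsCyclotomicExtension {p} ℚ K] [IsCMField K] :
    indexRealUnits K = 1 := by
  refine (indexRealUnits_eq_one_or_two K).resolve_right fun h => ?_
  obtain ⟨u, hu⟩ := (indexRealUnits_eq_two_iff K).mp h
  have hodd : Odd p := hp.out.odd_of_ne_two hp2
  set t := unitsMulComplexConjInv K u with ht
  have hord : orderOf t = 2 * p := by
    rw [orderOf_eq_card_of_zpowers_eq_top hu]
    change torsionOrder K = _
    rw [IsCyclotomicExtension.Rat.torsionOrder_eq (n := p),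
      if_neg (Nat.not_even_iff_odd.mpr hodd)]
  have htp : ((t : (𝓞 K)ˣ) : 𝓞 K) ^ p = -1 := by
    have h1 : ((t : (𝓞 K)ˣ) : 𝓞 K) ^ p ≠ 1 := by
      intro h2
      have h3 : t ^ p = 1 := by
        refine Subtype.ext (Units.ext ?_)
        simpa using h2
      have h4 := orderOf_dvd_of_pow_eq_one h3
      rw [hord] at h4
      have h5 := Nat.le_of_dvd hp.out.pos h4
      have := hp.out.pos
      omega
    have h2 : (((t : (𝓞 K)ˣ) : 𝓞 K) ^ p) ^ 2 = 1 := by
      have h3 : t ^ (2 * p) = 1 := by rw [← hord, pow_orderOf_eq_one]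
      have h4 := congrArg (fun x : torsion K => ((x : (𝓞 K)ˣ) : 𝓞 K)) h3
      rw [← pow_mul, mul_comm p 2]
      simpa using h4
    exact (sq_eq_one_iff.mp h2).resolve_left h1
  obtain ⟨P, hPm, hPo⟩ := exists_over (K := K) p
  have hpP : (p : 𝓞 K) ∈ P := mem_of_liesOver p hPo
  have h1 : Ideal.Quotient.mk P ((t : (𝓞 K)ˣ) : 𝓞 K) = -1 := by
    have h2 := mk_root P hpP (x := -((t : (𝓞 K)ˣ) : 𝓞 K)) (by
      rw [hodd.neg_pow, htp, neg_neg])
    rw [map_neg] at h2
    exact neg_eq_iff_eq_neg.mp h2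
  have h2 : (u : 𝓞 K) = ((t : (𝓞 K)ˣ) : 𝓞 K) * ringOfIntegersComplexConj K (u : 𝓞 K) := by
    have h3 : (t : (𝓞 K)ˣ) * unitsComplexConj K u = u := by
      rw [ht, unitsMulComplexConjInv_apply, inv_mul_cancel_right]
    have h4 := congrArg (fun x : (𝓞 K)ˣ => (x : 𝓞 K)) h3
    exact h4.symm
  have h3 : Ideal.Quotient.mk P (u : 𝓞 K) * 2 = 0 := by
    have h4 := congrArg (Ideal.Quotient.mk P) h2
    rw [map_mul, h1, mk_conj P hpP] at h4
    linear_combination h4
  have h4 : Ideal.Quotient.mk P (u : 𝓞 K) ≠ 0 :=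
    (u.isUnit.map (Ideal.Quotient.mk P)).ne_zero
  have h5 : (2 : 𝓞 K ⧸ P) ≠ 0 := by
    have hchar : CharP (𝓞 K ⧸ P) p := by
      rw [CharP.charP_iff_prime_eq_zero hp.out]
      have h := Ideal.Quotient.eq_zero_iff_mem.mpr hpP
      rwa [map_natCast] at h
    intro h6
    have h7 : ((2 : ℕ) : 𝓞 K ⧸ P) = 0 := by exact_mod_cast h6
    rw [CharP.cast_eq_zero_iff _ p] at h7
    exact hp2 ((Nat.prime_dvd_prime_iff_eq hp.out Nat.prime_two).mp h7)
  exact (mul_ne_zero h4 h5) h3

/-- **Kummer's class number formula**: `h(ℚ(ζ_p)) = h⁺ · 2p ∏_{χ odd} (-(1/(2p)) ∑_a a χ(a))`. -/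
theorem class_number_prime (p : ℕ) [hp : Fact p.Prime] (hp2 : p ≠ 2) (K : Type u) [Field K]
    [NumberField K] [hK : IsCyclotomicExtension {p} ℚ K] [IsCMField K] :
    (classNumber K : ℂ) = classNumber (maximalRealSubfield K) * ((2 * p) * ∏ χ : OddChar p,
        (-(1 / (2 * p)) * ∑ a : ZMod p, (a.val : ℂ) * (χ : DirichletCharacter ℂ p) a)) := by
  rw [relative_class_number_prime p hp2 K, indexRealUnits_prime p hp2 K]
  push_cast
  ring

end Fermat.Agent.Cor.RelClass
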