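import Fermat.Agent.Corollaries.ZetaK.KummerSums

/-!
# The product over the odd characters modulo `p`, over `ℂ` and over `ℚ_p`

`prodS p A = ∏_χ ∑_{a mod p} a χ(a)`, `χ` over the characters of `(ℤ/p)ˣ` with values in the
algebraically closed field `A` of characteristic `0` and with `χ(-1) = -1`.

* `prodS_map`: compatible with homomorphisms; `prodS_rat`: if it is a rational number for `A = ℂ`,
  it is the same rational number for all `A`;
* `prodS_padic`: for `A ⊃ ℤ_p` it is `∏_{j < p - 1 odd} ∑_a a ω(a)^j`, `ω` the Teichmüller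
  character.
-/

set_option autoImplicit false

noncomputable section

open Finset

namespace Fermat.Agent.Cor.Kummer

variable (p : ℕ) [hp : Fact p.Prime]

theorem neZero_exponent (A : Type*) [Field A] [CharZero A] :
    NeZero ((Monoid.exponent (ZMod p)ˣ : ℕ) : A) :=
  ⟨by exact_mod_cast Monoid.exponent_ne_zero_of_finite⟩

theorem card_mulChar (A : Type*) [Field A] [CharZero A] [IsAlgClosed A] :
    Nat.card (MulChar (ZMod p) A) = p - 1 := by
  have := neZero_exponent p A
  rw [MulChar.card_eq_card_units_of_hasEnoughRootsOfUnity, Nat.card_eq_fintype_card,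
    ZMod.card_units]

/-- The odd characters with values in `A`. -/
abbrev OddC (A : Type*) [CommRing A] : Type _ := {χ : MulChar (ZMod p) A // χ (-1) = -1}

instance (A : Type*) [Field A] : Fintype (OddC p A) := Fintype.ofFinite _

/-- The product over the odd characters of `∑ a χ(a)`. -/
def prodS (A : Type*) [Field A] : A := ∏ χ : OddC p A, ∑ a : ZMod p, (a.val : A) * χ.1 a

section map

variable {A B : Type*} [Field A] [CharZero A] [IsAlgClosed A] [Field B] [CharZero B]
  [IsAlgClosed B] (f : A →+* B)

theorem bijective_comp :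
    Function.Bijective (fun χ : MulChar (ZMod p) A => χ.ringHomComp f) := by
  have h1 : Function.Injective (fun χ : MulChar (ZMod p) A => χ.ringHomComp f) :=
    fun χ χ' h => MulChar.ext fun a => f.injective (DFunLike.congr_fun h (a : ZMod p))
  refine h1.bijective_of_nat_card_le ?_
  rw [card_mulChar, card_mulChar]

omit [CharZero A] [IsAlgClosed A] [CharZero B] [IsAlgClosed B] in
theorem odd_comp_iff (χ : MulChar (ZMod p) A) :
    χ (-1) = -1 ↔ χ.ringHomComp f (-1) = -1 := by
  rw [MulChar.ringHomComp_apply]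
  constructor
  · intro h
    rw [h, map_neg, map_one]
  · intro h
    exact f.injective (by rw [h, map_neg, map_one])

/-- The odd characters with values in `A` and in `B`. -/
def oddEquiv : OddC p A ≃ OddC p B := Equiv.ofBijective
  (fun χ => ⟨χ.1.ringHomComp f, (odd_comp_iff p f χ.1).mp χ.2⟩)
  ⟨fun χ χ' h => Subtype.ext ((bijective_comp p f).1 (congrArg Subtype.val h)), fun χ => by
    obtain ⟨ψ, hψ⟩ := (bijective_comp p f).2 χ.1
    have hψ' : ψ.ringHomComp f = χ.1 := hψ
    exact ⟨⟨ψ, (odd_comp_iff p f ψ).mpr (by rw [hψ']; exact χ.2)⟩, Subtype.ext hψ⟩⟩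

theorem prodS_map : prodS p B = f (prodS p A) := by
  rw [prodS, prodS, map_prod]
  symm
  refine Fintype.prod_equiv (oddEquiv p f) _ _ fun χ => ?_
  rw [map_sum]
  refine Finset.sum_congr rfl fun a _ => ?_
  rw [map_mul, map_natCast]
  rfl

end map

theorem nonempty_hom (A : Type*) [Field A] [CharZero A] [IsAlgClosed A] :
    Nonempty (AlgebraicClosure ℚ →+* A) := by
  have h : Algebra.IsAlgebraic ℚ (AlgebraicClosure ℚ) := by
    rw [show (DivisionRing.toRatAlgebra : Algebra ℚ (AlgebraicClosure ℚ)) =
      AlgebraicClosure.instAlgebra ℚ from Subsingleton.elim _ _]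
    exact AlgebraicClosure.isAlgebraic ℚ
  exact ⟨(IsAlgClosed.lift (R := ℚ) (S := AlgebraicClosure ℚ) (M := A)).toRingHom⟩

theorem prodS_rat {q : ℚ} (h : prodS p ℂ = q) (A : Type*) [Field A] [CharZero A]
    [IsAlgClosed A] : prodS p A = q := by
  obtain ⟨f₁⟩ := nonempty_hom ℂ
  obtain ⟨f₂⟩ := nonempty_hom A
  have h1 : prodS p (AlgebraicClosure ℚ) = q := by
    apply f₁.injective
    rw [← prodS_map, h, map_ratCast]
  rw [prodS_map p f₂, h1, map_ratCast]

theorem card_oddC (A : Type*) [Field A] [CharZero A] [IsAlgClosed A] :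
    Fintype.card (OddC p ℂ) = Fintype.card (OddC p A) := by
  obtain ⟨f₁⟩ := nonempty_hom ℂ
  obtain ⟨f₂⟩ := nonempty_hom A
  exact Fintype.card_congr ((oddEquiv p f₁).symm.trans (oddEquiv p f₂))

section padic

variable {p} {A : Type*} [Field A] [CharZero A] [IsAlgClosed A] (f : ℤ_[p] →+* A)

/-- The Teichmüller character with values in `A`. -/
def omega : MulChar (ZMod p) A where
  toMonoidHom := (f : ℤ_[p] →* A).comp (teich p)
  map_nonunit' a ha := by
    have h0 : a = 0 := by
      by_contra h
      exact ha (isUnit_iff_ne_zero.mpr h)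
    subst h0
    change f (teich p 0) = 0
    rw [teich_zero, map_zero]

omit [CharZero A] [IsAlgClosed A] in
theorem omega_apply (a : ZMod p) : omega f a = f (teich p a) := rfl

omit [CharZero A] [IsAlgClosed A] in
theorem omega_pow_apply {j : ℕ} (hj : j ≠ 0) (a : ZMod p) : (omega f ^ j) a = f (teich p a ^ j) := by
  rw [MulChar.pow_apply' _ hj, omega_apply, map_pow]

variable (hf : Function.Injective f)

include hf

omit [CharZero A] [IsAlgClosed A] in
theorem omega_pow_eq_one_iff (j : ℕ) : omega f ^ j = 1 ↔ p - 1 ∣ j := by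
  obtain ⟨g, hg⟩ := IsCyclic.exists_generator (α := (ZMod p)ˣ)
  have hord : orderOf g = p - 1 := by
    rw [orderOf_eq_card_of_forall_mem_zpowers hg, Nat.card_eq_fintype_card, ZMod.card_units]
  have key : ∀ a : (ZMod p)ˣ, (omega f ^ j) (a : ZMod p) = 1 ↔ a ^ j = 1 := by
    intro a
    rw [MulChar.pow_apply_coe, omega_apply, ← map_pow, ← f.map_one, hf.eq_iff,
      teich_pow_eq_one_iff]
    constructor
    · intro h
      exact Units.ext (by simpa using h)
    · intro h
      have := congrArg (fun u : (ZMod p)ˣ => (u : ZMod p)) h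
      simpa using this
  constructor
  · intro h
    rw [← hord]
    refine orderOf_dvd_of_pow_eq_one ((key g).mp ?_)
    rw [h, MulChar.one_apply_coe]
  · rintro ⟨c, rfl⟩
    refine MulChar.ext fun a => ?_
    rw [MulChar.one_apply_coe, key, pow_mul, ZMod.units_pow_card_sub_one_eq_one, one_pow]

omit [CharZero A] [IsAlgClosed A] in
theorem orderOf_omega : orderOf (omega f) = p - 1 :=
  Nat.dvd_antisymm (orderOf_dvd_iff_pow_eq_one.mpr ((omega_pow_eq_one_iff f hf _).mpr dvd_rfl))
    ((omega_pow_eq_one_iff f hf _).mp (pow_orderOf_eq_one _))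

theorem exists_omega_pow (χ : MulChar (ZMod p) A) : ∃ j < p - 1, omega f ^ j = χ := by
  have hinj : Function.Injective (fun j : Fin (p - 1) => omega f ^ (j : ℕ)) := by
    intro i j h
    apply Fin.ext
    have h1 := pow_injOn_Iio_orderOf (x := omega f) (by
      rw [Set.mem_Iio, orderOf_omega f hf]; exact i.2) (by
      rw [Set.mem_Iio, orderOf_omega f hf]; exact j.2) h
    exact h1
  have hbij := hinj.bijective_of_nat_card_le (by
    rw [card_mulChar, Nat.card_eq_fintype_card, Fintype.card_fin])
  obtain ⟨j, hj⟩ := hbij.2 χ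
  exact ⟨j, j.2, hj⟩

omit hf [CharZero A] [IsAlgClosed A] in
theorem omega_pow_neg_one (hp2 : p ≠ 2) (j : ℕ) : (omega f ^ j) (-1) = (-1) ^ j := by
  have h1 : teich p (-1) = -1 := by
    have h2 : teich p (-1) ^ 2 = 1 := by
      rw [← map_pow, neg_one_sq, map_one]
    refine (sq_eq_one_iff.mp h2).resolve_left fun h3 => ?_
    rw [← (teich p).map_one] at h3
    have h4 := teich_injective p h3
    have : Fact (2 < p) := ⟨lt_of_le_of_ne hp.out.two_le (Ne.symm hp2)⟩
    exact ZMod.neg_one_ne_one h4
  have h2 : ((-1 : (ZMod p)ˣ) : ZMod p) = -1 := by simp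
  rw [← h2, MulChar.pow_apply_coe, omega_apply, h2, h1, map_neg, map_one]

/-- **The product over the odd characters in terms of the Teichmüller character.** -/
theorem prodS_padic (hp2 : p ≠ 2) :
    prodS p A = f (∏ j ∈ (range (p - 1)).filter Odd, tsum p j) ∧
      Fintype.card (OddC p A) = ((range (p - 1)).filter Odd).card := by
  have hne : (1 : A) ≠ -1 := by
    intro h
    have h2 : (2 : A) = 0 := by linear_combination h
    exact two_ne_zero h2
  have hodd : ∀ j, (omega f ^ j) (-1) = -1 ↔ Odd j := by
    intro j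
    rw [omega_pow_neg_one f hp2]
    constructor
    · intro h
      by_contra h2
      rw [Nat.not_odd_iff_even] at h2
      rw [h2.neg_one_pow] at h
      exact hne h
    · intro h
      exact h.neg_one_pow
  let E : ((range (p - 1)).filter Odd) ≃ OddC p A := Equiv.ofBijective
    (fun j => ⟨omega f ^ (j : ℕ), (hodd j).mpr (Finset.mem_filter.mp j.2).2⟩) ⟨by
      intro i j h
      apply Subtype.ext
      have h0 : omega f ^ (i : ℕ) = omega f ^ (j : ℕ) := congrArg Subtype.val h
      exact pow_injOn_Iio_orderOf (x := omega f) (by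
        rw [Set.mem_Iio, orderOf_omega f hf]
        exact Finset.mem_range.mp (Finset.mem_filter.mp i.2).1) (by
        rw [Set.mem_Iio, orderOf_omega f hf]
        exact Finset.mem_range.mp (Finset.mem_filter.mp j.2).1) h0, by
      intro χ
      obtain ⟨j, hj, h⟩ := exists_omega_pow f hf χ.1
      refine ⟨⟨j, Finset.mem_filter.mpr ⟨Finset.mem_range.mpr hj, (hodd j).mp ?_⟩⟩,
        Subtype.ext h⟩
      rw [h]
      exact χ.2⟩
  constructor
  · rw [map_prod, ← Finset.prod_coe_sort, prodS]
    symm
    refine Fintype.prod_equiv E _ _ fun j => ?_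
    rw [tsum, map_sum]
    refine Finset.sum_congr rfl fun a _ => ?_
    rw [map_mul, map_natCast]
    congr 1
    have hj0 : (j : ℕ) ≠ 0 := by
      intro h
      have := (Finset.mem_filter.mp j.2).2
      rw [h] at this
      exact absurd this (by decide)
    exact (omega_pow_apply f hj0 a).symm
  · rw [← Fintype.card_coe]
    exact (Fintype.card_congr E).symm

end padic

end Fermat.Agent.Cor.Kummer
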