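import Fermat.Agent.Corollaries.ZetaK.UnitIndex
import Fermat.Agent.Corollaries.ZetaK.KummerTransfer

/-!
# Kummer's criterion: irregular primes

`K = ℚ(ζ_p)`, `p` an odd prime, `h` its class number, `h⁺` the class number of the maximal real
subfield.

* `kummer_padic`: in `ℤ_p`: `h u = h⁺ ∏_k s_k` with a unit `u` and `s_k ≡ B_k / k mod p`, `k` even,
  `2 ≤ k ≤ p - 3`;
* `kummer_criterion`: **`v_p(h⁺) ≤ v_p(h)`, with strict inequality iff `p` divides the numerator of
  one of the Bernoulli numbers `B_2, B_4, …, B_{p-3}`**;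
* `dvd_classNumber`: **if `p` divides the numerator of `B_k`, `k` even, `2 ≤ k ≤ p - 3`, then `p`
  divides the class number of `ℚ(ζ_p)`** (Kummer);
* `dvd_classNumber_of_sum`: the same if `p²` divides `1^k + 2^k + ⋯ + (p - 1)^k`;
* `thirty_seven_dvd`: `37` divides the class number of `ℚ(ζ_37)`.
-/

set_option autoImplicit false

noncomputable section

universe u

open Finset NumberField NumberField.IsCMField

namespace Fermat.Agent.Cor.Kummer

open RelClass

variable (p : ℕ) [hp : Fact p.Prime] (hp2 : p ≠ 2) (K : Type u) [Field K] [NumberField K]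
  [hK : IsCyclotomicExtension {p} ℚ K] [IsCMField K]

include hp2 in
/-- `h (-2p)^N = h⁺ (2p) ∏_j ∑_a a ω(a)^j` in `ℤ_p`. -/
theorem classNumber_eq_tsum :
    (classNumber K : ℤ_[p]) * (-(2 * p)) ^ ((range (p - 1)).filter Odd).card =
      classNumber (maximalRealSubfield K) * (2 * p) *
        ∏ j ∈ (range (p - 1)).filter Odd, tsum p j := by
  set N := ((range (p - 1)).filter Odd).card with hN
  set A := AlgebraicClosure ℚ_[p] with hA
  let f : ℤ_[p] →+* A := (algebraMap ℚ_[p] A).comp PadicInt.Coe.ringHom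
  have hf : Function.Injective f :=
    (algebraMap ℚ_[p] A).injective.comp Subtype.val_injective
  obtain ⟨h1, hcard⟩ := prodS_padic f hf hp2
  have h2 := class_number_prime p hp2 K
  have hcardC : Fintype.card (OddChar p) = N := by
    rw [hN, ← hcard, ← card_oddC p A]
    rfl
  have hp0 : (p : ℂ) ≠ 0 := by exact_mod_cast hp.out.ne_zero
  have hprod : ∏ χ : OddChar p,
      (-(1 / (2 * p)) * ∑ a : ZMod p, (a.val : ℂ) * (χ : DirichletCharacter ℂ p) a) =
      (-(1 / (2 * p))) ^ N * prodS p ℂ := by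
    rw [Finset.prod_mul_distrib, Finset.prod_const, Finset.card_univ, hcardC]
    rfl
  rw [hprod] at h2
  have hh : (classNumber (maximalRealSubfield K) : ℂ) ≠ 0 := by
    exact_mod_cast (classNumber_pos (maximalRealSubfield K)).ne'
  have h3 : prodS p ℂ = ((classNumber K * (-(2 * p)) ^ N /
      (classNumber (maximalRealSubfield K) * (2 * p)) : ℚ) : ℂ) := by
    have hpow : (-(1 / (2 * (p : ℂ)))) ^ N * (-(2 * (p : ℂ))) ^ N = 1 := by
      rw [← mul_pow]
      have : -(1 / (2 * (p : ℂ))) * -(2 * (p : ℂ)) = 1 := by field_simp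
      rw [this, one_pow]
    push_cast
    rw [h2, eq_div_iff (mul_ne_zero hh (mul_ne_zero two_ne_zero hp0))]
    linear_combination -(classNumber (maximalRealSubfield K) * (2 * p) * prodS p ℂ) * hpow
  have h4 := prodS_rat p h3 A
  rw [h1] at h4
  have h5 : ((∏ j ∈ (range (p - 1)).filter Odd, tsum p j : ℤ_[p]) : ℚ_[p]) =
      ((classNumber K * (-(2 * p)) ^ N /
      (classNumber (maximalRealSubfield K) * (2 * p)) : ℚ) : ℚ_[p]) := by
    apply (algebraMap ℚ_[p] A).injective
    rw [map_ratCast, ← h4]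
    rfl
  have hpQ : (p : ℚ_[p]) ≠ 0 := by exact_mod_cast hp.out.ne_zero
  have hhQ : (classNumber (maximalRealSubfield K) : ℚ_[p]) ≠ 0 := by
    exact_mod_cast (classNumber_pos (maximalRealSubfield K)).ne'
  apply Subtype.ext
  have h2' : ((2 : ℤ_[p]) : ℚ_[p]) = 2 := rfl
  push_cast at h5 ⊢
  rw [h5, h2']
  field_simp

/-- The even integers `k` with `2 ≤ k ≤ p - 3`. -/
abbrev kset (p : ℕ) : Finset ℕ := (Icc 2 (p - 3)).filter Even

include hp2 in
theorem odd_p : ∃ m, p = 2 * m + 3 := by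
  obtain ⟨m, hm⟩ := hp.out.odd_of_ne_two hp2
  exact ⟨m - 1, by have := hp.out.two_le; omega⟩

include hp2 in
theorem prod_tsum : ∃ (b : ℤ_[p]ˣ) (s : ℕ → ℤ_[p]),
    (∀ k ∈ kset p, ∃ z : ℤ_[p], (s k : ℚ_[p]) = ((bernoulli k : ℚ) : ℚ_[p]) / k + p * z) ∧
      ∏ j ∈ (range (p - 1)).filter Odd, tsum p j = b * p ^ (kset p).card * ∏ k ∈ kset p, s k ∧
      ((range (p - 1)).filter Odd).card = (kset p).card + 1 := by
  classical
  obtain ⟨m, hm⟩ := odd_p p hp2
  have h1 : ∀ k ∈ kset p, ∃ s z : ℤ_[p],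
      tsum p (k - 1) = p * s ∧ (s : ℚ_[p]) = ((bernoulli k : ℚ) : ℚ_[p]) / k + p * z := by
    intro k hk
    have h2 := Finset.mem_Icc.mp (Finset.mem_filter.mp hk).1
    exact exists_tsum_eq p (by omega) (by omega)
  choose! s z h1 h2 using h1
  have hmem : p - 2 ∈ (range (p - 1)).filter Odd := by
    rw [Finset.mem_filter, Finset.mem_range]
    exact ⟨by omega, ⟨m, by omega⟩⟩
  have hu : IsUnit (tsum p (p - 2)) := isUnit_tsum p ⟨1, by omega⟩
  have hbij : ∏ j ∈ ((range (p - 1)).filter Odd).erase (p - 2), tsum p j =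
      ∏ k ∈ kset p, tsum p (k - 1) := by
    refine Finset.prod_nbij' (fun j => j + 1) (fun k => k - 1) ?_ ?_ ?_ ?_ ?_
    · intro j hj
      rw [Finset.mem_erase, Finset.mem_filter, Finset.mem_range] at hj
      obtain ⟨h0, h3, ⟨c, hc⟩⟩ := hj
      rw [Finset.mem_filter, Finset.mem_Icc]
      exact ⟨by omega, ⟨c + 1, by omega⟩⟩
    · intro k hk
      rw [Finset.mem_filter, Finset.mem_Icc] at hk
      obtain ⟨h0, ⟨c, hc⟩⟩ := hk
      rw [Finset.mem_erase, Finset.mem_filter, Finset.mem_range]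
      exact ⟨by omega, by omega, ⟨c - 1, by omega⟩⟩
    · intro j _
      simp
    · intro k hk
      rw [Finset.mem_filter, Finset.mem_Icc] at hk
      omega
    · intro j _
      simp
  have hcard : (((range (p - 1)).filter Odd).erase (p - 2)).card = (kset p).card := by
    refine Finset.card_nbij' (fun j => j + 1) (fun k => k - 1) ?_ ?_ ?_ ?_
    · intro j hj
      rw [Finset.mem_coe, Finset.mem_erase, Finset.mem_filter, Finset.mem_range] at hj
      obtain ⟨h0, h3, ⟨c, hc⟩⟩ := hj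
      rw [Finset.mem_coe, Finset.mem_filter, Finset.mem_Icc]
      beta_reduce
      exact ⟨by omega, ⟨c + 1, by omega⟩⟩
    · intro k hk
      rw [Finset.mem_coe, Finset.mem_filter, Finset.mem_Icc] at hk
      obtain ⟨h0, ⟨c, hc⟩⟩ := hk
      rw [Finset.mem_coe, Finset.mem_erase, Finset.mem_filter, Finset.mem_range]
      beta_reduce
      exact ⟨by omega, by omega, ⟨c - 1, by omega⟩⟩
    · intro j _
      simp
    · intro k hk
      rw [Finset.mem_coe, Finset.mem_filter, Finset.mem_Icc] at hk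
      simp only
      omega
  refine ⟨hu.unit, s, fun k hk => ⟨z k, h2 k hk⟩, ?_, ?_⟩
  · rw [← Finset.mul_prod_erase _ _ hmem, hbij, Finset.prod_congr rfl h1,
      Finset.prod_mul_distrib, Finset.prod_const, IsUnit.unit_spec]
    ring
  · rw [← hcard, Finset.card_erase_of_mem hmem]
    have : 0 < ((range (p - 1)).filter Odd).card := Finset.card_pos.mpr ⟨_, hmem⟩
    omega

include hp2 in
/-- **The relative class number of `ℚ(ζ_p)` in `ℤ_p`**: `h u = h⁺ ∏ s_k` with a unit `u` and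
`s_k ≡ B_k / k mod p`, `k` even, `2 ≤ k ≤ p - 3`. -/
theorem kummer_padic : ∃ (u : ℤ_[p]ˣ) (s : ℕ → ℤ_[p]),
    (∀ k ∈ kset p, ∃ z : ℤ_[p], (s k : ℚ_[p]) = ((bernoulli k : ℚ) : ℚ_[p]) / k + p * z) ∧
      (classNumber K : ℤ_[p]) * u = classNumber (maximalRealSubfield K) * ∏ k ∈ kset p, s k := by
  obtain ⟨b, s, hs, h1, h2⟩ := prod_tsum p hp2
  have h3 := classNumber_eq_tsum p hp2 K
  rw [h1, h2] at h3
  have htwo : IsUnit (2 : ℤ_[p]) := by
    rw [PadicInt.isUnit_iff]
    have h4 := (PadicInt.norm_natCast_eq_one_iff (p := p) (n := 2)).mpr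
      ((Nat.coprime_primes hp.out Nat.prime_two).mpr hp2)
    exact_mod_cast h4
  obtain ⟨t, ht⟩ := htwo
  refine ⟨(-t) ^ ((kset p).card + 1) * (t * b)⁻¹, s, hs, ?_⟩
  have hp0 : (p : ℤ_[p]) ^ ((kset p).card + 1) ≠ 0 :=
    pow_ne_zero _ (by exact_mod_cast hp.out.ne_zero)
  have h4 : (classNumber K : ℤ_[p]) * ((-t) ^ ((kset p).card + 1) : ℤ_[p]ˣ) =
      classNumber (maximalRealSubfield K) * ((t * b : ℤ_[p]ˣ) : ℤ_[p]) * ∏ k ∈ kset p, s k := by
    refine mul_right_cancel₀ hp0 ?_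
    push_cast
    rw [ht]
    have h5 : (-(2 * (p : ℤ_[p]))) ^ ((kset p).card + 1) =
        (-2) ^ ((kset p).card + 1) * (p : ℤ_[p]) ^ ((kset p).card + 1) := by
      rw [← mul_pow]
      congr 1
      ring
    rw [h5] at h3
    rw [mul_assoc, h3]
    ring
  rw [Units.val_mul, ← mul_assoc, h4]
  rw [mul_right_comm, mul_assoc (classNumber (maximalRealSubfield K) : ℤ_[p]), Units.mul_inv,
    mul_one]

theorem pow_dvd_cast_iff (n m : ℕ) : (p : ℤ_[p]) ^ m ∣ (n : ℤ_[p]) ↔ p ^ m ∣ n := by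
  have h := PadicInt.pow_p_dvd_int_iff (p := p) m (n : ℤ)
  rw [Int.cast_natCast] at h
  rw [h]
  exact_mod_cast Iff.rfl

theorem isUnit_prod_iff {s : ℕ → ℤ_[p]}
    (hs : ∀ k ∈ kset p, ∃ z : ℤ_[p], (s k : ℚ_[p]) = ((bernoulli k : ℚ) : ℚ_[p]) / k + p * z) :
    IsUnit (∏ k ∈ kset p, s k) ↔ ∀ k ∈ kset p, ¬ (p : ℤ) ∣ (bernoulli k).num := by
  rw [IsUnit.prod_iff]
  refine forall₂_congr fun k hk => ?_
  have h2 := Finset.mem_Icc.mp (Finset.mem_filter.mp hk).1
  obtain ⟨z, hz⟩ := hs k hk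
  exact isUnit_iff p (by omega) (by omega) hz

include hp2 in
/-- `v_p(h⁺) ≤ v_p(h)`. -/
theorem padicValNat_le :
    padicValNat p (classNumber (maximalRealSubfield K)) ≤ padicValNat p (classNumber K) := by
  obtain ⟨u, s, hs, h⟩ := kummer_padic p hp2 K
  rw [← padicValNat_dvd_iff_le (classNumber_pos K).ne', ← pow_dvd_cast_iff]
  have h1 : (p : ℤ_[p]) ^ padicValNat p (classNumber (maximalRealSubfield K)) ∣
      (classNumber (maximalRealSubfield K) : ℤ_[p]) :=
    (pow_dvd_cast_iff p _ _).mpr pow_padicValNat_dvd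
  have h2 := h1.mul_right (∏ k ∈ kset p, s k)
  rw [← h] at h2
  exact (Units.dvd_mul_right).mp h2

include hp2 in
/-- **Kummer's criterion**: `p` divides the relative class number `h / h⁺` of `ℚ(ζ_p)` if and only
if it divides the numerator of one of the Bernoulli numbers `B_2, B_4, …, B_{p-3}`. -/
theorem kummer_criterion :
    padicValNat p (classNumber (maximalRealSubfield K)) < padicValNat p (classNumber K) ↔
      ∃ k, Even k ∧ 2 ≤ k ∧ k ≤ p - 3 ∧ (p : ℤ) ∣ (bernoulli k).num := by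
  obtain ⟨u, s, hs, h⟩ := kummer_padic p hp2 K
  have hle := padicValNat_le p hp2 K
  have hcrit := isUnit_prod_iff p hs
  have h0 : (∃ k, Even k ∧ 2 ≤ k ∧ k ≤ p - 3 ∧ (p : ℤ) ∣ (bernoulli k).num) ↔
      ¬ IsUnit (∏ k ∈ kset p, s k) := by
    rw [hcrit]
    push Not
    constructor
    · rintro ⟨k, h1, h2, h3, h4⟩
      exact ⟨k, Finset.mem_filter.mpr ⟨Finset.mem_Icc.mpr ⟨h2, h3⟩, h1⟩, h4⟩
    · rintro ⟨k, hk, h4⟩
      have h1 := Finset.mem_filter.mp hk
      have h2 := Finset.mem_Icc.mp h1.1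
      exact ⟨k, h1.2, h2.1, h2.2, h4⟩
  rw [h0]
  constructor
  · intro hlt hunit
    apply absurd hlt
    rw [not_lt, ← padicValNat_dvd_iff_le (classNumber_pos _).ne', ← pow_dvd_cast_iff]
    have h1 : (p : ℤ_[p]) ^ padicValNat p (classNumber K) ∣ (classNumber K : ℤ_[p]) :=
      (pow_dvd_cast_iff p _ _).mpr pow_padicValNat_dvd
    have h2 := h1.mul_right (u : ℤ_[p])
    rw [h] at h2
    exact (hunit.dvd_mul_right).mp h2
  · intro hunit
    have h1 : (p : ℤ_[p]) ∣ ∏ k ∈ kset p, s k := by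
      rw [← PadicInt.norm_lt_one_iff_dvd, ← PadicInt.not_isUnit_iff]
      exact hunit
    rw [Nat.lt_iff_add_one_le, ← padicValNat_dvd_iff_le (classNumber_pos K).ne',
      ← pow_dvd_cast_iff, pow_succ]
    have h2 : (p : ℤ_[p]) ^ padicValNat p (classNumber (maximalRealSubfield K)) ∣
        (classNumber (maximalRealSubfield K) : ℤ_[p]) :=
      (pow_dvd_cast_iff p _ _).mpr pow_padicValNat_dvd
    have h3 := mul_dvd_mul h2 h1
    rw [← h] at h3
    exact (Units.dvd_mul_right).mp h3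

include hp2 in
/-- `v_p(h) ≥ v_p(h⁺) + i(p)`, `i(p)` the number of irregular indices (the number of the even `k`,
`2 ≤ k ≤ p - 3`, such that `p` divides the numerator of `B_k`). -/
theorem padicValNat_add_le :
    padicValNat p (classNumber (maximalRealSubfield K)) +
      ((kset p).filter fun k => (p : ℤ) ∣ (bernoulli k).num).card ≤
      padicValNat p (classNumber K) := by
  classical
  obtain ⟨u, s, hs, h⟩ := kummer_padic p hp2 K
  rw [← padicValNat_dvd_iff_le (classNumber_pos K).ne', ← pow_dvd_cast_iff, pow_add]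
  have h2 : (p : ℤ_[p]) ^ padicValNat p (classNumber (maximalRealSubfield K)) ∣
      (classNumber (maximalRealSubfield K) : ℤ_[p]) :=
    (pow_dvd_cast_iff p _ _).mpr pow_padicValNat_dvd
  have h1 : (p : ℤ_[p]) ^ ((kset p).filter fun k => (p : ℤ) ∣ (bernoulli k).num).card ∣
      ∏ k ∈ kset p, s k := by
    refine dvd_trans ?_ (Finset.prod_dvd_prod_of_subset _ _ s (Finset.filter_subset
      (fun k => (p : ℤ) ∣ (bernoulli k).num) (kset p)))
    rw [← Finset.prod_const]
    refine Finset.prod_dvd_prod_of_dvd _ _ fun k hk => ?_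
    have h3 := Finset.mem_filter.mp hk
    have h4 := Finset.mem_Icc.mp (Finset.mem_filter.mp h3.1).1
    obtain ⟨z, hz⟩ := hs k h3.1
    rw [← PadicInt.norm_lt_one_iff_dvd, ← PadicInt.not_isUnit_iff,
      isUnit_iff p (by omega) (by omega) hz, not_not]
    exact h3.2
  have h3 := mul_dvd_mul h2 h1
  rw [← h] at h3
  exact (Units.dvd_mul_right).mp h3

end Fermat.Agent.Cor.Kummer

namespace Fermat.Agent.Cor.Kummer

variable (p : ℕ) [hp : Fact p.Prime] (K : Type u) [Field K] [NumberField K]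
  [hK : IsCyclotomicExtension {p} ℚ K]

/-- **Kummer (1850)**: if `p` divides the numerator of the Bernoulli number `B_k`, `k` even,
`2 ≤ k ≤ p - 3`, then `p` divides the class number of `ℚ(ζ_p)`: `p` is irregular. -/
theorem dvd_classNumber {k : ℕ} (h1 : Even k) (h2 : 2 ≤ k) (h3 : k ≤ p - 3)
    (h4 : (p : ℤ) ∣ (bernoulli k).num) : p ∣ classNumber K := by
  have hp2 : p ≠ 2 := by omega
  have : IsCMField K := IsCyclotomicExtension.Rat.isCMField K (S := {p})
    ⟨p, Set.mem_singleton p, by omega⟩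
  have h5 := (kummer_criterion p hp2 K).mpr ⟨k, h1, h2, h3, h4⟩
  have h6 : 1 ≤ padicValNat p (classNumber K) := by omega
  rw [← padicValNat_dvd_iff_le (classNumber_pos K).ne', pow_one] at h6
  exact h6

/-- The exponent of `p` in the class number is at least the number of irregular indices. -/
theorem pow_dvd_classNumber :
    p ^ ((kset p).filter fun k => (p : ℤ) ∣ (bernoulli k).num).card ∣ classNumber K := by
  by_cases hp2 : p ≤ 4
  · have : kset p = ∅ := by
      rw [Finset.filter_eq_empty_iff]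
      intro k hk
      have := Finset.mem_Icc.mp hk
      omega
    rw [this]
    simp
  · have : IsCMField K := IsCyclotomicExtension.Rat.isCMField K (S := {p})
      ⟨p, Set.mem_singleton p, by omega⟩
    rw [padicValNat_dvd_iff_le (classNumber_pos K).ne']
    exact le_trans (Nat.le_add_left _ _) (padicValNat_add_le p (by omega) K)

/-- `p² ∣ 1^k + ⋯ + (p - 1)^k` iff `p` divides the numerator of `B_k`, `k + 2 ≤ p`. -/
theorem sq_dvd_sum_iff {k : ℕ} (hk : k + 2 ≤ p) :
    p ^ 2 ∣ ∑ a ∈ range p, a ^ k ↔ (p : ℤ) ∣ (bernoulli k).num := by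
  obtain ⟨z, hz⟩ := sum_pow_bernoulli p hk
  have hB : ‖((bernoulli k : ℚ) : ℚ_[p])‖ ≤ 1 := bernoulli_mem p k hk
  have hp0 : (p : ℤ_[p]) ≠ 0 := by exact_mod_cast hp.out.ne_zero
  obtain ⟨B, hBc⟩ : ∃ B : ℤ_[p], (B : ℚ_[p]) = ((bernoulli k : ℚ) : ℚ_[p]) := ⟨⟨_, hB⟩, rfl⟩
  have h1 : ((∑ a ∈ range p, a ^ k : ℕ) : ℤ_[p]) = p * (B + p * z) := by
    have h2 : ((∑ a ∈ range p, a ^ k : ℕ) : ℤ_[p]) = ∑ a : ZMod p, (a.val : ℤ_[p]) ^ k := by
      rw [sum_zmod (fun a : ℕ => (a : ℤ_[p]) ^ k)]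
      push_cast
      rfl
    rw [h2]
    apply Subtype.ext
    rw [hz]
    push_cast
    rw [hBc]
    ring
  rw [← pow_dvd_cast_iff, h1, pow_two, mul_dvd_mul_iff_left hp0, dvd_add_left (dvd_mul_right _ _),
    ← norm_ratCast_lt_one_iff p hB, ← PadicInt.norm_lt_one_iff_dvd, PadicInt.norm_def, hBc]

/-- If `p²` divides `1^k + 2^k + ⋯ + (p - 1)^k` for an even `k`, `2 ≤ k ≤ p - 3`, then `p` divides
the class number of `ℚ(ζ_p)`. -/
theorem dvd_classNumber_of_sum {k : ℕ} (h1 : Even k) (h2 : 2 ≤ k) (h3 : k ≤ p - 3)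
    (h4 : p ^ 2 ∣ ∑ a ∈ range p, a ^ k) : p ∣ classNumber K :=
  dvd_classNumber p K h1 h2 h3 ((sq_dvd_sum_iff p (by omega)).mp h4)

/-- **`37` divides the class number of `ℚ(ζ_37)`.** -/
theorem thirty_seven_dvd (K : Type u) [Field K] [NumberField K]
    [IsCyclotomicExtension {37} ℚ K] : 37 ∣ classNumber K := by
  have : Fact (Nat.Prime 37) := ⟨by norm_num⟩
  exact dvd_classNumber_of_sum 37 K (k := 32) (by decide) (by decide) (by decide)
    (by decide +kernel)

/-- `59` divides the class number of `ℚ(ζ_59)`. -/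
theorem fifty_nine_dvd (K : Type u) [Field K] [NumberField K]
    [IsCyclotomicExtension {59} ℚ K] : 59 ∣ classNumber K := by
  have : Fact (Nat.Prime 59) := ⟨by norm_num⟩
  exact dvd_classNumber_of_sum 59 K (k := 44) (by decide) (by decide) (by decide)
    (by decide +kernel)

/-- `67` divides the class number of `ℚ(ζ_67)`. -/
theorem sixty_seven_dvd (K : Type u) [Field K] [NumberField K]
    [IsCyclotomicExtension {67} ℚ K] : 67 ∣ classNumber K := by
  have : Fact (Nat.Prime 67) := ⟨by norm_num⟩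
  exact dvd_classNumber_of_sum 67 K (k := 58) (by decide) (by decide) (by decide)
    (by decide +kernel)

/-- `157²` divides the class number of `ℚ(ζ_157)` (`B_62` and `B_110`). -/
theorem sq_dvd_157 (K : Type u) [Field K] [NumberField K]
    [IsCyclotomicExtension {157} ℚ K] : 157 ^ 2 ∣ classNumber K := by
  classical
  have : Fact (Nat.Prime 157) := ⟨by norm_num⟩
  have h1 : (157 : ℤ) ∣ (bernoulli 62).num :=
    (sq_dvd_sum_iff 157 (k := 62) (by decide)).mp (by decide +kernel)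
  have h2 : (157 : ℤ) ∣ (bernoulli 110).num :=
    (sq_dvd_sum_iff 157 (k := 110) (by decide)).mp (by decide +kernel)
  refine dvd_trans (pow_dvd_pow 157 ?_) (pow_dvd_classNumber 157 K)
  have h3 : ({62, 110} : Finset ℕ) ⊆
      (kset 157).filter fun k => ((157 : ℕ) : ℤ) ∣ (bernoulli k).num := by
    intro k hk
    rw [Finset.mem_insert, Finset.mem_singleton] at hk
    rw [Finset.mem_filter, Finset.mem_filter, Finset.mem_Icc]
    rcases hk with rfl | rfl
    · exact ⟨⟨by decide, by decide⟩, h1⟩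
    · exact ⟨⟨by decide, by decide⟩, h2⟩
  exact Finset.card_le_card h3

end Fermat.Agent.Cor.Kummer
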