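import Mathlib

/-!
# From the sum of `Λ` to the number of primes

`ι` a set of "primes" with norms `N i ≥ 2`, at most `D x` of norm `≤ x`; `c i k` the weight of the
prime power `i ^ (k + 1)`, between `0` and `1`. If `∑_{N i ^ (k + 1) ≤ x} c i k log (N i) ~ A x`,
then `∑_{N i ≤ x} c i 0 ~ A x / log x`.
-/

set_option autoImplicit false

open Filter Topology

noncomputable section

namespace Fermat.Agent.Cor

variable {ι : Type*} {N : ι → ℕ}

/-- the coefficients of von Mangoldt type: the prime powers `i ^ (k + 1)` of norm `n` -/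
def vM (N : ι → ℕ) (c : ι → ℕ → ℝ) (n : ℕ) : ℝ :=
  ∑' p : {p : ι × ℕ // N p.1 ^ (p.2 + 1) = n}, c p.1.1 p.1.2 * Real.log (N p.1.1)

/-- at most `D x` primes of norm `≤ x` -/
structure IsCount (N : ι → ℕ) (D : ℝ) : Prop where
  two_le : ∀ i, 2 ≤ N i
  fin : ∀ x : ℕ, {i | N i ≤ x}.Finite
  card : ∀ x : ℕ, ({i | N i ≤ x}.ncard : ℝ) ≤ D * x

namespace IsCount

variable {D : ℝ} (h : IsCount N D)

/-- the primes of norm `≤ x` -/
def F (x : ℕ) : Finset ι := (h.fin x).toFinset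

theorem mem_F {x : ℕ} {i : ι} : i ∈ h.F x ↔ N i ≤ x := by
  rw [F, Set.Finite.mem_toFinset]
  rfl

theorem card_F (x : ℕ) : ((h.F x).card : ℝ) ≤ D * x := by
  have := h.card x
  rwa [Set.ncard_eq_toFinset_card _ (h.fin x)] at this

include h in
theorem lt_pow {i : ι} {k : ℕ} : k < N i ^ (k + 1) :=
  (Nat.lt_pow_self (show 1 < N i from h.two_le i)).trans_le
    (Nat.pow_le_pow_right (by have := h.two_le i; omega) (Nat.le_succ k))

omit h in
theorem le_pow {i : ι} {k : ℕ} : N i ≤ N i ^ (k + 1) :=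
  Nat.le_self_pow (Nat.succ_ne_zero k) _

/-- the prime powers of norm `≤ x` -/
def G (x : ℕ) : Finset (ι × ℕ) :=
  (h.F x ×ˢ Finset.range x).filter fun p => N p.1 ^ (p.2 + 1) ≤ x

theorem mem_G {x : ℕ} {p : ι × ℕ} : p ∈ h.G x ↔ N p.1 ^ (p.2 + 1) ≤ x := by
  rw [G, Finset.mem_filter, Finset.mem_product, mem_F, Finset.mem_range]
  refine ⟨fun hp => hp.2, fun hp => ⟨⟨le_pow.trans hp, h.lt_pow.trans_le hp⟩, hp⟩⟩

theorem vM_eq (c : ι → ℕ → ℝ) {n x : ℕ} (hn : n ≤ x) :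
    vM N c n = ∑ p ∈ h.G x with N p.1 ^ (p.2 + 1) = n, c p.1 p.2 * Real.log (N p.1) := by
  classical
  have hset : {p : ι × ℕ | N p.1 ^ (p.2 + 1) = n} =
      (((h.G x).filter fun p => N p.1 ^ (p.2 + 1) = n : Finset (ι × ℕ)) : Set (ι × ℕ)) := by
    ext p
    rw [Finset.coe_filter, Set.mem_ofPred_eq, Set.mem_ofPred_eq, mem_G]
    exact ⟨fun hp => ⟨hp.le.trans hn, hp⟩, fun hp => hp.2⟩
  have h1 : vM N c n = ∑' p : ({p : ι × ℕ | N p.1 ^ (p.2 + 1) = n} : Set (ι × ℕ)),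
      c p.1.1 p.1.2 * Real.log (N p.1.1) := rfl
  rw [h1, hset, Finset.tsum_subtype' _ (fun p : ι × ℕ => c p.1 p.2 * Real.log (N p.1))]

theorem sum_vM (c : ι → ℕ → ℝ) (x : ℕ) : ∑ n ∈ Finset.Icc 1 x, vM N c n =
    ∑ p ∈ h.G x, c p.1 p.2 * Real.log (N p.1) := by
  classical
  rw [← Finset.sum_fiberwise_of_maps_to (s := h.G x) (t := Finset.Icc 1 x)
    (g := fun p => N p.1 ^ (p.2 + 1))]
  · exact Finset.sum_congr rfl fun n hn => h.vM_eq c (Finset.mem_Icc.1 hn).2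
  · intro p hp
    rw [Finset.mem_Icc]
    exact ⟨Nat.one_le_pow _ _ (by have := h.two_le p.1; omega), h.mem_G.1 hp⟩

/-- the sum over the primes -/
def th (c : ι → ℕ → ℝ) (x : ℕ) : ℝ := ∑ i ∈ h.F x, c i 0 * Real.log (N i)

include h in
theorem log_nonneg (i : ι) : 0 ≤ Real.log (N i) :=
  Real.log_nonneg (by exact_mod_cast (by have := h.two_le i; omega : 1 ≤ N i))

theorem th_le {c : ι → ℕ → ℝ} (hc0 : ∀ i k, 0 ≤ c i k) (x : ℕ) :
    h.th c x ≤ ∑ n ∈ Finset.Icc 1 x, vM N c n := by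
  classical
  rw [h.sum_vM, th]
  have h1 : ∑ i ∈ h.F x, c i 0 * Real.log (N i) =
      ∑ p ∈ (h.F x).image (fun i => (i, 0)), c p.1 p.2 * Real.log (N p.1) := by
    rw [Finset.sum_image]
    intro i _ j _ hij
    exact (Prod.ext_iff.1 hij).1
  rw [h1]
  refine Finset.sum_le_sum_of_subset_of_nonneg ?_
    fun p _ _ => mul_nonneg (hc0 _ _) (h.log_nonneg _)
  intro p hp
  obtain ⟨i, hi, rfl⟩ := Finset.mem_image.1 hp
  rw [mem_G]
  simpa using h.mem_F.1 hi

theorem le_th_add {c : ι → ℕ → ℝ} (hc0 : ∀ i k, 0 ≤ c i k) (hc1 : ∀ i k, c i k ≤ 1) (x : ℕ) :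
    ∑ n ∈ Finset.Icc 1 x, vM N c n ≤ h.th c x + D * Nat.sqrt x * Real.log x := by
  classical
  rcases Nat.eq_zero_or_pos x with rfl | hx
  · simp [th]
    refine Finset.sum_nonneg fun i _ => mul_nonneg (hc0 _ _) (h.log_nonneg _)
  have hlx : 0 ≤ Real.log x := Real.log_nonneg (by exact_mod_cast hx)
  rw [h.sum_vM]
  -- split off `k = 0`
  rw [← Finset.sum_filter_add_sum_filter_not (h.G x) fun p => p.2 = 0]
  refine add_le_add ?_ ?_
  · rw [th]
    have h1 : ∑ i ∈ h.F x, c i 0 * Real.log (N i) =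
        ∑ p ∈ (h.F x).image (fun i => (i, 0)), c p.1 p.2 * Real.log (N p.1) := by
      rw [Finset.sum_image]
      intro i _ j _ hij
      exact (Prod.ext_iff.1 hij).1
    rw [h1]
    refine Finset.sum_le_sum_of_subset_of_nonneg ?_
      fun p _ _ => mul_nonneg (hc0 _ _) (h.log_nonneg _)
    rintro ⟨i, k⟩ hp
    rw [Finset.mem_filter, mem_G] at hp
    obtain ⟨hp1, hp2⟩ := hp
    simp only at hp1 hp2
    subst hp2
    rw [Finset.mem_image]
    exact ⟨i, h.mem_F.2 (by simpa using hp1), rfl⟩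
  · -- the higher powers
    have h1 : ∑ p ∈ h.G x with ¬ p.2 = 0, c p.1 p.2 * Real.log (N p.1) ≤
        ∑ i ∈ h.F (Nat.sqrt x), ∑ k ∈ Finset.range (Nat.log (N i) x), Real.log (N i) := by
      rw [Finset.sum_sigma']
      have h2 : ∑ p ∈ h.G x with ¬ p.2 = 0, c p.1 p.2 * Real.log (N p.1) ≤
          ∑ p ∈ h.G x with ¬ p.2 = 0, Real.log (N p.1) :=
        Finset.sum_le_sum fun p _ => mul_le_of_le_one_left (h.log_nonneg _) (hc1 _ _)
      refine h2.trans ?_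
      have h3 : ∑ p ∈ h.G x with ¬ p.2 = 0, Real.log (N p.1) =
          ∑ q ∈ ((h.G x).filter fun p => ¬ p.2 = 0).image
            (fun p => (⟨p.1, p.2⟩ : Σ _ : ι, ℕ)), Real.log (N q.1) := by
        rw [Finset.sum_image]
        rintro ⟨i, k⟩ _ ⟨j, l⟩ _ hij
        simpa using hij
      rw [h3]
      refine Finset.sum_le_sum_of_subset_of_nonneg ?_ fun q _ _ => h.log_nonneg _
      intro q hq
      obtain ⟨⟨i, k⟩, hp, rfl⟩ := Finset.mem_image.1 hq
      rw [Finset.mem_filter, mem_G] at hp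
      obtain ⟨hp1, hp2⟩ := hp
      simp only at hp1 hp2
      rw [Finset.mem_sigma, mem_F, Finset.mem_range]
      have hb : 1 < N i := h.two_le i
      constructor
      · rw [Nat.le_sqrt']
        refine le_trans ?_ hp1
        change N i ^ 2 ≤ N i ^ (k + 1)
        exact Nat.pow_le_pow_right (by omega) (by omega)
      · exact Nat.lt_of_succ_le (Nat.le_log_of_pow_le hb hp1)
    refine h1.trans ?_
    have h4 : ∀ i ∈ h.F (Nat.sqrt x),
        ∑ k ∈ Finset.range (Nat.log (N i) x), Real.log (N i) ≤ Real.log x := by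
      intro i _
      rw [Finset.sum_const, Finset.card_range, nsmul_eq_mul, ← Real.log_pow]
      refine Real.log_le_log ?_ ?_
      · have := h.two_le i
        positivity
      · exact_mod_cast Nat.pow_log_le_self (N i) hx.ne'
    refine (Finset.sum_le_sum h4).trans ?_
    rw [Finset.sum_const, nsmul_eq_mul]
    exact mul_le_mul_of_nonneg_right (h.card_F _) hlx

include h in
theorem D_nonneg : 0 ≤ D := by
  have h1 := h.card 1
  rw [Nat.cast_one, mul_one] at h1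
  exact le_trans (by positivity) h1

/-- Chebyshev's function of the primes. -/
theorem tendsto_th {c : ι → ℕ → ℝ} (hc0 : ∀ i k, 0 ≤ c i k) (hc1 : ∀ i k, c i k ≤ 1) {A : ℝ}
    (hA : Tendsto (fun x : ℝ => (∑ n ∈ Finset.Icc 1 ⌊x⌋₊, vM N c n) / x) atTop (𝓝 A)) :
    Tendsto (fun x : ℝ => h.th c ⌊x⌋₊ / x) atTop (𝓝 A) := by
  have h0 : Tendsto (fun x : ℝ => D * (Real.log x / x ^ (1 / 2 : ℝ))) atTop (𝓝 0) := by
    have := (isLittleO_log_rpow_atTop (r := 1 / 2) (by norm_num)).tendsto_div_nhds_zero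
    simpa using this.const_mul D
  have h1 : Tendsto (fun x : ℝ => (∑ n ∈ Finset.Icc 1 ⌊x⌋₊, vM N c n) / x -
      D * (Real.log x / x ^ (1 / 2 : ℝ))) atTop (𝓝 A) := by
    simpa using hA.sub h0
  refine tendsto_of_tendsto_of_tendsto_of_le_of_le' h1 hA ?_ ?_
  · filter_upwards [eventually_gt_atTop 1] with x hx
    have hx0 : 0 < x := one_pos.trans hx
    have h2 := h.le_th_add hc0 hc1 ⌊x⌋₊
    have h3 : D * Nat.sqrt ⌊x⌋₊ * Real.log ⌊x⌋₊ ≤ D * (x ^ (1 / 2 : ℝ)) * Real.log x := by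
      have h4 : ((Nat.sqrt ⌊x⌋₊ : ℕ) : ℝ) ≤ x ^ (1 / 2 : ℝ) := by
        rw [← Real.sqrt_eq_rpow]
        exact Real.nat_sqrt_le_real_sqrt.trans (Real.sqrt_le_sqrt (Nat.floor_le hx0.le))
      have h5 : Real.log ⌊x⌋₊ ≤ Real.log x :=
        Real.log_le_log (by exact_mod_cast Nat.floor_pos.2 hx.le) (Nat.floor_le hx0.le)
      have h6 : 0 ≤ Real.log ⌊x⌋₊ := Real.log_natCast_nonneg _
      have h7 := h.D_nonneg
      gcongr
    rw [sub_le_iff_le_add, div_le_iff₀ hx0, add_mul, div_mul_cancel₀ _ hx0.ne']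
    refine h2.trans (add_le_add le_rfl (h3.trans (le_of_eq ?_)))
    have h8 : x = x ^ (1 / 2 : ℝ) * x ^ (1 / 2 : ℝ) := by
      rw [← Real.rpow_add hx0]
      norm_num
    have h9 : x ^ (1 / 2 : ℝ) ≠ 0 := (Real.rpow_pos_of_pos hx0 _).ne'
    calc D * x ^ (1 / 2 : ℝ) * Real.log x =
        D * (Real.log x / x ^ (1 / 2 : ℝ)) * (x ^ (1 / 2 : ℝ) * x ^ (1 / 2 : ℝ)) := by
          field_simp
      _ = _ := by rw [← h8]
  · filter_upwards [eventually_gt_atTop 0] with x hx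
    exact div_le_div_of_nonneg_right (h.th_le hc0 _) hx.le

/-- the (weighted) number of primes -/
def cnt (c : ι → ℕ → ℝ) (x : ℕ) : ℝ := ∑ i ∈ h.F x, c i 0

theorem th_le_cnt {c : ι → ℕ → ℝ} (hc0 : ∀ i k, 0 ≤ c i k) {x : ℝ} (hx : 1 ≤ x) :
    h.th c ⌊x⌋₊ ≤ h.cnt c ⌊x⌋₊ * Real.log x := by
  rw [th, cnt, Finset.sum_mul]
  refine Finset.sum_le_sum fun i hi => mul_le_mul_of_nonneg_left ?_ (hc0 _ _)
  have h1 : (N i : ℝ) ≤ x := (Nat.le_floor_iff (zero_le_one.trans hx)).1 (h.mem_F.1 hi)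
  refine Real.log_le_log ?_ h1
  have := h.two_le i
  positivity

theorem cnt_le {c : ι → ℕ → ℝ} (hc0 : ∀ i k, 0 ≤ c i k) (hc1 : ∀ i k, c i k ≤ 1) {x y : ℝ}
    (hy : 1 < y) : h.cnt c ⌊x⌋₊ ≤ D * y + h.th c ⌊x⌋₊ / Real.log y := by
  classical
  have hly : 0 < Real.log y := Real.log_pos hy
  have hy0 : 0 < y := one_pos.trans hy
  rw [cnt, ← Finset.sum_filter_add_sum_filter_not (h.F ⌊x⌋₊) fun i => N i ≤ ⌊y⌋₊]
  refine add_le_add ?_ ?_
  · have h1 : ∑ i ∈ h.F ⌊x⌋₊ with N i ≤ ⌊y⌋₊, c i 0 ≤ ∑ i ∈ h.F ⌊y⌋₊, (1 : ℝ) := by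
      refine (Finset.sum_le_sum fun i _ => hc1 i 0).trans ?_
      refine Finset.sum_le_sum_of_subset_of_nonneg ?_ fun _ _ _ => zero_le_one
      intro i hi
      exact h.mem_F.2 (Finset.mem_filter.1 hi).2
    refine h1.trans ?_
    rw [Finset.sum_const, nsmul_eq_mul, mul_one]
    exact (h.card_F _).trans (mul_le_mul_of_nonneg_left (Nat.floor_le hy0.le) h.D_nonneg)
  · rw [le_div_iff₀ hly, Finset.sum_mul, th]
    have h1 : ∀ i ∈ (h.F ⌊x⌋₊).filter (fun i => ¬ N i ≤ ⌊y⌋₊),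
        c i 0 * Real.log y ≤ c i 0 * Real.log (N i) := by
      intro i hi
      refine mul_le_mul_of_nonneg_left ?_ (hc0 _ _)
      have h2 := (Finset.mem_filter.1 hi).2
      rw [not_le, Nat.floor_lt hy0.le] at h2
      exact Real.log_le_log hy0 h2.le
    refine (Finset.sum_le_sum h1).trans ?_
    exact Finset.sum_le_sum_of_subset_of_nonneg (Finset.filter_subset _ _)
      fun i _ _ => mul_nonneg (hc0 _ _) (h.log_nonneg _)

/-- the ratio `log x / log (x / log² x) → 1`, in the form needed -/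
theorem tendsto_aux : Tendsto (fun x : ℝ => 1 - 2 * (Real.log (Real.log x) / Real.log x)) atTop
    (𝓝 1) := by
  have h1 : Tendsto (fun x : ℝ => Real.log (Real.log x) / Real.log x) atTop (𝓝 0) :=
    (Real.isLittleO_log_id_atTop.tendsto_div_nhds_zero).comp Real.tendsto_log_atTop
  simpa using (h1.const_mul 2).const_sub 1

/-- **From `ψ` to `π`.** -/
theorem tendsto_cnt {c : ι → ℕ → ℝ} (hc0 : ∀ i k, 0 ≤ c i k) (hc1 : ∀ i k, c i k ≤ 1) {A : ℝ}
    (hA : Tendsto (fun x : ℝ => (∑ n ∈ Finset.Icc 1 ⌊x⌋₊, vM N c n) / x) atTop (𝓝 A)) :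
    Tendsto (fun x : ℝ => h.cnt c ⌊x⌋₊ * Real.log x / x) atTop (𝓝 A) := by
  have hT := h.tendsto_th hc0 hc1 hA
  have h1 : Tendsto (fun x : ℝ => D * (Real.log x)⁻¹ + (h.th c ⌊x⌋₊ / x) *
      (1 - 2 * (Real.log (Real.log x) / Real.log x))⁻¹) atTop (𝓝 A) := by
    have h2 := (Real.tendsto_log_atTop.inv_tendsto_atTop.const_mul D).add
      (hT.mul (tendsto_aux.inv₀ one_ne_zero))
    simpa using h2
  refine tendsto_of_tendsto_of_tendsto_of_le_of_le' hT h1 ?_ ?_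
  · filter_upwards [eventually_ge_atTop 1] with x hx
    exact div_le_div_of_nonneg_right (h.th_le_cnt hc0 hx) (zero_le_one.trans hx)
  · filter_upwards [eventually_gt_atTop 1, Real.tendsto_log_atTop.eventually_gt_atTop 1,
      tendsto_aux.eventually (lt_mem_nhds zero_lt_one)] with x hx hl hu
    have hx0 : 0 < x := one_pos.trans hx
    have hl0 : 0 < Real.log x := one_pos.trans hl
    set y : ℝ := x / Real.log x ^ 2 with hyd
    have hy0 : 0 < y := by positivity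
    have hly : Real.log y =
        Real.log x * (1 - 2 * (Real.log (Real.log x) / Real.log x)) := by
      rw [hyd, Real.log_div hx0.ne' (by positivity), Real.log_pow]
      field_simp
      push_cast
      ring
    have hly0 : 0 < Real.log y := by
      rw [hly]
      exact mul_pos hl0 hu
    have hy1 : 1 < y := (Real.log_pos_iff hy0.le).1 hly0
    have h3 := h.cnt_le hc0 hc1 (x := x) hy1
    rw [div_le_iff₀ hx0]
    calc h.cnt c ⌊x⌋₊ * Real.log x ≤ (D * y + h.th c ⌊x⌋₊ / Real.log y) * Real.log x :=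
          mul_le_mul_of_nonneg_right h3 hl0.le
      _ = _ := by
          rw [hly, hyd]
          generalize 1 - 2 * (Real.log (Real.log x) / Real.log x) = u at hu
          have hu' : u ≠ 0 := ne_of_gt hu
          field_simp

include h in
/-- **From `ψ` to `π`**, for the primes of a subset `S`. -/
theorem tendsto_ncard {c : ι → ℕ → ℝ} (hc0 : ∀ i k, 0 ≤ c i k) (hc1 : ∀ i k, c i k ≤ 1)
    {S : Set ι} (hS : ∀ i ∈ S, c i 0 = 1) (hS' : ∀ i ∉ S, c i 0 = 0) {A : ℝ}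
    (hA : Tendsto (fun x : ℝ => (∑ n ∈ Finset.Icc 1 ⌊x⌋₊, vM N c n) / x) atTop (𝓝 A)) :
    Tendsto (fun x : ℝ => ({i | i ∈ S ∧ (N i : ℝ) ≤ x}.ncard : ℝ) * Real.log x / x) atTop
      (𝓝 A) := by
  classical
  refine (h.tendsto_cnt hc0 hc1 hA).congr' ?_
  filter_upwards [eventually_ge_atTop 0] with x hx
  congr 2
  have h1 : {i | i ∈ S ∧ (N i : ℝ) ≤ x} = (((h.F ⌊x⌋₊).filter (· ∈ S) : Finset ι) : Set ι) := by
    ext i
    rw [Finset.coe_filter, Set.mem_ofPred_eq, Set.mem_ofPred_eq, mem_F, Nat.le_floor_iff hx,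
      and_comm]
  rw [h1, Set.ncard_coe_finset, cnt, Finset.card_filter, Nat.cast_sum]
  refine Finset.sum_congr rfl fun i _ => ?_
  split_ifs with hi
  · rw [hS i hi, Nat.cast_one]
  · rw [hS' i hi, Nat.cast_zero]

/-- the coefficients for a set `T` of prime powers -/
theorem _root_.Fermat.Agent.Cor.vM_ite (N : ι → ℕ) (T : ι → ℕ → Prop) [∀ i k, Decidable (T i k)]
    (n : ℕ) : vM N (fun i k => if T i k then 1 else 0) n =
      ∑' q : {q : ι × ℕ // N q.1 ^ (q.2 + 1) = n ∧ T q.1 q.2}, Real.log (N q.1.1) := by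
  classical
  have h1 : vM N (fun i k => if T i k then 1 else 0) n =
      ∑' p : ι × ℕ, {p : ι × ℕ | N p.1 ^ (p.2 + 1) = n}.indicator
        (fun p => (if T p.1 p.2 then 1 else 0) * Real.log (N p.1)) p :=
    tsum_subtype {p : ι × ℕ | N p.1 ^ (p.2 + 1) = n}
      (fun p => (if T p.1 p.2 then 1 else 0) * Real.log (N p.1))
  have h2 : ∑' q : {q : ι × ℕ // N q.1 ^ (q.2 + 1) = n ∧ T q.1 q.2}, Real.log (N q.1.1) =
      ∑' p : ι × ℕ, {q : ι × ℕ | N q.1 ^ (q.2 + 1) = n ∧ T q.1 q.2}.indicator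
        (fun p => Real.log (N p.1)) p :=
    tsum_subtype {q : ι × ℕ | N q.1 ^ (q.2 + 1) = n ∧ T q.1 q.2} (fun p => Real.log (N p.1))
  rw [h1, h2]
  refine tsum_congr fun p => ?_
  by_cases hp : N p.1 ^ (p.2 + 1) = n <;> by_cases hT : T p.1 p.2 <;>
    simp [Set.indicator, hp, hT]

include h in
/-- **From `ψ` to `π`**, for a set `T` of prime powers: the number of primes `i` of norm `≤ x` with
`T i 0`, multiplied by `log x / x`, has the same limit as `ψ(x) / x`. -/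
theorem count_of_psi {T : ι → ℕ → Prop} {a : ℕ → ℝ}
    (ha : ∀ n, a n = ∑' q : {q : ι × ℕ // N q.1 ^ (q.2 + 1) = n ∧ T q.1 q.2},
      Real.log (N q.1.1)) {A : ℝ}
    (hA : Tendsto (fun x : ℝ => (∑ n ∈ Finset.Icc 1 ⌊x⌋₊, a n) / x) atTop (𝓝 A)) :
    Tendsto (fun x : ℝ => (Nat.card {i : ι // (N i : ℝ) ≤ x ∧ T i 0} : ℝ) * Real.log x / x)
      atTop (𝓝 A) := by
  classical
  have h1 := h.tendsto_ncard (c := fun i k => if T i k then 1 else 0) (S := {i | T i 0})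
    (fun i k => by split_ifs <;> norm_num) (fun i k => by split_ifs <;> norm_num)
    (fun i hi => if_pos hi) (fun i hi => if_neg hi) (A := A) (hA.congr fun x => by
      congr 1
      exact Finset.sum_congr rfl fun n _ => by rw [vM_ite, ha])
  refine h1.congr fun x => ?_
  congr 3
  rw [← Nat.card_coe_set_eq]
  exact Nat.card_congr (Equiv.subtypeEquivRight fun i => and_comm)

include h in
/-- the same for natural `x` -/
theorem count_of_psi_nat {T : ι → ℕ → Prop} {a : ℕ → ℝ}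
    (ha : ∀ n, a n = ∑' q : {q : ι × ℕ // N q.1 ^ (q.2 + 1) = n ∧ T q.1 q.2},
      Real.log (N q.1.1)) {A : ℝ}
    (hA : Tendsto (fun x : ℝ => (∑ n ∈ Finset.Icc 1 ⌊x⌋₊, a n) / x) atTop (𝓝 A)) :
    Tendsto (fun x : ℕ => (Nat.card {i : ι // N i ≤ x ∧ T i 0} : ℝ) * Real.log x / x)
      atTop (𝓝 A) :=
  ((h.count_of_psi ha hA).comp tendsto_natCast_atTop_atTop).congr fun x => by
    simp only [Function.comp_apply, Nat.cast_le]

end IsCount

end Fermat.Agent.Cor
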