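import Fermat.Agent.Corollaries.ZetaK.Perlis

/-!
# The theorem of Perlis and Stuart

`K`, `L` number fields. If for almost all prime numbers `p` the *number* of places above `p` is the
same in `K` and in `L`, then `K` and `L` are arithmetically equivalent: they have the same Dedekind
zeta function, and the residue degrees above every prime are the same
(R. Perlis, D. Stuart, *A new characterization of arithmetic equivalence*, J. Number Theory 1995).

The number of cycles of `s ^ k` is `∑ gcd (f, k)` over the lengths `f` of the cycles of `s`, and a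
multiset `m` of positive numbers is determined by the sums `∑_{f ∈ m} gcd (f, k)`.
-/

set_option autoImplicit false

namespace Fermat.Agent.Cor.Frob

open NumberField IsDedekindDomain Filter
open Fermat.Agent.Frob Fermat.Agent.Classic.Disc Fermat.Agent.Classic.Emb

local notation "Qbar" => AlgebraicClosure ℚ

/-! ### Multisets and greatest common divisors -/

lemma card_dvd_mul {x k n : ℕ} (hx : 0 < x) (hn : x ∣ n) :
    x * ((Finset.Ioc 0 n).filter fun j => x ∣ k * j).card = n * Nat.gcd x k := by
  obtain ⟨g, y, l, hg, hcop, rfl, rfl⟩ : ∃ g y l : ℕ, 0 < g ∧ Nat.Coprime y l ∧ x = y * g ∧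
      k = l * g := by
    obtain ⟨h0, hc, hy, hl⟩ : 0 < Nat.gcd x k ∧ Nat.Coprime (x / Nat.gcd x k) (k / Nat.gcd x k) ∧
        x = x / Nat.gcd x k * Nat.gcd x k ∧ k = k / Nat.gcd x k * Nat.gcd x k :=
      ⟨Nat.gcd_pos_of_pos_left k hx, Nat.coprime_div_gcd_div_gcd (Nat.gcd_pos_of_pos_left k hx),
        (Nat.div_mul_cancel (Nat.gcd_dvd_left x k)).symm,
        (Nat.div_mul_cancel (Nat.gcd_dvd_right x k)).symm⟩
    exact ⟨_, _, _, h0, hc, hy, hl⟩
  have h1 : ∀ j, y * g ∣ l * g * j ↔ y ∣ j := fun j => by
    rw [mul_right_comm, Nat.mul_dvd_mul_iff_right hg]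
    exact ⟨hcop.dvd_of_dvd_mul_left, fun h => h.mul_left l⟩
  have h2 : Nat.gcd (y * g) (l * g) = g := by
    rw [Nat.gcd_mul_right, hcop.gcd_eq_one, one_mul]
  obtain ⟨z, rfl⟩ := hn
  have hy : 0 < y := Nat.pos_of_mul_pos_right hx |> fun _ => Nat.pos_of_ne_zero fun h0 => by
    rw [h0, zero_mul] at hx
    exact hx.false
  simp_rw [h1]
  rw [Nat.Ioc_filter_dvd_card_eq_div, h2, mul_assoc y g z, Nat.mul_div_cancel_left _ hy]
  ring

lemma sum_filter_dvd_mul (m : Multiset ℕ) (k n : ℕ) (hm : ∀ x ∈ m, 0 < x ∧ x ∣ n) :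
    ∑ j ∈ Finset.Ioc 0 n, (m.filter (· ∣ k * j)).sum = n * (m.map (Nat.gcd · k)).sum := by
  induction m using Multiset.induction_on with
  | empty => simp
  | cons x m ih =>
    have hx := hm x (Multiset.mem_cons_self x m)
    rw [Multiset.map_cons, Multiset.sum_cons, mul_add,
      ← ih fun y hy => hm y (Multiset.mem_cons_of_mem hy), ← card_dvd_mul hx.1 hx.2,
      Finset.card_filter, Finset.mul_sum, ← Finset.sum_add_distrib]
    refine Finset.sum_congr rfl fun j _ => ?_
    rw [Multiset.filter_cons, Multiset.sum_add]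
    split_ifs with h
    · rw [Multiset.sum_singleton, mul_one]
    · rw [Multiset.sum_zero, mul_zero]

lemma gcd_eq_sum_totient {x k : ℕ} (hk : 0 < k) :
    Nat.gcd x k = ∑ e ∈ k.divisors, if e ∣ x then Nat.totient e else 0 := by
  rw [← Finset.sum_filter]
  conv_lhs => rw [← Nat.sum_totient (Nat.gcd x k)]
  refine Finset.sum_congr ?_ fun _ _ => rfl
  ext e
  rw [Nat.mem_divisors, Finset.mem_filter, Nat.mem_divisors, Nat.dvd_gcd_iff]
  exact ⟨fun h => ⟨⟨h.1.2, hk.ne'⟩, h.1.1⟩, fun h => ⟨⟨h.2, h.1.1⟩,
    (Nat.gcd_pos_of_pos_right x hk).ne'⟩⟩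

lemma sum_gcd_eq (m : Multiset ℕ) {k : ℕ} (hk : 0 < k) :
    (m.map (Nat.gcd · k)).sum =
      ∑ e ∈ k.divisors, Nat.totient e * Multiset.card (m.filter (e ∣ ·)) := by
  induction m using Multiset.induction_on with
  | empty => simp
  | cons x m ih =>
    rw [Multiset.map_cons, Multiset.sum_cons, ih, gcd_eq_sum_totient hk,
      ← Finset.sum_add_distrib]
    refine Finset.sum_congr rfl fun e _ => ?_
    rw [Multiset.filter_cons, Multiset.card_add, mul_add]
    split_ifs with h
    · rw [Multiset.card_singleton, mul_one]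
    · rw [Multiset.card_zero, mul_zero]

/-- A multiset of positive numbers is determined by the numbers of its elements divisible by `e`. -/
theorem ext_of_card_dvd {m m' : Multiset ℕ} (hm : ∀ x ∈ m, 0 < x) (hm' : ∀ x ∈ m', 0 < x)
    (h : ∀ e, 0 < e → Multiset.card (m.filter (e ∣ ·)) = Multiset.card (m'.filter (e ∣ ·))) :
    m = m' := by
  obtain ⟨B, hB⟩ : ∃ B, ∀ x ∈ m + m', x < B :=
    ⟨(m + m').sum + 1, fun x hx => Nat.lt_succ_of_le (Multiset.le_sum_of_mem hx)⟩
  have hs : ∀ m'' : Multiset ℕ, (∀ x ∈ m'', x < B ∧ 0 < x) → ∀ k, 0 < k →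
      Multiset.card (m''.filter (k ∣ ·)) =
        ∑ x ∈ (Finset.range B).filter fun x => k ∣ x ∧ 0 < x, m''.count x := by
    intro m'' hm'' k hk
    rw [← Multiset.sum_count_eq_card (s := (Finset.range B).filter fun x => k ∣ x ∧ 0 < x)
      fun x hx => ?_]
    · refine Finset.sum_congr rfl fun x hx => ?_
      exact Multiset.count_filter_of_pos (Finset.mem_filter.mp hx).2.1
    · rw [Multiset.mem_filter] at hx
      rw [Finset.mem_filter, Finset.mem_range]
      exact ⟨(hm'' x hx.1).1, hx.2, (hm'' x hx.1).2⟩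
  have key : ∀ d k, B - k = d → 0 < k → m.count k = m'.count k := by
    intro d
    induction d using Nat.strong_induction_on with
    | _ d ih =>
      intro k hd hk
      rcases le_or_gt B k with hkB | hkB
      · rw [Multiset.count_eq_zero_of_notMem fun h0 =>
            (hB k (Multiset.mem_add.mpr (Or.inl h0))).not_ge hkB,
          Multiset.count_eq_zero_of_notMem fun h0 =>
            (hB k (Multiset.mem_add.mpr (Or.inr h0))).not_ge hkB]
      · have h1 := h k hk
        rw [hs m (fun x hx => ⟨hB x (Multiset.mem_add.mpr (Or.inl hx)), hm x hx⟩) k hk,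
          hs m' (fun x hx => ⟨hB x (Multiset.mem_add.mpr (Or.inr hx)), hm' x hx⟩) k hk] at h1
        have hmem : k ∈ (Finset.range B).filter fun x => k ∣ x ∧ 0 < x :=
          Finset.mem_filter.mpr ⟨Finset.mem_range.mpr hkB, dvd_rfl, hk⟩
        rw [← Finset.add_sum_erase _ _ hmem, ← Finset.add_sum_erase _ _ hmem,
          Finset.sum_congr rfl fun x hx => ?_] at h1
        · exact Nat.add_right_cancel h1
        · rw [Finset.mem_erase, Finset.mem_filter, Finset.mem_range] at hx
          have hlt : k < x := lt_of_le_of_ne (Nat.le_of_dvd hx.2.2.2 hx.2.2.1) (Ne.symm hx.1)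
          exact ih (B - x) (by omega) x rfl hx.2.2.2
  refine Multiset.ext.mpr fun k => ?_
  rcases Nat.eq_zero_or_pos k with rfl | hk
  · rw [Multiset.count_eq_zero_of_notMem fun h0 => (hm 0 h0).false,
      Multiset.count_eq_zero_of_notMem fun h0 => (hm' 0 h0).false]
  · exact key _ k rfl hk

/-- A multiset of positive numbers is determined by the sums `∑_{x ∈ m} gcd (x, k)`. -/
theorem ext_of_sum_gcd {m m' : Multiset ℕ} (hm : ∀ x ∈ m, 0 < x) (hm' : ∀ x ∈ m', 0 < x)
    (h : ∀ k, 0 < k → (m.map (Nat.gcd · k)).sum = (m'.map (Nat.gcd · k)).sum) : m = m' := by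
  refine ext_of_card_dvd hm hm' fun k hk => ?_
  induction k using Nat.strong_induction_on with
  | _ k ih =>
    have h1 := h k hk
    rw [sum_gcd_eq m hk, sum_gcd_eq m' hk, ← Nat.insert_self_properDivisors hk.ne',
      Finset.sum_insert Nat.self_notMem_properDivisors,
      Finset.sum_insert Nat.self_notMem_properDivisors,
      Finset.sum_congr rfl fun d hd => by
        rw [ih d (Nat.mem_properDivisors.mp hd).2
          (Nat.pos_of_mem_divisors (Nat.properDivisors_subset_divisors hd))]] at h1
    exact Nat.eq_of_mul_eq_mul_left (Nat.totient_pos.mpr hk) (Nat.add_right_cancel h1)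

/-! ### The number of cycles of a power -/

section Perm

open Equiv

variable {α : Type*} [Fintype α] [DecidableEq α]

/-- **The number of cycles of a power**: the number of cycles (fixed points included) of `s ^ k` is
`∑ gcd (f, k)` over the lengths of the cycles of `s`. -/
theorem card_parts_pow (s : Perm α) (k : ℕ) :
    Multiset.card (s ^ k).partition.parts = (s.partition.parts.map (Nat.gcd · k)).sum := by
  set n : ℕ := (Fintype.card α).factorial with hn
  have hn0 : 0 < n := Nat.factorial_pos _
  have hpos : ∀ t : Perm α, ∀ x ∈ t.partition.parts, 0 < x ∧ x ∣ n := fun t x hx =>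
    ⟨t.partition.parts_pos hx, Nat.dvd_factorial (t.partition.parts_pos hx)
      ((Multiset.le_sum_of_mem hx).trans_eq t.partition.parts_sum)⟩
  refine Nat.eq_of_mul_eq_mul_left hn0 ?_
  rw [← sum_filter_dvd_mul _ k n (hpos s)]
  have h1 := sum_filter_dvd_mul _ 1 n (hpos (s ^ k))
  rw [Multiset.map_congr rfl fun x _ => Nat.gcd_one_right x, Multiset.map_const',
    Multiset.sum_replicate, smul_eq_mul, mul_one] at h1
  rw [← h1]
  refine Finset.sum_congr rfl fun j _ => ?_
  rw [one_mul, ← card_fix_pow, ← card_fix_pow, pow_mul]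

/-- The cycle type of a permutation is determined by the numbers of cycles of its powers. -/
theorem parts_eq_of_card_parts {β : Type*} [Fintype β] [DecidableEq β] {s : Perm α} {t : Perm β}
    (h : ∀ k, 0 < k → Multiset.card (s ^ k).partition.parts =
      Multiset.card (t ^ k).partition.parts) : s.partition.parts = t.partition.parts :=
  ext_of_sum_gcd (fun _ hx => s.partition.parts_pos hx) (fun _ hx => t.partition.parts_pos hx)
    fun k hk => by rw [← card_parts_pow, ← card_parts_pow, h k hk]

end Perm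

/-! ### The theorem -/

variable {K L : Type*} [Field K] [NumberField K] [Field L] [NumberField L]

lemma zpowers_eq_of_pow {G : Type*} [Group G] {a b : G} {k k' : ℕ} (h : a = b ^ k)
    (h' : b = a ^ k') : Subgroup.zpowers a = Subgroup.zpowers b :=
  le_antisymm (Subgroup.zpowers_le.mpr (h ▸ Subgroup.npow_mem_zpowers b k))
    (Subgroup.zpowers_le.mpr (h' ▸ Subgroup.npow_mem_zpowers a k'))

lemma cycType_eq_of_pow {σ φ : GQ} {k k' : ℕ} (h : embPerm K φ = embPerm K σ ^ k)
    (h' : embPerm K σ = embPerm K φ ^ k') :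
    cycType K (embPerm K φ) = cycType K (embPerm K σ) := by
  classical
  rw [cycType, cycType]
  exact parts_of_zpowers (zpowers_eq_of_pow h h')

/-- **The theorem of Perlis and Stuart**: the numbers of places above almost all primes determine
the permutation character of `Gal(ℚ̄/ℚ)` on the embeddings. -/
theorem ArithEquiv.of_card_above
    (h : {p : ℕ | p.Prime ∧ (above K p).card ≠ (above L p).card}.Finite) : ArithEquiv K L := by
  classical
  rw [arithEquiv_iff_cycType]
  intro σ
  obtain ⟨D, hD, hK⟩ := Cor.Frob.decType_eq (K := K)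
  obtain ⟨D', hD', hL⟩ := Cor.Frob.decType_eq (K := L)
  have key : ∀ τ : GQ, Multiset.card (cycType K (embPerm K τ)) =
      Multiset.card (cycType L (embPerm L τ)) := by
    intro τ
    obtain ⟨p, hp, hpS, A, hA, φ, hφ, k, k', ⟨h1, h1'⟩, ⟨h2, h2'⟩⟩ :=
      exists_frob K L τ (h.union (Finset.finite_toSet (D * D').primeFactors))
    have hpD : ¬ p ∣ D * D' := fun hd => hpS (Or.inr (Nat.mem_primeFactors.mpr
      ⟨hp, hd, Nat.mul_ne_zero hD hD'⟩))
    have h3 : (above K p).card = (above L p).card := by
      by_contra h4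
      exact hpS (Or.inl ⟨hp, h4⟩)
    rw [← card_decType, ← card_decType, hK p hp (fun hd => hpD (hd.mul_right _)) A hA φ hφ,
      hL p hp (fun hd => hpD (hd.mul_left _)) A hA φ hφ, cycType_eq_of_pow h1 h1',
      cycType_eq_of_pow h2 h2'] at h3
    exact h3
  rw [cycType, cycType]
  refine parts_eq_of_card_parts fun k _ => ?_
  have h1 := key (σ ^ k)
  rw [map_pow, map_pow, cycType, cycType] at h1
  convert h1

/-- **The theorem of Perlis and Stuart.** -/
theorem arithEquiv_iff_card_above :
    ArithEquiv K L ↔ {p : ℕ | p.Prime ∧ (above K p).card ≠ (above L p).card}.Finite :=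
  ⟨fun h => h.finite_decType.subset fun p hp =>
    ⟨hp.1, fun h1 => hp.2 (by rw [← card_decType, ← card_decType, h1])⟩, .of_card_above⟩

/-- The places above `p` in terms of the prime ideals over `(p)`. -/
theorem ncard_primesOver {p : ℕ} (hp : p.Prime) :
    ((Ideal.span {(p : ℤ)}).primesOver (𝓞 K)).ncard = (above K p).card := by
  classical
  have hbot : Ideal.span {(p : ℤ)} ≠ ⊥ := by simpa using hp.ne_zero
  rw [← Set.ncard_coe_finset]
  refine (Set.ncard_congr (fun (v : HeightOneSpectrum (𝓞 K)) _ => v.asIdeal) (fun v hv => ?_)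
    (fun v w _ _ h => HeightOneSpectrum.ext h) fun P hP => ?_).symm
  · have h1 : (p : 𝓞 K) ∈ v.asIdeal := (mem_above hp.ne_zero).mp hv
    exact ⟨v.isPrime, Classic.Disc.liesOver hp h1⟩
  · have h1 := hP.2
    refine ⟨⟨P, hP.1, fun h0 => ?_⟩, ?_, rfl⟩
    · have h2 : P ≠ ⊥ := Ideal.ne_bot_of_liesOver_of_ne_bot hbot P
      exact h2 h0
    · rw [Finset.mem_coe, mem_above hp.ne_zero]
      change (p : 𝓞 K) ∈ P
      have h2 : (p : ℤ) ∈ P.under ℤ := by
        rw [← P.over_def (Ideal.span {(p : ℤ)})]
        exact Ideal.mem_span_singleton_self _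
      simpa [Ideal.mem_comap] using h2

/-- **The theorem of Perlis and Stuart**: two number fields have the same Dedekind zeta function iff
for almost all primes `p` they have the same number of prime ideals above `p`; then this is true for
all primes. -/
theorem perlis_stuart : List.TFAE [dedekindZeta K = dedekindZeta L,
    ∀ p : ℕ, p.Prime → ((Ideal.span {(p : ℤ)}).primesOver (𝓞 K)).ncard =
      ((Ideal.span {(p : ℤ)}).primesOver (𝓞 L)).ncard,
    {p : ℕ | p.Prime ∧ ((Ideal.span {(p : ℤ)}).primesOver (𝓞 K)).ncard ≠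
      ((Ideal.span {(p : ℤ)}).primesOver (𝓞 L)).ncard}.Finite,
    ArithEquiv K L] := by
  tfae_have 1 → 2 := fun h p hp => by
    have h1 : ∀ p : ℕ, p.Prime → decType K p = decType L p :=
      ((perlis (K := K) (L := L)).out 0 3).mp h
    rw [ncard_primesOver hp, ncard_primesOver hp, ← card_decType, ← card_decType, h1 p hp]
  tfae_have 2 → 3 := fun h => Set.finite_empty.subset fun p hp => hp.2 (h p hp.1)
  tfae_have 3 → 4 := fun h => .of_card_above (h.subset fun p hp => ⟨hp.1, by
    rw [ncard_primesOver hp.1, ncard_primesOver hp.1]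
    exact hp.2⟩)
  tfae_have 4 → 1 := fun h => h.dedekindZeta_eq
  tfae_finish

end Fermat.Agent.Cor.Frob
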