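import Mathlib

/-!
# Orthogonality of the characters of a finite abelian group

For a finite abelian group `G` and `g : G`: `∑ χ, χ g = #Ĝ` if `g = 1`, and `0` otherwise.
-/

namespace Fermat.Agent.Cor

open scoped BigOperators

/-- the group of complex characters of a finite abelian group is finite -/
instance finite_char {G : Type*} [CommGroup G] [Finite G] : Finite (G →* ℂˣ) := by
  obtain ⟨e⟩ := CommGroup.monoidHom_mulEquiv_of_hasEnoughRootsOfUnity G ℂ
  exact Finite.of_equiv G e.symm.toEquiv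

/-- there are as many characters as elements -/
theorem natCard_char (G : Type*) [CommGroup G] [Finite G] :
    Nat.card (G →* ℂˣ) = Nat.card G := by
  obtain ⟨e⟩ := CommGroup.monoidHom_mulEquiv_of_hasEnoughRootsOfUnity G ℂ
  exact Nat.card_congr e.toEquiv

/-- the values of a character of a finite group have absolute value one -/
theorem norm_char {G : Type*} [CommGroup G] [Finite G] (χ : G →* ℂˣ) (g : G) :
    ‖((χ g : ℂˣ) : ℂ)‖ = 1 := by
  have h : ((χ g : ℂˣ) : ℂ) ^ Nat.card G = 1 := by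
    rw [← Units.val_pow_eq_pow_val, ← map_pow, pow_card_eq_one', map_one, Units.val_one]
  exact Complex.norm_eq_one_of_pow_eq_one h Nat.card_pos.ne'

/-- **orthogonality** -/
theorem sum_char {G : Type*} [CommGroup G] [Finite G] [DecidableEq G] [Fintype (G →* ℂˣ)]
    (g : G) :
    ∑ χ : G →* ℂˣ, ((χ g : ℂˣ) : ℂ) =
      if g = 1 then (Fintype.card (G →* ℂˣ) : ℂ) else 0 := by
  classical
  split_ifs with hg
  · subst hg
    simp
  · obtain ⟨φ, hφ⟩ := CommGroup.exists_apply_ne_one_of_hasEnoughRootsOfUnity G ℂ hg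
    have key : ((φ g : ℂˣ) : ℂ) * ∑ χ : G →* ℂˣ, ((χ g : ℂˣ) : ℂ)
        = ∑ χ : G →* ℂˣ, ((χ g : ℂˣ) : ℂ) := by
      rw [Finset.mul_sum]
      refine Fintype.sum_bijective (fun χ => φ * χ) (Group.mulLeft_bijective φ) _ _ ?_
      intro χ
      simp
    have h1 : (((φ g : ℂˣ) : ℂ) - 1) ≠ 0 := by
      intro h
      apply hφ
      ext
      simpa [sub_eq_zero] using h
    have h2 : (((φ g : ℂˣ) : ℂ) - 1) * ∑ χ : G →* ℂˣ, ((χ g : ℂˣ) : ℂ) = 0 := by
      rw [sub_mul, one_mul, key, sub_self]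
    exact (mul_eq_zero.mp h2).resolve_left h1

/-- orthogonality with two arguments -/
theorem sum_char_mul_inv {G : Type*} [CommGroup G] [Finite G] [DecidableEq G]
    [Fintype (G →* ℂˣ)] (g h : G) :
    ∑ χ : G →* ℂˣ, ((χ g : ℂˣ) : ℂ)⁻¹ * ((χ h : ℂˣ) : ℂ) =
      if h = g then (Fintype.card (G →* ℂˣ) : ℂ) else 0 := by
  have := sum_char (g⁻¹ * h)
  simp only [inv_mul_eq_one, eq_comm (a := g) (b := h)] at this
  rw [← this]
  refine Finset.sum_congr rfl fun χ _ => ?_
  rw [map_mul, map_inv, Units.val_mul, Units.val_inv_eq_inv_val]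

end Fermat.Agent.Cor
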