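import Fermat.Agent.Corollaries.ZetaK.LogDeriv
import Fermat.Agent.Corollaries.ZetaK.Orth

/-!
# The von Mangoldt function of an ideal class

* `LamC C n` : the sum of `log N(P)` over the prime powers `P^(k+1)` of norm `n` in the class `C`;
* `LSeries_LamC` : its Dirichlet series is `-(1/h) ∑_χ χ(C)⁻¹ L'(s, χ)/L(s, χ)`;
* `sum_LamC` : the sum over `n ≤ N` as a finite sum over the prime powers.
-/

set_option autoImplicit false
set_option linter.unusedSectionVars false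

noncomputable section

open NumberField nonZeroDivisors Complex Filter Topology

open scoped Classical

namespace Fermat.Agent.Cor

open Fermat.Agent.ClassL

variable {K : Type*} [Field K] [NumberField K]

instance fintype_char_classGroup : Fintype (ClassGroup (𝓞 K) →* ℂˣ) := Fintype.ofFinite _

/-- the weight of the prime power `P^(k+1)`, `q = (P, k)` -/
def lw (C : ClassGroup (𝓞 K)) (q : Pr K × ℕ) : ℝ :=
  if ClassGroup.mk0 q.1.1 ^ (q.2 + 1) = C then Real.log (nP q.1) else 0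

theorem lw_nonneg (C : ClassGroup (𝓞 K)) (q : Pr K × ℕ) : 0 ≤ lw C q := by
  rw [lw]
  split_ifs
  · exact log_nP_nonneg _
  · exact le_rfl

/-- the sum over all classes -/
theorem sum_lw (q : Pr K × ℕ) : ∑ C : ClassGroup (𝓞 K), lw C q = Real.log (nP q.1) := by
  simp [lw]

/-- **The von Mangoldt function of the ideal class `C`** -/
def LamC (C : ClassGroup (𝓞 K)) (n : ℕ) : ℝ :=
  ∑' q : {q : Pr K × ℕ // nP q.1 ^ (q.2 + 1) = n}, lw C q.1

theorem LamC_nonneg (C : ClassGroup (𝓞 K)) (n : ℕ) : 0 ≤ LamC C n :=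
  tsum_nonneg fun q => lw_nonneg C q.1

/-! ### Finiteness -/

/-- finitely many prime powers of norm at most `N` -/
theorem finite_pp (N : ℕ) : {q : Pr K × ℕ | nP q.1 ^ (q.2 + 1) ≤ N}.Finite := by
  have h1 : {P : Pr K | nP P ≤ N}.Finite := by
    refine Set.Finite.of_finite_image (f := fun P : Pr K => (P.1 : Ideal (𝓞 K)))
      ((Ideal.finite_setOfPred_absNorm_le (S := 𝓞 K) N).subset ?_) ?_
    · rintro _ ⟨P, hP, rfl⟩
      exact hP
    · intro P _ Q _ h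
      exact Subtype.ext (Subtype.ext h)
  refine (h1.prod (Set.finite_Iio N)).subset fun q hq => ⟨?_, ?_⟩
  · exact (Nat.le_self_pow (Nat.succ_ne_zero _) _).trans hq
  · change q.2 < N
    calc q.2 < 2 ^ q.2 := Nat.lt_two_pow_self
      _ ≤ nP q.1 ^ q.2 := Nat.pow_le_pow_left (two_le_nP _) _
      _ ≤ nP q.1 ^ (q.2 + 1) := Nat.pow_le_pow_right (nP_pos _) (Nat.le_succ _)
      _ ≤ N := hq

instance finite_fibre (n : ℕ) : Finite {q : Pr K × ℕ // nP q.1 ^ (q.2 + 1) = n} :=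
  ((finite_pp (K := K) n).subset fun _ hq => le_of_eq hq).to_subtype

/-- the prime powers of norm at most `N` -/
def ppF (K : Type*) [Field K] [NumberField K] (N : ℕ) : Finset (Pr K × ℕ) :=
  (finite_pp (K := K) N).toFinset

theorem mem_ppF {N : ℕ} {q : Pr K × ℕ} : q ∈ ppF K N ↔ nP q.1 ^ (q.2 + 1) ≤ N := by
  rw [ppF, Set.Finite.mem_toFinset]
  rfl

theorem LamC_eq (C : ClassGroup (𝓞 K)) {n N : ℕ} (h : n ≤ N) :
    LamC C n = ∑ q ∈ (ppF K N).filter (fun q => nP q.1 ^ (q.2 + 1) = n), lw C q := by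
  have e : {q : Pr K × ℕ | nP q.1 ^ (q.2 + 1) = n} =
      ((ppF K N).filter (fun q => nP q.1 ^ (q.2 + 1) = n) : Set (Pr K × ℕ)) := by
    ext q
    simp only [Set.mem_ofPred_eq, Finset.coe_filter, mem_ppF]
    exact ⟨fun hq => ⟨hq.le.trans h, hq⟩, fun hq => hq.2⟩
  have h1 : LamC C n = ∑' q : ({q : Pr K × ℕ | nP q.1 ^ (q.2 + 1) = n} : Set (Pr K × ℕ)),
      lw C q.1 := rfl
  rw [h1, e]
  exact Finset.tsum_subtype _ (lw C)

/-- the same sum over the prime powers which are in the class `C` -/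
theorem LamC_eq_and (C : ClassGroup (𝓞 K)) (n : ℕ) :
    LamC C n = ∑' q : {q : Pr K × ℕ // nP q.1 ^ (q.2 + 1) = n ∧
      ClassGroup.mk0 q.1.1 ^ (q.2 + 1) = C}, Real.log (nP q.1.1) := by
  have h1 : LamC C n = ∑' q : Pr K × ℕ,
      ({q : Pr K × ℕ | nP q.1 ^ (q.2 + 1) = n} : Set (Pr K × ℕ)).indicator (lw C) q :=
    tsum_subtype {q : Pr K × ℕ | nP q.1 ^ (q.2 + 1) = n} (lw C)
  have h2 : (∑' q : {q : Pr K × ℕ // nP q.1 ^ (q.2 + 1) = n ∧
      ClassGroup.mk0 q.1.1 ^ (q.2 + 1) = C}, Real.log (nP q.1.1)) = ∑' q : Pr K × ℕ,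
      ({q : Pr K × ℕ | nP q.1 ^ (q.2 + 1) = n ∧
        ClassGroup.mk0 q.1.1 ^ (q.2 + 1) = C} : Set (Pr K × ℕ)).indicator
        (fun q : Pr K × ℕ => Real.log (nP q.1)) q :=
    tsum_subtype {q : Pr K × ℕ | nP q.1 ^ (q.2 + 1) = n ∧
        ClassGroup.mk0 q.1.1 ^ (q.2 + 1) = C} (fun q : Pr K × ℕ => Real.log (nP q.1))
  rw [h1, h2]
  refine tsum_congr fun q => ?_
  by_cases ha : nP q.1 ^ (q.2 + 1) = n <;>
    by_cases hb : ClassGroup.mk0 q.1.1 ^ (q.2 + 1) = C <;>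
    simp [Set.indicator, lw, ha, hb]

/-- **The summatory function.** -/
theorem sum_LamC (C : ClassGroup (𝓞 K)) (N : ℕ) :
    ∑ n ∈ Finset.Icc 1 N, LamC C n = ∑ q ∈ ppF K N, lw C q := by
  rw [← Finset.sum_fiberwise_of_maps_to (s := ppF K N) (t := Finset.Icc 1 N)
    (g := fun q => nP q.1 ^ (q.2 + 1)) (fun q hq => ?_)]
  · refine Finset.sum_congr rfl fun n hn => ?_
    exact LamC_eq C (Finset.mem_Icc.mp hn).2
  · exact Finset.mem_Icc.mpr ⟨pow_pos (nP_pos _) _, mem_ppF.mp hq⟩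

/-! ### The Dirichlet series -/

theorem lw_cpow (C : ClassGroup (𝓞 K)) (s : ℂ) (q : Pr K × ℕ) :
    (lw C q : ℂ) * ((nP q.1 ^ (q.2 + 1) : ℕ) : ℂ) ^ (-s) =
      (Nat.card (ClassGroup (𝓞 K)) : ℂ)⁻¹ *
        ∑ χ : ClassGroup (𝓞 K) →* ℂˣ, ((χ C : ℂˣ) : ℂ)⁻¹ * vm χ s q := by
  have h1 : ∀ χ : ClassGroup (𝓞 K) →* ℂˣ, ((χ C : ℂˣ) : ℂ)⁻¹ * vm χ s q =
      (((χ C : ℂˣ) : ℂ)⁻¹ * ((χ (ClassGroup.mk0 q.1.1 ^ (q.2 + 1)) : ℂˣ) : ℂ)) *
        ((Real.log (nP q.1) : ℂ) * ((nP q.1 ^ (q.2 + 1) : ℕ) : ℂ) ^ (-s)) := by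
    intro χ
    rw [vm_eq']
    ring
  have hc : (Fintype.card (ClassGroup (𝓞 K) →* ℂˣ) : ℂ) = (Nat.card (ClassGroup (𝓞 K)) : ℂ) := by
    rw [← Nat.card_eq_fintype_card, natCard_char]
  have h0 : (Nat.card (ClassGroup (𝓞 K)) : ℂ) ≠ 0 := by
    exact_mod_cast Nat.card_pos.ne'
  simp only [h1]
  rw [← Finset.sum_mul, sum_char_mul_inv, hc, lw]
  split_ifs with h
  · rw [← mul_assoc, ← mul_assoc, inv_mul_cancel₀ h0, one_mul]
  · simp

/-- `-(1/h) ∑_χ χ(C)⁻¹ L'(s, χ)/L(s, χ)` -/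
def LdC (C : ClassGroup (𝓞 K)) (s : ℂ) : ℂ :=
  (Nat.card (ClassGroup (𝓞 K)) : ℂ)⁻¹ *
    ∑ χ : ClassGroup (𝓞 K) →* ℂˣ, ((χ C : ℂˣ) : ℂ)⁻¹ * -(deriv (Ls χ) s / Ls χ s)

theorem hasSum_lw (C : ClassGroup (𝓞 K)) {s : ℂ} (hs : 1 < s.re) :
    HasSum (fun q : Pr K × ℕ => (lw C q : ℂ) * ((nP q.1 ^ (q.2 + 1) : ℕ) : ℂ) ^ (-s))
      (LdC C s) := by
  simp only [lw_cpow]
  exact (hasSum_sum fun χ _ => (hasSum_vm χ hs).mul_left _).mul_left _

theorem hasSum_LamC (C : ClassGroup (𝓞 K)) {s : ℂ} (hs : 1 < s.re) :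
    HasSum (fun n : ℕ => (LamC C n : ℂ) * (n : ℂ) ^ (-s)) (LdC C s) := by
  let e := Equiv.sigmaFiberEquiv (fun q : Pr K × ℕ => nP q.1 ^ (q.2 + 1))
  refine (e.hasSum_iff.mpr (hasSum_lw C hs)).sigma fun n => ?_
  have : Fintype {q : Pr K × ℕ // nP q.1 ^ (q.2 + 1) = n} := Fintype.ofFinite _
  have h1 : HasSum (fun q : {q : Pr K × ℕ // nP q.1 ^ (q.2 + 1) = n} => (lw C q.1 : ℂ))
      (LamC C n : ℂ) :=
    Complex.hasSum_ofReal.mpr (hasSum_fintype _).summable.hasSum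
  have h2 := h1.mul_right ((n : ℂ) ^ (-s))
  have e2 : (fun q : {q : Pr K × ℕ // nP q.1 ^ (q.2 + 1) = n} => (lw C q.1 : ℂ) * (n : ℂ) ^ (-s)) =
      fun q : {q : Pr K × ℕ // nP q.1 ^ (q.2 + 1) = n} => (lw C q.1 : ℂ) *
        ((nP q.1.1 ^ (q.1.2 + 1) : ℕ) : ℂ) ^ (-s) := by
    funext q
    rw [q.2]
  rw [e2] at h2
  exact h2

theorem LamC_zero (C : ClassGroup (𝓞 K)) : LamC C 0 = 0 := by
  have : IsEmpty {q : Pr K × ℕ // nP q.1 ^ (q.2 + 1) = 0} :=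
    ⟨fun q => (pow_pos (nP_pos q.1.1) _).ne' q.2⟩
  exact tsum_empty

theorem lseriesHasSum_LamC (C : ClassGroup (𝓞 K)) {s : ℂ} (hs : 1 < s.re) :
    LSeriesHasSum (fun n => (LamC C n : ℂ)) s (LdC C s) := by
  have h : LSeries.term (fun n => (LamC C n : ℂ)) s =
      fun n : ℕ => (LamC C n : ℂ) * (n : ℂ) ^ (-s) := by
    funext n
    rcases eq_or_ne n 0 with rfl | hn
    · rw [LSeries.term_zero, LamC_zero, Complex.ofReal_zero, zero_mul]
    · rw [LSeries.term_of_ne_zero hn, Complex.cpow_neg, div_eq_mul_inv]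
  rw [LSeriesHasSum, h]
  exact hasSum_LamC C hs

theorem lseriesSummable_LamC (C : ClassGroup (𝓞 K)) {s : ℂ} (hs : 1 < s.re) :
    LSeriesSummable (fun n => (LamC C n : ℂ)) s := (lseriesHasSum_LamC C hs).LSeriesSummable

/-- **The Dirichlet series of the von Mangoldt function of an ideal class.** -/
theorem LSeries_LamC (C : ClassGroup (𝓞 K)) {s : ℂ} (hs : 1 < s.re) :
    LSeries (fun n => (LamC C n : ℂ)) s = LdC C s := (lseriesHasSum_LamC C hs).LSeries_eq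

end Fermat.Agent.Cor

end
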