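import Fermat.Agent.Corollaries.ZetaK.PsiNonVan
import Fermat.Agent.Corollaries.ZetaK.LamClass
import Fermat.Agent.Corollaries.ZetaK.LandauIn
import Fermat.Agent.Corollaries.ZetaK.PrimeCountK

/-!
# The prime ideal theorem for an arbitrary finite class group

`G` a finite abelian group, `cl : (Ideal (𝓞 K))⁰ →* WithZero G` a completely multiplicative map
which is zero only at finitely many primes (e.g. the ray class modulo `𝔪`, extended by zero to the
ideals which are not prime to `𝔪`). If the L-function of every non-trivial character of `G` has an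
entire continuation, then the prime ideals are equidistributed in `G`.
-/

set_option autoImplicit false
set_option linter.unusedSectionVars false

noncomputable section

open NumberField nonZeroDivisors Complex Filter Topology

open scoped Classical

namespace Fermat.Agent.Cor.Psi

open Fermat.Agent.ClassL Fermat.Agent.Classic.Zeta

universe u v

variable {K : Type u} [Field K] [NumberField K] {G : Type v} [CommGroup G] [Finite G]

/-- a character, extended by zero -/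
def chi0 (χ : G →* ℂˣ) : WithZero G →* ℂ :=
  ((WithZero.lift' ((Units.coeHom ℂ).comp χ) : WithZero G →*₀ ℂ) : WithZero G →* ℂ)

omit [Finite G] in
theorem chi0_coe (χ : G →* ℂˣ) (g : G) : chi0 χ (g : WithZero G) = ((χ g : ℂˣ) : ℂ) := rfl

omit [Finite G] in
theorem chi0_zero (χ : G →* ℂˣ) : chi0 χ (0 : WithZero G) = 0 :=
  map_zero (WithZero.lift' ((Units.coeHom ℂ).comp χ))

/-- the completely multiplicative function attached to a character -/
def psi (cl : (Ideal (𝓞 K))⁰ →* WithZero G) (χ : G →* ℂˣ) : (Ideal (𝓞 K))⁰ →* ℂ :=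
  (chi0 χ).comp cl

theorem psi_eq_zero_or (cl : (Ideal (𝓞 K))⁰ →* WithZero G) (χ : G →* ℂˣ) (I : (Ideal (𝓞 K))⁰) :
    (cl I = 0 ∧ psi cl χ I = 0) ∨ ∃ g : G, cl I = g ∧ psi cl χ I = ((χ g : ℂˣ) : ℂ) := by
  rcases h : cl I with _ | g
  · left
    refine ⟨rfl, ?_⟩
    change chi0 χ (cl I) = 0
    rw [h]
    exact chi0_zero χ
  · right
    refine ⟨g, rfl, ?_⟩
    change chi0 χ (cl I) = _
    rw [h]
    rfl

theorem isUnitary_psi (cl : (Ideal (𝓞 K))⁰ →* WithZero G) (χ : G →* ℂˣ) :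
    IsUnitary (psi cl χ) := by
  intro I
  rcases psi_eq_zero_or cl χ I with ⟨-, h⟩ | ⟨g, -, h⟩
  · exact Or.inr h
  · left
    rw [h, norm_char]

theorem psi_sq (cl : (Ideal (𝓞 K))⁰ →* WithZero G) (χ : G →* ℂˣ) :
    (psi cl χ) ^ 2 = psi cl (χ ^ 2) := by
  ext I
  rw [MonoidHom.pow_apply]
  rcases psi_eq_zero_or cl χ I with ⟨h0, h⟩ | ⟨g, h0, h⟩
  · rw [h]
    change 0 ^ 2 = chi0 (χ ^ 2) (cl I)
    rw [h0, chi0_zero, zero_pow two_ne_zero]
  · rw [h]
    change _ = chi0 (χ ^ 2) (cl I)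
    rw [h0, chi0_coe, MonoidHom.pow_apply, Units.val_pow_eq_pow_val]

/-! ### The trivial character -/

theorem Lp_psi_one {cl : (Ideal (𝓞 K))⁰ →* WithZero G} (hfin : {P : Pr K | cl P.1 = 0}.Finite)
    {s : ℂ} (hs : 1 < s.re) : Lp (psi cl 1) s = zetaK K s * badE hfin.toFinset s := by
  refine Lp_eq_badE (isUnitary_psi cl 1) (fun P hP => ?_) (fun P hP => ?_) hs
  · rcases psi_eq_zero_or cl 1 P.1 with ⟨h0, h⟩ | ⟨g, h0, h⟩
    · exact h
    · exfalso
      rw [Set.Finite.mem_toFinset] at hP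
      rw [show cl P.1 = 0 from hP] at h0
      exact WithZero.coe_ne_zero h0.symm
  · rcases psi_eq_zero_or cl 1 P.1 with ⟨h0, h⟩ | ⟨g, h0, h⟩
    · exact absurd ((Set.Finite.mem_toFinset hfin).mpr h0) hP
    · rw [h, MonoidHom.one_apply, Units.val_one]

/-! ### The von Mangoldt function of a class -/

section VonMangoldt

variable (cl : (Ideal (𝓞 K))⁰ →* WithZero G)

/-- the weight of the prime power `P^(k+1)`, `q = (P, k)` -/
def lwG (g : G) (q : Pr K × ℕ) : ℝ :=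
  if cl q.1.1 ^ (q.2 + 1) = (g : WithZero G) then Real.log (nP q.1) else 0

/-- the von Mangoldt function of the class `g` -/
def LamG (g : G) (n : ℕ) : ℝ :=
  ∑' q : {q : Pr K × ℕ // nP q.1 ^ (q.2 + 1) = n}, lwG cl g q.1

theorem LamG_nonneg (g : G) (n : ℕ) : 0 ≤ LamG cl g n := by
  refine tsum_nonneg fun q => ?_
  rw [lwG]
  split_ifs
  · exact log_nP_nonneg _
  · exact le_rfl

theorem LamG_eq_and (g : G) (n : ℕ) :
    LamG cl g n = ∑' q : {q : Pr K × ℕ // nP q.1 ^ (q.2 + 1) = n ∧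
      cl q.1.1 ^ (q.2 + 1) = (g : WithZero G)}, Real.log (nP q.1.1) := by
  have h1 : LamG cl g n = ∑' q : Pr K × ℕ,
      ({q : Pr K × ℕ | nP q.1 ^ (q.2 + 1) = n} : Set (Pr K × ℕ)).indicator (lwG cl g) q :=
    tsum_subtype {q : Pr K × ℕ | nP q.1 ^ (q.2 + 1) = n} (lwG cl g)
  have h2 : (∑' q : {q : Pr K × ℕ // nP q.1 ^ (q.2 + 1) = n ∧
      cl q.1.1 ^ (q.2 + 1) = (g : WithZero G)}, Real.log (nP q.1.1)) = ∑' q : Pr K × ℕ,
      ({q : Pr K × ℕ | nP q.1 ^ (q.2 + 1) = n ∧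
        cl q.1.1 ^ (q.2 + 1) = (g : WithZero G)} : Set (Pr K × ℕ)).indicator
        (fun q : Pr K × ℕ => Real.log (nP q.1)) q :=
    tsum_subtype {q : Pr K × ℕ | nP q.1 ^ (q.2 + 1) = n ∧
        cl q.1.1 ^ (q.2 + 1) = (g : WithZero G)} (fun q : Pr K × ℕ => Real.log (nP q.1))
  rw [h1, h2]
  refine tsum_congr fun q => ?_
  by_cases ha : nP q.1 ^ (q.2 + 1) = n <;>
    by_cases hb : cl q.1.1 ^ (q.2 + 1) = (g : WithZero G) <;>
    simp [Set.indicator, lwG, ha, hb]

theorem LamG_zero (g : G) : LamG cl g 0 = 0 := by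
  have : IsEmpty {q : Pr K × ℕ // nP q.1 ^ (q.2 + 1) = 0} :=
    ⟨fun q => (pow_pos (nP_pos q.1.1) _).ne' q.2⟩
  exact tsum_empty

theorem orth0 [Fintype (G →* ℂˣ)] (g : G) (a : WithZero G) :
    ∑ χ : G →* ℂˣ, ((χ g : ℂˣ) : ℂ)⁻¹ * chi0 χ a =
      if a = (g : WithZero G) then (Nat.card G : ℂ) else 0 := by
  have hc : (Fintype.card (G →* ℂˣ) : ℂ) = (Nat.card G : ℂ) := by
    rw [← Nat.card_eq_fintype_card, natCard_char]
  by_cases ha : a = 0
  · have h1 : ∀ χ : G →* ℂˣ, ((χ g : ℂˣ) : ℂ)⁻¹ * chi0 χ a = 0 := fun χ => by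
      rw [ha, chi0_zero, mul_zero]
    rw [Finset.sum_congr rfl fun χ _ => h1 χ, Finset.sum_const_zero, if_neg]
    intro h3
    rw [ha] at h3
    exact WithZero.coe_ne_zero h3.symm
  · obtain ⟨h, rfl⟩ := WithZero.ne_zero_iff_exists.mp ha
    have h1 := sum_char_mul_inv g h
    rw [hc] at h1
    simp only [chi0_coe, WithZero.coe_inj]
    exact h1

theorem lwG_cpow [Fintype (G →* ℂˣ)] (g : G) (s : ℂ) (q : Pr K × ℕ) :
    (lwG cl g q : ℂ) * ((nP q.1 ^ (q.2 + 1) : ℕ) : ℂ) ^ (-s) =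
      (Nat.card G : ℂ)⁻¹ *
        ∑ χ : G →* ℂˣ, ((χ g : ℂˣ) : ℂ)⁻¹ * vmp (psi cl χ) s q := by
  have h1 : ∀ χ : G →* ℂˣ, ((χ g : ℂˣ) : ℂ)⁻¹ * vmp (psi cl χ) s q =
      (((χ g : ℂˣ) : ℂ)⁻¹ * chi0 χ (cl q.1.1 ^ (q.2 + 1))) *
        ((Real.log (nP q.1) : ℂ) * ((nP q.1 ^ (q.2 + 1) : ℕ) : ℂ) ^ (-s)) := by
    intro χ
    rw [vmp_eq', psi, MonoidHom.comp_apply, ← map_pow]
    ring
  have h0 : (Nat.card G : ℂ) ≠ 0 := by
    exact_mod_cast Nat.card_pos.ne'
  simp only [h1]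
  rw [← Finset.sum_mul, orth0, lwG]
  split_ifs with h
  · rw [← mul_assoc, ← mul_assoc, inv_mul_cancel₀ h0, one_mul]
  · simp

/-- `-(1/|G|) ∑_χ χ(g)⁻¹ L'(s, χ)/L(s, χ)` -/
def LdG [Fintype (G →* ℂˣ)] (g : G) (s : ℂ) : ℂ :=
  (Nat.card G : ℂ)⁻¹ * ∑ χ : G →* ℂˣ, ((χ g : ℂˣ) : ℂ)⁻¹ *
    -(deriv (Lp (psi cl χ)) s / Lp (psi cl χ) s)

theorem hasSum_lwG [Fintype (G →* ℂˣ)] (g : G) {s : ℂ} (hs : 1 < s.re) :
    HasSum (fun q : Pr K × ℕ => (lwG cl g q : ℂ) * ((nP q.1 ^ (q.2 + 1) : ℕ) : ℂ) ^ (-s))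
      (LdG cl g s) := by
  simp only [lwG_cpow]
  exact (hasSum_sum fun χ _ => (hasSum_vmp (isUnitary_psi cl χ).le hs).mul_left _).mul_left _

theorem hasSum_LamG [Fintype (G →* ℂˣ)] (g : G) {s : ℂ} (hs : 1 < s.re) :
    HasSum (fun n : ℕ => (LamG cl g n : ℂ) * (n : ℂ) ^ (-s)) (LdG cl g s) := by
  let e := Equiv.sigmaFiberEquiv (fun q : Pr K × ℕ => nP q.1 ^ (q.2 + 1))
  refine (e.hasSum_iff.mpr (hasSum_lwG cl g hs)).sigma fun n => ?_
  have : Fintype {q : Pr K × ℕ // nP q.1 ^ (q.2 + 1) = n} := Fintype.ofFinite _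
  have h1 : HasSum (fun q : {q : Pr K × ℕ // nP q.1 ^ (q.2 + 1) = n} => (lwG cl g q.1 : ℂ))
      (LamG cl g n : ℂ) :=
    Complex.hasSum_ofReal.mpr (hasSum_fintype _).summable.hasSum
  have h2 := h1.mul_right ((n : ℂ) ^ (-s))
  have e2 : (fun q : {q : Pr K × ℕ // nP q.1 ^ (q.2 + 1) = n} =>
        (lwG cl g q.1 : ℂ) * (n : ℂ) ^ (-s)) =
      fun q : {q : Pr K × ℕ // nP q.1 ^ (q.2 + 1) = n} => (lwG cl g q.1 : ℂ) *
        ((nP q.1.1 ^ (q.1.2 + 1) : ℕ) : ℂ) ^ (-s) := by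
    funext q
    rw [q.2]
  rw [e2] at h2
  exact h2

theorem lseriesHasSum_LamG [Fintype (G →* ℂˣ)] (g : G) {s : ℂ} (hs : 1 < s.re) :
    LSeriesHasSum (fun n => (LamG cl g n : ℂ)) s (LdG cl g s) := by
  have h : LSeries.term (fun n => (LamG cl g n : ℂ)) s =
      fun n : ℕ => (LamG cl g n : ℂ) * (n : ℂ) ^ (-s) := by
    funext n
    rcases eq_or_ne n 0 with rfl | hn
    · rw [LSeries.term_zero, LamG_zero, Complex.ofReal_zero, zero_mul]
    · rw [LSeries.term_of_ne_zero hn, Complex.cpow_neg, div_eq_mul_inv]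
  rw [LSeriesHasSum, h]
  exact hasSum_LamG cl g hs

end VonMangoldt

/-! ### Continuation and non-vanishing -/

section Main

variable {cl : (Ideal (𝓞 K))⁰ →* WithZero G} (hfin : {P : Pr K | cl P.1 = 0}.Finite)
  {L : (G →* ℂˣ) → ℂ → ℂ} (hd : ∀ χ, χ ≠ 1 → Differentiable ℂ (L χ))
  (hL : ∀ χ, χ ≠ 1 → ∀ s : ℂ, 1 < s.re → L χ s = Lp (psi cl χ) s)

include hfin hd hL

/-- **Non-vanishing on `Re s ≥ 1`** of the L-functions of the non-trivial characters -/
theorem L_ne_zero {χ : G →* ℂˣ} (hχ : χ ≠ 1) {s : ℂ} (hs : 1 ≤ s.re) : L χ s ≠ 0 := by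
  rcases hs.eq_or_lt with h1 | h1
  · have hs' : s = 1 + I * s.im := by
      conv_lhs => rw [← Complex.re_add_im s, ← h1, Complex.ofReal_one, mul_comm]
    by_cases h2 : χ ^ 2 = 1 ∧ s.im = 0
    · obtain ⟨h2, h3⟩ := h2
      rw [h3, Complex.ofReal_zero, mul_zero, add_zero] at hs'
      rw [hs']
      refine ne_zero_of_real (ψ := psi cl χ) (fun J => ?_) (hd χ hχ) (hL χ hχ)
      rcases psi_eq_zero_or cl χ J with ⟨-, h⟩ | ⟨g, -, h⟩
      · exact Or.inl h
      · right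
        have h4 : (((χ g : ℂˣ) : ℂ)) ^ 2 = 1 := by
          rw [← Units.val_pow_eq_pow_val, ← MonoidHom.pow_apply, h2, MonoidHom.one_apply,
            Units.val_one]
        rw [h]
        exact sq_eq_one_iff.1 h4
    · rw [hs']
      by_cases h4 : χ ^ 2 = 1
      · have h3 : s.im ≠ 0 := fun h => h2 ⟨h4, h⟩
        refine ne_zero_of_continuation (ψ := psi cl χ) (isUnitary_psi cl χ) (hL χ hχ)
          (L₂ := fun w => zetaK K w * badE hfin.toFinset w) (fun w hw => ?_) (hd χ hχ _) ?_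
        · rw [psi_sq, h4]
          exact (Lp_psi_one hfin hw).symm
        · refine ContinuousAt.mul ?_ (differentiable_badE hfin.toFinset).continuous.continuousAt
          refine (differentiableAt_LF (K := K) (fun _ => 1) ?_).continuousAt
          intro h5
          have h6 := congrArg Complex.im h5
          simp at h6
          exact h3 h6
      · exact ne_zero_of_continuation (ψ := psi cl χ) (isUnitary_psi cl χ) (hL χ hχ)
          (L₂ := L (χ ^ 2)) (fun w hw => by rw [psi_sq]; exact hL _ h4 w hw) (hd χ hχ _)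
          (hd _ h4).continuous.continuousAt
  · rw [hL χ hχ s h1]
    exact Lp_ne_zero (isUnitary_psi cl χ).le h1

/-- `(s - 1) L(s, 1)` for the trivial character, `L(s, χ)` else -/
theorem exists_W (χ : G →* ℂˣ) : ∃ W : ℂ → ℂ, Differentiable ℂ W ∧
    (∀ s : ℂ, 1 ≤ s.re → W s ≠ 0) ∧ ∀ s : ℂ, 1 < s.re →
      -(deriv (Lp (psi cl χ)) s / Lp (psi cl χ) s) =
        -(deriv W s / W s) + if χ = 1 then 1 / (s - 1) else 0 := by
  have hU : IsOpen {w : ℂ | 1 < w.re} := isOpen_lt continuous_const Complex.continuous_re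
  by_cases h : χ = 1
  · subst h
    refine ⟨fun s => WK (K := K) (fun _ => 1) s * badE hfin.toFinset s,
      (differentiable_WK _).mul (differentiable_badE hfin.toFinset), fun s hs => ?_, fun s hs => ?_⟩
    · refine mul_ne_zero ?_ (badE_ne_zero hfin.toFinset (zero_lt_one.trans_le hs))
      rcases eq_or_ne s 1 with rfl | h1
      · exact WK_one_ne_zero
      · rw [WK_eq _ h1]
        exact mul_ne_zero (sub_ne_zero.mpr h1) (zetaK_ne_zero hs h1)
    · have h1 : s ≠ 1 := ne_one_of_re hs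
      have h2 : s - 1 ≠ 0 := sub_ne_zero.mpr h1
      have hz : Lp (psi cl (1 : G →* ℂˣ)) s ≠ 0 := Lp_ne_zero (isUnitary_psi cl _).le hs
      have hd1 : DifferentiableAt ℂ (Lp (psi cl (1 : G →* ℂˣ))) s := by
        have h5 : Lp (psi cl (1 : G →* ℂˣ)) =ᶠ[𝓝 s] fun w => zetaK K w * badE hfin.toFinset w := by
          filter_upwards [hU.mem_nhds hs] with w hw
          exact Lp_psi_one hfin hw
        exact ((differentiableAt_LF (K := K) (fun _ => 1) h1).mul
          (differentiable_badE hfin.toFinset s)).congr_of_eventuallyEq h5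
      have h3 : (fun s => WK (K := K) (fun _ => 1) s * badE hfin.toFinset s) =ᶠ[𝓝 s]
          fun w => (w - 1) * Lp (psi cl (1 : G →* ℂˣ)) w := by
        filter_upwards [hU.mem_nhds hs] with w hw
        rw [WK_eq _ (ne_one_of_re hw), Lp_psi_one hfin hw, mul_assoc]
        rfl
      have h4 : HasDerivAt (fun w : ℂ => (w - 1) * Lp (psi cl (1 : G →* ℂˣ)) w)
          (1 * Lp (psi cl (1 : G →* ℂˣ)) s + (s - 1) * deriv (Lp (psi cl (1 : G →* ℂˣ))) s) s :=
        ((hasDerivAt_id s).sub_const 1).mul hd1.hasDerivAt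
      have h5 : WK (K := K) (fun _ => 1) s * badE hfin.toFinset s =
          (s - 1) * Lp (psi cl (1 : G →* ℂˣ)) s := h3.eq_of_nhds
      rw [h3.deriv_eq, h4.deriv]
      beta_reduce
      rw [h5, if_pos rfl]
      field_simp
      ring
  · refine ⟨L χ, hd χ h, fun s hs => L_ne_zero hfin hd hL h hs, fun s hs => ?_⟩
    have h3 : Lp (psi cl χ) =ᶠ[𝓝 s] L χ := by
      filter_upwards [hU.mem_nhds hs] with w hw
      exact (hL χ h w hw).symm
    rw [h3.deriv_eq, h3.eq_of_nhds, if_neg h, add_zero]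

/-- **The prime ideal theorem for `ψ`, in a class `g`** -/
theorem tendsto_psi_group (g : G) :
    Tendsto (fun x : ℝ => (∑ n ∈ Finset.Icc 1 ⌊x⌋₊, LamG cl g n) / x) atTop
      (𝓝 (Nat.card G : ℝ)⁻¹) := by
  have : Fintype (G →* ℂˣ) := Fintype.ofFinite _
  choose W hWd hW0 hW using fun χ => exists_W hfin hd hL χ
  refine wiener_ikehara (G := fun s => (Nat.card G : ℂ)⁻¹ *
    ∑ χ : G →* ℂˣ, ((χ g : ℂˣ) : ℂ)⁻¹ * -(deriv (W χ) s / W χ s)) (LamG_nonneg cl g)
    (fun s hs => (lseriesHasSum_LamG cl g hs).LSeriesSummable) ?_ ?_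
  · refine continuousOn_const.mul (continuousOn_finsetSum _ fun χ _ =>
      continuousOn_const.mul (ContinuousOn.neg (ContinuousOn.div ?_ ?_ ?_)))
    · exact ((hWd χ).contDiff (n := 1)).continuous_deriv le_rfl |>.continuousOn
    · exact (hWd χ).continuous.continuousOn
    · intro s hs
      exact hW0 χ s hs
  · intro s hs
    rw [(lseriesHasSum_LamG cl g hs).LSeries_eq, LdG]
    have h : ∀ χ : G →* ℂˣ, ((χ g : ℂˣ) : ℂ)⁻¹ *
        -(deriv (Lp (psi cl χ)) s / Lp (psi cl χ) s) =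
        ((χ g : ℂˣ) : ℂ)⁻¹ * -(deriv (W χ) s / W χ s) + if χ = 1 then 1 / (s - 1) else 0 := by
      intro χ
      rw [hW χ s hs, mul_add]
      congr 1
      split_ifs with h
      · rw [h, MonoidHom.one_apply, Units.val_one, inv_one, one_mul]
      · rw [mul_zero]
    simp only [h]
    rw [Finset.sum_add_distrib, Finset.sum_ite_eq' Finset.univ, if_pos (Finset.mem_univ _),
      mul_add]
    push_cast
    ring

/-- **The prime ideal theorem in a class `g ∈ G`**: natural density `1/|G|`. -/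
theorem tendsto_card_group (g : G) :
    Tendsto (fun x : ℕ => (Nat.card {P : Pr K // nP P ≤ x ∧ cl P.1 = (g : WithZero G)} : ℝ) *
      Real.log x / x) atTop (𝓝 (Nat.card G : ℝ)⁻¹) := by
  obtain ⟨D, hD⟩ := exists_isCount K
  refine (hD.count_of_psi_nat (T := fun P k => cl P.1 ^ (k + 1) = (g : WithZero G))
    (LamG_eq_and cl g) (tendsto_psi_group hfin hd hL g)).congr fun x => ?_
  simp only [zero_add, pow_one]

/-- **There are infinitely many primes in every class.** -/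
theorem infinite_primes_group (g : G) : {P : Pr K | cl P.1 = (g : WithZero G)}.Infinite := by
  intro hfin'
  have h1 := tendsto_card_group hfin hd hL g
  have hN : ∀ x : ℕ, (Nat.card {P : Pr K // nP P ≤ x ∧ cl P.1 = (g : WithZero G)} : ℝ) ≤
      (Nat.card {P : Pr K | cl P.1 = (g : WithZero G)} : ℝ) := by
    intro x
    have := hfin'.to_subtype
    exact_mod_cast Nat.card_le_card_of_injective
      (fun P : {P : Pr K // nP P ≤ x ∧ cl P.1 = (g : WithZero G)} =>
        (⟨P.1, P.2.2⟩ : {P : Pr K | cl P.1 = (g : WithZero G)}))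
      (fun P Q h => Subtype.ext (congrArg
        (fun I : {P : Pr K | cl P.1 = (g : WithZero G)} => I.1) h))
  have h2 : Tendsto (fun x : ℕ =>
      (Nat.card {P : Pr K | cl P.1 = (g : WithZero G)} : ℝ) * (Real.log x / x)) atTop (𝓝 0) := by
    have h3 : Tendsto (fun x : ℝ => Real.log x / x) atTop (𝓝 0) :=
      Real.isLittleO_log_id_atTop.tendsto_div_nhds_zero
    have h4 := (h3.comp tendsto_natCast_atTop_atTop).const_mul
      (Nat.card {P : Pr K | cl P.1 = (g : WithZero G)} : ℝ)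
    rw [mul_zero] at h4
    exact h4
  have h5 : Tendsto (fun x : ℕ => (Nat.card {P : Pr K // nP P ≤ x ∧ cl P.1 =
      (g : WithZero G)} : ℝ) * Real.log x / x) atTop (𝓝 0) := by
    refine squeeze_zero (fun x => ?_) (fun x => ?_) h2
    · exact div_nonneg (mul_nonneg (Nat.cast_nonneg _) (Real.log_natCast_nonneg x))
        (Nat.cast_nonneg _)
    · rw [mul_div_assoc]
      exact mul_le_mul_of_nonneg_right (hN x)
        (div_nonneg (Real.log_natCast_nonneg x) (Nat.cast_nonneg _))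
  have h6 := tendsto_nhds_unique h1 h5
  have h7 : (Nat.card G : ℝ)⁻¹ ≠ 0 := inv_ne_zero (by exact_mod_cast Nat.card_pos.ne')
  exact h7 h6

end Main

end Fermat.Agent.Cor.Psi

end
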