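import Fermat.Agent.Corollaries.ZetaK.ClassXi

/-!
# The L-functions of class functions on the class group

`LF f`: the analytic continuation of `∑_I f([I]) N(I)^{-s}`, for `f` a function on the class group of
a number field; `zetaK K` is the Dedekind zeta function, `LK χ` the L-function of a character of the
class group.
-/

set_option autoImplicit false

noncomputable section

namespace Fermat.Agent.Cor

open NumberField NumberField.InfinitePlace Set Fermat.Agent.Classic.Zeta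
open scoped nonZeroDivisors Classical

universe u

variable (K : Type u) [Field K] [NumberField K]

/-- the inverse of the gamma factor: an entire function -/
def gi (s : ℂ) : ℂ := (gam K s)⁻¹

variable {K}

theorem absDisc_ne_zero : ((|(discr K : ℝ)| : ℝ) : ℂ) ≠ 0 := by
  exact_mod_cast (disc_pos K).ne'

theorem differentiable_inv_Gammaℂ' : Differentiable ℂ fun s => (Complex.Gammaℂ s)⁻¹ := by
  have h : (fun s : ℂ => (Complex.Gammaℂ s)⁻¹) =
      fun s : ℂ => 2⁻¹ * ((2 * Real.pi : ℝ) : ℂ) ^ s * (Complex.Gamma s)⁻¹ := by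
    funext s
    rw [Complex.Gammaℂ_def, mul_inv, mul_inv, Complex.cpow_neg, inv_inv]
    push_cast
    ring
  rw [h]
  exact ((differentiable_ofReal_cpow (by positivity)).const_mul _).mul
    Complex.differentiable_one_div_Gamma

theorem differentiable_gi : Differentiable ℂ (gi K) := by
  have h : gi K = fun s => (Complex.Gammaℝ s)⁻¹ ^ nrRealPlaces K *
      (Complex.Gammaℂ s)⁻¹ ^ nrComplexPlaces K := by
    funext s
    rw [gi, gam, mul_inv, inv_pow, inv_pow]
  rw [h]
  exact (Complex.differentiable_Gammaℝ_inv.pow _).mul (differentiable_inv_Gammaℂ'.pow _)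

theorem Gammaℂ_zero' : Complex.Gammaℂ 0 = 0 := by
  rw [Complex.Gammaℂ_def, Complex.Gamma_zero, mul_zero]

theorem Gammaℝ_zero' : Complex.Gammaℝ 0 = 0 := by
  rw [Complex.Gammaℝ_def, zero_div, Complex.Gamma_zero, mul_zero]

theorem rank_add_one : nrRealPlaces K + nrComplexPlaces K = NumberField.Units.rank K + 1 := by
  rw [← InfinitePlace.card_eq_nrRealPlaces_add_nrComplexPlaces, NumberField.Units.rank]
  have h : 0 < Fintype.card (InfinitePlace K) := Fintype.card_pos
  omega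

theorem gi_zero : gi K 0 = 0 := by
  have h := rank_add_one (K := K)
  rw [gi, gam, Gammaℂ_zero', Gammaℝ_zero', inv_eq_zero]
  rcases Nat.eq_zero_or_pos (nrRealPlaces K) with h0 | h0
  · have h1 : nrComplexPlaces K ≠ 0 := by omega
    rw [zero_pow h1, mul_zero]
  · rw [zero_pow h0.ne', zero_mul]

/-- the entire function `(s gam(s))⁻¹` -/
def gs (K : Type u) [Field K] [NumberField K] (s : ℂ) : ℂ := dslope (gi K) 0 s

theorem differentiable_dslope {g : ℂ → ℂ} (hg : Differentiable ℂ g) (c : ℂ) :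
    Differentiable ℂ (dslope g c) := by
  rw [← differentiableOn_univ, Complex.differentiableOn_dslope Filter.univ_mem]
  exact hg.differentiableOn

theorem differentiable_gs : Differentiable ℂ (gs K) := differentiable_dslope differentiable_gi 0

theorem gs_eq {s : ℂ} (hs : s ≠ 0) : gs K s = gi K s / s := by
  rw [gs, dslope_of_ne _ hs, slope_def_field, gi_zero, sub_zero, sub_zero]

/-! ### Definition of the L-function -/

/-- **The L-function of a class function** -/
def LF (f : ClassGroup (𝓞 K) → ℂ) (s : ℂ) : ℂ :=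
  ((|(discr K : ℝ)| : ℝ) : ℂ) ^ (-s / 2) * gs K s * (XiF f 1 / (1 - s) - dslope (XiF f) 1 s)

variable (K) in
/-- **The Dedekind zeta function**, on the whole complex plane. -/
def zetaK : ℂ → ℂ := LF (K := K) fun _ => 1

/-- **The L-function of a character of the class group**, on the whole complex plane. -/
def LK (χ : ClassGroup (𝓞 K) →* ℂˣ) : ℂ → ℂ := LF fun C => ((χ C : ℂˣ) : ℂ)

theorem differentiable_absDisc_cpow : Differentiable ℂ fun s : ℂ => ((|(discr K : ℝ)| : ℝ) : ℂ) ^ (-s / 2) :=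
  (differentiable_ofReal_cpow (disc_pos K)).comp (by fun_prop)

theorem absDisc_cpow_ne_zero (s : ℂ) : ((|(discr K : ℝ)| : ℝ) : ℂ) ^ s ≠ 0 := by
  rw [ofReal_cpow_eq_exp (disc_pos K)]
  exact Complex.exp_ne_zero _

theorem absDisc_cpow_neg (s : ℂ) : ((|(discr K : ℝ)| : ℝ) : ℂ) ^ (-s / 2) = (((|(discr K : ℝ)| : ℝ) : ℂ) ^ (s / 2))⁻¹ := by
  rw [neg_div, Complex.cpow_neg]

/-- away from `1` -/
theorem LF_eq_gs (f : ClassGroup (𝓞 K) → ℂ) {s : ℂ} (h1 : s ≠ 1) :
    LF f s = ((|(discr K : ℝ)| : ℝ) : ℂ) ^ (-s / 2) * gs K s * (XiF f s / (1 - s)) := by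
  have h1' : 1 - s ≠ 0 := sub_ne_zero.mpr (Ne.symm h1)
  have h2 : s - 1 ≠ 0 := sub_ne_zero.mpr h1
  rw [LF, dslope_of_ne _ h1, slope_def_field]
  congr 1
  rw [← neg_sub 1 s, div_neg, sub_neg_eq_add, ← add_div, add_sub_cancel]

theorem LF_eq_div (f : ClassGroup (𝓞 K) → ℂ) {s : ℂ} (h0 : s ≠ 0) (h1 : s ≠ 1) :
    LF f s = XiF f s / (s * (1 - s) * ((|(discr K : ℝ)| : ℝ) : ℂ) ^ (s / 2) * gam K s) := by
  rw [LF_eq_gs f h1, gs_eq h0, gi, absDisc_cpow_neg]
  simp only [div_eq_mul_inv, mul_inv]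
  ring

/-- the completed L-function -/
theorem XiF_eq_LF (f : ClassGroup (𝓞 K) → ℂ) {s : ℂ} (h0 : s ≠ 0) (h1 : s ≠ 1)
    (hg : gam K s ≠ 0) : XiF f s = s * (1 - s) * (((|(discr K : ℝ)| : ℝ) : ℂ) ^ (s / 2) * gam K s * LF f s) := by
  have h1' : 1 - s ≠ 0 := sub_ne_zero.mpr (Ne.symm h1)
  have hd : ((|(discr K : ℝ)| : ℝ) : ℂ) ^ (s / 2) ≠ 0 := absDisc_cpow_ne_zero _
  rw [LF_eq_div f h0 h1]
  field_simp

theorem gam_ne_zero_base {s : ℂ} (hs : 0 < s.re) : gam K s ≠ 0 := by
  rw [gam]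
  refine mul_ne_zero (pow_ne_zero _ (Complex.Gammaℝ_ne_zero_of_re_pos hs)) (pow_ne_zero _ ?_)
  rw [Complex.Gammaℂ_def]
  refine mul_ne_zero (mul_ne_zero two_ne_zero ?_) (Complex.Gamma_ne_zero_of_re_pos hs)
  rw [show (2 * (Real.pi : ℂ)) = ((2 * Real.pi : ℝ) : ℂ) by push_cast; ring,
    ofReal_cpow_eq_exp (by positivity)]
  exact Complex.exp_ne_zero _

theorem LF_eq (f : ClassGroup (𝓞 K) → ℂ) {s : ℂ} (hs : 1 < s.re) :
    LF f s = ∑ C : ClassGroup (𝓞 K), f C * zcK C s := by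
  have h0 := ne_zero_of_re hs
  have h1 := ne_one_of_re hs
  have h1' : 1 - s ≠ 0 := sub_ne_zero.mpr (Ne.symm h1)
  have hg : gam K s ≠ 0 := gam_ne_zero_base (zero_lt_one.trans hs)
  have hd : ((|(discr K : ℝ)| : ℝ) : ℂ) ^ (s / 2) ≠ 0 := absDisc_cpow_ne_zero _
  rw [LF_eq_div f h0 h1, XiF_eq f hs]
  field_simp

theorem differentiableAt_LF (f : ClassGroup (𝓞 K) → ℂ) {s : ℂ} (hs : s ≠ 1) :
    DifferentiableAt ℂ (LF f) s := by
  have h1 : DifferentiableAt ℂ (fun s => XiF f 1 / (1 - s)) s :=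
    (differentiableAt_const _).div (by fun_prop) (sub_ne_zero.mpr (Ne.symm hs))
  exact ((differentiable_absDisc_cpow s).mul (differentiable_gs s)).mul
    (h1.sub (differentiable_dslope (differentiable_XiF f) 1 s))

theorem differentiable_LF {f : ClassGroup (𝓞 K) → ℂ} (hf : ∑ C, f C = 0) :
    Differentiable ℂ (LF f) := by
  have h0 : XiF f 1 = 0 := by rw [XiF_one f 1, hf, zero_mul]
  have h : LF f = fun s => ((|(discr K : ℝ)| : ℝ) : ℂ) ^ (-s / 2) * gs K s * (-dslope (XiF f) 1 s) := by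
    funext s
    rw [LF, h0, zero_div, zero_sub]
  rw [h]
  exact (differentiable_absDisc_cpow.mul differentiable_gs).mul
    (differentiable_dslope (differentiable_XiF f) 1).neg

/-- the residue at `1` -/
theorem tendsto_LF (f : ClassGroup (𝓞 K) → ℂ) :
    Filter.Tendsto (fun s => (s - 1) * LF f s) (nhdsWithin 1 {1}ᶜ)
      (nhds (-(((|(discr K : ℝ)| : ℝ) : ℂ) ^ (-(1 : ℂ) / 2) * gs K 1 * XiF f 1))) := by
  have hc : Continuous fun s : ℂ => -(((|(discr K : ℝ)| : ℝ) : ℂ) ^ (-s / 2) * gs K s * XiF f s) :=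
    ((differentiable_absDisc_cpow.continuous.mul differentiable_gs.continuous).mul
      (differentiable_XiF f).continuous).neg
  refine ((hc.tendsto 1).mono_left nhdsWithin_le_nhds).congr' ?_
  filter_upwards [self_mem_nhdsWithin] with s hs
  have h1' : 1 - s ≠ 0 := sub_ne_zero.mpr (Ne.symm hs)
  rw [LF_eq_gs f hs]
  field_simp
  ring

theorem LF_add (f g : ClassGroup (𝓞 K) → ℂ) {s : ℂ} (h1 : s ≠ 1) :
    LF (fun C => f C + g C) s = LF f s + LF g s := by
  have h : XiF (fun C => f C + g C) s = XiF f s + XiF g s := by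
    simp only [XiF, add_mul, Finset.sum_add_distrib]
  rw [LF_eq_gs _ h1, LF_eq_gs _ h1, LF_eq_gs _ h1, h]
  ring

theorem LF_const_mul (c : ℂ) (f : ClassGroup (𝓞 K) → ℂ) {s : ℂ} (h1 : s ≠ 1) :
    LF (fun C => c * f C) s = c * LF f s := by
  have h : XiF (fun C => c * f C) s = c * XiF f s := by
    simp only [XiF, mul_assoc, Finset.mul_sum]
  rw [LF_eq_gs _ h1, LF_eq_gs _ h1, h]
  ring

end Fermat.Agent.Cor

end
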