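import Fermat.Agent.Corollaries.ZetaK.PsiGen
import Fermat.Agent.Corollaries.ZetaK.NonVan
import Fermat.Agent.Corollaries.ZetaK.ZetaOne

/-!
# Non-vanishing on `Re s = 1` for completely multiplicative functions on the ideals

`ψ : (Ideal (𝓞 K))⁰ →* ℂ` with values of absolute value one or zero.

* `ne_zero_of_continuation` : if `L(s, ψ)` is differentiable at `1 + it` and `L(s, ψ²)` is
  continuous at `1 + 2it`, then `L(1 + it, ψ) ≠ 0`;
* `ne_zero_of_real` : if `ψ` has the values `0, 1, -1` and `L(s, ψ)` is entire, then `L(1, ψ) ≠ 0`.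
-/

set_option autoImplicit false
set_option linter.unusedSectionVars false

noncomputable section

open NumberField nonZeroDivisors Complex Filter Topology

open scoped Classical

namespace Fermat.Agent.Cor.Psi

open Fermat.Agent.ClassL Fermat.Agent.Classic.Zeta

/-! ### The 3-4-1 inequality, zeros allowed -/

theorem threeFour_factor' {a : ℝ} (ha₀ : 0 ≤ a) (ha₁ : a < 1) {z : ℂ} (hz : ‖z‖ = 1 ∨ z = 0) :
    0 ≤ 3 * (-log (1 - a)).re + 4 * (-log (1 - a * z)).re + (-log (1 - a * z ^ 2)).re := by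
  rcases hz with hz | rfl
  · exact threeFour_factor ha₀ ha₁ hz
  · have h1 : (Complex.log (1 - a)).re ≤ 0 := by
      rw [Complex.log_re]
      refine Real.log_nonpos (norm_nonneg _) ?_
      rw [← Complex.ofReal_one, ← Complex.ofReal_sub, Complex.norm_real, Real.norm_eq_abs,
        abs_of_nonneg (by linarith)]
      linarith
    simp only [mul_zero, ne_eq, OfNat.ofNat_ne_zero, not_false_eq_true, zero_pow, sub_zero,
      Complex.log_one, neg_zero, Complex.zero_re, add_zero, Complex.neg_re]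
    linarith

theorem threeFour_prod' {ι : Type*} {a : ι → ℝ} {z : ι → ℂ} (ha₀ : ∀ i, 0 ≤ a i)
    (ha₁ : ∀ i, a i < 1) (hz : ∀ i, ‖z i‖ = 1 ∨ z i = 0)
    (h₁ : Summable fun i => -log (1 - (a i : ℂ)))
    (h₂ : Summable fun i => -log (1 - a i * z i)) (h₃ : Summable fun i => -log (1 - a i * z i ^ 2)) :
    1 ≤ ‖exp (∑' i, -log (1 - (a i : ℂ))) ^ 3 * exp (∑' i, -log (1 - a i * z i)) ^ 4 *
      exp (∑' i, -log (1 - a i * z i ^ 2))‖ := by
  rw [norm_mul, norm_mul, norm_pow, norm_pow, norm_exp, norm_exp, norm_exp, ← Real.exp_nat_mul,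
    ← Real.exp_nat_mul, ← Real.exp_add, ← Real.exp_add, Real.one_le_exp_iff, re_tsum h₁,
    re_tsum h₂, re_tsum h₃, ← tsum_mul_left, ← tsum_mul_left,
    ← ((hasSum_re h₁.hasSum).summable.mul_left _).tsum_add
      ((hasSum_re h₂.hasSum).summable.mul_left _),
    ← (((hasSum_re h₁.hasSum).summable.mul_left _).add
      ((hasSum_re h₂.hasSum).summable.mul_left _)).tsum_add (hasSum_re h₃.hasSum).summable]
  refine tsum_nonneg fun i => ?_
  have h4 := threeFour_factor' (ha₀ i) (ha₁ i) (hz i)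
  push_cast
  exact h4

/-- **The inequality for Euler products** with factors `1 - c_i n_i^{-s}`, `|c_i| = 1` or
`c_i = 0`. -/
theorem threeFour_euler' {ι : Type*} {n : ι → ℕ} (hn : ∀ i, 2 ≤ n i) {c : ι → ℂ}
    (hc : ∀ i, ‖c i‖ = 1 ∨ c i = 0) {σ : ℝ} (hσ : 0 < σ) (t : ℝ)
    (h₁ : Summable fun i => -log (1 - (n i : ℂ) ^ (-(σ : ℂ))))
    (h₂ : Summable fun i => -log (1 - c i * (n i : ℂ) ^ (-((σ : ℂ) + t * I))))
    (h₃ : Summable fun i => -log (1 - c i ^ 2 * (n i : ℂ) ^ (-((σ : ℂ) + 2 * t * I)))) :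
    1 ≤ ‖exp (∑' i, -log (1 - (n i : ℂ) ^ (-(σ : ℂ)))) ^ 3 *
      exp (∑' i, -log (1 - c i * (n i : ℂ) ^ (-((σ : ℂ) + t * I)))) ^ 4 *
      exp (∑' i, -log (1 - c i ^ 2 * (n i : ℂ) ^ (-((σ : ℂ) + 2 * t * I))))‖ := by
  have hn0 : ∀ i, (n i : ℂ) ≠ 0 := fun i => by
    have := hn i
    exact_mod_cast (by omega : n i ≠ 0)
  have hn0' : ∀ i, (0 : ℝ) < (n i : ℝ) := fun i => by
    have := hn i
    exact_mod_cast (by omega : 0 < n i)
  have e₁ : ∀ i, (((n i : ℝ) ^ (-σ) : ℝ) : ℂ) = (n i : ℂ) ^ (-(σ : ℂ)) := fun i => by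
    rw [Complex.ofReal_cpow (hn0' i).le, ofReal_natCast, ofReal_neg]
  have e₂ : ∀ i, (n i : ℂ) ^ (-(σ : ℂ)) * (c i * (n i : ℂ) ^ (-(t * I))) =
      c i * (n i : ℂ) ^ (-((σ : ℂ) + t * I)) := fun i => by
    rw [neg_add, cpow_add _ _ (hn0 i)]
    ring
  have e₃ : ∀ i, (n i : ℂ) ^ (-(σ : ℂ)) * (c i * (n i : ℂ) ^ (-(t * I))) ^ 2 =
      c i ^ 2 * (n i : ℂ) ^ (-((σ : ℂ) + 2 * t * I)) := fun i => by
    rw [neg_add, cpow_add _ _ (hn0 i), mul_pow, ← cpow_nat_mul]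
    have h5 : ((2 : ℕ) : ℂ) * -(t * I) = -(2 * t * I) := by
      push_cast
      ring
    rw [h5]
    ring
  have key := threeFour_prod' (a := fun i => (n i : ℝ) ^ (-σ))
    (z := fun i => c i * (n i : ℂ) ^ (-(t * I))) (fun i => Real.rpow_nonneg (hn0' i).le _)
    (fun i => Real.rpow_lt_one_of_one_lt_of_neg (by
      have := hn i
      exact_mod_cast (by omega : 1 < n i)) (neg_lt_zero.mpr hσ)) (fun i => by
      rcases hc i with h | h
      · left
        rw [norm_mul, h, one_mul, ← ofReal_natCast, norm_cpow_eq_rpow_re_of_pos (hn0' i)]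
        simp
      · right
        rw [h, zero_mul])
  simp only [e₁, e₂, e₃] at key
  exact key h₁ h₂ h₃

universe u

variable {K : Type u} [Field K] [NumberField K]

/-- values of absolute value one or zero -/
def IsUnitary (ψ : (Ideal (𝓞 K))⁰ →* ℂ) : Prop := ∀ I, ‖ψ I‖ = 1 ∨ ψ I = 0

theorem IsUnitary.le {ψ : (Ideal (𝓞 K))⁰ →* ℂ} (h : IsUnitary ψ) (I : (Ideal (𝓞 K))⁰) :
    ‖ψ I‖ ≤ 1 := by
  rcases h I with h | h
  · exact h.le
  · rw [h, norm_zero]
    exact zero_le_one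

theorem IsUnitary.pow {ψ : (Ideal (𝓞 K))⁰ →* ℂ} (h : IsUnitary ψ) {n : ℕ} (hn : n ≠ 0) :
    IsUnitary (ψ ^ n) := by
  intro I
  rw [MonoidHom.pow_apply]
  rcases h I with h | h
  · left
    rw [norm_pow, h, one_pow]
  · right
    rw [h, zero_pow hn]

theorem isUnitary_one : IsUnitary (1 : (Ideal (𝓞 K))⁰ →* ℂ) := fun I => by
  left
  rw [MonoidHom.one_apply, norm_one]

theorem Lp_one {s : ℂ} (hs : 1 < s.re) : Lp (1 : (Ideal (𝓞 K))⁰ →* ℂ) s = zetaK K s := by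
  rw [zetaK_eq_tsum hs, Lp]
  simp only [MonoidHom.one_apply, one_mul]

/-- **The 3-4-1 inequality.** -/
theorem one_le_norm_Lp {ψ : (Ideal (𝓞 K))⁰ →* ℂ} (hψ : IsUnitary ψ) {σ : ℝ} (hσ : 1 < σ) (t : ℝ) :
    1 ≤ ‖zetaK K (σ : ℂ) ^ 3 * Lp ψ ((σ : ℂ) + t * I) ^ 4 *
      Lp (ψ ^ 2) ((σ : ℂ) + 2 * t * I)‖ := by
  have r1 : 1 < ((σ : ℂ)).re := by rwa [ofReal_re]
  have r2 : 1 < ((σ : ℂ) + t * I).re := by simpa using hσ
  have r3 : 1 < ((σ : ℂ) + 2 * t * I).re := by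
    have : ((σ : ℂ) + 2 * t * I).re = σ := by simp
    rwa [this]
  have hψ2 : IsUnitary (ψ ^ 2) := hψ.pow two_ne_zero
  have h1 := summable_log (summable_norm_psHom (K := K) isUnitary_one.le r1)
  have h2 := summable_log (summable_norm_psHom (K := K) hψ.le r2)
  have h3 := summable_log (summable_norm_psHom (K := K) hψ2.le r3)
  rw [← Lp_one r1, ← exp_tsum_log_ps isUnitary_one.le r1, ← exp_tsum_log_ps hψ.le r2,
    ← exp_tsum_log_ps hψ2.le r3]
  have e1 : ∀ P : Pr K, psHom (1 : (Ideal (𝓞 K))⁰ →* ℂ) (σ : ℂ) P.1 =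
      (nP P : ℂ) ^ (-(σ : ℂ)) := fun P => by
    rw [psHom_pr, MonoidHom.one_apply, one_mul]
  have e3 : ∀ P : Pr K, psHom (ψ ^ 2) ((σ : ℂ) + 2 * t * I) P.1 =
      ψ P.1 ^ 2 * (nP P : ℂ) ^ (-((σ : ℂ) + 2 * t * I)) := fun P => by
    rw [psHom_pr, MonoidHom.pow_apply]
  simp only [e1] at h1 ⊢
  simp only [psHom_pr] at h2
  simp only [e3] at h3 ⊢
  simp only [psHom_pr]
  exact threeFour_euler' (fun P => two_le_nP P) (fun P => hψ P.1) (zero_lt_one.trans hσ) t h1 h2 h3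

/-- **Non-vanishing on the line**, from the continuation of `L(s, ψ)` and `L(s, ψ²)`. -/
theorem ne_zero_of_continuation {ψ : (Ideal (𝓞 K))⁰ →* ℂ} (hψ : IsUnitary ψ) {L L₂ : ℂ → ℂ}
    (hL : ∀ s : ℂ, 1 < s.re → L s = Lp ψ s) (hL₂ : ∀ s : ℂ, 1 < s.re → L₂ s = Lp (ψ ^ 2) s)
    {t : ℝ} (hd : DifferentiableAt ℂ L (1 + I * t)) (hc : ContinuousAt L₂ (1 + 2 * I * t)) :
    L (1 + I * t) ≠ 0 := by
  refine ne_zero_of_three_four_one (Z := zetaK K) (isBigO_LF fun _ => 1) hd hc fun x hx => ?_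
  have hσ : 1 < 1 + x := by linarith
  have r2 : 1 < ((1 : ℂ) + x + I * t).re := by simpa using hx
  have r3 : 1 < ((1 : ℂ) + x + 2 * I * t).re := by
    have : ((1 : ℂ) + x + 2 * I * t).re = 1 + x := by simp
    rwa [this]
  have key := one_le_norm_Lp hψ hσ t
  have e1 : (((1 + x : ℝ) : ℂ)) = 1 + (x : ℂ) := by push_cast; rfl
  have e2 : (((1 + x : ℝ) : ℂ)) + t * I = 1 + (x : ℂ) + I * t := by push_cast; ring
  have e3 : (((1 + x : ℝ) : ℂ)) + 2 * t * I = 1 + (x : ℂ) + 2 * I * t := by push_cast; ring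
  rw [e2, e3, e1] at key
  rw [hL _ r2, hL₂ _ r3]
  exact key

/-! ### The trivial character modulo finitely many primes -/

/-- the product over the bad primes -/
def badE (S : Finset (Pr K)) (s : ℂ) : ℂ := ∏ P ∈ S, (1 - (nP P : ℂ) ^ (-s))

theorem differentiable_badE (S : Finset (Pr K)) : Differentiable ℂ (badE S) := by
  unfold badE
  refine Differentiable.fun_finsetProd fun P _ => ?_
  refine (differentiable_const _).sub ?_
  exact (differentiable_id.neg).const_cpow (Or.inl (by exact_mod_cast (nP_pos P).ne'))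

theorem badE_ne_zero (S : Finset (Pr K)) {s : ℂ} (hs : 0 < s.re) : badE S s ≠ 0 := by
  unfold badE
  refine Finset.prod_ne_zero_iff.mpr fun P _ => ?_
  intro h
  have h1 : ‖(nP P : ℂ) ^ (-s)‖ = 1 := by
    rw [← sub_eq_zero.mp h, norm_one]
  rw [Complex.norm_natCast_cpow_of_pos (nP_pos P), Complex.neg_re] at h1
  have h2 : (nP P : ℝ) ^ (-s.re) < 1 := Real.rpow_lt_one_of_one_lt_of_neg
    (by exact_mod_cast (one_lt_two.trans_le (two_le_nP P))) (neg_lt_zero.mpr hs)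
  linarith

/-- `L(s, ψ) = ζ_K(s) ∏_{P ∈ S} (1 - N(P)^{-s})` if `ψ` is the trivial character modulo `S`. -/
theorem Lp_eq_badE {ψ : (Ideal (𝓞 K))⁰ →* ℂ} (hu2 : IsUnitary ψ) {S : Finset (Pr K)}
    (h0 : ∀ P ∈ S, ψ P.1 = 0) (h1' : ∀ P ∉ S, ψ P.1 = 1) {s : ℂ} (hs : 1 < s.re) :
    Lp ψ s = zetaK K s * badE S s := by
  have hu1 : IsUnitary (1 : (Ideal (𝓞 K))⁰ →* ℂ) := isUnitary_one
  have h1 := summable_log (summable_norm_psHom (K := K) hu1.le hs)
  have hval : ∀ P : Pr K, psHom (1 : (Ideal (𝓞 K))⁰ →* ℂ) s P.1 = (nP P : ℂ) ^ (-s) :=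
    fun P => by rw [psHom_pr, MonoidHom.one_apply, one_mul]
  have hne : ∀ P : Pr K, 1 - (nP P : ℂ) ^ (-s) ≠ 0 := fun P => by
    rw [← hval]
    exact one_sub_ne_zero (summable_norm_psHom hu1.le hs) P
  have h3 : HasSum (fun P : Pr K => -Complex.log (1 - psHom ψ s P.1) -
      -Complex.log (1 - psHom (1 : (Ideal (𝓞 K))⁰ →* ℂ) s P.1))
      (∑ P ∈ S, Complex.log (1 - (nP P : ℂ) ^ (-s))) := by
    have h4 : ∀ P : Pr K, -Complex.log (1 - psHom ψ s P.1) -
        -Complex.log (1 - psHom (1 : (Ideal (𝓞 K))⁰ →* ℂ) s P.1) =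
          if P ∈ S then Complex.log (1 - (nP P : ℂ) ^ (-s)) else 0 := by
      intro P
      rw [hval]
      by_cases hP : P ∈ S
      · rw [if_pos hP, psHom_pr, h0 P hP, zero_mul, sub_zero, Complex.log_one, neg_zero,
          zero_sub, neg_neg]
      · rw [if_neg hP, psHom_pr, h1' P hP, one_mul, sub_self]
    simp only [h4]
    have h5 : HasSum (fun P : Pr K =>
        if P ∈ S then Complex.log (1 - (nP P : ℂ) ^ (-s)) else 0)
        (∑ P ∈ S, if P ∈ S then Complex.log (1 - (nP P : ℂ) ^ (-s)) else 0) :=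
      hasSum_sum_of_ne_finset_zero (fun P hP => if_neg hP)
    rw [Finset.sum_congr rfl (fun P hP => if_pos hP)] at h5
    exact h5
  have h6 : ∑' P : Pr K, -Complex.log (1 - psHom ψ s P.1) =
      (∑' P : Pr K, -Complex.log (1 - psHom (1 : (Ideal (𝓞 K))⁰ →* ℂ) s P.1)) +
        ∑ P ∈ S, Complex.log (1 - (nP P : ℂ) ^ (-s)) := by
    rw [← h3.tsum_eq, ← h1.tsum_add h3.summable]
    refine tsum_congr fun P => ?_
    ring
  rw [← exp_tsum_log_ps hu2.le hs, h6, Complex.exp_add, exp_tsum_log_ps hu1.le hs, Lp_one hs,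
    Complex.exp_sum]
  congr 1
  unfold badE
  exact Finset.prod_congr rfl fun P _ => Complex.exp_log (hne P)

/-! ### Real values -/

theorem geom_nonneg' {c : ℂ} (hc : c = 0 ∨ c = 1 ∨ c = -1) (n : ℕ) :
    0 ≤ (∑ k ∈ Finset.range n, c ^ k).re ∧ (∑ k ∈ Finset.range n, c ^ k).im = 0 := by
  rcases hc with rfl | h
  · rcases n with _ | n
    · simp
    · rw [Finset.sum_range_succ']
      simp
  · open scoped ComplexOrder in
    have h1 := RealCh.geom_nonneg h n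
    rw [Complex.le_def] at h1
    exact ⟨by simpa using h1.1, by simpa using h1.2.symm⟩

open scoped ComplexOrder in
/-- Divisor sums of a completely multiplicative function with values `0`, `1` and `-1`. -/
theorem dsum_nonneg' (g : Ideal (𝓞 K) →*₀ ℂ) (hg : ∀ x, g x = 0 ∨ g x = 1 ∨ g x = -1)
    (x : Ideal (𝓞 K)) : 0 ≤ RealCh.dsum g x := by
  refine UniqueFactorizationMonoid.induction_on_coprime (P := fun x => 0 ≤ RealCh.dsum g x) x
    ?_ ?_ ?_ ?_
  · simp only [RealCh.dsum_zero]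
    exact le_rfl
  · intro x hx
    have hx1 : x = 1 := by
      obtain ⟨u, rfl⟩ := hx
      rw [Subsingleton.elim u 1]
      rfl
    rw [hx1, RealCh.dsum_one]
    exact zero_le_one
  · intro p i hp
    rw [RealCh.dsum_prime_pow g hp, Complex.le_def]
    obtain ⟨h1, h2⟩ := geom_nonneg' (hg p) (i + 1)
    exact ⟨by simpa using h1, by simpa using h2.symm⟩
  · intro x y hxy hx hy
    by_cases hx0 : x = 0
    · rw [hx0, zero_mul, RealCh.dsum_zero]
    · by_cases hy0 : y = 0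
      · rw [hy0, mul_zero, RealCh.dsum_zero]
      · rw [RealCh.dsum_mul g hx0 hy0 hxy]
        exact mul_nonneg hx hy

/-- extension by zero to all ideals -/
def ext0 (ψ : (Ideal (𝓞 K))⁰ →* ℂ) : Ideal (𝓞 K) →*₀ ℂ where
  toFun I := if h : I = 0 then 0 else ψ ⟨I, mem_nonZeroDivisors_of_ne_zero h⟩
  map_zero' := by simp
  map_one' := by
    rw [dif_neg one_ne_zero]
    have : (⟨1, mem_nonZeroDivisors_of_ne_zero one_ne_zero⟩ : (Ideal (𝓞 K))⁰) = 1 := rfl
    rw [this, map_one]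
  map_mul' I J := by
    by_cases hI : I = 0
    · simp [hI]
    · by_cases hJ : J = 0
      · simp [hJ]
      · rw [dif_neg hI, dif_neg hJ, dif_neg (mul_ne_zero hI hJ)]
        have : (⟨I * J, mem_nonZeroDivisors_of_ne_zero (mul_ne_zero hI hJ)⟩ : (Ideal (𝓞 K))⁰) =
          ⟨I, mem_nonZeroDivisors_of_ne_zero hI⟩ * ⟨J, mem_nonZeroDivisors_of_ne_zero hJ⟩ := rfl
        rw [this, map_mul]

theorem ext0_coe (ψ : (Ideal (𝓞 K))⁰ →* ℂ) (I : (Ideal (𝓞 K))⁰) :
    ext0 ψ (I : Ideal (𝓞 K)) = ψ I := by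
  have h : (I : Ideal (𝓞 K)) ≠ 0 := nonZeroDivisors.coe_ne_zero I
  change (if h : (I : Ideal (𝓞 K)) = 0 then (0 : ℂ) else _) = _
  rw [dif_neg h]

theorem lseriesHasSum_ext0 {ψ : (Ideal (𝓞 K))⁰ →* ℂ} (hψ : ∀ I, ‖ψ I‖ ≤ 1) {s : ℂ}
    (hs : 1 < s.re) : LSeriesHasSum (RealCh.aIdl (ext0 ψ)) s (Lp ψ s) := by
  have h1 : Summable fun I : (Ideal (𝓞 K))⁰ =>
      ψ I * (Ideal.absNorm (I : Ideal (𝓞 K)) : ℂ) ^ (-s) := (summable_norm_psHom hψ hs).of_norm
  rw [Lp]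
  simp only [← ext0_coe] at h1 ⊢
  exact RealCh.lseriesHasSum_aIdl h1

/-- **The real case**: `L(1, ψ) ≠ 0`. -/
theorem ne_zero_of_real {ψ : (Ideal (𝓞 K))⁰ →* ℂ} (hψ : ∀ I, ψ I = 0 ∨ ψ I = 1 ∨ ψ I = -1)
    {L : ℂ → ℂ} (hL : Differentiable ℂ L) (h : ∀ s : ℂ, 1 < s.re → L s = Lp ψ s) : L 1 ≠ 0 := by
  have hu : ∀ I, ‖ψ I‖ ≤ 1 := by
    intro I
    rcases hψ I with h | h | h <;> rw [h] <;> simp
  have hsum : ∀ s : ℂ, 1 < s.re → LSeriesHasSum
      (LSeries.convolution (RealCh.aIdl (ext0 (1 : (Ideal (𝓞 K))⁰ →* ℂ)))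
        (RealCh.aIdl (ext0 ψ))) s (zetaK K s * Lp ψ s) := by
    intro s hs
    rw [← Lp_one hs]
    exact (lseriesHasSum_ext0 isUnitary_one.le hs).convolution (lseriesHasSum_ext0 hu hs)
  have hconv : LSeries.convolution (RealCh.aIdl (ext0 (1 : (Ideal (𝓞 K))⁰ →* ℂ)))
        (RealCh.aIdl (ext0 ψ)) =
      LSeries.convolution (RealCh.aIdl (fun _ : Ideal (𝓞 K) => (1 : ℂ)))
        (RealCh.aIdl (ext0 ψ)) := by
    refine LSeries.convolution_congr (fun hn => RealCh.aIdl_congr (fun I hI => ?_) hn)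
      fun _ => rfl
    exact ext0_coe 1 ⟨I, mem_nonZeroDivisors_of_ne_zero hI⟩
  rw [hconv] at hsum
  have hnn : ∀ n, 0 ≤ (LSeries.convolution (RealCh.aIdl (fun _ : Ideal (𝓞 K) => (1 : ℂ)))
      (RealCh.aIdl (ext0 ψ)) n).re ∧ (LSeries.convolution (RealCh.aIdl
        (fun _ : Ideal (𝓞 K) => (1 : ℂ))) (RealCh.aIdl (ext0 ψ)) n).im = 0 := by
    intro n
    by_cases hn : n = 0
    · rw [hn, LSeries.convolution_map_zero]
      simp
    · rw [RealCh.convolution_aIdl _ hn]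
      open scoped ComplexOrder in
      have h2 : 0 ≤ ∑ I ∈ RealCh.idl K n, RealCh.dsum (ext0 ψ) I := by
        refine Finset.sum_nonneg fun I _ => dsum_nonneg' (ext0 ψ) (fun J => ?_) I
        by_cases hJ : J = 0
        · left
          rw [hJ, map_zero]
        · have := hψ ⟨J, mem_nonZeroDivisors_of_ne_zero hJ⟩
          rw [← ext0_coe] at this
          exact this
      open scoped ComplexOrder in
      rw [Complex.le_def] at h2
      exact ⟨by simpa using h2.1, by simpa using h2.2.symm⟩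
  have h1 : LSeries.convolution (RealCh.aIdl (fun _ : Ideal (𝓞 K) => (1 : ℂ)))
      (RealCh.aIdl (ext0 ψ)) 1 = 1 := by
    rw [RealCh.convolution_aIdl _ one_ne_zero, RealCh.idl_one, Finset.sum_singleton,
      RealCh.dsum_one]
  have hab : LSeries.abscissaOfAbsConv (LSeries.convolution
      (RealCh.aIdl (fun _ : Ideal (𝓞 K) => (1 : ℂ))) (RealCh.aIdl (ext0 ψ))) ≤
        ((1 : ℝ) : EReal) := by
    refine LSeries.abscissaOfAbsConv_le_of_forall_lt_LSeriesSummable fun y hy => ?_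
    exact (hsum (y : ℂ) (by simpa using hy)).LSeriesSummable
  refine ne_zero_of_nonneg (W := WK (K := K) fun _ => 1) (L := L) hnn (by rw [h1]; simp)
    (differentiable_WK _) hL hab le_rfl (fun s hs => ?_) (y := -2) (by norm_num) ?_
  · rw [WK_eq _ (ne_one_of_re hs), (hsum s hs).LSeries_eq, h s hs, mul_assoc]
    rfl
  · push_cast
    rw [WK_neg_two, zero_mul]

end Fermat.Agent.Cor.Psi

end
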