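import Fermat.Agent.Corollaries.ZetaK.PsiLandau

/-!
# The ideals are equidistributed in an arbitrary finite class group

`G` a finite abelian group, `cl : (Ideal (𝓞 K))⁰ →* WithZero G` a completely multiplicative map
which is zero only at finitely many primes. If the L-function of every non-trivial character of `G`
has an entire continuation, then the number of ideals of norm at most `x` in the class `g` is
asymptotic to `κ ∏ (1 - 1 / NP) x / |G|`, `κ` the residue of the Dedekind zeta function at `1` and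
the product over the primes where `cl` is zero (Weber).
-/

set_option autoImplicit false
set_option linter.unusedSectionVars false

noncomputable section

open NumberField nonZeroDivisors Complex Filter Topology

open scoped Classical

namespace Fermat.Agent.Cor.Psi

open Fermat.Agent.ClassL Fermat.Agent.Classic.Zeta

universe u v

variable {K : Type u} [Field K] [NumberField K] {G : Type v} [CommGroup G] [Finite G]

/-- the norm of an ideal -/
def nI (I : (Ideal (𝓞 K))⁰) : ℕ := Ideal.absNorm (I : Ideal (𝓞 K))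

theorem nI_pos (I : (Ideal (𝓞 K))⁰) : 0 < nI I := Ideal.absNorm_pos_of_nonZeroDivisors I

theorem finite_nI (x : ℕ) : {I : (Ideal (𝓞 K))⁰ | nI I ≤ x}.Finite :=
  Ideal.finite_setOfPred_absNorm_le₀ (S := 𝓞 K) x

section Coef

variable (cl : (Ideal (𝓞 K))⁰ →* WithZero G)

/-- the number of ideals of norm `n` in the class `g` -/
def cntG (g : G) (n : ℕ) : ℝ := Nat.card {I : (Ideal (𝓞 K))⁰ // nI I = n ∧ cl I = (g : WithZero G)}

theorem cntG_nonneg (g : G) (n : ℕ) : 0 ≤ cntG cl g n := Nat.cast_nonneg _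

theorem cntG_zero (g : G) : cntG cl g 0 = 0 := by
  have : IsEmpty {I : (Ideal (𝓞 K))⁰ // nI I = 0 ∧ cl I = (g : WithZero G)} :=
    ⟨fun I => (nI_pos I.1).ne' I.2.1⟩
  rw [cntG, Nat.card_of_isEmpty, Nat.cast_zero]

/-- `(1 / |G|) ∑_χ χ(g)⁻¹ L(s, χ)` -/
def LG [Fintype (G →* ℂˣ)] (g : G) (s : ℂ) : ℂ :=
  (Nat.card G : ℂ)⁻¹ * ∑ χ : G →* ℂˣ, ((χ g : ℂˣ) : ℂ)⁻¹ * Lp (psi cl χ) s

theorem hasSum_LG [Fintype (G →* ℂˣ)] (g : G) {s : ℂ} (hs : 1 < s.re) :
    HasSum (fun I : (Ideal (𝓞 K))⁰ => (if cl I = (g : WithZero G) then (1 : ℂ) else 0) *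
      (nI I : ℂ) ^ (-s)) (LG cl g s) := by
  have h0 : (Nat.card G : ℂ) ≠ 0 := by exact_mod_cast Nat.card_pos.ne'
  have h1 : ∀ I : (Ideal (𝓞 K))⁰, (if cl I = (g : WithZero G) then (1 : ℂ) else 0) *
      (nI I : ℂ) ^ (-s) = (Nat.card G : ℂ)⁻¹ * ∑ χ : G →* ℂˣ, ((χ g : ℂˣ) : ℂ)⁻¹ *
        (psi cl χ I * (nI I : ℂ) ^ (-s)) := by
    intro I
    have h2 := orth0 g (cl I)
    have h3 : ∑ χ : G →* ℂˣ, ((χ g : ℂˣ) : ℂ)⁻¹ * (psi cl χ I * (nI I : ℂ) ^ (-s)) =
        (∑ χ : G →* ℂˣ, ((χ g : ℂˣ) : ℂ)⁻¹ * chi0 χ (cl I)) * (nI I : ℂ) ^ (-s) := by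
      rw [Finset.sum_mul]
      refine Finset.sum_congr rfl fun χ _ => ?_
      rw [psi, MonoidHom.comp_apply, mul_assoc]
    rw [h3, h2]
    split_ifs with h
    · rw [inv_mul_cancel_left₀ h0, one_mul]
    · rw [zero_mul, mul_zero]
  simp only [h1]
  refine (hasSum_sum fun χ _ => HasSum.mul_left _ ?_).mul_left _
  exact (summable_norm_psHom (isUnitary_psi cl χ).le hs).of_norm.hasSum

theorem hasSum_cntG [Fintype (G →* ℂˣ)] (g : G) {s : ℂ} (hs : 1 < s.re) :
    HasSum (fun n : ℕ => (cntG cl g n : ℂ) * (n : ℂ) ^ (-s)) (LG cl g s) := by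
  let e := Equiv.sigmaFiberEquiv (fun I : (Ideal (𝓞 K))⁰ => nI I)
  refine (e.hasSum_iff.mpr (hasSum_LG cl g hs)).sigma fun n => ?_
  have : Finite {I : (Ideal (𝓞 K))⁰ // nI I = n} :=
    ((finite_nI n).subset fun I (hI : nI I = n) => hI.le).to_subtype
  have : Fintype {I : (Ideal (𝓞 K))⁰ // nI I = n} := Fintype.ofFinite _
  have h1 : (cntG cl g n : ℂ) = ∑ I : {I : (Ideal (𝓞 K))⁰ // nI I = n},
      if cl I.1 = (g : WithZero G) then (1 : ℂ) else 0 := by
    have h3 : Nat.card {I : (Ideal (𝓞 K))⁰ // nI I = n ∧ cl I = (g : WithZero G)} =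
        Nat.card {I : {I : (Ideal (𝓞 K))⁰ // nI I = n} // cl I.1 = (g : WithZero G)} :=
      (Nat.card_congr (Equiv.subtypeSubtypeEquivSubtypeInter (fun I : (Ideal (𝓞 K))⁰ => nI I = n)
        fun I => cl I = (g : WithZero G))).symm
    rw [cntG, h3, Nat.card_eq_fintype_card, Fintype.card_subtype, Finset.sum_boole]
    push_cast
    rfl
  have h2 : HasSum (fun I : {I : (Ideal (𝓞 K))⁰ // nI I = n} =>
      (if cl I.1 = (g : WithZero G) then (1 : ℂ) else 0) * (nI I.1 : ℂ) ^ (-s))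
      ((cntG cl g n : ℂ) * (n : ℂ) ^ (-s)) := by
    have h3 : (cntG cl g n : ℂ) * (n : ℂ) ^ (-s) = ∑ I : {I : (Ideal (𝓞 K))⁰ // nI I = n},
        (if cl I.1 = (g : WithZero G) then (1 : ℂ) else 0) * (nI I.1 : ℂ) ^ (-s) := by
      rw [h1, Finset.sum_mul]
      exact Finset.sum_congr rfl fun I _ => by rw [I.2]
    rw [h3]
    exact hasSum_fintype _
  exact h2

theorem lseriesHasSum_cntG [Fintype (G →* ℂˣ)] (g : G) {s : ℂ} (hs : 1 < s.re) :
    LSeriesHasSum (fun n => (cntG cl g n : ℂ)) s (LG cl g s) := by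
  have h : LSeries.term (fun n => (cntG cl g n : ℂ)) s =
      fun n : ℕ => (cntG cl g n : ℂ) * (n : ℂ) ^ (-s) := by
    funext n
    rcases eq_or_ne n 0 with rfl | hn
    · rw [LSeries.term_zero, cntG_zero, Complex.ofReal_zero, zero_mul]
    · rw [LSeries.term_of_ne_zero hn, Complex.cpow_neg, div_eq_mul_inv]
  rw [LSeriesHasSum, h]
  exact hasSum_cntG cl g hs

theorem sum_cntG (g : G) (x : ℕ) : ∑ n ∈ Finset.Icc 1 x, cntG cl g n =
    Nat.card {I : (Ideal (𝓞 K))⁰ // nI I ≤ x ∧ cl I = (g : WithZero G)} := by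
  have hf : ∀ n : ℕ, Finite {I : (Ideal (𝓞 K))⁰ // nI I = n ∧ cl I = (g : WithZero G)} := fun n =>
    ((finite_nI n).subset fun I (hI : nI I = n ∧ cl I = (g : WithZero G)) => hI.1.le).to_subtype
  have hfx : {I : (Ideal (𝓞 K))⁰ | nI I ≤ x ∧ cl I = (g : WithZero G)}.Finite :=
    (finite_nI x).subset fun I hI => hI.1
  have h1 : Nat.card {I : (Ideal (𝓞 K))⁰ // nI I ≤ x ∧ cl I = (g : WithZero G)} =
      hfx.toFinset.card := Nat.card_eq_card_finite_toFinset hfx
  have h2 : ∀ n ∈ Finset.Icc 1 x, cntG cl g n = ((hfx.toFinset.filter fun I => nI I = n).card : ℝ) := by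
    intro n hn
    rw [Finset.mem_Icc] at hn
    rw [cntG]
    congr 1
    have h3 : {I : (Ideal (𝓞 K))⁰ | nI I = n ∧ cl I = (g : WithZero G)}.Finite :=
      (finite_nI n).subset fun I (hI : nI I = n ∧ cl I = (g : WithZero G)) => hI.1.le
    refine (Nat.card_eq_card_finite_toFinset h3).trans ?_
    congr 1
    ext I
    rw [Set.Finite.mem_toFinset, Finset.mem_filter, Set.Finite.mem_toFinset]
    constructor
    · rintro ⟨h4, h5⟩
      exact ⟨⟨h4.le.trans hn.2, h5⟩, h4⟩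
    · rintro ⟨⟨-, h5⟩, h4⟩
      exact ⟨h4, h5⟩
  rw [Finset.sum_congr rfl h2, h1, ← Nat.cast_sum]
  congr 1
  refine (Finset.card_eq_sum_card_fiberwise (f := nI) fun I hI => ?_).symm
  rw [Finset.mem_coe, Set.Finite.mem_toFinset] at hI
  rw [Finset.mem_coe, Finset.mem_Icc]
  exact ⟨nI_pos I, hI.1⟩

end Coef

/-- the residue of the Dedekind zeta function times the Euler factors at `1` -/
theorem WK_mul_badE_one (S : Finset (Pr K)) :
    WK (K := K) (fun _ => 1) 1 * badE S 1 =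
      ((dedekindZeta_residue K * ∏ P ∈ S, (1 - (nP P : ℝ)⁻¹) : ℝ) : ℂ) := by
  rw [WK, residue_eq_XiF, badE]
  push_cast
  congr 1
  refine Finset.prod_congr rfl fun P _ => ?_
  rw [Complex.cpow_neg_one]

section Main

variable {cl : (Ideal (𝓞 K))⁰ →* WithZero G} (hfin : {P : Pr K | cl P.1 = 0}.Finite)
  {L : (G →* ℂˣ) → ℂ → ℂ} (hd : ∀ χ, χ ≠ 1 → Differentiable ℂ (L χ))
  (hL : ∀ χ, χ ≠ 1 → ∀ s : ℂ, 1 < s.re → L χ s = Lp (psi cl χ) s)

include hfin hd hL

/-- **The ideals are equidistributed in the classes `g ∈ G`.** -/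
theorem tendsto_card_ideals (g : G) :
    Tendsto (fun x : ℕ => (Nat.card {I : (Ideal (𝓞 K))⁰ // nI I ≤ x ∧
      cl I = (g : WithZero G)} : ℝ) / x) atTop
      (𝓝 (dedekindZeta_residue K * (∏ P ∈ hfin.toFinset, (1 - (nP P : ℝ)⁻¹)) / Nat.card G)) := by
  have : Fintype (G →* ℂˣ) := Fintype.ofFinite _
  set W : ℂ → ℂ := fun s => WK (K := K) (fun _ => 1) s * badE hfin.toFinset s with hW
  have hWd : Differentiable ℂ W := (differentiable_WK _).mul (differentiable_badE hfin.toFinset)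
  have hW1 : W 1 = ((dedekindZeta_residue K *
      ∏ P ∈ hfin.toFinset, (1 - (nP P : ℝ)⁻¹) : ℝ) : ℂ) := WK_mul_badE_one hfin.toFinset
  have hdW : Continuous (dslope W 1) := continuous_iff_continuousAt.mpr fun s => by
    rcases eq_or_ne s 1 with rfl | h
    · exact continuousAt_dslope_same.mpr (hWd 1)
    · exact (continuousAt_dslope_of_ne h).mpr (hWd s).continuousAt
  have key := wiener_ikehara_nat (a := cntG cl g)
    (A := dedekindZeta_residue K * (∏ P ∈ hfin.toFinset, (1 - (nP P : ℝ)⁻¹)) / Nat.card G)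
    (G := fun s => (Nat.card G : ℂ)⁻¹ * ∑ χ : G →* ℂˣ, ((χ g : ℂˣ) : ℂ)⁻¹ *
      (if χ = 1 then dslope W 1 s else L χ s)) (cntG_nonneg cl g)
    (fun s hs => (lseriesHasSum_cntG cl g hs).LSeriesSummable) ?_ ?_
  · refine key.congr fun x => ?_
    rw [sum_cntG]
  · refine continuousOn_const.mul (continuousOn_finsetSum _ fun χ _ => continuousOn_const.mul ?_)
    by_cases h : χ = 1
    · simp only [if_pos h]
      exact hdW.continuousOn
    · simp only [if_neg h]
      exact (hd χ h).continuous.continuousOn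
  · intro s hs
    have h1 : s ≠ 1 := ne_one_of_re hs
    have h2 : s - 1 ≠ 0 := sub_ne_zero.mpr h1
    rw [(lseriesHasSum_cntG cl g hs).LSeries_eq, LG]
    have h3 : ∀ χ : G →* ℂˣ, ((χ g : ℂˣ) : ℂ)⁻¹ * (if χ = 1 then dslope W 1 s else L χ s) =
        ((χ g : ℂˣ) : ℂ)⁻¹ * Lp (psi cl χ) s - if χ = 1 then W 1 / (s - 1) else 0 := by
      intro χ
      by_cases h : χ = 1
      · subst h
        rw [if_pos rfl, if_pos rfl, MonoidHom.one_apply, Units.val_one, inv_one, one_mul, one_mul,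
          dslope_of_ne _ h1, slope_def_field, Lp_psi_one hfin hs]
        have h4 : W s = (s - 1) * (zetaK K s * badE hfin.toFinset s) := by
          rw [hW]
          beta_reduce
          rw [WK_eq _ h1, mul_assoc]
          rfl
        rw [h4]
        field_simp
      · rw [if_neg h, if_neg h, sub_zero, hL χ h s hs]
    simp only [h3]
    rw [Finset.sum_sub_distrib, Finset.sum_ite_eq' Finset.univ, if_pos (Finset.mem_univ _), hW1]
    push_cast
    ring

end Main

end Fermat.Agent.Cor.Psi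

end
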