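import Fermat.Agent.Corollaries.ZetaK.Strip

/-!
# The completed L-function of a class function has infinitely many zeros

`infinite_zeros_XiF`: if `f(1) ≠ 0`, the entire function `XiF f` (of order less than two) has
infinitely many zeros: on the positive reals it grows faster than every exponential.
-/

set_option autoImplicit false

noncomputable section

namespace Fermat.Agent.Cor

open NumberField NumberField.InfinitePlace Set Filter Topology Fermat.Agent.Classic.Zeta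
open scoped nonZeroDivisors Classical

theorem eventually_pow_le_factorial (c : ℝ) : ∀ᶠ n : ℕ in atTop, c ^ n ≤ (n.factorial : ℝ) := by
  have h := FloorSemiring.tendsto_pow_div_factorial_atTop c
  filter_upwards [(tendsto_order.1 h).2 1 one_pos] with n hn
  have h1 : (0 : ℝ) < n.factorial := by positivity
  rw [div_lt_one h1] at hn
  exact hn.le

theorem norm_Gammaℝ_even (n : ℕ) : ‖Complex.Gammaℝ ((2 * n + 2 : ℝ) : ℂ)‖ =
    (Real.pi ^ (n + 1))⁻¹ * n.factorial := by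
  rw [Complex.Gammaℝ_def, norm_mul, Complex.norm_cpow_eq_rpow_re_of_pos Real.pi_pos]
  have h1 : -((2 * n + 2 : ℝ) : ℂ) / 2 = ((-((n + 1 : ℕ) : ℝ) : ℝ) : ℂ) := by
    push_cast
    ring
  have h2 : ((2 * n + 2 : ℝ) : ℂ) / 2 = (n : ℂ) + 1 := by
    push_cast
    ring
  rw [h1, h2, Complex.ofReal_re, Real.rpow_neg Real.pi_pos.le, Real.rpow_natCast,
    Complex.Gamma_nat_eq_factorial, Complex.norm_natCast]

theorem norm_Gammaℂ_even (n : ℕ) : ‖Complex.Gammaℂ ((2 * n + 2 : ℝ) : ℂ)‖ =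
    2 * ((2 * Real.pi) ^ (2 * n + 2))⁻¹ * (2 * n + 1).factorial := by
  have hpi := Real.pi_pos
  rw [Complex.Gammaℂ_def, norm_mul, norm_mul,
    show (2 * (Real.pi : ℂ)) = ((2 * Real.pi : ℝ) : ℂ) by push_cast; ring,
    Complex.norm_cpow_eq_rpow_re_of_pos (by positivity)]
  have h1 : -((2 * n + 2 : ℝ) : ℂ) = ((-((2 * n + 2 : ℕ) : ℝ) : ℝ) : ℂ) := by
    push_cast
    ring
  have h2 : ((2 * n + 2 : ℝ) : ℂ) = ((2 * n + 1 : ℕ) : ℂ) + 1 := by
    push_cast
    ring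
  rw [h1, h2, Complex.ofReal_re, Real.rpow_neg (by positivity), Real.rpow_natCast,
    Complex.Gamma_nat_eq_factorial, Complex.norm_natCast, Complex.norm_ofNat]

theorem eventually_exp_le_Gammaℝ (B : ℝ) :
    ∀ᶠ n : ℕ in atTop, Real.exp (B * n) ≤ ‖Complex.Gammaℝ ((2 * n + 2 : ℝ) : ℂ)‖ := by
  have hpi := Real.pi_gt_three
  filter_upwards [eventually_pow_le_factorial (Real.pi ^ 2 * Real.exp B), eventually_ge_atTop 1]
    with n hn hn1
  rw [norm_Gammaℝ_even, inv_mul_eq_div, le_div_iff₀ (by positivity)]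
  refine le_trans ?_ hn
  rw [mul_pow, ← pow_mul, mul_comm (Real.exp _), ← Real.exp_nat_mul, mul_comm B]
  refine mul_le_mul_of_nonneg_right ?_ (Real.exp_nonneg _)
  exact pow_le_pow_right₀ (by linarith) (by omega)

theorem eventually_exp_le_Gammaℂ (B : ℝ) :
    ∀ᶠ n : ℕ in atTop, Real.exp (B * n) ≤ ‖Complex.Gammaℂ ((2 * n + 2 : ℝ) : ℂ)‖ := by
  have hpi := Real.pi_gt_three
  filter_upwards [eventually_pow_le_factorial ((2 * Real.pi) ^ 4 * Real.exp B),
    eventually_ge_atTop 1] with n hn hn1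
  rw [norm_Gammaℂ_even]
  have h1 : Real.exp (B * n) ≤ ((2 * Real.pi) ^ (2 * n + 2))⁻¹ * (2 * n + 1).factorial := by
    rw [inv_mul_eq_div, le_div_iff₀ (by positivity)]
    have h2 : (n.factorial : ℝ) ≤ (2 * n + 1).factorial := by
      exact_mod_cast Nat.factorial_le (by omega)
    refine le_trans ?_ (hn.trans h2)
    have e : ((2 * Real.pi) ^ 4 * Real.exp B) ^ n = (2 * Real.pi) ^ (4 * n) * Real.exp (B * n) := by
      rw [mul_pow ((2 * Real.pi) ^ 4), ← pow_mul, ← Real.exp_nat_mul, mul_comm B]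
    rw [e, mul_comm (Real.exp _)]
    refine mul_le_mul_of_nonneg_right ?_ (Real.exp_nonneg _)
    exact pow_le_pow_right₀ (by linarith) (by omega)
  have h3 : 0 ≤ ((2 * Real.pi) ^ (2 * n + 2))⁻¹ * ((2 * n + 1).factorial : ℝ) := by positivity
  rw [mul_assoc]
  linarith

universe u

variable {K : Type u} [Field K] [NumberField K]

theorem eventually_exp_le_gam (K : Type u) [Field K] [NumberField K] {B : ℝ} (hB : 0 ≤ B) :
    ∀ᶠ n : ℕ in atTop, Real.exp (B * n) ≤ ‖gam K ((2 * n + 2 : ℝ) : ℂ)‖ := by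
  filter_upwards [eventually_exp_le_Gammaℝ B, eventually_exp_le_Gammaℂ B] with n h1 h2
  rw [gam, norm_mul, norm_pow, norm_pow]
  have h3 := rank_add_one (K := K)
  have h4 : (1 : ℝ) ≤ Real.exp (B * n) := Real.one_le_exp (by positivity)
  calc Real.exp (B * n) = Real.exp (B * n) ^ 1 := (pow_one _).symm
    _ ≤ Real.exp (B * n) ^ (nrRealPlaces K + nrComplexPlaces K) :=
        pow_le_pow_right₀ h4 (by omega)
    _ = Real.exp (B * n) ^ nrRealPlaces K * Real.exp (B * n) ^ nrComplexPlaces K := pow_add _ _ _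
    _ ≤ _ := by gcongr

/-! ### The Dirichlet series at the even integers -/

theorem tendsto_term (I : (Ideal (𝓞 K))⁰) :
    Tendsto (fun n : ℕ => (Ideal.absNorm (I : Ideal (𝓞 K)) : ℂ) ^ (-((2 * n + 2 : ℝ) : ℂ))) atTop
      (𝓝 (if I = 1 then 1 else 0)) := by
  have hpos := absNorm_pos I
  have hpow : ∀ n : ℕ, (Ideal.absNorm (I : Ideal (𝓞 K)) : ℂ) ^ (-((2 * n + 2 : ℝ) : ℂ)) =
      ((Ideal.absNorm (I : Ideal (𝓞 K)) : ℂ)⁻¹) ^ (2 * n + 2) := by
    intro n
    have h1 : ((2 * n + 2 : ℝ) : ℂ) = ((2 * n + 2 : ℕ) : ℂ) := by push_cast; ring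
    rw [h1, Complex.cpow_neg, Complex.cpow_natCast, inv_pow]
  simp_rw [hpow]
  split_ifs with h
  · subst h
    have h1 : Ideal.absNorm (((1 : (Ideal (𝓞 K))⁰) : Ideal (𝓞 K))) = 1 := by
      rw [OneMemClass.coe_one, map_one]
    rw [h1]
    simp
  · have h1 : Ideal.absNorm (I : Ideal (𝓞 K)) ≠ 1 := by
      intro h1
      apply h
      rw [Ideal.absNorm_eq_one_iff] at h1
      apply Subtype.ext
      rw [h1, OneMemClass.coe_one, Ideal.one_eq_top]
    have h2 : 1 < Ideal.absNorm (I : Ideal (𝓞 K)) := by omega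
    have h3 : ‖((Ideal.absNorm (I : Ideal (𝓞 K)) : ℂ))⁻¹‖ < 1 := by
      rw [norm_inv, Complex.norm_natCast]
      exact inv_lt_one_of_one_lt₀ (by exact_mod_cast h2)
    exact (tendsto_pow_atTop_nhds_zero_of_norm_lt_one h3).comp
      (tendsto_atTop_mono (fun n => by omega : ∀ n : ℕ, n ≤ 2 * n + 2) tendsto_id)

theorem tendsto_zcK (C : ClassGroup (𝓞 K)) :
    Tendsto (fun n : ℕ => zcK C ((2 * n + 2 : ℝ) : ℂ)) atTop (𝓝 (if C = 1 then 1 else 0)) := by
  have h2 : (1 : ℝ) < (2 : ℂ).re := by norm_num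
  have hsum : Summable fun I : {I : (Ideal (𝓞 K))⁰ // ClassGroup.mk0 I = C} =>
      ‖(Ideal.absNorm ((I : (Ideal (𝓞 K))⁰) : Ideal (𝓞 K)) : ℂ) ^ (-(2 : ℂ))‖ :=
    (summable_norm_ideals (K := K) h2).comp_injective Subtype.val_injective
  have key := tendsto_tsum_of_dominated_convergence (𝓕 := (atTop : Filter ℕ))
    (f := fun (n : ℕ) (I : {I : (Ideal (𝓞 K))⁰ // ClassGroup.mk0 I = C}) =>
      (Ideal.absNorm ((I : (Ideal (𝓞 K))⁰) : Ideal (𝓞 K)) : ℂ) ^ (-((2 * n + 2 : ℝ) : ℂ)))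
    (g := fun I : {I : (Ideal (𝓞 K))⁰ // ClassGroup.mk0 I = C} =>
      if (I : (Ideal (𝓞 K))⁰) = 1 then (1 : ℂ) else 0) hsum
    (fun I => tendsto_term (I : (Ideal (𝓞 K))⁰))
    (Eventually.of_forall fun n I => norm_term_le I.1 (by
      rw [Complex.ofReal_re]
      have : (0 : ℝ) ≤ n := Nat.cast_nonneg n
      linarith))
  have hlim : (∑' I : {I : (Ideal (𝓞 K))⁰ // ClassGroup.mk0 I = C},
      if (I : (Ideal (𝓞 K))⁰) = 1 then (1 : ℂ) else 0) = if C = 1 then 1 else 0 := by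
    split_ifs with h
    · subst h
      rw [tsum_eq_single (⟨1, map_one _⟩ : {I : (Ideal (𝓞 K))⁰ // ClassGroup.mk0 I = 1})]
      · rw [if_pos rfl]
      · intro I hI
        rw [if_neg]
        exact fun h1 => hI (Subtype.ext h1)
    · refine (tsum_congr fun I => ?_).trans tsum_zero
      rw [if_neg]
      intro h1
      apply h
      rw [← I.2, h1, map_one]
  rw [hlim] at key
  exact key

theorem tendsto_sum_zcK (f : ClassGroup (𝓞 K) → ℂ) :
    Tendsto (fun n : ℕ => ∑ C : ClassGroup (𝓞 K), f C * zcK C ((2 * n + 2 : ℝ) : ℂ)) atTop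
      (𝓝 (f 1)) := by
  have h := tendsto_finsetSum (Finset.univ : Finset (ClassGroup (𝓞 K)))
    fun C _ => (tendsto_zcK C).const_mul (f C)
  have h1 : ∑ C : ClassGroup (𝓞 K), f C * (if C = 1 then 1 else 0) = f 1 := by
    rw [Finset.sum_eq_single (1 : ClassGroup (𝓞 K))]
    · rw [if_pos rfl, mul_one]
    · intro C _ hC
      rw [if_neg hC, mul_zero]
    · intro h
      exact absurd (Finset.mem_univ _) h
  rw [h1] at h
  exact h

theorem one_le_absDisc (K : Type u) [Field K] [NumberField K] : 1 ≤ |(discr K : ℝ)| := by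
  have h : 1 ≤ |discr K| := Int.one_le_abs (discr_ne_zero K)
  have h1 : ((1 : ℤ) : ℝ) ≤ ((|discr K| : ℤ) : ℝ) := Int.cast_le.mpr h
  rwa [Int.cast_one, Int.cast_abs] at h1

/-- **Lower bound**: if `f(1) ≠ 0`, the completed L-function grows on the positive real axis faster
than every exponential. -/
theorem exists_lt_norm_XiF {f : ClassGroup (𝓞 K) → ℂ} (hf : f 1 ≠ 0) (B : ℝ) :
    ∃ x : ℝ, 0 ≤ x ∧ Real.exp (B * (1 + x)) < ‖XiF f x‖ := by
  set B₀ : ℝ := max B 0 with hB₀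
  have hB0 : 0 ≤ B₀ := le_max_right _ _
  have hf0 : 0 < ‖f 1‖ := norm_pos_iff.mpr hf
  have h1 := eventually_exp_le_gam K (B := 5 * B₀ + 1) (by positivity)
  have h2 := ((tendsto_sum_zcK f).norm).eventually_const_lt (u := ‖f 1‖ / 2) (by linarith)
  have h3 : ∀ᶠ n : ℕ in atTop, 2 / ‖f 1‖ < Real.exp n :=
    (Real.tendsto_exp_atTop.comp tendsto_natCast_atTop_atTop).eventually_gt_atTop _
  obtain ⟨n, h1, h2, h3, h4⟩ := (h1.and (h2.and (h3.and (eventually_ge_atTop 1)))).exists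
  have hn : (1 : ℝ) ≤ n := by exact_mod_cast h4
  refine ⟨2 * n + 2, by positivity, ?_⟩
  have hre : 1 < (((2 * n + 2 : ℝ) : ℂ)).re := by
    rw [Complex.ofReal_re]
    linarith
  rw [XiF_eq f hre, norm_mul, norm_mul, norm_mul, norm_mul]
  have e1 : (1 : ℝ) ≤ ‖((2 * n + 2 : ℝ) : ℂ)‖ := by
    rw [Complex.norm_real, Real.norm_eq_abs, abs_of_nonneg (by positivity)]
    linarith
  have e2 : (1 : ℝ) ≤ ‖1 - ((2 * n + 2 : ℝ) : ℂ)‖ := by
    rw [← Complex.ofReal_one, ← Complex.ofReal_sub, Complex.norm_real, Real.norm_eq_abs, abs_sub_comm,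
      abs_of_nonneg (by linarith)]
    linarith
  have e3 : (1 : ℝ) ≤ ‖((|(discr K : ℝ)| : ℝ) : ℂ) ^ (((2 * n + 2 : ℝ) : ℂ) / 2)‖ := by
    rw [Complex.norm_cpow_eq_rpow_re_of_pos (disc_pos K)]
    refine Real.one_le_rpow (one_le_absDisc K) ?_
    rw [show ((2 * n + 2 : ℝ) : ℂ) / 2 = ((n + 1 : ℝ) : ℂ) by push_cast; ring, Complex.ofReal_re]
    positivity
  have e4 : Real.exp (B * (1 + (2 * n + 2))) ≤ Real.exp (5 * B₀ * n) := by
    refine Real.exp_le_exp.mpr ?_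
    have h5 : B * (1 + (2 * n + 2 : ℝ)) ≤ B₀ * (1 + (2 * n + 2)) :=
      mul_le_mul_of_nonneg_right (le_max_left _ _) (by positivity)
    nlinarith
  have e5 : Real.exp ((5 * B₀ + 1) * n) = Real.exp (5 * B₀ * n) * Real.exp n := by
    rw [← Real.exp_add]
    congr 1
    ring
  rw [e5] at h1
  have e6 : 1 < Real.exp n * (‖f 1‖ / 2) := by
    rw [div_lt_iff₀ hf0] at h3
    linarith
  have e7 := Real.exp_pos (5 * B₀ * n)
  calc Real.exp (B * (1 + (2 * n + 2))) ≤ Real.exp (5 * B₀ * n) := e4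
    _ < Real.exp (5 * B₀ * n) * (Real.exp n * (‖f 1‖ / 2)) := lt_mul_of_one_lt_right e7 e6
    _ = (1 * 1) * (1 * (Real.exp (5 * B₀ * n) * Real.exp n) * (‖f 1‖ / 2)) := by ring
    _ ≤ _ := by gcongr

/-- **The completed L-function of a class function `f` with `f(1) ≠ 0` has infinitely many
zeros.** -/
theorem infinite_zeros_XiF {f : ClassGroup (𝓞 K) → ℂ} (hf : f 1 ≠ 0) :
    {s | XiF f s = 0}.Infinite :=
  infinite_zeros_of_growth (differentiable_XiF f) (hasGrowth_XiF f) (exists_lt_norm_XiF hf)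

end Fermat.Agent.Cor

end
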