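import Mathlib

/-!
# The zeros of `1 / Γ`, `1 / Γ_ℝ`, `1 / Γ_ℂ`

All zeros are simple: at `0, -1, -2, …`, resp. at `0, -2, -4, …`, resp. at `0, -1, -2, …`.
-/

set_option autoImplicit false

open Complex

namespace Fermat.Agent.Cor.ZetaK

theorem ord_mul {f g : ℂ → ℂ} {s : ℂ} (hf : AnalyticAt ℂ f s) (hg : AnalyticAt ℂ g s) :
    analyticOrderAt (fun z => f z * g z) s = analyticOrderAt f s + analyticOrderAt g s :=
  analyticOrderAt_mul hf hg

theorem ord_pow {f : ℂ → ℂ} {s : ℂ} (hf : AnalyticAt ℂ f s) (n : ℕ) :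
    analyticOrderAt (fun z => f z ^ n) s = n • analyticOrderAt f s :=
  analyticOrderAt_pow hf n

theorem ord_eq_zero {f : ℂ → ℂ} {s : ℂ} (hf : AnalyticAt ℂ f s) (h : f s ≠ 0) :
    analyticOrderAt f s = 0 :=
  hf.analyticOrderAt_eq_zero.mpr h

theorem analyticAt_inv_Gamma (s : ℂ) : AnalyticAt ℂ (fun z : ℂ => (Gamma z)⁻¹) s :=
  differentiable_one_div_Gamma.analyticAt s

theorem analyticOrderAt_inv_Gamma_shift (s : ℂ) :
    analyticOrderAt (fun z : ℂ => (Gamma (z + 1))⁻¹) s =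
      analyticOrderAt (fun z : ℂ => (Gamma z)⁻¹) (s + 1) := by
  have h := analyticOrderAt_comp_of_deriv_ne_zero (f := fun z : ℂ => (Gamma z)⁻¹)
    (g := fun z : ℂ => z + 1) (z₀ := s) (by fun_prop) (by simp)
  exact h

theorem analyticOrderAt_inv_Gamma_step (s : ℂ) :
    analyticOrderAt (fun z : ℂ => (Gamma z)⁻¹) s =
      analyticOrderAt (fun z : ℂ => z) s + analyticOrderAt (fun z : ℂ => (Gamma z)⁻¹) (s + 1) := by
  have h : AnalyticAt ℂ (fun z : ℂ => (Gamma (z + 1))⁻¹) s :=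
    (differentiable_one_div_Gamma.comp (differentiable_id.add_const 1)).analyticAt s
  rw [← analyticOrderAt_inv_Gamma_shift, ← ord_mul (by fun_prop) h]
  congr 1
  ext z
  exact one_div_Gamma_eq_self_mul_one_div_Gamma_add_one z

/-- the zero of `1 / Γ` at `-k` is simple -/
theorem analyticOrderAt_inv_Gamma_neg (k : ℕ) :
    analyticOrderAt (fun z : ℂ => (Gamma z)⁻¹) (-k) = 1 := by
  induction k with
  | zero =>
    rw [analyticOrderAt_inv_Gamma_step, Nat.cast_zero, neg_zero, zero_add]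
    have h1 : analyticOrderAt (fun z : ℂ => z) 0 = 1 := analyticOrderAt_id
    have h2 : analyticOrderAt (fun z : ℂ => (Gamma z)⁻¹) 1 = 0 := by
      rw [(analyticAt_inv_Gamma 1).analyticOrderAt_eq_zero]
      simp
    rw [h1, h2, add_zero]
  | succ k ih =>
    rw [analyticOrderAt_inv_Gamma_step]
    have h1 : analyticOrderAt (fun z : ℂ => z) (-((k + 1 : ℕ) : ℂ)) = 0 := by
      rw [AnalyticAt.analyticOrderAt_eq_zero (by fun_prop)]
      rw [neg_ne_zero]
      exact_mod_cast Nat.succ_ne_zero k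
    have h2 : -((k + 1 : ℕ) : ℂ) + 1 = -(k : ℂ) := by push_cast; ring
    rw [h1, h2, ih, zero_add]

open scoped Classical in
/-- **order of `1 / Γ`** -/
theorem analyticOrderAt_inv_Gamma (s : ℂ) :
    analyticOrderAt (fun z : ℂ => (Gamma z)⁻¹) s = if ∃ k : ℕ, s = -k then 1 else 0 := by
  split_ifs with h
  · obtain ⟨k, rfl⟩ := h
    exact analyticOrderAt_inv_Gamma_neg k
  · refine ord_eq_zero (analyticAt_inv_Gamma s) (inv_ne_zero ?_)
    rw [Ne, Gamma_eq_zero_iff]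
    exact h

theorem analyticAt_inv_Gammaℝ (s : ℂ) : AnalyticAt ℂ (fun z : ℂ => (Gammaℝ z)⁻¹) s :=
  differentiable_Gammaℝ_inv.analyticAt s

theorem differentiable_inv_Gammaℂ : Differentiable ℂ fun z : ℂ => (Gammaℂ z)⁻¹ := by
  have h : (fun z : ℂ => (Gammaℂ z)⁻¹) =
      fun z => (2 * (2 * Real.pi : ℂ) ^ (-z))⁻¹ * (Gamma z)⁻¹ := by
    ext z
    rw [Gammaℂ_def, mul_inv]
  rw [h]
  have hpi : (2 * Real.pi : ℂ) ≠ 0 := by simp [Real.pi_ne_zero]
  refine Differentiable.mul (Differentiable.inv ?_ fun z => ?_) differentiable_one_div_Gamma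
  · exact (Differentiable.const_cpow differentiable_neg (Or.inl hpi)).const_mul 2
  · rw [mul_ne_zero_iff]
    exact ⟨two_ne_zero, by rw [Ne, cpow_eq_zero_iff]; exact fun h => hpi h.1⟩

theorem analyticAt_inv_Gammaℂ (s : ℂ) : AnalyticAt ℂ (fun z : ℂ => (Gammaℂ z)⁻¹) s :=
  differentiable_inv_Gammaℂ.analyticAt s

open scoped Classical in
/-- **order of `1 / Γ_ℂ`** -/
theorem analyticOrderAt_inv_Gammaℂ (s : ℂ) :
    analyticOrderAt (fun z : ℂ => (Gammaℂ z)⁻¹) s = if ∃ k : ℕ, s = -k then 1 else 0 := by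
  have h : (fun z : ℂ => (Gammaℂ z)⁻¹) =
      fun z => (2 * (2 * Real.pi : ℂ) ^ (-z))⁻¹ * (Gamma z)⁻¹ := by
    ext z
    rw [Gammaℂ_def, mul_inv]
  have hpi : (2 * Real.pi : ℂ) ≠ 0 := by simp [Real.pi_ne_zero]
  have hne : ∀ z : ℂ, 2 * (2 * Real.pi : ℂ) ^ (-z) ≠ 0 := fun z => by
    rw [mul_ne_zero_iff]
    exact ⟨two_ne_zero, by rw [Ne, cpow_eq_zero_iff]; exact fun h => hpi h.1⟩
  have hd : Differentiable ℂ fun z : ℂ => (2 * (2 * Real.pi : ℂ) ^ (-z))⁻¹ :=
    Differentiable.inv ((Differentiable.const_cpow differentiable_neg (Or.inl hpi)).const_mul 2) hne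
  rw [h, ord_mul (hd.analyticAt s) (analyticAt_inv_Gamma s), analyticOrderAt_inv_Gamma,
    ord_eq_zero (hd.analyticAt s) (inv_ne_zero (hne s)), zero_add]

open scoped Classical in
/-- **order of `1 / Γ_ℝ`** -/
theorem analyticOrderAt_inv_Gammaℝ (s : ℂ) :
    analyticOrderAt (fun z : ℂ => (Gammaℝ z)⁻¹) s = if ∃ k : ℕ, s = -(2 * k) then 1 else 0 := by
  have h : (fun z : ℂ => (Gammaℝ z)⁻¹) =
      fun z => ((Real.pi : ℂ) ^ (-z / 2))⁻¹ * (fun w => (Gamma w)⁻¹) (z / 2) := by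
    ext z
    rw [Gammaℝ_def, mul_inv]
  have hpi : (Real.pi : ℂ) ≠ 0 := by simp [Real.pi_ne_zero]
  have hne : ∀ z : ℂ, (Real.pi : ℂ) ^ (-z / 2) ≠ 0 := fun z => by
    rw [Ne, cpow_eq_zero_iff]; exact fun h => hpi h.1
  have hd : Differentiable ℂ fun z : ℂ => ((Real.pi : ℂ) ^ (-z / 2))⁻¹ :=
    Differentiable.inv (Differentiable.const_cpow (differentiable_neg.div_const 2) (Or.inl hpi)) hne
  have hc : analyticOrderAt (fun z : ℂ => (fun w => (Gamma w)⁻¹) (z / 2)) s =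
      analyticOrderAt (fun w : ℂ => (Gamma w)⁻¹) (s / 2) :=
    analyticOrderAt_comp_of_deriv_ne_zero (f := fun z : ℂ => (Gamma z)⁻¹)
      (g := fun z : ℂ => z / 2) (z₀ := s) (by fun_prop) (by simp)
  have ha : AnalyticAt ℂ (fun z : ℂ => (fun w => (Gamma w)⁻¹) (z / 2)) s :=
    (differentiable_one_div_Gamma.comp (differentiable_id.div_const 2)).analyticAt s
  rw [h, ord_mul (hd.analyticAt s) ha, hc, analyticOrderAt_inv_Gamma,
    ord_eq_zero (hd.analyticAt s) (inv_ne_zero (hne s)), zero_add]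
  have hiff : (∃ k : ℕ, s / 2 = -k) ↔ ∃ k : ℕ, s = -(2 * k) := by
    refine exists_congr fun k => ?_
    constructor
    · intro h
      linear_combination 2 * h
    · intro h
      linear_combination h / 2
  simp only [hiff]

end Fermat.Agent.Cor.ZetaK
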