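import Fermat.Agent.Corollaries.ZetaK.Rat
import Fermat.Agent.Corollaries.ZetaK.ZetaOne

/-!
# `zetaK ℚ` is the Riemann zeta function
-/

set_option autoImplicit false

namespace Fermat.Agent.Cor

/-- **The zeta function of `ℚ` is the Riemann zeta function.** -/
theorem zetaK_rat {s : ℂ} (hs : s ≠ 1) : zetaK ℚ s = riemannZeta s :=
  eq_of_eq_re_gt_one (fun _ hs => differentiableAt_LF _ hs)
    (fun _ hs => differentiableAt_riemannZeta hs)
    (fun _ hs => (zetaK_eq ℚ hs).trans (dedekindZeta_rat hs)) hs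

end Fermat.Agent.Cor
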