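import Fermat.Agent.Corollaries.ZetaK.XiLower
import Fermat.Agent.Corollaries.ZetaK.NonVan
import Fermat.Agent.Corollaries.ZetaK.RatZeta

/-!
# Infinitely many non-trivial zeros

For every character `χ` of the class group of a number field, `L(s, χ)` has infinitely many zeros
in the critical strip `0 < re s < 1` (`infinite_zeros_LK`); in particular the Dedekind zeta
function of every number field (`infinite_zeros_zetaK`) and the Riemann zeta function
(`infinite_zeros_riemannZeta`).
-/

set_option autoImplicit false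

noncomputable section

namespace Fermat.Agent.Cor

open NumberField NumberField.InfinitePlace Set Fermat.Agent.Classic.Zeta
open scoped nonZeroDivisors Classical

universe u

variable {K : Type u} [Field K] [NumberField K]

/-- the functional equation of the completed L-function of a character -/
theorem XiF_char_one_sub (χ : ClassGroup (𝓞 K) →* ℂˣ) (s : ℂ) :
    XiF (fun C => ((χ C : ℂˣ) : ℂ)) (1 - s) =
      ((χ (diffClass K) : ℂˣ) : ℂ) * XiF (fun C => ((χ⁻¹ C : ℂˣ) : ℂ)) s := by
  rw [XiF_one_sub, XiF, XiF, Finset.mul_sum]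
  refine Finset.sum_congr rfl fun C _ => ?_
  rw [map_mul, Units.val_mul, MonoidHom.inv_apply, map_inv, mul_assoc]

/-- the completed L-function of a character does not vanish for `re s ≥ 1`, `s ≠ 1` -/
theorem XiF_char_ne_zero (χ : ClassGroup (𝓞 K) →* ℂˣ) {s : ℂ} (hs : 1 ≤ s.re) (h1 : s ≠ 1) :
    XiF (fun C => ((χ C : ℂˣ) : ℂ)) s ≠ 0 := by
  have h0 : s ≠ 0 := by
    rintro rfl
    rw [Complex.zero_re] at hs
    linarith
  intro h
  apply LK_ne_zero χ hs (Or.inl h1)
  change LF (fun C => ((χ C : ℂˣ) : ℂ)) s = 0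
  rw [LF_eq_div _ h0 h1, h, zero_div]

/-- **The zeros of the completed L-function of a character**, different from `0` and `1`, are in
the critical strip, and are zeros of the L-function. -/
theorem of_XiF_char_eq_zero (χ : ClassGroup (𝓞 K) →* ℂˣ) {s : ℂ} (h0 : s ≠ 0) (h1 : s ≠ 1)
    (h : XiF (fun C => ((χ C : ℂˣ) : ℂ)) s = 0) : 0 < s.re ∧ s.re < 1 ∧ LK χ s = 0 := by
  refine ⟨?_, ?_, ?_⟩
  · by_contra hcon
    rw [not_lt] at hcon
    have h2 := XiF_char_one_sub χ (1 - s)
    rw [sub_sub_cancel, h] at h2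
    have h3 : XiF (fun C => ((χ⁻¹ C : ℂˣ) : ℂ)) (1 - s) ≠ 0 := by
      refine XiF_char_ne_zero χ⁻¹ ?_ ?_
      · rw [Complex.sub_re, Complex.one_re]
        linarith
      · intro h4
        exact h0 (by linear_combination -h4)
    exact mul_ne_zero (χ (diffClass K)).ne_zero h3 h2.symm
  · by_contra hcon
    rw [not_lt] at hcon
    exact XiF_char_ne_zero χ hcon h1 h
  · change LF (fun C => ((χ C : ℂˣ) : ℂ)) s = 0
    rw [LF_eq_div _ h0 h1, h, zero_div]

/-- **Infinitely many zeros in the critical strip**: the L-function of a character of the class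
group. -/
theorem infinite_zeros_LK (χ : ClassGroup (𝓞 K) →* ℂˣ) :
    {s : ℂ | 0 < s.re ∧ s.re < 1 ∧ LK χ s = 0}.Infinite := by
  have h2 := (infinite_zeros_XiF (f := fun C : ClassGroup (𝓞 K) => ((χ C : ℂˣ) : ℂ))
    (χ 1).ne_zero).sdiff (Set.toFinite ({0, 1} : Set ℂ))
  refine h2.mono fun s hs => ?_
  obtain ⟨hs1, hs2⟩ := hs
  rw [Set.mem_insert_iff, Set.mem_singleton_iff, not_or] at hs2
  exact of_XiF_char_eq_zero χ hs2.1 hs2.2 hs1

variable (K) in
/-- **The Dedekind zeta function of every number field has infinitely many zeros in the critical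
strip.** -/
theorem infinite_zeros_zetaK : {s : ℂ | 0 < s.re ∧ s.re < 1 ∧ zetaK K s = 0}.Infinite := by
  have h := infinite_zeros_LK (K := K) 1
  rw [LK_one] at h
  exact h

/-- **The Riemann zeta function has infinitely many zeros in the critical strip.** -/
theorem infinite_zeros_riemannZeta :
    {s : ℂ | 0 < s.re ∧ s.re < 1 ∧ riemannZeta s = 0}.Infinite := by
  refine (infinite_zeros_zetaK ℚ).mono fun s hs => ?_
  obtain ⟨h0, h1, h2⟩ := hs
  have hs1 : s ≠ 1 := by
    rintro rfl
    rw [Complex.one_re] at h1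
    exact lt_irrefl _ h1
  rw [zetaK_rat hs1] at h2
  exact ⟨h0, h1, h2⟩

end Fermat.Agent.Cor

end
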