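import Fermat.Agent.Corollaries.ZetaK.PsiLandau
import Fermat.Agent.Corollaries.Gauss.EulLog

/-!
# Sums of a unitary multiplicative function over the prime ideals

`ψ` completely multiplicative on the nonzero ideals, `|ψ(I)| = 1` or `ψ(I) = 0`. If `L(s, ψ)` has an
entire continuation without zeros on `Re s ≥ 1`, then `∑_{NP ≤ x} ψ(P) = o(x / log x)`.
-/

set_option autoImplicit false
set_option linter.unusedSectionVars false

noncomputable section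

open NumberField nonZeroDivisors Complex Filter Topology

open scoped Classical ComplexConjugate

namespace Fermat.Agent.Cor.Psi

open Fermat.Agent.ClassL Fermat.Agent.Classic.Zeta

universe u

variable {K : Type u} [Field K] [NumberField K]

/-- the conjugate function -/
def cjp (ψ : (Ideal (𝓞 K))⁰ →* ℂ) : (Ideal (𝓞 K))⁰ →* ℂ :=
  ((starRingEnd ℂ : ℂ →+* ℂ) : ℂ →* ℂ).comp ψ

theorem cjp_apply (ψ : (Ideal (𝓞 K))⁰ →* ℂ) (I : (Ideal (𝓞 K))⁰) : cjp ψ I = conj (ψ I) := rfl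

theorem IsUnitary.cjp {ψ : (Ideal (𝓞 K))⁰ →* ℂ} (h : IsUnitary ψ) : IsUnitary (cjp ψ) := by
  intro I
  rw [cjp_apply, Complex.norm_conj, map_eq_zero]
  exact h I

theorem Lp_cjp (ψ : (Ideal (𝓞 K))⁰ →* ℂ) (s : ℂ) : Lp (cjp ψ) s = conj (Lp ψ (conj s)) := by
  rw [Lp, Lp, Complex.conj_tsum]
  refine tsum_congr fun I => ?_
  have h : (Ideal.absNorm (I : Ideal (𝓞 K)) : ℂ).arg ≠ Real.pi := by
    rw [Complex.natCast_arg]
    exact Real.pi_ne_zero.symm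
  rw [map_mul, cjp_apply, ← map_neg, Complex.cpow_conj _ _ h, Complex.conj_conj,
    Complex.conj_natCast]

/-- the Dirichlet series of `vM` -/
theorem hasSum_vMp {c : Pr K → ℕ → ℝ} {s S : ℂ}
    (hS : HasSum (fun q : Pr K × ℕ => ((c q.1 q.2 * Real.log (nP q.1) : ℝ) : ℂ) *
      ((nP q.1 ^ (q.2 + 1) : ℕ) : ℂ) ^ (-s)) S) :
    LSeriesSummable (fun n => (vM (nP (K := K)) c n : ℂ)) s ∧
      LSeries (fun n => (vM (nP (K := K)) c n : ℂ)) s = S := by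
  have hN : ∀ q : Pr K × ℕ, nP q.1 ^ (q.2 + 1) ≠ 0 := fun q => pow_ne_zero _ (nP_pos q.1).ne'
  have h1 := Gauss.hasSum_fib (N := fun q : Pr K × ℕ => nP q.1 ^ (q.2 + 1)) hN hS.summable
  have e : Gauss.fib (fun q : Pr K × ℕ => nP q.1 ^ (q.2 + 1))
      (fun q : Pr K × ℕ => ((c q.1 q.2 * Real.log (nP q.1) : ℝ) : ℂ)) =
      fun n => (vM (nP (K := K)) c n : ℂ) := by
    ext n
    rw [Gauss.fib, vM, Complex.ofReal_tsum]
  rw [e, hS.tsum_eq] at h1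
  exact ⟨h1.summable, h1.tsum_eq⟩

/-- the weight `(1 + Re (u ψ(P)^(k + 1))) / 2` -/
def wtP (ψ : (Ideal (𝓞 K))⁰ →* ℂ) (u : ℂ) (P : Pr K) (k : ℕ) : ℝ :=
  (1 + (u * ψ P.1 ^ (k + 1)).re) / 2

theorem abs_re_wtP {ψ : (Ideal (𝓞 K))⁰ →* ℂ} (hψ : IsUnitary ψ) {u : ℂ} (hu : ‖u‖ = 1) (P : Pr K)
    (k : ℕ) : |(u * ψ P.1 ^ (k + 1)).re| ≤ 1 := by
  refine (Complex.abs_re_le_norm _).trans ?_
  rw [norm_mul, hu, norm_pow, one_mul]
  exact pow_le_one₀ (norm_nonneg _) (hψ.le _)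

theorem wtP_nonneg {ψ : (Ideal (𝓞 K))⁰ →* ℂ} (hψ : IsUnitary ψ) {u : ℂ} (hu : ‖u‖ = 1) (P : Pr K)
    (k : ℕ) : 0 ≤ wtP ψ u P k := by
  have := neg_le_of_abs_le (abs_re_wtP hψ hu P k)
  rw [wtP]
  linarith

theorem wtP_le_one {ψ : (Ideal (𝓞 K))⁰ →* ℂ} (hψ : IsUnitary ψ) {u : ℂ} (hu : ‖u‖ = 1) (P : Pr K)
    (k : ℕ) : wtP ψ u P k ≤ 1 := by
  have := le_of_abs_le (abs_re_wtP hψ hu P k)
  rw [wtP]
  linarith

theorem wtP_eq (ψ : (Ideal (𝓞 K))⁰ →* ℂ) (u : ℂ) (P : Pr K) (k : ℕ) : ((wtP ψ u P k : ℝ) : ℂ) =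
    1 / 2 * (1 : (Ideal (𝓞 K))⁰ →* ℂ) P.1 ^ (k + 1) + u / 4 * ψ P.1 ^ (k + 1) +
      conj u / 4 * cjp ψ P.1 ^ (k + 1) := by
  rw [wtP, MonoidHom.one_apply, one_pow, cjp_apply]
  push_cast
  rw [Complex.re_eq_add_conj, map_mul, map_pow]
  ring

theorem hasSum_wtP {ψ : (Ideal (𝓞 K))⁰ →* ℂ} (hψ : IsUnitary ψ) (u : ℂ) {s : ℂ} (hs : 1 < s.re) :
    HasSum (fun q : Pr K × ℕ => ((wtP ψ u q.1 q.2 * Real.log (nP q.1) : ℝ) : ℂ) *
      ((nP q.1 ^ (q.2 + 1) : ℕ) : ℂ) ^ (-s))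
      (1 / 2 * -(deriv (Lp (1 : (Ideal (𝓞 K))⁰ →* ℂ)) s / Lp (1 : (Ideal (𝓞 K))⁰ →* ℂ) s) +
        u / 4 * -(deriv (Lp ψ) s / Lp ψ s) +
        conj u / 4 * -(deriv (Lp (cjp ψ)) s / Lp (cjp ψ) s)) := by
  have h1 := (((hasSum_vmp (isUnitary_one (K := K)).le hs).mul_left (1 / 2)).add
    ((hasSum_vmp hψ.le hs).mul_left (u / 4))).add ((hasSum_vmp hψ.cjp.le hs).mul_left (conj u / 4))
  have e : (fun q : Pr K × ℕ => ((wtP ψ u q.1 q.2 * Real.log (nP q.1) : ℝ) : ℂ) *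
      ((nP q.1 ^ (q.2 + 1) : ℕ) : ℂ) ^ (-s)) = fun q : Pr K × ℕ =>
      1 / 2 * vmp (1 : (Ideal (𝓞 K))⁰ →* ℂ) s q + u / 4 * vmp ψ s q +
        conj u / 4 * vmp (cjp ψ) s q := by
    funext q
    rw [vmp_eq', vmp_eq', vmp_eq', Complex.ofReal_mul, wtP_eq]
    ring
  rw [e]
  exact h1

/-- `(s - 1) ζ_K(s)` -/
theorem exists_W_one : ∃ W : ℂ → ℂ, Differentiable ℂ W ∧ (∀ s : ℂ, 1 ≤ s.re → W s ≠ 0) ∧
    ∀ s : ℂ, 1 < s.re →
      -(deriv (Lp (1 : (Ideal (𝓞 K))⁰ →* ℂ)) s / Lp (1 : (Ideal (𝓞 K))⁰ →* ℂ) s) =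
        -(deriv W s / W s) + 1 / (s - 1) := by
  have hone : ∀ χ : Unit →* ℂˣ, χ = 1 := fun χ => MonoidHom.ext fun u => map_one χ
  have hfin : {P : Pr K | (1 : (Ideal (𝓞 K))⁰ →* WithZero Unit) P.1 = 0}.Finite := by
    have : {P : Pr K | (1 : (Ideal (𝓞 K))⁰ →* WithZero Unit) P.1 = 0} = ∅ := by
      ext P
      simp
    rw [this]
    exact Set.finite_empty
  obtain ⟨W, h1, h2, h3⟩ := exists_W (cl := (1 : (Ideal (𝓞 K))⁰ →* WithZero Unit)) hfin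
    (L := fun _ _ => 0) (fun χ hχ => absurd (hone χ) hχ) (fun χ hχ => absurd (hone χ) hχ) 1
  have h4 : psi (1 : (Ideal (𝓞 K))⁰ →* WithZero Unit) 1 = 1 := by
    ext I
    rw [psi, MonoidHom.comp_apply, MonoidHom.one_apply, map_one, MonoidHom.one_apply]
  rw [h4] at h3
  refine ⟨W, h1, h2, fun s hs => ?_⟩
  rw [h3 s hs, if_pos rfl]

/-- the logarithmic derivative of a continuation -/
theorem logDeriv_eq {ψ : (Ideal (𝓞 K))⁰ →* ℂ} {L : ℂ → ℂ} (hL : ∀ s : ℂ, 1 < s.re → L s = Lp ψ s)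
    {s : ℂ} (hs : 1 < s.re) : -(deriv (Lp ψ) s / Lp ψ s) = -(deriv L s / L s) := by
  have hU : IsOpen {w : ℂ | 1 < w.re} := isOpen_lt continuous_const Complex.continuous_re
  have h3 : Lp ψ =ᶠ[𝓝 s] L := by
    filter_upwards [hU.mem_nhds hs] with w hw
    exact (hL w hw).symm
  rw [h3.deriv_eq, h3.eq_of_nhds]

section Main

variable {ψ : (Ideal (𝓞 K))⁰ →* ℂ} (hψ : IsUnitary ψ) {L : ℂ → ℂ} (hd : Differentiable ℂ L)
  (hL : ∀ s : ℂ, 1 < s.re → L s = Lp ψ s) (h0 : ∀ s : ℂ, 1 ≤ s.re → L s ≠ 0)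

include hψ hd hL h0

theorem tendsto_psi_wtP {u : ℂ} (hu : ‖u‖ = 1) :
    Tendsto (fun x : ℝ => (∑ n ∈ Finset.Icc 1 ⌊x⌋₊, vM (nP (K := K)) (wtP ψ u) n) / x) atTop
      (𝓝 (1 / 2)) := by
  obtain ⟨W, hW1, hW2, hW3⟩ := exists_W_one (K := K)
  set L' : ℂ → ℂ := fun s => conj (L (conj s)) with hL'
  have hd' : Differentiable ℂ L' := fun s => by
    have h := (hd (conj s)).conj_conj
    rwa [Complex.conj_conj] at h
  have hLc : ∀ s : ℂ, 1 < s.re → L' s = Lp (cjp ψ) s := fun s hs => by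
    rw [hL', Lp_cjp]
    beta_reduce
    rw [hL _ (by rwa [Complex.conj_re])]
  have h0' : ∀ s : ℂ, 1 ≤ s.re → L' s ≠ 0 := fun s hs => by
    rw [hL']
    beta_reduce
    rw [Ne, map_eq_zero]
    exact h0 _ (by rwa [Complex.conj_re])
  have hcont : ∀ {F : ℂ → ℂ}, Differentiable ℂ F → (∀ s : ℂ, 1 ≤ s.re → F s ≠ 0) →
      ContinuousOn (fun s => -(deriv F s / F s)) {s : ℂ | 1 ≤ s.re} := fun {F} hF hF0 =>
    (ContinuousOn.div ((hF.contDiff (n := 1)).continuous_deriv le_rfl).continuousOn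
      hF.continuous.continuousOn hF0).neg
  refine wiener_ikehara (G := fun s => 1 / 2 * -(deriv W s / W s) +
    u / 4 * -(deriv L s / L s) + conj u / 4 * -(deriv L' s / L' s)) (fun n => ?_)
    (fun s hs => (hasSum_vMp (hasSum_wtP hψ u hs)).1) ?_ ?_
  · exact tsum_nonneg fun q => mul_nonneg (wtP_nonneg hψ hu _ _) (log_nP_nonneg _)
  · exact ((continuousOn_const.mul (hcont hW1 hW2)).add
      (continuousOn_const.mul (hcont hd h0))).add (continuousOn_const.mul (hcont hd' h0'))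
  · intro s hs
    rw [(hasSum_vMp (hasSum_wtP hψ u hs)).2, hW3 s hs, logDeriv_eq hL hs, logDeriv_eq hLc hs]
    push_cast
    ring

/-- **The prime number theorem for `ψ`**: `∑_{NP ≤ x} ψ(P) = o(x / log x)`. -/
theorem tendsto_sum_primes :
    Tendsto (fun x : ℕ => (((Real.log x / x : ℝ)) : ℂ) *
      ∑' P : {P : Pr K // Ideal.absNorm ((P.1 : (Ideal (𝓞 K))⁰) : Ideal (𝓞 K)) ≤ x},
        ψ P.1.1) atTop (𝓝 0) := by
  obtain ⟨D, hD⟩ := exists_isCount K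
  have hre : ∀ {u : ℂ}, ‖u‖ = 1 → Tendsto (fun x : ℕ =>
      (u * ∑ P ∈ hD.F x, ψ P.1).re * Real.log x / x) atTop (𝓝 0) := by
    intro u hu
    have h1 := (hD.tendsto_cnt (c := wtP ψ u) (wtP_nonneg hψ hu) (wtP_le_one hψ hu)
      (tendsto_psi_wtP hψ hd hL h0 hu)).comp tendsto_natCast_atTop_atTop
    have hu' : ‖-u‖ = 1 := by rwa [norm_neg]
    have h2 := (hD.tendsto_cnt (c := wtP ψ (-u)) (wtP_nonneg hψ hu') (wtP_le_one hψ hu')
      (tendsto_psi_wtP hψ hd hL h0 hu')).comp tendsto_natCast_atTop_atTop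
    have h3 := h1.sub h2
    rw [sub_self] at h3
    refine h3.congr fun x => ?_
    have h4 : ∀ v : ℂ, hD.cnt (wtP ψ v) ⌊(x : ℝ)⌋₊ =
        ∑ P ∈ hD.F x, (1 + (v * ψ P.1).re) / 2 := fun v => by
      rw [Nat.floor_natCast, IsCount.cnt]
      refine Finset.sum_congr rfl fun P _ => ?_
      rw [wtP, zero_add, pow_one]
    change hD.cnt (wtP ψ u) ⌊(x : ℝ)⌋₊ * Real.log x / x -
      hD.cnt (wtP ψ (-u)) ⌊(x : ℝ)⌋₊ * Real.log x / x = _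
    rw [h4, h4, ← sub_div, ← sub_mul, ← Finset.sum_sub_distrib, Finset.mul_sum, Complex.re_sum]
    congr 2
    refine Finset.sum_congr rfl fun P _ => ?_
    rw [neg_mul, Complex.neg_re]
    ring
  have h1 := hre (u := 1) (by simp)
  have h2 := hre (u := -I) (by simp)
  have h3 : Tendsto (fun x : ℕ => ((((1 : ℂ) * ∑ P ∈ hD.F x, ψ P.1).re * Real.log x / x : ℝ) : ℂ)
      + (((-I * ∑ P ∈ hD.F x, ψ P.1).re * Real.log x / x : ℝ) : ℂ) * I) atTop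
      (𝓝 (((0 : ℝ) : ℂ) + ((0 : ℝ) : ℂ) * I)) :=
    ((Complex.continuous_ofReal.tendsto 0).comp h1).add
      (((Complex.continuous_ofReal.tendsto 0).comp h2).mul_const I)
  rw [Complex.ofReal_zero, zero_mul, add_zero] at h3
  refine h3.congr fun x => ?_
  have h4 : ∑' P : {P : Pr K // Ideal.absNorm ((P.1 : (Ideal (𝓞 K))⁰) : Ideal (𝓞 K)) ≤ x},
      ψ P.1.1 = ∑ P ∈ hD.F x, ψ P.1 := by
    have h5 : {P : Pr K | Ideal.absNorm ((P.1 : (Ideal (𝓞 K))⁰) : Ideal (𝓞 K)) ≤ x} =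
        (hD.F x : Set (Pr K)) := Set.ext fun P => hD.mem_F.symm
    exact (tsum_congr_set_coe (fun P : Pr K => ψ P.1) h5).trans
      (Finset.tsum_subtype' (hD.F x) fun P : Pr K => ψ P.1)
  rw [h4]
  set z : ℂ := ∑ P ∈ hD.F x, ψ P.1 with hz
  have h5 : (-I * z).re = z.im := by simp
  rw [one_mul, h5]
  conv_rhs => rw [← Complex.re_add_im z]
  push_cast
  ring

end Main

end Fermat.Agent.Cor.Psi

end
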