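import Fermat.Agent.Corollaries.ZetaK.ClassDensity
import Fermat.Agent.Corollaries.ZetaK.QuadForm

/-!
# The natural density of the primes represented by a binary quadratic form

`f = a x² + b x y + c y²` of fundamental discriminant `D`, `h` the class number of `ℚ(√D)`: the
number of the primes `p ≤ x` represented by `f` up to sign is asymptotic to `(1 / h) x / log x`,
resp. to `(1 / 2h) x / log x` if the class of the ideal `(a, (-b + √D) / 2)` has order at most two
(de la Vallée-Poussin, Landau). In particular the primes of the form `x² + n y²`, `n` squarefree,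
`n % 4 ≠ 3`, have the natural density `1 / 2h`.
-/

set_option autoImplicit false

noncomputable section

namespace Fermat.Agent.Cor

open NumberField Filter Topology Fermat.Agent.ClassL Module
open scoped nonZeroDivisors

variable {a b c : ℤ}

section Field

variable [hF : Fact (∀ r : ℚ, r ^ 2 ≠ -((a : ℚ) * c) + -(b : ℚ) * r)]

omit hF in
theorem finrank_QF : finrank ℚ (QF a b c) = 2 :=
  QuadraticAlgebra.finrank_eq_two _ _

theorem idealQ_ne_bot (hD : IsFundDiscr (b ^ 2 - 4 * a * c)) : idealQ a b c ≠ ⊥ := by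
  intro h
  have h1 := absNorm_idealQ hD
  rw [h, Ideal.absNorm_bot] at h1
  exact hD.left_ne_zero (Int.natAbs_eq_zero.mp h1.symm)

variable (a b c) in
/-- the ideal `(a, θ)` as an element of the monoid of the non-zero ideals -/
def idealQ₀ (hD : IsFundDiscr (b ^ 2 - 4 * a * c)) : (Ideal (𝓞 (QF a b c)))⁰ :=
  ⟨idealQ a b c, mem_nonZeroDivisors_of_ne_zero (idealQ_ne_bot hD)⟩

theorem quadForm_iff (hD : IsFundDiscr (b ^ 2 - 4 * a * c)) (p : ℕ) :
    (∃ x y : ℤ, |a * x ^ 2 + b * x * y + c * y ^ 2| = p) ↔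
      ∃ α ∈ idealQ a b c, (Algebra.norm ℤ α).natAbs = p * Ideal.absNorm (idealQ a b c) := by
  have ha := hD.left_ne_zero
  rw [absNorm_idealQ hD]
  constructor
  · rintro ⟨x, y, h⟩
    refine ⟨((x * a : ℤ) : 𝓞 (QF a b c)) + ((-y : ℤ) : 𝓞 (QF a b c)) * thetaQ a b c, ?_, ?_⟩
    · refine Ideal.add_mem _ ((intCast_mem_idealQ hD).mpr (Dvd.intro_left x rfl))
        (Ideal.mul_mem_left _ _ thetaQ_mem)
    · rw [norm_comb, Int.natAbs_mul, mul_comm]
      congr 1
      rw [← Int.natCast_inj, Int.natCast_natAbs, ← h]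
      congr 1
      ring
  · rintro ⟨α, hα, hN⟩
    obtain ⟨x, y, rfl⟩ := exists_of_mem_idealQ hD hα
    rw [norm_comb, Int.natAbs_mul, mul_comm] at hN
    have h1 := Nat.eq_of_mul_eq_mul_right (Int.natAbs_pos.mpr ha) hN
    refine ⟨x, -y, ?_⟩
    rw [← h1, Int.natCast_natAbs]
    congr 1
    ring

/-- **The natural density of the primes represented by a binary quadratic form of fundamental
discriminant** (up to sign). -/
theorem density_quadForm (hD : IsFundDiscr (b ^ 2 - 4 * a * c)) :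
    Tendsto (fun x : ℕ => (Nat.card {p : ℕ // p ≤ x ∧ p.Prime ∧
        ∃ u v : ℤ, |a * u ^ 2 + b * u * v + c * v ^ 2| = p} : ℝ) * Real.log x / x) atTop
      (𝓝 (1 / (qdWeight (idealQ₀ a b c hD) * Nat.card (ClassGroup (𝓞 (QF a b c)))))) := by
  refine (density_norm_form finrank_QF (idealQ₀ a b c hD)).congr fun x => ?_
  congr 3
  refine Nat.card_congr (Equiv.subtypeEquivRight fun p => ?_)
  refine and_congr_right fun _ => and_congr_right fun _ => ?_
  exact (quadForm_iff hD p).symm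

/-- **The natural density of the primes represented by a positive definite binary quadratic form
of fundamental discriminant.** -/
theorem density_posDef (ha : 0 < a) (hneg : b ^ 2 - 4 * a * c < 0)
    (hD : IsFundDiscr (b ^ 2 - 4 * a * c)) :
    Tendsto (fun x : ℕ => (Nat.card {p : ℕ // p ≤ x ∧ p.Prime ∧
        ∃ u v : ℤ, a * u ^ 2 + b * u * v + c * v ^ 2 = p} : ℝ) * Real.log x / x) atTop
      (𝓝 (1 / (qdWeight (idealQ₀ a b c hD) * Nat.card (ClassGroup (𝓞 (QF a b c)))))) := by
  refine (density_quadForm hD).congr fun x => ?_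
  congr 3
  refine Nat.card_congr (Equiv.subtypeEquivRight fun p => ?_)
  refine and_congr_right fun _ => and_congr_right fun _ => exists_congr fun u =>
    exists_congr fun v => ?_
  rw [abs_of_nonneg]
  have h1 : 4 * a * (a * u ^ 2 + b * u * v + c * v ^ 2) =
      (2 * a * u + b * v) ^ 2 + -(b ^ 2 - 4 * a * c) * v ^ 2 := by ring
  have h2 : 0 ≤ 4 * a * (a * u ^ 2 + b * u * v + c * v ^ 2) := by
    rw [h1]
    exact add_nonneg (sq_nonneg _) (mul_nonneg (by linarith) (sq_nonneg _))
  exact nonneg_of_mul_nonneg_right h2 (by linarith)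

end Field

/-- the ideal of a form which represents `1` by its first coefficient is trivial -/
theorem qdWeight_one {b c : ℤ} [Fact (∀ r : ℚ, r ^ 2 ≠ -(((1 : ℤ) : ℚ) * c) + -(b : ℚ) * r)]
    (hD : IsFundDiscr (b ^ 2 - 4 * 1 * c)) : qdWeight (idealQ₀ 1 b c hD) = 2 := by
  have h1 : idealQ₀ 1 b c hD = 1 := by
    apply Subtype.ext
    change idealQ 1 b c = 1
    rw [Ideal.one_eq_top, Ideal.eq_top_iff_one]
    have h2 := (intCast_mem_idealQ (n := 1) hD).mpr (one_dvd _)
    rwa [Int.cast_one (R := 𝓞 (QF 1 b c))] at h2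
  rw [qdWeight, if_pos]
  rw [h1, map_one, one_pow]

/-- `-n` is not a square -/
theorem isFundDiscr_neg_four_mul {n : ℕ} (hn : Squarefree n) (h4 : n % 4 ≠ 3) :
    IsFundDiscr ((0 : ℤ) ^ 2 - 4 * 1 * (n : ℤ)) := by
  have h04 : n % 4 ≠ 0 := by
    intro h
    have h1 : 2 * 2 ∣ n := by omega
    have h2 : IsUnit 2 := hn 2 h1
    exact absurd (Nat.isUnit_iff.mp h2) (by norm_num)
  refine Or.inr ⟨-(n : ℤ), by ring, by omega, ?_⟩
  rw [← Int.squarefree_natAbs, Int.natAbs_neg, Int.natAbs_natCast]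
  exact hn

/-! ### Any quadratic field -/

/-- a quadratic field which contains a square root of `b² - 4 a c` is isomorphic to
`QF a b c` -/
theorem exists_ringEquiv_QF [Fact (∀ r : ℚ, r ^ 2 ≠ -((a : ℚ) * c) + -(b : ℚ) * r)]
    {K : Type*} [Field K] [NumberField K] (h2 : finrank ℚ K = 2) {δ : K}
    (hδ : δ ^ 2 = ((b ^ 2 - 4 * a * c : ℤ) : K)) : Nonempty (QF a b c ≃+* K) := by
  let u : K := (δ - b) / 2
  have hu : u * u = (-((a : ℚ) * c)) • (1 : K) + (-(b : ℚ)) • u := by
    rw [Algebra.smul_def, Algebra.smul_def, mul_one]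
    push_cast at hδ
    simp only [map_neg, map_mul, map_intCast]
    have h3 : (2 : K) ≠ 0 := two_ne_zero
    simp only [u]
    field_simp
    linear_combination hδ
  let φ : QF a b c →ₐ[ℚ] K := QuadraticAlgebra.lift ⟨u, hu⟩
  have hinj : Function.Injective φ := φ.toRingHom.injective
  have hsurj : Function.Surjective φ :=
    (LinearMap.injective_iff_surjective_of_finrank_eq_finrank (f := φ.toLinearMap)
      (finrank_QF.trans h2.symm)).mp hinj
  exact ⟨RingEquiv.ofBijective φ ⟨hinj, hsurj⟩⟩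

theorem natCard_classGroup_of_ringEquiv {K L : Type*} [Field K] [NumberField K] [Field L]
    [NumberField L] (e : K ≃+* L) :
    Nat.card (ClassGroup (𝓞 K)) = Nat.card (ClassGroup (𝓞 L)) :=
  Nat.card_congr (ClassGroup.mulEquiv (RingOfIntegers.mapRingEquiv e)).toEquiv

/-- **The natural density of the primes `x² + n y²`**, `n` squarefree, `n % 4 ≠ 3`, is `1 / 2h`,
`h` the class number of `ℚ(√-n)`. -/
theorem density_sq_add_mul_sq {n : ℕ} (hn : Squarefree n) (h4 : n % 4 ≠ 3)
    {K : Type*} [Field K] [NumberField K] (h2 : finrank ℚ K = 2) {δ : K}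
    (hδ : δ ^ 2 = -(n : K)) :
    Tendsto (fun x : ℕ => (Nat.card {p : ℕ // p ≤ x ∧ p.Prime ∧
        ∃ u v : ℕ, p = u ^ 2 + n * v ^ 2} : ℝ) * Real.log x / x) atTop
      (𝓝 (1 / (2 * classNumber K))) := by
  have hD := isFundDiscr_neg_four_mul hn h4
  have hn0 : 0 < n := hn.ne_zero.bot_lt
  have : Fact (∀ r : ℚ, r ^ 2 ≠ -(((1 : ℤ) : ℚ) * ((n : ℤ) : ℚ)) + -((0 : ℤ) : ℚ) * r) :=
    fact_of_not_isSquare hD.not_isSquare
  obtain ⟨e⟩ := exists_ringEquiv_QF (a := 1) (b := 0) (c := (n : ℤ)) h2 (δ := 2 * δ) (by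
    rw [mul_pow, hδ]; push_cast; ring)
  have h := density_posDef (a := 1) (b := 0) (c := (n : ℤ)) one_pos (by omega) hD
  rw [qdWeight_one hD, natCard_classGroup_of_ringEquiv e, Nat.card_eq_fintype_card,
    ← classNumber] at h
  refine h.congr fun x => ?_
  congr 3
  refine Nat.card_congr (Equiv.subtypeEquivRight fun p => ?_)
  refine and_congr_right fun _ => and_congr_right fun _ => ⟨?_, ?_⟩
  · rintro ⟨u, v, huv⟩
    refine ⟨u.natAbs, v.natAbs, ?_⟩
    have h1 : (p : ℤ) = (u.natAbs : ℤ) ^ 2 + (n : ℤ) * (v.natAbs : ℤ) ^ 2 := by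
      rw [Int.natAbs_sq, Int.natAbs_sq, ← huv]
      ring
    exact_mod_cast h1
  · rintro ⟨u, v, rfl⟩
    exact ⟨u, v, by push_cast; ring⟩

end Fermat.Agent.Cor
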