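import Fermat.Agent.ClassL.Euler

/-!
# Euler products over the prime ideals

* `exp_tsum_log` : for a completely multiplicative `f` on the non-zero ideals with `∑ ‖f I‖ < ∞`:
  `exp (∑_P -log (1 - f P)) = ∑_I f I`, the sum over the primes being absolutely convergent;
* `chiHom χ s` : `I ↦ χ(I) N(I)^{-s}` for a character `χ` of the class group;
  `exp_tsum_log_chi`, `tsum_chi_ne_zero` : its Euler product, for `Re s > 1`.
-/

set_option autoImplicit false
set_option linter.unusedSectionVars false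

noncomputable section

open NumberField nonZeroDivisors Complex Filter Topology

open scoped Classical

namespace Fermat.Agent.Cor

open Fermat.Agent.ClassL

variable {K : Type*} [Field K] [NumberField K]

/-! ### Completely multiplicative functions -/

section General

variable {f : (Ideal (𝓞 K))⁰ →* ℂ}

theorem norm_prime_lt_one (hf : Summable fun I => ‖f I‖) (P : Pr K) : ‖f P.1‖ < 1 := by
  have hinj : Function.Injective fun n : ℕ => P.1 ^ n := by
    intro m n h
    have h1 : (P.1 : Ideal (𝓞 K)) ^ m = (P.1 : Ideal (𝓞 K)) ^ n := by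
      have := congrArg (fun I : (Ideal (𝓞 K))⁰ => (I : Ideal (𝓞 K))) h
      simpa using this
    have hP := P.2
    rcases lt_trichotomy m n with hlt | heq | hgt
    · exact absurd (Ideal.IsPrime.ne_top (Ideal.isPrime_of_prime hP)) fun hne =>
        (Ideal.pow_right_strictAnti (P.1 : Ideal (𝓞 K)) hP.ne_zero hne hlt).ne' h1
    · exact heq
    · exact absurd (Ideal.IsPrime.ne_top (Ideal.isPrime_of_prime hP)) fun hne =>
        (Ideal.pow_right_strictAnti (P.1 : Ideal (𝓞 K)) hP.ne_zero hne hgt).ne h1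
  have h1 : Summable fun n : ℕ => ‖f P.1‖ ^ n := by
    have := hf.comp_injective hinj
    refine this.congr fun n => ?_
    simp only [Function.comp_apply, map_pow, norm_pow]
  by_contra hge
  rw [not_lt] at hge
  have h2 := h1.tendsto_atTop_zero
  have h3 : ∀ n : ℕ, 1 ≤ ‖f P.1‖ ^ n := fun n => one_le_pow₀ hge
  have h4 := ge_of_tendsto h2 (Eventually.of_forall h3)
  linarith

theorem one_sub_ne_zero (hf : Summable fun I => ‖f I‖) (P : Pr K) : 1 - f P.1 ≠ 0 := by
  intro h
  have h1 := norm_prime_lt_one hf P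
  rw [← sub_eq_zero.mp h, norm_one] at h1
  exact lt_irrefl _ h1


theorem summable_pr (hf : Summable fun I => ‖f I‖) : Summable fun P : Pr K => f P.1 :=
  (hf.of_norm).comp_injective Subtype.val_injective

/-- The logarithms of the Euler factors are absolutely summable. -/
theorem summable_log (hf : Summable fun I => ‖f I‖) :
    Summable fun P : Pr K => -Complex.log (1 - f P.1) := by
  have h := Complex.summable_log_one_add_of_summable (summable_pr hf).neg
  refine h.neg.congr fun P => ?_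
  rw [← sub_eq_add_neg]

/-- **Euler product** in exponential form. -/
theorem exp_tsum_log (hf : Summable fun I => ‖f I‖) :
    Complex.exp (∑' P : Pr K, -Complex.log (1 - f P.1)) = ∑' I, f I := by
  have h1 : Tendsto (fun T : Finset (Pr K) => ∏ P ∈ T, (1 - f P.1)) atTop
      (𝓝 (Complex.exp (∑' P : Pr K, -Complex.log (1 - f P.1)))⁻¹) := by
    have h2 : Tendsto (fun T : Finset (Pr K) =>
        Complex.exp (∑ P ∈ T, -Complex.log (1 - f P.1))) atTop
        (𝓝 (Complex.exp (∑' P : Pr K, -Complex.log (1 - f P.1)))) :=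
      (Complex.continuous_exp.tendsto _).comp (summable_log hf).hasSum
    refine (h2.inv₀ (Complex.exp_ne_zero _)).congr fun T => ?_
    rw [Complex.exp_sum, ← Finset.prod_inv_distrib]
    refine Finset.prod_congr rfl fun P _ => ?_
    rw [Complex.exp_neg, inv_inv, Complex.exp_log (one_sub_ne_zero hf P)]
  have h3 := tendsto_nhds_unique (h1.mul_const (∑' I, f I)) (tendsto_prod hf)
  have h4 := Complex.exp_ne_zero (∑' P : Pr K, -Complex.log (1 - f P.1))
  field_simp at h3
  exact h3.symm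

theorem tsum_ne_zero (hf : Summable fun I => ‖f I‖) : ∑' I, f I ≠ 0 := by
  rw [← exp_tsum_log hf]
  exact Complex.exp_ne_zero _

end General

/-! ### Characters of the class group -/

/-- `I ↦ χ(I) N(I)^{-s}` -/
def chiHom (χ : ClassGroup (𝓞 K) →* ℂˣ) (s : ℂ) : (Ideal (𝓞 K))⁰ →* ℂ where
  toFun I := (χ (ClassGroup.mk0 I) : ℂ) * (Ideal.absNorm (I : Ideal (𝓞 K)) : ℂ) ^ (-s)
  map_one' := by
    rw [map_one, map_one, Units.val_one, one_mul]
    simp
  map_mul' I J := by
    rw [map_mul, map_mul, Units.val_mul, Submonoid.coe_mul, map_mul, Nat.cast_mul,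
      Complex.natCast_mul_natCast_cpow]
    ring

theorem chiHom_apply (χ : ClassGroup (𝓞 K) →* ℂˣ) (s : ℂ) (I : (Ideal (𝓞 K))⁰) :
    chiHom χ s I =
      (χ (ClassGroup.mk0 I) : ℂ) * (Ideal.absNorm (I : Ideal (𝓞 K)) : ℂ) ^ (-s) := rfl

theorem norm_chi (χ : ClassGroup (𝓞 K) →* ℂˣ) (C : ClassGroup (𝓞 K)) : ‖(χ C : ℂ)‖ = 1 := by
  have h : (χ C : ℂ) ^ Fintype.card (ClassGroup (𝓞 K)) = 1 := by
    rw [← Units.val_pow_eq_pow_val, ← map_pow, pow_card_eq_one, map_one, Units.val_one]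
  exact Complex.norm_eq_one_of_pow_eq_one h Fintype.card_ne_zero

theorem norm_chiHom (χ : ClassGroup (𝓞 K) →* ℂˣ) (s : ℂ) (I : (Ideal (𝓞 K))⁰) :
    ‖chiHom χ s I‖ = nrm s.re I := by
  rw [chiHom_apply, norm_mul, norm_chi, one_mul,
    Complex.norm_natCast_cpow_of_pos (Ideal.absNorm_pos_of_nonZeroDivisors I), neg_re, nrm]

theorem summable_norm_chiHom (χ : ClassGroup (𝓞 K) →* ℂˣ) {s : ℂ} (hs : 1 < s.re) :
    Summable fun I => ‖chiHom χ s I‖ := by
  simp only [norm_chiHom]
  exact summable_nrm hs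

/-- The logarithms of the Euler factors are absolutely summable for `Re s > 1`. -/
theorem summable_log_chi (χ : ClassGroup (𝓞 K) →* ℂˣ) {s : ℂ} (hs : 1 < s.re) :
    Summable fun P : Pr K => -Complex.log (1 - chiHom χ s P.1) :=
  summable_log (summable_norm_chiHom χ hs)

/-- **Euler product of `L(s, χ)`**, exponential form. -/
theorem exp_tsum_log_chi (χ : ClassGroup (𝓞 K) →* ℂˣ) {s : ℂ} (hs : 1 < s.re) :
    Complex.exp (∑' P : Pr K, -Complex.log (1 - chiHom χ s P.1)) =
      ∑' I : (Ideal (𝓞 K))⁰,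
        (χ (ClassGroup.mk0 I) : ℂ) * (Ideal.absNorm (I : Ideal (𝓞 K)) : ℂ) ^ (-s) :=
  exp_tsum_log (summable_norm_chiHom χ hs)

/-- **Euler product of `L(s, χ)`**, with the factors written out. -/
theorem exp_tsum_log_chi' (χ : ClassGroup (𝓞 K) →* ℂˣ) {s : ℂ} (hs : 1 < s.re) :
    Complex.exp (∑' P : Pr K, -Complex.log (1 - (χ (ClassGroup.mk0 P.1) : ℂ) *
      (Ideal.absNorm (P.1 : Ideal (𝓞 K)) : ℂ) ^ (-s))) =
      ∑' I : (Ideal (𝓞 K))⁰,
        (χ (ClassGroup.mk0 I) : ℂ) * (Ideal.absNorm (I : Ideal (𝓞 K)) : ℂ) ^ (-s) :=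
  exp_tsum_log_chi χ hs

/-- **Euler product of the Dedekind zeta function**, exponential form. -/
theorem exp_tsum_log_one {s : ℂ} (hs : 1 < s.re) :
    Complex.exp (∑' P : Pr K, -Complex.log (1 -
      (Ideal.absNorm (P.1 : Ideal (𝓞 K)) : ℂ) ^ (-s))) =
      ∑' I : (Ideal (𝓞 K))⁰, (Ideal.absNorm (I : Ideal (𝓞 K)) : ℂ) ^ (-s) := by
  have h := exp_tsum_log_chi' (K := K) 1 hs
  simpa only [MonoidHom.one_apply, Units.val_one, one_mul] using h

theorem summable_pr_rpow {s : ℝ} (hs : 1 < s) :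
    Summable fun P : Pr K => (Ideal.absNorm (P.1 : Ideal (𝓞 K)) : ℝ) ^ (-s) :=
  (summable_nrm hs).comp_injective Subtype.val_injective

theorem two_le_absNorm (P : Pr K) : 2 ≤ Ideal.absNorm (P.1 : Ideal (𝓞 K)) := by
  have h0 : Ideal.absNorm (P.1 : Ideal (𝓞 K)) ≠ 0 :=
    (Ideal.absNorm_pos_of_nonZeroDivisors P.1).ne'
  have h1 : Ideal.absNorm (P.1 : Ideal (𝓞 K)) ≠ 1 := fun h =>
    (Ideal.isPrime_of_prime P.2).ne_top (Ideal.absNorm_eq_one_iff.mp h)
  omega

theorem tsum_chi_ne_zero (χ : ClassGroup (𝓞 K) →* ℂˣ) {s : ℂ} (hs : 1 < s.re) :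
    ∑' I : (Ideal (𝓞 K))⁰,
      (χ (ClassGroup.mk0 I) : ℂ) * (Ideal.absNorm (I : Ideal (𝓞 K)) : ℂ) ^ (-s) ≠ 0 :=
  tsum_ne_zero (summable_norm_chiHom χ hs)

end Fermat.Agent.Cor

end
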