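import Fermat.Agent.Corollaries.ZetaK.DirFactor
import Fermat.Agent.Corollaries.ZetaK.LEuler
import Fermat.Agent.Classic.Zeta.ZetaSum

/-!
# Dedekind zeta functions as products of Dirichlet `L`-functions

`dedekindZeta_eq_prod`: `F` a number field, `Y` a group of Dirichlet characters modulo `n`; if for
every prime `p` the primes of `F` above `p` have norm `p ^ f` and their number is `|Y_p| / f`
(notation of `DirFactor`), then `ζ_F(s) = ∏_{χ ∈ Y} L(s, χ*)` for `Re s > 1`.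
-/

set_option autoImplicit false

noncomputable section

open Complex Finset DirichletCharacter NumberField nonZeroDivisors Filter Topology

namespace Fermat.Agent.Cor

open Fermat.Agent.ClassL

variable {F : Type*} [Field F] [NumberField F]

/-! ### The residue characteristic -/

theorem exists_rc (P : Pr F) : ∃ p : Nat.Primes,
    (((p : ℕ) : ℕ) : 𝓞 F) ∈ (P.1 : Ideal (𝓞 F)) := by
  have := (Ideal.isPrime_of_prime P.2).isMaximal P.2.ne_zero
  obtain ⟨p, -, -, h1, h2, -⟩ := Ideal.exists_prime_and_absNorm_eq_pow (P.1 : Ideal (𝓞 F))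
  exact ⟨⟨p, h2⟩, h1⟩

/-- The residue characteristic of a prime. -/
def rc (P : Pr F) : Nat.Primes := (exists_rc P).choose

theorem rc_mem (P : Pr F) : ((rc P : ℕ) : 𝓞 F) ∈ (P.1 : Ideal (𝓞 F)) := (exists_rc P).choose_spec

theorem rc_eq_of_mem {P : Pr F} {p : Nat.Primes} (h : ((p : ℕ) : 𝓞 F) ∈ (P.1 : Ideal (𝓞 F))) :
    rc P = p := by
  by_contra hne
  have hcop : Nat.Coprime (rc P : ℕ) (p : ℕ) := by
    rw [Nat.coprime_primes (rc P).2 p.2]
    exact fun h => hne (Subtype.ext h)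
  have h1 : IsCoprime ((rc P : ℕ) : ℤ) ((p : ℕ) : ℤ) := Nat.isCoprime_iff_coprime.mpr hcop
  obtain ⟨a, b, hab⟩ := h1
  have h2 : (1 : 𝓞 F) ∈ (P.1 : Ideal (𝓞 F)) := by
    have h3 : ((a : ℤ) : 𝓞 F) * ((rc P : ℕ) : 𝓞 F) + ((b : ℤ) : 𝓞 F) * ((p : ℕ) : 𝓞 F) = 1 := by
      have := congrArg (Int.cast : ℤ → 𝓞 F) hab
      push_cast at this
      exact this
    rw [← h3]
    exact Ideal.add_mem _ (Ideal.mul_mem_left _ _ (rc_mem P)) (Ideal.mul_mem_left _ _ h)
  exact (Ideal.isPrime_of_prime P.2).ne_top ((Ideal.eq_top_iff_one _).mpr h2)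

theorem rc_eq_iff {P : Pr F} {p : Nat.Primes} :
    rc P = p ↔ ((p : ℕ) : 𝓞 F) ∈ (P.1 : Ideal (𝓞 F)) :=
  ⟨fun h => h ▸ rc_mem P, rc_eq_of_mem⟩

/-! ### The Euler product, prime by prime -/

theorem natCast_pow_cpow (p k : ℕ) (s : ℂ) : ((p : ℂ) ^ k) ^ s = ((p : ℂ) ^ s) ^ k := by
  rw [← Nat.cast_pow]
  induction k with
  | zero => simp
  | succ k ih =>
    rw [pow_succ, Nat.cast_mul, Complex.natCast_mul_natCast_cpow, ih, pow_succ]

theorem summable_log_absNorm {s : ℂ} (hs : 1 < s.re) :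
    Summable fun P : Pr F => -Complex.log (1 - (Ideal.absNorm (P.1 : Ideal (𝓞 F)) : ℂ) ^ (-s)) := by
  refine (summable_log_chi (K := F) 1 hs).congr fun P => ?_
  rw [chiHom_apply, MonoidHom.one_apply, Units.val_one, one_mul]

theorem exp_tsum_log_dedekindZeta {s : ℂ} (hs : 1 < s.re) :
    Complex.exp (∑' P : Pr F, -Complex.log (1 - (Ideal.absNorm (P.1 : Ideal (𝓞 F)) : ℂ) ^ (-s))) =
      dedekindZeta F s := by
  rw [exp_tsum_log_one hs]
  exact (Classic.Zeta.hasSum_term hs).tsum_eq.symm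

/-- If the primes above `p` have the norm `p ^ f(p)` and their number is `g(p)`, the logarithm of
`ζ_F(s)` is `∑_p g(p) (-log (1 - p ^ (-s f(p))))`. -/
theorem tsum_log_absNorm {f g : Nat.Primes → ℕ}
    (hf : ∀ P : Pr F, Ideal.absNorm (P.1 : Ideal (𝓞 F)) = (rc P : ℕ) ^ f (rc P))
    (hg : ∀ p : Nat.Primes, Nat.card {P : Pr F // rc P = p} = g p) {s : ℂ} (hs : 1 < s.re) :
    ∑' P : Pr F, -Complex.log (1 - (Ideal.absNorm (P.1 : Ideal (𝓞 F)) : ℂ) ^ (-s)) =
      ∑' p : Nat.Primes, (g p : ℂ) * -Complex.log (1 - (((p : ℕ) : ℂ) ^ (-s)) ^ f p) := by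
  have hsum := summable_log_absNorm (F := F) hs
  have hsum' : Summable fun c : (Σ p : Nat.Primes, {P : Pr F // rc P = p}) =>
      -Complex.log (1 - (Ideal.absNorm (c.2.1.1 : Ideal (𝓞 F)) : ℂ) ^ (-s)) :=
    (Equiv.sigmaFiberEquiv (rc : Pr F → Nat.Primes)).summable_iff.mpr hsum
  have h0 : ∑' P : Pr F, -Complex.log (1 - (Ideal.absNorm (P.1 : Ideal (𝓞 F)) : ℂ) ^ (-s)) =
      ∑' c : (Σ p : Nat.Primes, {P : Pr F // rc P = p}),
        -Complex.log (1 - (Ideal.absNorm (c.2.1.1 : Ideal (𝓞 F)) : ℂ) ^ (-s)) :=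
    ((Equiv.sigmaFiberEquiv (rc : Pr F → Nat.Primes)).tsum_eq
      (fun P : Pr F => -Complex.log (1 - (Ideal.absNorm (P.1 : Ideal (𝓞 F)) : ℂ) ^ (-s)))).symm
  rw [h0, hsum'.tsum_sigma]
  refine tsum_congr fun p => ?_
  have h1 : ∀ P : {P : Pr F // rc P = p},
      -Complex.log (1 - (Ideal.absNorm (P.1.1 : Ideal (𝓞 F)) : ℂ) ^ (-s)) =
      -Complex.log (1 - (((p : ℕ) : ℂ) ^ (-s)) ^ f p) := by
    rintro ⟨P, rfl⟩
    rw [hf P, Nat.cast_pow, natCast_pow_cpow]
  rw [tsum_congr h1, tsum_const, hg p, nsmul_eq_mul]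

/-! ### Groups of Dirichlet characters -/

variable {n : ℕ} [NeZero n]

instance (χ : DirichletCharacter ℂ n) : NeZero χ.conductor := ⟨χ.conductor_ne_zero⟩

variable (F) in
/-- The primes split in `F` as prescribed by the group `Y` of Dirichlet characters. -/
structure IsFieldOf (Y : Subgroup (DirichletCharacter ℂ n)) : Prop where
  norm : ∀ P : Pr F, Ideal.absNorm (P.1 : Ideal (𝓞 F)) =
    (rc P : ℕ) ^ orderOf (evP Y (rc P).2)
  card : ∀ p : Nat.Primes, Nat.card {P : Pr F // rc P = p} =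
    Fintype.card (atP Y (p : ℕ)) / orderOf (evP Y p.2)

theorem norm_prime_cpow_lt_one (p : Nat.Primes) {s : ℂ} (hs : 1 < s.re) :
    ‖((p : ℕ) : ℂ) ^ (-s)‖ < 1 := by
  rw [Complex.norm_natCast_cpow_of_pos p.2.pos, neg_re]
  exact Real.rpow_lt_one_of_one_lt_of_neg (by exact_mod_cast p.2.one_lt) (by linarith)

/-- **The Dedekind zeta function as a product of Dirichlet `L`-functions**, for `Re s > 1`. -/
theorem dedekindZeta_eq_prod {Y : Subgroup (DirichletCharacter ℂ n)} (h : IsFieldOf F Y) {s : ℂ}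
    (hs : 1 < s.re) :
    dedekindZeta F s =
      ∏ χ : Y, LFunction (χ : DirichletCharacter ℂ n).primitiveCharacter s := by
  rw [← exp_tsum_log_dedekindZeta hs, tsum_log_absNorm (f := fun p => orderOf (evP Y p.2))
    (g := fun p => Fintype.card (atP Y (p : ℕ)) / orderOf (evP Y p.2)) h.norm h.card hs]
  have h1 : ∀ p : Nat.Primes,
      ((Fintype.card (atP Y (p : ℕ)) / orderOf (evP Y p.2) : ℕ) : ℂ) *
        -Complex.log (1 - (((p : ℕ) : ℂ) ^ (-s)) ^ orderOf (evP Y p.2)) =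
      ∑ χ : Y, -Complex.log (1 - (χ : DirichletCharacter ℂ n).primitiveCharacter (p : ℕ) *
        ((p : ℕ) : ℂ) ^ (-s)) := fun p =>
    (sum_prim Y p.2 (norm_prime_cpow_lt_one p hs)).symm
  rw [tsum_congr h1, Summable.tsum_finsetSum, Complex.exp_sum]
  · refine Finset.prod_congr rfl fun χ _ => ?_
    rw [LFunction_eq_LSeries _ hs, ← LSeries_eulerProduct_exp_log _ hs]
  · intro χ _
    exact (χ : DirichletCharacter ℂ n).primitiveCharacter.summable_neg_log_one_sub_mul_prime_cpow hs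

end Fermat.Agent.Cor
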