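import Fermat.Agent.Corollaries.ZetaK.ArithEquiv

/-!
# The invariants of arithmetically equivalent number fields

Two number fields with the same Dedekind zeta function have the same degree, the same numbers of
real and of complex places, the same discriminant and the same `h R / w` (`arith_equiv`).
It is enough that for almost all primes `p` the numbers of ideals of norm `p^k` agree
(`arith_equiv_of_almost_all`).
-/

set_option autoImplicit false

noncomputable section

open NumberField NumberField.InfinitePlace NumberField.Units IsDedekindDomain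
open Fermat.Agent.Classic.Disc Fermat.Agent.Classic.Zeta Fermat.Agent.FrobDensity
open Fermat.Agent.Cor.ZetaK Filter Topology

namespace Fermat.Agent.Cor.AE

universe u v

variable {K : Type u} [Field K] [NumberField K] {K' : Type v} [Field K'] [NumberField K']

theorem above_one (F : Type*) [Field F] [NumberField F] : above F 1 = ∅ := by
  refine Finset.eq_empty_of_forall_notMem fun v hv => ?_
  rw [mem_above one_ne_zero, Nat.cast_one] at hv
  exact v.isPrime.ne_top ((Ideal.eq_top_iff_one _).2 hv)

theorem normList_one (F : Type*) [Field F] [NumberField F] : normList F 1 = [] := by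
  rw [normList, above_one, Finset.toList_empty, List.map_nil]

section Same

variable (h : ∀ n : ℕ, n ≠ 0 → idealCount K n = idealCount K' n)

include h

theorem conv_one (n : ℕ) : (LSeries.convolution (zn K) (efl (normList K 1))) n =
    (LSeries.convolution (zn K') (efl (normList K' 1))) n :=
  conv_eq one_ne_zero (fun _ hp _ k => h _ (pow_ne_zero k hp.ne_zero)) n

theorem abs_discr_eq : (discr K).natAbs = (discr K').natAbs := by
  have h1 := (dual_eq one_ne_zero (conv_one h)).1
  rwa [normList_one, normList_one, List.prod_nil, mul_one, mul_one] at h1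

theorem nrRealPlaces_eq : nrRealPlaces K = nrRealPlaces K' :=
  (places_eq one_ne_zero (conv_one h)).1

theorem nrComplexPlaces_eq : nrComplexPlaces K = nrComplexPlaces K' :=
  (places_eq one_ne_zero (conv_one h)).2

theorem finrank_eq : Module.finrank ℚ K = Module.finrank ℚ K' := by
  rw [← card_add_two_mul_card_eq_rank K, ← card_add_two_mul_card_eq_rank K']
  have h1 : nrRealPlaces K = nrRealPlaces K' := nrRealPlaces_eq h
  have h2 : nrComplexPlaces K = nrComplexPlaces K' := nrComplexPlaces_eq h
  rw [h1, h2]

theorem discr_eq : discr K = discr K' := by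
  rw [← Int.sign_mul_natAbs (discr K), ← Int.sign_mul_natAbs (discr K'), sign_discr, sign_discr,
    nrComplexPlaces_eq h, abs_discr_eq h]

/-- the zeta functions agree on the whole plane -/
theorem zetaK_eq_zetaK {s : ℂ} (hs : s ≠ 1) : zetaK K s = zetaK K' s := by
  have h1 := zeta_mul_eq one_ne_zero (conv_one h) hs
  rw [normList_one, normList_one] at h1
  simpa [fpL] using h1

theorem residue_eq : dedekindZeta_residue K = dedekindZeta_residue K' := by
  have h1 := tendsto_sub_one_mul_zetaK K
  have h2 : Tendsto (fun s => (s - 1) * zetaK K s) (𝓝[≠] 1)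
      (𝓝 (dedekindZeta_residue K' : ℂ)) := by
    refine (tendsto_sub_one_mul_zetaK K').congr' ?_
    filter_upwards [self_mem_nhdsWithin] with s hs
    rw [zetaK_eq_zetaK h hs]
  exact_mod_cast tendsto_nhds_unique h1 h2

theorem hRw_eq : (classNumber K : ℝ) * regulator K / torsionOrder K =
    (classNumber K' : ℝ) * regulator K' / torsionOrder K' := by
  have h1 := residue_eq h
  rw [residue_eq_clConst, residue_eq_clConst, clConst, clConst, nrRealPlaces_eq h,
    nrComplexPlaces_eq h, discr_eq h] at h1
  have h2 : (√|(discr K' : ℝ)|)⁻¹ * Real.pi ^ nrComplexPlaces K' ≠ 0 := by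
    have h3 : (discr K' : ℝ) ≠ 0 := Int.cast_ne_zero.2 (discr_ne_zero K')
    positivity
  have h3 := mul_left_cancel₀ h2 h1
  have h4 : (2 : ℝ) ^ (nrRealPlaces K' + nrComplexPlaces K') ≠ 0 := by positivity
  have h5 : (2 : ℝ) ^ (nrRealPlaces K' + nrComplexPlaces K') *
      ((classNumber K : ℝ) * regulator K / torsionOrder K) =
      (2 : ℝ) ^ (nrRealPlaces K' + nrComplexPlaces K') *
      ((classNumber K' : ℝ) * regulator K' / torsionOrder K') := by
    linear_combination h3
  exact mul_left_cancel₀ h4 h5

/-- **Two number fields with the same Dedekind zeta function** have the same numbers of real and of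
complex places, the same degree, the same discriminant and the same `h R / w`. -/
theorem arith_equiv :
    nrRealPlaces K = nrRealPlaces K' ∧ nrComplexPlaces K = nrComplexPlaces K' ∧
      Module.finrank ℚ K = Module.finrank ℚ K' ∧ discr K = discr K' ∧
      (classNumber K : ℝ) * regulator K / torsionOrder K =
        (classNumber K' : ℝ) * regulator K' / torsionOrder K' ∧
      ∀ s : ℂ, s ≠ 1 → zetaK K s = zetaK K' s :=
  ⟨nrRealPlaces_eq h, nrComplexPlaces_eq h, finrank_eq h, discr_eq h, hRw_eq h,
    fun _ hs => zetaK_eq_zetaK h hs⟩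

end Same

/-- **Perlis**: if for all primes `p ∤ N` the fields `K` and `K'` have the same numbers of ideals
of norm `p^k`, then all their Euler factors are equal and they have the same invariants. -/
theorem arith_equiv_of_almost_all {N : ℕ} (hN : N ≠ 0)
    (h : ∀ p : ℕ, p.Prime → ¬ p ∣ N → ∀ k : ℕ, idealCount K (p ^ k) = idealCount K' (p ^ k)) :
    (∀ n : ℕ, n ≠ 0 → idealCount K n = idealCount K' n) ∧
      nrRealPlaces K = nrRealPlaces K' ∧ nrComplexPlaces K = nrComplexPlaces K' ∧
      Module.finrank ℚ K = Module.finrank ℚ K' ∧ discr K = discr K' ∧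
      (classNumber K : ℝ) * regulator K / torsionOrder K =
        (classNumber K' : ℝ) * regulator K' / torsionOrder K' ∧
      ∀ s : ℂ, s ≠ 1 → zetaK K s = zetaK K' s :=
  ⟨zeta_eq_of_almost_all hN h, arith_equiv (zeta_eq_of_almost_all hN h)⟩

/-! ### The same with Mathlib's Dedekind zeta function -/

theorem abscissa_lt_top (F : Type*) [Field F] [NumberField F] :
    LSeries.abscissaOfAbsConv (zn F) < ⊤ := by
  obtain ⟨k, κ, Ξ, σ, -, -, hσ, H⟩ := zetaFE F
  have h1 : LSeriesSummable (zn F) ((σ + 1 : ℝ) : ℂ) :=
    (H ((σ + 1 : ℝ) : ℂ) (by rw [Complex.ofReal_re]; linarith)).1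
  exact h1.abscissaOfAbsConv_le.trans_lt (EReal.coe_lt_top _)

/-- the zeta functions are equal if and only if all the coefficients are -/
theorem dedekindZeta_eq_iff : dedekindZeta K = dedekindZeta K' ↔
    ∀ n : ℕ, n ≠ 0 → idealCount K n = idealCount K' n := by
  have h := LSeries_eq_iff_of_abscissaOfAbsConv_lt_top (abscissa_lt_top K) (abscissa_lt_top K')
  have h1 : dedekindZeta K = LSeries (zn K) := rfl
  have h2 : dedekindZeta K' = LSeries (zn K') := rfl
  rw [h1, h2, h]
  refine forall₂_congr fun n _ => ?_
  rw [zn_eq, zn_eq, Nat.cast_inj]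

/-- **Number fields with the same Dedekind zeta function** have the same numbers of real and of
complex places, the same degree, the same discriminant and the same `h R / w`. -/
theorem invariants_of_dedekindZeta_eq (h : dedekindZeta K = dedekindZeta K') :
    nrRealPlaces K = nrRealPlaces K' ∧ nrComplexPlaces K = nrComplexPlaces K' ∧
      Module.finrank ℚ K = Module.finrank ℚ K' ∧ discr K = discr K' ∧
      (classNumber K : ℝ) * regulator K / torsionOrder K =
        (classNumber K' : ℝ) * regulator K' / torsionOrder K' := by
  have h' := dedekindZeta_eq_iff.1 h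
  exact ⟨nrRealPlaces_eq h', nrComplexPlaces_eq h', finrank_eq h', discr_eq h', hRw_eq h'⟩

/-- **Perlis**: almost all Euler factors determine the Dedekind zeta function. -/
theorem dedekindZeta_eq_of_almost_all {N : ℕ} (hN : N ≠ 0)
    (h : ∀ p : ℕ, p.Prime → ¬ p ∣ N → ∀ k : ℕ, idealCount K (p ^ k) = idealCount K' (p ^ k)) :
    dedekindZeta K = dedekindZeta K' :=
  dedekindZeta_eq_iff.2 (zeta_eq_of_almost_all hN h)

end Fermat.Agent.Cor.AE

end
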