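import Fermat.Agent.Corollaries.ZetaK.RatZeta

/-!
# Isomorphic number fields have the same zeta function

`dedekindZeta_congr`, `dedekindZeta_residue_congr` (so `h R / (w √|d|)` only depends on the
isomorphism class; no separate transport of the regulator, etc. is needed) and `zetaK_congr`.
-/

set_option autoImplicit false

noncomputable section

universe u v

open NumberField Ideal Filter Topology

namespace Fermat.Agent.Cor.ZCongr

variable {K : Type u} {K' : Type v} [Field K] [NumberField K] [Field K'] [NumberField K']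

theorem absNorm_map_equiv (e : K ≃+* K') (I : Ideal (𝓞 K)) :
    absNorm (I.map (RingOfIntegers.mapRingEquiv e : 𝓞 K →+* 𝓞 K')) = absNorm I := by
  rw [absNorm_apply, absNorm_apply, Submodule.cardQuot_apply, Submodule.cardQuot_apply]
  exact (Nat.card_congr (Ideal.quotientEquiv I _ (RingOfIntegers.mapRingEquiv e) rfl).toEquiv).symm

theorem card_absNorm_congr (e : K ≃+* K') (n : ℕ) :
    Nat.card {I : Ideal (𝓞 K) // absNorm I = n} =
      Nat.card {I : Ideal (𝓞 K') // absNorm I = n} := by
  have key : ∀ {F : Type u} {F' : Type v} [Field F] [NumberField F] [Field F'] [NumberField F']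
      (e : F ≃+* F') (I : Ideal (𝓞 F)),
      (I.map (RingOfIntegers.mapRingEquiv e : 𝓞 F →+* 𝓞 F')).map
        (RingOfIntegers.mapRingEquiv e.symm : 𝓞 F' →+* 𝓞 F) = I := by
    intro F F' _ _ _ _ e I
    rw [Ideal.map_map]
    have h : (RingOfIntegers.mapRingEquiv e.symm : 𝓞 F' →+* 𝓞 F).comp
        (RingOfIntegers.mapRingEquiv e : 𝓞 F →+* 𝓞 F') = RingHom.id _ := by
      ext x
      simp
    rw [h, Ideal.map_id]
  have key' : ∀ {F : Type v} {F' : Type u} [Field F] [NumberField F] [Field F'] [NumberField F']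
      (e : F ≃+* F') (I : Ideal (𝓞 F)),
      (I.map (RingOfIntegers.mapRingEquiv e : 𝓞 F →+* 𝓞 F')).map
        (RingOfIntegers.mapRingEquiv e.symm : 𝓞 F' →+* 𝓞 F) = I := by
    intro F F' _ _ _ _ e I
    rw [Ideal.map_map]
    have h : (RingOfIntegers.mapRingEquiv e.symm : 𝓞 F' →+* 𝓞 F).comp
        (RingOfIntegers.mapRingEquiv e : 𝓞 F →+* 𝓞 F') = RingHom.id _ := by
      ext x
      simp
    rw [h, Ideal.map_id]
  refine Nat.card_congr
    { toFun := fun I => ⟨I.1.map (RingOfIntegers.mapRingEquiv e : 𝓞 K →+* 𝓞 K'),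
        (absNorm_map_equiv e I.1).trans I.2⟩
      invFun := fun J => ⟨J.1.map (RingOfIntegers.mapRingEquiv e.symm : 𝓞 K' →+* 𝓞 K), by
        have h := absNorm_map_equiv e
          (J.1.map (RingOfIntegers.mapRingEquiv e.symm : 𝓞 K' →+* 𝓞 K))
        have h2 := key' e.symm J.1
        rw [RingEquiv.symm_symm] at h2
        rw [h2] at h
        exact h.symm.trans J.2⟩
      left_inv := fun I => Subtype.ext (key e I.1)
      right_inv := fun J => Subtype.ext (by
        have h2 := key' e.symm J.1
        rwa [RingEquiv.symm_symm] at h2) }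

theorem dedekindZeta_congr (e : K ≃+* K') : dedekindZeta K = dedekindZeta K' := by
  funext s
  unfold dedekindZeta
  congr 1
  funext n
  rw [card_absNorm_congr e n]

theorem dedekindZeta_residue_congr (e : K ≃+* K') :
    dedekindZeta_residue K = dedekindZeta_residue K' := by
  have h1 := tendsto_sub_one_mul_dedekindZeta_nhdsGT K
  have h2 := tendsto_sub_one_mul_dedekindZeta_nhdsGT K'
  rw [dedekindZeta_congr e] at h1
  exact_mod_cast tendsto_nhds_unique h1 h2

theorem zetaK_congr (e : K ≃+* K') {s : ℂ} (hs : s ≠ 1) : zetaK K s = zetaK K' s := by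
  refine eq_of_eq_re_gt_one (f := zetaK K) (g := zetaK K')
    (fun s hs => differentiableAt_LF _ hs) (fun s hs => differentiableAt_LF _ hs)
    (fun s hs => ?_) hs
  rw [zetaK_eq K hs, zetaK_eq K' hs, dedekindZeta_congr e]

end Fermat.Agent.Cor.ZCongr
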