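import Fermat.Agent.Corollaries.ZetaK.GammaAb
import Fermat.Agent.Corollaries.ZetaK.ZetaCongr

/-!
# The decomposition law of abelian fields

`K` the `n`-th cyclotomic field, `L ⊂ K` a subfield, `X = charGroup n L` its group of Dirichlet
characters, `p` a prime, `χ*` the primitive character of `χ`:

* `ramificationIdxIn_mul_card`: `e_p · #{χ ∈ X : χ*(p) ≠ 0} = [L : ℚ]`;
* `inertiaDegIn_mul_card`: `f_p · #{χ ∈ X : χ*(p) = 1} = #{χ ∈ X : χ*(p) ≠ 0}`;
* `ncard_primesOver_eq_card`: the number of primes above `p` is `#{χ ∈ X : χ*(p) = 1}`;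
* `ramificationIdxIn_eq_one_iff`: `p` is unramified in `L` iff no conductor of a `χ ∈ X` is
  divisible by `p`;
* `splits_iff`: `p` splits completely in `L` iff `χ*(p) = 1` for every `χ ∈ X`.
-/

set_option autoImplicit false

noncomputable section

universe u

open Finset DirichletCharacter NumberField Ideal

namespace Fermat.Agent.Cor.AbLaw

theorem card_eq_one_mul_orderOf {Y : Type*} [CommGroup Y] [Fintype Y] (e : Y →* ℂ) :
    Nat.card {y : Y // e y = 1} * orderOf e = Fintype.card Y := by
  classical
  set f := orderOf e with hf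
  have hf0 : 0 < f := orderOf_hom_pos e
  have h1 : ∑ y : Y, ∑ k ∈ range f, (e y) ^ k = (Nat.card {y : Y // e y = 1} * f : ℕ) := by
    have h2 : ∀ y : Y, ∑ k ∈ range f, (e y) ^ k = if e y = 1 then (f : ℂ) else 0 := by
      intro y
      split_ifs with h
      · simp [h]
      · have h3 : (e y) ^ f = 1 := by
          rw [← MonoidHom.pow_apply, hf, pow_orderOf_eq_one, MonoidHom.one_apply]
        rw [geom_sum_eq h, h3, sub_self, zero_div]
    rw [Finset.sum_congr rfl fun y _ => h2 y, ← Finset.sum_filter, Finset.sum_const, nsmul_eq_mul,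
      Nat.card_eq_fintype_card, Fintype.card_subtype]
    push_cast
    rfl
  have h2 : ∑ y : Y, ∑ k ∈ range f, (e y) ^ k = (Fintype.card Y : ℂ) := by
    rw [Finset.sum_comm]
    have h3 : ∀ k ∈ range f, ∑ y : Y, (e y) ^ k = if k = 0 then (Fintype.card Y : ℂ) else 0 := by
      intro k hk
      have h4 : ∑ y : Y, (e ^ k) y = if e ^ k = 1 then ((Fintype.card Y : ℕ) : ℂ) else 0 := by
        rw [sum_hom_units]
        split_ifs <;> simp
      have h5 : e ^ k = 1 ↔ k = 0 := by
        constructor
        · intro h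
          by_contra h0
          exact absurd (orderOf_le_of_pow_eq_one (Nat.pos_of_ne_zero h0) h)
            (not_le.mpr (mem_range.mp hk))
        · rintro rfl
          exact pow_zero e
      simp only [h5] at h4
      rw [← h4]
      exact Finset.sum_congr rfl fun y _ => (MonoidHom.pow_apply e k y).symm
    rw [Finset.sum_congr rfl h3, Finset.sum_ite_eq', if_pos (mem_range.mpr hf0)]
  rw [h1] at h2
  exact_mod_cast h2

section chars

variable {n : ℕ} [NeZero n] (Y : Subgroup (DirichletCharacter ℂ n)) {p : ℕ} (hp : p.Prime)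

/-- The characters of `Y` with `χ*(p) ≠ 0`. -/
def atPEquiv : atP Y p ≃ {χ : Y // (χ : DirichletCharacter ℂ n).primitiveCharacter p ≠ 0} :=
  Equiv.ofBijective (fun ψ => ⟨⟨changeLevel (Nat.ordCompl_dvd n p) ψ.1, ψ.2⟩, by
    rw [prim_changeLevel hp]
    exact ((isUnit_oc hp).map ψ.1).ne_zero⟩) ⟨fun ψ ψ' h => Subtype.ext
      (changeLevel_injective (Nat.ordCompl_dvd n p)
        (congrArg (fun χ => ((χ : {χ : Y // _}).1 : DirichletCharacter ℂ n)) h)), fun χ => by
    obtain ⟨ψ, hψ⟩ := exists_changeLevel hp χ.1.1 χ.2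
    exact ⟨⟨ψ, by
        change changeLevel (Nat.ordCompl_dvd n p) ψ ∈ Y
        rw [hψ]; exact χ.1.2⟩, Subtype.ext (Subtype.ext hψ)⟩⟩

include hp in
theorem card_atP_eq : Fintype.card (atP Y p) =
    Nat.card {χ : Y // (χ : DirichletCharacter ℂ n).primitiveCharacter p ≠ 0} := by
  rw [← Nat.card_eq_fintype_card]
  exact Nat.card_congr (atPEquiv Y hp)

theorem card_evP_eq : Nat.card {ψ : atP Y p // evP Y hp ψ = 1} =
    Nat.card {χ : Y // (χ : DirichletCharacter ℂ n).primitiveCharacter p = 1} := by
  refine Nat.card_congr (Equiv.ofBijective (fun ψ => ⟨(atPEquiv Y hp ψ.1).1, ?_⟩) ⟨?_, ?_⟩)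
  · have h := ψ.2
    rw [evP_apply] at h
    change (changeLevel (Nat.ordCompl_dvd n p) ψ.1.1).primitiveCharacter p = 1
    rw [prim_changeLevel hp, h]
  · intro ψ ψ' h
    have h1 : (atPEquiv Y hp ψ.1).1 = (atPEquiv Y hp ψ'.1).1 := by
      simpa using h
    exact Subtype.ext ((atPEquiv Y hp).injective (Subtype.ext h1))
  · rintro ⟨χ, hχ⟩
    have h0 : (χ : DirichletCharacter ℂ n).primitiveCharacter p ≠ 0 := by
      rw [hχ]; exact one_ne_zero
    obtain ⟨ψ, hψ⟩ := (atPEquiv Y hp).surjective ⟨χ, h0⟩
    have h1 : changeLevel (Nat.ordCompl_dvd n p) ψ.1 = χ.1 :=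
      congrArg (fun χ => ((χ : {χ : Y // _}).1 : DirichletCharacter ℂ n)) hψ
    refine ⟨⟨ψ, ?_⟩, Subtype.ext ?_⟩
    · rw [evP_apply, ← prim_changeLevel hp, h1, hχ]
    · exact Subtype.ext h1

omit [NeZero n] in
include hp in
theorem prim_ne_zero_iff (χ : DirichletCharacter ℂ n) :
    χ.primitiveCharacter p ≠ 0 ↔ ¬ p ∣ χ.conductor := by
  have h := apply_ne_zero_iff χ.primitiveCharacter (p : ℤ)
  rw [Int.cast_natCast] at h
  rw [h, Nat.isCoprime_iff_coprime, hp.coprime_iff_not_dvd]

end chars

section law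

variable (n : ℕ) [NeZero n] {K : Type u} [Field K] [NumberField K]
  [hK : IsCyclotomicExtension {n} ℚ K] (L : IntermediateField ℚ K)
  (p : ℕ) [hp : Fact p.Prime]

/-- The number of primes above `p` in an abelian field is the number of its characters with
`χ*(p) = 1`. -/
theorem ncard_primesOver_eq_card [IsGalois ℚ L] : ((span {(p : ℤ)}).primesOver (𝓞 L)).ncard =
    Nat.card {χ : charGroup n L // (χ : DirichletCharacter ℂ n).primitiveCharacter p = 1} := by
  rw [ncard_primesOver_L n L p, ← card_eq_one_mul_orderOf (evP (charGroup n L) hp.out),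
    Nat.mul_div_cancel _ (orderOf_hom_pos _), card_evP_eq]

/-- `f_p · #{χ ∈ X : χ*(p) = 1} = #{χ ∈ X : χ*(p) ≠ 0}`. -/
theorem inertiaDegIn_mul_card [IsGalois ℚ L] : (span {(p : ℤ)}).inertiaDegIn (𝓞 L) *
    Nat.card {χ : charGroup n L // (χ : DirichletCharacter ℂ n).primitiveCharacter p = 1} =
    Nat.card {χ : charGroup n L // (χ : DirichletCharacter ℂ n).primitiveCharacter p ≠ 0} := by
  rw [← card_atP_eq (charGroup n L) hp.out,
    ← card_eq_one_mul_orderOf (evP (charGroup n L) hp.out), card_evP_eq, inertiaDegIn_L n L p,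
    mul_comm]

/-- `e_p · #{χ ∈ X : χ*(p) ≠ 0} = [L : ℚ]`. -/
theorem ramificationIdxIn_mul_card [IsGalois ℚ L] :
    (span {(p : ℤ)}).ramificationIdxIn (𝓞 L) *
    Nat.card {χ : charGroup n L // (χ : DirichletCharacter ℂ n).primitiveCharacter p ≠ 0} =
    Module.finrank ℚ L := by
  have h1 := ncard_mul L p
  rw [ncard_primesOver_eq_card n L p] at h1
  rw [← inertiaDegIn_mul_card n L p, ← IsGalois.card_aut_eq_finrank, ← h1]
  ring

/-- **A prime number is unramified in an abelian field iff it divides no conductor of the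
characters of the field.** -/
theorem ramificationIdxIn_eq_one_iff [IsGalois ℚ L] :
    (span {(p : ℤ)}).ramificationIdxIn (𝓞 L) = 1 ↔
      ∀ χ ∈ charGroup n L, ¬ p ∣ χ.conductor := by
  have h1 := ramificationIdxIn_mul_card n L p
  have h2 : Nat.card (charGroup n L) = Module.finrank ℚ L := by
    rw [Nat.card_eq_fintype_card, card_charGroup]
  have h3 : 0 < Module.finrank ℚ L := Module.finrank_pos
  constructor
  · intro h χ hχ
    rw [← prim_ne_zero_iff hp.out]
    rw [h, one_mul, ← h2] at h1
    by_contra h0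
    have h4 : Nat.card {χ : charGroup n L //
        (χ : DirichletCharacter ℂ n).primitiveCharacter p ≠ 0} < Nat.card (charGroup n L) := by
      rw [Nat.card_eq_fintype_card, Nat.card_eq_fintype_card]
      exact Fintype.card_subtype_lt (x := ⟨χ, hχ⟩) (not_not.mpr h0)
    exact absurd h1 h4.ne
  · intro h
    have h4 : Nat.card {χ : charGroup n L //
        (χ : DirichletCharacter ℂ n).primitiveCharacter p ≠ 0} = Nat.card (charGroup n L) :=
      Nat.card_congr (Equiv.subtypeUnivEquiv fun χ => (prim_ne_zero_iff hp.out χ.1).mpr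
        (h χ.1 χ.2))
    rw [h4, h2] at h1
    exact Nat.eq_of_mul_eq_mul_right h3 (by rw [h1, one_mul])

/-- **A prime number splits completely in an abelian field iff `χ*(p) = 1` for all characters of
the field.** -/
theorem splits_iff [IsGalois ℚ L] :
    ((span {(p : ℤ)}).primesOver (𝓞 L)).ncard = Module.finrank ℚ L ↔
      ∀ χ ∈ charGroup n L, χ.primitiveCharacter p = 1 := by
  rw [ncard_primesOver_eq_card n L p, ← card_charGroup n L, ← Nat.card_eq_fintype_card]
  constructor
  · intro h χ hχ
    by_contra h0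
    have h4 : Nat.card {χ : charGroup n L //
        (χ : DirichletCharacter ℂ n).primitiveCharacter p = 1} < Nat.card (charGroup n L) := by
      rw [Nat.card_eq_fintype_card, Nat.card_eq_fintype_card]
      exact Fintype.card_subtype_lt (x := ⟨χ, hχ⟩) h0
    exact absurd h h4.ne
  · intro h
    exact Nat.card_congr (Equiv.subtypeUnivEquiv fun χ => h χ.1 χ.2)

end law

section cyclotomic

variable (n : ℕ) [NeZero n] (K : Type u) [Field K] [NumberField K]
  [hK : IsCyclotomicExtension {n} ℚ K]

omit hK [NeZero n] in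
theorem isGalois_top [IsGalois ℚ K] : IsGalois ℚ (⊤ : IntermediateField ℚ K) :=
  IsGalois.of_algEquiv (IntermediateField.topEquiv (F := ℚ) (E := K)).symm

/-- The characters of the cyclotomic field itself: all Dirichlet characters. -/
theorem charGroup_top : charGroup n (⊤ : IntermediateField ℚ K) = ⊤ := by
  rw [eq_top_iff]
  intro χ _
  rw [charGroup, mem_ann]
  intro a ha
  rw [galSub, IntermediateField.fixingSubgroup_top, Subgroup.map_bot, Subgroup.mem_bot] at ha
  rw [ha, Units.val_one, map_one]

/-- The characters of `ℚ`: the trivial one. -/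
theorem charGroup_bot : charGroup n (⊥ : IntermediateField ℚ K) = ⊥ := by
  rw [eq_bot_iff]
  intro χ hχ
  rw [charGroup, mem_ann] at hχ
  rw [Subgroup.mem_bot]
  refine MulChar.ext fun a => ?_
  rw [hχ a ?_, MulChar.one_apply_coe]
  rw [galSub, IntermediateField.fixingSubgroup_bot]
  exact ⟨(IsCyclotomicExtension.Rat.galEquivZMod n K).symm a, Subgroup.mem_top _,
    (IsCyclotomicExtension.Rat.galEquivZMod n K).apply_symm_apply a⟩

/-- **The discriminant of the `n`-th cyclotomic field** is, up to the sign, the product of the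
conductors of the Dirichlet characters modulo `n`. -/
theorem prod_conductor_eq_discr :
    ∏ χ : DirichletCharacter ℂ n, χ.conductor = (discr K).natAbs := by
  have : IsGalois ℚ K := IsCyclotomicExtension.isGalois {n} ℚ K
  have := isGalois_top K
  have h := conductor_discriminant n (⊤ : IntermediateField ℚ K)
  rw [discr_eq_discr_of_algEquiv _ (IntermediateField.topEquiv (F := ℚ) (E := K))] at h
  rw [← h]
  refine Fintype.prod_equiv (Equiv.subtypeUnivEquiv (p := fun χ => χ ∈ charGroup n
    (⊤ : IntermediateField ℚ K)) fun χ => by rw [charGroup_top]; exact Subgroup.mem_top χ).symm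
    _ _ fun χ => rfl

/-- **The Dedekind zeta function of the `n`-th cyclotomic field** is the product of the Dirichlet
`L`-functions of all primitive characters of conductor dividing `n`. -/
theorem dedekindZeta_cyclotomic {s : ℂ} (hs : 1 < s.re) :
    dedekindZeta K s = ∏ χ : DirichletCharacter ℂ n, LFunction χ.primitiveCharacter s := by
  have : IsGalois ℚ K := IsCyclotomicExtension.isGalois {n} ℚ K
  have := isGalois_top K
  have h := dedekindZeta_abelian n (⊤ : IntermediateField ℚ K) hs
  rw [← ZCongr.dedekindZeta_congr (IntermediateField.topEquiv (F := ℚ) (E := K)).toRingEquiv, h]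
  refine Fintype.prod_equiv (Equiv.subtypeUnivEquiv (p := fun χ => χ ∈ charGroup n
    (⊤ : IntermediateField ℚ K)) fun χ => by rw [charGroup_top]; exact Subgroup.mem_top χ)
    _ _ fun χ => rfl

end cyclotomic

end Fermat.Agent.Cor.AbLaw
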