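import Fermat.Agent.Corollaries.ZetaK.AbelZeta
import Fermat.Agent.Corollaries.ZetaK.Trivial

/-!
# The conductor-discriminant formula

For a subfield `F` of `ℚ(ζ_n)`, comparison of the functional equations of `ζ_F` and of the Dirichlet
`L`-functions gives:

* `natAbs_discr_eq`: `|d_F| = ∏ f_χ`, the product of the conductors of the characters of `F`;
* `numEven_eq`, `numOdd_eq`: the number of even characters is the number `r₁ + r₂` of the infinite
  places, the number of odd characters is the number `r₂` of complex places;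
* `prod_rootNumber_eq_one`: the product of the root numbers is `1`.
-/

set_option autoImplicit false

noncomputable section

namespace Fermat.Agent.Cor.Abel

open NumberField NumberField.InfinitePlace Ideal DirichletCharacter Complex
open IsCyclotomicExtension.Rat

/-! ### The functional equation of a primitive Dirichlet `L`-function -/

section Dir

variable {N : ℕ}

theorem even_inv_iff (χ : DirichletCharacter ℂ N) : χ⁻¹.Even ↔ χ.Even := by
  rw [DirichletCharacter.Even, DirichletCharacter.Even, MulChar.inv_apply_eq_inv', inv_eq_one]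

theorem odd_inv_iff (χ : DirichletCharacter ℂ N) : χ⁻¹.Odd ↔ χ.Odd := by
  rw [DirichletCharacter.Odd, DirichletCharacter.Odd, MulChar.inv_apply_eq_inv', inv_eq_iff_eq_inv,
    inv_neg, inv_one]

open scoped Classical in
/-- `cos(πs/2)` for an even, `sin(πs/2)` for an odd character. -/
def trig (χ : DirichletCharacter ℂ N) (s : ℂ) : ℂ :=
  if χ.Even then cos (Real.pi * s / 2) else sin (Real.pi * s / 2)

/-- **The functional equation** of a primitive Dirichlet `L`-function. -/
theorem LFunction_one_sub [NeZero N] {χ : DirichletCharacter ℂ N} (hχ : χ.IsPrimitive) {s : ℂ}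
    (hs : 1 < s.re) : χ.LFunction (1 - s) =
      (N : ℂ) ^ (s - 1 / 2) * rootNumber χ * (Gammaℂ s * trig χ s) * χ⁻¹.LFunction s := by
  have hs0 : s ≠ 0 := by rintro rfl; rw [zero_re] at hs; linarith
  have hs1 : 1 - s ≠ 0 := by
    intro h
    have : s = 1 := (sub_eq_zero.mp h).symm
    rw [this, one_re] at hs
    exact lt_irrefl _ hs
  have hpos : ∀ m : ℕ, 0 < (s + m).re := fun m => by
    rw [add_re, natCast_re]
    positivity
  rw [LFunction_eq_completed_div_gammaFactor χ (1 - s) (Or.inl hs1),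
    hχ.completedLFunction_one_sub s, LFunction_eq_completed_div_gammaFactor χ⁻¹ s (Or.inl hs0)]
  rcases χ.even_or_odd with he | ho
  · have hne : Gammaℝ s ≠ 0 := Gammaℝ_ne_zero_of_re_pos (by linarith)
    have h1 : Gammaℝ s / Gammaℝ (1 - s) = Gammaℂ s * cos (Real.pi * s / 2) := by
      refine Gammaℝ_div_Gammaℝ_one_sub fun m h => ?_
      rw [h] at hs
      simp only [neg_re, add_re, mul_re, re_ofNat, natCast_re, im_ofNat, natCast_im, one_re] at hs
      have : (0 : ℝ) ≤ m := Nat.cast_nonneg m
      linarith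
    rw [he.gammaFactor_def, ((even_inv_iff χ).mpr he).gammaFactor_def, trig, if_pos he, ← h1]
    field_simp
  · have h1 : (Gammaℝ (2 - s))⁻¹ = Gammaℂ s * sin (Real.pi * s / 2) * (Gammaℝ (s + 1))⁻¹ := by
      refine inv_Gammaℝ_two_sub fun m h => ?_
      rw [h] at hs
      simp only [neg_re, natCast_re] at hs
      have : (0 : ℝ) ≤ m := Nat.cast_nonneg m
      linarith
    rw [ho.gammaFactor_def, ((odd_inv_iff χ).mpr ho).gammaFactor_def, trig, if_neg ho.not_even,
      show 1 - s + 1 = 2 - s by ring, div_eq_mul_inv, h1]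
    ring

/-- The value of the primitive character of a primitive character. -/
theorem IsPrimitive.primitiveCharacter_apply [NeZero N] {χ : DirichletCharacter ℂ N}
    (hχ : χ.IsPrimitive) (a : ℤ) : χ.primitiveCharacter a = χ a := by
  by_cases ha : IsCoprime a N
  · exact primitiveCharacter_apply_of_isCoprime χ ha
  · rw [(apply_eq_zero_iff ..).mpr ha, (apply_eq_zero_iff ..).mpr (by rwa [hχ])]

theorem isPrimitive_inv {χ : DirichletCharacter ℂ N} (hχ : χ.IsPrimitive) : χ⁻¹.IsPrimitive := by
  rw [isPrimitive_def, conductor_inv]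
  exact hχ

/-- The primitive character of the inverse of a character. -/
theorem primitiveCharacter_inv_apply [NeZero N] (χ : DirichletCharacter ℂ N) (a : ℤ) :
    χ⁻¹.primitiveCharacter a = χ.primitiveCharacter⁻¹ a := by
  have h1 : changeLevel χ.conductor_dvd_level χ.primitiveCharacter⁻¹ = χ⁻¹ := by
    rw [map_inv, changeLevel_primitiveCharacter]
  have h2 := primitiveCharacter_changeLevel_apply χ.conductor_dvd_level χ.primitiveCharacter⁻¹ a
  rw [h1] at h2
  rw [h2]
  exact IsPrimitive.primitiveCharacter_apply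
    (isPrimitive_inv χ.primitiveCharacter_isPrimitive) a

theorem LFunction_primitiveCharacter_inv [NeZero N] (χ : DirichletCharacter ℂ N) {s : ℂ}
    (hs : 1 < s.re) :
    χ.primitiveCharacter⁻¹.LFunction s = χ⁻¹.primitiveCharacter.LFunction s := by
  rw [LFunction_eq_LSeries _ hs, LFunction_eq_LSeries _ hs]
  congr 1
  funext a
  have h := primitiveCharacter_inv_apply χ (a : ℤ)
  simpa only [Int.cast_natCast] using h.symm

theorem even_primitiveCharacter_iff (χ : DirichletCharacter ℂ N) :
    χ.primitiveCharacter.Even ↔ χ.Even := by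
  have h := primitiveCharacter_apply_of_isCoprime χ (a := -1) (isCoprime_one_left.neg_left)
  rw [DirichletCharacter.Even, DirichletCharacter.Even]
  simp only [Int.cast_neg, Int.cast_one] at h
  rw [h]

end Dir

/-! ### The functional equation of the product -/

variable {n : ℕ} [NeZero n] {L : Type*} [Field L] [NumberField L]
  [hL : IsCyclotomicExtension {n} ℚ L] (F : IntermediateField ℚ L)

theorem inv_mem_chars {χ : DirichletCharacter ℂ n} (h : χ ∈ chars n F) : χ⁻¹ ∈ chars n F := by
  rw [mem_chars] at h ⊢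
  intro σ hσ
  rw [MulChar.inv_apply_eq_inv', h σ hσ, inv_one]

/-- The product of the conductors of the characters of `F`. -/
def condProd : ℕ := ∏ χ ∈ chars n F, χ.conductor

/-- The product of the root numbers of the characters of `F`. -/
def rootProd : ℂ := ∏ χ ∈ chars n F, χ.primitiveCharacter.rootNumber

open scoped Classical in
/-- The number of even characters of `F`. -/
def numEven : ℕ := ((chars n F).filter fun χ => χ.Even).card

open scoped Classical in
/-- The number of odd characters of `F`. -/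
def numOdd : ℕ := ((chars n F).filter fun χ => ¬ χ.Even).card

theorem numEven_add_numOdd : numEven (n := n) F + numOdd (n := n) F = Module.finrank ℚ F := by
  classical
  rw [numEven, numOdd, Finset.card_filter_add_card_filter_not, card_chars]

theorem condProd_pos : 0 < condProd (n := n) F :=
  Finset.prod_pos fun χ _ => Nat.pos_of_ne_zero χ.conductor_ne_zero

theorem prod_natCast_cpow {ι : Type*} (S : Finset ι) (c : ι → ℕ) (z : ℂ) :
    ∏ i ∈ S, (c i : ℂ) ^ z = ((∏ i ∈ S, c i : ℕ) : ℂ) ^ z := by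
  classical
  induction S using Finset.induction_on with
  | empty => simp
  | insert a S ha ih =>
    rw [Finset.prod_insert ha, Finset.prod_insert ha, ih, Nat.cast_mul,
      natCast_mul_natCast_cpow]

/-- **The functional equation** of the product of the `L`-functions of `F`. -/
theorem zetaK_one_sub_chars {s : ℂ} (hs : 1 < s.re) :
    zetaK F (1 - s) = (condProd (n := n) F : ℂ) ^ (s - 1 / 2) * rootProd (n := n) F *
      (Gammaℂ s ^ Module.finrank ℚ F * (cos (Real.pi * s / 2) ^ numEven (n := n) F *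
        sin (Real.pi * s / 2) ^ numOdd (n := n) F)) * zetaK F s := by
  classical
  have hs0 : s ≠ 0 := by rintro rfl; rw [zero_re] at hs; linarith
  have hs1 : s ≠ 1 := by rintro rfl; rw [one_re] at hs; linarith
  have hs2 : 1 - s ≠ 1 := fun h => hs0 (by linear_combination -h)
  rw [zetaK_eq_prod (n := n) F hs2, zetaK_eq_prod (n := n) F hs1,
    Finset.prod_congr rfl fun χ _ => LFunction_one_sub χ.primitiveCharacter_isPrimitive hs,
    Finset.prod_mul_distrib, Finset.prod_mul_distrib, Finset.prod_mul_distrib,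
    Finset.prod_mul_distrib, prod_natCast_cpow, Finset.prod_const, card_chars]
  have h1 : ∏ χ ∈ chars n F, χ.primitiveCharacter⁻¹.LFunction s =
      ∏ χ ∈ chars n F, χ.primitiveCharacter.LFunction s := by
    rw [Finset.prod_congr rfl fun χ _ => LFunction_primitiveCharacter_inv χ hs]
    exact Finset.prod_bij (fun χ _ => χ⁻¹) (fun χ hχ => inv_mem_chars F hχ)
      (fun _ _ _ _ h => inv_injective h)
      (fun χ hχ => ⟨χ⁻¹, inv_mem_chars F hχ, inv_inv χ⟩) fun _ _ => rfl
  have h2 : ∏ χ ∈ chars n F, trig χ.primitiveCharacter s =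
      cos (Real.pi * s / 2) ^ numEven (n := n) F * sin (Real.pi * s / 2) ^ numOdd (n := n) F := by
    rw [numEven, numOdd, ← Finset.prod_const, ← Finset.prod_const, ← Finset.prod_ite]
    refine Finset.prod_congr rfl fun χ _ => ?_
    rw [trig]
    simp only [even_primitiveCharacter_iff]
  rw [h1, h2]
  rfl

/-! ### Comparison -/

theorem Gammaℂ_ne_zero_of_re_pos {s : ℂ} (hs : 0 < s.re) : Gammaℂ s ≠ 0 := by
  rw [Gammaℂ_def]
  refine mul_ne_zero (mul_ne_zero two_ne_zero ?_) (Gamma_ne_zero_of_re_pos hs)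
  rw [cpow_ne_zero_iff]
  left
  exact mul_ne_zero two_ne_zero (by exact_mod_cast Real.pi_ne_zero)

/-- The two functional equations compared. -/
theorem compare {s : ℂ} (hs : 1 < s.re) :
    ((|(discr F : ℝ)| : ℝ) : ℂ) ^ (s - 1 / 2) *
      cos (Real.pi * s / 2) ^ (nrRealPlaces F + nrComplexPlaces F) *
      sin (Real.pi * s / 2) ^ nrComplexPlaces F =
    (condProd (n := n) F : ℂ) ^ (s - 1 / 2) * rootProd (n := n) F *
      (cos (Real.pi * s / 2) ^ numEven (n := n) F *
        sin (Real.pi * s / 2) ^ numOdd (n := n) F) := by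
  have hs1 : s ≠ 1 := by rintro rfl; rw [one_re] at hs; linarith
  have hsn : ∀ m : ℕ, s ≠ -m := by
    rintro m rfl
    rw [neg_re, natCast_re] at hs
    have : (0 : ℝ) ≤ m := Nat.cast_nonneg m
    linarith
  have h1 := zetaK_one_sub (K := F) hs1 hsn
  rw [zetaK_one_sub_chars (n := n) F hs] at h1
  have h2 : zetaK F s ≠ 0 := zetaK_ne_zero_of_one_lt_re hs
  have h3 : Gammaℂ s ^ Module.finrank ℚ F ≠ 0 :=
    pow_ne_zero _ (Gammaℂ_ne_zero_of_re_pos (by linarith))
  refine mul_right_cancel₀ (mul_ne_zero h3 h2) ?_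
  linear_combination -h1

theorem le_of_eventually {c A B : ℂ → ℂ} {x : ℂ} (hA : ContinuousAt A x) (hB : ContinuousAt B x)
    (hc : ContinuousAt c x) (hc0 : c x = 0) (hne : ∀ᶠ s in nhdsWithin x {x}ᶜ, c s ≠ 0)
    (hA0 : A x ≠ 0) {a b : ℕ}
    (h : ∀ᶠ s in nhdsWithin x {x}ᶜ, A s * c s ^ a = B s * c s ^ b) : b ≤ a := by
  by_contra hab
  rw [not_le] at hab
  have h1 : Filter.Tendsto (fun s => B s * c s ^ (b - a)) (nhdsWithin x {x}ᶜ)
      (nhds (B x * c x ^ (b - a))) :=
    (hB.mul (hc.pow _)).tendsto.mono_left nhdsWithin_le_nhds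
  have h2 : Filter.Tendsto A (nhdsWithin x {x}ᶜ) (nhds (A x)) :=
    hA.tendsto.mono_left nhdsWithin_le_nhds
  have h3 := tendsto_nhds_unique (h2.congr' ?_) h1
  · rw [hc0, zero_pow (by omega), mul_zero] at h3
    exact hA0 h3
  · filter_upwards [h, hne] with s hs hs'
    have h4 : c s ^ b = c s ^ (b - a) * c s ^ a := by
      rw [← pow_add]
      congr 1
      omega
    rw [h4, ← mul_assoc] at hs
    exact mul_right_cancel₀ (pow_ne_zero a hs') hs

theorem cos_three : cos (Real.pi * 3 / 2) = 0 := by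
  rw [cos_eq_zero_iff]
  exact ⟨1, by push_cast; ring⟩

theorem sin_three : sin (Real.pi * 3 / 2) ≠ 0 := by
  rw [Ne, sin_eq_zero_iff]
  rintro ⟨k, hk⟩
  have hpi : (Real.pi : ℂ) ≠ 0 := by exact_mod_cast Real.pi_ne_zero
  have h1 : (3 : ℂ) = 2 * k := by
    refine mul_left_cancel₀ hpi ?_
    linear_combination 2 * hk
  have h2 : (3 : ℤ) = 2 * k := by exact_mod_cast h1
  omega

theorem cos_ne_zero_of_odd {m : ℤ} (hm : Odd m) : cos (Real.pi * (m / 2) / 2) ≠ 0 := by
  rw [Ne, cos_eq_zero_iff]
  rintro ⟨k, hk⟩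
  have hpi : (Real.pi : ℂ) ≠ 0 := by exact_mod_cast Real.pi_ne_zero
  have h1 : (m : ℂ) = 2 * (2 * k + 1) := by
    refine mul_left_cancel₀ hpi ?_
    linear_combination 4 * hk
  have h2 : m = 2 * (2 * k + 1) := by exact_mod_cast h1
  rw [h2] at hm
  exact (Int.not_odd_iff_even.mpr ⟨2 * k + 1, by ring⟩) hm

theorem sin_ne_zero_of_odd {m : ℤ} (hm : Odd m) : sin (Real.pi * (m / 2) / 2) ≠ 0 := by
  rw [Ne, sin_eq_zero_iff]
  rintro ⟨k, hk⟩
  have hpi : (Real.pi : ℂ) ≠ 0 := by exact_mod_cast Real.pi_ne_zero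
  have h1 : (m : ℂ) = 2 * (2 * k) := by
    refine mul_left_cancel₀ hpi ?_
    linear_combination 4 * hk
  have h2 : m = 2 * (2 * k) := by exact_mod_cast h1
  rw [h2] at hm
  exact (Int.not_odd_iff_even.mpr ⟨2 * k, by ring⟩) hm

theorem absDisc_ne_zero' : ((|(discr F : ℝ)| : ℝ) : ℂ) ≠ 0 := absDisc_ne_zero

theorem condProd_ne_zero : (condProd (n := n) F : ℂ) ≠ 0 := by
  exact_mod_cast (condProd_pos (n := n) F).ne'

theorem rootProd_ne_zero : rootProd (n := n) F ≠ 0 := by
  have h := compare (n := n) F (s := ((3 : ℤ) : ℂ) / 2) (by norm_num)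
  have h1 := cos_ne_zero_of_odd (m := 3) (by decide)
  have h2 := sin_ne_zero_of_odd (m := 3) (by decide)
  intro h0
  rw [h0, mul_zero, zero_mul] at h
  refine mul_ne_zero (mul_ne_zero ?_ (pow_ne_zero _ h1)) (pow_ne_zero _ h2) h
  rw [cpow_ne_zero_iff]
  exact Or.inl absDisc_ne_zero

theorem eventually_cos_ne_zero :
    ∀ᶠ s in nhdsWithin (3 : ℂ) {3}ᶜ, cos (Real.pi * s / 2) ≠ 0 := by
  have h1 : HasDerivAt (fun s : ℂ => cos (Real.pi * s / 2))
      (-sin (Real.pi * 3 / 2) * (Real.pi * 1 / 2)) 3 := by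
    refine HasDerivAt.ccos ?_
    exact ((hasDerivAt_id (3 : ℂ)).const_mul (Real.pi : ℂ)).div_const 2
  refine h1.eventually_ne ?_
  have hpi : (Real.pi : ℂ) ≠ 0 := by exact_mod_cast Real.pi_ne_zero
  exact mul_ne_zero (neg_ne_zero.mpr sin_three) (by simp)

theorem eventually_one_lt_re : ∀ᶠ s in nhdsWithin (3 : ℂ) {3}ᶜ, 1 < s.re := by
  refine nhdsWithin_le_nhds ?_
  exact (isOpen_lt continuous_const continuous_re).mem_nhds (by norm_num)

/-- **The number of even characters of `F` is the number of its infinite places.** -/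
theorem numEven_eq : numEven (n := n) F = nrRealPlaces F + nrComplexPlaces F := by
  have hD : ContinuousAt (fun s : ℂ => ((|(discr F : ℝ)| : ℝ) : ℂ) ^ (s - 1 / 2) *
      sin (Real.pi * s / 2) ^ nrComplexPlaces F) 3 := by
    refine ContinuousAt.mul ?_ (by fun_prop)
    exact ContinuousAt.const_cpow (by fun_prop) (Or.inl absDisc_ne_zero)
  have hQ : ContinuousAt (fun s : ℂ => (condProd (n := n) F : ℂ) ^ (s - 1 / 2) *
      rootProd (n := n) F * sin (Real.pi * s / 2) ^ numOdd (n := n) F) 3 := by
    refine ContinuousAt.mul (ContinuousAt.mul ?_ continuousAt_const) (by fun_prop)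
    exact ContinuousAt.const_cpow (by fun_prop) (Or.inl (condProd_ne_zero F))
  have hc : ContinuousAt (fun s : ℂ => cos (Real.pi * s / 2)) 3 := by fun_prop
  have hev : ∀ᶠ s in nhdsWithin (3 : ℂ) {3}ᶜ,
      (((|(discr F : ℝ)| : ℝ) : ℂ) ^ (s - 1 / 2) * sin (Real.pi * s / 2) ^ nrComplexPlaces F) *
        cos (Real.pi * s / 2) ^ (nrRealPlaces F + nrComplexPlaces F) =
      ((condProd (n := n) F : ℂ) ^ (s - 1 / 2) * rootProd (n := n) F *
        sin (Real.pi * s / 2) ^ numOdd (n := n) F) *
        cos (Real.pi * s / 2) ^ numEven (n := n) F := by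
    filter_upwards [eventually_one_lt_re] with s hs
    linear_combination compare (n := n) F hs
  refine le_antisymm ?_ ?_
  · refine le_of_eventually hD hQ hc cos_three eventually_cos_ne_zero ?_ hev
    refine mul_ne_zero ?_ (pow_ne_zero _ sin_three)
    rw [cpow_ne_zero_iff]
    exact Or.inl absDisc_ne_zero
  · refine le_of_eventually hQ hD hc cos_three eventually_cos_ne_zero ?_
      (hev.mono fun s hs => hs.symm)
    refine mul_ne_zero (mul_ne_zero ?_ (rootProd_ne_zero F)) (pow_ne_zero _ sin_three)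
    rw [cpow_ne_zero_iff]
    exact Or.inl (condProd_ne_zero F)

/-- **The number of odd characters of `F` is the number of its complex places.** -/
theorem numOdd_eq : numOdd (n := n) F = nrComplexPlaces F := by
  have h1 := numEven_eq (n := n) F
  have h2 := numEven_add_numOdd (n := n) F
  have h3 := card_add_two_mul_card_eq_rank (K := F)
  omega

theorem compare' {s : ℂ} (hs : 1 < s.re) (hc : cos (Real.pi * s / 2) ≠ 0)
    (hs' : sin (Real.pi * s / 2) ≠ 0) :
    ((|(discr F : ℝ)| : ℝ) : ℂ) ^ (s - 1 / 2) =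
      (condProd (n := n) F : ℂ) ^ (s - 1 / 2) * rootProd (n := n) F := by
  have h := compare (n := n) F hs
  rw [numEven_eq, numOdd_eq] at h
  refine mul_right_cancel₀ (mul_ne_zero (pow_ne_zero (nrRealPlaces F + nrComplexPlaces F) hc)
    (pow_ne_zero (nrComplexPlaces F) hs')) ?_
  linear_combination h

theorem disc_eq_aux : ((|(discr F : ℝ)| : ℝ) : ℂ) = (condProd (n := n) F : ℂ) := by
  have h1 := compare' (n := n) F (s := ((3 : ℤ) : ℂ) / 2) (by norm_num)
    (cos_ne_zero_of_odd (m := 3) (by decide)) (sin_ne_zero_of_odd (m := 3) (by decide))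
  have h2 := compare' (n := n) F (s := ((5 : ℤ) : ℂ) / 2) (by norm_num)
    (cos_ne_zero_of_odd (m := 5) (by decide)) (sin_ne_zero_of_odd (m := 5) (by decide))
  rw [show ((3 : ℤ) : ℂ) / 2 - 1 / 2 = 1 by norm_num, cpow_one, cpow_one] at h1
  rw [show ((5 : ℤ) : ℂ) / 2 - 1 / 2 = ((2 : ℕ) : ℂ) by norm_num, cpow_natCast,
    cpow_natCast] at h2
  have hD := absDisc_ne_zero' F
  refine mul_right_cancel₀ hD ?_
  linear_combination h2 - (condProd (n := n) F : ℂ) * h1

/-- **The conductor-discriminant formula**: the discriminant of an abelian field is, up to sign, the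
product of the conductors of its characters. -/
theorem natAbs_discr_eq : (discr F).natAbs = ∏ χ ∈ chars n F, χ.conductor := by
  have h := disc_eq_aux (n := n) F
  have h1 : |(discr F : ℝ)| = (condProd (n := n) F : ℝ) := by exact_mod_cast h
  have h2 : ((|discr F| : ℤ) : ℝ) = ((condProd (n := n) F : ℤ) : ℝ) := by
    rw [Int.cast_abs, h1]
    push_cast
    rfl
  have h3 : |discr F| = (condProd (n := n) F : ℤ) := by exact_mod_cast h2
  rw [Int.abs_eq_natAbs] at h3
  exact_mod_cast h3

/-- The product of the root numbers of the characters of an abelian field is `1`. -/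
theorem prod_rootNumber_eq_one :
    ∏ χ ∈ chars n F, χ.primitiveCharacter.rootNumber = 1 := by
  have h1 := compare' (n := n) F (s := ((3 : ℤ) : ℂ) / 2) (by norm_num)
    (cos_ne_zero_of_odd (m := 3) (by decide)) (sin_ne_zero_of_odd (m := 3) (by decide))
  rw [disc_eq_aux (n := n) F] at h1
  have h2 : (condProd (n := n) F : ℂ) ^ (((3 : ℤ) : ℂ) / 2 - 1 / 2) ≠ 0 := by
    rw [cpow_ne_zero_iff]
    exact Or.inl (condProd_ne_zero F)
  refine mul_left_cancel₀ h2 ?_
  rw [mul_one]
  exact h1.symm

end Fermat.Agent.Cor.Abel
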