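import Mathlib

/-!
# The Euler factors of an abelian number field

Let `L = ℚ(ζ_n)`, `p` a prime, `n = p ^ k m`, `p ∤ m`.

* `inertia_eq`, `stabilizer_eq`: the inertia group of `p` is the kernel of `Gal(L/ℚ) → (ℤ/m)ˣ`, the
  decomposition group is the inverse image of `⟨p⟩`;
* `prod_chars`: for a subfield `F` of `L`, and `chars n F` the set of the Dirichlet characters `χ`
  of level `n` trivial on `Gal(L/F)`: `∏ (1 - χ(p) T) = (1 - T ^ f) ^ g`, where `χ(p)` is the value of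
  the primitive character of `χ`, `f` the inertia degree of `p` in `F` and `g` the number of primes
  of `F` above `p`.
-/

set_option autoImplicit false

namespace Fermat.Agent.Cor.Abel

section Prod

open Finset Polynomial

/-- The product of `1 - Φ(y) T` over a finite group with a homomorphism to `ℂˣ` whose kernel has
order `g` and index `f`. -/
theorem prod_one_sub_hom {Y : Type*} [Group Y] [Fintype Y] (Φ : Y →* ℂ) {f g : ℕ}
    (hcard : Fintype.card Y = f * g) (hker : Nat.card {y : Y // Φ y = 1} = g) (T : ℂ) :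
    ∏ y : Y, (1 - Φ y * T) = (1 - T ^ f) ^ g := by
  classical
  have hg : 0 < g := by
    rw [← hker]
    have : Nonempty {y : Y // Φ y = 1} := ⟨⟨1, map_one Φ⟩⟩
    exact Nat.card_pos
  have hf : 0 < f := by
    have h := Fintype.card_pos (α := Y)
    rw [hcard] at h
    exact Nat.pos_of_mul_pos_right h
  have hfib : ∀ b ∈ univ.image Φ, #{y ∈ univ | Φ y = b} = g := by
    intro b hb
    obtain ⟨y, -, rfl⟩ := mem_image.mp hb
    rw [MonoidHom.card_fiber_eq_of_mem_range Φ ⟨y, rfl⟩ ⟨1, map_one Φ⟩, ← hker,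
      Nat.card_eq_fintype_card, Fintype.card_subtype]
  have hs : #(univ.image Φ) = f := by
    have h := card_eq_sum_card_image Φ (univ : Finset Y)
    rw [sum_congr rfl hfib, sum_const, smul_eq_mul, card_univ, hcard] at h
    exact (Nat.eq_of_mul_eq_mul_right hg h).symm
  have hpow : ∀ y : Y, Φ y ^ f = 1 := by
    intro y
    let Ψ : Y →* ℂˣ := Φ.toHomUnits
    have hΨ : ∀ y, ((Ψ y : ℂˣ) : ℂ) = Φ y := fun y => rfl
    have h1 : Nat.card Ψ.ker = g := by
      rw [← hker]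
      refine Nat.card_congr (Equiv.subtypeEquivRight fun y => ?_)
      rw [MonoidHom.mem_ker, Units.ext_iff, hΨ, Units.val_one]
    have h2 := Subgroup.card_mul_index Ψ.ker
    rw [h1, Subgroup.index_ker, Nat.card_eq_fintype_card (α := Y), hcard, mul_comm] at h2
    have h3 : Nat.card Ψ.range = f := Nat.eq_of_mul_eq_mul_right hg h2
    have h4 : (⟨Ψ y, y, rfl⟩ : Ψ.range) ^ f = 1 := by
      rw [← h3]
      exact pow_card_eq_one'
    have h5 : Ψ y ^ f = 1 := congrArg Subtype.val h4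
    rw [← hΨ, ← Units.val_pow_eq_pow_val, h5, Units.val_one]
  have himg : univ.image Φ = nthRootsFinset f (1 : ℂ) := by
    refine eq_of_subset_of_card_le (fun b hb => ?_) ?_
    · obtain ⟨y, -, rfl⟩ := mem_image.mp hb
      rw [mem_nthRootsFinset hf]
      exact hpow y
    · rw [(Complex.isPrimitiveRoot_exp f hf.ne').card_nthRootsFinset, hs]
  rw [prod_comp (s := univ) (fun b : ℂ => 1 - b * T) Φ, prod_congr rfl fun b hb => by
    rw [hfib b hb], prod_pow, himg,
    ← (Complex.isPrimitiveRoot_exp f hf.ne').pow_sub_pow_eq_prod_sub_mul 1 T hf, one_pow]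

end Prod

open NumberField IsCyclotomicExtension IsCyclotomicExtension.Rat MulAction Ideal
open scoped Pointwise

variable (n : ℕ) [NeZero n] (L : Type*) [Field L] [NumberField L]
  [hL : IsCyclotomicExtension {n} ℚ L]

/-- The Galois group of `ℚ(ζ_n)` maps onto `(ℤ/m)ˣ`, `m ∣ n`. -/
noncomputable def galMod {m : ℕ} (h : m ∣ n) : Gal(L/ℚ) →* (ZMod m)ˣ :=
  (ZMod.unitsMap h).comp (galEquivZMod n L).toMonoidHom

theorem galMod_apply {m : ℕ} (h : m ∣ n) (σ : Gal(L/ℚ)) :
    galMod n L h σ = ZMod.unitsMap h (galEquivZMod n L σ) := rfl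

theorem galMod_surjective {m : ℕ} (h : m ∣ n) : Function.Surjective (galMod n L h) :=
  (ZMod.unitsMap_surjective h).comp (galEquivZMod n L).surjective

variable {n} {L}
variable {p : ℕ} [hp : Fact p.Prime] {k m : ℕ}

/-- ramification index and inertia degree of `p` in `ℚ(ζ_n)`. -/
theorem ramificationIdxIn_eq' (hn : n = p ^ k * m) (hm : ¬ p ∣ m) :
    (span {(p : ℤ)}).ramificationIdxIn (𝓞 L) = Nat.totient (p ^ k) := by
  rcases k with _ | k
  · have hn' : ¬ p ∣ n := by rwa [hn, pow_zero, one_mul]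
    rw [ramificationIdxIn_eq_of_not_dvd p L hn', pow_zero, Nat.totient_one]
  · rw [ramificationIdxIn_eq n L hn hm, Nat.totient_prime_pow_succ hp.out]

theorem inertiaDegIn_eq' (hn : n = p ^ k * m) (hm : ¬ p ∣ m) :
    (span {(p : ℤ)}).inertiaDegIn (𝓞 L) = orderOf (p : ZMod m) := by
  rcases k with _ | k
  · have hn' : n = m := by rwa [pow_zero, one_mul] at hn
    subst hn'
    rw [inertiaDegIn_eq_of_not_dvd p L hm]
  · rw [inertiaDegIn_eq n L hn hm]

variable (𝔓 : Ideal (𝓞 L)) [𝔓.IsMaximal] [𝔓.LiesOver (span {(p : ℤ)})]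

include 𝔓 in
theorem exists_root (hn : n = p ^ k * m) (hm : ¬ p ∣ m) :
    ∃ x : 𝓞 L, x ^ n = 1 ∧ IsPrimitiveRoot (Ideal.Quotient.mk 𝔓 x) m := by
  have : NeZero m := ⟨fun h => hm (h ▸ dvd_zero p)⟩
  have hζ := (zeta_spec n ℚ L).toInteger_isPrimitiveRoot
  have hx := hζ.pow (NeZero.pos n) hn
  refine ⟨_, ?_, hx.idealQuotient_mk (by simpa using IsMaximal.ne_top inferInstance) ?_⟩
  · rw [← pow_mul, mul_comm, pow_mul, hζ.pow_eq_one, one_pow]
  · rw [← pow_inertiaDeg p]
    exact Nat.Coprime.pow_left _ ((Nat.Prime.coprime_iff_not_dvd hp.out).mpr hm)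

theorem inertia_le (hn : n = p ^ k * m) (hm : ¬ p ∣ m) :
    𝔓.inertia Gal(L/ℚ) ≤ (galMod n L (Dvd.intro_left _ hn.symm)).ker := by
  have : NeZero m := ⟨fun h => hm (h ▸ dvd_zero p)⟩
  intro σ hσ
  obtain ⟨x, hx, hr⟩ := exists_root 𝔓 hn hm
  have h1 : Ideal.Quotient.mk 𝔓 (σ • x) = Ideal.Quotient.mk 𝔓 x :=
    Ideal.Quotient.eq.mpr (hσ x)
  rw [galEquivZMod_smul_of_pow_eq n L σ hx, map_pow] at h1
  nth_rewrite 2 [← pow_one (Ideal.Quotient.mk 𝔓 x)] at h1
  rw [(hr.isOfFinOrder (NeZero.ne _)).pow_inj_mod, ← hr.eq_orderOf,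
    ← ZMod.natCast_eq_natCast_iff'] at h1
  rw [MonoidHom.mem_ker, galMod_apply, Units.ext_iff, ZMod.unitsMap_val, Units.val_one,
    ← ZMod.natCast_val, h1, Nat.cast_one]

attribute [local instance] Ideal.Quotient.field in
theorem stabilizer_le (hn : n = p ^ k * m) (hm : ¬ p ∣ m) (hpm : p.Coprime m) :
    stabilizer Gal(L/ℚ) 𝔓 ≤ (Subgroup.zpowers (ZMod.unitOfCoprime p hpm)).comap
      (galMod n L (Dvd.intro_left _ hn.symm)) := by
  have : NeZero m := ⟨fun h => hm (h ▸ dvd_zero p)⟩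
  intro σ hσ
  obtain ⟨x, hx, hr⟩ := exists_root 𝔓 hn hm
  let τ := IsFractionRing.stabilizerHom Gal(L/ℚ) (Ideal.span {(p : ℤ)}) 𝔓
     (ℤ ⧸ span {(p : ℤ)}) (𝓞 L ⧸ 𝔓) ⟨σ, hσ⟩
  have : CharP (ℤ ⧸ span {(p : ℤ)}) p := ringChar.of_eq <| Int.ringChar_idealQuot p
  have : Finite (𝓞 L ⧸ 𝔓) := Ring.HasFiniteQuotients.finiteQuotient (NeZero.ne 𝔓)
  obtain ⟨i, hi⟩ := FiniteField.exists_forall_apply_eq_pow (ℤ ⧸ span {(p : ℤ)}) p (𝓞 L ⧸ 𝔓) τ
  have h₁ := IsFractionRing.stabilizerHom_apply_apply_mk Gal(L/ℚ) (Ideal.span {(p : ℤ)}) 𝔓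
      (ℤ ⧸ span {(p : ℤ)}) (𝓞 L ⧸ 𝔓) ⟨σ, hσ⟩ x
  simp only [Algebra.algebraMap_self, RingHomCompTriple.comp_apply] at h₁
  specialize hi (Ideal.Quotient.mk 𝔓 x)
  rw [h₁, Int.card_ideal_quot, galEquivZMod_smul_of_pow_eq n L σ hx, map_pow,
    (hr.isOfFinOrder (NeZero.ne _)).pow_inj_mod, ← hr.eq_orderOf, ← ZMod.natCast_eq_natCast_iff',
    Nat.cast_pow] at hi
  refine ⟨i, ?_⟩
  rw [galMod_apply, Units.ext_iff, ZMod.unitsMap_val, ← ZMod.natCast_val, hi]
  simp

/-! ### Cardinalities -/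

omit [NeZero n] [NumberField L] in
theorem card_comap_of_surjective {A B : Type*} [Group A] [Group B] [Finite A]
    (φ : A →* B) (hφ : Function.Surjective φ) (S : Subgroup B) :
    Nat.card (S.comap φ) = Nat.card φ.ker * Nat.card S := by
  have : Finite B := Finite.of_surjective φ hφ
  have h1 := (S.comap φ).card_mul_index
  have h2 := S.card_mul_index
  have h3 := φ.ker.card_mul_index
  rw [Subgroup.index_comap_of_surjective S hφ] at h1
  rw [Subgroup.index_ker, MonoidHom.range_eq_top.mpr hφ, Subgroup.card_top] at h3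
  rw [← h3, ← h2, ← mul_assoc] at h1
  exact Nat.eq_of_mul_eq_mul_right (Nat.pos_of_ne_zero S.index_ne_zero_of_finite) h1

omit 𝔓 [𝔓.IsMaximal] [𝔓.LiesOver (span {(p : ℤ)})] in
theorem card_ker_galMod (hn : n = p ^ k * m) (hm : ¬ p ∣ m) :
    Nat.card (galMod n L (Dvd.intro_left _ hn.symm)).ker = Nat.totient (p ^ k) := by
  have : NeZero m := ⟨fun h => hm (h ▸ dvd_zero p)⟩
  have h := (galMod n L (Dvd.intro_left _ hn.symm)).ker.card_mul_index
  rw [Subgroup.index_ker, MonoidHom.range_eq_top.mpr (galMod_surjective n L _),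
    Subgroup.card_top, Nat.card_congr (galEquivZMod n L).toEquiv,
    Nat.card_eq_fintype_card (α := (ZMod m)ˣ), Nat.card_eq_fintype_card (α := (ZMod n)ˣ),
    ZMod.card_units_eq_totient, ZMod.card_units_eq_totient] at h
  have h2 : Nat.totient n = Nat.totient (p ^ k) * Nat.totient m := by
    rw [hn, Nat.totient_mul (Nat.Coprime.pow_left _
      ((Nat.Prime.coprime_iff_not_dvd hp.out).mpr hm))]
  rw [h2] at h
  exact Nat.eq_of_mul_eq_mul_right (Nat.totient_pos.mpr (NeZero.pos m)) h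

/-- **The inertia group of `p` in `ℚ(ζ_n)`.** -/
theorem inertia_eq (hn : n = p ^ k * m) (hm : ¬ p ∣ m) :
    𝔓.inertia Gal(L/ℚ) = (galMod n L (Dvd.intro_left _ hn.symm)).ker := by
  have : IsGalois ℚ L := IsCyclotomicExtension.isGalois {n} ℚ L
  refine Subgroup.eq_of_le_of_card_ge (inertia_le 𝔓 hn hm) ?_
  rw [card_ker_galMod hn hm, Ideal.card_inertia_eq_ramificationIdxIn (span {(p : ℤ)}) 𝔓,
    ramificationIdxIn_eq' hn hm]

/-- **The decomposition group of `p` in `ℚ(ζ_n)`.** -/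
theorem stabilizer_eq (hn : n = p ^ k * m) (hm : ¬ p ∣ m) (hpm : p.Coprime m) :
    stabilizer Gal(L/ℚ) 𝔓 = (Subgroup.zpowers (ZMod.unitOfCoprime p hpm)).comap
      (galMod n L (Dvd.intro_left _ hn.symm)) := by
  have : IsGalois ℚ L := IsCyclotomicExtension.isGalois {n} ℚ L
  refine Subgroup.eq_of_le_of_card_ge (stabilizer_le 𝔓 hn hm hpm) ?_
  rw [card_comap_of_surjective _ (galMod_surjective n L _), card_ker_galMod hn hm,
    Ideal.card_stabilizer_eq (span {(p : ℤ)}) 𝔓, ramificationIdxIn_eq' hn hm,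
    inertiaDegIn_eq' hn hm, Nat.card_zpowers, ← orderOf_injective _ Units.coeHom_injective,
    Units.coeHom_apply, ZMod.coe_unitOfCoprime]

theorem index_sup_mul_card {G : Type*} [Group G] [Finite G] (H S : Subgroup G) [H.Normal] :
    (H ⊔ S).index * Nat.card S = H.index * Nat.card (S.subgroupOf H) := by
  have h1 : H.relIndex (H ⊔ S) * (H ⊔ S).index = H.index :=
    Subgroup.relIndex_mul_index le_sup_left
  rw [Subgroup.relIndex_sup_left] at h1
  have h2 : Nat.card (H.subgroupOf S) * H.relIndex S = Nat.card S :=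
    (H.subgroupOf S).card_mul_index
  have h3 : Nat.card (H.subgroupOf S) = Nat.card (S.subgroupOf H) := by
    rw [← Subgroup.card_map_of_injective (K := S.subgroupOf H) (f := H.subtype)
      H.subtype_injective, ← Subgroup.card_map_of_injective (K := H.subgroupOf S) (f := S.subtype)
      S.subtype_injective, Subgroup.subgroupOf_map_subtype, Subgroup.subgroupOf_map_subtype,
      inf_comm]
  rw [← h1, ← h2, h3]
  ring

/-! ### Subfields of a Galois extension -/

section Sub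

variable {M : Type*} [Field M] [NumberField M] [IsGalois ℚ M] (F : IntermediateField ℚ M)
  [IsGalois ℚ F] (𝔔 : Ideal (𝓞 M)) [𝔔.IsPrime] (P : Ideal (𝓞 F)) [P.IsPrime]
  [𝔔.LiesOver P] [P.LiesOver (span {(p : ℤ)})]

omit [NeZero n] [NumberField L] hL in
theorem index_eq : F.fixingSubgroup.index = ((span {(p : ℤ)}).primesOver (𝓞 F)).ncard *
    (P.ramificationIdx ℤ * P.inertiaDeg ℤ) := by
  have h := ncard_primesOver_mul_ramificationIdxIn_mul_inertiaDegIn (span {(p : ℤ)}) (𝓞 F)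
    Gal(F/ℚ)
  rw [IsGalois.card_aut_eq_finrank, ramificationIdxIn_eq_ramificationIdx (span {(p : ℤ)}) P
    Gal(F/ℚ), inertiaDegIn_eq_inertiaDeg (span {(p : ℤ)}) P Gal(F/ℚ)] at h
  rw [h, IntermediateField.finrank_eq_fixingSubgroup_index]

include P in
omit [IsGalois ℚ F] [P.LiesOver (span {(p : ℤ)})] in
theorem card_inertia_fixing :
    Nat.card ((𝔔.inertia Gal(M/ℚ)).subgroupOf F.fixingSubgroup) = 𝔔.ramificationIdx (𝓞 F) := by
  have hG : IsGaloisGroup F.fixingSubgroup F M :=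
    inferInstanceAs (IsGaloisGroup (fixingSubgroup Gal(M/ℚ) (F : Set M)) F M)
  have hG' : IsGaloisGroup F.fixingSubgroup (𝓞 F) (𝓞 M) :=
    IsGaloisGroup.of_isFractionRing _ _ _ F M
  rw [AddSubgroup.subgroupOf_inertia]
  have h := Ideal.card_inertia_eq_ramificationIdxIn (G := F.fixingSubgroup) P 𝔔
  rw [ramificationIdxIn_eq_ramificationIdx P 𝔔 F.fixingSubgroup] at h
  exact h

include P in
omit [IsGalois ℚ F] [P.LiesOver (span {(p : ℤ)})] in
theorem card_stabilizer_fixing :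
    Nat.card ((stabilizer Gal(M/ℚ) 𝔔).subgroupOf F.fixingSubgroup) =
      𝔔.ramificationIdx (𝓞 F) * 𝔔.inertiaDeg (𝓞 F) := by
  have hG : IsGaloisGroup F.fixingSubgroup F M :=
    inferInstanceAs (IsGaloisGroup (fixingSubgroup Gal(M/ℚ) (F : Set M)) F M)
  have hG' : IsGaloisGroup F.fixingSubgroup (𝓞 F) (𝓞 M) :=
    IsGaloisGroup.of_isFractionRing _ _ _ F M
  have h1 : (stabilizer Gal(M/ℚ) 𝔔).subgroupOf F.fixingSubgroup =
      stabilizer F.fixingSubgroup 𝔔 := rfl
  have h := Ideal.card_stabilizer_eq (G := F.fixingSubgroup) P 𝔔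
  rw [ramificationIdxIn_eq_ramificationIdx P 𝔔 F.fixingSubgroup,
    inertiaDegIn_eq_inertiaDeg P 𝔔 F.fixingSubgroup] at h
  rw [h1]
  exact h

/-- the index of `H I`, where `I` is the inertia group. -/
theorem index_sup_inertia : (F.fixingSubgroup ⊔ 𝔔.inertia Gal(M/ℚ)).index =
    ((span {(p : ℤ)}).primesOver (𝓞 F)).ncard * P.inertiaDeg ℤ := by
  have : 𝔔.LiesOver (span {(p : ℤ)}) := LiesOver.trans 𝔔 P _
  have hN : F.fixingSubgroup.Normal := by
    have : @IsGalois ℚ _ F _ F.algebra' := by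
      convert! (inferInstance : IsGalois ℚ F)
    exact IsGalois.fixingSubgroup_normal_of_isGalois F
  have h := index_sup_mul_card F.fixingSubgroup (𝔔.inertia Gal(M/ℚ))
  rw [card_inertia_fixing F 𝔔 P, Ideal.card_inertia_eq_ramificationIdxIn (span {(p : ℤ)}) 𝔔,
    ramificationIdxIn_eq_ramificationIdx (span {(p : ℤ)}) 𝔔 Gal(M/ℚ),
    ramificationIdx_tower P 𝔔, ← mul_assoc, index_eq (p := p) F P] at h
  have h2 := Nat.eq_of_mul_eq_mul_right (𝔔.ramificationIdx_pos (𝓞 F)) h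
  rw [mul_comm (P.ramificationIdx ℤ), ← mul_assoc] at h2
  exact Nat.eq_of_mul_eq_mul_right (P.ramificationIdx_pos ℤ) h2

include P in
/-- the index of `H D`, where `D` is the decomposition group. -/
theorem index_sup_stabilizer : (F.fixingSubgroup ⊔ stabilizer Gal(M/ℚ) 𝔔).index =
    ((span {(p : ℤ)}).primesOver (𝓞 F)).ncard := by
  have : 𝔔.LiesOver (span {(p : ℤ)}) := LiesOver.trans 𝔔 P _
  have hN : F.fixingSubgroup.Normal := by
    have : @IsGalois ℚ _ F _ F.algebra' := by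
      convert! (inferInstance : IsGalois ℚ F)
    exact IsGalois.fixingSubgroup_normal_of_isGalois F
  have h := index_sup_mul_card F.fixingSubgroup (stabilizer Gal(M/ℚ) 𝔔)
  rw [card_stabilizer_fixing F 𝔔 P, Ideal.card_stabilizer_eq (span {(p : ℤ)}) 𝔔,
    ramificationIdxIn_eq_ramificationIdx (span {(p : ℤ)}) 𝔔 Gal(M/ℚ),
    inertiaDegIn_eq_inertiaDeg (span {(p : ℤ)}) 𝔔 Gal(M/ℚ),
    ramificationIdx_tower P 𝔔, inertiaDeg_tower P 𝔔, index_eq (p := p) F P] at h
  have h1 := 𝔔.ramificationIdx_pos (𝓞 F)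
  have h2 := 𝔔.inertiaDeg_pos (𝓞 F)
  have h3 := P.ramificationIdx_pos ℤ
  have h4 := P.inertiaDeg_pos ℤ
  refine Nat.eq_of_mul_eq_mul_right (Nat.mul_pos (Nat.mul_pos h3 h4) (Nat.mul_pos h1 h2)) ?_
  rw [← mul_assoc ((span {(p : ℤ)}).primesOver (𝓞 F)).ncard, ← h]
  ring

end Sub

/-! ### Characters -/

section Ann

/-- The characters of level `m` which are trivial on a subgroup of `(ℤ/m)ˣ`. -/
noncomputable def ann (m : ℕ) [NeZero m] (S : Subgroup (ZMod m)ˣ) :
    Subgroup (DirichletCharacter ℂ m) :=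
  (MulChar.subgroupOrderIsoSubgroupMulChar (ZMod m) ℂ S).ofDual

theorem mem_ann {m : ℕ} [NeZero m] {S : Subgroup (ZMod m)ˣ} {ψ : DirichletCharacter ℂ m} :
    ψ ∈ ann m S ↔ ∀ a ∈ S, ψ a = 1 :=
  MulChar.mem_subgroupOrderIsoSubgroupMulChar_iff

theorem card_ann {m : ℕ} [NeZero m] (S : Subgroup (ZMod m)ˣ) : Nat.card (ann m S) = S.index :=
  MulChar.card_subgroupOrderIsoSubgroupMulChar

theorem prod_ann {m : ℕ} [NeZero m] {S : Subgroup (ZMod m)ˣ} (u : (ZMod m)ˣ) {f g : ℕ}
    (h1 : S.index = f * g) (h2 : (S ⊔ Subgroup.zpowers u).index = g) (T : ℂ)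
    [Fintype (ann m S)] :
    ∏ ψ : ann m S, (1 - (ψ : DirichletCharacter ℂ m) u * T) = (1 - T ^ f) ^ g := by
  let Φ : ann m S →* ℂ :=
    { toFun := fun ψ => (ψ : DirichletCharacter ℂ m) u
      map_one' := by simp
      map_mul' := fun a b => by simp }
  refine prod_one_sub_hom Φ (by rw [← Nat.card_eq_fintype_card, card_ann, h1]) ?_ T
  rw [← h2, ← card_ann]
  refine Nat.card_congr
    { toFun := fun y => ⟨y.1.1, mem_ann.mpr fun a ha => ?_⟩
      invFun := fun y => ⟨⟨y.1, mem_ann.mpr fun a ha => mem_ann.mp y.2 a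
        (Subgroup.mem_sup_left ha)⟩, mem_ann.mp y.2 u
          (Subgroup.mem_sup_right (Subgroup.mem_zpowers u))⟩
      left_inv := fun y => rfl
      right_inv := fun y => rfl }
  have h3 : S ⊔ Subgroup.zpowers u ≤ (MulChar.toUnitHom (y.1.1 : DirichletCharacter ℂ m)).ker := by
    refine sup_le (fun b hb => ?_) ?_
    · rw [MonoidHom.mem_ker, Units.ext_iff, MulChar.coe_toUnitHom]
      exact mem_ann.mp y.1.2 b hb
    · rw [Subgroup.zpowers_le, MonoidHom.mem_ker, Units.ext_iff, MulChar.coe_toUnitHom]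
      exact y.2
  have h4 := h3 ha
  rwa [MonoidHom.mem_ker, Units.ext_iff, MulChar.coe_toUnitHom] at h4

end Ann

section Local

variable (n) (F : IntermediateField ℚ L)

/-- The image of `Gal(L/F)` in `(ℤ/m)ˣ`, for `L = ℚ(ζ_n)` and `m ∣ n`. -/
noncomputable def fixMod {m : ℕ} (h : m ∣ n) : Subgroup (ZMod m)ˣ :=
  F.fixingSubgroup.map (galMod n L h)

/-- **The characters of a subfield `F` of `ℚ(ζ_n)`**: the Dirichlet characters `χ` of level `n` with
`χ(a) = 1` for all `a` such that `ζ ↦ ζ ^ a` is the identity on `F`. -/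
noncomputable def chars : Finset (DirichletCharacter ℂ n) :=
  (Set.toFinite (ann n (fixMod n F (dvd_refl n)) : Set (DirichletCharacter ℂ n))).toFinset

variable {n}

omit 𝔓 [𝔓.IsMaximal] [𝔓.LiesOver (span {(p : ℤ)})] in
theorem mem_chars {χ : DirichletCharacter ℂ n} :
    χ ∈ chars n F ↔ ∀ σ : Gal(L/ℚ), σ ∈ F.fixingSubgroup → χ (galEquivZMod n L σ : (ZMod n)ˣ) = 1 := by
  rw [chars, Set.Finite.mem_toFinset, SetLike.mem_coe, mem_ann]
  constructor
  · intro h σ hσ
    have h1 := h _ ⟨σ, hσ, rfl⟩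
    rwa [galMod_apply, ZMod.unitsMap_self, MonoidHom.id_apply] at h1
  · rintro h _ ⟨σ, hσ, rfl⟩
    rw [galMod_apply, ZMod.unitsMap_self, MonoidHom.id_apply]
    exact h σ hσ

theorem changeLevel_mem_chars {m : ℕ} [NeZero m] (h : m ∣ n) {ψ : DirichletCharacter ℂ m} :
    DirichletCharacter.changeLevel h ψ ∈ chars n F ↔ ψ ∈ ann m (fixMod n F h) := by
  rw [mem_chars, mem_ann]
  have h1 : ∀ σ : Gal(L/ℚ), DirichletCharacter.changeLevel h ψ
      (galEquivZMod n L σ : (ZMod n)ˣ) = ψ (galMod n L h σ) := by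
    intro σ
    rw [DirichletCharacter.changeLevel_eq_cast_of_dvd, galMod_apply, ZMod.unitsMap_val]
  constructor
  · rintro h2 _ ⟨σ, hσ, rfl⟩
    rw [← h1]
    exact h2 σ hσ
  · intro h2 σ hσ
    rw [h1]
    exact h2 _ ⟨σ, hσ, rfl⟩

theorem index_fixMod {m : ℕ} (h : m ∣ n) :
    (fixMod n F h).index = (F.fixingSubgroup ⊔ (galMod n L h).ker).index := by
  rw [fixMod, Subgroup.index_map, MonoidHom.range_eq_top.mpr (galMod_surjective n L h),
    Subgroup.index_top, mul_one]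

theorem coe_sort_chars : Nat.card (chars n F) = (fixMod n F (dvd_refl n)).index := by
  rw [← card_ann]
  exact Nat.card_congr (Equiv.subtypeEquivRight fun χ => by
    rw [chars, Set.Finite.mem_toFinset, SetLike.mem_coe])

/-- The number of characters of `F` is the degree of `F`. -/
theorem card_chars : (chars n F).card = Module.finrank ℚ F := by
  have : IsGalois ℚ L := IsCyclotomicExtension.isGalois {n} ℚ L
  have h := coe_sort_chars (n := n) F
  rw [Nat.card_eq_fintype_card, Fintype.card_coe] at h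
  have hk : (galMod n L (dvd_refl n)).ker = ⊥ := by
    rw [MonoidHom.ker_eq_bot_iff]
    intro σ τ hστ
    rw [galMod_apply, galMod_apply, ZMod.unitsMap_self, MonoidHom.id_apply,
      MonoidHom.id_apply] at hστ
    exact (galEquivZMod n L).injective hστ
  rw [h, index_fixMod, hk, sup_bot_eq, IntermediateField.finrank_eq_fixingSubgroup_index]

include n in
omit [NeZero n] in
theorem isGalois_sub : IsGalois ℚ F := by
  have hab : IsAbelianGalois ℚ L := IsCyclotomicExtension.isAbelianGalois {n} ℚ L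
  have h : @IsGalois ℚ _ F _ F.algebra' := inferInstance
  convert! h

variable (p) in
/-- **The Euler factor at `p`** of a subfield of a cyclotomic field. -/
theorem prod_chars (P : Ideal (𝓞 F)) [P.IsPrime] [P.LiesOver (span {(p : ℤ)})] (T : ℂ) :
    ∏ χ ∈ chars n F, (1 - χ.primitiveCharacter p * T) =
      (1 - T ^ P.inertiaDeg ℤ) ^ ((span {(p : ℤ)}).primesOver (𝓞 F)).ncard := by
  classical
  have hGL : IsGalois ℚ L := IsCyclotomicExtension.isGalois {n} ℚ L
  have hGF : IsGalois ℚ F := isGalois_sub (n := n) F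
  obtain ⟨k, m, hm, hn⟩ := Nat.exists_eq_pow_mul_and_not_dvd (NeZero.ne n) p hp.out.ne_one
  have hmn : m ∣ n := Dvd.intro_left _ hn.symm
  have : NeZero m := ⟨fun h => hm (h ▸ dvd_zero p)⟩
  have hpm : p.Coprime m := (Nat.Prime.coprime_iff_not_dvd hp.out).mpr hm
  -- a prime of `L` above `P`
  have hPb : P ≠ ⊥ := Ideal.ne_bot_of_liesOver_of_ne_bot
    (p := span {(p : ℤ)}) (by simpa using hp.out.ne_zero) P
  have hPm : P.IsMaximal := Ideal.IsPrime.isMaximal inferInstance hPb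
  obtain ⟨𝔓, _, _⟩ := exists_maximal_ideal_liesOver_of_isIntegral P (S := 𝓞 L)
  have : 𝔓.LiesOver (span {(p : ℤ)}) := LiesOver.trans 𝔓 P _
  set u := ZMod.unitOfCoprime p hpm with hu
  have h1 : (fixMod n F hmn).index = P.inertiaDeg ℤ *
      ((span {(p : ℤ)}).primesOver (𝓞 F)).ncard := by
    rw [index_fixMod, ← inertia_eq 𝔓 hn hm, index_sup_inertia (p := p) F 𝔓 P, mul_comm]
  have h2 : (fixMod n F hmn ⊔ Subgroup.zpowers u).index =
      ((span {(p : ℤ)}).primesOver (𝓞 F)).ncard := by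
    have h3 : Subgroup.zpowers u = (stabilizer Gal(L/ℚ) 𝔓).map (galMod n L hmn) := by
      rw [stabilizer_eq 𝔓 hn hm hpm, Subgroup.map_comap_eq_self_of_surjective
        (galMod_surjective n L hmn)]
    have h4 : (galMod n L hmn).ker ≤ F.fixingSubgroup ⊔ stabilizer Gal(L/ℚ) 𝔓 := by
      rw [← inertia_eq 𝔓 hn hm]
      exact (Ideal.inertia_le_stabilizer 𝔓).trans le_sup_right
    rw [h3, fixMod, ← Subgroup.map_sup, Subgroup.index_map,
      MonoidHom.range_eq_top.mpr (galMod_surjective n L hmn), Subgroup.index_top, mul_one,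
      sup_eq_left.mpr h4, index_sup_stabilizer (p := p) F 𝔓 P]
  have : Fintype (ann m (fixMod n F hmn)) := Fintype.ofFinite _
  rw [← prod_ann u h1 h2 T, ← Finset.prod_coe_sort]
  symm
  -- the characters of conductor prime to `p`
  refine Fintype.prod_of_injective
    (fun ψ : ann m (fixMod n F hmn) =>
      (⟨DirichletCharacter.changeLevel hmn (ψ : DirichletCharacter ℂ m),
        (changeLevel_mem_chars F hmn).mpr ψ.2⟩ : chars n F)) ?_ _ _ ?_ ?_
  · intro ψ₁ ψ₂ h
    exact Subtype.ext (DirichletCharacter.changeLevel_injective hmn (congrArg Subtype.val h))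
  · rintro ⟨χ, hχ⟩ hr
    have h3 : p ∣ χ.conductor := by
      by_contra hpc
      have h4 : χ.conductor ∣ m := by
        have h5 : χ.conductor ∣ p ^ k * m := hn ▸ χ.conductor_dvd_level
        exact Nat.Coprime.dvd_of_dvd_mul_left (Nat.Coprime.pow_right _
          ((Nat.Prime.coprime_iff_not_dvd hp.out).mpr hpc).symm) h5
      obtain ⟨_, ψ, hψ⟩ := (χ.mem_conductorSet_iff_conductor_dvd hmn).mpr h4
      refine hr ⟨⟨ψ, (changeLevel_mem_chars F hmn).mp (hψ ▸ hχ)⟩, ?_⟩
      exact Subtype.ext hψ.symm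
    have h5 : χ.primitiveCharacter p = 0 := by
      refine MulChar.map_nonunit _ fun h => ?_
      rw [ZMod.isUnit_iff_coprime] at h
      exact hp.out.one_lt.ne' (Nat.dvd_one.mp (h ▸ Nat.dvd_gcd dvd_rfl h3))
    simp only [h5, zero_mul, sub_zero]
  · rintro ⟨ψ, hψ⟩
    have h3 := DirichletCharacter.primitiveCharacter_changeLevel_apply hmn ψ (p : ℤ)
    rw [DirichletCharacter.primitiveCharacter_apply_of_isCoprime ψ
      (Nat.isCoprime_iff_coprime.mpr hpm)] at h3
    simp only [Int.cast_natCast] at h3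
    simp only [h3, hu, ZMod.coe_unitOfCoprime]

end Local

end Fermat.Agent.Cor.Abel
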