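import Fermat.Agent.Corollaries.ZetaK.CycDecomp
import Fermat.Agent.Corollaries.ZetaK.EulerGroup

/-!
# The Dedekind zeta function of an abelian field

`K` the `n`-th cyclotomic field, `L ⊂ K` any subfield, `charGroup n L` the group of the Dirichlet
characters modulo `n` which are trivial on `Gal(K/L) ⊂ (ℤ/n)ˣ`.

`isFieldOf`: for every prime `p` (ramified or not) the primes of `L` above `p` have norm `p ^ f`
and there are `|Y_p| / f` of them, `Y_p` the characters `χ` of `charGroup n L` with `χ*(p) ≠ 0` and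
`f` the order of `χ ↦ χ*(p)` on `Y_p`;

`dedekindZeta_abelian`: **`ζ_L(s) = ∏_χ L(s, χ*)`** for `Re s > 1`, `χ` in `charGroup n L`, `χ*` the
primitive character of `χ`.
-/

set_option autoImplicit false

noncomputable section

namespace Fermat.Agent.Cor

open NumberField Ideal MulAction IsCyclotomicExtension IsCyclotomicExtension.Rat
open Fermat.Agent.ClassL
open scoped Pointwise

variable (n : ℕ) [NeZero n] {K : Type*} [Field K] [NumberField K]
  [hK : IsCyclotomicExtension {n} ℚ K]

/-- `Gal(K/L)` as a subgroup of `(ℤ/n)ˣ`. -/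
def galSub (L : IntermediateField ℚ K) : Subgroup (ZMod n)ˣ :=
  L.fixingSubgroup.map (galEquivZMod n K).toMonoidHom

/-- The Dirichlet characters of the abelian field `L`. -/
def charGroup (L : IntermediateField ℚ K) : Subgroup (DirichletCharacter ℂ n) :=
  ann (galSub n L)

theorem index_galSub (L : IntermediateField ℚ K) :
    (galSub n L).index = L.fixingSubgroup.index :=
  Subgroup.index_map_equiv _ (galEquivZMod n K)

section numbers

variable (L : IntermediateField ℚ K) [IsGalois ℚ L] (p : ℕ) [hp : Fact p.Prime]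

theorem exists_over : ∃ 𝔓 : Ideal (𝓞 K), 𝔓.IsMaximal ∧ 𝔓.LiesOver (span {(p : ℤ)}) := by
  obtain ⟨⟨𝔓, h1, h2⟩⟩ := (span {(p : ℤ)}).nonempty_primesOver (S := 𝓞 K)
  refine ⟨𝔓, ?_, h2⟩
  exact IsMaximal.of_liesOver_isMaximal 𝔓 (span {(p : ℤ)})

theorem ram_L : (span {(p : ℤ)}).ramificationIdxIn (𝓞 L) =
    (galSub n L).relIndex (redP n p).ker := by
  have : IsGalois ℚ K := IsCyclotomicExtension.isGalois {n} ℚ K
  obtain ⟨𝔓, h1, h2⟩ := exists_over (K := K) p
  have := isGaloisGroup_fixingSubgroup L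
  rw [ramificationIdxIn_sub L.fixingSubgroup p 𝔓, ← map_inertia n K p 𝔓, galSub,
    Subgroup.relIndex_map_map_of_injective (f := (galEquivZMod n K).toMonoidHom) _ _
      (galEquivZMod n K).injective]

theorem ram_mul_inert_L : (span {(p : ℤ)}).ramificationIdxIn (𝓞 L) *
    (span {(p : ℤ)}).inertiaDegIn (𝓞 L) =
    (galSub n L).relIndex ((Subgroup.zpowers (uP n hp.out)).comap (redP n p)) := by
  have : IsGalois ℚ K := IsCyclotomicExtension.isGalois {n} ℚ K
  obtain ⟨𝔓, h1, h2⟩ := exists_over (K := K) p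
  have := isGaloisGroup_fixingSubgroup L
  rw [ramificationIdxIn_mul_inertiaDegIn_sub L.fixingSubgroup p 𝔓, ← map_stabilizer n K p 𝔓,
    galSub, Subgroup.relIndex_map_map_of_injective (f := (galEquivZMod n K).toMonoidHom) _ _
      (galEquivZMod n K).injective]

/-- **The residue degree of `p` in an abelian field.** -/
theorem inertiaDegIn_L : (span {(p : ℤ)}).inertiaDegIn (𝓞 L) =
    orderOf (evP (charGroup n L) hp.out) := by
  have h1 := ram_mul_inert_L n L p
  rw [relIndex_comap_zpowers (redP n p) (redP_surjective p), ← ram_L n L p] at h1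
  rw [charGroup, orderOf_evP_ann]
  refine Nat.eq_of_mul_eq_mul_left (Nat.pos_of_ne_zero ?_) h1
  exact ramificationIdxIn_ne_zero (G := Gal(L/ℚ))

/-- **The number of primes above `p` in an abelian field.** -/
theorem ncard_primesOver_L : ((span {(p : ℤ)}).primesOver (𝓞 L)).ncard =
    Fintype.card (atP (charGroup n L) p) / orderOf (evP (charGroup n L) hp.out) := by
  have : IsGalois ℚ K := IsCyclotomicExtension.isGalois {n} ℚ K
  have h1 := ncard_mul L p
  have h2 := index_map_mul_relIndex (redP n p) (redP_surjective p) (galSub n L)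
  rw [← ram_L n L p, index_galSub] at h2
  have h3 : Nat.card Gal(L/ℚ) = L.fixingSubgroup.index := by
    rw [IsGalois.card_aut_eq_finrank, IntermediateField.finrank_eq_fixingSubgroup_index]
  rw [h3, ← h2, ← card_atP_ann, inertiaDegIn_L n L p] at h1
  have h4 : (span {(p : ℤ)}).ramificationIdxIn (𝓞 L) ≠ 0 :=
    ramificationIdxIn_ne_zero (G := Gal(L/ℚ))
  have h5 : ((span {(p : ℤ)}).primesOver (𝓞 L)).ncard * orderOf (evP (charGroup n L) hp.out) =
      Fintype.card (atP (charGroup n L) p) := by
    refine Nat.eq_of_mul_eq_mul_right (Nat.pos_of_ne_zero h4) ?_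
    rw [← charGroup] at h1
    rw [← h1]
    ring
  rw [← h5, Nat.mul_div_cancel _ (orderOf_hom_pos _)]

end numbers

/-! ### The splitting of the primes -/

section split

variable {F : Type*} [Field F] [NumberField F]

theorem liesOver_of_mem {p : ℕ} (hp : p.Prime) {P : Ideal (𝓞 F)} [P.IsPrime]
    (h : (p : 𝓞 F) ∈ P) : P.LiesOver (span {(p : ℤ)}) := by
  have h1 : (span {(p : ℤ)}).IsMaximal :=
    ((span_singleton_prime (by exact_mod_cast hp.ne_zero)).mpr
      (Nat.prime_iff_prime_int.mp hp)).isMaximal (by simpa using hp.ne_zero)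
  refine ⟨h1.eq_of_le (IsPrime.ne_top inferInstance) ?_⟩
  rw [span_singleton_le_iff_mem, mem_comap]
  simpa using h

theorem mem_of_liesOver (p : ℕ) {P : Ideal (𝓞 F)} (h : P.LiesOver (span {(p : ℤ)})) :
    (p : 𝓞 F) ∈ P := by
  have h1 : (p : ℤ) ∈ P.under ℤ := by
    rw [← h.over]
    exact mem_span_singleton_self _
  rw [mem_comap] at h1
  simpa using h1

/-- The primes of residue characteristic `p` are the primes above `p`. -/
def equivPrimesOver (p : Nat.Primes) :
    {P : Pr F // rc P = p} ≃ (span {((p : ℕ) : ℤ)}).primesOver (𝓞 F) where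
  toFun P := ⟨(P.1.1 : Ideal (𝓞 F)), isPrime_of_prime P.1.2, by
    have := isPrime_of_prime P.1.2
    exact liesOver_of_mem p.2 (rc_eq_iff.mp P.2)⟩
  invFun Q :=
    have hQ := Q.2.1
    have h0 : (Q.1 : Ideal (𝓞 F)) ≠ ⊥ := by
      intro h
      have h1 := mem_of_liesOver (p : ℕ) Q.2.2
      rw [h, mem_bot] at h1
      exact p.2.ne_zero (by exact_mod_cast h1)
    ⟨⟨⟨Q.1, mem_nonZeroDivisors_of_ne_zero h0⟩, prime_of_isPrime h0 hQ⟩,
      rc_eq_of_mem (mem_of_liesOver (p : ℕ) Q.2.2)⟩
  left_inv P := rfl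
  right_inv Q := rfl

end split

/-- **The splitting of the primes in an abelian field.** -/
theorem isFieldOf (L : IntermediateField ℚ K) [IsGalois ℚ L] : IsFieldOf L (charGroup n L) where
  norm P := by
    have hp : Fact (rc P : ℕ).Prime := ⟨(rc P).2⟩
    have h1 := isPrime_of_prime P.2
    have h2 := liesOver_of_mem (rc P).2 (rc_mem P)
    rw [← pow_inertiaDeg (rc P : ℕ) (P.1 : Ideal (𝓞 L)),
      ← inertiaDegIn_eq_inertiaDeg (span {((rc P : ℕ) : ℤ)}) (P.1 : Ideal (𝓞 L)) Gal(L/ℚ),
      inertiaDegIn_L n L (rc P : ℕ)]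
  card p := by
    have hp : Fact (p : ℕ).Prime := ⟨p.2⟩
    rw [Nat.card_congr (equivPrimesOver p), Nat.card_coe_set_eq, ncard_primesOver_L n L (p : ℕ)]

/-- **The Dedekind zeta function of an abelian field is the product of the `L`-functions of the
primitive characters of the field**, for `Re s > 1`. -/
theorem dedekindZeta_abelian (L : IntermediateField ℚ K) [IsGalois ℚ L] {s : ℂ} (hs : 1 < s.re) :
    dedekindZeta L s = ∏ χ : charGroup n L,
      DirichletCharacter.LFunction (χ : DirichletCharacter ℂ n).primitiveCharacter s :=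
  dedekindZeta_eq_prod (isFieldOf n L) hs

end Fermat.Agent.Cor
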