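import Fermat.Agent.Corollaries.ZetaK.Abelian
import Fermat.Agent.Corollaries.ZetaK.Rat
import Fermat.Agent.Corollaries.ZetaK.ZetaOne

/-!
# The zeta function of an abelian field in the whole plane, and the class number formula

`IsFieldOf F Y`: the primes split in `F` as prescribed by the group `Y` of Dirichlet characters
(`isFieldOf`: every subfield of a cyclotomic field).

* `zetaK_eq_prod` : `ζ_F(s) = ∏_{χ ∈ Y} L(s, χ*)` for all `s ≠ 1`;
* `residue_eq_prod` : **the class number formula** `Res_{s = 1} ζ_F = ∏_{χ ≠ 1} L(1, χ*)`.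
-/

set_option autoImplicit false

noncomputable section

open DirichletCharacter NumberField Filter Topology

universe u

namespace Fermat.Agent.Cor

theorem LFunction_of_level_one {N : ℕ} [NeZero N] (h : N = 1) (χ : DirichletCharacter ℂ N) :
    LFunction χ = riemannZeta := by
  subst h
  exact LFunction_modOne_eq

variable {n : ℕ} [NeZero n]

theorem LFunction_prim_one :
    LFunction (1 : DirichletCharacter ℂ n).primitiveCharacter = riemannZeta :=
  LFunction_of_level_one (conductor_one) _

theorem prim_ne_one {χ : DirichletCharacter ℂ n} (h : χ ≠ 1) : χ.primitiveCharacter ≠ 1 := by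
  intro h1
  apply h
  rw [← changeLevel_primitiveCharacter χ, h1, changeLevel_one]

variable {F : Type u} [Field F] [NumberField F] {Y : Subgroup (DirichletCharacter ℂ n)}

/-- **The Dedekind zeta function as a product of Dirichlet `L`-functions.** -/
theorem zetaK_eq_prod (h : IsFieldOf F Y) {s : ℂ} (hs : s ≠ 1) :
    zetaK F s = ∏ χ : Y, LFunction (χ : DirichletCharacter ℂ n).primitiveCharacter s := by
  refine eq_of_eq_re_gt_one (f := zetaK F)
    (g := fun s => ∏ χ : Y, LFunction (χ : DirichletCharacter ℂ n).primitiveCharacter s)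
    (fun s hs => differentiableAt_LF _ hs) (fun s hs => ?_) (fun s hs => ?_) hs
  · refine DifferentiableAt.fun_finsetProd fun χ _ => ?_
    exact differentiableAt_LFunction _ _ (Or.inl hs)
  · rw [zetaK_eq F hs, dedekindZeta_eq_prod h hs]

/-- **The class number formula for abelian fields.** -/
theorem residue_eq_prod (h : IsFieldOf F Y) :
    (dedekindZeta_residue F : ℂ) =
      ∏ χ ∈ (Finset.univ : Finset Y).erase 1,
        LFunction (χ : DirichletCharacter ℂ n).primitiveCharacter 1 := by
  classical
  have h1 := tendsto_sub_one_mul_zetaK F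
  have h2 : Tendsto (fun s : ℂ => ((s - 1) * riemannZeta s) *
      ∏ χ ∈ (Finset.univ : Finset Y).erase 1,
        LFunction (χ : DirichletCharacter ℂ n).primitiveCharacter s) (𝓝[≠] 1)
      (𝓝 (1 * ∏ χ ∈ (Finset.univ : Finset Y).erase 1,
        LFunction (χ : DirichletCharacter ℂ n).primitiveCharacter 1)) := by
    refine riemannZeta_residue_one.mul (tendsto_finsetProd _ fun χ hχ => ?_)
    have h3 : (χ : DirichletCharacter ℂ n) ≠ 1 := fun h =>
      (Finset.mem_erase.mp hχ).1 (Subtype.ext h)
    exact ((differentiable_LFunction (prim_ne_one h3)).continuous.tendsto 1).mono_left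
      nhdsWithin_le_nhds
  rw [one_mul] at h2
  refine tendsto_nhds_unique (h1.congr' ?_) h2
  filter_upwards [self_mem_nhdsWithin] with s hs
  rw [zetaK_eq_prod h hs, ← Finset.mul_prod_erase _ _ (Finset.mem_univ (1 : Y)), mul_assoc]
  congr 2
  exact congrFun LFunction_prim_one s

end Fermat.Agent.Cor
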