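import Fermat.Agent.Corollaries.ZetaK.ArithEquivInv

/-!
# Arithmetic equivalence and the residue rings

The number of ideals of norm `p^k` of a number field depends only on the ring `𝓞 K / p`
(`idealCount_eq_of_equiv`). If `K = ℚ(θ)` and `K' = ℚ(θ')` with `θ` and `θ'` integral, and if for
almost all primes `p` the rings `𝔽_p[X]/(f)` and `𝔽_p[X]/(f')` are isomorphic, `f` and `f'` the minimal
polynomials, then `K` and `K'` are arithmetically equivalent (`arith_equiv_of_quotients`).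
-/

set_option autoImplicit false

noncomputable section

open NumberField NumberField.InfinitePlace NumberField.Units IsDedekindDomain
open Fermat.Agent.Classic.Disc Fermat.Agent.Classic.Zeta Fermat.Agent.FrobDensity
open Fermat.Agent.Cor.ZetaK

namespace Fermat.Agent.Cor.AE

/-! ### Transport of ideals -/

section Transport

variable {A B : Type*} [CommRing A] [CommRing B] {I₀ : Ideal A} {J₀ : Ideal B}

/-- the ideal of `B` which corresponds to an ideal `I ⊇ I₀` of `A` -/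
def tr (e : A ⧸ I₀ ≃+* B ⧸ J₀) (I : Ideal A) : Ideal B :=
  Ideal.comap (Ideal.Quotient.mk J₀)
    (Ideal.comap (e.symm : B ⧸ J₀ →+* A ⧸ I₀) (Ideal.map (Ideal.Quotient.mk I₀) I))

theorem le_tr (e : A ⧸ I₀ ≃+* B ⧸ J₀) (I : Ideal A) : J₀ ≤ tr e I := by
  intro x hx
  rw [tr, Ideal.mem_comap, Ideal.Quotient.eq_zero_iff_mem.2 hx]
  exact Ideal.zero_mem _

theorem tr_tr (e : A ⧸ I₀ ≃+* B ⧸ J₀) {I : Ideal A} (hI : I₀ ≤ I) : tr e.symm (tr e I) = I := by
  have h : ((e.symm : B ⧸ J₀ →+* A ⧸ I₀).comp (e.symm.symm : A ⧸ I₀ →+* B ⧸ J₀)) =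
      RingHom.id _ := by
    ext x
    simp
  have h' : Ideal.comap (e.symm.symm : A ⧸ I₀ →+* B ⧸ J₀)
      (Ideal.comap (e.symm : B ⧸ J₀ →+* A ⧸ I₀) (Ideal.map (Ideal.Quotient.mk I₀) I)) =
      Ideal.map (Ideal.Quotient.mk I₀) I := by
    rw [Ideal.comap_comap, h, Ideal.comap_id]
  rw [tr, tr, Ideal.map_comap_of_surjective _ Ideal.Quotient.mk_surjective, h',
    Ideal.comap_map_mk hI]

/-- the residue rings are isomorphic -/
theorem exists_equiv (e : A ⧸ I₀ ≃+* B ⧸ J₀) {I : Ideal A} (hI : I₀ ≤ I) :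
    Nonempty (B ⧸ tr e I ≃+* A ⧸ I) := by
  set g : B →+* (A ⧸ I₀) ⧸ (Ideal.map (Ideal.Quotient.mk I₀) I) :=
    (Ideal.Quotient.mk _).comp ((e.symm : B ⧸ J₀ →+* A ⧸ I₀).comp (Ideal.Quotient.mk J₀)) with hg
  have hs : Function.Surjective g := by
    rw [hg]
    exact Ideal.Quotient.mk_surjective.comp (e.symm.surjective.comp Ideal.Quotient.mk_surjective)
  have hk : RingHom.ker g = tr e I := by
    rw [hg, ← RingHom.comap_ker, Ideal.mk_ker, ← Ideal.comap_comap]
    rfl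
  exact ⟨(Ideal.quotEquivOfEq hk.symm).trans ((RingHom.quotientKerEquivOfSurjective hs).trans
    (DoubleQuot.quotQuotEquivQuotOfLE hI))⟩

theorem isMaximal_tr (e : A ⧸ I₀ ≃+* B ⧸ J₀) {I : Ideal A} (hI : I₀ ≤ I) (hm : I.IsMaximal) :
    (tr e I).IsMaximal := by
  obtain ⟨f⟩ := exists_equiv e hI
  rw [Ideal.Quotient.maximal_ideal_iff_isField_quotient]
  exact MulEquiv.isField ((Ideal.Quotient.maximal_ideal_iff_isField_quotient I).1 hm) f.toMulEquiv

end Transport

/-! ### Number fields -/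

universe u v

variable {K : Type u} [Field K] [NumberField K] {K' : Type v} [Field K'] [NumberField K']

theorem span_le_of_mem {p : ℕ} (hp : p ≠ 0) {v : HeightOneSpectrum (𝓞 K)} (hv : v ∈ above K p) :
    Ideal.span {(p : 𝓞 K)} ≤ v.asIdeal := by
  rw [Ideal.span_singleton_le_iff_mem]
  exact (mem_above hp).1 hv

/-- the place of `K'` which corresponds to a place of `K` above `p` -/
def trP {p : ℕ} (hp : p ≠ 0)
    (e : 𝓞 K ⧸ Ideal.span {(p : 𝓞 K)} ≃+* 𝓞 K' ⧸ Ideal.span {(p : 𝓞 K')})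
    (v : HeightOneSpectrum (𝓞 K)) (hv : v ∈ above K p) : HeightOneSpectrum (𝓞 K') where
  asIdeal := tr e v.asIdeal
  isPrime := (isMaximal_tr e (span_le_of_mem hp hv) v.isMaximal).isPrime
  ne_bot := by
    intro h
    have h1 : (p : 𝓞 K') ∈ tr e v.asIdeal := le_tr e _ (Ideal.mem_span_singleton_self _)
    rw [h, Ideal.mem_bot, Nat.cast_eq_zero] at h1
    exact hp h1

theorem trP_mem {p : ℕ} (hp : p ≠ 0)
    (e : 𝓞 K ⧸ Ideal.span {(p : 𝓞 K)} ≃+* 𝓞 K' ⧸ Ideal.span {(p : 𝓞 K')})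
    (v : HeightOneSpectrum (𝓞 K)) (hv : v ∈ above K p) : trP hp e v hv ∈ above K' p :=
  (mem_above hp).2 (le_tr e _ (Ideal.mem_span_singleton_self _))

theorem fdeg_trP {p : ℕ} (hp : p.Prime)
    (e : 𝓞 K ⧸ Ideal.span {(p : 𝓞 K)} ≃+* 𝓞 K' ⧸ Ideal.span {(p : 𝓞 K')})
    (v : HeightOneSpectrum (𝓞 K)) (hv : v ∈ above K p) :
    fdeg v = fdeg (trP hp.ne_zero e v hv) := by
  have h1 := absNorm_eq hp ((mem_above hp.ne_zero).1 hv)
  have h2 := absNorm_eq hp ((mem_above hp.ne_zero).1 (trP_mem hp.ne_zero e v hv))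
  obtain ⟨f⟩ := exists_equiv e (span_le_of_mem hp.ne_zero hv)
  have h3 : Ideal.absNorm (trP hp.ne_zero e v hv).asIdeal = Ideal.absNorm v.asIdeal := by
    rw [Ideal.absNorm_apply, Ideal.absNorm_apply, Submodule.cardQuot_apply,
      Submodule.cardQuot_apply]
    exact Nat.card_congr f.toEquiv
  rw [h1, h2] at h3
  exact Nat.pow_right_injective hp.two_le h3.symm

theorem prod_above_eq {p : ℕ} (hp : p.Prime)
    (e : 𝓞 K ⧸ Ideal.span {(p : 𝓞 K)} ≃+* 𝓞 K' ⧸ Ideal.span {(p : 𝓞 K')}) :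
    (∏ v ∈ above K p, (1 - PowerSeries.X ^ fdeg v) : PowerSeries ℂ) =
      ∏ v ∈ above K' p, (1 - PowerSeries.X ^ fdeg v) := by
  refine Finset.prod_bij' (fun v hv => trP hp.ne_zero e v hv)
    (fun v hv => trP hp.ne_zero e.symm v hv) (fun v hv => trP_mem _ e v hv)
    (fun v hv => trP_mem _ e.symm v hv) (fun v hv => ?_) (fun v hv => ?_) fun v hv => ?_
  · exact HeightOneSpectrum.ext (tr_tr e (span_le_of_mem hp.ne_zero hv))
  · exact HeightOneSpectrum.ext (tr_tr e.symm (span_le_of_mem hp.ne_zero hv))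
  · rw [← fdeg_trP hp e v hv]

/-- **The number of ideals of norm `p^k` depends only on the ring `𝓞 K / p`.** -/
theorem idealCount_eq_of_equiv {p : ℕ} (hp : p.Prime)
    (e : 𝓞 K ⧸ Ideal.span {(p : 𝓞 K)} ≃+* 𝓞 K' ⧸ Ideal.span {(p : 𝓞 K')}) (k : ℕ) :
    idealCount K (p ^ k) = idealCount K' (p ^ k) := by
  have h1 := localStmt K p hp
  have h2 := localStmt K' p hp
  rw [← prod_above_eq hp e] at h2
  have h3 : Sp p (zcA K) = Sp p (zcA K') := by
    rw [← mul_one (Sp p (zcA K)), ← h2, mul_left_comm, h1, mul_one]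
  have h4 := congrArg (PowerSeries.coeff k) h3
  rw [coeff_Sp, coeff_Sp, zcA_apply (pow_ne_zero _ hp.ne_zero),
    zcA_apply (pow_ne_zero _ hp.ne_zero)] at h4
  exact_mod_cast h4

/-! ### Kummer–Dedekind -/

/-- the exponent of a primitive integral element is not zero -/
theorem exponent_ne_zero {θ : 𝓞 K} (P : PowerBasis ℚ K) (hP : P.gen = (θ : K)) :
    RingOfIntegers.exponent θ ≠ 0 := by
  set d : ℚ := Algebra.discr ℚ P.basis with hd
  have hd0 : d ≠ 0 := Algebra.discr_not_zero_of_basis ℚ P.basis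
  have hmem : ((d.num : ℤ) : 𝓞 K) ∈ conductor ℤ θ := by
    rw [mem_conductor_iff]
    intro z
    have hint : IsIntegral ℤ P.gen := by rw [hP]; exact θ.isIntegral_coe
    have h1 := Algebra.discr_mul_isIntegral_mem_adjoin (K := ℚ) (R := ℤ) hint z.isIntegral_coe
    rw [hP, ← hd] at h1
    have h2 : (((d.num : ℤ) : 𝓞 K) * z : 𝓞 K) = (d.den : K) * (d • (z : K)) := by
      rw [Algebra.smul_def, ← mul_assoc]
      have h3 : (d.den : K) * (algebraMap ℚ K d) = ((d.num : ℤ) : K) := by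
        have h4 : (d.den : ℚ) * d = (d.num : ℤ) := by
          rw [mul_comm]
          exact_mod_cast Rat.mul_den_eq_num d
        calc (d.den : K) * (algebraMap ℚ K d) = algebraMap ℚ K ((d.den : ℚ) * d) := by
              rw [map_mul, map_natCast]
          _ = ((d.num : ℤ) : K) := by rw [h4, map_intCast]
      rw [h3]
      push_cast
      rfl
    have h5 : ((((d.num : ℤ) : 𝓞 K) * z : 𝓞 K) : K) ∈ Algebra.adjoin ℤ {(θ : K)} := by
      rw [h2]
      exact mul_mem (natCast_mem _ _) h1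
    have h6 : Algebra.adjoin ℤ {(θ : K)} =
        (Algebra.adjoin ℤ {θ}).map (IsScalarTower.toAlgHom ℤ (𝓞 K) K) := by
      rw [AlgHom.map_adjoin_singleton]
      rfl
    rw [h6, Subalgebra.mem_map] at h5
    obtain ⟨y, hy, hyz⟩ := h5
    have h7 : y = ((d.num : ℤ) : 𝓞 K) * z := RingOfIntegers.ext hyz
    rwa [← h7]
  rw [RingOfIntegers.exponent, Ne, Ideal.absNorm_eq_zero_iff]
  intro h
  have h8 : (d.num : ℤ) ∈ Ideal.under ℤ (conductor ℤ θ) := by
    rw [Ideal.under_def, Ideal.mem_comap]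
    simpa using hmem
  rw [h, Ideal.mem_bot, Rat.num_eq_zero] at h8
  exact hd0 h8

open Polynomial in
/-- **A criterion for arithmetic equivalence.** `K = ℚ(θ)` and `K' = ℚ(θ')`, `θ` and `θ'` integral
with the minimal polynomials `f` and `f'`; if `𝔽_p[X]/(f) ≅ 𝔽_p[X]/(f')` for almost all primes
`p`, then `K` and `K'` have the same Dedekind zeta function. -/
theorem idealCount_eq_of_quotients {θ : 𝓞 K} (P : PowerBasis ℚ K) (hP : P.gen = (θ : K))
    {θ' : 𝓞 K'} (P' : PowerBasis ℚ K') (hP' : P'.gen = (θ' : K')) {N : ℕ} (hN : N ≠ 0)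
    (h : ∀ p : ℕ, p.Prime → ¬ p ∣ N → Nonempty
      (((ZMod p)[X] ⧸ Ideal.span {(minpoly ℤ θ).map (Int.castRingHom (ZMod p))}) ≃+*
        ((ZMod p)[X] ⧸ Ideal.span {(minpoly ℤ θ').map (Int.castRingHom (ZMod p))})))
    (n : ℕ) (hn : n ≠ 0) : idealCount K n = idealCount K' n := by
  refine zeta_eq_of_almost_all (N := N * RingOfIntegers.exponent θ * RingOfIntegers.exponent θ')
    (mul_ne_zero (mul_ne_zero hN (exponent_ne_zero P hP)) (exponent_ne_zero P' hP'))
    (fun p hp hpN k => ?_) n hn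
  have : Fact p.Prime := ⟨hp⟩
  obtain ⟨e⟩ := h p hp fun hd => hpN ((hd.mul_right _).mul_right _)
  have h1 : ¬ p ∣ RingOfIntegers.exponent θ := fun hd => hpN ((hd.mul_left _).mul_right _)
  have h2 : ¬ p ∣ RingOfIntegers.exponent θ' := fun hd => hpN (hd.mul_left _)
  exact idealCount_eq_of_equiv hp ((RingOfIntegers.ZModXQuotSpanEquivQuotSpan h1).symm.trans
    (e.trans (RingOfIntegers.ZModXQuotSpanEquivQuotSpan h2))) k

end Fermat.Agent.Cor.AE

end
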