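import Fermat.Agent.Corollaries.ZetaK.FrobCor
import Fermat.Agent.Frob.Density

/-!
# The theorem of Bauer

`K`, `L` number fields.

* `exists_ringHom_of_split` : if almost all primes which have a place of degree one in `K` split
  completely in `L`, then `L` embeds in `K`;
* `bauer` : for `L / ℚ` Galois this is an equivalence;
* `nonempty_ringEquiv_iff` : two Galois extensions of `ℚ` are isomorphic iff almost the same primes
  split completely in them.

The analytic input is the existence of Frobenius elements `FrobDensity.exists_frobenius_on` (from the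
pole of the zeta function), which is part of the proof of Fermat's last theorem; the prime ideal
theorem is not used.
-/

set_option autoImplicit false

namespace Fermat.Agent.Cor.Frob

open NumberField IsDedekindDomain
open Fermat.Agent.Frob Fermat.Agent.Classic.Disc Fermat.Agent.Classic.Emb

local notation "Qbar" => AlgebraicClosure ℚ

variable (K L : Type*) [Field K] [NumberField K] [Field L] [NumberField L]

/-- the compositum of the conjugates of a number field -/
noncomputable def conjField : IntermediateField ℚ Qbar :=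
  ⨆ j : K →+* Qbar, j.toRatAlgHom.fieldRange

instance finiteDimensional_conjField : FiniteDimensional ℚ (conjField K) := by
  have : ∀ j : K →+* Qbar, FiniteDimensional ℚ j.toRatAlgHom.fieldRange := fun j =>
    LinearEquiv.finiteDimensional (AlgEquiv.ofInjectiveField j.toRatAlgHom).toLinearEquiv
  exact IntermediateField.finiteDimensional_iSup_of_finite

variable {K} in
lemma mem_conjField (j : K →+* Qbar) (x : K) : j x ∈ conjField K :=
  le_iSup (fun j : K →+* Qbar => j.toRatAlgHom.fieldRange) j ⟨x, rfl⟩

/-- For `σ` in `Gal(ℚ̄/ℚ)` there is a Frobenius element `φ` at a prime outside a given finite set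
such that on the embeddings of `K` and of `L` `φ` is a power of `σ` and `σ` is a power of `φ`. -/
theorem exists_frob (σ : GQ) {S : Set ℕ} (hS : S.Finite) :
    ∃ p : ℕ, p.Prime ∧ p ∉ S ∧ ∃ A : ValuationSubring Qbar, A.LiesOverPrime p ∧
      ∃ φ : GQ, A.IsFrobeniusAt φ p ∧ ∃ k k' : ℕ,
        (embPerm K φ = embPerm K σ ^ k ∧ embPerm K σ = embPerm K φ ^ k') ∧
        (embPerm L φ = embPerm L σ ^ k ∧ embPerm L σ = embPerm L φ ^ k') := by
  obtain ⟨p, hp, hpS, A, hA, φ, hφ, k, k', h1, h2⟩ :=
    FrobDensity.exists_frobenius_on (conjField K ⊔ conjField L) σ S hS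
  refine ⟨p, hp, hpS, A, hA, φ, hφ, k, k', ⟨?_, ?_⟩, ⟨?_, ?_⟩⟩
  · rw [← map_pow]
    ext j x
    exact h1 _ (le_sup_left (a := conjField K) (b := conjField L) (mem_conjField j x))
  · rw [← map_pow]
    ext j x
    exact h2 _ (le_sup_left (a := conjField K) (b := conjField L) (mem_conjField j x))
  · rw [← map_pow]
    ext j x
    exact h1 _ (le_sup_right (a := conjField K) (b := conjField L) (mem_conjField j x))
  · rw [← map_pow]
    ext j x
    exact h2 _ (le_sup_right (a := conjField K) (b := conjField L) (mem_conjField j x))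

variable {K L}

/-- Galois theory: `L` embeds in `K` if the elements of `Gal(ℚ̄/ℚ)` which fix `K` fix `L`. -/
lemma exists_ringHom_of_fix {j : K →+* Qbar} {i : L →+* Qbar}
    (h : ∀ σ : GQ, (∀ x, σ (j x) = j x) → ∀ x, σ (i x) = i x) :
    ∃ f : L →+* K, ∀ x, j (f x) = i x := by
  have h1 : i.toRatAlgHom.fieldRange ≤ j.toRatAlgHom.fieldRange := by
    rw [← InfiniteGalois.fixedField_fixingSubgroup j.toRatAlgHom.fieldRange]
    rintro _ ⟨x, rfl⟩
    rw [IntermediateField.mem_fixedField_iff]
    intro σ hσ
    rw [IntermediateField.mem_fixingSubgroup_iff] at hσ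
    exact h σ (fun y => hσ _ ⟨y, rfl⟩) x
  have h2 : ∀ x : L, ∃ y : K, j y = i x := fun x => by
    obtain ⟨y, hy⟩ := h1 ⟨x, rfl⟩
    exact ⟨y, hy⟩
  choose f hf using h2
  refine ⟨{ toFun := f, map_one' := ?_, map_mul' := ?_, map_zero' := ?_, map_add' := ?_ }, hf⟩
  · exact j.injective (by rw [hf, map_one, map_one])
  · exact fun x y => j.injective (by rw [hf, map_mul, map_mul, hf, hf])
  · exact j.injective (by rw [hf, map_zero, map_zero])
  · exact fun x y => j.injective (by rw [hf, map_add, map_add, hf, hf])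

/-- **The theorem of Bauer**: if almost all primes which have a place of degree one in `K` split
completely in `L`, then `L` embeds in `K`. -/
theorem exists_ringHom_of_split
    (h : {p : ℕ | p.Prime ∧ (∃ v ∈ above K p, fdeg v = 1) ∧
      (above L p).card ≠ Module.finrank ℚ L}.Finite) (j : K →+* Qbar) (i : L →+* Qbar) :
    ∃ f : L →+* K, ∀ x, j (f x) = i x := by
  refine exists_ringHom_of_fix fun σ hσ => ?_
  obtain ⟨D, hD, hK⟩ := decType_eq (K := K)
  obtain ⟨D', hD', hL⟩ := decType_eq (K := L)
  obtain ⟨p, hp, hpS, A, hA, φ, hφ, k, k', ⟨h1, -⟩, ⟨-, h2⟩⟩ :=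
    exists_frob K L σ (h.union ((D * D').primeFactors.finite_toSet))
  have hpD : ¬ p ∣ D * D' := fun hd => hpS (Or.inr (Nat.mem_primeFactors.mpr
    ⟨hp, hd, Nat.mul_ne_zero hD hD'⟩))
  have h3 : 1 ∈ decType K p := by
    rw [hK p hp (fun hd => hpD (hd.mul_right _)) A hA φ hφ, one_mem_cycType_iff]
    refine ⟨j, ?_⟩
    rw [h1]
    refine Equiv.Perm.pow_apply_eq_self_of_apply_eq_self ?_ k
    exact RingHom.ext hσ
  have h4 : (above L p).card = Module.finrank ℚ L := by
    by_contra h5
    exact hpS (Or.inl ⟨hp, one_mem_decType_iff.mp h3, h5⟩)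
  rw [← decType_eq_replicate_iff hp, hL p hp (fun hd => hpD (hd.mul_left _)) A hA φ hφ,
    cycType_eq_replicate_iff] at h4
  rw [h4, one_pow] at h2
  intro x
  exact RingHom.congr_fun (DFunLike.congr_fun h2 i) x

lemma nonempty_emb (K : Type*) [Field K] [NumberField K] : Nonempty (K →+* Qbar) := by
  refine (Nat.card_pos_iff.mp ?_).1
  rw [natCard_emb]
  exact Module.finrank_pos

/-- If `L / ℚ` is Galois and embeds in `K`, then almost all primes which have a place of degree one
in `K` split completely in `L`. -/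
theorem split_of_ringHom [IsGalois ℚ L] (f : L →+* K) :
    {p : ℕ | p.Prime ∧ (∃ v ∈ above K p, fdeg v = 1) ∧
      (above L p).card ≠ Module.finrank ℚ L}.Finite := by
  obtain ⟨D, hD, hK⟩ := decType_eq (K := K)
  obtain ⟨D', hD', hL⟩ := decType_eq (K := L)
  refine ((D * D').primeFactors.finite_toSet).subset ?_
  rintro p ⟨hp, hv, hc⟩
  rw [Finset.mem_coe, Nat.mem_primeFactors]
  refine ⟨hp, ?_, Nat.mul_ne_zero hD hD'⟩
  by_contra hpD
  refine hc ?_
  obtain ⟨A, hA, φ, hφ⟩ := exists_frobenius p hp
  rw [← one_mem_decType_iff, hK p hp (fun hd => hpD (hd.mul_right _)) A hA φ hφ,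
    one_mem_cycType_iff] at hv
  obtain ⟨j, hj⟩ := hv
  rw [← decType_eq_replicate_iff hp, hL p hp (fun hd => hpD (hd.mul_left _)) A hA φ hφ,
    cycType_eq_replicate_iff, ← map_one (embPerm L)]
  exact embPerm_eq_of_isGalois (j := j.comp f) fun x => RingHom.congr_fun hj (f x)

/-- **The theorem of Bauer**: `L / ℚ` Galois embeds in `K` iff almost all primes which have a place
of degree one in `K` split completely in `L`. -/
theorem bauer [IsGalois ℚ L] :
    Nonempty (L →+* K) ↔ {p : ℕ | p.Prime ∧ (∃ v ∈ above K p, fdeg v = 1) ∧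
      (above L p).card ≠ Module.finrank ℚ L}.Finite := by
  constructor
  · rintro ⟨f⟩
    exact split_of_ringHom f
  · intro h
    obtain ⟨j⟩ := nonempty_emb K
    obtain ⟨i⟩ := nonempty_emb L
    obtain ⟨f, -⟩ := exists_ringHom_of_split h j i
    exact ⟨f⟩

lemma exists_fdeg_one_of_split {p : ℕ} (hp : p.Prime)
    (h : (above K p).card = Module.finrank ℚ K) : ∃ v ∈ above K p, fdeg v = 1 := by
  have h1 := (decType_eq_replicate_iff hp).mpr h
  rw [← one_mem_decType_iff, h1, Multiset.mem_replicate]
  exact ⟨Module.finrank_pos.ne', rfl⟩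

omit [NumberField L] in
/-- Number fields which embed in each other are isomorphic. -/
lemma nonempty_ringEquiv_of_ringHom [CharZero L] (f : L →+* K) (g : K →+* L) :
    Nonempty (K ≃+* L) := by
  have h1 : Function.Bijective (f.comp g).toRatAlgHom :=
    Algebra.IsAlgebraic.algHom_bijective (f.comp g).toRatAlgHom
  have h2 : Function.Surjective f := fun y => by
    obtain ⟨x, hx⟩ := h1.2 y
    exact ⟨g x, hx⟩
  exact ⟨(RingEquiv.ofBijective f ⟨f.injective, h2⟩).symm⟩

/-- If almost all primes which split completely in the Galois extension `K` of `ℚ` split completely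
in `L`, then `L` embeds in `K`. -/
theorem exists_ringHom_of_split_of_isGalois [IsGalois ℚ K]
    (h : {p : ℕ | p.Prime ∧ (above K p).card = Module.finrank ℚ K ∧
      (above L p).card ≠ Module.finrank ℚ L}.Finite) : Nonempty (L →+* K) := by
  obtain ⟨j⟩ := nonempty_emb K
  obtain ⟨i⟩ := nonempty_emb L
  obtain ⟨f, -⟩ := exists_ringHom_of_split (K := K) (L := L)
    (((split_of_ringHom (RingHom.id K)).union h).subset (by
      rintro p ⟨hp, hv, hL⟩
      by_cases hK : (above K p).card = Module.finrank ℚ K
      · exact Or.inr ⟨hp, hK, hL⟩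
      · exact Or.inl ⟨hp, hv, hK⟩)) j i
  exact ⟨f⟩

/-- **Galois extensions of `ℚ` are determined by the primes which split completely** (up to finitely
many primes). -/
theorem nonempty_ringEquiv_iff [IsGalois ℚ K] [IsGalois ℚ L] :
    Nonempty (K ≃+* L) ↔ {p : ℕ | p.Prime ∧ ¬ ((above K p).card = Module.finrank ℚ K ↔
      (above L p).card = Module.finrank ℚ L)}.Finite := by
  constructor
  · rintro ⟨e⟩
    refine ((split_of_ringHom e.toRingHom).union (split_of_ringHom e.symm.toRingHom)).subset ?_
    rintro p ⟨hp, h⟩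
    rw [not_iff] at h
    by_cases hL : (above L p).card = Module.finrank ℚ L
    · exact Or.inl ⟨hp, exists_fdeg_one_of_split hp hL, h.mpr hL⟩
    · refine Or.inr ⟨hp, exists_fdeg_one_of_split hp ?_, hL⟩
      by_contra hK
      exact hL (h.mp hK)
  · intro h
    obtain ⟨f⟩ := exists_ringHom_of_split_of_isGalois (K := K) (L := L)
      (h.subset fun p hp => ⟨hp.1, fun h1 => hp.2.2 (h1.mp hp.2.1)⟩)
    obtain ⟨g⟩ := exists_ringHom_of_split_of_isGalois (K := L) (L := K)
      (h.subset fun p hp => ⟨hp.1, fun h1 => hp.2.2 (h1.mpr hp.2.1)⟩)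
    exact nonempty_ringEquiv_of_ringHom f g

end Fermat.Agent.Cor.Frob
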