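import Mathlib

/-!
# The Euler factor of a finite group of characters

`sum_neg_log`: for a finite commutative group `Y`, a homomorphism `e : Y →* ℂ` of order `f` and
`|X| < 1`, `∑_{y ∈ Y} -log (1 - e(y) X) = (|Y| / f) * (-log (1 - X ^ f))`.
-/

set_option autoImplicit false

noncomputable section

open Complex Finset

namespace Fermat.Agent.Cor

variable {Y : Type*} [CommGroup Y] [Fintype Y]

theorem hom_pow_card (e : Y →* ℂ) : e ^ Fintype.card Y = 1 := by
  ext y
  rw [MonoidHom.pow_apply, ← map_pow, pow_card_eq_one, map_one, MonoidHom.one_apply]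

theorem orderOf_hom_dvd (e : Y →* ℂ) : orderOf e ∣ Fintype.card Y :=
  orderOf_dvd_of_pow_eq_one (hom_pow_card e)

theorem orderOf_hom_pos (e : Y →* ℂ) : 0 < orderOf e :=
  Nat.pos_of_dvd_of_pos (orderOf_hom_dvd e) Fintype.card_pos

theorem norm_hom (e : Y →* ℂ) (y : Y) : ‖e y‖ = 1 := by
  refine Complex.norm_eq_one_of_pow_eq_one (n := Fintype.card Y) ?_ Fintype.card_ne_zero
  rw [← map_pow, pow_card_eq_one, map_one]

theorem hasSum_hom_log (e : Y →* ℂ) {X : ℂ} (hX : ‖X‖ < 1) :
    HasSum (fun k : ℕ => (if e ^ k = 1 then (Fintype.card Y : ℂ) else 0) * (X ^ k / k))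
      (∑ y : Y, -Complex.log (1 - e y * X)) := by
  classical
  have h1 : ∀ y : Y, HasSum (fun k : ℕ => (e y * X) ^ k / k) (-Complex.log (1 - e y * X)) := by
    intro y
    refine Complex.hasSum_taylorSeries_neg_log ?_
    rwa [norm_mul, norm_hom, one_mul]
  have h2 := hasSum_sum (s := (Finset.univ : Finset Y)) fun y _ => h1 y
  refine h2.congr_fun ?_ |> fun h => h
  intro k
  have h3 : ∑ y : Y, (e ^ k) y = if e ^ k = 1 then ((Fintype.card Y : ℕ) : ℂ) else 0 := by
    rw [sum_hom_units]
    split_ifs <;> simp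
  rw [← h3, Finset.sum_mul]
  refine Finset.sum_congr rfl fun y _ => ?_
  rw [MonoidHom.pow_apply, mul_pow, mul_div_assoc]

/-- **The Euler factor of a finite group of characters.** -/
theorem sum_neg_log (e : Y →* ℂ) {X : ℂ} (hX : ‖X‖ < 1) :
    ∑ y : Y, -Complex.log (1 - e y * X) =
      ((Fintype.card Y / orderOf e : ℕ) : ℂ) * -Complex.log (1 - X ^ orderOf e) := by
  set f := orderOf e with hf
  have hf0 : 0 < f := orderOf_hom_pos e
  have hXf : ‖X ^ f‖ < 1 := by
    rw [norm_pow]
    exact pow_lt_one₀ (norm_nonneg _) hX hf0.ne'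
  have h1 := hasSum_hom_log e hX
  have h2 := (Complex.hasSum_taylorSeries_neg_log hXf).mul_left
    ((Fintype.card Y / f : ℕ) : ℂ)
  have hinj : Function.Injective fun j : ℕ => f * j :=
    fun i j h => Nat.eq_of_mul_eq_mul_left hf0 h
  have h3 := (hinj.hasSum_iff (f := fun k : ℕ =>
    (if e ^ k = 1 then (Fintype.card Y : ℂ) else 0) * (X ^ k / k))
    (a := ∑ y : Y, -Complex.log (1 - e y * X)) ?_).mpr h1
  · refine h3.unique ?_
    refine h2.congr_fun ?_ |> fun h => h
    intro j
    simp only [Function.comp_apply]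
    have h4 : e ^ (f * j) = 1 := by rw [pow_mul, hf, pow_orderOf_eq_one, one_pow]
    rw [if_pos h4]
    rcases Nat.eq_zero_or_pos j with rfl | hj
    · simp
    · obtain ⟨c, hc⟩ := orderOf_hom_dvd e
      rw [← hf] at hc
      rw [hc, Nat.mul_div_cancel_left c hf0]
      push_cast
      have : (f : ℂ) ≠ 0 := by exact_mod_cast hf0.ne'
      have : (j : ℂ) ≠ 0 := by exact_mod_cast hj.ne'
      rw [pow_mul]
      field_simp
  · intro k hk
    have h4 : ¬ e ^ k = 1 := by
      intro h
      obtain ⟨c, hc⟩ := orderOf_dvd_of_pow_eq_one h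
      exact hk ⟨c, hc.symm⟩
    simp only [if_neg h4, zero_mul]

end Fermat.Agent.Cor
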