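import Fermat.Agent.Classic.Zeta.Final

/-!
# The completed zeta functions of the ideal classes

`exists_Xi_class`: for every ideal class `C` of a number field `K` the function
`s (1 - s) |d|^{s/2} Γ_ℝ(s)^{r₁} Γ_ℂ(s)^{r₂} ζ(C, s)` is entire; its value at `1 - s` is the function
of the class `[𝔡] C⁻¹`, `𝔡` the different; the value at `0` does not depend on `C`.
-/

set_option autoImplicit false

noncomputable section

namespace Fermat.Agent.Cor

open NumberField NumberField.InfinitePlace NumberField.Units MeasureTheory Set Real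
open NumberField.Units.dirichletUnitTheorem Fermat.Agent.Classic.Zeta
open scoped nonZeroDivisors Classical

universe u

/-! ### One pair -/

/-- the completed function attached to a weak FE pair, as an entire function -/
def xiPair (P : WeakFEPair ℂ) (n D a : ℝ) (c : ℂ) (s : ℂ) : ℂ :=
  c⁻¹ * ((D : ℂ) ^ (s / 2) * (a : ℂ) ^ s * xiOf P n s)

section Pair

variable {P : WeakFEPair ℂ} {n D a : ℝ} {c : ℂ}

theorem differentiable_xiPair (hD : 0 < D) (ha : 0 < a) : Differentiable ℂ (xiPair P n D a c) := by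
  have hDs : Differentiable ℂ fun s : ℂ => (D : ℂ) ^ (s / 2) :=
    (differentiable_ofReal_cpow hD).comp (by fun_prop)
  exact ((hDs.mul (differentiable_ofReal_cpow ha)).mul (differentiable_xiOf P n)).const_mul _

theorem xiPair_zero (P : WeakFEPair ℂ) {n D a : ℝ} (c : ℂ) :
    xiPair P n D a c 0 = -(c⁻¹ * (P.f₀ / n)) := by
  unfold xiPair xiOf
  simp

theorem ne_zero_of_re {s : ℂ} (hs : 1 < s.re) : s ≠ 0 := by
  rintro rfl
  rw [Complex.zero_re] at hs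
  linarith

theorem ne_one_of_re {s : ℂ} (hs : 1 < s.re) : s ≠ 1 := by
  rintro rfl
  rw [Complex.one_re] at hs
  linarith

theorem xiPair_eq (hn : 0 < n) (ha : 0 < a) (hc : c ≠ 0) (hk : P.k = n)
    {G Z : ℂ → ℂ} {s : ℂ} (hs : 1 < s.re)
    (hf : P.Λ (n * s) = c * G s * ((a : ℂ) ^ (-s) * Z s)) :
    xiPair P n D a c s = s * (1 - s) * ((D : ℂ) ^ (s / 2) * G s * Z s) := by
  unfold xiPair
  rw [xiOf_eq P hn hk (ne_zero_of_re hs) (ne_one_of_re hs), hf]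
  have h1 : (a : ℂ) ^ s * (a : ℂ) ^ (-s) = 1 := by
    rw [ofReal_cpow_eq_exp ha, ofReal_cpow_eq_exp ha, ← Complex.exp_add]
    rw [mul_neg, add_neg_cancel, Complex.exp_zero]
  calc c⁻¹ * ((D : ℂ) ^ (s / 2) * (a : ℂ) ^ s *
        (s * (1 - s) * (c * G s * ((a : ℂ) ^ (-s) * Z s))))
      = (c⁻¹ * c) * ((a : ℂ) ^ s * (a : ℂ) ^ (-s)) *
          (s * (1 - s) * ((D : ℂ) ^ (s / 2) * G s * Z s)) := by
        ring
    _ = _ := by rw [h1, inv_mul_cancel₀ hc, one_mul, one_mul]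

theorem xiPair_one_sub (hn : 0 < n) (hD : 0 < D) (ha : 0 < a) (hc : c ≠ 0) (hk : P.k = n)
    (hε : P.ε = (((√D * a)⁻¹ : ℝ) : ℂ)) {G Z' : ℂ → ℂ} {s : ℂ} (hs : 1 < s.re)
    (hg : P.symm.Λ (n * s) = c * G s * ((((a * D)⁻¹ : ℝ) : ℂ) ^ (-s) * Z' s)) :
    xiPair P n D a c (1 - s) = s * (1 - s) * ((D : ℂ) ^ (s / 2) * G s * Z' s) := by
  have hb : 0 < (a * D)⁻¹ := inv_pos.mpr (mul_pos ha hD)
  have h0 := ne_zero_of_re hs
  have h1 := ne_one_of_re hs
  have h0' : 1 - s ≠ 0 := sub_ne_zero.mpr (Ne.symm h1)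
  have h1' : 1 - s ≠ 1 := fun h => h0 (by linear_combination -h)
  have h2 : (n : ℂ) * (1 - s) = P.k - n * s := by
    rw [hk]
    ring
  unfold xiPair
  rw [xiOf_eq P hn hk h0' h1', h2, P.functional_equation, hg, hε, smul_eq_mul]
  have hsq : ((√D : ℝ) : ℂ) = Complex.exp ((Real.log D : ℂ) * (1 / 2)) := by
    rw [← ofReal_cpow_eq_exp hD, Real.sqrt_eq_rpow, Complex.ofReal_cpow hD.le]
    norm_num
  have hae : ((a : ℝ) : ℂ) = Complex.exp ((Real.log a : ℂ)) := by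
    rw [← Complex.ofReal_exp, Real.exp_log ha]
  have hlog : Real.log ((a * D)⁻¹) = -(Real.log a + Real.log D) := by
    rw [Real.log_inv, Real.log_mul ha.ne' hD.ne']
  have h3 : (D : ℂ) ^ ((1 - s) / 2) * (a : ℂ) ^ (1 - s) * (((√D * a)⁻¹ : ℝ) : ℂ) *
      (((a * D)⁻¹ : ℝ) : ℂ) ^ (-s) = (D : ℂ) ^ (s / 2) := by
    rw [Complex.ofReal_inv, Complex.ofReal_mul]
    rw [ofReal_cpow_eq_exp hD, ofReal_cpow_eq_exp hD, ofReal_cpow_eq_exp ha,
      ofReal_cpow_eq_exp hb, hlog, hsq]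
    rw [hae]
    simp only [← Complex.exp_add, ← Complex.exp_neg]
    congr 1
    push_cast
    ring
  calc c⁻¹ * ((D : ℂ) ^ ((1 - s) / 2) * (a : ℂ) ^ (1 - s) * ((1 - s) * (1 - (1 - s)) *
        ((((√D * a)⁻¹ : ℝ) : ℂ) * (c * G s * ((((a * D)⁻¹ : ℝ) : ℂ) ^ (-s) * Z' s)))))
      = (c⁻¹ * c) * ((D : ℂ) ^ ((1 - s) / 2) * (a : ℂ) ^ (1 - s) *
          (((√D * a)⁻¹ : ℝ) : ℂ) * (((a * D)⁻¹ : ℝ) : ℂ) ^ (-s)) *
          (s * (1 - s) * (G s * Z' s)) := by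
        ring
    _ = _ := by
        rw [h3, inv_mul_cancel₀ hc]
        ring

end Pair

/-! ### The ideal classes -/

variable (K : Type u) [Field K] [NumberField K]

/-- the different as a non-zero ideal -/
def diffIdeal : (Ideal (𝓞 K))⁰ :=
  ⟨differentIdeal ℤ (𝓞 K), mem_nonZeroDivisors_of_ne_zero differentIdeal_ne_bot⟩

/-- the class of the different -/
def diffClass : ClassGroup (𝓞 K) := ClassGroup.mk0 (diffIdeal K)

theorem dualU_one_eq :
    dualU (1 : (FractionalIdeal (𝓞 K)⁰ K)ˣ) = (FractionalIdeal.mk0 K (diffIdeal K))⁻¹ := by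
  refine Units.ext ?_
  rw [Units.val_inv_eq_inv_val, FractionalIdeal.coe_mk0]
  change FractionalIdeal.dual ℤ ℚ (1 : FractionalIdeal (𝓞 K)⁰ K) =
    ((differentIdeal ℤ (𝓞 K) : Ideal (𝓞 K)) : FractionalIdeal (𝓞 K)⁰ K)⁻¹
  rw [coeIdeal_differentIdeal (K := ℚ), inv_inv]

theorem mk_dualU_eq (𝔟 : (FractionalIdeal (𝓞 K)⁰ K)ˣ) :
    ClassGroup.mk K (dualU 𝔟) = (diffClass K)⁻¹ * (ClassGroup.mk K 𝔟)⁻¹ := by
  have h := Classes.mk_dualU 𝔟
  rw [dualU_one_eq, map_inv, ClassGroup.mk_mk0] at h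
  exact eq_mul_inv_of_mul_eq h

/-- **The completed zeta functions of the ideal classes.** -/
theorem exists_Xi_class : ∃ Ξ : ClassGroup (𝓞 K) → ℂ → ℂ, (∀ C, Differentiable ℂ (Ξ C)) ∧
    (∀ C s, Ξ C (1 - s) = Ξ (diffClass K * C⁻¹) s) ∧
    (∀ C (s : ℂ), 1 < s.re → Ξ C s =
      s * (1 - s) * (((|(discr K : ℝ)| : ℝ) : ℂ) ^ (s / 2) * gam K s * zcK C s)) ∧
    ∀ C C', Ξ C 0 = Ξ C' 0 := by
  have hΘ := thetaStmt K
  have hT := torusStmt hΘ
  have hD := decayStmt K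
  obtain ⟨c, hc, hM⟩ := mellinStmt_of' hT hD (gammaStmt K)
  have hC := classStmt K
  have hZ := zetaSumStmt K
  obtain ⟨β, hβ⟩ := hT.1
  choose r hr using exists_mk_eq (K := K)
  have hn := finrank_pos' K
  have hd := disc_pos K
  have hc' : (c : ℂ) ≠ 0 := by exact_mod_cast hc.ne'
  let Ξ : ClassGroup (𝓞 K) → ℂ → ℂ := fun A =>
    xiPair (fe hβ hT hD (r A⁻¹)) (Module.finrank ℚ K) |(discr K : ℝ)|
      (nF (r A⁻¹ : FractionalIdeal (𝓞 K)⁰ K)) c
  have hΞd : ∀ A, Differentiable ℂ (Ξ A) := fun A =>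
    differentiable_xiPair hd (nF_pos (r A⁻¹).ne_zero)
  have h1 : ∀ A (s : ℂ), 1 < s.re → Ξ A s =
      s * (1 - s) * (((|(discr K : ℝ)| : ℝ) : ℂ) ^ (s / 2) * gam K s * zcK A s) := by
    intro A s hs
    refine xiPair_eq hn (nF_pos (r A⁻¹).ne_zero) hc' rfl hs ?_
    rw [fe_Λ hβ hT hD hM hC _ s hs, hr, inv_inv]
  have h2 : ∀ A (s : ℂ), 1 < s.re → Ξ A (1 - s) =
      s * (1 - s) * (((|(discr K : ℝ)| : ℝ) : ℂ) ^ (s / 2) * gam K s *
        zcK (diffClass K * A⁻¹) s) := by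
    intro A s hs
    refine xiPair_one_sub (G := gam K) (Z' := zcK (diffClass K * A⁻¹)) hn hd
      (nF_pos (r A⁻¹).ne_zero) hc' rfl rfl hs ?_
    have e : ((diffClass K)⁻¹ * (A⁻¹)⁻¹)⁻¹ = diffClass K * A⁻¹ := by
      rw [inv_inv, mul_inv, inv_inv]
    rw [← fe_dual hβ hT hD hZ, fe_Λ hβ hT hD hM hC _ s hs, mk_dualU_eq, hr, coe_dualU,
      hZ.2.2.1 _ (r A⁻¹).ne_zero, e]
  refine ⟨Ξ, hΞd, fun A s => ?_, h1, fun A A' => ?_⟩
  · have hd1 : Differentiable ℂ fun s => Ξ A (1 - s) := (hΞd A).comp (by fun_prop)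
    have hd2 : Differentiable ℂ (Ξ (diffClass K * A⁻¹)) := hΞd _
    have hev : (fun s => Ξ A (1 - s)) =ᶠ[nhds (2 : ℂ)] Ξ (diffClass K * A⁻¹) := by
      have hU : {s : ℂ | 1 < s.re} ∈ nhds (2 : ℂ) :=
        (isOpen_lt continuous_const Complex.continuous_re).mem_nhds (by norm_num)
      filter_upwards [hU] with s hs
      rw [h2 A s hs, h1 _ s hs]
    have h3 := AnalyticOnNhd.eq_of_eventuallyEq (𝕜 := ℂ) (z₀ := 2)
      (hd1.differentiableOn.analyticOnNhd isOpen_univ)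
      (hd2.differentiableOn.analyticOnNhd isOpen_univ) hev
    exact congrFun h3 s
  · change xiPair _ _ _ _ _ 0 = xiPair _ _ _ _ _ 0
    rw [xiPair_zero, xiPair_zero]
    rfl

/-- the completed zeta function of an ideal class, multiplied by `s (1 - s)` -/
def XiC : ClassGroup (𝓞 K) → ℂ → ℂ := (exists_Xi_class K).choose

variable {K}

theorem differentiable_XiC (C : ClassGroup (𝓞 K)) : Differentiable ℂ (XiC K C) :=
  (exists_Xi_class K).choose_spec.1 C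

theorem XiC_one_sub (C : ClassGroup (𝓞 K)) (s : ℂ) :
    XiC K C (1 - s) = XiC K (diffClass K * C⁻¹) s :=
  (exists_Xi_class K).choose_spec.2.1 C s

theorem XiC_eq (C : ClassGroup (𝓞 K)) {s : ℂ} (hs : 1 < s.re) : XiC K C s =
    s * (1 - s) * (((|(discr K : ℝ)| : ℝ) : ℂ) ^ (s / 2) * gam K s * zcK C s) :=
  (exists_Xi_class K).choose_spec.2.2.1 C s hs

theorem XiC_zero_eq (C C' : ClassGroup (𝓞 K)) : XiC K C 0 = XiC K C' 0 :=
  (exists_Xi_class K).choose_spec.2.2.2 C C'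

theorem XiC_one_eq (C C' : ClassGroup (𝓞 K)) : XiC K C 1 = XiC K C' 0 := by
  rw [← XiC_zero_eq (diffClass K * C⁻¹) C', ← XiC_one_sub, sub_zero]

/-- the completed L-function of a class function, multiplied by `s (1 - s)` -/
def XiF (f : ClassGroup (𝓞 K) → ℂ) (s : ℂ) : ℂ := ∑ C : ClassGroup (𝓞 K), f C * XiC K C s

theorem differentiable_XiF (f : ClassGroup (𝓞 K) → ℂ) : Differentiable ℂ (XiF f) :=
  Differentiable.fun_sum fun C _ => (differentiable_XiC C).const_mul _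

theorem XiF_one_sub (f : ClassGroup (𝓞 K) → ℂ) (s : ℂ) :
    XiF f (1 - s) = XiF (fun C => f (diffClass K * C⁻¹)) s := by
  unfold XiF
  simp only [XiC_one_sub]
  let e : ClassGroup (𝓞 K) ≃ ClassGroup (𝓞 K) := Equiv.divLeft (diffClass K)
  have he : ∀ C, e C = diffClass K * C⁻¹ := fun C => by
    rw [Equiv.divLeft_apply, div_eq_mul_inv]
  rw [← e.sum_comp]
  refine Finset.sum_congr rfl fun C _ => ?_
  have h : diffClass K * (diffClass K * C⁻¹)⁻¹ = C := by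
    rw [mul_inv, inv_inv, mul_inv_cancel_left]
  rw [he, h]

theorem XiF_eq (f : ClassGroup (𝓞 K) → ℂ) {s : ℂ} (hs : 1 < s.re) : XiF f s =
    s * (1 - s) * (((|(discr K : ℝ)| : ℝ) : ℂ) ^ (s / 2) * gam K s *
      ∑ C : ClassGroup (𝓞 K), f C * zcK C s) := by
  unfold XiF
  rw [Finset.mul_sum, Finset.mul_sum]
  refine Finset.sum_congr rfl fun C _ => ?_
  rw [XiC_eq C hs]
  ring

theorem XiF_zero (f : ClassGroup (𝓞 K) → ℂ) (C' : ClassGroup (𝓞 K)) :
    XiF f 0 = (∑ C, f C) * XiC K C' 0 := by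
  unfold XiF
  rw [Finset.sum_mul]
  exact Finset.sum_congr rfl fun C _ => by rw [XiC_zero_eq C C']

theorem XiF_one (f : ClassGroup (𝓞 K) → ℂ) (C' : ClassGroup (𝓞 K)) :
    XiF f 1 = (∑ C, f C) * XiC K C' 0 := by
  unfold XiF
  rw [Finset.sum_mul]
  exact Finset.sum_congr rfl fun C _ => by rw [XiC_one_eq C C']

end Fermat.Agent.Cor

end
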