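import Fermat.Agent.Corollaries.ZetaK.AbelianZeta

/-!
# The conductor-discriminant formula from the functional equations

`F` a number field, `Y` a group of Dirichlet characters, `IsFieldOf F Y`, and the gamma factors
agree: then `|d_F| = ∏_{χ ∈ Y} cond χ` and `∏_{χ ∈ Y} W(χ*) = 1` (`W` the root number).
-/

set_option autoImplicit false

noncomputable section

open DirichletCharacter NumberField Filter Topology Complex

universe u

namespace Fermat.Agent.Cor

variable {n : ℕ} [NeZero n]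

theorem completed_eq_of_changeLevel {N₁ N₂ : ℕ} [NeZero N₁] [NeZero N₂] (h₁ : N₁ ∣ n)
    (h₂ : N₂ ∣ n) (hN : N₁ = N₂) (χ₁ : DirichletCharacter ℂ N₁) (χ₂ : DirichletCharacter ℂ N₂)
    (h : changeLevel h₁ χ₁ = changeLevel h₂ χ₂) :
    completedLFunction χ₁ = completedLFunction χ₂ := by
  subst hN
  rw [changeLevel_injective h₁ h]

theorem completed_inv (χ : DirichletCharacter ℂ n) :
    completedLFunction (χ.primitiveCharacter⁻¹) = completedLFunction (χ⁻¹).primitiveCharacter := by
  refine completed_eq_of_changeLevel χ.conductor_dvd_level (χ⁻¹).conductor_dvd_level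
    (conductor_inv χ).symm _ _ ?_
  rw [map_inv, changeLevel_primitiveCharacter, changeLevel_primitiveCharacter]

theorem natCast_prod_cpow {ι : Type*} (t : Finset ι) (f : ι → ℕ) (s : ℂ) :
    ((∏ i ∈ t, f i : ℕ) : ℂ) ^ s = ∏ i ∈ t, (f i : ℂ) ^ s := by
  classical
  induction t using Finset.induction_on with
  | empty => simp
  | insert a t ha ih =>
    rw [Finset.prod_insert ha, Finset.prod_insert ha, Nat.cast_mul,
      Complex.natCast_mul_natCast_cpow, ih]

/-- The product of the completed `L`-functions of the primitive characters of `Y`. -/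
def LamY (Y : Subgroup (DirichletCharacter ℂ n)) (s : ℂ) : ℂ :=
  ∏ χ : Y, completedLFunction (χ : DirichletCharacter ℂ n).primitiveCharacter s

/-- The product of the conductors. -/
def condY (Y : Subgroup (DirichletCharacter ℂ n)) : ℕ :=
  ∏ χ : Y, (χ : DirichletCharacter ℂ n).conductor

/-- The product of the root numbers. -/
def rootY (Y : Subgroup (DirichletCharacter ℂ n)) : ℂ :=
  ∏ χ : Y, rootNumber (χ : DirichletCharacter ℂ n).primitiveCharacter

theorem condY_pos (Y : Subgroup (DirichletCharacter ℂ n)) : 0 < condY Y :=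
  Finset.prod_pos fun χ _ => Nat.pos_of_ne_zero (χ : DirichletCharacter ℂ n).conductor_ne_zero

theorem LamY_one_sub (Y : Subgroup (DirichletCharacter ℂ n)) (s : ℂ) :
    LamY Y (1 - s) = (condY Y : ℂ) ^ (s - 1 / 2) * rootY Y * LamY Y s := by
  have h1 : ∀ χ : Y, completedLFunction (χ : DirichletCharacter ℂ n).primitiveCharacter (1 - s) =
      ((χ : DirichletCharacter ℂ n).conductor : ℂ) ^ (s - 1 / 2) *
        rootNumber (χ : DirichletCharacter ℂ n).primitiveCharacter *
        completedLFunction ((χ⁻¹ : Y) : DirichletCharacter ℂ n).primitiveCharacter s := by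
    intro χ
    rw [(χ : DirichletCharacter ℂ n).primitiveCharacter_isPrimitive.completedLFunction_one_sub,
      completed_inv]
    rfl
  rw [LamY, Finset.prod_congr rfl fun χ _ => h1 χ, Finset.prod_mul_distrib,
    Finset.prod_mul_distrib, condY, natCast_prod_cpow, rootY, LamY]
  congr 1
  exact Equiv.prod_comp (Equiv.inv Y) fun χ : Y =>
    completedLFunction (χ : DirichletCharacter ℂ n).primitiveCharacter s

theorem differentiableAt_LamY (Y : Subgroup (DirichletCharacter ℂ n)) {s : ℂ} (h0 : s ≠ 0)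
    (h1 : s ≠ 1) : DifferentiableAt ℂ (LamY Y) s := by
  refine DifferentiableAt.fun_finsetProd fun χ _ => ?_
  exact differentiableAt_completedLFunction _ _ (Or.inl h0) (Or.inl h1)

variable (n) in
/-- The gamma factors of `F` and of `Y` agree. -/
def GammaMatch (F : Type u) [Field F] [NumberField F] (Y : Subgroup (DirichletCharacter ℂ n)) :
    Prop :=
  ∀ s : ℂ, ∏ χ : Y, gammaFactor (χ : DirichletCharacter ℂ n).primitiveCharacter s =
    Gammaℝ s ^ InfinitePlace.nrRealPlaces F * Gammaℂ s ^ InfinitePlace.nrComplexPlaces F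

variable {F : Type u} [Field F] [NumberField F] {Y : Subgroup (DirichletCharacter ℂ n)}

theorem gammaFactor_ne_zero {N : ℕ} [NeZero N] (χ : DirichletCharacter ℂ N) {s : ℂ}
    (hs : 0 < s.re) : gammaFactor χ s ≠ 0 := by
  rcases χ.even_or_odd with h | h
  · rw [h.gammaFactor_def]
    exact Gammaℝ_ne_zero_of_re_pos hs
  · rw [h.gammaFactor_def]
    refine Gammaℝ_ne_zero_of_re_pos ?_
    rw [add_re, one_re]
    linarith

theorem LamY_eq (h : IsFieldOf F Y) (hg : GammaMatch n F Y) {s : ℂ} (hs : 1 < s.re) :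
    LamY Y s = Gammaℝ s ^ InfinitePlace.nrRealPlaces F *
      Gammaℂ s ^ InfinitePlace.nrComplexPlaces F * dedekindZeta F s := by
  rw [dedekindZeta_eq_prod h hs, ← hg s, ← Finset.prod_mul_distrib, LamY]
  refine Finset.prod_congr rfl fun χ _ => ?_
  have hs0 : s ≠ 0 := ne_zero_of_re hs
  rw [LFunction_eq_completed_div_gammaFactor _ s (Or.inl hs0),
    mul_div_cancel₀ _ (gammaFactor_ne_zero _ (by linarith))]

theorem LamY_ne_zero (h : IsFieldOf F Y) (hg : GammaMatch n F Y) {s : ℂ} (hs : 1 < s.re) :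
    LamY Y s ≠ 0 := by
  rw [LamY_eq h hg hs, ← exp_tsum_log_dedekindZeta hs]
  refine mul_ne_zero (mul_ne_zero (pow_ne_zero _ ?_) (pow_ne_zero _ ?_)) (Complex.exp_ne_zero _)
  · exact Gammaℝ_ne_zero_of_re_pos (by linarith)
  · rw [Gammaℂ_def]
    refine mul_ne_zero (mul_ne_zero two_ne_zero ?_) (Complex.Gamma_ne_zero_of_re_pos (by linarith))
    rw [Ne, cpow_eq_zero_iff]
    push Not
    intro h
    exact absurd h (by simp [Real.pi_ne_zero])

/-- `|d|^{s/2} Λ_Y(s)` is invariant under `s ↦ 1 - s`. -/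
theorem LamY_symm (h : IsFieldOf F Y) (hg : GammaMatch n F Y) {s : ℂ} (h0 : s ≠ 0) (h1 : s ≠ 1) :
    ((|(discr F : ℝ)| : ℝ) : ℂ) ^ ((1 - s) / 2) * LamY Y (1 - s) =
      ((|(discr F : ℝ)| : ℝ) : ℂ) ^ (s / 2) * LamY Y s := by
  obtain ⟨Λ, hd, hsym, hΛ⟩ := Classic.Zeta.exists_xi F
  have hD : (0 : ℝ) < |(discr F : ℝ)| := abs_pos.mpr (Int.cast_ne_zero.mpr (discr_ne_zero F))
  have hDc : ((|(discr F : ℝ)| : ℝ) : ℂ) ≠ 0 := by exact_mod_cast hD.ne'
  have key : ∀ s : ℂ, s ≠ 0 → s ≠ 1 →
      Λ s = ((|(discr F : ℝ)| : ℝ) : ℂ) ^ (s / 2) * LamY Y s := by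
    have ho : IsOpen ({0, 1}ᶜ : Set ℂ) := (Set.toFinite {0, 1}).isClosed.isOpen_compl
    have hc : IsPreconnected ({0, 1}ᶜ : Set ℂ) :=
      (((Set.toFinite {0, 1}).countable).isConnected_compl_of_one_lt_rank (by simp)).isPreconnected
    have hfa : AnalyticOnNhd ℂ Λ {0, 1}ᶜ :=
      DifferentiableOn.analyticOnNhd (fun z hz => by
        simp only [Set.mem_compl_iff, Set.mem_insert_iff, Set.mem_singleton_iff, not_or] at hz
        exact (hd z hz.1 hz.2).differentiableWithinAt) ho
    have hga : AnalyticOnNhd ℂ (fun s => ((|(discr F : ℝ)| : ℝ) : ℂ) ^ (s / 2) * LamY Y s)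
        {0, 1}ᶜ :=
      DifferentiableOn.analyticOnNhd (fun z hz => by
        simp only [Set.mem_compl_iff, Set.mem_insert_iff, Set.mem_singleton_iff, not_or] at hz
        refine (DifferentiableAt.mul ?_
          (differentiableAt_LamY Y hz.1 hz.2)).differentiableWithinAt
        exact (differentiableAt_id.div_const 2).const_cpow (Or.inl hDc)) ho
    have h2 : (2 : ℂ) ∈ ({0, 1}ᶜ : Set ℂ) := by simp
    have he : Λ =ᶠ[nhds 2] fun s => ((|(discr F : ℝ)| : ℝ) : ℂ) ^ (s / 2) * LamY Y s := by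
      have : {s : ℂ | 1 < s.re} ∈ nhds (2 : ℂ) :=
        (isOpen_lt continuous_const Complex.continuous_re).mem_nhds (by simp)
      filter_upwards [this] with z hz
      rw [hΛ z hz, LamY_eq h hg hz, mul_assoc]
    intro s h0 h1
    exact hfa.eqOn_of_preconnected_of_eventuallyEq hga hc h2 he (by simp [h0, h1])
  rw [← key s h0 h1, ← key (1 - s) (sub_ne_zero.mpr (Ne.symm h1)) (by simpa using h0), hsym]

/-- **The conductor-discriminant formula, and the product of the root numbers is `1`.** -/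
theorem cond_disc_of (h : IsFieldOf F Y) (hg : GammaMatch n F Y) :
    condY Y = (discr F).natAbs ∧ rootY Y = 1 := by
  set d : ℕ := (discr F).natAbs with hd
  have hdr : (|(discr F : ℝ)| : ℝ) = (d : ℝ) := by
    rw [hd, Nat.cast_natAbs, Int.cast_abs]
  have hd0 : (d : ℂ) ≠ 0 := by
    rw [hd]
    exact_mod_cast (Int.natAbs_ne_zero.mpr (discr_ne_zero F))
  have hD0 : (condY Y : ℂ) ≠ 0 := by exact_mod_cast (condY_pos Y).ne'
  have key : ∀ s : ℂ, 1 < s.re →
      (d : ℂ) ^ (s - 1 / 2) = (condY Y : ℂ) ^ (s - 1 / 2) * rootY Y := by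
    intro s hs
    have h1 := LamY_symm h hg (ne_zero_of_re hs) (ne_one_of_re hs)
    rw [LamY_one_sub, hdr, Complex.ofReal_natCast, ← mul_assoc] at h1
    have h2 := mul_right_cancel₀ (LamY_ne_zero h hg hs) h1
    have h3 : (d : ℂ) ^ (s - 1 / 2) = (d : ℂ) ^ (s / 2) * ((d : ℂ) ^ ((1 - s) / 2))⁻¹ := by
      rw [← cpow_neg, ← cpow_add _ _ hd0]
      congr 1
      ring
    rw [h3, ← h2]
    have h4 : (d : ℂ) ^ ((1 - s) / 2) ≠ 0 := by
      rw [Ne, cpow_eq_zero_iff]
      exact fun h => hd0 h.1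
    field_simp
  have k1 := key (3 / 2) (by norm_num)
  have k2 := key (5 / 2) (by norm_num)
  rw [show (3 / 2 : ℂ) - 1 / 2 = 1 by norm_num, cpow_one, cpow_one] at k1
  rw [show (5 / 2 : ℂ) - 1 / 2 = (2 : ℕ) by norm_num, cpow_natCast, cpow_natCast] at k2
  have hW0 : rootY Y ≠ 0 := by
    intro h0
    rw [h0, mul_zero] at k1
    exact hd0 k1
  have hW : rootY Y = 1 := by
    rw [k1] at k2
    have h5 : (condY Y : ℂ) ^ 2 * rootY Y * (rootY Y - 1) = 0 := by linear_combination k2
    rcases mul_eq_zero.mp h5 with h6 | h6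
    · exact absurd h6 (mul_ne_zero (pow_ne_zero _ hD0) hW0)
    · exact sub_eq_zero.mp h6
  refine ⟨?_, hW⟩
  rw [hW, mul_one] at k1
  exact_mod_cast k1.symm

end Fermat.Agent.Cor
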