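import Mathlib

/-!
# Ramification index and residue degree in a subfield

`K/ℚ` and `F/ℚ` Galois, `F → K`, `H ≤ Gal(K/ℚ)` the group of `K/F`, `𝔓` a prime of `K` above `p`
with inertia group `I` and decomposition group `D`: `e_F(p) = [I : H ∩ I]`,
`e_F(p) f_F(p) = [D : H ∩ D]`.
-/

set_option autoImplicit false

namespace Fermat.Agent.Cor

open NumberField Ideal MulAction
open scoped Pointwise

theorem relIndex_mul_card {G : Type*} [Group G] (H I : Subgroup G) :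
    H.relIndex I * Nat.card (I.subgroupOf H) = Nat.card I := by
  have h1 : Nat.card (I.subgroupOf H) = Nat.card (H.subgroupOf I) := by
    have e1 := Nat.card_congr (Subgroup.subgroupOfEquivOfLe (inf_le_left : H ⊓ I ≤ H)).toEquiv
    have e2 := Nat.card_congr (Subgroup.subgroupOfEquivOfLe (inf_le_right : H ⊓ I ≤ I)).toEquiv
    rw [Subgroup.inf_subgroupOf_left] at e1
    rw [Subgroup.inf_subgroupOf_right] at e2
    rw [e1, e2]
  rw [h1, mul_comm]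
  exact (H.subgroupOf I).card_mul_index

variable {K F : Type*} [Field K] [NumberField K] [Field F] [NumberField F] [Algebra F K]
  [IsGalois ℚ K] [IsGalois ℚ F] (H : Subgroup Gal(K/ℚ)) [IsGaloisGroup H (𝓞 F) (𝓞 K)]
  (p : ℕ) [Fact p.Prime] (𝔓 : Ideal (𝓞 K)) [𝔓.IsPrime] [𝔓.LiesOver (span {(p : ℤ)})]

include 𝔓 in
theorem ramificationIdxIn_sub :
    (span {(p : ℤ)}).ramificationIdxIn (𝓞 F) = H.relIndex (𝔓.inertia Gal(K/ℚ)) := by
  have : (𝔓.under (𝓞 F)).LiesOver (span {(p : ℤ)}) := inferInstance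
  have h1 : (span {(p : ℤ)}).ramificationIdxIn (𝓞 F) *
      (𝔓.under (𝓞 F)).ramificationIdxIn (𝓞 K) = (span {(p : ℤ)}).ramificationIdxIn (𝓞 K) :=
    ramificationIdxIn_mul_ramificationIdxIn (P := 𝔓.under (𝓞 F)) (G := Gal(F/ℚ)) (C := 𝓞 K)
      (GAC := Gal(K/ℚ)) (GBC := H)
  have h2 : Nat.card (𝔓.inertia H) = (𝔓.under (𝓞 F)).ramificationIdxIn (𝓞 K) :=
    card_inertia_eq_ramificationIdxIn (G := H) (𝔓.under (𝓞 F)) 𝔓
  have h3 : Nat.card (𝔓.inertia Gal(K/ℚ)) = (span {(p : ℤ)}).ramificationIdxIn (𝓞 K) :=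
    card_inertia_eq_ramificationIdxIn (G := Gal(K/ℚ)) (span {(p : ℤ)}) 𝔓
  have h4 := relIndex_mul_card H (𝔓.inertia Gal(K/ℚ))
  have h5 : (𝔓.inertia Gal(K/ℚ)).subgroupOf H = 𝔓.inertia H := AddSubgroup.subgroupOf_inertia _ _
  rw [h5, h3, ← h1, h2] at h4
  refine (Nat.eq_of_mul_eq_mul_right (Nat.pos_of_ne_zero ?_) h4).symm
  rw [← h2]
  exact Nat.card_pos.ne'

include 𝔓 in
theorem ramificationIdxIn_mul_inertiaDegIn_sub :
    (span {(p : ℤ)}).ramificationIdxIn (𝓞 F) * (span {(p : ℤ)}).inertiaDegIn (𝓞 F) =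
      H.relIndex (stabilizer Gal(K/ℚ) 𝔓) := by
  have : (𝔓.under (𝓞 F)).LiesOver (span {(p : ℤ)}) := inferInstance
  have h1 : (span {(p : ℤ)}).ramificationIdxIn (𝓞 F) *
      (𝔓.under (𝓞 F)).ramificationIdxIn (𝓞 K) = (span {(p : ℤ)}).ramificationIdxIn (𝓞 K) :=
    ramificationIdxIn_mul_ramificationIdxIn (P := 𝔓.under (𝓞 F)) (G := Gal(F/ℚ)) (C := 𝓞 K)
      (GAC := Gal(K/ℚ)) (GBC := H)
  have h1' : (span {(p : ℤ)}).inertiaDegIn (𝓞 F) *
      (𝔓.under (𝓞 F)).inertiaDegIn (𝓞 K) = (span {(p : ℤ)}).inertiaDegIn (𝓞 K) :=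
    inertiaDegIn_mul_inertiaDegIn (p := span {(p : ℤ)}) (P := 𝔓.under (𝓞 F)) (G := Gal(F/ℚ))
      (C := 𝓞 K) (GAC := Gal(K/ℚ)) (GBC := H)
  have h2 : Nat.card (stabilizer H 𝔓) = (𝔓.under (𝓞 F)).ramificationIdxIn (𝓞 K) *
      (𝔓.under (𝓞 F)).inertiaDegIn (𝓞 K) :=
    card_stabilizer_eq (G := H) (𝔓.under (𝓞 F)) 𝔓
  have h3 : Nat.card (stabilizer Gal(K/ℚ) 𝔓) = (span {(p : ℤ)}).ramificationIdxIn (𝓞 K) *
      (span {(p : ℤ)}).inertiaDegIn (𝓞 K) :=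
    card_stabilizer_eq (G := Gal(K/ℚ)) (span {(p : ℤ)}) 𝔓
  have h4 := relIndex_mul_card H (stabilizer Gal(K/ℚ) 𝔓)
  have h5 : (stabilizer Gal(K/ℚ) 𝔓).subgroupOf H = stabilizer H 𝔓 := by
    ext σ
    rfl
  rw [h5, h3, ← h1, ← h1'] at h4
  refine (Nat.eq_of_mul_eq_mul_right (Nat.card_pos (α := stabilizer H 𝔓)) ?_).symm
  rw [h4, h2]
  ring

variable (F) in
/-- The number of primes above `p`. -/
theorem ncard_mul :
    ((span {(p : ℤ)}).primesOver (𝓞 F)).ncard *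
      ((span {(p : ℤ)}).ramificationIdxIn (𝓞 F) * (span {(p : ℤ)}).inertiaDegIn (𝓞 F)) =
      Nat.card Gal(F/ℚ) :=
  ncard_primesOver_mul_ramificationIdxIn_mul_inertiaDegIn (span {(p : ℤ)}) (𝓞 F) Gal(F/ℚ)

/-- A number field which is an intermediate field of a Galois extension. -/
theorem isGaloisGroup_fixingSubgroup (L : IntermediateField ℚ K) :
    IsGaloisGroup L.fixingSubgroup (𝓞 L) (𝓞 K) := by
  have : IsGaloisGroup L.fixingSubgroup L K :=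
    IsGaloisGroup.intermediateField (G := Gal(K/ℚ)) (K := ℚ) (L := K) (F := L)
  exact IsGaloisGroup.of_isFractionRing L.fixingSubgroup (𝓞 L) (𝓞 K) L K

end Fermat.Agent.Cor
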