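import Fermat.Agent.Corollaries.ZetaK.DirAnn
import Fermat.Agent.Corollaries.ZetaK.GalNumbers

/-!
# Decomposition and inertia groups in cyclotomic fields

`K` the `n`-th cyclotomic field, `p` any prime (also `p ∣ n`), `m` the part of `n` prime to `p`,
`redP : (ℤ/n)ˣ → (ℤ/m)ˣ`. Under `galEquivZMod` the inertia group of a prime above `p` is the kernel
of `redP`, the decomposition group is the preimage of the group generated by `p`.
-/

set_option autoImplicit false

noncomputable section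

namespace Fermat.Agent.Cor

open NumberField Ideal MulAction IsCyclotomicExtension IsCyclotomicExtension.Rat
open scoped Pointwise

variable (n : ℕ) [NeZero n] (K : Type*) [Field K] [NumberField K]
  [hK : IsCyclotomicExtension {n} ℚ K] (p : ℕ) [hp : Fact p.Prime]

/-! ### The numbers of the cyclotomic field -/

theorem oc_eq_self {n p : ℕ} (h : ¬ p ∣ n) : oc n p = n := by
  rw [oc, Nat.factorization_eq_zero_of_not_dvd h, pow_zero, Nat.div_one]

theorem not_dvd_oc : ¬ p ∣ oc n p := Nat.not_dvd_ordCompl hp.out (NeZero.ne n)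

theorem inertiaDegIn_K :
    (span {(p : ℤ)}).inertiaDegIn (𝓞 K) = orderOf (uP n hp.out) := by
  have h0 : orderOf (uP n hp.out) = orderOf (p : ZMod (oc n p)) := by
    rw [← coe_uP (n := n) hp.out, orderOf_units]
  rw [h0]
  by_cases h : p ∣ n
  · obtain ⟨k, hk⟩ : ∃ k, n.factorization p = k + 1 :=
      ⟨n.factorization p - 1, by
        have := (hp.out.dvd_iff_one_le_factorization (NeZero.ne n)).mp h
        omega⟩
    have hn : n = p ^ (k + 1) * oc n p := by
      rw [← hk]; exact (Nat.ordProj_mul_ordCompl_eq_self n p).symm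
    exact inertiaDegIn_eq n K hn (not_dvd_oc n p)
  · rw [inertiaDegIn_eq_of_not_dvd p K (m := n) h]
    exact congrArg (fun k => orderOf (p : ZMod k)) (oc_eq_self h).symm

theorem ramificationIdxIn_K_mul :
    (span {(p : ℤ)}).ramificationIdxIn (𝓞 K) * (oc n p).totient = n.totient := by
  by_cases h : p ∣ n
  · obtain ⟨k, hk⟩ : ∃ k, n.factorization p = k + 1 :=
      ⟨n.factorization p - 1, by
        have := (hp.out.dvd_iff_one_le_factorization (NeZero.ne n)).mp h
        omega⟩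
    have hn : n = p ^ (k + 1) * oc n p := by
      rw [← hk]; exact (Nat.ordProj_mul_ordCompl_eq_self n p).symm
    rw [ramificationIdxIn_eq n K hn (not_dvd_oc n p)]
    conv_rhs => rw [hn]
    rw [Nat.totient_mul (Nat.Coprime.pow_left _ (coprime_oc hp.out)),
      Nat.totient_prime_pow hp.out (Nat.succ_pos k)]
    simp
  · rw [ramificationIdxIn_eq_of_not_dvd p K (m := n) h, one_mul, oc_eq_self h]

theorem card_ker_redP_mul : Nat.card (redP n p).ker * (oc n p).totient = n.totient := by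
  have h1 := (redP n p).ker.card_mul_index
  rw [Subgroup.index_ker, (redP n p).range_eq_top_of_surjective (redP_surjective p),
    Nat.card_congr Subgroup.topEquiv.toEquiv, Nat.card_eq_fintype_card,
    Nat.card_eq_fintype_card (α := (ZMod (oc n p))ˣ), Nat.card_eq_fintype_card (α := (ZMod n)ˣ),
    ZMod.card_units_eq_totient, ZMod.card_units_eq_totient] at h1
  rw [Nat.card_eq_fintype_card]
  exact h1

theorem card_ker_redP : Nat.card (redP n p).ker = (span {(p : ℤ)}).ramificationIdxIn (𝓞 K) := by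
  refine Nat.eq_of_mul_eq_mul_right
    (Nat.totient_pos.mpr (Nat.pos_of_ne_zero (oc_ne_zero (n := n) p))) ?_
  rw [card_ker_redP_mul, ramificationIdxIn_K_mul]

/-! ### The groups -/

variable (𝔓 : Ideal (𝓞 K)) [𝔓.IsMaximal] [𝔓.LiesOver (span {(p : ℤ)})]

attribute [local instance] Ideal.Quotient.field

/-- A primitive root of unity of order `m` in `𝓞 K`. -/
def etaM : 𝓞 K := (zeta_spec n ℚ K).toInteger ^ (p ^ n.factorization p)

omit hp in
theorem etaM_spec : IsPrimitiveRoot (etaM n K p) (oc n p) :=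
  (zeta_spec n ℚ K).toInteger_isPrimitiveRoot.pow (NeZero.pos n)
    (Nat.ordProj_mul_ordCompl_eq_self n p).symm

omit hp in
theorem etaM_pow : etaM n K p ^ n = 1 := by
  rw [etaM, ← pow_mul, mul_comm, pow_mul,
    (zeta_spec n ℚ K).toInteger_isPrimitiveRoot.pow_eq_one, one_pow]

theorem etaM_mk : IsPrimitiveRoot (Ideal.Quotient.mk 𝔓 (etaM n K p)) (oc n p) := by
  refine (etaM_spec n K p).idealQuotient_mk
    (by simpa using IsMaximal.ne_top inferInstance) ?_
  rw [← pow_inertiaDeg p]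
  exact Nat.Coprime.pow_left _ (coprime_oc hp.out)

omit hp in
theorem smul_etaM (σ : Gal(K/ℚ)) : σ • etaM n K p =
    etaM n K p ^ (galEquivZMod n K σ).val.val :=
  galEquivZMod_smul_of_pow_eq n K σ (etaM_pow n K p)

/-- If `σ η ≡ η ^ a` modulo `𝔓`, the image of `σ` in `(ℤ/m)ˣ` is `a`. -/
theorem redP_eq_of_mk {σ : Gal(K/ℚ)} {a : ℕ}
    (h : Ideal.Quotient.mk 𝔓 (σ • etaM n K p) = Ideal.Quotient.mk 𝔓 (etaM n K p) ^ a) :
    ((redP n p (galEquivZMod n K σ) : (ZMod (oc n p))ˣ) : ZMod (oc n p)) = a := by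
  have h0 := etaM_mk n K p 𝔓
  rw [smul_etaM, map_pow, (h0.isOfFinOrder (NeZero.ne _)).pow_inj_mod, ← h0.eq_orderOf,
    ← ZMod.natCast_eq_natCast_iff', ZMod.natCast_val] at h
  rw [← h, ZMod.unitsMap_val]

theorem redP_of_inertia {σ : Gal(K/ℚ)} (hσ : σ ∈ 𝔓.inertia Gal(K/ℚ)) :
    galEquivZMod n K σ ∈ (redP n p).ker := by
  rw [MonoidHom.mem_ker]
  apply Units.ext
  rw [redP_eq_of_mk n K p 𝔓 (a := 1) ?_, Nat.cast_one, Units.val_one]
  rw [pow_one, Ideal.Quotient.eq]
  exact AddSubgroup.mem_inertia.mp hσ _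

theorem redP_of_stabilizer {σ : Gal(K/ℚ)} (hσ : σ ∈ stabilizer Gal(K/ℚ) 𝔓) :
    redP n p (galEquivZMod n K σ) ∈ Subgroup.zpowers (uP n hp.out) := by
  let τ := IsFractionRing.stabilizerHom Gal(K/ℚ) (Ideal.span {(p : ℤ)}) 𝔓
     (ℤ ⧸ span {(p : ℤ)}) (𝓞 K ⧸ 𝔓) ⟨σ, hσ⟩
  have : CharP (ℤ ⧸ span {(p : ℤ)}) p := ringChar.of_eq <| Int.ringChar_idealQuot p
  have : Finite (𝓞 K ⧸ 𝔓) := Ring.HasFiniteQuotients.finiteQuotient (NeZero.ne 𝔓)
  obtain ⟨i, hi⟩ := FiniteField.exists_forall_apply_eq_pow (ℤ ⧸ span {(p : ℤ)}) p (𝓞 K ⧸ 𝔓) τ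
  have h₁ := IsFractionRing.stabilizerHom_apply_apply_mk Gal(K/ℚ) (Ideal.span {(p : ℤ)}) 𝔓
      (ℤ ⧸ span {(p : ℤ)}) (𝓞 K ⧸ 𝔓) ⟨σ, hσ⟩ (etaM n K p)
  simp only [Algebra.algebraMap_self, RingHomCompTriple.comp_apply] at h₁
  specialize hi (Ideal.Quotient.mk 𝔓 (etaM n K p))
  rw [h₁, Int.card_ideal_quot] at hi
  have h2 := redP_eq_of_mk n K p 𝔓 (σ := σ) hi
  refine ⟨i, ?_⟩
  apply Units.ext
  rw [h2]
  change ((uP n hp.out ^ (i : ℤ) : (ZMod (oc n p))ˣ) : ZMod (oc n p)) = _
  rw [zpow_natCast, Units.val_pow_eq_pow_val, coe_uP, Nat.cast_pow]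

theorem card_comap_redP : Nat.card ((Subgroup.zpowers (uP n hp.out)).comap (redP n p)) =
    Nat.card (redP n p).ker * orderOf (uP n hp.out) := by
  have h1 := ((Subgroup.zpowers (uP n hp.out)).comap (redP n p)).card_mul_index
  rw [Subgroup.index_comap_of_surjective _ (redP_surjective p)] at h1
  have h2 := (Subgroup.zpowers (uP n hp.out)).card_mul_index
  have h3 := (redP n p).ker.card_mul_index
  rw [Subgroup.index_ker, (redP n p).range_eq_top_of_surjective (redP_surjective p),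
    Nat.card_congr Subgroup.topEquiv.toEquiv] at h3
  rw [Nat.card_zpowers] at h2
  refine Nat.eq_of_mul_eq_mul_right
    (Nat.pos_of_ne_zero (Subgroup.index_ne_zero_of_finite
      (H := Subgroup.zpowers (uP n hp.out)))) ?_
  rw [h1, ← h3, ← h2]
  ring

/-- **The inertia group** of a prime above `p` in the `n`-th cyclotomic field. -/
theorem map_inertia : (𝔓.inertia Gal(K/ℚ)).map (galEquivZMod n K).toMonoidHom =
    (redP n p).ker := by
  have : IsGalois ℚ K := IsCyclotomicExtension.isGalois {n} ℚ K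
  refine Subgroup.eq_of_le_of_card_ge ?_ ?_
  · rintro _ ⟨σ, hσ, rfl⟩
    exact redP_of_inertia n K p 𝔓 hσ
  · rw [card_ker_redP n K p, ← card_inertia_eq_ramificationIdxIn (G := Gal(K/ℚ))
      (span {(p : ℤ)}) 𝔓]
    exact (Nat.card_congr ((𝔓.inertia Gal(K/ℚ)).equivMapOfInjective _
      (galEquivZMod n K).injective).toEquiv).le

/-- **The decomposition group** of a prime above `p` in the `n`-th cyclotomic field. -/
theorem map_stabilizer : (stabilizer Gal(K/ℚ) 𝔓).map (galEquivZMod n K).toMonoidHom =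
    (Subgroup.zpowers (uP n hp.out)).comap (redP n p) := by
  have : IsGalois ℚ K := IsCyclotomicExtension.isGalois {n} ℚ K
  refine Subgroup.eq_of_le_of_card_ge ?_ ?_
  · rintro _ ⟨σ, hσ, rfl⟩
    exact redP_of_stabilizer n K p 𝔓 hσ
  · rw [card_comap_redP, card_ker_redP n K p, ← inertiaDegIn_K n K p,
      ← card_stabilizer_eq (G := Gal(K/ℚ)) (span {(p : ℤ)}) 𝔓]
    exact (Nat.card_congr ((stabilizer Gal(K/ℚ) 𝔓).equivMapOfInjective _
      (galEquivZMod n K).injective).toEquiv).le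

end Fermat.Agent.Cor
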