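import Mathlib

/-!
# Indices of subgroups of a finite commutative group

`f : G → G'` surjective, `H ≤ G`, `x ∈ G'`, `D` the preimage of the powers of `x`.
-/

set_option autoImplicit false

namespace Fermat.Agent.Cor

open Subgroup

variable {G G' : Type*} [CommGroup G] [CommGroup G']

theorem index_map_mul_relIndex (f : G →* G') (hf : Function.Surjective f) (H : Subgroup G) :
    (H.map f).index * H.relIndex f.ker = H.index := by
  rw [Subgroup.index_map, f.range_eq_top_of_surjective hf, index_top, mul_one,
    ← relIndex_sup_left (K := H) (H := f.ker), mul_comm]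
  exact relIndex_mul_index le_sup_left

theorem relIndex_zpowers (H' : Subgroup G') (x : G') :
    H'.relIndex (zpowers x) = orderOf (QuotientGroup.mk x : G' ⧸ H') := by
  have h1 := relIndex_ker (K := zpowers x) (QuotientGroup.mk' H')
  rw [QuotientGroup.ker_mk', MonoidHom.map_zpowers, Nat.card_zpowers] at h1
  exact h1

theorem relIndex_comap_zpowers [Finite G] [Finite G'] (f : G →* G') (hf : Function.Surjective f)
    (H : Subgroup G) (x : G') :
    H.relIndex ((zpowers x).comap f) =
      H.relIndex f.ker * orderOf (QuotientGroup.mk x : G' ⧸ H.map f) := by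
  set H' := H.map f with hH'
  set D := (zpowers x).comap f with hD
  have hker : f.ker ≤ H ⊔ D := by
    refine le_trans ?_ le_sup_right
    intro g hg
    rw [hD, mem_comap, (MonoidHom.mem_ker).mp hg]
    exact one_mem _
  have h1 : (H ⊔ D).index = (H' ⊔ zpowers x).index := by
    rw [← index_map_eq (H ⊔ D) hf hker, Subgroup.map_sup, hD, map_comap_eq_self_of_surjective hf]
  have h2 : H.relIndex D * (H ⊔ D).index = H.index := by
    rw [← relIndex_sup_left (K := H) (H := D)]
    exact relIndex_mul_index le_sup_left
  have h3 : orderOf (QuotientGroup.mk x : G' ⧸ H') * (H' ⊔ zpowers x).index = H'.index := by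
    rw [← relIndex_zpowers, ← relIndex_sup_left (K := H') (H := zpowers x)]
    exact relIndex_mul_index le_sup_left
  have h4 := index_map_mul_relIndex f hf H
  have h5 : (H' ⊔ zpowers x).index ≠ 0 := index_ne_zero_of_finite
  rw [← hH'] at h4
  refine Nat.eq_of_mul_eq_mul_right (Nat.pos_of_ne_zero h5) ?_
  rw [← h1, h2, ← h4, ← h3, h1]
  ring

end Fermat.Agent.Cor
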