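import Fermat.Agent.Corollaries.ZetaK.DirFactor
import Fermat.Agent.Corollaries.ZetaK.GrpIndex

/-!
# The characters which are trivial on a subgroup of `(ℤ/n)ˣ`

`ann H`: the Dirichlet characters modulo `n` which are trivial on `H ≤ (ℤ/n)ˣ`. For a prime `p`,
`m` the part of `n` prime to `p`, `H'` the image of `H` in `(ℤ/m)ˣ`: the group `atP (ann H) p` is
`ann H'`, of order `[(ℤ/m)ˣ : H']`, and the order of the evaluation at `p` is the order of `p` in
`(ℤ/m)ˣ / H'`.
-/

set_option autoImplicit false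

noncomputable section

open DirichletCharacter MulChar

namespace Fermat.Agent.Cor

/-- The Dirichlet characters which are trivial on `H`. -/
def ann {n : ℕ} [NeZero n] (H : Subgroup (ZMod n)ˣ) : Subgroup (DirichletCharacter ℂ n) :=
  (subgroupOrderIsoSubgroupMulChar (ZMod n) ℂ H).ofDual

variable {n : ℕ} [NeZero n]

theorem mem_ann {H : Subgroup (ZMod n)ˣ} {χ : DirichletCharacter ℂ n} :
    χ ∈ ann H ↔ ∀ a ∈ H, χ (a : (ZMod n)ˣ) = 1 := mem_subgroupOrderIsoSubgroupMulChar_iff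

theorem card_ann (H : Subgroup (ZMod n)ˣ) : Nat.card (ann H) = H.index :=
  card_subgroupOrderIsoSubgroupMulChar

/-- Duality: an element on which all characters trivial on `H` are trivial is in `H`. -/
theorem mem_of_ann {H : Subgroup (ZMod n)ˣ} {a : (ZMod n)ˣ} (h : ∀ χ ∈ ann H, χ a = 1) :
    a ∈ H := by
  have h1 : a ∈ (subgroupOrderIsoSubgroupMulChar (ZMod n) ℂ).symm
      (OrderDual.toDual (ann H)) := mem_subgroupOrderIsoSubgroupMulChar_symm_iff.mpr h
  have h2 : OrderDual.toDual (ann H) = subgroupOrderIsoSubgroupMulChar (ZMod n) ℂ H := rfl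
  rwa [h2, OrderIso.symm_apply_apply] at h1

/-- Reduction to the part prime to `p`. -/
abbrev redP (n p : ℕ) : (ZMod n)ˣ →* (ZMod (oc n p))ˣ := ZMod.unitsMap (Nat.ordCompl_dvd n p)

theorem redP_surjective (p : ℕ) : Function.Surjective (redP n p) :=
  ZMod.unitsMap_surjective (Nat.ordCompl_dvd n p)

theorem changeLevel_apply_unit {m : ℕ} (hm : m ∣ n) (ψ : DirichletCharacter ℂ m) (a : (ZMod n)ˣ) :
    changeLevel hm ψ a = ψ (ZMod.unitsMap hm a : (ZMod m)ˣ) := by
  rw [changeLevel_eq_cast_of_dvd, ZMod.unitsMap_val]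

theorem atP_ann (H : Subgroup (ZMod n)ˣ) (p : ℕ) : atP (ann H) p = ann (H.map (redP n p)) := by
  ext ψ
  change changeLevel (Nat.ordCompl_dvd n p) ψ ∈ ann H ↔ _
  rw [mem_ann, mem_ann]
  constructor
  · rintro h _ ⟨a, ha, rfl⟩
    rw [← h a ha, changeLevel_apply_unit]
  · intro h a ha
    rw [changeLevel_apply_unit]
    exact h _ ⟨a, ha, rfl⟩

theorem card_atP_ann (H : Subgroup (ZMod n)ˣ) (p : ℕ) :
    Fintype.card (atP (ann H) p) = (H.map (redP n p)).index := by
  rw [← card_ann, ← atP_ann, Nat.card_eq_fintype_card]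

/-- `p` as a unit modulo the part of `n` prime to `p`. -/
def uP (n : ℕ) [NeZero n] {p : ℕ} (hp : p.Prime) : (ZMod (oc n p))ˣ :=
  ZMod.unitOfCoprime p (coprime_oc hp)

theorem coe_uP {p : ℕ} (hp : p.Prime) : ((uP n hp : (ZMod (oc n p))ˣ) : ZMod (oc n p)) = p :=
  ZMod.coe_unitOfCoprime p (coprime_oc hp)

theorem orderOf_evP_ann (H : Subgroup (ZMod n)ˣ) {p : ℕ} (hp : p.Prime) :
    orderOf (evP (ann H) hp) =
      orderOf (QuotientGroup.mk (uP n hp) : (ZMod (oc n p))ˣ ⧸ H.map (redP n p)) := by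
  rw [orderOf_eq_orderOf_iff]
  intro k
  rw [← QuotientGroup.mk_pow, QuotientGroup.eq_one_iff]
  constructor
  · intro h
    refine mem_of_ann fun ψ hψ => ?_
    rw [← atP_ann] at hψ
    have h1 := DFunLike.congr_fun h ⟨ψ, hψ⟩
    rw [MonoidHom.pow_apply, evP_apply, MonoidHom.one_apply] at h1
    rw [Units.val_pow_eq_pow_val, coe_uP, map_pow]
    exact h1
  · intro h
    ext ψ
    rw [MonoidHom.pow_apply, evP_apply, MonoidHom.one_apply]
    have hψ : (ψ : DirichletCharacter ℂ (oc n p)) ∈ ann (H.map (redP n p)) := by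
      rw [← atP_ann]; exact ψ.2
    have h1 := mem_ann.mp hψ _ h
    rwa [Units.val_pow_eq_pow_val, coe_uP, map_pow] at h1

end Fermat.Agent.Cor
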