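import Fermat.Agent.Corollaries.ZetaK.CharLog

/-!
# The Euler factors of a group of Dirichlet characters

`Y` is a group of Dirichlet characters modulo `n`, `p` a prime, `m` the part of `n` prime to `p`,
`Y_p = Y.comap (changeLevel : characters mod m → characters mod n)`. The characters of `Y` with
`χ*(p) ≠ 0` (`χ*` the primitive character) are those of `Y_p`, and `ψ ↦ ψ(p)` is a homomorphism.

`sum_prim`: `∑_{χ ∈ Y} -log (1 - χ*(p) X) = (|Y_p| / f) * (-log (1 - X ^ f))`, `f` the order of this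
homomorphism.
-/

set_option autoImplicit false

noncomputable section

open Complex Finset DirichletCharacter

namespace Fermat.Agent.Cor

/-- Evaluation of Dirichlet characters at a unit. -/
def evalAt {m : ℕ} (a : ZMod m) (ha : IsUnit a) : DirichletCharacter ℂ m →* ℂ where
  toFun ψ := ψ a
  map_one' := MulChar.one_apply ha
  map_mul' ψ ψ' := MulChar.mul_apply ψ ψ' a

@[simp] theorem evalAt_apply {m : ℕ} (a : ZMod m) (ha : IsUnit a) (ψ : DirichletCharacter ℂ m) :
    evalAt a ha ψ = ψ a := rfl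

variable {n : ℕ} [NeZero n]

instance (m : ℕ) [NeZero m] (Y : Subgroup (DirichletCharacter ℂ m)) : Fintype Y :=
  Fintype.ofFinite _

/-- The part of `n` prime to `p`. -/
abbrev oc (n p : ℕ) : ℕ := n / p ^ n.factorization p

theorem oc_ne_zero (p : ℕ) : oc n p ≠ 0 := (Nat.ordCompl_pos p (NeZero.ne n)).ne'

instance (p : ℕ) : NeZero (oc n p) := ⟨oc_ne_zero p⟩

theorem coprime_oc {p : ℕ} (hp : p.Prime) : p.Coprime (oc n p) :=
  Nat.coprime_ordCompl hp (NeZero.ne n)

theorem isUnit_oc {p : ℕ} (hp : p.Prime) : IsUnit (p : ZMod (oc n p)) :=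
  (ZMod.isUnit_iff_coprime p (oc n p)).mpr (coprime_oc hp)

/-- The characters modulo the prime to `p` part which belong to `Y`. -/
def atP (Y : Subgroup (DirichletCharacter ℂ n)) (p : ℕ) :
    Subgroup (DirichletCharacter ℂ (oc n p)) :=
  Y.comap (changeLevel (Nat.ordCompl_dvd n p))

/-- Evaluation at `p`. -/
def evP (Y : Subgroup (DirichletCharacter ℂ n)) {p : ℕ} (hp : p.Prime) : atP Y p →* ℂ :=
  (evalAt (p : ZMod (oc n p)) (isUnit_oc hp)).comp (atP Y p).subtype

@[simp] theorem evP_apply (Y : Subgroup (DirichletCharacter ℂ n)) {p : ℕ} (hp : p.Prime)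
    (ψ : atP Y p) : evP Y hp ψ = (ψ : DirichletCharacter ℂ (oc n p)) p := rfl

theorem prim_changeLevel {p : ℕ} (hp : p.Prime) (ψ : DirichletCharacter ℂ (oc n p)) :
    (changeLevel (Nat.ordCompl_dvd n p) ψ).primitiveCharacter p = ψ p := by
  have h := primitiveCharacter_changeLevel_apply (Nat.ordCompl_dvd n p) ψ (p : ℤ)
  rw [primitiveCharacter_apply_of_isCoprime _ (Nat.isCoprime_iff_coprime.mpr (coprime_oc hp))] at h
  simpa only [Int.cast_natCast] using h

theorem exists_changeLevel {p : ℕ} (hp : p.Prime) (χ : DirichletCharacter ℂ n)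
    (h : χ.primitiveCharacter p ≠ 0) :
    ∃ ψ : DirichletCharacter ℂ (oc n p), changeLevel (Nat.ordCompl_dvd n p) ψ = χ := by
  have hdvd : χ.conductor ∣ oc n p := by
    apply Nat.dvd_ordCompl_of_dvd_not_dvd χ.conductor_dvd_level
    have h1 : χ.primitiveCharacter ((p : ℤ) : ZMod χ.conductor) ≠ 0 := by
      rwa [Int.cast_natCast]
    rw [apply_ne_zero_iff] at h1
    exact (hp.coprime_iff_not_dvd).mp (Nat.isCoprime_iff_coprime.mp h1)
  refine ⟨changeLevel hdvd χ.primitiveCharacter, ?_⟩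
  rw [← changeLevel_trans, changeLevel_primitiveCharacter]

/-- **The Euler factor at `p` of a group of Dirichlet characters.** -/
theorem sum_prim (Y : Subgroup (DirichletCharacter ℂ n)) {p : ℕ} (hp : p.Prime) {X : ℂ}
    (hX : ‖X‖ < 1) :
    ∑ χ : Y, -Complex.log (1 - (χ : DirichletCharacter ℂ n).primitiveCharacter p * X) =
      ((Fintype.card (atP Y p) / orderOf (evP Y hp) : ℕ) : ℂ) *
        -Complex.log (1 - X ^ orderOf (evP Y hp)) := by
  rw [← sum_neg_log (evP Y hp) hX]
  symm
  refine Fintype.sum_of_injective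
    (fun ψ : atP Y p => (⟨changeLevel (Nat.ordCompl_dvd n p) ψ.1, ψ.2⟩ : Y)) ?_ _ _ ?_ ?_
  · intro ψ ψ' h
    exact Subtype.ext (changeLevel_injective (Nat.ordCompl_dvd n p) (congrArg Subtype.val h))
  · intro χ hχ
    by_cases h : (χ : DirichletCharacter ℂ n).primitiveCharacter p = 0
    · rw [h, zero_mul, sub_zero, Complex.log_one, neg_zero]
    · obtain ⟨ψ, hψ⟩ := exists_changeLevel hp χ.1 h
      exact absurd ⟨⟨ψ, by
        change changeLevel (Nat.ordCompl_dvd n p) ψ ∈ Y
        rw [hψ]; exact χ.2⟩, Subtype.ext hψ⟩ hχ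
  · intro ψ
    rw [evP_apply, prim_changeLevel hp]

end Fermat.Agent.Cor
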