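import Mathlib

/-!
# Local factors and the functional equation

`lf m z = ∏_{f ∈ m} (1 - z ^ f)`. Two finite products of local factors `∏_{p ∈ S} lf (m p) (p^{-s})`
whose quotient satisfies a functional equation `s ↦ 1 - s` up to an exponential factor are equal,
factor by factor (`eq_of_functional`).
-/

set_option autoImplicit false

namespace Fermat.Agent.Cor.Frob

open Complex Filter Topology

/-- the local factor `∏_{f ∈ m} (1 - z ^ f)` -/
noncomputable def lf (m : Multiset ℕ) (z : ℂ) : ℂ := (m.map fun f => 1 - z ^ f).prod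

lemma lf_add (m m' : Multiset ℕ) (z : ℂ) : lf (m + m') z = lf m z * lf m' z := by
  rw [lf, Multiset.map_add, Multiset.prod_add]
  rfl

lemma exists_of_lf_eq_zero {m : Multiset ℕ} {z : ℂ} (h : lf m z = 0) : ∃ f ∈ m, z ^ f = 1 := by
  rw [lf, Multiset.prod_eq_zero_iff, Multiset.mem_map] at h
  obtain ⟨f, hf, h⟩ := h
  exact ⟨f, hf, (sub_eq_zero.mp h).symm⟩

lemma lf_eq_zero {m : Multiset ℕ} {z : ℂ} {f : ℕ} (hf : f ∈ m) (hz : z ^ f = 1) : lf m z = 0 := by
  rw [lf, Multiset.prod_eq_zero_iff, Multiset.mem_map]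
  exact ⟨f, hf, sub_eq_zero.mpr hz.symm⟩

lemma lf_ne_zero {m : Multiset ℕ} (hm : ∀ f ∈ m, 0 < f) {z : ℂ} (hz : ‖z‖ ≠ 1) : lf m z ≠ 0 := by
  intro h
  obtain ⟨f, hf, h1⟩ := exists_of_lf_eq_zero h
  have h2 : ‖z‖ ^ f = 1 := by rw [← norm_pow, h1, norm_one]
  exact hz ((pow_eq_one_iff_of_nonneg (norm_nonneg z) (hm f hf).ne').mp h2)

lemma differentiable_lf (m : Multiset ℕ) : Differentiable ℂ (lf m) := by
  induction m using Multiset.induction_on with
  | empty =>
    have h : lf 0 = fun _ => 1 := by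
      funext z
      rw [lf, Multiset.map_zero, Multiset.prod_zero]
    rw [h]
    exact differentiable_const _
  | cons f m ih =>
    have h : lf (f ::ₘ m) = fun z => (1 - z ^ f) * lf m z := by
      funext z
      rw [lf, Multiset.map_cons, Multiset.prod_cons]
      rfl
    rw [h]
    exact ((differentiable_const _).sub (differentiable_id.pow f)).mul ih

/-- the product of the local factors at the primes in `S` -/
noncomputable def locProd (S : Finset ℕ) (m : ℕ → Multiset ℕ) (s : ℂ) : ℂ :=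
  ∏ p ∈ S, lf (m p) ((p : ℂ) ^ (-s))

variable {S : Finset ℕ} {m m' : ℕ → Multiset ℕ} {a b : ℝ}

lemma norm_cpow_neg {p : ℕ} (hp : 0 < p) (s : ℂ) : ‖(p : ℂ) ^ (-s)‖ = (p : ℝ) ^ (-s.re) := by
  rw [Complex.norm_natCast_cpow_of_pos hp, neg_re]

lemma norm_cpow_neg_ne_one {p : ℕ} (hp : p.Prime) {s : ℂ} (hs : s.re ≠ 0) :
    ‖(p : ℂ) ^ (-s)‖ ≠ 1 := by
  have h1 : (1 : ℝ) < p := by exact_mod_cast hp.one_lt
  rw [norm_cpow_neg hp.pos, Real.rpow_neg (by positivity), ne_eq, inv_eq_one]
  intro h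
  rcases lt_or_gt_of_ne hs with h2 | h2
  · exact (Real.rpow_lt_one_of_one_lt_of_neg h1 h2).ne h
  · exact (Real.one_lt_rpow h1 h2).ne' h

lemma locProd_add (s : ℂ) :
    locProd S (fun p => m p + m' p) s = locProd S m s * locProd S m' s := by
  simp only [locProd, lf_add, Finset.prod_mul_distrib]

lemma locProd_ne_zero (hS : ∀ p ∈ S, p.Prime) (hm : ∀ p ∈ S, ∀ f ∈ m p, 0 < f) {s : ℂ}
    (hs : s.re ≠ 0) : locProd S m s ≠ 0 :=
  Finset.prod_ne_zero_iff.mpr fun p hp => lf_ne_zero (hm p hp) (norm_cpow_neg_ne_one (hS p hp) hs)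

lemma differentiable_locProd (hS : ∀ p ∈ S, p.Prime) : Differentiable ℂ (locProd S m) := by
  have h : ∀ p ∈ S, Differentiable ℂ fun s : ℂ => lf (m p) ((p : ℂ) ^ (-s)) := fun p hp =>
    (differentiable_lf _).comp ((differentiable_id.neg).const_cpow
      (Or.inl (by exact_mod_cast (hS p hp).ne_zero)))
  intro s
  unfold locProd
  exact DifferentiableAt.fun_finsetProd fun p hp => h p hp s

/-- **The zeros of the local factors**: the key step. -/
lemma mem_of_functional (hS : ∀ p ∈ S, p.Prime) (hm : ∀ p ∈ S, ∀ f ∈ m p, 0 < f)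
    (hm' : ∀ p ∈ S, ∀ f ∈ m' p, 0 < f) {α β : ℂ → ℂ} (hβ : ∀ s, β s ≠ 0)
    (h : ∀ s : ℂ, locProd S m s * locProd S m' (1 - s) * α s =
      locProd S m' s * locProd S m (1 - s) * β s)
    {p d : ℕ} (hp : p ∈ S) (hd : d ∈ m p) (hmax : ∀ f ∈ m' p, f ≤ d) : d ∈ m' p := by
  have hd0 : 0 < d := hm p hp d hd
  have hp1 : (1 : ℝ) < p := by exact_mod_cast (hS p hp).one_lt
  have hlog : 0 < Real.log p := Real.log_pos hp1
  have hdl : (d : ℂ) * (Real.log p : ℂ) ≠ 0 := by
    refine mul_ne_zero (by exact_mod_cast hd0.ne') ?_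
    exact_mod_cast hlog.ne'
  set s₀ : ℂ := 2 * Real.pi * I / (d * (Real.log p : ℂ)) with hs₀
  have hre : s₀.re = 0 := by
    have h1 : s₀ = ((2 * Real.pi / (d * Real.log p) : ℝ) : ℂ) * I := by
      rw [hs₀]
      push_cast
      ring
    rw [h1, re_ofReal_mul, I_re, mul_zero]
  have hcp : ∀ q : ℕ, 0 < q → ∀ f : ℕ, ((q : ℂ) ^ (-s₀)) ^ f =
      exp (-(f * (Real.log q : ℂ) * s₀)) := by
    intro q hq f
    rw [cpow_def_of_ne_zero (by exact_mod_cast hq.ne'), ← exp_nat_mul, ← natCast_log]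
    congr 1
    ring
  have h1 : locProd S m s₀ = 0 := by
    refine Finset.prod_eq_zero hp (lf_eq_zero hd ?_)
    rw [hcp p (hS p hp).pos, hs₀, mul_div_cancel₀ _ hdl, exp_neg, exp_two_pi_mul_I, inv_one]
  have h2 := h s₀
  rw [h1, zero_mul, zero_mul] at h2
  have h3 : locProd S m (1 - s₀) ≠ 0 := by
    refine locProd_ne_zero hS hm ?_
    rw [sub_re, hre, one_re, sub_zero]
    exact one_ne_zero
  have h4 : locProd S m' s₀ = 0 := by
    by_contra h5
    exact mul_ne_zero (mul_ne_zero h5 h3) (hβ s₀) h2.symm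
  obtain ⟨q, hq, h5⟩ := Finset.prod_eq_zero_iff.mp h4
  obtain ⟨f, hf, h6⟩ := exists_of_lf_eq_zero h5
  rw [hcp q (hS q hq).pos, exp_neg, inv_eq_one, exp_eq_one_iff] at h6
  obtain ⟨k, hk⟩ := h6
  have h7 : (f : ℂ) * (Real.log q : ℂ) = k * (d * (Real.log p : ℂ)) := by
    have h8 : (2 * (Real.pi : ℂ) * I) ≠ 0 := two_pi_I_ne_zero
    rw [hs₀, mul_div_assoc', div_eq_iff hdl] at hk
    have h9 : (f : ℂ) * (Real.log q : ℂ) * (2 * Real.pi * I) =
        k * (d * (Real.log p : ℂ)) * (2 * Real.pi * I) := by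
      rw [hk]
      ring
    exact mul_right_cancel₀ h8 h9
  have h8 : (f : ℝ) * Real.log q = k * (d * Real.log p) := by exact_mod_cast h7
  have hf0 : 0 < f := hm' q hq f hf
  have hq1 : (1 : ℝ) < q := by exact_mod_cast (hS q hq).one_lt
  have hk0 : 0 < k := by
    have h9 : (0 : ℝ) < k * (d * Real.log p) := by
      rw [← h8]
      exact mul_pos (by exact_mod_cast hf0) (Real.log_pos hq1)
    have h10 : (0 : ℝ) < k := pos_of_mul_pos_left h9 (by positivity)
    exact_mod_cast h10
  obtain ⟨n, rfl⟩ := Int.eq_ofNat_of_zero_le hk0.le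
  have h9 : q ^ f = p ^ (n * d) := by
    have h10 : Real.log ((q : ℝ) ^ f) = Real.log ((p : ℝ) ^ (n * d)) := by
      rw [Real.log_pow, Real.log_pow, h8]
      push_cast
      ring
    have h11 := Real.log_injOn_pos (Set.mem_Ioi.mpr (by positivity))
      (Set.mem_Ioi.mpr (by positivity)) h10
    exact_mod_cast h11
  have hn : 0 < n := by exact_mod_cast hk0
  have h10 : q = p := by
    have h11 : q ∣ p ^ (n * d) := by
      rw [← h9]
      exact dvd_pow_self q hf0.ne'
    exact (Nat.prime_dvd_prime_iff_eq (hS q hq) (hS p hp)).mp ((hS q hq).dvd_of_dvd_pow h11)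
  subst h10
  have h11 : f = n * d := Nat.pow_right_injective (hS q hq).two_le h9
  have h12 := hmax f hf
  have h13 : n = 1 := by
    by_contra h14
    have h15 : 2 ≤ n := by omega
    have h16 : 2 * d ≤ n * d := Nat.mul_le_mul_right d h15
    omega
  rw [h13, one_mul] at h11
  rwa [← h11]

/-- entire functions which agree on a half plane are equal -/
lemma eq_of_re_gt_one {f g : ℂ → ℂ} (hf : Differentiable ℂ f) (hg : Differentiable ℂ g)
    (h : ∀ s : ℂ, 1 < s.re → f s = g s) : f = g := by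
  refine AnalyticOnNhd.eq_of_eventuallyEq (𝕜 := ℂ) (z₀ := 2) (fun z _ => hf.analyticAt z)
    (fun z _ => hg.analyticAt z) ?_
  have h1 : {s : ℂ | 1 < s.re} ∈ 𝓝 (2 : ℂ) :=
    (isOpen_lt continuous_const continuous_re).mem_nhds (by norm_num)
  filter_upwards [h1] with s hs using h s hs

/-- **Local factors which satisfy a functional equation are equal.** -/
theorem eq_of_functional (hS : ∀ p ∈ S, p.Prime) (hm : ∀ p ∈ S, ∀ f ∈ m p, 0 < f)
    (hm' : ∀ p ∈ S, ∀ f ∈ m' p, 0 < f) {α β : ℂ → ℂ} (hα : Differentiable ℂ α)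
    (hβ : Differentiable ℂ β) (hα0 : ∀ s, α s ≠ 0) (hβ0 : ∀ s, β s ≠ 0)
    (h : ∀ s : ℂ, 1 < s.re → locProd S m s * locProd S m' (1 - s) * α s =
      locProd S m' s * locProd S m (1 - s) * β s) : ∀ p ∈ S, m p = m' p := by
  set c : ℕ → Multiset ℕ := fun p => m p ∩ m' p with hc
  set r : ℕ → Multiset ℕ := fun p => m p - c p with hr
  set r' : ℕ → Multiset ℕ := fun p => m' p - c p with hr'
  have hmc : (fun p => c p + r p) = m := by
    funext p
    exact add_tsub_cancel_of_le Multiset.inter_le_left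
  have hmc' : (fun p => c p + r' p) = m' := by
    funext p
    exact add_tsub_cancel_of_le Multiset.inter_le_right
  have hc0 : ∀ p ∈ S, ∀ f ∈ c p, 0 < f := fun p hp f hf =>
    hm p hp f (Multiset.mem_of_le Multiset.inter_le_left hf)
  have hr0 : ∀ p ∈ S, ∀ f ∈ r p, 0 < f := fun p hp f hf =>
    hm p hp f (Multiset.mem_of_le tsub_le_self hf)
  have hr0' : ∀ p ∈ S, ∀ f ∈ r' p, 0 < f := fun p hp f hf =>
    hm' p hp f (Multiset.mem_of_le tsub_le_self hf)
  have hd1 : ∀ r : ℕ → Multiset ℕ, Differentiable ℂ fun s : ℂ => locProd S r (1 - s) := fun r =>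
    (differentiable_locProd hS).comp ((differentiable_const _).sub differentiable_id)
  have key : (fun s : ℂ => locProd S r s * locProd S r' (1 - s) * α s) =
      fun s : ℂ => locProd S r' s * locProd S r (1 - s) * β s := by
    refine eq_of_re_gt_one (((differentiable_locProd hS).mul (hd1 r')).mul hα)
      (((differentiable_locProd hS).mul (hd1 r)).mul hβ) fun s hs => ?_
    have h1 := h s hs
    rw [← hmc, ← hmc', locProd_add, locProd_add, locProd_add, locProd_add] at h1
    have h2 : locProd S c s ≠ 0 := locProd_ne_zero hS hc0 (by linarith)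
    have h3 : locProd S c (1 - s) ≠ 0 := locProd_ne_zero hS hc0 (by
      rw [sub_re, one_re]
      linarith)
    refine mul_left_cancel₀ (mul_ne_zero h2 h3) ?_
    linear_combination h1
  intro p hp
  have hdis : ∀ f, f ∈ r p → f ∈ r' p → False := by
    intro f h1 h2
    rw [← Multiset.count_pos, hr, Multiset.count_sub, hc, Multiset.count_inter] at h1
    rw [← Multiset.count_pos, hr', Multiset.count_sub, hc, Multiset.count_inter] at h2
    omega
  have hz : r p + r' p = 0 := by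
    by_contra h0
    obtain ⟨d, hd, hmax⟩ := (r p + r' p).toFinset.exists_max_image id (by
      obtain ⟨x, hx⟩ := Multiset.exists_mem_of_ne_zero h0
      exact ⟨x, Multiset.mem_toFinset.mpr hx⟩)
    have hmax' : ∀ f ∈ r p + r' p, f ≤ d := fun f hf => hmax f (Multiset.mem_toFinset.mpr hf)
    rcases Multiset.mem_add.mp (Multiset.mem_toFinset.mp hd) with h1 | h1
    · exact hdis d h1 (mem_of_functional hS hr0 hr0' hβ0 (fun s => congrFun key s) hp h1
        fun f hf => hmax' f (Multiset.mem_add.mpr (Or.inr hf)))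
    · exact hdis d (mem_of_functional hS hr0' hr0 hα0 (fun s => (congrFun key s).symm) hp h1
        fun f hf => hmax' f (Multiset.mem_add.mpr (Or.inl hf))) h1
  rw [add_eq_zero] at hz
  have h1 := congrFun hmc p
  have h2 := congrFun hmc' p
  simp only [hz.1, hz.2, add_zero] at h1 h2
  rw [← h1, ← h2]

end Fermat.Agent.Cor.Frob
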