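import Fermat.Agent.Corollaries.ZetaK.Gassmann
import Fermat.Agent.Corollaries.ZetaK.LocalFactors
import Fermat.Agent.Classic.Zeta.Final

/-!
# The Euler product over the prime numbers

The Euler factor of the Dedekind zeta function at `p` is `lf (decType K p) (p^{-s})⁻¹`:

* `tendsto_euler` : the Euler product;
* `zeta_mul_locProd` : two fields with the same residue degrees above all primes outside `S`:
  `ζ_K(s) ∏_{p ∈ S} lf (decType K p) (p^{-s}) = ζ_L(s) ∏_{p ∈ S} lf (decType L p) (p^{-s})`;
* `idealCount_prime` : the number of ideals of norm `p` is the number of places of degree one.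
-/

set_option autoImplicit false

namespace Fermat.Agent.Cor.Frob

open NumberField IsDedekindDomain Filter Topology
open scoped nonZeroDivisors
open Fermat.Agent.Classic.Disc

variable {K : Type*} [Field K] [NumberField K]

variable (K) in
/-- `I ↦ N(I)^{-s}` -/
noncomputable def nhom (s : ℂ) : (Ideal (𝓞 K))⁰ →* ℂ where
  toFun I := (Ideal.absNorm (I : Ideal (𝓞 K)) : ℂ) ^ (-s)
  map_one' := by
    rw [OneMemClass.coe_one, map_one, Nat.cast_one, Complex.one_cpow]
  map_mul' I J := by
    rw [Submonoid.coe_mul, map_mul, Nat.cast_mul, Complex.natCast_mul_natCast_cpow]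

lemma decType_pos {p : ℕ} : ∀ f ∈ decType K p, 0 < f := by
  intro f hf
  obtain ⟨v, -, rfl⟩ := Multiset.mem_map.mp hf
  exact fdeg_pos v

open Classical in
variable (K) in
/-- the places above the primes at most `x` -/
noncomputable def placesTo (x : ℕ) : Finset (ClassL.Pr K) :=
  (primesTo x).biUnion fun p => (above K p).map prPlace.symm.toEmbedding

lemma mem_placesTo {x : ℕ} {P : ClassL.Pr K} :
    P ∈ placesTo K x ↔ ∃ p ∈ primesTo x, prPlace P ∈ above K p := by
  classical
  rw [placesTo, Finset.mem_biUnion]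
  refine exists_congr fun p => and_congr_right fun _ => ?_
  rw [Finset.mem_map_equiv, Equiv.symm_symm]

variable (K) in
lemma tendsto_placesTo : Tendsto (placesTo K) atTop atTop := by
  refine tendsto_atTop_finset_of_monotone (fun x y hxy P hP => ?_) fun P => ?_
  · obtain ⟨p, hp, h⟩ := mem_placesTo.mp hP
    rw [mem_primesTo] at hp
    exact mem_placesTo.mpr ⟨p, mem_primesTo.mpr ⟨hp.1.trans hxy, hp.2⟩, h⟩
  · obtain ⟨p, hp, h⟩ := exists_above (prPlace P)
    exact ⟨p, mem_placesTo.mpr ⟨p, mem_primesTo.mpr ⟨le_rfl, hp⟩, h⟩⟩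

lemma prod_placesTo (s : ℂ) (x : ℕ) :
    ∏ P ∈ placesTo K x, (1 - nhom K s P.1) =
      ∏ p ∈ primesTo x, lf (decType K p) ((p : ℂ) ^ (-s)) := by
  classical
  rw [placesTo, Finset.prod_biUnion]
  · refine Finset.prod_congr rfl fun p hp => ?_
    rw [Finset.prod_map, lf, decType, Multiset.map_map, Finset.prod_eq_multiset_prod]
    congr 1
    refine Multiset.map_congr rfl fun v hv => ?_
    have h1 := absNorm_eq (mem_primesTo.mp hp).2
      ((mem_above (mem_primesTo.mp hp).2.ne_zero).mp hv)
    change 1 - (Ideal.absNorm v.asIdeal : ℂ) ^ (-s) = 1 - ((p : ℂ) ^ (-s)) ^ fdeg v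
    rw [h1, Nat.cast_pow, ← Complex.cpow_nat_mul, ← Complex.natCast_cpow_natCast_mul]
  · intro p hp q hq hpq
    rw [Function.onFun, Finset.disjoint_left]
    intro P hP hQ
    rw [Finset.mem_map_equiv, Equiv.symm_symm] at hP hQ
    exact hpq (above_unique (mem_primesTo.mp hp).2 (mem_primesTo.mp hq).2 hP hQ)

/-- **The Euler product**, over the prime numbers. -/
theorem tendsto_euler {s : ℂ} (hs : 1 < s.re) :
    Tendsto (fun x : ℕ => (∏ p ∈ primesTo x, lf (decType K p) ((p : ℂ) ^ (-s))) *
      dedekindZeta K s) atTop (𝓝 1) := by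
  have h1 := (ClassL.tendsto_prod (f := nhom K s)
    (Fermat.Agent.Classic.Zeta.summable_norm_ideals hs)).comp (tendsto_placesTo K)
  have h2 : ∑' I : (Ideal (𝓞 K))⁰, nhom K s I = dedekindZeta K s :=
    (Fermat.Agent.Classic.Zeta.sum_zcl_eq_tsum hs).symm.trans
      (Fermat.Agent.Classic.Zeta.sum_zcl_eq_dedekindZeta K hs)
  refine h1.congr fun x => ?_
  rw [Function.comp_apply, prod_placesTo, h2]

lemma dedekindZeta_ne_zero {s : ℂ} (hs : 1 < s.re) : dedekindZeta K s ≠ 0 := by
  intro h
  have h1 := tendsto_euler (K := K) hs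
  simp only [h, mul_zero] at h1
  exact zero_ne_one (tendsto_nhds_unique tendsto_const_nhds h1)

/-- Comparison of the zeta functions of two fields with the same residue degrees outside `S`. -/
theorem zeta_mul_locProd {L : Type*} [Field L] [NumberField L] {S : Finset ℕ}
    (hS : ∀ p ∈ S, p.Prime) (h : ∀ p : ℕ, p.Prime → p ∉ S → decType K p = decType L p) {s : ℂ}
    (hs : 1 < s.re) : dedekindZeta K s * locProd S (decType K) s =
      dedekindZeta L s * locProd S (decType L) s := by
  have hK := tendsto_euler (K := K) hs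
  have hL := tendsto_euler (K := L) hs
  have hK0 := dedekindZeta_ne_zero (K := K) hs
  have hL0 := dedekindZeta_ne_zero (K := L) hs
  have h1 : Tendsto (fun x : ℕ => (∏ p ∈ primesTo x, lf (decType K p) ((p : ℂ) ^ (-s))) *
      locProd S (decType L) s) atTop (𝓝 ((dedekindZeta K s)⁻¹ * locProd S (decType L) s)) := by
    have h2 := (hK.mul_const ((dedekindZeta K s)⁻¹)).mul_const (locProd S (decType L) s)
    rw [one_mul] at h2
    refine h2.congr fun x => ?_
    rw [mul_inv_cancel_right₀ hK0]
  have h2 : Tendsto (fun x : ℕ => (∏ p ∈ primesTo x, lf (decType L p) ((p : ℂ) ^ (-s))) *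
      locProd S (decType K) s) atTop (𝓝 ((dedekindZeta L s)⁻¹ * locProd S (decType K) s)) := by
    have h2 := (hL.mul_const ((dedekindZeta L s)⁻¹)).mul_const (locProd S (decType K) s)
    rw [one_mul] at h2
    refine h2.congr fun x => ?_
    rw [mul_inv_cancel_right₀ hL0]
  have h3 : ∀ᶠ x : ℕ in atTop, (∏ p ∈ primesTo x, lf (decType L p) ((p : ℂ) ^ (-s))) *
      locProd S (decType K) s = (∏ p ∈ primesTo x, lf (decType K p) ((p : ℂ) ^ (-s))) *
      locProd S (decType L) s := by
    filter_upwards [eventually_ge_atTop (S.sup id)] with x hx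
    have hsub : S ⊆ primesTo x := fun p hp =>
      mem_primesTo.mpr ⟨(Finset.le_sup (f := id) hp).trans hx, hS p hp⟩
    rw [← Finset.prod_sdiff hsub, ← Finset.prod_sdiff (f := fun p => lf (decType K p) _) hsub]
    have h4 : ∏ p ∈ primesTo x \ S, lf (decType L p) ((p : ℂ) ^ (-s)) =
        ∏ p ∈ primesTo x \ S, lf (decType K p) ((p : ℂ) ^ (-s)) := by
      refine Finset.prod_congr rfl fun p hp => ?_
      rw [Finset.mem_sdiff] at hp
      rw [h p (mem_primesTo.mp hp.1).2 hp.2]
    rw [h4, locProd, locProd]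
    ring
  have h4 := tendsto_nhds_unique (h1.congr' (h3.mono fun _ h => h.symm)) h2
  have h5 : dedekindZeta K s * dedekindZeta L s * ((dedekindZeta K s)⁻¹ * locProd S (decType L) s) =
      dedekindZeta K s * dedekindZeta L s * ((dedekindZeta L s)⁻¹ * locProd S (decType K) s) := by
    rw [h4]
  field_simp at h5
  linear_combination -h5

open Fermat.Agent.FrobDensity in
/-- The ideals of norm `p` are the places of degree one above `p`. -/
theorem idealCount_prime {p : ℕ} (hp : p.Prime) : idealCount K p = degOne K p := by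
  classical
  have hmem : ∀ v : HeightOneSpectrum (𝓞 K), v ∈ (above K p).filter (fun v => fdeg v = 1) ↔
      Ideal.absNorm v.asIdeal = p := by
    intro v
    rw [Finset.mem_filter, mem_above hp.ne_zero]
    constructor
    · rintro ⟨h1, h2⟩
      rw [absNorm_eq hp h1, h2, pow_one]
    · intro h
      have h1 : (p : 𝓞 K) ∈ v.asIdeal := by
        have h2 := Ideal.absNorm_mem v.asIdeal
        rwa [h] at h2
      refine ⟨h1, ?_⟩
      have h2 := absNorm_eq hp h1
      rw [h] at h2
      exact (Nat.pow_right_injective hp.two_le ((pow_one p).trans h2)).symm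
  have hpr : ∀ I : Ideal (𝓞 K), Ideal.absNorm I = p → I.IsPrime ∧ I ≠ ⊥ := by
    intro I hI
    refine ⟨Ideal.isPrime_of_irreducible_absNorm (hI ▸ hp), ?_⟩
    rintro rfl
    rw [Ideal.absNorm_bot] at hI
    exact hp.ne_zero hI.symm
  rw [idealCount, degOne, ← Nat.subtype_card (p := fun v : HeightOneSpectrum (𝓞 K) =>
    Ideal.absNorm v.asIdeal = p) _ hmem]
  exact Nat.card_congr
    { toFun := fun I => ⟨⟨I.1, (hpr I.1 I.2).1, (hpr I.1 I.2).2⟩, I.2⟩
      invFun := fun v => ⟨v.1.asIdeal, v.2⟩
      left_inv := fun _ => rfl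
      right_inv := fun _ => rfl }

end Fermat.Agent.Cor.Frob
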