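import Mathlib

/-!
# The Fejér kernel

`fejK x = 2 (1 - cos x) / x²` (`= 1` at `0`), nonnegative, integrable, and
`l * fejK (l x) = ∫ u in -l..l, (1 - |u| / l) e^{i u x} du` for `l > 0`.
-/

set_option autoImplicit false

open MeasureTheory Set Filter Topology

namespace Fermat.Agent.Cor

/-- The Fejér kernel (unnormalised). -/
noncomputable def fejK (x : ℝ) : ℝ := if x = 0 then 1 else 2 * (1 - Real.cos x) / x ^ 2

theorem fejK_zero : fejK 0 = 1 := if_pos rfl

theorem fejK_of_ne {x : ℝ} (hx : x ≠ 0) : fejK x = 2 * (1 - Real.cos x) / x ^ 2 := if_neg hx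

theorem fejK_nonneg (x : ℝ) : 0 ≤ fejK x := by
  by_cases hx : x = 0
  · rw [hx, fejK_zero]
    exact zero_le_one
  · rw [fejK_of_ne hx]
    have h1 : 0 ≤ 1 - Real.cos x := sub_nonneg.mpr (Real.cos_le_one x)
    positivity

theorem fejK_le_one (x : ℝ) : fejK x ≤ 1 := by
  by_cases hx : x = 0
  · rw [hx, fejK_zero]
  · rw [fejK_of_ne hx, div_le_one (by positivity)]
    have := Real.one_sub_sq_div_two_le_cos (x := x)
    linarith

theorem fejK_le (x : ℝ) : fejK x ≤ 5 * (1 + x ^ 2)⁻¹ := by
  have h0 : 0 < 1 + x ^ 2 := by positivity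
  rw [← div_eq_mul_inv, le_div_iff₀ h0]
  have h1 := fejK_le_one x
  have h2 : fejK x * x ^ 2 ≤ 4 := by
    by_cases hx : x = 0
    · rw [hx]; norm_num
    · rw [fejK_of_ne hx, div_mul_cancel₀ _ (by positivity)]
      have := Real.neg_one_le_cos x
      linarith
  nlinarith

theorem measurable_fejK : Measurable fejK := by
  unfold fejK
  refine Measurable.ite (measurableSet_singleton 0) measurable_const ?_
  fun_prop

theorem integrable_fejK : Integrable fejK := by
  refine (integrable_inv_one_add_sq.const_mul 5).mono measurable_fejK.aestronglyMeasurable ?_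
  refine Eventually.of_forall fun x => ?_
  rw [Real.norm_of_nonneg (fejK_nonneg x), Real.norm_of_nonneg (by positivity)]
  exact fejK_le x

/-- the mass of the Fejér kernel (`= 2 π`) -/
noncomputable def fejC : ℝ := ∫ x, fejK x

theorem fejC_pos : 0 < fejC := by
  unfold fejC
  rw [integral_pos_iff_support_of_nonneg fejK_nonneg integrable_fejK]
  have h : Ioo (0 : ℝ) 1 ⊆ Function.support fejK := by
    intro x hx
    rw [Function.mem_support, fejK_of_ne hx.1.ne']
    have h1 : Real.cos x < 1 := by
      refine lt_of_le_of_ne (Real.cos_le_one x) fun h => hx.1.ne' ?_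
      have := Real.pi_gt_three
      exact (Real.cos_eq_one_iff_of_lt_of_lt (by linarith [hx.1]) (by linarith [hx.2])).mp h
    have h2 : 0 < x := hx.1
    have h3 : 0 < 1 - Real.cos x := by linarith
    positivity
  refine lt_of_lt_of_le ?_ (measure_mono h)
  simp

theorem fejK_mul {l x : ℝ} (hl : 0 < l) (hx : x ≠ 0) :
    l * fejK (l * x) = 2 * (1 - Real.cos (l * x)) / (l * x ^ 2) := by
  rw [fejK_of_ne (mul_ne_zero hl.ne' hx)]
  field_simp

/-- **Fourier representation.** -/
theorem fejK_fourier {l : ℝ} (hl : 0 < l) (x : ℝ) :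
    ∫ u in (-l)..l, ((1 - |u| / l : ℝ) : ℂ) * Complex.exp (Complex.I * u * x) =
      ((l * fejK (l * x) : ℝ) : ℂ) := by
  have hcont : Continuous fun u : ℝ =>
      ((1 - |u| / l : ℝ) : ℂ) * Complex.exp (Complex.I * u * x) := by fun_prop
  rw [← intervalIntegral.integral_add_adjacent_intervals (b := 0)
    (hcont.intervalIntegrable _ _) (hcont.intervalIntegrable _ _)]
  have hlc : (l : ℂ) ≠ 0 := Complex.ofReal_ne_zero.mpr hl.ne'
  by_cases hx : x = 0
  · subst hx
    have e1 : ∫ u in (-l)..0, ((1 - |u| / l : ℝ) : ℂ) * Complex.exp (Complex.I * u * (0 : ℝ)) =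
        ((∫ u in (-l)..0, (1 + u / l) : ℝ) : ℂ) := by
      rw [← intervalIntegral.integral_ofReal]
      refine intervalIntegral.integral_congr fun u hu => ?_
      rw [uIcc_of_le (by linarith)] at hu
      simp only [Complex.ofReal_zero, mul_zero, Complex.exp_zero, mul_one]
      rw [abs_of_nonpos hu.2]
      congr 1
      ring
    have e2 : ∫ u in (0 : ℝ)..l, ((1 - |u| / l : ℝ) : ℂ) *
        Complex.exp (Complex.I * u * (0 : ℝ)) = ((∫ u in (0 : ℝ)..l, (1 - u / l) : ℝ) : ℂ) := by
      rw [← intervalIntegral.integral_ofReal]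
      refine intervalIntegral.integral_congr fun u hu => ?_
      rw [uIcc_of_le hl.le] at hu
      simp only [Complex.ofReal_zero, mul_zero, Complex.exp_zero, mul_one]
      rw [abs_of_nonneg hu.1]
    rw [e1, e2, ← Complex.ofReal_add]
    congr 1
    have i1 : ∫ u in (-l)..0, (1 + u / l) = l / 2 := by
      rw [intervalIntegral.integral_add (by simp) (by
        exact (continuous_id.div_const l).intervalIntegrable _ _)]
      simp
      field_simp
      ring
    have i2 : ∫ u in (0 : ℝ)..l, (1 - u / l) = l / 2 := by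
      rw [intervalIntegral.integral_sub (by simp) (by
        exact (continuous_id.div_const l).intervalIntegrable _ _)]
      simp
      field_simp
      ring
    rw [i1, i2, mul_zero, fejK_zero]
    ring
  · have hxc : (x : ℂ) ≠ 0 := Complex.ofReal_ne_zero.mpr hx
    have hI := Complex.I_ne_zero
    have hderiv : ∀ u : ℝ, HasDerivAt (fun u : ℝ => Complex.exp (Complex.I * u * x))
        (Complex.I * x * Complex.exp (Complex.I * u * x)) u := by
      intro u
      have h1 : HasDerivAt (fun u : ℝ => Complex.I * u * x) (Complex.I * x) u := by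
        have := (((hasDerivAt_id u).ofReal_comp).const_mul Complex.I).mul_const (x : ℂ)
        simpa using this
      have := h1.cexp
      rwa [mul_comm] at this
    have hid : ∀ u : ℝ, HasDerivAt (fun u : ℝ => (u : ℂ)) 1 u := fun u => by
      simpa using (hasDerivAt_id u).ofReal_comp
    -- `[-l, 0]`
    have e1 : ∫ u in (-l)..0, ((1 - |u| / l : ℝ) : ℂ) * Complex.exp (Complex.I * u * x) =
        (((1 + ((0 : ℝ) : ℂ) / l) * Complex.exp (Complex.I * ((0 : ℝ) : ℂ) * x) / (Complex.I * x) +
          Complex.exp (Complex.I * ((0 : ℝ) : ℂ) * x) / (l * x ^ 2)) -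
        ((1 + ((-l : ℝ) : ℂ) / l) * Complex.exp (Complex.I * ((-l : ℝ) : ℂ) * x) / (Complex.I * x) +
          Complex.exp (Complex.I * ((-l : ℝ) : ℂ) * x) / (l * x ^ 2))) := by
      rw [← intervalIntegral.integral_eq_sub_of_hasDerivAt (a := -l) (b := 0)
        (f := fun u : ℝ => (1 + (u : ℂ) / l) * Complex.exp (Complex.I * u * x) / (Complex.I * x) +
          Complex.exp (Complex.I * u * x) / (l * x ^ 2))
        (f' := fun u : ℝ => (1 + (u : ℂ) / l) * Complex.exp (Complex.I * u * x))]
      · refine intervalIntegral.integral_congr fun u hu => ?_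
        rw [uIcc_of_le (by linarith)] at hu
        rw [abs_of_nonpos hu.2]
        congr 1
        push_cast
        ring
      · intro u _
        have h1 := ((((hid u).div_const (l : ℂ)).const_add 1).mul (hderiv u)).div_const
          (Complex.I * x)
        have h2 := (hderiv u).div_const ((l : ℂ) * x ^ 2)
        refine (h1.add h2).congr_deriv ?_
        field_simp
        linear_combination Complex.I_sq
      · refine Continuous.intervalIntegrable ?_ _ _
        fun_prop
    have e2 : ∫ u in (0 : ℝ)..l, ((1 - |u| / l : ℝ) : ℂ) * Complex.exp (Complex.I * u * x) =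
        (((1 - (l : ℂ) / l) * Complex.exp (Complex.I * l * x) / (Complex.I * x) -
          Complex.exp (Complex.I * l * x) / (l * x ^ 2)) -
        ((1 - ((0 : ℝ) : ℂ) / l) * Complex.exp (Complex.I * ((0 : ℝ) : ℂ) * x) / (Complex.I * x) -
          Complex.exp (Complex.I * ((0 : ℝ) : ℂ) * x) / (l * x ^ 2))) := by
      rw [← intervalIntegral.integral_eq_sub_of_hasDerivAt (a := 0) (b := l)
        (f := fun u : ℝ => (1 - (u : ℂ) / l) * Complex.exp (Complex.I * u * x) / (Complex.I * x) -
          Complex.exp (Complex.I * u * x) / (l * x ^ 2))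
        (f' := fun u : ℝ => (1 - (u : ℂ) / l) * Complex.exp (Complex.I * u * x))]
      · refine intervalIntegral.integral_congr fun u hu => ?_
        rw [uIcc_of_le hl.le] at hu
        rw [abs_of_nonneg hu.1]
        congr 1
        push_cast
        ring
      · intro u _
        have h1 := ((((hid u).div_const (l : ℂ)).const_sub 1).mul (hderiv u)).div_const
          (Complex.I * x)
        have h2 := (hderiv u).div_const ((l : ℂ) * x ^ 2)
        refine (h1.sub h2).congr_deriv ?_
        field_simp
        linear_combination -Complex.I_sq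
      · refine Continuous.intervalIntegrable ?_ _ _
        fun_prop
    rw [e1, e2, fejK_mul hl hx]
    have hc : ((Real.cos (l * x) : ℝ) : ℂ) =
        (Complex.exp (Complex.I * l * x) + Complex.exp (Complex.I * ((-l : ℝ) : ℂ) * x)) / 2 := by
      rw [Complex.ofReal_cos, Complex.cos]
      congr 3
      · push_cast; ring
      · push_cast; ring
    push_cast at hc ⊢
    rw [hc]
    field_simp
    simp
    ring

end Fermat.Agent.Cor
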