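import Mathlib

/-!
# Primes in classes: the analytic half (K7 (G))

`N i` the norms of the primes, `cl i` their classes in a finite commutative group `G`. If the
`L`-functions of the characters `χ ≠ 1` have a non-zero limit at `1` and the one of `χ = 1` is
unbounded, every class contains infinitely many primes.
-/

set_option autoImplicit false

open Filter Topology Set

namespace Fermat.Agent.Cor

/-! ### A continuous logarithm of a function with a non-zero limit is bounded -/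

theorem isDiscrete_range_intCast : IsDiscrete (Set.range ((↑) : ℤ → ℝ)) := by
  refine ⟨?_⟩
  exact (Int.isClosedEmbedding_coe_real.isEmbedding.toHomeomorph).symm.isEmbedding.discreteTopology

theorem exists_bdd_of_exp {f : ℝ → ℂ} (hf : ContinuousOn f (Ioi 1)) {c : ℂ} (hc : c ≠ 0)
    (h : Tendsto (fun s => Complex.exp (f s)) (𝓝[>] 1) (𝓝 c)) :
    ∃ B : ℝ, ∀ᶠ s in 𝓝[>] (1 : ℝ), ‖f s‖ ≤ B := by
  have h' : Tendsto (fun s => Complex.exp (f s) / c) (𝓝[>] 1) (𝓝 1) := by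
    have := h.div_const c
    rwa [div_self hc] at this
  have hev : ∀ᶠ s in 𝓝[>] (1 : ℝ), ‖Complex.exp (f s) / c - 1‖ < 1 / 2 := by
    have := (tendsto_iff_norm_sub_tendsto_zero.mp h')
    exact this.eventually_lt_const (by norm_num)
  obtain ⟨u, hu, hS⟩ := (mem_nhdsGT_iff_exists_Ioo_subset).mp hev
  have hu1 : (1 : ℝ) < u := hu
  set S : Set ℝ := Ioo 1 u with hSdef
  have hS' : ∀ s ∈ S, ‖Complex.exp (f s) / c - 1‖ < 1 / 2 := fun s hs => hS hs
  have hfS : ContinuousOn f S := hf.mono fun s hs => hs.1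
  set w : ℝ → ℂ := fun s => Complex.log (Complex.exp (f s) / c) with hw
  have hwS : ContinuousOn w S := by
    refine ContinuousOn.clog ((Complex.continuous_exp.comp_continuousOn hfS).div_const c) ?_
    intro s hs
    have h1 : Complex.exp (f s) / c = 1 + (Complex.exp (f s) / c - 1) := by ring
    rw [h1]
    exact Complex.mem_slitPlane_of_norm_lt_one ((hS' s hs).trans (by norm_num))
  have hwn : ∀ s ∈ S, ‖w s‖ ≤ 3 / 4 := by
    intro s hs
    have h1 : Complex.exp (f s) / c = 1 + (Complex.exp (f s) / c - 1) := by ring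
    have h2 := Complex.norm_log_one_add_half_le_self (hS' s hs).le
    rw [← h1] at h2
    have h3 := hS' s hs
    calc ‖w s‖ ≤ 3 / 2 * ‖Complex.exp (f s) / c - 1‖ := h2
      _ ≤ 3 / 4 := by linarith
  set g : ℝ → ℂ := fun s => f s - w s with hg
  have hgS : ContinuousOn g S := hfS.sub hwS
  have hexp : ∀ s, Complex.exp (g s) = c := by
    intro s
    rw [hg, Complex.exp_sub, hw, Complex.exp_log (div_ne_zero (Complex.exp_ne_zero _) hc)]
    have := Complex.exp_ne_zero (f s)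
    field_simp
  set s₀ : ℝ := (1 + u) / 2 with hs₀
  have hs₀S : s₀ ∈ S := ⟨by rw [hs₀]; linarith, by rw [hs₀]; linarith⟩
  have hint : ∀ s, ∃ n : ℤ, g s = g s₀ + n * (2 * Real.pi * Complex.I) := by
    intro s
    exact Complex.exp_eq_exp_iff_exists_int.mp (by rw [hexp, hexp])
  have h2pi : (2 * Real.pi * Complex.I : ℂ) ≠ 0 := Complex.two_pi_I_ne_zero
  set φ : ℝ → ℝ := fun s => ((g s - g s₀) / (2 * Real.pi * Complex.I)).re with hφ
  have hφn : ∀ s (n : ℤ), g s = g s₀ + n * (2 * Real.pi * Complex.I) → φ s = n := by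
    intro s n hn
    rw [hφ]
    beta_reduce
    rw [hn, add_sub_cancel_left, mul_div_assoc, div_self h2pi, mul_one]
    simp
  have hφS : ContinuousOn φ S :=
    Complex.continuous_re.comp_continuousOn ((hgS.sub continuousOn_const).div_const _)
  have hmaps : MapsTo φ S (Set.range ((↑) : ℤ → ℝ)) := by
    intro s _
    obtain ⟨n, hn⟩ := hint s
    exact ⟨n, (hφn s n hn).symm⟩
  have hconst : ∀ s ∈ S, g s = g s₀ := by
    intro s hs
    have h1 := isPreconnected_Ioo.constant_of_mapsTo isDiscrete_range_intCast hφS hmaps hs hs₀S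
    obtain ⟨n, hn⟩ := hint s
    have h2 := hφn s n hn
    have h3 : φ s₀ = 0 := by
      rw [hφ]
      simp
    rw [h1, h3] at h2
    have h4 : n = 0 := by exact_mod_cast h2.symm
    rw [hn, h4]
    simp
  refine ⟨3 / 4 + ‖g s₀‖, ?_⟩
  filter_upwards [Ioo_mem_nhdsGT hu1] with s hs
  have h1 : f s = w s + g s₀ := by
    rw [← hconst s hs, hg]
    ring
  rw [h1]
  exact (norm_add_le _ _).trans (by linarith [hwn s hs])

/-! ### The logarithms of the Euler factors -/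

theorem norm_log_sub_le {z : ℂ} (hz : ‖z‖ ≤ 1 / 2) : ‖-Complex.log (1 - z) - z‖ ≤ ‖z‖ ^ 2 := by
  have hz1 : ‖-z‖ < 1 := by rw [norm_neg]; linarith
  have h1 := Complex.norm_log_one_add_sub_self_le hz1
  have h2 : -Complex.log (1 - z) - z = -(Complex.log (1 + -z) - -z) := by
    rw [← sub_eq_add_neg]; ring
  rw [h2, norm_neg]
  refine h1.trans ?_
  rw [norm_neg]
  have h3 : (1 - ‖z‖)⁻¹ ≤ 2 := by
    rw [inv_le_comm₀ (by linarith) (by norm_num)]
    linarith
  have h4 : 0 ≤ ‖z‖ ^ 2 := sq_nonneg _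
  nlinarith

theorem norm_log_le {z : ℂ} (hz : ‖z‖ ≤ 1 / 2) : ‖-Complex.log (1 - z)‖ ≤ 2 * ‖z‖ := by
  have h1 := norm_log_sub_le hz
  have h2 : -Complex.log (1 - z) = (-Complex.log (1 - z) - z) + z := by ring
  rw [h2]
  refine (norm_add_le _ _).trans ?_
  have h3 : 0 ≤ ‖z‖ := norm_nonneg _
  nlinarith

section Fiber

variable {ι G : Type*} [CommGroup G] [Finite G]

theorem norm_char_aux (χ : G →* ℂˣ) (g : G) : ‖((χ g : ℂˣ) : ℂ)‖ = 1 := by
  have h1 : ((χ g : ℂˣ) : ℂ) ^ Nat.card G = 1 := by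
    rw [← Units.val_pow_eq_pow_val, ← map_pow, pow_card_eq_one', map_one, Units.val_one]
  exact Complex.norm_eq_one_of_pow_eq_one h1 Nat.card_pos.ne'

instance finite_char_aux : Finite (G →* ℂˣ) := by
  have : NeZero (Monoid.exponent G) := ⟨Monoid.exponent_ne_zero_of_finite⟩
  obtain ⟨e⟩ := CommGroup.monoidHom_mulEquiv_of_hasEnoughRootsOfUnity G ℂ
  exact Finite.of_equiv _ e.symm.toEquiv

theorem sum_char_aux [Fintype (G →* ℂˣ)] [DecidableEq G] (g : G) :
    ∑ χ : G →* ℂˣ, ((χ g : ℂˣ) : ℂ) = if g = 1 then (Fintype.card (G →* ℂˣ) : ℂ) else 0 := by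
  have : NeZero (Monoid.exponent G) := ⟨Monoid.exponent_ne_zero_of_finite⟩
  split_ifs with hg
  · subst hg
    simp
  · obtain ⟨φ, hφ⟩ := CommGroup.exists_apply_ne_one_of_hasEnoughRootsOfUnity G ℂ hg
    have h1 : ∑ χ : G →* ℂˣ, ((χ g : ℂˣ) : ℂ) = (φ g : ℂ) * ∑ χ : G →* ℂˣ, ((χ g : ℂˣ) : ℂ) := by
      rw [Finset.mul_sum, ← Equiv.sum_comp (Equiv.mulLeft φ)]
      refine Finset.sum_congr rfl fun χ _ => ?_
      simp
    have h2 : ((φ g : ℂ) - 1) * ∑ χ : G →* ℂˣ, ((χ g : ℂˣ) : ℂ) = 0 := by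
      rw [sub_mul, one_mul, ← h1, sub_self]
    rcases mul_eq_zero.mp h2 with h3 | h3
    · exfalso
      apply hφ
      ext
      rw [Units.val_one]
      exact sub_eq_zero.mp h3
    · exact h3

/-! ### The sums over the primes -/

/-- `χ(P) N(P)^{-s}` -/
noncomputable def fz (N : ι → ℕ) (cl : ι → G) (χ : G →* ℂˣ) (i : ι) (s : ℝ) : ℂ :=
  ((χ (cl i) : ℂˣ) : ℂ) * (N i : ℂ) ^ (-(s : ℂ))

/-- `log L(s, χ)` -/
noncomputable def ell (N : ι → ℕ) (cl : ι → G) (χ : G →* ℂˣ) (s : ℝ) : ℂ :=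
  ∑' i, -Complex.log (1 - fz N cl χ i s)

variable {N : ι → ℕ} (hN : ∀ i, 2 ≤ N i) (cl : ι → G)

include hN in
theorem norm_fz (χ : G →* ℂˣ) (i : ι) (s : ℝ) : ‖fz N cl χ i s‖ = (N i : ℝ) ^ (-s) := by
  unfold fz
  rw [norm_mul, norm_char_aux, one_mul,
    Complex.norm_natCast_cpow_of_pos (by have := hN i; omega), Complex.neg_re, Complex.ofReal_re]

include hN in
theorem rpow_le_inv (i : ι) {s : ℝ} (hs : 1 ≤ s) : (N i : ℝ) ^ (-s) ≤ (N i : ℝ)⁻¹ := by
  have h1 : (1 : ℝ) ≤ N i := by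
    have := hN i
    exact_mod_cast (by omega : 1 ≤ N i)
  rw [← Real.rpow_neg_one]
  exact Real.rpow_le_rpow_of_exponent_le h1 (by linarith)

include hN in
theorem norm_fz_le (χ : G →* ℂˣ) (i : ι) {s : ℝ} (hs : 1 ≤ s) : ‖fz N cl χ i s‖ ≤ 1 / 2 := by
  rw [norm_fz hN]
  refine (rpow_le_inv hN i hs).trans ?_
  rw [inv_le_comm₀ (by have := hN i; positivity) (by norm_num)]
  have : (2 : ℝ) ≤ N i := by exact_mod_cast hN i
  linarith

variable (hs : ∀ s : ℝ, 1 < s → Summable fun i => (N i : ℝ) ^ (-s))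

include hN hs in
theorem summable_term (χ : G →* ℂˣ) {s : ℝ} (h : 1 < s) :
    Summable fun i => -Complex.log (1 - fz N cl χ i s) := by
  refine Summable.of_norm_bounded ((hs s h).mul_left 2) fun i => ?_
  rw [← norm_fz hN cl χ i s]
  exact norm_log_le (norm_fz_le hN cl χ i h.le)

include hN hs in
theorem continuousOn_ell (χ : G →* ℂˣ) : ContinuousOn (ell N cl χ) (Ioi 1) := by
  intro x hx
  have hx1 : (1 : ℝ) < x := hx
  set σ : ℝ := (1 + x) / 2 with hσ
  have hσ1 : 1 < σ := by rw [hσ]; linarith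
  have hσx : σ < x := by rw [hσ]; linarith
  have key : ContinuousOn (ell N cl χ) (Ioi σ) := by
    unfold ell
    refine continuousOn_tsum (u := fun i => 2 * (N i : ℝ) ^ (-σ)) (fun i => ?_)
      ((hs σ hσ1).mul_left 2) fun i y hy => ?_
    · have hN0 : ((N i : ℕ) : ℂ) ≠ 0 := by
        have := hN i
        exact_mod_cast (by omega : N i ≠ 0)
      have hc : Continuous fun s : ℝ => fz N cl χ i s := by
        unfold fz
        refine continuous_const.mul ?_
        exact (Complex.continuous_ofReal.neg).const_cpow (Or.inl hN0)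
      refine ContinuousOn.neg (ContinuousOn.clog ((continuous_const.sub hc).continuousOn) ?_)
      intro y hy
      have hy' : σ < y := hy
      have h1 : 1 - fz N cl χ i y = 1 + -fz N cl χ i y := by ring
      rw [h1]
      refine Complex.mem_slitPlane_of_norm_lt_one ?_
      rw [norm_neg]
      exact (norm_fz_le hN cl χ i (hσ1.trans hy').le).trans_lt (by norm_num)
    · have hy' : σ < y := hy
      refine (norm_log_le (norm_fz_le hN cl χ i (hσ1.trans hy').le)).trans ?_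
      rw [norm_fz hN]
      refine mul_le_mul_of_nonneg_left ?_ (by norm_num)
      have h1 : (1 : ℝ) ≤ N i := by
        have := hN i
        exact_mod_cast (by omega : 1 ≤ N i)
      exact Real.rpow_le_rpow_of_exponent_le h1 (by linarith)
  exact (key.continuousAt (Ioi_mem_nhds hσx)).continuousWithinAt

include hN hs in
/-- **The sum of `1 / N(P)` over every class diverges**, if the `L`-functions of the non-trivial
characters do not vanish at `1`. -/
theorem not_summable_fiber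
    (h1 : Tendsto (fun s : ℝ => ‖Complex.exp (∑' i, -Complex.log (1 - (N i : ℂ) ^ (-(s : ℂ))))‖)
      (𝓝[>] 1) atTop)
    (hχ : ∀ χ : G →* ℂˣ, χ ≠ 1 → ∃ c : ℂ, c ≠ 0 ∧
      Tendsto (fun s : ℝ => Complex.exp
        (∑' i, -Complex.log (1 - ((χ (cl i) : ℂˣ) : ℂ) * (N i : ℂ) ^ (-(s : ℂ))))) (𝓝[>] 1) (𝓝 c))
    (g : G) : ¬ Summable (Set.indicator {i | cl i = g} fun i => (N i : ℝ)⁻¹) := by
  classical
  intro hfin
  have : Fintype (G →* ℂˣ) := Fintype.ofFinite _
  set C : ℝ := ((Fintype.card (G →* ℂˣ) : ℕ) : ℝ) with hC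
  have hC0 : 0 ≤ C := Nat.cast_nonneg _
  -- the majorant
  set u : ι → ℝ := fun i => C * (Set.indicator {i | cl i = g} (fun i => (N i : ℝ)⁻¹) i +
    (N i : ℝ) ^ (-(2 : ℝ))) with hu
  have hsu : Summable u := Summable.mul_left C (Summable.add hfin (hs 2 (by norm_num)))
  set M : ℝ := ∑' i, u i with hM
  have hmain : ∀ s : ℝ, 1 < s →
      ‖∑ χ : G →* ℂˣ, ((χ g⁻¹ : ℂˣ) : ℂ) * ell N cl χ s‖ ≤ M := by
    intro s h
    have e1 : ∑ χ : G →* ℂˣ, ((χ g⁻¹ : ℂˣ) : ℂ) * ell N cl χ s =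
        ∑' i, ∑ χ : G →* ℂˣ, ((χ g⁻¹ : ℂˣ) : ℂ) * -Complex.log (1 - fz N cl χ i s) := by
      rw [Summable.tsum_finsetSum fun χ _ => (summable_term hN cl hs χ h).mul_left _]
      refine Finset.sum_congr rfl fun χ _ => ?_
      rw [tsum_mul_left]
      rfl
    rw [e1]
    refine tsum_of_norm_bounded hsu.hasSum fun i => ?_
    have e2 : ∑ χ : G →* ℂˣ, ((χ g⁻¹ : ℂˣ) : ℂ) * -Complex.log (1 - fz N cl χ i s) =
        (∑ χ : G →* ℂˣ, ((χ g⁻¹ : ℂˣ) : ℂ) * (-Complex.log (1 - fz N cl χ i s) - fz N cl χ i s)) +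
          (∑ χ : G →* ℂˣ, ((χ (g⁻¹ * cl i) : ℂˣ) : ℂ)) * (N i : ℂ) ^ (-(s : ℂ)) := by
      rw [Finset.sum_mul, ← Finset.sum_add_distrib]
      refine Finset.sum_congr rfl fun χ _ => ?_
      rw [map_mul, Units.val_mul, mul_sub]
      unfold fz
      ring
    rw [e2, sum_char_aux]
    refine (norm_add_le _ _).trans ?_
    have h3 : (N i : ℝ) ^ (-s) ≤ (N i : ℝ)⁻¹ := rpow_le_inv hN i h.le
    have h5 : ‖∑ χ : G →* ℂˣ, ((χ g⁻¹ : ℂˣ) : ℂ) *
        (-Complex.log (1 - fz N cl χ i s) - fz N cl χ i s)‖ ≤ C * (N i : ℝ) ^ (-(2 : ℝ)) := by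
      refine (norm_sum_le _ _).trans ?_
      have h6 : ∀ χ ∈ (Finset.univ : Finset (G →* ℂˣ)), ‖((χ g⁻¹ : ℂˣ) : ℂ) *
          (-Complex.log (1 - fz N cl χ i s) - fz N cl χ i s)‖ ≤ (N i : ℝ) ^ (-(2 : ℝ)) := by
        intro χ _
        rw [norm_mul, norm_char_aux, one_mul]
        refine (norm_log_sub_le (norm_fz_le hN cl χ i h.le)).trans ?_
        rw [norm_fz hN]
        have h7 := rpow_le_inv hN i h.le
        have h8 : (0 : ℝ) ≤ (N i : ℝ) ^ (-s) := by positivity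
        refine (pow_le_pow_left₀ h8 h7 2).trans (le_of_eq ?_)
        rw [Real.rpow_neg (Nat.cast_nonneg _), Real.rpow_two, inv_pow]
      refine (Finset.sum_le_sum h6).trans (le_of_eq ?_)
      rw [Finset.sum_const, Finset.card_univ, nsmul_eq_mul]
    have h9 : ‖(if g⁻¹ * cl i = 1 then (Fintype.card (G →* ℂˣ) : ℂ) else 0) *
        (N i : ℂ) ^ (-(s : ℂ))‖ ≤ C * Set.indicator {i | cl i = g} (fun i => (N i : ℝ)⁻¹) i := by
      rw [norm_mul, Complex.norm_natCast_cpow_of_pos (by have := hN i; omega), Complex.neg_re,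
        Complex.ofReal_re]
      by_cases hi : cl i = g
      · rw [if_pos (by rw [hi, inv_mul_cancel]),
          Set.indicator_of_mem (show i ∈ {i | cl i = g} from hi), Complex.norm_natCast]
        exact mul_le_mul_of_nonneg_left h3 hC0
      · rw [if_neg (fun h' => hi (inv_mul_eq_one.mp h').symm),
          Set.indicator_of_notMem (show i ∉ {i | cl i = g} from hi), norm_zero, zero_mul,
          mul_zero]
    rw [hu]
    beta_reduce
    rw [mul_add]
    linarith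
  -- the non-trivial characters
  have hB : ∀ χ : G →* ℂˣ, ∃ B : ℝ, χ ≠ 1 → ∀ᶠ s in 𝓝[>] (1 : ℝ), ‖ell N cl χ s‖ ≤ B := by
    intro χ
    by_cases h : χ = 1
    · exact ⟨0, fun h' => absurd h h'⟩
    · obtain ⟨c, hc, ht⟩ := hχ χ h
      obtain ⟨B, hB⟩ := exists_bdd_of_exp (continuousOn_ell hN cl hs χ) hc ht
      exact ⟨B, fun _ => hB⟩
  choose B hB using hB
  have hev : ∀ᶠ s in 𝓝[>] (1 : ℝ), ∀ χ ∈ (Finset.univ : Finset (G →* ℂˣ)).erase 1,
      ‖ell N cl χ s‖ ≤ B χ := by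
    rw [Filter.eventually_all_finset]
    intro χ hχ1
    exact hB χ (Finset.ne_of_mem_erase hχ1)
  set T : ℝ := M + ∑ χ ∈ (Finset.univ : Finset (G →* ℂˣ)).erase 1, B χ with hT
  have hev2 : ∀ᶠ s in 𝓝[>] (1 : ℝ), ‖ell N cl (1 : G →* ℂˣ) s‖ ≤ T := by
    filter_upwards [hev, self_mem_nhdsWithin] with s h3 h4
    have h5 := hmain s h4
    rw [← Finset.add_sum_erase _ _ (Finset.mem_univ (1 : G →* ℂˣ))] at h5
    have e3 : (((1 : G →* ℂˣ) g⁻¹ : ℂˣ) : ℂ) * ell N cl 1 s = ell N cl 1 s := by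
      rw [MonoidHom.one_apply, Units.val_one, one_mul]
    rw [e3] at h5
    have h6 : ‖∑ χ ∈ (Finset.univ : Finset (G →* ℂˣ)).erase 1,
        ((χ g⁻¹ : ℂˣ) : ℂ) * ell N cl χ s‖ ≤
        ∑ χ ∈ (Finset.univ : Finset (G →* ℂˣ)).erase 1, B χ := by
      refine (norm_sum_le _ _).trans (Finset.sum_le_sum fun χ hχ1 => ?_)
      rw [norm_mul, norm_char_aux, one_mul]
      exact h3 χ hχ1
    have h7 := norm_sub_le (ell N cl 1 s + ∑ χ ∈ (Finset.univ : Finset (G →* ℂˣ)).erase 1,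
        ((χ g⁻¹ : ℂˣ) : ℂ) * ell N cl χ s)
      (∑ χ ∈ (Finset.univ : Finset (G →* ℂˣ)).erase 1, ((χ g⁻¹ : ℂˣ) : ℂ) * ell N cl χ s)
    rw [add_sub_cancel_right] at h7
    rw [hT]
    linarith
  have hev3 := h1.eventually_gt_atTop (Real.exp T)
  obtain ⟨s, h3, h4⟩ := (hev2.and hev3).exists
  have e4 : ell N cl (1 : G →* ℂˣ) s = ∑' i, -Complex.log (1 - (N i : ℂ) ^ (-(s : ℂ))) := by
    unfold ell fz
    refine tsum_congr fun i => ?_
    rw [MonoidHom.one_apply, Units.val_one, one_mul]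
  rw [← e4] at h4
  have h5 : ‖Complex.exp (ell N cl 1 s)‖ ≤ Real.exp T := by
    rw [Complex.norm_exp]
    exact Real.exp_le_exp.mpr ((Complex.re_le_norm _).trans h3)
  linarith

include hN hs in
/-- **Every class contains infinitely many primes**, if the `L`-functions of the non-trivial
characters do not vanish at `1`. -/
theorem infinite_fiber
    (h1 : Tendsto (fun s : ℝ => ‖Complex.exp (∑' i, -Complex.log (1 - (N i : ℂ) ^ (-(s : ℂ))))‖)
      (𝓝[>] 1) atTop)
    (hχ : ∀ χ : G →* ℂˣ, χ ≠ 1 → ∃ c : ℂ, c ≠ 0 ∧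
      Tendsto (fun s : ℝ => Complex.exp
        (∑' i, -Complex.log (1 - ((χ (cl i) : ℂˣ) : ℂ) * (N i : ℂ) ^ (-(s : ℂ))))) (𝓝[>] 1) (𝓝 c))
    (g : G) : {i | cl i = g}.Infinite := by
  intro hfin
  refine not_summable_fiber hN cl hs h1 hχ g ?_
  refine summable_of_ne_finset_zero (s := hfin.toFinset) fun i hi => ?_
  rw [Set.Finite.mem_toFinset] at hi
  exact Set.indicator_of_notMem hi _

end Fiber

end Fermat.Agent.Cor
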