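import Fermat.Agent.Corollaries.ZetaK.Frobenius
import Fermat.Agent.Corollaries.ZetaK.FrobCount

/-!
# The density theorem of Frobenius

`ρ : Gal(ℚ̄/ℚ) → G` surjective with open kernel, `G` finite, `φ p` a Frobenius element at `p` (any
choice). From the prime ideal theorem for number fields: for `S ⊆ G` closed under conjugation and
under the passage to elements which generate the same cyclic group, the primes `p` with
`ρ (φ p) ∈ S` have natural density `|S| / |G|`.
-/

set_option autoImplicit false

namespace Fermat.Agent.Cor.Frob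

open Filter Topology NumberField Fermat.Agent.Classic.Level Fermat.Agent.Frob

variable {G : Type*} [Group G]

/-- A homomorphism to a discrete group is continuous if its kernel is open. -/
lemma continuous_of_ker {Γ : Type*} [Group Γ] [TopologicalSpace Γ] [IsTopologicalGroup Γ]
    [TopologicalSpace G] [DiscreteTopology G] {ρ : Γ →* G} (h : IsOpen (ρ.ker : Set Γ)) :
    Continuous ρ := by
  rw [continuous_discrete_rng]
  intro b
  rw [isOpen_iff_mem_nhds]
  intro g hg
  have h1 : ContinuousAt (fun x : Γ => g⁻¹ * x) g := by fun_prop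
  have h2 : (ρ.ker : Set Γ) ∈ 𝓝 (g⁻¹ * g) := by
    rw [inv_mul_cancel]
    exact h.mem_nhds (one_mem _)
  refine mem_of_superset (h1.preimage_mem_nhds h2) fun x hx => ?_
  have h3 : g⁻¹ * x ∈ ρ.ker := hx
  rw [MonoidHom.mem_ker, map_mul, map_inv, inv_mul_eq_one] at h3
  have h4 : ρ g = b := hg
  change ρ x = b
  rw [← h3, h4]

/-- The average of every permutation character of `G` over the Frobenius elements is `1`. -/
theorem hasAvg_pH [Fintype G] {ρ : GQ →* G} (hker : IsOpen (ρ.ker : Set GQ))
    (hs : Function.Surjective ρ) (hPIT : ∀ (F : Type) [Field F] [NumberField F], PIT F) {φ : ℕ → GQ}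
    (hφ : ∀ p : ℕ, p.Prime → ∃ A : ValuationSubring (AlgebraicClosure ℚ),
      A.LiesOverPrime p ∧ A.IsFrobeniusAt (φ p) p) (H : Subgroup G) :
    HasAvg (fun p => ρ (φ p)) fun g => (pH H g : ℝ) := by
  let : TopologicalSpace G := ⊥
  have : DiscreteTopology G := ⟨rfl⟩
  obtain ⟨T⟩ := exists_fixField (continuous_of_ker hker) H
  have h1 : (Nat.card G : ℝ) ≠ 0 := by exact_mod_cast (Nat.card_pos (α := G)).ne'
  rw [HasAvg, sum_pH, div_self h1]
  exact tendsto_sum_pH T hs (hPIT T.F) hφ

/-- **The theorem of Frobenius**: mean values of functions constant on divisions. -/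
theorem tendsto_sum_of_division [Fintype G] {ρ : GQ →* G} (hker : IsOpen (ρ.ker : Set GQ))
    (hs : Function.Surjective ρ) (hPIT : ∀ (F : Type) [Field F] [NumberField F], PIT F) {φ : ℕ → GQ}
    (hφ : ∀ p : ℕ, p.Prime → ∃ A : ValuationSubring (AlgebraicClosure ℚ),
      A.LiesOverPrime p ∧ A.IsFrobeniusAt (φ p) p) {f : G → ℝ}
    (hc : ∀ x g : G, f (x⁻¹ * g * x) = f g)
    (hz : ∀ g g' : G, Subgroup.zpowers g = Subgroup.zpowers g' → f g = f g') :
    Tendsto (fun x : ℕ => (∑ p ∈ (Finset.range (x + 1)).filter Nat.Prime, f (ρ (φ p))) *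
      Real.log x / x) atTop (𝓝 ((∑ g, f g) / Nat.card G)) :=
  HasAvg.of_division (hasAvg_pH hker hs hPIT hφ) hc hz

/-! ### Natural density -/

/-- The primes `p` with `P p` have natural density `d`: the number of those which are at most `x` is
asymptotic to `d x / log x`. -/
def HasDensity (P : ℕ → Prop) (d : ℝ) : Prop :=
  Tendsto (fun x : ℕ => (Nat.card {p : ℕ // p ≤ x ∧ p.Prime ∧ P p} : ℝ) * Real.log x / x) atTop
    (𝓝 d)

variable {P Q : ℕ → Prop} {d e : ℝ}

open Classical in
lemma card_filter_range (P : ℕ → Prop) (x : ℕ) :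
    ((Finset.range (x + 1)).filter fun p => p.Prime ∧ P p).card =
      Nat.card {p : ℕ // p ≤ x ∧ p.Prime ∧ P p} := by
  rw [← Nat.subtype_card]
  intro p
  rw [Finset.mem_filter, Finset.mem_range, Nat.lt_succ_iff]

open Classical in
lemma hasDensity_iff : HasDensity P d ↔
    Tendsto (fun x : ℕ => (((Finset.range (x + 1)).filter fun p => p.Prime ∧ P p).card : ℝ) *
      Real.log x / x) atTop (𝓝 d) := by
  simp only [card_filter_range]
  rfl

lemma HasDensity.unique (h : HasDensity P d) (h' : HasDensity P e) : d = e :=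
  tendsto_nhds_unique h h'

open Classical in
/-- Finitely many primes do not change the density. -/
lemma HasDensity.congr (hP : HasDensity P d) {D : ℕ} (hD : D ≠ 0)
    (h : ∀ p : ℕ, p.Prime → ¬ p ∣ D → (P p ↔ Q p)) : HasDensity Q d := by
  rw [hasDensity_iff] at hP ⊢
  refine tendsto_of_bounded (C := D.primeFactors.card) (fun x => ?_) hP
  have key : ∀ P Q : ℕ → Prop, (∀ p : ℕ, p.Prime → ¬ p ∣ D → (P p → Q p)) →
      ((Finset.range (x + 1)).filter fun p => p.Prime ∧ P p).card ≤
        ((Finset.range (x + 1)).filter fun p => p.Prime ∧ Q p).card + D.primeFactors.card := by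
    intro P Q h
    refine (Finset.card_le_card fun p hp => ?_).trans (Finset.card_union_le _ _)
    rw [Finset.mem_filter] at hp
    rw [Finset.mem_union, Finset.mem_filter]
    by_cases hd : p ∣ D
    · exact Or.inr (Nat.mem_primeFactors.mpr ⟨hp.2.1, hd, hD⟩)
    · exact Or.inl ⟨hp.1, hp.2.1, h p hp.2.1 hd hp.2.2⟩
  have h1 := key P Q fun p hp hd => (h p hp hd).mp
  have h2 := key Q P fun p hp hd => (h p hp hd).mpr
  rw [abs_sub_le_iff]
  constructor
  · rw [sub_le_iff_le_add']
    exact_mod_cast h1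
  · rw [sub_le_iff_le_add']
    exact_mod_cast h2

open Classical in
/-- A set of primes of positive density is infinite. -/
lemma HasDensity.infinite (h : HasDensity P d) (hd : d ≠ 0) : {p : ℕ | p.Prime ∧ P p}.Infinite := by
  intro hf
  refine hd (h.unique ?_)
  rw [hasDensity_iff]
  have h0 : Tendsto (fun x : ℕ => (0 : ℝ) * Real.log x / x) atTop (𝓝 0) := by
    simp only [zero_mul, zero_div]
    exact tendsto_const_nhds
  refine tendsto_of_bounded (C := (hf.toFinset.card : ℝ)) (fun x => ?_) h0
  rw [zero_sub, abs_neg, Nat.abs_cast, Nat.cast_le]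
  refine Finset.card_le_card fun p hp => ?_
  rw [Set.Finite.mem_toFinset]
  exact (Finset.mem_filter.mp hp).2

/-- **The density theorem of Frobenius** (natural density). -/
theorem frobenius_density [Finite G] {ρ : GQ →* G} (hker : IsOpen (ρ.ker : Set GQ))
    (hs : Function.Surjective ρ) (hPIT : ∀ (F : Type) [Field F] [NumberField F], PIT F) {φ : ℕ → GQ}
    (hφ : ∀ p : ℕ, p.Prime → ∃ A : ValuationSubring (AlgebraicClosure ℚ),
      A.LiesOverPrime p ∧ A.IsFrobeniusAt (φ p) p) {S : Set G}
    (hc : ∀ x g : G, g ∈ S → x⁻¹ * g * x ∈ S)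
    (hz : ∀ g g' : G, Subgroup.zpowers g = Subgroup.zpowers g' → g ∈ S → g' ∈ S) :
    HasDensity (fun p => ρ (φ p) ∈ S) ((Nat.card S : ℝ) / Nat.card G) := by
  have := Fintype.ofFinite G
  rw [hasDensity_iff]
  exact density_of_division (hasAvg_pH hker hs hPIT hφ) hc hz

end Fermat.Agent.Cor.Frob
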