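import Fermat.Agent.Corollaries.ZetaK.CycleType
import Fermat.Agent.Corollaries.ZetaK.FrobMain

/-!
# Decomposition types of a number field

`K` a number field, `Hom(K, ℚ̄)` its set of embeddings, `GalK K` the group of permutations of
`Hom(K, ℚ̄)` given by `Gal(ℚ̄/ℚ)` (this is the Galois group of the normal closure of `K`). For all but
finitely many primes `p` the residue degrees of the places of `K` above `p` are the lengths of the
cycles of Frobenius on `Hom(K, ℚ̄)`; so, for every multiset `m` of positive integers, the primes `p`
such that the residue degrees above `p` are `m` have natural density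
`#{s ∈ GalK K : the cycle type of s is m} / |GalK K|`.
-/

set_option autoImplicit false

namespace Fermat.Agent.Cor.Frob

open Filter Topology NumberField IsDedekindDomain
open Fermat.Agent.Frob Fermat.Agent.Classic.Disc Fermat.Agent.Classic.Emb

local notation "Qbar" => AlgebraicClosure ℚ

variable (K : Type*) [Field K] [NumberField K]

/-- the action of `Gal(ℚ̄/ℚ)` on the embeddings of `K` in `ℚ̄` -/
noncomputable def embPerm : GQ →* Equiv.Perm (K →+* Qbar) where
  toFun g :=
    { toFun := fun j => (g : Qbar →+* Qbar).comp j
      invFun := fun j => ((g⁻¹ : GQ) : Qbar →+* Qbar).comp j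
      left_inv := fun j => by
        ext x
        exact g.symm_apply_apply (j x)
      right_inv := fun j => by
        ext x
        exact g.apply_symm_apply (j x) }
  map_one' := by
    ext j x
    rfl
  map_mul' g h := by
    ext j x
    rfl

variable {K} in
omit [NumberField K] in
@[simp] lemma embPerm_apply (g : GQ) (j : K →+* Qbar) (x : K) : embPerm K g j x = g (j x) := rfl

lemma isOpen_ker_embPerm : IsOpen ((embPerm K).ker : Set GQ) := by
  have h : ((embPerm K).ker : Set GQ) =
      ⋂ j : K →+* Qbar, (j.toRatAlgHom.fieldRange.fixingSubgroup : Set GQ) := by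
    ext g
    rw [Set.mem_iInter, SetLike.mem_coe, MonoidHom.mem_ker]
    constructor
    · intro hg j
      rw [SetLike.mem_coe, IntermediateField.mem_fixingSubgroup_iff]
      rintro _ ⟨x, rfl⟩
      exact RingHom.congr_fun (DFunLike.congr_fun hg j) x
    · intro hg
      ext j x
      have h1 := hg j
      rw [SetLike.mem_coe, IntermediateField.mem_fixingSubgroup_iff] at h1
      exact h1 _ ⟨x, rfl⟩
  rw [h]
  refine isOpen_iInter_of_finite fun j => ?_
  have : FiniteDimensional ℚ j.toRatAlgHom.fieldRange :=
    LinearEquiv.finiteDimensional (AlgEquiv.ofInjectiveField j.toRatAlgHom).toLinearEquiv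
  exact IntermediateField.fixingSubgroup_isOpen _

/-- the Galois group of the normal closure of `K`, as a group of permutations of the embeddings -/
noncomputable abbrev GalK : Subgroup (Equiv.Perm (K →+* Qbar)) := (embPerm K).range

/-- the residue degrees of the places of `K` above `p` -/
noncomputable def decType (p : ℕ) : Multiset ℕ := (above K p).val.map fdeg

open Classical in
/-- the lengths of the cycles of a permutation of the embeddings -/
noncomputable def cycType (s : Equiv.Perm (K →+* Qbar)) : Multiset ℕ := s.partition.parts

variable {K}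

/-- **Decomposition types and Frobenius**: at almost all primes `p` the residue degrees above `p` are
the lengths of the cycles of Frobenius on the embeddings. -/
theorem decType_eq : ∃ D : ℕ, D ≠ 0 ∧ ∀ p : ℕ, p.Prime → ¬ p ∣ D →
    ∀ A : ValuationSubring Qbar, A.LiesOverPrime p →
    ∀ σ : GQ, A.IsFrobeniusAt σ p → decType K p = cycType K (embPerm K σ) := by
  classical
  obtain ⟨D, hD, h⟩ := exists_sum_fdeg K
  refine ⟨D, hD, fun p hp hpD A hA σ hσ => ?_⟩
  rw [cycType]
  convert parts_eq (s := embPerm K σ) (m := decType K p) (fun x hx => ?_) fun k => ?_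
  · obtain ⟨v, -, rfl⟩ := Multiset.mem_map.mp hx
    exact fdeg_pos v
  · have h1 := h p hp hpD A hA σ hσ k
    rw [decType, Multiset.filter_map]
    have h2 : ∀ j : K →+* Qbar, (embPerm K σ ^ k) j = j ↔ ∀ x, (σ ^ k) (j x) = j x := by
      intro j
      rw [← map_pow]
      exact ⟨fun h x => RingHom.congr_fun h x, fun h => RingHom.ext h⟩
    rw [Nat.card_congr (Equiv.subtypeEquivRight h2), ← h1]
    rfl

/-- **The density theorem of Frobenius for decomposition types**, for a property `P` of multisets. -/
theorem hasDensity_of_decType (hPIT : ∀ (F : Type) [Field F] [NumberField F], PIT F)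
    (P : Multiset ℕ → Prop) :
    HasDensity (fun p => P (decType K p))
      ((Nat.card {s : GalK K // P (cycType K s)} : ℝ) / Nat.card (GalK K)) := by
  classical
  have hex : ∀ p : ℕ, ∃ σ : GQ, p.Prime → ∃ A : ValuationSubring Qbar,
      A.LiesOverPrime p ∧ A.IsFrobeniusAt σ p := by
    intro p
    by_cases hp : p.Prime
    · obtain ⟨A, hA, σ, hσ⟩ := exists_frobenius p hp
      exact ⟨σ, fun _ => ⟨A, hA, hσ⟩⟩
    · exact ⟨1, fun h => absurd h hp⟩
  choose φ hφ using hex
  obtain ⟨D, hD, h⟩ := decType_eq (K := K)
  have hker : IsOpen (((embPerm K).rangeRestrict.ker : Subgroup GQ) : Set GQ) := by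
    rw [MonoidHom.ker_rangeRestrict]
    exact isOpen_ker_embPerm K
  have h1 := frobenius_density hker (embPerm K).rangeRestrict_surjective hPIT hφ
    (S := {s : GalK K | P (cycType K s)})
    (fun x g hg => by
      have h2 : cycType K ((x⁻¹ * g * x : GalK K) : Equiv.Perm (K →+* Qbar)) = cycType K g := by
        rw [cycType, cycType]
        congr 1
        refine (Equiv.Perm.partition_eq_of_isConj.mp ?_).symm
        rw [isConj_iff]
        exact ⟨(x : Equiv.Perm (K →+* Qbar))⁻¹, by simp⟩
      rw [Set.mem_ofPred_eq, h2]
      exact hg)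
    (fun g g' hz hg => by
      have h2 : cycType K g' = cycType K g := by
        rw [cycType, cycType]
        refine (parts_of_zpowers ?_).symm
        have h3 := congrArg (Subgroup.map (GalK K).subtype) hz
        rwa [MonoidHom.map_zpowers, MonoidHom.map_zpowers] at h3
      rw [Set.mem_ofPred_eq, h2]
      exact hg)
  refine h1.congr hD fun p hp hpD => ?_
  obtain ⟨A, hA, hσ⟩ := hφ p hp
  rw [h p hp hpD A hA _ hσ]
  rfl

/-- **The density theorem of Frobenius for decomposition types.** -/
theorem hasDensity_decType (hPIT : ∀ (F : Type) [Field F] [NumberField F], PIT F)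
    (m : Multiset ℕ) :
    HasDensity (fun p => decType K p = m)
      ((Nat.card {s : GalK K // cycType K s = m} : ℝ) / Nat.card (GalK K)) :=
  hasDensity_of_decType hPIT fun m' => m' = m

end Fermat.Agent.Cor.Frob
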