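import Fermat.Agent.Corollaries.ZetaK.CondDisc

/-!
# The conductor-discriminant formula for abelian fields

`K` the `n`-th cyclotomic field, `L ⊂ K`. Complex conjugation is `-1 ∈ (ℤ/n)ˣ`; so `L` is real iff
all its characters are even, otherwise `L` is totally complex and half of its characters are even.
Hence the gamma factors of `ζ_L` and of `∏_χ L(s, χ*)` agree, and

* `conductor_discriminant` : **`∏_{χ ∈ charGroup n L} cond χ = |d_L|`**;
* `prod_rootNumber` : **`∏_{χ ∈ charGroup n L} W(χ*) = 1`**.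
-/

set_option autoImplicit false

noncomputable section

open DirichletCharacter NumberField Complex IsCyclotomicExtension IsCyclotomicExtension.Rat
open scoped ComplexConjugate

universe u

namespace Fermat.Agent.Cor

section cplx

variable (n : ℕ) [NeZero n] {K : Type u} [Field K] [NumberField K]
  [hK : IsCyclotomicExtension {n} ℚ K]

include n hK in
theorem exists_conj (φ : K →+* ℂ) : ∃ c : Gal(K/ℚ), ∀ x, φ (c x) = conj (φ x) := by
  have : IsGalois ℚ K := IsCyclotomicExtension.isGalois {n} ℚ K
  obtain ⟨σ, hσ⟩ := NumberField.ComplexEmbedding.exists_comp_symm_eq_of_comp_eq (k := ℚ) φ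
    (ComplexEmbedding.conjugate φ) (Subsingleton.elim _ _)
  exact ⟨σ.symm, fun x => RingHom.congr_fun hσ x⟩

theorem galEquivZMod_conj {φ : K →+* ℂ} {c : Gal(K/ℚ)} (h : ∀ x, φ (c x) = conj (φ x)) :
    galEquivZMod n K c = -1 := by
  have hζ := zeta_spec n ℚ K
  have h1 := galEquivZMod_apply_of_pow_eq n K c hζ.pow_eq_one
  set a := (galEquivZMod n K c).val with ha
  have h2 : ‖φ (zeta n ℚ K)‖ = 1 := by
    refine Complex.norm_eq_one_of_pow_eq_one (n := n) ?_ (NeZero.ne n)
    rw [← map_pow, hζ.pow_eq_one, map_one]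
  have h3 : φ (zeta n ℚ K) ^ (a.val + 1) = 1 := by
    rw [pow_succ, ← map_pow, ← h1, h, ← Complex.inv_eq_conj h2, inv_mul_cancel₀]
    intro h0
    rw [h0, norm_zero] at h2
    exact zero_ne_one h2
  have h4 : zeta n ℚ K ^ (a.val + 1) = 1 := by
    apply φ.injective
    rw [map_pow, h3, map_one]
  have h5 := (hζ.pow_eq_one_iff_dvd _).mp h4
  apply Units.ext
  rw [Units.val_neg, Units.val_one, ← ha]
  have h6 : ((a.val + 1 : ℕ) : ZMod n) = 0 := (ZMod.natCast_eq_zero_iff _ _).mpr h5
  rw [Nat.cast_add, Nat.cast_one, ZMod.natCast_zmod_val] at h6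
  exact eq_neg_of_add_eq_zero_left h6

/-- A subfield of a cyclotomic field is real iff `-1` belongs to its group. -/
theorem isReal_iff (L : IntermediateField ℚ K) (ψ : L →+* ℂ) :
    ComplexEmbedding.IsReal ψ ↔ (-1 : (ZMod n)ˣ) ∈ galSub n L := by
  let := ψ.toAlgebra
  let φ₀ : K →ₐ[L] ℂ := IsAlgClosed.lift
  have hφ : ∀ x : L, φ₀ (x : K) = ψ x := fun x => φ₀.commutes x
  obtain ⟨c, hc⟩ := exists_conj n (φ₀ : K →+* ℂ)
  have hc' : ∀ x : K, φ₀ (c x) = conj (φ₀ x) := hc
  have h1 := galEquivZMod_conj n hc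
  have h2 : (-1 : (ZMod n)ˣ) ∈ galSub n L ↔ c ∈ L.fixingSubgroup := by
    rw [galSub]
    change _ ∈ L.fixingSubgroup.map (galEquivZMod n K).toMonoidHom ↔ _
    rw [Subgroup.mem_map_equiv, ← h1, MulEquiv.symm_apply_apply]
  rw [h2, IntermediateField.mem_fixingSubgroup_iff]
  constructor
  · intro h x hx
    refine (φ₀ : K →+* ℂ).injective ?_
    change φ₀ (c x) = φ₀ x
    rw [hc', hφ ⟨x, hx⟩]
    exact RingHom.congr_fun h ⟨x, hx⟩
  · intro h
    refine RingHom.ext fun x => ?_
    change conj (ψ x) = ψ x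
    rw [← hφ x, ← hc', h x x.2]

variable (L : IntermediateField ℚ K)

theorem nrComplexPlaces_of_mem (h : (-1 : (ZMod n)ˣ) ∈ galSub n L) :
    InfinitePlace.nrComplexPlaces L = 0 := by
  classical
  have h1 := InfinitePlace.card_complex_embeddings (K := L)
  have h2 : IsEmpty {φ : L →+* ℂ // ¬ ComplexEmbedding.IsReal φ} :=
    ⟨fun φ => φ.2 ((isReal_iff n L φ.1).mpr h)⟩
  rw [Fintype.card_eq_zero] at h1
  omega

theorem nrRealPlaces_of_notMem (h : (-1 : (ZMod n)ˣ) ∉ galSub n L) :
    InfinitePlace.nrRealPlaces L = 0 := by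
  classical
  have h1 := InfinitePlace.card_real_embeddings (K := L)
  have h2 : IsEmpty {φ : L →+* ℂ // ComplexEmbedding.IsReal φ} :=
    ⟨fun φ => h ((isReal_iff n L φ.1).mp φ.2)⟩
  rw [Fintype.card_eq_zero] at h1
  exact h1.symm

theorem card_charGroup : Fintype.card (charGroup n L) = Module.finrank ℚ L := by
  have : IsGalois ℚ K := IsCyclotomicExtension.isGalois {n} ℚ K
  rw [← Nat.card_eq_fintype_card, charGroup, card_ann, index_galSub,
    IntermediateField.finrank_eq_fixingSubgroup_index]

end cplx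

section parity

variable {n : ℕ} [NeZero n]

theorem prim_neg_one (χ : DirichletCharacter ℂ n) : χ.primitiveCharacter (-1) = χ (-1) := by
  have h := χ.primitiveCharacter_apply_of_isCoprime (a := -1) isCoprime_one_left.neg_left
  simpa using h

theorem gammaFactor_prim_of_even {χ : DirichletCharacter ℂ n} (h : χ (-1) = 1) (s : ℂ) :
    gammaFactor χ.primitiveCharacter s = Gammaℝ s :=
  Even.gammaFactor_def ((prim_neg_one χ).trans h) s

theorem gammaFactor_prim_of_odd {χ : DirichletCharacter ℂ n} (h : χ (-1) = -1) (s : ℂ) :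
    gammaFactor χ.primitiveCharacter s = Gammaℝ (s + 1) :=
  Odd.gammaFactor_def ((prim_neg_one χ).trans h) s

theorem one_or_neg_one (χ : DirichletCharacter ℂ n) : χ (-1) = 1 ∨ χ (-1) = -1 :=
  χ.even_or_odd

theorem prod_gammaFactor_of_odd (Y : Subgroup (DirichletCharacter ℂ n)) {χ₀ : Y}
    (h0 : (χ₀ : DirichletCharacter ℂ n) (-1) = -1) {r : ℕ} (hr : Fintype.card Y = 2 * r) (s : ℂ) :
    ∏ χ : Y, gammaFactor (χ : DirichletCharacter ℂ n).primitiveCharacter s = Gammaℂ s ^ r := by
  classical
  have hne : (1 : ℂ) ≠ -1 := by norm_num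
  have h1 : ∀ χ : Y, gammaFactor (χ : DirichletCharacter ℂ n).primitiveCharacter s =
      if (χ : DirichletCharacter ℂ n) (-1) = 1 then Gammaℝ s else Gammaℝ (s + 1) := by
    intro χ
    rcases one_or_neg_one (χ : DirichletCharacter ℂ n) with h | h
    · rw [if_pos h, gammaFactor_prim_of_even h]
    · rw [if_neg (by rw [h]; exact hne.symm), gammaFactor_prim_of_odd h]
  have h2 : (Finset.univ.filter fun χ : Y => (χ : DirichletCharacter ℂ n) (-1) = 1).card =
      (Finset.univ.filter fun χ : Y => ¬ (χ : DirichletCharacter ℂ n) (-1) = 1).card := by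
    refine Finset.card_bij (fun χ _ => χ₀ * χ) ?_ ?_ ?_
    · intro χ hχ
      rw [Finset.mem_filter] at hχ ⊢
      refine ⟨Finset.mem_univ _, ?_⟩
      rw [Subgroup.coe_mul, MulChar.mul_apply, h0, hχ.2, mul_one]
      exact hne.symm
    · intro χ _ χ' _ h
      exact mul_left_cancel h
    · intro χ hχ
      rw [Finset.mem_filter] at hχ
      refine ⟨χ₀⁻¹ * χ, ?_, mul_inv_cancel_left _ _⟩
      rw [Finset.mem_filter]
      refine ⟨Finset.mem_univ _, ?_⟩
      have h3 : (χ : DirichletCharacter ℂ n) (-1) = -1 :=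
        (one_or_neg_one (χ : DirichletCharacter ℂ n)).resolve_left hχ.2
      have h4 : ((χ₀⁻¹ * χ : Y) : DirichletCharacter ℂ n) (-1) *
          (χ₀ : DirichletCharacter ℂ n) (-1) = (χ : DirichletCharacter ℂ n) (-1) := by
        rw [← MulChar.mul_apply, ← Subgroup.coe_mul]
        congr 2
        rw [mul_comm χ₀⁻¹ χ, inv_mul_cancel_right]
      rw [h0, h3] at h4
      linear_combination -h4
  have h3 : (Finset.univ.filter fun χ : Y => (χ : DirichletCharacter ℂ n) (-1) = 1).card +
      (Finset.univ.filter fun χ : Y => ¬ (χ : DirichletCharacter ℂ n) (-1) = 1).card =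
      Fintype.card Y := by
    rw [Finset.card_filter_add_card_filter_not, Finset.card_univ]
  rw [Finset.prod_congr rfl fun χ _ => h1 χ, Finset.prod_ite, Finset.prod_const,
    Finset.prod_const, ← h2]
  have h4 : (Finset.univ.filter fun χ : Y => (χ : DirichletCharacter ℂ n) (-1) = 1).card = r := by
    omega
  rw [h4, ← mul_pow, Gammaℝ_mul_Gammaℝ_add_one]

end parity

section main

variable (n : ℕ) [NeZero n] {K : Type u} [Field K] [NumberField K]
  [hK : IsCyclotomicExtension {n} ℚ K] (L : IntermediateField ℚ K)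

theorem gammaMatch : GammaMatch n L (charGroup n L) := by
  intro s
  have hcard := card_charGroup n L
  have hrank := InfinitePlace.card_add_two_mul_card_eq_rank (K := L)
  by_cases h : (-1 : (ZMod n)ˣ) ∈ galSub n L
  · have h1 := nrComplexPlaces_of_mem n L h
    rw [h1, mul_zero, add_zero] at hrank
    have h2 : ∀ χ : charGroup n L,
        gammaFactor (χ : DirichletCharacter ℂ n).primitiveCharacter s = Gammaℝ s := by
      intro χ
      refine gammaFactor_prim_of_even ?_ s
      have h3 := mem_ann.mp χ.2 _ h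
      rwa [Units.val_neg, Units.val_one] at h3
    rw [Finset.prod_congr rfl fun χ _ => h2 χ, Finset.prod_const, Finset.card_univ, hcard, h1,
      pow_zero, mul_one, hrank]
  · have h1 := nrRealPlaces_of_notMem n L h
    rw [h1, zero_add] at hrank
    have h2 : ∃ χ ∈ charGroup n L, χ ((-1 : (ZMod n)ˣ) : ZMod n) ≠ 1 := by
      by_contra hcon
      push Not at hcon
      exact h (mem_of_ann hcon)
    obtain ⟨χ₀, hχ₀, hne⟩ := h2
    rw [Units.val_neg, Units.val_one] at hne
    have h3 : χ₀ (-1) = -1 := (one_or_neg_one χ₀).resolve_left hne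
    rw [prod_gammaFactor_of_odd (charGroup n L) (χ₀ := ⟨χ₀, hχ₀⟩) h3
      (r := InfinitePlace.nrComplexPlaces L) (by rw [hcard, hrank]) s, h1, pow_zero, one_mul]

variable [IsGalois ℚ L]

/-- **The conductor-discriminant formula**: the product of the conductors of the characters of an
abelian field is the absolute value of its discriminant. -/
theorem conductor_discriminant :
    ∏ χ : charGroup n L, (χ : DirichletCharacter ℂ n).conductor = (discr L).natAbs :=
  (cond_disc_of (isFieldOf n L) (gammaMatch n L)).1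

/-- **The product of the root numbers of an abelian field is `1`.** -/
theorem prod_rootNumber :
    ∏ χ : charGroup n L, rootNumber (χ : DirichletCharacter ℂ n).primitiveCharacter = 1 :=
  (cond_disc_of (isFieldOf n L) (gammaMatch n L)).2

/-- **The Dedekind zeta function of an abelian field**, in the whole plane. -/
theorem zetaK_abelian {s : ℂ} (hs : s ≠ 1) :
    zetaK L s = ∏ χ : charGroup n L,
      LFunction (χ : DirichletCharacter ℂ n).primitiveCharacter s :=
  zetaK_eq_prod (isFieldOf n L) hs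

/-- **The class number formula of an abelian field**:
`2^r₁ (2π)^r₂ h R / (w √|d|) = ∏_{χ ≠ 1} L(1, χ*)`. -/
theorem residue_abelian :
    (dedekindZeta_residue L : ℂ) =
      ∏ χ ∈ (Finset.univ : Finset (charGroup n L)).erase 1,
        LFunction (χ : DirichletCharacter ℂ n).primitiveCharacter 1 :=
  residue_eq_prod (isFieldOf n L)

end main

end Fermat.Agent.Cor
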