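import Fermat.Agent.Corollaries.ZetaK.LFun
import Fermat.Agent.Corollaries.ZetaK.EntireOrder

/-!
# Growth of the completed zeta functions

* `exists_bound_Λ₀`: the entire part of the Mellin transform of a weak FE pair is bounded on
  vertical strips.
* `exists_bound_XiC`: the completed zeta function of an ideal class is `O((1 + |s|)²)` on
  `-1 ≤ re s ≤ 2`.
* `hasGrowth_XiC`, `hasGrowth_XiF`: `‖Ξ s‖ ≤ exp (A (1 + ‖s‖)^{3/2})` on the whole plane.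
-/

set_option autoImplicit false

noncomputable section

namespace Fermat.Agent.Cor

open NumberField NumberField.InfinitePlace MeasureTheory Set Fermat.Agent.Classic.Zeta
open scoped nonZeroDivisors Classical

/-! ### Mellin transforms on vertical strips -/

theorem rpow_le_add {t a b σ : ℝ} (ht : 0 < t) (ha : a ≤ σ) (hb : σ ≤ b) :
    t ^ σ ≤ t ^ a + t ^ b := by
  rcases le_total 1 t with h | h
  · have h1 := Real.rpow_le_rpow_of_exponent_le h hb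
    have h2 := Real.rpow_nonneg ht.le a
    linarith
  · have h1 := Real.rpow_le_rpow_of_exponent_ge ht h ha
    have h2 := Real.rpow_nonneg ht.le b
    linarith

theorem exists_bound_mellin {f : ℝ → ℂ} {a b : ℝ} (ha : MellinConvergent f (a : ℂ))
    (hb : MellinConvergent f (b : ℂ)) :
    ∃ C : ℝ, ∀ s : ℂ, a ≤ s.re → s.re ≤ b → ‖mellin f s‖ ≤ C := by
  refine ⟨∫ t in Ioi (0 : ℝ), (‖(t : ℂ) ^ ((a : ℂ) - 1) • f t‖ +
    ‖(t : ℂ) ^ ((b : ℂ) - 1) • f t‖), fun s h1 h2 => ?_⟩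
  have hint : IntegrableOn (fun t : ℝ => ‖(t : ℂ) ^ ((a : ℂ) - 1) • f t‖ +
    ‖(t : ℂ) ^ ((b : ℂ) - 1) • f t‖) (Ioi 0) := ha.norm.add hb.norm
  unfold mellin
  refine norm_integral_le_of_norm_le hint ?_
  refine (ae_restrict_iff' measurableSet_Ioi).mpr (Filter.Eventually.of_forall fun t ht => ?_)
  have ht' : 0 < t := ht
  rw [norm_smul, norm_smul, norm_smul, Complex.norm_cpow_eq_rpow_re_of_pos ht',
    Complex.norm_cpow_eq_rpow_re_of_pos ht', Complex.norm_cpow_eq_rpow_re_of_pos ht', ← add_mul]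
  refine mul_le_mul_of_nonneg_right ?_ (norm_nonneg _)
  simp only [Complex.sub_re, Complex.ofReal_re, Complex.one_re]
  exact rpow_le_add ht' (by linarith) (by linarith)

/-- **Weak FE pairs on vertical strips.** -/
theorem exists_bound_Λ₀ (P : WeakFEPair ℂ) (a b : ℝ) :
    ∃ C : ℝ, ∀ s : ℂ, a ≤ s.re → s.re ≤ b → ‖P.Λ₀ s‖ ≤ C :=
  exists_bound_mellin (f := P.f_modif)
    (P.isStrongFEPair_toStrongFEPair.hasMellin (a : ℂ)).1
    (P.isStrongFEPair_toStrongFEPair.hasMellin (b : ℂ)).1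

theorem norm_ofReal_cpow_le {x : ℝ} (hx : 0 < x) {s : ℂ} {M : ℝ} (hs : |s.re| ≤ M) :
    ‖(x : ℂ) ^ s‖ ≤ Real.exp (|Real.log x| * M) := by
  rw [ofReal_cpow_eq_exp hx, Complex.norm_exp, Real.exp_le_exp]
  rw [Complex.re_ofReal_mul]
  calc Real.log x * s.re ≤ |Real.log x * s.re| := le_abs_self _
    _ = |Real.log x| * |s.re| := abs_mul _ _
    _ ≤ |Real.log x| * M := mul_le_mul_of_nonneg_left hs (abs_nonneg _)

/-- the completed function of a weak FE pair on the strip `-1 ≤ re s ≤ 2` -/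
theorem exists_bound_xiPair (P : WeakFEPair ℂ) {n D a : ℝ} (hn : 0 < n) (hD : 0 < D) (ha : 0 < a)
    (c : ℂ) : ∃ C : ℝ, 0 ≤ C ∧ ∀ s : ℂ, -1 ≤ s.re → s.re ≤ 2 →
      ‖xiPair P n D a c s‖ ≤ C * (1 + ‖s‖) ^ 2 := by
  obtain ⟨C₀, hC₀⟩ := exists_bound_Λ₀ P (n * (-1)) (n * 2)
  set C₁ : ℝ := max C₀ 0 with hC₁
  have hC₁0 : 0 ≤ C₁ := le_max_right _ _
  set E : ℝ := Real.exp (|Real.log D| * 1) * Real.exp (|Real.log a| * 2) with hE
  refine ⟨‖c⁻¹‖ * (E * (C₁ + ‖P.f₀ / n‖ + ‖P.ε * P.g₀ / n‖)), by positivity,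
    fun s h1 h2 => ?_⟩
  have hs0 := norm_nonneg s
  have hΛ : ‖P.Λ₀ (n * s)‖ ≤ C₁ := by
    refine (hC₀ _ ?_ ?_).trans (le_max_left _ _)
    · rw [Complex.re_ofReal_mul]
      exact mul_le_mul_of_nonneg_left h1 hn.le
    · rw [Complex.re_ofReal_mul]
      exact mul_le_mul_of_nonneg_left h2 hn.le
  have h1s : ‖1 - s‖ ≤ 1 + ‖s‖ := by
    refine (norm_sub_le _ _).trans ?_
    rw [norm_one]
  have h1s' : 1 + ‖s‖ ≤ (1 + ‖s‖) ^ 2 := by nlinarith
  have hxi : ‖xiOf P n s‖ ≤ (C₁ + ‖P.f₀ / n‖ + ‖P.ε * P.g₀ / n‖) * (1 + ‖s‖) ^ 2 := by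
    unfold xiOf
    have h3 : ‖s * (1 - s) * P.Λ₀ (n * s) - (1 - s) * (P.f₀ / n) - s * (P.ε * P.g₀ / n)‖ ≤
        ‖s * (1 - s) * P.Λ₀ (n * s)‖ + ‖(1 - s) * (P.f₀ / n)‖ + ‖s * (P.ε * P.g₀ / n)‖ :=
      (norm_sub_le _ _).trans (add_le_add (norm_sub_le _ _) le_rfl)
    refine h3.trans ?_
    rw [norm_mul, norm_mul, norm_mul, norm_mul, add_mul, add_mul]
    refine add_le_add (add_le_add ?_ ?_) ?_
    · calc ‖s‖ * ‖1 - s‖ * ‖P.Λ₀ (n * s)‖ ≤ (1 + ‖s‖) * (1 + ‖s‖) * C₁ := by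
            gcongr
            linarith
        _ = C₁ * (1 + ‖s‖) ^ 2 := by ring
    · calc ‖1 - s‖ * ‖P.f₀ / n‖ ≤ (1 + ‖s‖) ^ 2 * ‖P.f₀ / n‖ :=
            mul_le_mul_of_nonneg_right (h1s.trans h1s') (norm_nonneg _)
        _ = _ := by ring
    · calc ‖s‖ * ‖P.ε * P.g₀ / n‖ ≤ (1 + ‖s‖) ^ 2 * ‖P.ε * P.g₀ / n‖ :=
            mul_le_mul_of_nonneg_right (by linarith) (norm_nonneg _)
        _ = _ := by ring
  unfold xiPair
  rw [norm_mul, norm_mul, norm_mul]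
  have hDa : ‖(D : ℂ) ^ (s / 2)‖ * ‖(a : ℂ) ^ s‖ ≤ E := by
    have h3 : (s / 2).re = s.re / 2 := by
      rw [show (s / 2 : ℂ) = ((2⁻¹ : ℝ) : ℂ) * s by push_cast; ring, Complex.re_ofReal_mul]
      ring
    have h4 : ‖(D : ℂ) ^ (s / 2)‖ ≤ Real.exp (|Real.log D| * 1) := norm_ofReal_cpow_le hD (by
      rw [h3, abs_le]
      constructor <;> linarith)
    have h5 : ‖(a : ℂ) ^ s‖ ≤ Real.exp (|Real.log a| * 2) := norm_ofReal_cpow_le ha (by
      rw [abs_le]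
      constructor <;> linarith)
    exact mul_le_mul h4 h5 (norm_nonneg _) (Real.exp_nonneg _)
  calc ‖c⁻¹‖ * (‖(D : ℂ) ^ (s / 2)‖ * ‖(a : ℂ) ^ s‖ * ‖xiOf P n s‖)
      ≤ ‖c⁻¹‖ * (E * ((C₁ + ‖P.f₀ / n‖ + ‖P.ε * P.g₀ / n‖) * (1 + ‖s‖) ^ 2)) := by
        refine mul_le_mul_of_nonneg_left ?_ (norm_nonneg c⁻¹)
        exact mul_le_mul hDa hxi (norm_nonneg _) (by positivity)
    _ = _ := by ring

/-! ### The Gamma function -/

theorem norm_Gamma_le {s : ℂ} (hs : 0 < s.re) : ‖Complex.Gamma s‖ ≤ Real.Gamma s.re := by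
  rw [Complex.Gamma_eq_integral hs, Real.Gamma_eq_integral hs, Complex.GammaIntegral]
  refine (norm_integral_le_integral_norm _).trans (le_of_eq ?_)
  refine setIntegral_congr_fun measurableSet_Ioi fun x hx => ?_
  have hx' : 0 < x := hx
  simp only [norm_mul, Complex.norm_real, Real.norm_eq_abs, abs_of_pos (Real.exp_pos _),
    Complex.norm_cpow_eq_rpow_re_of_pos hx', Complex.sub_re, Complex.one_re]

theorem Gamma_le_exp {x : ℝ} (hx : 1 ≤ x) : Real.Gamma x ≤ Real.exp (2 * grw x) := by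
  have hx0 : 0 < x := by linarith
  have h1 : Real.Gamma x ≤ Real.Gamma (x + 1) := by
    rw [Real.Gamma_add_one hx0.ne']
    exact le_mul_of_one_le_left (Real.Gamma_pos_of_pos hx0).le hx
  have hceil : x ≤ (⌈x⌉₊ : ℝ) := Nat.le_ceil x
  have hceil' : (⌈x⌉₊ : ℝ) ≤ 1 + x := by
    have := Nat.ceil_lt_add_one hx0.le
    linarith
  have h2 : Real.Gamma (x + 1) ≤ Real.Gamma ((⌈x⌉₊ : ℝ) + 1) := by
    apply Real.Gamma_strictMonoOn_Ici.monotoneOn
    · simp only [mem_Ici]; linarith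
    · simp only [mem_Ici]; linarith
    · linarith
  rw [Real.Gamma_nat_eq_factorial] at h2
  have h3 : ((⌈x⌉₊).factorial : ℝ) ≤ (⌈x⌉₊ : ℝ) ^ ⌈x⌉₊ := by
    exact_mod_cast Nat.factorial_le_pow _
  have h4 : (⌈x⌉₊ : ℝ) ^ ⌈x⌉₊ ≤ (1 + x) ^ ⌈x⌉₊ := by gcongr
  have h5 : (1 + x) ^ ⌈x⌉₊ ≤ Real.exp (2 * grw x) := by
    have h6 : (1 + x) = Real.exp (Real.log (1 + x)) := (Real.exp_log (by linarith)).symm
    rw [show (1 + x) ^ ⌈x⌉₊ = Real.exp (Real.log (1 + x)) ^ ⌈x⌉₊ by rw [← h6],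
      ← Real.exp_nat_mul, Real.exp_le_exp]
    have h7 : Real.log (1 + x) ≤ 2 * √(1 + x) := by
      have h8 : 0 < √(1 + x) := Real.sqrt_pos.mpr (by linarith)
      have h9 := Real.log_le_sub_one_of_pos h8
      rw [Real.log_sqrt (by linarith)] at h9
      linarith
    have h10 : 0 ≤ Real.log (1 + x) := Real.log_nonneg (by linarith)
    calc (⌈x⌉₊ : ℝ) * Real.log (1 + x) ≤ (1 + x) * (2 * √(1 + x)) := by gcongr
      _ = 2 * grw x := by unfold grw; ring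
  exact h1.trans (h2.trans (h3.trans (h4.trans h5)))

theorem norm_Gammaℝ_le {s : ℂ} (hs : 2 ≤ s.re) :
    ‖Complex.Gammaℝ s‖ ≤ Real.exp (2 * grw ‖s‖) := by
  rw [Complex.Gammaℝ_def, norm_mul, Complex.norm_cpow_eq_rpow_re_of_pos Real.pi_pos]
  have h1 : (s / 2).re = s.re / 2 := by
    rw [show (s / 2 : ℂ) = ((2⁻¹ : ℝ) : ℂ) * s by push_cast; ring, Complex.re_ofReal_mul]
    ring
  have h2 : (-s / 2).re = -(s.re / 2) := by
    rw [show (-s / 2 : ℂ) = -(s / 2) by ring, Complex.neg_re, h1]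
  have h3 : Real.pi ^ (-s / 2).re ≤ 1 := by
    rw [h2]
    exact Real.rpow_le_one_of_one_le_of_nonpos (by linarith [Real.pi_gt_three]) (by linarith)
  have h4 : ‖Complex.Gamma (s / 2)‖ ≤ Real.exp (2 * grw ‖s‖) := by
    refine (norm_Gamma_le (by rw [h1]; linarith)).trans ?_
    rw [h1]
    refine (Gamma_le_exp (by linarith)).trans (Real.exp_le_exp.mpr ?_)
    have h5 : s.re ≤ ‖s‖ := Complex.re_le_norm s
    have := grw_mono (r := s.re / 2) (s := ‖s‖) (by linarith) (by linarith)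
    linarith
  calc Real.pi ^ (-s / 2).re * ‖Complex.Gamma (s / 2)‖ ≤ 1 * Real.exp (2 * grw ‖s‖) := by
        gcongr
    _ = _ := one_mul _

theorem norm_Gammaℂ_le {s : ℂ} (hs : 2 ≤ s.re) :
    ‖Complex.Gammaℂ s‖ ≤ Real.exp (2 * grw ‖s‖) := by
  have hpi := Real.pi_gt_three
  rw [Complex.Gammaℂ_def, norm_mul, norm_mul,
    show (2 * (Real.pi : ℂ)) = ((2 * Real.pi : ℝ) : ℂ) by push_cast; ring,
    Complex.norm_cpow_eq_rpow_re_of_pos (by positivity)]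
  have h3 : ‖(2 : ℂ)‖ * (2 * Real.pi) ^ (-s).re ≤ 1 := by
    rw [Complex.norm_ofNat, Complex.neg_re]
    have h4 : (2 * Real.pi) ^ (-s.re) ≤ (2 * Real.pi) ^ (-1 : ℝ) :=
      Real.rpow_le_rpow_of_exponent_le (by linarith) (by linarith)
    have h5 : (2 * Real.pi) ^ (-1 : ℝ) ≤ 1 / 2 := by
      rw [Real.rpow_neg_one, inv_eq_one_div]
      exact one_div_le_one_div_of_le (by norm_num) (by linarith)
    linarith
  have h4 : ‖Complex.Gamma s‖ ≤ Real.exp (2 * grw ‖s‖) := by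
    refine (norm_Gamma_le (by linarith)).trans ?_
    refine (Gamma_le_exp (by linarith)).trans (Real.exp_le_exp.mpr ?_)
    have h5 : s.re ≤ ‖s‖ := Complex.re_le_norm s
    have := grw_mono (r := s.re) (s := ‖s‖) (by linarith) (by linarith)
    linarith
  calc ‖(2 : ℂ)‖ * (2 * Real.pi) ^ (-s).re * ‖Complex.Gamma s‖ ≤ 1 * Real.exp (2 * grw ‖s‖) := by
        gcongr
    _ = _ := one_mul _

/-! ### The completed zeta functions of the classes -/

universe u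

variable {K : Type u} [Field K] [NumberField K]

theorem norm_gam_le {s : ℂ} (hs : 2 ≤ s.re) : ‖gam K s‖ ≤
    Real.exp (2 * (nrRealPlaces K + nrComplexPlaces K : ℝ) * grw ‖s‖) := by
  rw [gam, norm_mul, norm_pow, norm_pow]
  calc ‖Complex.Gammaℝ s‖ ^ nrRealPlaces K * ‖Complex.Gammaℂ s‖ ^ nrComplexPlaces K
      ≤ Real.exp (2 * grw ‖s‖) ^ nrRealPlaces K * Real.exp (2 * grw ‖s‖) ^ nrComplexPlaces K := by
        gcongr
        · exact norm_Gammaℝ_le hs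
        · exact norm_Gammaℂ_le hs
    _ = _ := by
        rw [← Real.exp_nat_mul, ← Real.exp_nat_mul, ← Real.exp_add]
        congr 1
        ring

theorem absNorm_pos (I : (Ideal (𝓞 K))⁰) : 0 < Ideal.absNorm (I : Ideal (𝓞 K)) :=
  Nat.pos_of_ne_zero (Ideal.absNorm_ne_zero_of_nonZeroDivisors I)

theorem norm_term_le (I : (Ideal (𝓞 K))⁰) {s : ℂ} (hs : 2 ≤ s.re) :
    ‖(Ideal.absNorm (I : Ideal (𝓞 K)) : ℂ) ^ (-s)‖ ≤
      ‖(Ideal.absNorm (I : Ideal (𝓞 K)) : ℂ) ^ (-(2 : ℂ))‖ := by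
  have hpos := absNorm_pos I
  rw [Complex.norm_natCast_cpow_of_pos hpos, Complex.norm_natCast_cpow_of_pos hpos]
  refine Real.rpow_le_rpow_of_exponent_le (by exact_mod_cast hpos) ?_
  rw [Complex.neg_re, Complex.neg_re, Complex.re_ofNat]
  linarith

/-- a bound for all classes on `2 ≤ re s` -/
theorem exists_bound_zcK (K : Type u) [Field K] [NumberField K] : ∃ Z : ℝ, 0 ≤ Z ∧
    ∀ (C : ClassGroup (𝓞 K)) (s : ℂ), 2 ≤ s.re → ‖zcK C s‖ ≤ Z := by
  have h2 : (1 : ℝ) < (2 : ℂ).re := by norm_num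
  have hsum := summable_norm_ideals (K := K) h2
  refine ⟨∑' I : (Ideal (𝓞 K))⁰, ‖(Ideal.absNorm (I : Ideal (𝓞 K)) : ℂ) ^ (-(2 : ℂ))‖,
    tsum_nonneg fun _ => norm_nonneg _, fun C s hs => ?_⟩
  have hs1 : 1 < s.re := by linarith
  have hsub : Summable fun I : {I : (Ideal (𝓞 K))⁰ // ClassGroup.mk0 I = C} =>
      ‖(Ideal.absNorm ((I : (Ideal (𝓞 K))⁰) : Ideal (𝓞 K)) : ℂ) ^ (-s)‖ :=
    (summable_norm_ideals (K := K) hs1).comp_injective Subtype.val_injective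
  have hsub2 : Summable fun I : {I : (Ideal (𝓞 K))⁰ // ClassGroup.mk0 I = C} =>
      ‖(Ideal.absNorm ((I : (Ideal (𝓞 K))⁰) : Ideal (𝓞 K)) : ℂ) ^ (-(2 : ℂ))‖ :=
    hsum.comp_injective Subtype.val_injective
  unfold zcK
  refine (norm_tsum_le_tsum_norm hsub).trans ?_
  have h3 : ∀ I : {I : (Ideal (𝓞 K))⁰ // ClassGroup.mk0 I = C},
      ‖(Ideal.absNorm ((I : (Ideal (𝓞 K))⁰) : Ideal (𝓞 K)) : ℂ) ^ (-s)‖ ≤
        ‖(Ideal.absNorm ((I : (Ideal (𝓞 K))⁰) : Ideal (𝓞 K)) : ℂ) ^ (-(2 : ℂ))‖ :=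
    fun I => norm_term_le I.1 hs
  refine (Summable.tsum_le_tsum h3 hsub hsub2).trans ?_
  exact Summable.tsum_subtype_le
    (fun I : (Ideal (𝓞 K))⁰ => ‖(Ideal.absNorm (I : Ideal (𝓞 K)) : ℂ) ^ (-(2 : ℂ))‖)
    {I : (Ideal (𝓞 K))⁰ | ClassGroup.mk0 I = C} (fun _ => norm_nonneg _) hsum

/-- `XiC` as the completed function of a weak FE pair -/
theorem exists_pair (C : ClassGroup (𝓞 K)) : ∃ (P : WeakFEPair ℂ) (n D a : ℝ) (c : ℂ), 0 < n ∧
    0 < D ∧ 0 < a ∧ XiC K C = xiPair P n D a c := by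
  have hΘ := thetaStmt K
  have hT := torusStmt hΘ
  have hD := decayStmt K
  obtain ⟨c, hc, hM⟩ := mellinStmt_of' hT hD (gammaStmt K)
  have hC := classStmt K
  obtain ⟨β, hβ⟩ := hT.1
  obtain ⟨r, hr⟩ := exists_mk_eq C⁻¹
  have hn := finrank_pos' K
  have hd := disc_pos K
  have hc' : (c : ℂ) ≠ 0 := by exact_mod_cast hc.ne'
  have ha : 0 < nF (r : FractionalIdeal (𝓞 K)⁰ K) := nF_pos r.ne_zero
  refine ⟨fe hβ hT hD r, Module.finrank ℚ K, |(discr K : ℝ)|,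
    nF (r : FractionalIdeal (𝓞 K)⁰ K), c, hn, hd, ha, ?_⟩
  have h1 : ∀ s : ℂ, 1 < s.re → xiPair (fe hβ hT hD r) (Module.finrank ℚ K) |(discr K : ℝ)|
      (nF (r : FractionalIdeal (𝓞 K)⁰ K)) c s =
      s * (1 - s) * (((|(discr K : ℝ)| : ℝ) : ℂ) ^ (s / 2) * gam K s * zcK C s) := by
    intro s hs
    refine xiPair_eq hn ha hc' rfl hs ?_
    rw [fe_Λ hβ hT hD hM hC _ s hs, hr, inv_inv]
  have hev : XiC K C =ᶠ[nhds (2 : ℂ)] xiPair (fe hβ hT hD r) (Module.finrank ℚ K)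
      |(discr K : ℝ)| (nF (r : FractionalIdeal (𝓞 K)⁰ K)) c := by
    have hU : {s : ℂ | 1 < s.re} ∈ nhds (2 : ℂ) :=
      (isOpen_lt continuous_const Complex.continuous_re).mem_nhds (by norm_num)
    filter_upwards [hU] with s hs
    rw [h1 s hs, XiC_eq C hs]
  exact AnalyticOnNhd.eq_of_eventuallyEq (𝕜 := ℂ) (z₀ := 2)
    ((differentiable_XiC C).differentiableOn.analyticOnNhd isOpen_univ)
    ((differentiable_xiPair hd ha).differentiableOn.analyticOnNhd isOpen_univ) hev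

/-- **Bound in the strip** `-1 ≤ re s ≤ 2`. -/
theorem exists_bound_XiC (C : ClassGroup (𝓞 K)) : ∃ B : ℝ, 0 ≤ B ∧
    ∀ s : ℂ, -1 ≤ s.re → s.re ≤ 2 → ‖XiC K C s‖ ≤ B * (1 + ‖s‖) ^ 2 := by
  obtain ⟨P, n, D, a, c, hn, hD, ha, h⟩ := exists_pair C
  rw [h]
  exact exists_bound_xiPair P hn hD ha c

theorem one_add_sq_le_exp {r : ℝ} (hr : 0 ≤ r) : (1 + r) ^ 2 ≤ Real.exp (2 * grw r) := by
  have h1 : 1 + r ≤ Real.exp (grw r) := by
    have h2 := Real.add_one_le_exp (grw r)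
    have h3 := le_grw hr
    linarith
  calc (1 + r) ^ 2 ≤ Real.exp (grw r) ^ 2 := by gcongr
    _ = Real.exp (2 * grw r) := by rw [← Real.exp_nat_mul]; norm_num

/-- the growth on `2 ≤ re s`, uniformly in the class -/
theorem exists_bound_XiC_right (K : Type u) [Field K] [NumberField K] : ∃ Z A : ℝ, 0 ≤ Z ∧ 0 ≤ A ∧
    ∀ (C : ClassGroup (𝓞 K)) (s : ℂ), 2 ≤ s.re → ‖XiC K C s‖ ≤ Z * Real.exp (A * grw ‖s‖) := by
  obtain ⟨Z, hZ0, hZ⟩ := exists_bound_zcK K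
  set L : ℝ := |Real.log (|(discr K : ℝ)|)| with hL
  set g : ℝ := 2 * (nrRealPlaces K + nrComplexPlaces K : ℝ) with hg
  have hL0 : 0 ≤ L := abs_nonneg _
  have hg0 : 0 ≤ g := by positivity
  refine ⟨Z, 2 + L + g, hZ0, by positivity, fun C s hs => ?_⟩
  have hs0 := norm_nonneg s
  have hgr := le_grw hs0
  have hre : s.re ≤ ‖s‖ := Complex.re_le_norm s
  rw [XiC_eq C (by linarith), norm_mul, norm_mul, norm_mul, norm_mul]
  have h1 : ‖s‖ * ‖1 - s‖ ≤ Real.exp (2 * grw ‖s‖) := by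
    have h2 : ‖1 - s‖ ≤ 1 + ‖s‖ := by
      refine (norm_sub_le _ _).trans ?_
      rw [norm_one]
    calc ‖s‖ * ‖1 - s‖ ≤ (1 + ‖s‖) * (1 + ‖s‖) := by
          gcongr
          linarith
      _ = (1 + ‖s‖) ^ 2 := by ring
      _ ≤ _ := one_add_sq_le_exp hs0
  have h2 : ‖((|(discr K : ℝ)| : ℝ) : ℂ) ^ (s / 2)‖ ≤ Real.exp (L * grw ‖s‖) := by
    refine norm_ofReal_cpow_le (disc_pos K) ?_
    have h3 : (s / 2).re = s.re / 2 := by
      rw [show (s / 2 : ℂ) = ((2⁻¹ : ℝ) : ℂ) * s by push_cast; ring, Complex.re_ofReal_mul]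
      ring
    rw [h3, abs_le]
    constructor <;> linarith
  have h3 : ‖gam K s‖ ≤ Real.exp (g * grw ‖s‖) := norm_gam_le hs
  have h4 := hZ C s hs
  calc ‖s‖ * ‖1 - s‖ * (‖((|(discr K : ℝ)| : ℝ) : ℂ) ^ (s / 2)‖ * ‖gam K s‖ * ‖zcK C s‖)
      ≤ Real.exp (2 * grw ‖s‖) * (Real.exp (L * grw ‖s‖) * Real.exp (g * grw ‖s‖) * Z) := by
        gcongr
    _ = Z * (Real.exp (2 * grw ‖s‖) * Real.exp (L * grw ‖s‖) * Real.exp (g * grw ‖s‖)) := by ring
    _ = Z * Real.exp ((2 + L + g) * grw ‖s‖) := by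
        rw [← Real.exp_add, ← Real.exp_add]
        congr 2
        ring

theorem grw_one_add_le {r : ℝ} (hr : 0 ≤ r) : grw (1 + r) ≤ 4 * grw r := by
  unfold grw
  have h1 : √(1 + (1 + r)) ≤ 2 * √(1 + r) := by
    rw [Real.sqrt_le_left (by positivity), mul_pow, Real.sq_sqrt (by linarith)]
    linarith
  calc (1 + (1 + r)) * √(1 + (1 + r)) ≤ (2 * (1 + r)) * (2 * √(1 + r)) := by
        gcongr
        linarith
    _ = _ := by ring

/-- **Order less than two**: the completed zeta function of an ideal class. -/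
theorem hasGrowth_XiC (C : ClassGroup (𝓞 K)) : HasGrowth (XiC K C) := by
  obtain ⟨B, hB0, hB⟩ := exists_bound_XiC C
  obtain ⟨Z, A, hZ0, hA0, hZ⟩ := exists_bound_XiC_right K
  refine hasGrowth_of_le (C := B + Z) (A := 2 + 4 * A) fun s => ?_
  have hs0 := norm_nonneg s
  have hg1 := one_le_grw hs0
  have hg0 : 0 ≤ grw ‖s‖ := by linarith
  have hup : ∀ {M A' : ℝ}, 0 ≤ M → M ≤ B + Z → A' ≤ 2 + 4 * A →
      M * Real.exp (A' * grw ‖s‖) ≤ (B + Z) * Real.exp ((2 + 4 * A) * grw ‖s‖) := by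
    intro M A' hM hM' hA'
    refine mul_le_mul hM' (Real.exp_le_exp.mpr ?_) (Real.exp_nonneg _) (by linarith)
    exact mul_le_mul_of_nonneg_right hA' hg0
  rcases le_or_gt 2 s.re with h1 | h1
  · exact (hZ C s h1).trans (hup hZ0 (by linarith) (by linarith))
  rcases le_or_gt (-1) s.re with h2 | h2
  · refine (hB s h2 h1.le).trans ?_
    refine le_trans ?_ (hup hB0 (by linarith) (by linarith : (2 : ℝ) ≤ 2 + 4 * A))
    exact mul_le_mul_of_nonneg_left (one_add_sq_le_exp hs0) hB0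
  · have h3 : 2 ≤ (1 - s).re := by
      rw [Complex.sub_re, Complex.one_re]
      linarith
    have h4 : XiC K C s = XiC K (diffClass K * C⁻¹) (1 - s) := by
      rw [← XiC_one_sub, sub_sub_cancel]
    rw [h4]
    refine (hZ _ _ h3).trans ?_
    refine le_trans ?_ (hup hZ0 (by linarith) (by linarith : 4 * A ≤ 2 + 4 * A))
    refine mul_le_mul_of_nonneg_left (Real.exp_le_exp.mpr ?_) hZ0
    have h5 : ‖1 - s‖ ≤ 1 + ‖s‖ := by
      refine (norm_sub_le _ _).trans ?_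
      rw [norm_one]
    have h6 := (grw_mono (norm_nonneg _) h5).trans (grw_one_add_le hs0)
    calc A * grw ‖1 - s‖ ≤ A * (4 * grw ‖s‖) := mul_le_mul_of_nonneg_left h6 hA0
      _ = 4 * A * grw ‖s‖ := by ring

theorem hasGrowth_const (c : ℂ) : HasGrowth fun _ => c := by
  refine hasGrowth_of_le (C := ‖c‖) (A := 0) fun z => ?_
  rw [zero_mul, Real.exp_zero, mul_one]

theorem hasGrowth_sum {ι : Type*} (S : Finset ι) {F : ι → ℂ → ℂ} (h : ∀ i ∈ S, HasGrowth (F i)) :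
    HasGrowth fun z => ∑ i ∈ S, F i z := by
  classical
  induction S using Finset.induction_on with
  | empty =>
    simp only [Finset.sum_empty]
    exact hasGrowth_const 0
  | insert a S ha ih =>
    simp only [Finset.sum_insert ha]
    exact (h a (Finset.mem_insert_self a S)).add
      (ih fun i hi => h i (Finset.mem_insert_of_mem hi))

/-- **Order less than two**: the completed L-function of a class function. -/
theorem hasGrowth_XiF (f : ClassGroup (𝓞 K) → ℂ) : HasGrowth (XiF f) :=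
  hasGrowth_sum Finset.univ fun C _ => (hasGrowth_const (f C)).mul (hasGrowth_XiC C)

end Fermat.Agent.Cor

end
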