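import Fermat.Agent.Corollaries.ZetaK.LFun

/-!
# The L-functions of the characters of the class group

`χ : ClassGroup (𝓞 K) →* ℂˣ`, `χ ≠ 1`: `LK χ` is entire (`entire_LK`), the completed
function `LamK χ` is entire, `LamK χ (1 - s) = χ (diffClass K) * LamK χ⁻¹ s` (`LamK_one_sub`) and
`LK χ s = |d|^(-s/2) (gam K s)⁻¹ LamK χ s` for all `s` (`LK_eq`).
-/

set_option autoImplicit false

noncomputable section

namespace Fermat.Agent.Cor

open NumberField NumberField.InfinitePlace Fermat.Agent.Classic.Zeta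
open scoped nonZeroDivisors Topology

universe u

variable {K : Type u} [Field K] [NumberField K]

/-- The values of a character as a class function. -/
def cf (χ : ClassGroup (𝓞 K) →* ℂˣ) (C : ClassGroup (𝓞 K)) : ℂ := ((χ C : ℂˣ) : ℂ)

theorem LK_eq_LF (χ : ClassGroup (𝓞 K) →* ℂˣ) : LK χ = LF (cf χ) := rfl

theorem cf_inv (χ : ClassGroup (𝓞 K) →* ℂˣ) (C : ClassGroup (𝓞 K)) :
    cf χ⁻¹ C = cf χ C⁻¹ := by
  rw [cf, cf, MonoidHom.inv_apply, map_inv]

theorem cf_mul (χ : ClassGroup (𝓞 K) →* ℂˣ) (C C' : ClassGroup (𝓞 K)) :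
    cf χ (C * C') = cf χ C * cf χ C' := by
  rw [cf, cf, cf, map_mul, Units.val_mul]

theorem cf_ne_zero (χ : ClassGroup (𝓞 K) →* ℂˣ) (C : ClassGroup (𝓞 K)) : cf χ C ≠ 0 :=
  (χ C).ne_zero

/-- The sum of the values of a non-trivial character is zero. -/
theorem sum_cf_eq_zero {χ : ClassGroup (𝓞 K) →* ℂˣ} (hχ : χ ≠ 1) : ∑ C, cf χ C = 0 := by
  obtain ⟨C₀, hC₀⟩ : ∃ C, χ C ≠ 1 := by
    by_contra h
    push Not at h
    exact hχ (MonoidHom.ext h)
  have h1 : ∑ C, cf χ C = cf χ C₀ * ∑ C, cf χ C := by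
    rw [Finset.mul_sum, ← Equiv.sum_comp (Equiv.mulLeft C₀)]
    exact Finset.sum_congr rfl fun C _ => by rw [Equiv.coe_mulLeft, cf_mul]
  have h2 : (1 - cf χ C₀) * ∑ C, cf χ C = 0 := by
    rw [sub_mul, one_mul, ← h1, sub_self]
  refine (mul_eq_zero.mp h2).resolve_left fun h3 => hC₀ ?_
  rw [sub_eq_zero] at h3
  exact Units.ext h3.symm

/-- **The L-function of a non-trivial character of the class group is entire.** -/
theorem entire_LK {χ : ClassGroup (𝓞 K) →* ℂˣ} (hχ : χ ≠ 1) :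
    Differentiable ℂ (LK χ) :=
  differentiable_LF (sum_cf_eq_zero hχ)

theorem XiF_zero_of_sum {f : ClassGroup (𝓞 K) → ℂ} (hf : ∑ C, f C = 0) : XiF f 0 = 0 := by
  rw [XiF_zero f 1, hf, zero_mul]

theorem XiF_one_of_sum {f : ClassGroup (𝓞 K) → ℂ} (hf : ∑ C, f C = 0) : XiF f 1 = 0 := by
  rw [XiF_one f 1, hf, zero_mul]

theorem inv_ne_one {χ : ClassGroup (𝓞 K) →* ℂˣ} (hχ : χ ≠ 1) : χ⁻¹ ≠ 1 := by
  intro h
  refine hχ (MonoidHom.ext fun C => ?_)
  have h1 := DFunLike.congr_fun h C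
  rw [MonoidHom.inv_apply, MonoidHom.one_apply] at h1
  rw [MonoidHom.one_apply, ← inv_inv (χ C), h1, _root_.inv_one]

/-- The completed L-function. -/
def LamK (χ : ClassGroup (𝓞 K) →* ℂˣ) (s : ℂ) : ℂ :=
  -dslope (dslope (XiF (cf χ)) 0) 1 s

/-- The completed L-function is entire. -/
theorem differentiable_LamK (χ : ClassGroup (𝓞 K) →* ℂˣ) : Differentiable ℂ (LamK χ) :=
  (differentiable_dslope (differentiable_dslope (differentiable_XiF _) 0) 1).neg

theorem XiF_eq_LamK {χ : ClassGroup (𝓞 K) →* ℂˣ} (hχ : χ ≠ 1) (s : ℂ) :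
    XiF (cf χ) s = s * (1 - s) * LamK χ s := by
  have h0 := XiF_zero_of_sum (sum_cf_eq_zero hχ)
  have h1 := XiF_one_of_sum (sum_cf_eq_zero hχ)
  have e1 : s * dslope (XiF (cf χ)) 0 s = XiF (cf χ) s := by
    have := sub_smul_dslope (XiF (cf χ)) 0 s
    rwa [smul_eq_mul, sub_zero, h0, sub_zero] at this
  have e2 : dslope (XiF (cf χ)) 0 1 = 0 := by
    rw [dslope_of_ne _ one_ne_zero, slope_def_field, h0, h1, sub_zero, zero_div]
  have e3 : (s - 1) * dslope (dslope (XiF (cf χ)) 0) 1 s = dslope (XiF (cf χ)) 0 s := by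
    have := sub_smul_dslope (dslope (XiF (cf χ)) 0) 1 s
    rwa [smul_eq_mul, e2, sub_zero] at this
  rw [LamK, ← e1, ← e3]
  ring

/-- Two continuous functions which agree outside `0` and `1` are equal. -/
theorem eq_of_eqOn_compl {f g : ℂ → ℂ} (hf : Continuous f) (hg : Continuous g)
    (h : ∀ s, s ≠ 0 → s ≠ 1 → f s = g s) : f = g := by
  have h1 : Dense ({0, 1}ᶜ : Set ℂ) := (Set.toFinite ({0, 1} : Set ℂ)).countable.dense_compl ℂ
  refine Continuous.ext_on h1 hf hg fun s hs => ?_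
  rw [Set.mem_compl_iff, Set.mem_insert_iff, Set.mem_singleton_iff, not_or] at hs
  exact h s hs.1 hs.2

/-- **The functional equation of the L-function of a character of the class group.** -/
theorem LamK_one_sub {χ : ClassGroup (𝓞 K) →* ℂˣ} (hχ : χ ≠ 1) (s : ℂ) :
    LamK χ (1 - s) = cf χ (diffClass K) * LamK χ⁻¹ s := by
  have hχ' : χ⁻¹ ≠ 1 := inv_ne_one hχ
  have h1 : (fun s => LamK χ (1 - s)) = fun s => cf χ (diffClass K) * LamK χ⁻¹ s := by
    refine eq_of_eqOn_compl ((differentiable_LamK χ).continuous.comp (by fun_prop))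
      (continuous_const.mul (differentiable_LamK χ⁻¹).continuous) fun s h0 h1 => ?_
    have e1 := XiF_one_sub (cf χ) s
    have e2 : (fun C => cf χ (diffClass K * C⁻¹)) = fun C => cf χ (diffClass K) * cf χ⁻¹ C := by
      funext C
      rw [cf_mul, cf_inv]
    have e3 : XiF (fun C => cf χ (diffClass K) * cf χ⁻¹ C) s =
        cf χ (diffClass K) * XiF (cf χ⁻¹) s := by
      rw [XiF, XiF, Finset.mul_sum]
      exact Finset.sum_congr rfl fun C _ => by ring
    rw [e2, e3, XiF_eq_LamK hχ, XiF_eq_LamK hχ'] at e1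
    have h2 : s * (1 - s) ≠ 0 := mul_ne_zero h0 (sub_ne_zero.mpr (Ne.symm h1))
    refine mul_left_cancel₀ h2 ?_
    linear_combination e1
  exact congrFun h1 s

/-- The L-function in terms of the completed L-function, for all `s`. -/
theorem LK_eq {χ : ClassGroup (𝓞 K) →* ℂˣ} (hχ : χ ≠ 1) (s : ℂ) :
    LK χ s = ((|(discr K : ℝ)| : ℝ) : ℂ) ^ (-s / 2) * (gam K s)⁻¹ * LamK χ s := by
  have h1 : LK χ = fun s => ((|(discr K : ℝ)| : ℝ) : ℂ) ^ (-s / 2) * (gam K s)⁻¹ * LamK χ s := by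
    refine eq_of_eqOn_compl (entire_LK hχ).continuous
      ((differentiable_absDisc_cpow.mul differentiable_gi).mul
        (differentiable_LamK χ)).continuous fun s h0 h1 => ?_
    rw [LK_eq_LF, LF_eq_div _ h0 h1, XiF_eq_LamK hχ]
    have h2 : s * (1 - s) ≠ 0 := mul_ne_zero h0 (sub_ne_zero.mpr (Ne.symm h1))
    rw [mul_assoc (s * (1 - s)) _ (gam K s), mul_div_mul_left _ _ h2, absDisc_cpow_neg,
      div_eq_mul_inv, mul_inv]
    ring
  exact congrFun h1 s

/-- The completed L-function in terms of the L-function, where the Gamma factor has no pole. -/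
theorem LamK_eq {χ : ClassGroup (𝓞 K) →* ℂˣ} (hχ : χ ≠ 1) {s : ℂ} (hs : gam K s ≠ 0) :
    LamK χ s = ((|(discr K : ℝ)| : ℝ) : ℂ) ^ (s / 2) * gam K s * LK χ s := by
  have h1 : ((|(discr K : ℝ)| : ℝ) : ℂ) ^ (s / 2) ≠ 0 := absDisc_cpow_ne_zero _
  rw [LK_eq hχ, absDisc_cpow_neg]
  field_simp

end Fermat.Agent.Cor
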