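import Mathlib

/-!
# Values of Dirichlet `L`-functions at the negative integers

* `LFunction_neg_nat` : `L(-k, χ) = -N^k/(k+1) ∑_a χ(a) B_{k+1}(a/N)` for `k ≥ 1`
  (generalized Bernoulli numbers);
* `map_Lval`, `map_Pval` : these values commute with field automorphisms;
* `prod_LFunction_rational` : the product of `L(-k, χ*)` over the characters mod `n` which are
  trivial on a given subgroup of `(ℤ/n)ˣ` is a rational number (Siegel, Klingen).
-/

set_option autoImplicit false
set_option linter.unusedSectionVars false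

noncomputable section

open DirichletCharacter Complex

namespace Fermat.Agent.Cor.Klingen

/-! ### The values -/

/-- `- N^k / (k+1) · B_{k+1}(j/N)` -/
def bk (N k : ℕ) (j : ZMod N) : ℚ :=
  (N : ℚ) ^ k * (-1 / (k + 1)) * (Polynomial.bernoulli (k + 1)).eval ((j.val : ℚ) / N)

theorem LFunction_neg_nat_aux {N : ℕ} [NeZero N] (Φ : ZMod N → ℂ) {k : ℕ} (hk : k ≠ 0) :
    ZMod.LFunction Φ (-(k : ℂ)) = ∑ j : ZMod N, Φ j * ((bk N k j : ℚ) : ℂ) := by
  rw [ZMod.LFunction, neg_neg, cpow_natCast, Finset.mul_sum]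
  refine Finset.sum_congr rfl fun j _ => ?_
  have hmem : ((j.val : ℝ) / N) ∈ Set.Icc (0 : ℝ) 1 := Set.mem_Icc.mpr ⟨by positivity,
    (div_le_one (Nat.cast_pos.mpr <| NeZero.pos _)).mpr <| Nat.cast_le.mpr (ZMod.val_lt j).le⟩
  rw [ZMod.toAddCircle_apply, HurwitzZeta.hurwitzZeta_neg_nat hk hmem, bk]
  have h : ((Polynomial.bernoulli (k + 1)).map (algebraMap ℚ ℂ)).eval
      (((j.val : ℝ) / N : ℝ) : ℂ) =
      (((Polynomial.bernoulli (k + 1)).eval ((j.val : ℚ) / N) : ℚ) : ℂ) := by
    have h1 : ((((j.val : ℝ) / N : ℝ)) : ℂ) = algebraMap ℚ ℂ ((j.val : ℚ) / N) := by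
      rw [eq_ratCast]
      push_cast
      rfl
    rw [h1, Polynomial.eval_map, Polynomial.eval₂_at_apply, eq_ratCast]
  rw [h]
  push_cast
  ring

section field

variable {N : ℕ} [NeZero N] {E E' : Type*} [Field E] [CharZero E] [Field E'] [CharZero E']

/-- The value at `-k`, with values in any field of characteristic zero. -/
def Lval (χ : DirichletCharacter E N) (k : ℕ) : E := ∑ j : ZMod N, χ j * ((bk N k j : ℚ) : E)

/-- **The generalized Bernoulli numbers**: `L(-k, χ) = -N^k/(k+1) ∑_a χ(a) B_{k+1}(a/N)`. -/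
theorem LFunction_neg_nat (χ : DirichletCharacter ℂ N) {k : ℕ} (hk : k ≠ 0) :
    LFunction χ (-(k : ℂ)) = Lval χ k :=
  LFunction_neg_nat_aux _ hk

theorem map_Lval (f : E →+* E') (χ : DirichletCharacter E N) (k : ℕ) :
    f (Lval χ k) = Lval (MulChar.ringHomComp χ f) k := by
  simp only [Lval, map_sum, map_mul, map_ratCast, MulChar.ringHomComp_apply]

theorem changeLevel_ringHomComp {N n : ℕ} [NeZero n] (h : N ∣ n) (f : E →+* E')
    (χ : DirichletCharacter E N) :
    MulChar.ringHomComp (changeLevel h χ) f = changeLevel h (MulChar.ringHomComp χ f) := by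
  have hN : NeZero N := ⟨fun h0 => NeZero.ne n (by simpa [h0] using h)⟩
  ext a
  rw [MulChar.ringHomComp_apply, changeLevel_eq_cast_of_dvd, changeLevel_eq_cast_of_dvd,
    MulChar.ringHomComp_apply]

theorem conductor_ringHomComp {n : ℕ} [NeZero n] (f : E →+* E') (χ : DirichletCharacter E n) :
    conductor (MulChar.ringHomComp χ f) = conductor χ := by
  have h : conductorSet (MulChar.ringHomComp χ f) = conductorSet χ := by
    ext d
    rw [mem_conductorSet_iff, mem_conductorSet_iff]
    constructor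
    · intro h
      have hd := h.dvd
      rw [factorsThrough_iff_ker_unitsMap hd] at h ⊢
      intro u hu
      have h1 := h hu
      rw [MonoidHom.mem_ker, Units.ext_iff, MulChar.coe_toUnitHom, MulChar.ringHomComp_apply,
        Units.val_one] at h1
      rw [MonoidHom.mem_ker, Units.ext_iff, MulChar.coe_toUnitHom, Units.val_one]
      exact f.injective (by rw [h1, map_one])
    · intro h
      have hd := h.dvd
      rw [factorsThrough_iff_ker_unitsMap hd] at h ⊢
      intro u hu
      have h1 := h hu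
      rw [MonoidHom.mem_ker, Units.ext_iff, MulChar.coe_toUnitHom, Units.val_one] at h1
      rw [MonoidHom.mem_ker, Units.ext_iff, MulChar.coe_toUnitHom, MulChar.ringHomComp_apply,
        Units.val_one, h1, map_one]
  rw [DirichletCharacter.conductor, DirichletCharacter.conductor, h]

theorem Lval_eq_of_changeLevel {n N₁ N₂ : ℕ} [NeZero n] [NeZero N₁] [NeZero N₂] (h₁ : N₁ ∣ n)
    (h₂ : N₂ ∣ n) (hN : N₁ = N₂) (χ₁ : DirichletCharacter E N₁) (χ₂ : DirichletCharacter E N₂)
    (h : changeLevel h₁ χ₁ = changeLevel h₂ χ₂) (k : ℕ) : Lval χ₁ k = Lval χ₂ k := by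
  subst hN
  rw [changeLevel_injective h₁ h]

instance neZero_conductor {n : ℕ} [NeZero n] (χ : DirichletCharacter E n) :
    NeZero (conductor χ) := ⟨χ.conductor_ne_zero⟩

/-- The value at `-k` of the primitive character of `χ`. -/
def Pval {n : ℕ} [NeZero n] (χ : DirichletCharacter E n) (k : ℕ) : E :=
  Lval χ.primitiveCharacter k

theorem map_Pval {n : ℕ} [NeZero n] (f : E →+* E') (χ : DirichletCharacter E n) (k : ℕ) :
    f (Pval χ k) = Pval (MulChar.ringHomComp χ f) k := by
  rw [Pval, map_Lval, Pval]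
  refine Lval_eq_of_changeLevel (conductor_dvd_level χ)
    (conductor_dvd_level (MulChar.ringHomComp χ f)) (conductor_ringHomComp f χ).symm _ _ ?_ k
  rw [← changeLevel_ringHomComp, changeLevel_primitiveCharacter, changeLevel_primitiveCharacter]

end field

/-! ### The field of values -/

section galois

open Polynomial

variable {n : ℕ} [NeZero n]

variable (n) in
/-- The field generated by the roots of unity of order `#(ℤ/n)ˣ`: it contains the values of all
Dirichlet characters mod `n`. -/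
def VF : IntermediateField ℚ ℂ :=
  IntermediateField.adjoin ℚ ((X ^ Nat.card (ZMod n)ˣ - 1 : ℚ[X]).rootSet ℂ)

instance isSplittingField_VF : IsSplittingField ℚ (VF n) (X ^ Nat.card (ZMod n)ˣ - 1 : ℚ[X]) :=
  IntermediateField.adjoin_rootSet_isSplittingField (IsAlgClosed.splits _)

instance finiteDimensional_VF : FiniteDimensional ℚ (VF n) :=
  IsSplittingField.finiteDimensional (VF n) (X ^ Nat.card (ZMod n)ˣ - 1 : ℚ[X])

instance isGalois_VF : IsGalois ℚ (VF n) := by
  have h : (X ^ Nat.card (ZMod n)ˣ - 1 : ℚ[X]).Separable := by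
    have := separable_X_pow_sub_C (n := Nat.card (ZMod n)ˣ) (1 : ℚ)
      (by exact_mod_cast Nat.card_pos.ne') one_ne_zero
    rwa [C_1] at this
  exact IsGalois.of_separable_splitting_field h

theorem apply_mem_VF (χ : DirichletCharacter ℂ n) (a : ZMod n) : χ a ∈ VF n := by
  by_cases ha : IsUnit a
  · obtain ⟨u, rfl⟩ := ha
    refine IntermediateField.subset_adjoin ℚ _ ?_
    have h1 : χ (u : ZMod n) ^ Nat.card (ZMod n)ˣ = 1 := by
      rw [← map_pow, ← Units.val_pow_eq_pow_val, pow_card_eq_one', Units.val_one, map_one]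
    have h0 : (X ^ Nat.card (ZMod n)ˣ - 1 : ℚ[X]) ≠ 0 := by
      have := X_pow_sub_C_ne_zero (R := ℚ) (n := Nat.card (ZMod n)ˣ) Nat.card_pos 1
      rwa [C_1] at this
    rw [mem_rootSet_of_ne h0, map_sub, map_pow, aeval_X, map_one, h1, sub_self]
  · rw [MulChar.map_nonunit χ ha]
    exact zero_mem _

/-- The character with values in `VF n`. -/
def lift (χ : DirichletCharacter ℂ n) : DirichletCharacter (VF n) n where
  toFun a := ⟨χ a, apply_mem_VF χ a⟩
  map_one' := Subtype.ext (by simp)
  map_mul' a b := Subtype.ext (by simp)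
  map_nonunit' a ha := Subtype.ext (by simpa using MulChar.map_nonunit χ ha)

theorem lift_apply (χ : DirichletCharacter ℂ n) (a : ZMod n) : ((lift χ a : VF n) : ℂ) = χ a := rfl

theorem ringHomComp_lift (χ : DirichletCharacter ℂ n) :
    MulChar.ringHomComp (lift χ) (algebraMap (VF n) ℂ) = χ := by
  ext a
  rw [MulChar.ringHomComp_apply]
  rfl

/-- The action of the Galois group of `VF n` on the characters. -/
def gal (f : VF n ≃ₐ[ℚ] VF n) (χ : DirichletCharacter ℂ n) : DirichletCharacter ℂ n :=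
  MulChar.ringHomComp (lift χ) ((algebraMap (VF n) ℂ).comp (f : VF n →+* VF n))

theorem gal_apply (f : VF n ≃ₐ[ℚ] VF n) (χ : DirichletCharacter ℂ n) (a : ZMod n) :
    gal f χ a = (f (lift χ a) : ℂ) := rfl

theorem lift_gal (f : VF n ≃ₐ[ℚ] VF n) (χ : DirichletCharacter ℂ n) :
    lift (gal f χ) = MulChar.ringHomComp (lift χ) (f : VF n →+* VF n) := by
  refine MulChar.ext fun a => ?_
  rw [MulChar.ringHomComp_apply]
  exact Subtype.ext (gal_apply f χ a)

theorem gal_injective (f : VF n ≃ₐ[ℚ] VF n) : Function.Injective (gal f) := by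
  intro χ ψ h
  have h1 : lift χ = lift ψ :=
    MulChar.injective_ringHomComp (((algebraMap (VF n) ℂ).comp (f : VF n →+* VF n)).injective) h
  rw [← ringHomComp_lift χ, h1, ringHomComp_lift]

theorem gal_apply_eq_one {f : VF n ≃ₐ[ℚ] VF n} {χ : DirichletCharacter ℂ n} {a : ZMod n}
    (h : χ a = 1) : gal f χ a = 1 := by
  have h1 : lift χ a = 1 := Subtype.ext h
  rw [gal_apply, h1, map_one]
  rfl

/-- the value at `-k` of the primitive character of `χ`, in `VF n` -/
theorem coe_Pval_lift (χ : DirichletCharacter ℂ n) (k : ℕ) :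
    ((Pval (lift χ) k : VF n) : ℂ) = Pval χ k := by
  have h := map_Pval (algebraMap (VF n) ℂ) (lift χ) k
  rw [ringHomComp_lift] at h
  exact h

/-- **The values commute with the Galois action**: `σ(L(-k, χ*)) = L(-k, (σχ)*)`. -/
theorem gal_Pval (f : VF n ≃ₐ[ℚ] VF n) (χ : DirichletCharacter ℂ n) (k : ℕ) :
    f (Pval (lift χ) k) = Pval (lift (gal f χ)) k := by
  rw [lift_gal]
  exact map_Pval (f : VF n →+* VF n) (lift χ) k

theorem LFunction_prim_neg_nat (χ : DirichletCharacter ℂ n) {k : ℕ} (hk : k ≠ 0) :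
    LFunction χ.primitiveCharacter (-(k : ℂ)) = Pval χ k :=
  LFunction_neg_nat _ hk

/-- **Siegel, Klingen**: the product of the values `L(-k, χ*)` over the characters mod `n` which
are trivial on a given set `S` is rational. -/
theorem prod_LFunction_rational (Y : Subgroup (DirichletCharacter ℂ n)) [Fintype Y]
    (S : Set (ZMod n)ˣ)
    (hY : ∀ χ : DirichletCharacter ℂ n, χ ∈ Y ↔ ∀ u ∈ S, χ (u : ZMod n) = 1) {k : ℕ}
    (hk : k ≠ 0) :
    ∃ q : ℚ, ∏ χ : Y, LFunction (χ : DirichletCharacter ℂ n).primitiveCharacter (-(k : ℂ)) = q := by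
  have hst : ∀ (f : VF n ≃ₐ[ℚ] VF n) (χ : Y), gal f χ ∈ Y := fun f χ =>
    (hY _).mpr fun u hu => gal_apply_eq_one ((hY _).mp χ.2 u hu)
  let P : VF n := ∏ χ : Y, Pval (lift (χ : DirichletCharacter ℂ n)) k
  have hP : ∀ f : VF n ≃ₐ[ℚ] VF n, f P = P := by
    intro f
    have hinj : Function.Injective fun χ : Y => (⟨gal f χ, hst f χ⟩ : Y) := fun χ ψ h =>
      Subtype.ext (gal_injective f (congrArg Subtype.val h))
    have hbij : Function.Bijective fun χ : Y => (⟨gal f χ, hst f χ⟩ : Y) :=
      Finite.injective_iff_bijective.mp hinj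
    change f (∏ χ : Y, Pval (lift (χ : DirichletCharacter ℂ n)) k) = _
    rw [map_prod]
    refine Fintype.prod_bijective _ hbij _ _ fun χ => ?_
    exact gal_Pval f χ k
  have hbot := (IsGalois.mem_bot_iff_fixed P).mpr hP
  obtain ⟨q, hq⟩ := IntermediateField.mem_bot.mp hbot
  refine ⟨q, ?_⟩
  have h1 : ((P : VF n) : ℂ) =
      ∏ χ : Y, LFunction (χ : DirichletCharacter ℂ n).primitiveCharacter (-(k : ℂ)) := by
    change algebraMap (VF n) ℂ (∏ χ : Y, Pval (lift (χ : DirichletCharacter ℂ n)) k) = _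
    rw [map_prod]
    refine Finset.prod_congr rfl fun χ _ => ?_
    rw [LFunction_prim_neg_nat _ hk]
    exact coe_Pval_lift _ k
  rw [← h1, ← hq]
  rfl

end galois

end Fermat.Agent.Cor.Klingen
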