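import Fermat.Agent.Corollaries.ZetaK.KlingenK

/-!
# The zeta function of a totally real abelian field at the even positive integers

`dedekindZeta_two_mul` : **`ζ_K(2m) = q π^(2m n) √|d|`** with a rational number `q > 0`, for
every totally real abelian field `K` of degree `n` and discriminant `d` (Euler, Hecke, Siegel,
Klingen). Together with `dedekindZeta_pos` (`ζ_K(x) > 0` for `x > 1`) this gives the sign of
`ζ_K(1 - 2m)`: it is `(-1)^(m n)` (`zetaK_one_sub_two_mul_sign`).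
-/

set_option autoImplicit false

noncomputable section

open NumberField InfinitePlace Ideal Complex

open scoped ComplexOrder

universe u

namespace Fermat.Agent.Cor.Klingen

variable (K : Type u) [Field K] [NumberField K]

/-- `ζ_K(x) > 0` for real `x > 1` -/
theorem dedekindZeta_pos {x : ℝ} (hx : 1 < x) : 0 < dedekindZeta K (x : ℂ) := by
  have hs : 1 < (x : ℂ).re := by simpa using hx
  rw [← tsum_nchar hs]
  refine Summable.tsum_pos (summable_norm_nchar hs).of_norm (fun I => ?_) 1 ?_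
  · rw [nchar_apply, ← ofReal_natCast, ← ofReal_neg, ← ofReal_cpow (Nat.cast_nonneg _)]
    exact_mod_cast Real.rpow_nonneg (Nat.cast_nonneg _) _
  · rw [map_one]
    exact one_pos

/-- the factor in the functional equation between `2m` and `1 - 2m`, totally real fields -/
theorem zetaK_one_sub_two_mul [IsTotallyReal K] {m : ℕ} (hm : 1 ≤ m) :
    zetaK K (1 - 2 * (m : ℂ)) =
      ((((discr K).natAbs : ℝ) ^ (2 * m) / √((discr K).natAbs : ℝ) *
        (-1) ^ (m * Module.finrank ℚ K) *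
        (2 * (2 * m - 1).factorial / (2 * Real.pi) ^ (2 * m)) ^ Module.finrank ℚ K : ℝ) : ℂ) *
      dedekindZeta K (2 * (m : ℂ)) := by
  have hre : 1 < (2 * (m : ℂ)).re := by
    have : (1 : ℝ) ≤ m := by exact_mod_cast hm
    simp
    linarith
  have h1 : (2 * (m : ℂ)) ≠ 1 := ne_one_of_re hre
  have h2 : ∀ n : ℕ, (2 * (m : ℂ)) ≠ -n := by
    intro n h
    have := congrArg Complex.re h
    rw [Complex.neg_re, Complex.natCast_re] at this
    have h3 : (0 : ℝ) ≤ n := Nat.cast_nonneg n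
    linarith
  have hr2 : nrComplexPlaces K = 0 := IsTotallyReal.nrComplexPlaces_eq_zero K
  have hn : nrRealPlaces K = Module.finrank ℚ K := by
    have := card_add_two_mul_card_eq_rank (K := K)
    omega
  have hc : cos (Real.pi * (2 * (m : ℂ)) / 2) = (-1) ^ m := by
    rw [show (Real.pi : ℂ) * (2 * (m : ℂ)) / 2 = ((m * Real.pi : ℝ) : ℂ) by push_cast; ring,
      ← ofReal_cos, Real.cos_nat_mul_pi]
    push_cast
    rfl
  have hD : (|(discr K : ℝ)| : ℝ) = ((discr K).natAbs : ℝ) := by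
    rw [Nat.cast_natAbs, Int.cast_abs]
  have hD0 : (0 : ℝ) < ((discr K).natAbs : ℝ) := by
    rw [← hD]
    exact abs_pos.mpr (Int.cast_ne_zero.mpr (discr_ne_zero K))
  have hpow : (((|(discr K : ℝ)| : ℝ) : ℂ)) ^ (2 * (m : ℂ) - 1 / 2) =
      ((((discr K).natAbs : ℝ) ^ (2 * m) / √((discr K).natAbs : ℝ) : ℝ) : ℂ) := by
    rw [hD, show (2 * (m : ℂ) - 1 / 2) = (((2 * m : ℕ) : ℝ) - (1 / 2 : ℝ) : ℝ) by push_cast; ring,
      ← ofReal_cpow hD0.le, Real.rpow_sub hD0, Real.rpow_natCast, Real.sqrt_eq_rpow]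
  have hG : Gammaℂ (2 * (m : ℂ)) =
      ((2 * (2 * m - 1).factorial / (2 * Real.pi) ^ (2 * m) : ℝ) : ℂ) := by
    have h3 : Gamma (2 * (m : ℂ)) = ((2 * m - 1).factorial : ℂ) := by
      rw [← Gamma_nat_eq_factorial]
      congr 1
      rw [Nat.cast_sub (by omega)]
      push_cast
      ring
    rw [Gammaℂ_def, h3, cpow_neg, show (2 * (m : ℂ)) = ((2 * m : ℕ) : ℂ) by push_cast; ring,
      cpow_natCast]
    push_cast
    ring
  rw [zetaK_one_sub (K := K) h1 h2, hc, hG, hpow, hr2, hn, pow_zero, mul_one, add_zero,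
    zetaK_eq K hre, ← pow_mul]
  push_cast
  ring

variable {K} in
theorem factor_pos (m : ℕ) : (0 : ℝ) < ((discr K).natAbs : ℝ) ^ (2 * m) /
    √((discr K).natAbs : ℝ) * (2 * (2 * m - 1).factorial / (2 * Real.pi) ^ (2 * m)) ^
      Module.finrank ℚ K := by
  have hD0 : (0 : ℝ) < ((discr K).natAbs : ℝ) := by
    exact_mod_cast Int.natAbs_pos.mpr (discr_ne_zero K)
  have hf : (0 : ℝ) < ((2 * m - 1).factorial : ℝ) := by exact_mod_cast Nat.factorial_pos _
  have := Real.pi_pos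
  positivity

/-- **The sign of `ζ_K(1 - 2m)`** for a totally real field of degree `n` is `(-1)^(m n)`. -/
theorem zetaK_one_sub_two_mul_sign [IsTotallyReal K] {m : ℕ} (hm : 1 ≤ m) :
    0 < (-1) ^ (m * Module.finrank ℚ K) * zetaK K (1 - 2 * (m : ℂ)) := by
  have hm1 : (1 : ℝ) < 2 * m := by
    have : (1 : ℝ) ≤ m := by exact_mod_cast hm
    linarith
  have h0 : 0 < dedekindZeta K (2 * (m : ℂ)) := by
    have := dedekindZeta_pos K hm1
    push_cast at this
    exact this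
  have h1 : (0 : ℂ) < ((((discr K).natAbs : ℝ) ^ (2 * m) / √((discr K).natAbs : ℝ) *
      (2 * (2 * m - 1).factorial / (2 * Real.pi) ^ (2 * m)) ^ Module.finrank ℚ K : ℝ) : ℂ) := by
    exact_mod_cast factor_pos (K := K) m
  rw [zetaK_one_sub_two_mul K hm]
  have h2 : ((-1 : ℂ)) ^ (m * Module.finrank ℚ K) * (-1) ^ (m * Module.finrank ℚ K) = 1 := by
    rw [← mul_pow]
    norm_num
  refine (mul_pos h1 h0).trans_eq ?_
  push_cast
  linear_combination (-(((discr K).natAbs : ℂ) ^ (2 * m) / (√((discr K).natAbs : ℝ) : ℂ) *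
      (2 * (2 * m - 1).factorial / (2 * Real.pi) ^ (2 * m)) ^ Module.finrank ℚ K *
      dedekindZeta K (2 * (m : ℂ)))) * h2

/-- **Even values** (Siegel, Klingen; abelian fields): `ζ_K(2m) = q π^(2mn) √|d|` with a positive
rational number `q`, for `K` totally real and abelian of degree `n` and discriminant `d`. -/
theorem dedekindZeta_two_mul [IsAbelianGalois ℚ K] [IsTotallyReal K] {m : ℕ} (hm : 1 ≤ m) :
    ∃ q : ℚ, 0 < q ∧ dedekindZeta K (2 * (m : ℂ)) =
      (q : ℂ) * (Real.pi : ℂ) ^ (2 * m * Module.finrank ℚ K) *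
        ((√|(discr K : ℝ)| : ℝ) : ℂ) := by
  obtain ⟨q, -, hq⟩ := zetaK_one_sub_two_mul_rational K hm
  have hm1 : (1 : ℝ) < 2 * m := by
    have : (1 : ℝ) ≤ m := by exact_mod_cast hm
    linarith
  have h0 : 0 < dedekindZeta K (2 * (m : ℂ)) := by
    have := dedekindZeta_pos K hm1
    push_cast at this
    exact this
  have hD : (|(discr K : ℝ)| : ℝ) = ((discr K).natAbs : ℝ) := by
    rw [Nat.cast_natAbs, Int.cast_abs]
  have hD0 : (0 : ℝ) < ((discr K).natAbs : ℝ) := by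
    rw [← hD]
    exact abs_pos.mpr (Int.cast_ne_zero.mpr (discr_ne_zero K))
  set n := Module.finrank ℚ K with hn
  set D : ℕ := (discr K).natAbs with hDdef
  have hs0 : √(D : ℝ) ≠ 0 := (Real.sqrt_pos.mpr hD0).ne'
  have hs2 : √(D : ℝ) * √(D : ℝ) = D := Real.mul_self_sqrt hD0.le
  have hf : ((2 * m - 1).factorial : ℝ) ≠ 0 := by exact_mod_cast Nat.factorial_ne_zero _
  have hπ := Real.pi_ne_zero
  let q' : ℚ := q * (-1) ^ (m * n) / (D : ℚ) ^ (2 * m) *
    ((2 : ℚ) ^ (2 * m) / (2 * (2 * m - 1).factorial)) ^ n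
  have key : dedekindZeta K (2 * (m : ℂ)) =
      (q' : ℂ) * (Real.pi : ℂ) ^ (2 * m * n) * ((√|(discr K : ℝ)| : ℝ) : ℂ) := by
    have h3 := zetaK_one_sub_two_mul K hm
    rw [hq, ← hn, ← hDdef] at h3
    have hc1 : ((√(D : ℝ) : ℝ) : ℂ) ≠ 0 := by exact_mod_cast hs0
    have hc2 : (D : ℂ) ≠ 0 := by exact_mod_cast hD0.ne'
    have hc3 : ((2 * m - 1).factorial : ℂ) ≠ 0 := by exact_mod_cast Nat.factorial_ne_zero _
    have hc4 : (Real.pi : ℂ) ≠ 0 := by exact_mod_cast hπ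
    have hsq : ((√(D : ℝ) : ℝ) : ℂ) * ((√(D : ℝ) : ℝ) : ℂ) = D := by exact_mod_cast hs2
    have h2 : ((-1 : ℂ)) ^ (m * n) * (-1) ^ (m * n) = 1 := by
      rw [← mul_pow]
      norm_num
    rw [hD]
    push_cast at h3 ⊢
    simp only [q']
    push_cast
    rw [h3]
    have h4 : (2 * (Real.pi : ℂ)) ^ (2 * m) = 2 ^ (2 * m) * (Real.pi : ℂ) ^ (2 * m) := mul_pow _ _ _
    have h5 : (Real.pi : ℂ) ^ (2 * m * n) = ((Real.pi : ℂ) ^ (2 * m)) ^ n := pow_mul _ _ _
    rw [h4, h5, div_pow, div_pow, mul_pow ((2 : ℂ) ^ (2 * m)) ((Real.pi : ℂ) ^ (2 * m)) n]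
    have e1 : ((2 : ℂ) ^ (2 * m)) ^ n ≠ 0 := by positivity
    have e2 : ((Real.pi : ℂ) ^ (2 * m)) ^ n ≠ 0 := pow_ne_zero _ (pow_ne_zero _ hc4)
    have e3 : (2 * ((2 * m - 1).factorial : ℂ)) ^ n ≠ 0 :=
      pow_ne_zero _ (mul_ne_zero two_ne_zero hc3)
    have e4 : (D : ℂ) ^ (2 * m) ≠ 0 := pow_ne_zero _ hc2
    field_simp
    linear_combination (-1 : ℂ) * h2
  refine ⟨q', ?_, key⟩
  rw [key] at h0
  have h6 : (0 : ℂ) < (Real.pi : ℂ) ^ (2 * m * n) * ((√|(discr K : ℝ)| : ℝ) : ℂ) := by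
    have h7 : (0 : ℝ) < Real.pi ^ (2 * m * n) * √|(discr K : ℝ)| := by
      rw [hD]
      have := Real.pi_pos
      have := Real.sqrt_pos.mpr hD0
      positivity
    exact_mod_cast h7
  rw [mul_assoc] at h0
  have h8 : (0 : ℂ) < (q' : ℂ) := pos_of_mul_pos_left h0 h6.le
  rw [← ofReal_ratCast, zero_lt_real] at h8
  exact_mod_cast h8

end Fermat.Agent.Cor.Klingen
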