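import Fermat.Agent.Corollaries.ZetaK.Klingen
import Fermat.Agent.Corollaries.ZetaK.GammaAb
import Fermat.Agent.Corollaries.ZetaK.Trivial
import Fermat.Agent.Corollaries.ZetaK.ZetaOne
import Fermat.Agent.Corollaries.KW.Final

/-!
# The theorem of Siegel and Klingen for abelian fields

`K` an abelian extension of `ℚ`, `k ≥ 0`: `ζ_K(-k)` is a rational number
(`zetaK_neg_nat_rational`). If `K` is totally real, then `ζ_K(1 - 2m)` is a non-zero rational
number for every `m ≥ 1` (`zetaK_one_sub_two_mul_rational`).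
-/

set_option autoImplicit false

noncomputable section

open NumberField Ideal DirichletCharacter

universe u v

namespace Fermat.Agent.Cor.Klingen

/-! ### Isomorphic fields have the same zeta function -/

section congr

variable {K : Type u} [Field K] [NumberField K] {K' : Type v} [Field K'] [NumberField K']

theorem absNorm_map_equiv (e : 𝓞 K ≃+* 𝓞 K') (I : Ideal (𝓞 K)) :
    absNorm (I.map (e : 𝓞 K →+* 𝓞 K')) = absNorm I := by
  rw [absNorm_apply, absNorm_apply, Submodule.cardQuot_apply, Submodule.cardQuot_apply]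
  exact (Nat.card_congr (Ideal.quotientEquiv I _ e rfl).toEquiv).symm

theorem card_absNorm_congr (e : 𝓞 K ≃+* 𝓞 K') (n : ℕ) :
    Nat.card {I : Ideal (𝓞 K) // absNorm I = n} = Nat.card {I : Ideal (𝓞 K') // absNorm I = n} := by
  refine Nat.card_congr
    { toFun := fun I => ⟨I.1.map (e : 𝓞 K →+* 𝓞 K'), by rw [absNorm_map_equiv, I.2]⟩
      invFun := fun I => ⟨I.1.map (e.symm : 𝓞 K' →+* 𝓞 K), by rw [absNorm_map_equiv, I.2]⟩
      left_inv := fun I => Subtype.ext ?_
      right_inv := fun I => Subtype.ext ?_ }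
  · change (I.1.map (e : 𝓞 K →+* 𝓞 K')).map (e.symm : 𝓞 K' →+* 𝓞 K) = I.1
    rw [Ideal.map_map]
    simp
  · change (I.1.map (e.symm : 𝓞 K' →+* 𝓞 K)).map (e : 𝓞 K →+* 𝓞 K') = I.1
    rw [Ideal.map_map]
    simp

theorem dedekindZeta_congr (e : K ≃+* K') : dedekindZeta K = dedekindZeta K' := by
  funext s
  rw [dedekindZeta, dedekindZeta]
  congr 1
  funext n
  rw [card_absNorm_congr (RingOfIntegers.mapRingEquiv e) n]

theorem zetaK_congr (e : K ≃+* K') {s : ℂ} (hs : s ≠ 1) : zetaK K s = zetaK K' s := by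
  refine eq_of_eq_re_gt_one (f := zetaK K) (g := zetaK K') (fun s hs => differentiableAt_LF _ hs)
    (fun s hs => differentiableAt_LF _ hs) (fun s hs => ?_) hs
  rw [zetaK_eq K hs, zetaK_eq K' hs, dedekindZeta_congr e]

end congr

/-! ### Subfields of cyclotomic fields -/

theorem neg_natCast_ne_one (k : ℕ) : (-(k : ℂ)) ≠ 1 := by
  intro h
  have := congrArg Complex.re h
  simp at this
  linarith [(Nat.cast_nonneg k : (0 : ℝ) ≤ k)]

theorem zetaK_rational_of_cyclotomic (n : ℕ) [NeZero n] {F : Type u} [Field F] [NumberField F]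
    [IsCyclotomicExtension {n} ℚ F] (L : IntermediateField ℚ F) [IsGalois ℚ L] {k : ℕ}
    (hk : k ≠ 0) : ∃ q : ℚ, zetaK L (-(k : ℂ)) = q := by
  obtain ⟨q, hq⟩ := prod_LFunction_rational (charGroup n L) (galSub n L : Set (ZMod n)ˣ)
    (fun χ => mem_ann) hk
  exact ⟨q, by rw [zetaK_abelian n L (neg_natCast_ne_one k), hq]⟩

/-! ### Abelian fields -/

variable (K : Type u) [Field K] [NumberField K]

/-- `ζ_K(0)` is rational for every number field `K`. -/
theorem zetaK_zero_rational : ∃ q : ℚ, zetaK K 0 = q := by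
  by_cases h : Units.rank K = 0
  · exact ⟨-(classNumber K / Units.torsionOrder K), by rw [zetaK_zero K h]; push_cast; rfl⟩
  · exact ⟨0, by rw [(zetaK_zero_eq_zero_iff K).mpr h]; simp⟩

variable {K} in
theorem zetaK_rational_of_hom (n : ℕ) [NeZero n] {F : Type v} [Field F] [NumberField F]
    [IsCyclotomicExtension {n} ℚ F] [IsGalois ℚ K] (f : K →+* F) {k : ℕ} (hk : k ≠ 0) :
    ∃ q : ℚ, zetaK K (-(k : ℂ)) = q := by
  have e : K ≃ₐ[ℚ] f.toRatAlgHom.fieldRange := AlgEquiv.ofInjectiveField f.toRatAlgHom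
  have hg : IsGalois ℚ f.toRatAlgHom.fieldRange := IsGalois.of_algEquiv e
  obtain ⟨q, hq⟩ := zetaK_rational_of_cyclotomic n f.toRatAlgHom.fieldRange hk
  refine ⟨q, ?_⟩
  rw [← hq]
  exact zetaK_congr e.toRingEquiv (neg_natCast_ne_one k)

/-- **Siegel, Klingen** (abelian fields): the values of the Dedekind zeta function of an abelian
extension of `ℚ` at `0, -1, -2, …` are rational numbers. -/
theorem zetaK_neg_nat_rational [IsAbelianGalois ℚ K] (k : ℕ) :
    ∃ q : ℚ, zetaK K (-(k : ℂ)) = q := by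
  rcases Nat.eq_zero_or_pos k with rfl | hk
  · simpa using zetaK_zero_rational K
  obtain ⟨n, hn, ⟨f⟩⟩ := KW.kronecker_weber K
  have : NeZero n := ⟨hn.ne'⟩
  have hc : @IsCyclotomicExtension {n} ℚ (CyclotomicField n ℚ) _ _
      (DivisionRing.toRatAlgebra) := by
    have h : (DivisionRing.toRatAlgebra : Algebra ℚ (CyclotomicField n ℚ)) =
        CyclotomicField.algebra n ℚ := Subsingleton.elim _ _
    rw [h]
    exact CyclotomicField.isCyclotomicExtension n ℚ
  exact zetaK_rational_of_hom n (F := CyclotomicField n ℚ) (f : K →+* CyclotomicField n ℚ) hk.ne'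

/-- **Siegel, Klingen** (abelian fields): if `K` is totally real and abelian over `ℚ`, then
`ζ_K(1 - 2m)` is a non-zero rational number for every `m ≥ 1`. -/
theorem zetaK_one_sub_two_mul_rational [IsAbelianGalois ℚ K] [IsTotallyReal K] {m : ℕ}
    (hm : 1 ≤ m) : ∃ q : ℚ, q ≠ 0 ∧ zetaK K (1 - 2 * (m : ℂ)) = q := by
  obtain ⟨q, hq⟩ := zetaK_neg_nat_rational K (2 * m - 1)
  have h1 : (-((2 * m - 1 : ℕ) : ℂ)) = 1 - 2 * (m : ℂ) := by
    rw [Nat.cast_sub (by omega)]
    push_cast
    ring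
  rw [h1] at hq
  refine ⟨q, ?_, hq⟩
  rintro rfl
  rw [Rat.cast_zero] at hq
  have h2 := order_zetaK_neg_odd (K := K) hm
  have h3 : (-(2 * (m : ℂ) - 1)) = 1 - 2 * (m : ℂ) := by ring
  rw [h3, IsTotallyReal.nrComplexPlaces_eq_zero, Nat.cast_zero] at h2
  have h4 : AnalyticAt ℂ (zetaK K) (1 - 2 * (m : ℂ)) := by
    have h5 : (1 - 2 * (m : ℂ)) ≠ 1 := by
      intro h
      have h6 : (m : ℂ) = 0 := by linear_combination (-1 / 2 : ℂ) * h
      have : m = 0 := by exact_mod_cast h6
      omega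
    have h6 : ∀ᶠ s in nhds (1 - 2 * (m : ℂ)), DifferentiableAt ℂ (zetaK K) s := by
      filter_upwards [isOpen_ne.mem_nhds h5] with s hs
      exact differentiableAt_LF _ hs
    exact Complex.analyticAt_iff_eventually_differentiableAt.mpr h6
  exact (h4.analyticOrderAt_eq_zero.mp h2) hq

end Fermat.Agent.Cor.Klingen
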