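import Mathlib

/-!
# Power sums, Bernoulli numbers and the Teichmüller character

`p` a prime number. `teich p : ZMod p →* ℤ_[p]` is the Teichmüller character (from Mathlib's Witt
vectors), `tsum p j = ∑_{a mod p} a ω(a)^j ∈ ℤ_[p]`.

* `toZMod_tsum_of_dvd`: `tsum p j` is a unit if `p - 1 ∣ j + 1`, `j > 0`;
* `exists_tsum_eq`: for `1 ≤ k ≤ p - 2`, `tsum p (k - 1) = p (B_k / k + p z)` with `z ∈ ℤ_[p]`.
-/

set_option autoImplicit false

noncomputable section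

open Finset

namespace Fermat.Agent.Cor.Kummer

variable (p : ℕ) [hp : Fact p.Prime]

theorem exists_eq_add (x : ℤ_[p]) (n : ℕ) (h : PadicInt.toZMod x = n) :
    ∃ y : ℤ_[p], x = n + p * y := by
  have h1 : x - (n : ℤ_[p]) ∈ RingHom.ker (PadicInt.toZMod (p := p)) := by
    rw [RingHom.mem_ker, map_sub, h, map_natCast, sub_self]
  rw [PadicInt.ker_toZMod, PadicInt.maximalIdeal_eq_span_p, Ideal.mem_span_singleton] at h1
  obtain ⟨y, hy⟩ := h1
  exact ⟨y, by rw [← hy]; ring⟩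

theorem hom_unique (f : ℤ_[p] →+* ZMod p) (x : ℤ_[p]) : f x = PadicInt.toZMod x := by
  obtain ⟨y, hy⟩ := exists_eq_add p x (PadicInt.toZMod x).val (ZMod.natCast_zmod_val _).symm
  conv_lhs => rw [hy]
  have hp0 : f (p : ℤ_[p]) = 0 := by rw [map_natCast, ZMod.natCast_self]
  rw [map_add, map_mul, hp0, map_natCast, zero_mul, add_zero, ZMod.natCast_zmod_val]

/-- The Teichmüller character. -/
def teich : ZMod p →* ℤ_[p] :=
  ((WittVector.equiv p : WittVector p (ZMod p) ≃+* ℤ_[p]) : WittVector p (ZMod p) →* ℤ_[p]).comp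
    (WittVector.teichmuller p)

theorem toZMod_teich (a : ZMod p) : PadicInt.toZMod (teich p a) = a := by
  rw [← hom_unique p ((WittVector.constantCoeff).comp
    ((WittVector.equiv p).symm : ℤ_[p] →+* WittVector p (ZMod p)))]
  change WittVector.constantCoeff ((WittVector.equiv p).symm ((WittVector.equiv p)
    (WittVector.teichmuller p a))) = a
  rw [RingEquiv.symm_apply_apply]
  rfl

theorem teich_zero : teich p 0 = 0 := by
  change (WittVector.equiv p) (WittVector.teichmuller p 0) = 0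
  rw [WittVector.teichmuller_zero, map_zero]

theorem teich_injective : Function.Injective (teich p) := fun a b h => by
  rw [← toZMod_teich p a, h, toZMod_teich]

theorem teich_pow_eq_one_iff (a : ZMod p) (k : ℕ) : teich p a ^ k = 1 ↔ a ^ k = 1 := by
  rw [← map_pow, ← (teich p).map_one]
  exact (teich_injective p).eq_iff

/-- `∑ a ω(a)^j`. -/
def tsum (j : ℕ) : ℤ_[p] := ∑ a : ZMod p, (a.val : ℤ_[p]) * teich p a ^ j

theorem toZMod_tsum (j : ℕ) : PadicInt.toZMod (tsum p j) = ∑ a : ZMod p, a ^ (j + 1) := by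
  rw [tsum, map_sum]
  refine Finset.sum_congr rfl fun a _ => ?_
  rw [map_mul, map_pow, toZMod_teich, map_natCast, ZMod.natCast_zmod_val, pow_succ']

theorem sum_pow_eq (k : ℕ) (hk : k ≠ 0) :
    ∑ a : ZMod p, a ^ k = if p - 1 ∣ k then -1 else 0 := by
  classical
  have h := FiniteField.sum_pow_units (ZMod p) k
  rw [ZMod.card] at h
  rw [← h, ← Finset.sum_erase _ (a := (0 : ZMod p)) (by rw [zero_pow hk])]
  refine (Finset.sum_bij (fun (x : (ZMod p)ˣ) _ => (x : ZMod p)) ?_ ?_ ?_ ?_).symm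
  · intro x _
    exact Finset.mem_erase.mpr ⟨x.ne_zero, Finset.mem_univ _⟩
  · intro x _ y _ h
    exact Units.ext h
  · intro b hb
    exact ⟨Units.mk0 b (Finset.mem_erase.mp hb).1, Finset.mem_univ _, rfl⟩
  · intro x _
    rfl

/-- For `p - 1 ∣ j + 1` the sum is a unit. -/
theorem isUnit_tsum {j : ℕ} (h : p - 1 ∣ j + 1) : IsUnit (tsum p j) := by
  have h1 : PadicInt.toZMod (tsum p j) ≠ 0 := by
    rw [toZMod_tsum, sum_pow_eq p _ (Nat.succ_ne_zero j), if_pos h]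
    exact neg_ne_zero.mpr one_ne_zero
  by_contra h2
  apply h1
  have h3 : tsum p j ∈ RingHom.ker (PadicInt.toZMod (p := p)) := by
    rw [PadicInt.ker_toZMod]
    exact (IsLocalRing.mem_maximalIdeal _).mpr h2
  exact (RingHom.mem_ker).mp h3

/-- `∑ ω(a)^k = 0` for `p - 1 ∤ k`. -/
theorem sum_teich_pow {k : ℕ} (h : ¬ p - 1 ∣ k) : ∑ a : ZMod p, teich p a ^ k = 0 := by
  have hk0 : k ≠ 0 := by
    rintro rfl
    exact h (dvd_zero _)
  obtain ⟨g, hg⟩ := IsCyclic.exists_generator (α := (ZMod p)ˣ)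
  have hord : orderOf g = p - 1 := by
    rw [orderOf_eq_card_of_forall_mem_zpowers hg, Nat.card_eq_fintype_card, ZMod.card_units]
  have h1 : (teich p (g : ZMod p)) ^ k ≠ 1 := by
    rw [Ne, teich_pow_eq_one_iff]
    intro h2
    apply h
    rw [← hord]
    exact orderOf_dvd_of_pow_eq_one (Units.ext (by simpa using h2))
  have h2 : (teich p (g : ZMod p)) ^ k * ∑ a : ZMod p, teich p a ^ k =
      ∑ a : ZMod p, teich p a ^ k := by
    rw [Finset.mul_sum]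
    refine Fintype.sum_equiv (Units.mulLeft g) _ _ fun a => ?_
    rw [← mul_pow, ← map_mul]
    rfl
  have h3 : ((teich p (g : ZMod p)) ^ k - 1) * ∑ a : ZMod p, teich p a ^ k = 0 := by
    rw [sub_mul, h2, one_mul, sub_self]
  exact (mul_eq_zero.mp h3).resolve_left (sub_ne_zero.mpr h1)

/-- If `x ≡ w mod p` then `x ^ k - k x w ^ (k - 1) ≡ (1 - k) w ^ k mod p ^ 2`. -/
theorem pow_congr {x w v : ℤ_[p]} (h : x = w + p * v) (k : ℕ) :
    ∃ z : ℤ_[p], x ^ (k + 1) = (k + 1) * (x * w ^ k) - k * w ^ (k + 1) + p ^ 2 * z := by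
  obtain ⟨z, hz⟩ := Polynomial.powAddExpansion w (p * v) (k + 1)
  refine ⟨v ^ 2 * z, ?_⟩
  rw [h, hz]
  push_cast
  ring

/-- `∑ a^k ≡ k ∑ a ω(a)^{k - 1} mod p^2`. -/
theorem sum_pow_congr {k : ℕ} (h : ¬ p - 1 ∣ k + 1) :
    ∃ z : ℤ_[p], ∑ a : ZMod p, (a.val : ℤ_[p]) ^ (k + 1) = (k + 1) * tsum p k + p ^ 2 * z := by
  have h1 : ∀ a : ZMod p, ∃ z : ℤ_[p], (a.val : ℤ_[p]) ^ (k + 1) =
      (k + 1) * ((a.val : ℤ_[p]) * teich p a ^ k) - k * teich p a ^ (k + 1) + p ^ 2 * z := by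
    intro a
    have h2 : PadicInt.toZMod ((a.val : ℤ_[p]) - teich p a) = ((0 : ℕ) : ZMod p) := by
      rw [map_sub, map_natCast, ZMod.natCast_zmod_val, toZMod_teich, sub_self, Nat.cast_zero]
    obtain ⟨v, hv⟩ := exists_eq_add p _ 0 h2
    refine pow_congr p (v := v) ?_ k
    rw [Nat.cast_zero, zero_add] at hv
    rw [← hv]
    ring
  choose z hz using h1
  refine ⟨∑ a, z a, ?_⟩
  rw [Finset.sum_congr rfl fun a _ => hz a, Finset.sum_add_distrib, Finset.sum_sub_distrib,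
    ← Finset.mul_sum, ← Finset.mul_sum, ← Finset.mul_sum, sum_teich_pow p h, mul_zero, sub_zero,
    tsum]

/-! ### Bernoulli numbers -/

theorem natCast_inv_mem {m : ℕ} (h : ¬ p ∣ m) : ((m : ℚ_[p]))⁻¹ ∈ PadicInt.subring p := by
  rw [PadicInt.mem_subring_iff, norm_inv]
  rw [Padic.norm_natCast_eq_one_iff.mpr (hp.out.coprime_iff_not_dvd.mpr h), inv_one]

omit hp in
theorem not_dvd_of_lt {m : ℕ} (h0 : m ≠ 0) (h : m < p) : ¬ p ∣ m := fun hd =>
  absurd (Nat.le_of_dvd (Nat.pos_of_ne_zero h0) hd) (not_le.mpr h)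

/-- `B_i` is `p`-integral for `i + 2 ≤ p`. -/
theorem bernoulli_mem (i : ℕ) (hi : i + 2 ≤ p) :
    ((bernoulli i : ℚ) : ℚ_[p]) ∈ PadicInt.subring p := by
  induction i using Nat.strong_induction_on with
  | _ i ih =>
    have h1 := sum_bernoulli (i + 1)
    rw [Finset.sum_range_succ, Nat.choose_succ_self_right] at h1
    have h2 : ((bernoulli i : ℚ) : ℚ_[p]) = ((i + 1 : ℕ) : ℚ_[p])⁻¹ *
        ((if i + 1 = 1 then 1 else 0) -
          ∑ k ∈ range i, ((i + 1).choose k : ℚ_[p]) * ((bernoulli k : ℚ) : ℚ_[p])) := by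
      have h3 := congrArg (fun q : ℚ => (q : ℚ_[p])) h1
      have hne : ((i + 1 : ℕ) : ℚ_[p]) ≠ 0 := by exact_mod_cast Nat.succ_ne_zero i
      rw [eq_inv_mul_iff_mul_eq₀ hne]
      have h4 : (((if i + 1 = 1 then 1 else 0 : ℚ)) : ℚ_[p]) = if i + 1 = 1 then 1 else 0 := by
        split_ifs <;> simp
      rw [h4] at h3
      rw [← h3]
      push_cast
      ring
    rw [h2]
    refine Subring.mul_mem _ (natCast_inv_mem p (not_dvd_of_lt p (Nat.succ_ne_zero i) (by omega)))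
      (Subring.sub_mem _ ?_ (Subring.sum_mem _ fun k hk => ?_))
    · split_ifs
      · exact Subring.one_mem _
      · exact Subring.zero_mem _
    · refine Subring.mul_mem _ (natCast_mem _ _) (ih k (Finset.mem_range.mp hk) ?_)
      have := Finset.mem_range.mp hk
      omega

omit hp in
theorem sum_zmod {M : Type*} [AddCommMonoid M] {N : ℕ} [NeZero N] (f : ℕ → M) :
    ∑ j : ZMod N, f j.val = ∑ a ∈ range N, f a := by
  obtain ⟨n, hn⟩ : ∃ n, N = n + 1 := ⟨N - 1, by have := NeZero.pos N; omega⟩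
  subst hn
  rw [Finset.sum_range]
  rfl

/-- `∑_{a < p} a^k ≡ p B_k mod p^2`, `k + 2 ≤ p`. -/
theorem sum_pow_bernoulli {k : ℕ} (hk : k + 2 ≤ p) : ∃ z : ℤ_[p],
    ((∑ a : ZMod p, (a.val : ℤ_[p]) ^ k : ℤ_[p]) : ℚ_[p]) =
      p * ((bernoulli k : ℚ) : ℚ_[p]) + p ^ 2 * z := by
  have h1 : ((∑ a : ZMod p, (a.val : ℤ_[p]) ^ k : ℤ_[p]) : ℚ_[p]) =
      ((∑ a ∈ range p, (a : ℚ) ^ k : ℚ) : ℚ_[p]) := by
    rw [sum_zmod (fun a : ℕ => (a : ℤ_[p]) ^ k)]
    change PadicInt.Coe.ringHom (∑ a ∈ range p, (a : ℤ_[p]) ^ k) = _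
    rw [map_sum]
    push_cast
    refine Finset.sum_congr rfl fun a _ => ?_
    rw [map_pow, map_natCast]
  have hk1 : ((k : ℚ_[p]) + 1) ≠ 0 := by exact_mod_cast Nat.succ_ne_zero k
  have h2 : ∀ i ∈ range k, ∃ z : ℤ_[p],
      (((bernoulli i * ((k + 1).choose i) * (p : ℚ) ^ (k + 1 - i) / (k + 1) : ℚ)) : ℚ_[p]) =
        p ^ 2 * z := by
    intro i hi
    have hik := Finset.mem_range.mp hi
    have h3 : ((bernoulli i : ℚ) : ℚ_[p]) * ((k + 1).choose i : ℕ) * (p : ℚ_[p]) ^ (k - 1 - i) *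
        ((k + 1 : ℕ) : ℚ_[p])⁻¹ ∈ PadicInt.subring p := by
      refine Subring.mul_mem _ (Subring.mul_mem _ (Subring.mul_mem _
        (bernoulli_mem p i (by omega)) (natCast_mem _ _)) (Subring.pow_mem _ (natCast_mem _ _) _))
        (natCast_inv_mem p (not_dvd_of_lt p (Nat.succ_ne_zero k) (by omega)))
    refine ⟨⟨_, h3⟩, ?_⟩
    obtain ⟨m, hm⟩ : ∃ m, k = m + 1 + i := ⟨k - 1 - i, by omega⟩
    have e1 : k + 1 - i = m + 2 := by omega
    have e2 : k - 1 - i = m := by omega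
    change _ = (p : ℚ_[p]) ^ 2 * (((bernoulli i : ℚ) : ℚ_[p]) * ((k + 1).choose i : ℕ) *
      (p : ℚ_[p]) ^ (k - 1 - i) * ((k + 1 : ℕ) : ℚ_[p])⁻¹)
    rw [e1, e2]
    push_cast
    field_simp
    ring
  choose! z hz using h2
  refine ⟨∑ i ∈ range k, z i, ?_⟩
  rw [h1, sum_range_pow, Finset.sum_range_succ, Rat.cast_add, Rat.cast_sum,
    Finset.sum_congr rfl hz, add_comm]
  congr 1
  · rw [Nat.add_sub_cancel_left]
    push_cast
    rw [Nat.choose_succ_self_right]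
    push_cast
    field_simp
  · rw [← Finset.mul_sum]
    congr 1
    change _ = PadicInt.Coe.ringHom (∑ i ∈ range k, z i)
    rw [map_sum]
    rfl

/-- For `1 ≤ k ≤ p - 2`: `∑ a ω(a)^{k - 1} = p s` with `s ≡ B_k / k mod p`. -/
theorem exists_tsum_eq {k : ℕ} (hk : 1 ≤ k) (hk2 : k + 2 ≤ p) : ∃ s z : ℤ_[p],
    tsum p (k - 1) = p * s ∧ (s : ℚ_[p]) = ((bernoulli k : ℚ) : ℚ_[p]) / k + p * z := by
  obtain ⟨m, rfl⟩ : ∃ m, k = m + 1 := ⟨k - 1, by omega⟩
  rw [Nat.add_sub_cancel]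
  obtain ⟨z₁, h1⟩ := sum_pow_congr p (k := m) (fun h => by
    have := Nat.le_of_dvd (Nat.succ_pos m) h
    omega)
  obtain ⟨z₂, h2⟩ := sum_pow_bernoulli p (k := m + 1) hk2
  have hinv := natCast_inv_mem p (m := m + 1) (not_dvd_of_lt p (Nat.succ_ne_zero m) (by omega))
  have hne : ((m + 1 : ℕ) : ℚ_[p]) ≠ 0 := by exact_mod_cast Nat.succ_ne_zero m
  have hp0 : (p : ℚ_[p]) ≠ 0 := by exact_mod_cast hp.out.ne_zero
  set c : ℤ_[p] := ⟨_, hinv⟩ with hc
  have hcc : (c : ℚ_[p]) = ((m + 1 : ℕ) : ℚ_[p])⁻¹ := rfl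
  have hB := bernoulli_mem p (m + 1) hk2
  set B : ℤ_[p] := ⟨_, hB⟩ with hBd
  have hBB : (B : ℚ_[p]) = ((bernoulli (m + 1) : ℚ) : ℚ_[p]) := rfl
  refine ⟨B * c + p * ((z₂ - z₁) * c), (z₂ - z₁) * c, ?_, ?_⟩
  · apply Subtype.ext
    rw [h1] at h2
    push_cast at h2 ⊢
    rw [hBB, hcc]
    push_cast at hne ⊢
    field_simp
    linear_combination h2
  · push_cast
    rw [hBB, hcc]
    push_cast
    rw [div_eq_mul_inv]

theorem norm_ratCast_lt_one_iff {q : ℚ} (hq : ‖(q : ℚ_[p])‖ ≤ 1) :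
    ‖(q : ℚ_[p])‖ < 1 ↔ (p : ℤ) ∣ q.num := by
  have h1 : (q : ℚ_[p]) * (q.den : ℚ_[p]) = (q.num : ℚ_[p]) := by
    have := Rat.mul_den_eq_num q
    exact_mod_cast congrArg (fun x : ℚ => (x : ℚ_[p])) this
  have hden : ‖((q.den : ℕ) : ℚ_[p])‖ = 1 := by
    rw [Padic.norm_natCast_eq_one_iff, hp.out.coprime_iff_not_dvd]
    intro hd
    have h2 : ¬ (p : ℤ) ∣ q.num := by
      intro hn
      have h3 : p ∣ q.num.natAbs := Int.natCast_dvd.mp hn
      have h4 := Nat.dvd_gcd h3 hd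
      rw [q.reduced.gcd_eq_one] at h4
      exact hp.out.one_lt.ne' (Nat.dvd_one.mp h4)
    have h3 : ¬ ‖((q.num : ℤ) : ℚ_[p])‖ < 1 := fun h => h2 (Padic.norm_intCast_lt_one_iff.mp h)
    have h4 : ‖((q.den : ℕ) : ℚ_[p])‖ < 1 := Padic.norm_natCast_lt_one_iff.mpr hd
    apply h3
    rw [← h1, norm_mul]
    exact mul_lt_one_of_nonneg_of_lt_one_right hq (norm_nonneg _) h4
  rw [← Padic.norm_intCast_lt_one_iff, ← h1, norm_mul, hden, mul_one]

/-- The number `s` of `exists_tsum_eq` is a unit iff `p` does not divide the numerator of `B_k`. -/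
theorem isUnit_iff {k : ℕ} (hk : 1 ≤ k) (hk2 : k + 2 ≤ p) {s z : ℤ_[p]}
    (h : (s : ℚ_[p]) = ((bernoulli k : ℚ) : ℚ_[p]) / k + p * z) :
    IsUnit s ↔ ¬ (p : ℤ) ∣ (bernoulli k).num := by
  have hB : ‖((bernoulli k : ℚ) : ℚ_[p])‖ ≤ 1 := bernoulli_mem p k hk2
  have hkn : ‖(k : ℚ_[p])‖ = 1 := by
    rw [Padic.norm_natCast_eq_one_iff, hp.out.coprime_iff_not_dvd]
    exact not_dvd_of_lt p (by omega) (by omega)
  have hk0 : (k : ℚ_[p]) ≠ 0 := by
    intro h0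
    rw [h0, norm_zero] at hkn
    exact zero_ne_one hkn
  rw [← norm_ratCast_lt_one_iff p hB, PadicInt.isUnit_iff, PadicInt.norm_def]
  have hpz : ‖(p : ℚ_[p]) * z‖ < 1 := by
    rw [norm_mul]
    exact mul_lt_one_of_nonneg_of_lt_one_left (norm_nonneg _)
      (Padic.norm_natCast_lt_one_iff.mpr dvd_rfl) (PadicInt.norm_le_one z)
  have hBk : ‖((bernoulli k : ℚ) : ℚ_[p]) / k‖ = ‖((bernoulli k : ℚ) : ℚ_[p])‖ := by
    rw [norm_div, hkn, div_one]
  rw [h, ← hBk]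
  constructor
  · intro h1 h2
    have h3 := Padic.nonarchimedean (((bernoulli k : ℚ) : ℚ_[p]) / (k : ℚ_[p]))
      ((p : ℚ_[p]) * (z : ℚ_[p]))
    rw [h1] at h3
    exact absurd h3 (not_le.mpr (max_lt h2 hpz))
  · intro h1
    have h2 : ‖((bernoulli k : ℚ) : ℚ_[p]) / k‖ = 1 :=
      le_antisymm (hBk ▸ hB) (not_lt.mp h1)
    rw [Padic.add_eq_max_of_ne (by rw [h2]; exact hpz.ne'), h2]
    exact max_eq_left hpz.le

end Fermat.Agent.Cor.Kummer
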