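import Fermat.Agent.Corollaries.ZetaK.PNTFinal

/-!
# Primes with prescribed digits

* `exists_prime_leading` : `b ≥ 2`, `m ≥ 1`, `a` a unit mod `q`: for all large `n` there is a prime
  `p ≡ a mod q` with `m b ^ n < p < (m + 1) b ^ n`.
* `exists_prime_digits` : primes with prescribed first and last decimal digits.
-/

set_option autoImplicit false

noncomputable section

open Filter Topology

namespace Fermat.Agent.Cor

/-- Let `b ≥ 2` be a base, `m ≥ 1`, and `a` a unit mod `q`: for all large `n` there is a prime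
`p ≡ a mod q` with `m b ^ n < p < (m + 1) b ^ n`: its expansion in base `b` starts with that of
`m`. -/
theorem exists_prime_leading {q : ℕ} [NeZero q] {a : ZMod q} (ha : IsUnit a) {b m : ℕ}
    (hb : 2 ≤ b) (hm : 1 ≤ m) : ∀ᶠ n : ℕ in atTop, ∃ p : ℕ, p.Prime ∧ (p : ZMod q) = a ∧
      m * b ^ n < p ∧ p < (m + 1) * b ^ n := by
  have hm0 : (0 : ℝ) < m := by exact_mod_cast hm
  set c : ℝ := (m + 1 / 2) / m
  have hc : 1 < c := by rw [one_lt_div hm0]; linarith
  have h1 : Tendsto (fun n : ℕ => (m : ℝ) * (b : ℝ) ^ n) atTop atTop :=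
    (tendsto_pow_atTop_atTop_of_one_lt (by exact_mod_cast hb)).const_mul_atTop hm0
  filter_upwards [h1.eventually (eventually_exists_prime_ap ha hc)] with n hn
  obtain ⟨p, hp, hpa, h2, h3⟩ := hn
  have hbn : (0 : ℝ) < (b : ℝ) ^ n := by positivity
  refine ⟨p, hp, hpa, by exact_mod_cast h2, ?_⟩
  have h4 : c * (m * (b : ℝ) ^ n) = (m + 1 / 2) * (b : ℝ) ^ n := by
    simp only [c]
    field_simp
  rw [h4] at h3
  have h5 : (p : ℝ) < (m + 1) * (b : ℝ) ^ n := by nlinarith
  exact_mod_cast h5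

/-- **Primes with prescribed first and last digits**: for `m ≥ 1`, `r` prime to `10` and every `k`
there is, for every large `n`, a prime `p` with `m 10^n ≤ p < (m + 1) 10^n` (the decimal expansion
starts with `m`) and `p ≡ r mod 10^k` (the last `k` digits are those of `r`). -/
theorem exists_prime_digits {m : ℕ} (hm : 1 ≤ m) {r : ℕ} (hr : r.Coprime 10) (k : ℕ) :
    ∀ᶠ n : ℕ in atTop, ∃ p : ℕ, p.Prime ∧ p ≡ r [MOD 10 ^ k] ∧ m * 10 ^ n ≤ p ∧
      p < (m + 1) * 10 ^ n := by
  have : NeZero (10 ^ k) := ⟨by positivity⟩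
  have h1 : IsUnit ((r : ℕ) : ZMod (10 ^ k)) :=
    (ZMod.isUnit_iff_coprime r (10 ^ k)).2 (hr.pow_right k)
  filter_upwards [exists_prime_leading h1 (by norm_num : 2 ≤ 10) hm] with n hn
  obtain ⟨p, hp, hpr, h2, h3⟩ := hn
  exact ⟨p, hp, (ZMod.natCast_eq_natCast_iff _ _ _).1 hpr, h2.le, h3⟩

end Fermat.Agent.Cor
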