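import Fermat.Agent.Corollaries.ZetaK.LFun
import Fermat.Agent.Corollaries.ZetaK.LEuler
import Fermat.Agent.Corollaries.ZetaK.Fiber
import Fermat.Agent.Classic.Zeta.Classes

/-!
# Every ideal class contains infinitely many prime ideals (K7 (G))
-/

set_option autoImplicit false

noncomputable section

namespace Fermat.Agent.Cor

open NumberField Filter Topology Set Fermat.Agent.ClassL Fermat.Agent.Classic.Zeta
  Fermat.Agent.Classic.Zeta.Classes
open scoped nonZeroDivisors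

universe u

variable {K : Type u} [Field K] [NumberField K]

/-- a weighted sum over the ideals as a sum over the classes -/
theorem pic_tsum_ideals {s : ℂ} (hs : 1 < s.re) (f : ClassGroup (𝓞 K) → ℂ) :
    ∑' I : (Ideal (𝓞 K))⁰, f (ClassGroup.mk0 I) * (Ideal.absNorm (I : Ideal (𝓞 K)) : ℂ) ^ (-s) =
      ∑ C : ClassGroup (𝓞 K), f C * zcK C s := by
  classical
  obtain ⟨B, hB⟩ : ∃ B : ℝ, ∀ C, ‖f C‖ ≤ B :=
    ⟨∑ C, ‖f C‖, fun C => Finset.single_le_sum (f := fun C => ‖f C‖)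
      (fun _ _ => norm_nonneg _) (Finset.mem_univ C)⟩
  have hsum0 : Summable fun I : (Ideal (𝓞 K))⁰ =>
      f (ClassGroup.mk0 I) * (Ideal.absNorm (I : Ideal (𝓞 K)) : ℂ) ^ (-s) := by
    refine Summable.of_norm_bounded ((summable_nrm_ideals (K := K) hs).norm.mul_left B)
      fun I => ?_
    rw [norm_mul]
    exact mul_le_mul_of_nonneg_right (hB _) (norm_nonneg _)
  let e : (Σ C : ClassGroup (𝓞 K), {𝔞 : (Ideal (𝓞 K))⁰ // ClassGroup.mk0 𝔞 = C}) ≃
      (Ideal (𝓞 K))⁰ := Equiv.sigmaFiberEquiv (fun I : (Ideal (𝓞 K))⁰ => ClassGroup.mk0 I)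
  have hsum : Summable fun c => f (ClassGroup.mk0 (e c)) *
      (Ideal.absNorm (e c : Ideal (𝓞 K)) : ℂ) ^ (-s) := (e.summable_iff).mpr hsum0
  rw [← e.tsum_eq, Summable.tsum_sigma hsum, tsum_fintype]
  refine Finset.sum_congr rfl fun C _ => ?_
  rw [zcK, ← tsum_mul_left]
  refine tsum_congr fun 𝔞 => ?_
  change f (ClassGroup.mk0 𝔞.1) * _ = _
  rw [𝔞.2]
  rfl

theorem pic_LK_eq_tsum (χ : ClassGroup (𝓞 K) →* ℂˣ) {s : ℂ} (hs : 1 < s.re) :
    LK χ s = ∑' I : (Ideal (𝓞 K))⁰,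
      (χ (ClassGroup.mk0 I) : ℂ) * (Ideal.absNorm (I : Ideal (𝓞 K)) : ℂ) ^ (-s) := by
  rw [LK, LF_eq _ hs, pic_tsum_ideals hs fun C => ((χ C : ℂˣ) : ℂ)]

theorem pic_sum_chi {χ : ClassGroup (𝓞 K) →* ℂˣ} (hχ : χ ≠ 1) :
    ∑ C : ClassGroup (𝓞 K), ((χ C : ℂˣ) : ℂ) = 0 := by
  obtain ⟨g, hg⟩ : ∃ g, χ g ≠ 1 := by
    by_contra h
    push Not at h
    exact hχ (MonoidHom.ext h)
  have h1 : ∑ C : ClassGroup (𝓞 K), ((χ C : ℂˣ) : ℂ) =
      (χ g : ℂ) * ∑ C : ClassGroup (𝓞 K), ((χ C : ℂˣ) : ℂ) := by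
    rw [Finset.mul_sum, ← Equiv.sum_comp (Equiv.mulLeft g)]
    refine Finset.sum_congr rfl fun C _ => ?_
    simp
  have h2 : ((χ g : ℂ) - 1) * ∑ C : ClassGroup (𝓞 K), ((χ C : ℂˣ) : ℂ) = 0 := by
    rw [sub_mul, one_mul, ← h1, sub_self]
  rcases mul_eq_zero.mp h2 with h3 | h3
  · exfalso
    apply hg
    ext
    rw [Units.val_one]
    exact sub_eq_zero.mp h3
  · exact h3

theorem pic_differentiable_LK {χ : ClassGroup (𝓞 K) →* ℂˣ} (hχ : χ ≠ 1) : Differentiable ℂ (LK χ) :=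
  differentiable_LF (pic_sum_chi hχ)

/-- **The sum of `1 / N(P)` over the primes of a class diverges**, from `L(1, χ) ≠ 0`. -/
theorem not_summable_pr_of_nonvanishing
    (hNV : ∀ χ : ClassGroup (𝓞 K) →* ℂˣ, χ ≠ 1 → LK χ 1 ≠ 0) (C : ClassGroup (𝓞 K)) :
    ¬ Summable (Set.indicator {P : Pr K | ClassGroup.mk0 P.1 = C}
      fun P => ((Ideal.absNorm (P.1 : Ideal (𝓞 K)) : ℕ) : ℝ)⁻¹) := by
  refine not_summable_fiber (N := fun P : Pr K => Ideal.absNorm (P.1 : Ideal (𝓞 K)))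
    two_le_absNorm (fun P : Pr K => ClassGroup.mk0 P.1) (fun s hs => summable_pr_rpow hs) ?_ ?_ C
  · have h1 : Tendsto (fun s : ℝ => ‖dedekindZeta K s‖) (𝓝[>] 1) atTop := by
      have hr := dedekindZeta_residue_pos K
      have h3 : Tendsto (fun s : ℝ => ‖((s - 1 : ℝ) : ℂ) * dedekindZeta K s‖) (𝓝[>] 1)
          (𝓝 (dedekindZeta_residue K)) := by
        have h := (tendsto_sub_one_mul_dedekindZeta_nhdsGT K).norm
        rw [Complex.norm_real, Real.norm_of_nonneg hr.le] at h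
        refine h.congr fun s => ?_
        push_cast
        rfl
      have h4 : Tendsto (fun s : ℝ => (s - 1)⁻¹) (𝓝[>] 1) atTop := by
        refine tendsto_inv_nhdsGT_zero.comp ?_
        refine tendsto_nhdsWithin_iff.mpr ⟨?_, ?_⟩
        · have : Tendsto (fun s : ℝ => s - 1) (𝓝 1) (𝓝 (1 - 1)) :=
            (continuous_id.sub continuous_const).tendsto 1
          rw [sub_self] at this
          exact this.mono_left nhdsWithin_le_nhds
        · filter_upwards [self_mem_nhdsWithin] with s hs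
          exact sub_pos.mpr (show (1 : ℝ) < s from hs)
      refine (h4.atTop_mul_pos hr h3).congr' ?_
      filter_upwards [self_mem_nhdsWithin] with s hs
      have hs1 : (0 : ℝ) < s - 1 := sub_pos.mpr (show (1 : ℝ) < s from hs)
      rw [norm_mul, Complex.norm_real, Real.norm_of_nonneg hs1.le, inv_mul_cancel_left₀ hs1.ne']
    refine h1.congr' ?_
    filter_upwards [self_mem_nhdsWithin] with s hs
    have hs' : 1 < ((s : ℝ) : ℂ).re := by rw [Complex.ofReal_re]; exact hs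
    rw [exp_tsum_log_one hs', tsum_ideals_eq_dedekindZeta hs']
  · intro χ hχ
    refine ⟨LK χ 1, hNV χ hχ, ?_⟩
    have h1 : Tendsto (fun s : ℝ => LK χ (s : ℂ)) (𝓝[>] 1) (𝓝 (LK χ 1)) := by
      have h3 : Tendsto (fun s : ℝ => LK χ (s : ℂ)) (𝓝 1) (𝓝 (LK χ ((1 : ℝ) : ℂ))) :=
        ((pic_differentiable_LK hχ).continuous.comp Complex.continuous_ofReal).tendsto 1
      rw [Complex.ofReal_one] at h3
      exact h3.mono_left nhdsWithin_le_nhds
    refine h1.congr' ?_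
    filter_upwards [self_mem_nhdsWithin] with s hs
    have hs' : 1 < ((s : ℝ) : ℂ).re := by rw [Complex.ofReal_re]; exact hs
    rw [exp_tsum_log_chi' χ hs', pic_LK_eq_tsum χ hs']

/-- **Every class contains infinitely many prime ideals**, from `L(1, χ) ≠ 0`. -/
theorem infinite_pr_of_nonvanishing (hNV : ∀ χ : ClassGroup (𝓞 K) →* ℂˣ, χ ≠ 1 → LK χ 1 ≠ 0)
    (C : ClassGroup (𝓞 K)) : {P : Pr K | ClassGroup.mk0 P.1 = C}.Infinite := by
  intro hfin
  refine not_summable_pr_of_nonvanishing hNV C ?_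
  refine summable_of_ne_finset_zero (s := hfin.toFinset) fun i hi => ?_
  rw [Set.Finite.mem_toFinset] at hi
  exact Set.indicator_of_notMem hi _

/-- The same for the places. -/
theorem infinite_places_of_nonvanishing
    (hNV : ∀ χ : ClassGroup (𝓞 K) →* ℂˣ, χ ≠ 1 → LK χ 1 ≠ 0) (C : ClassGroup (𝓞 K)) :
    {v : IsDedekindDomain.HeightOneSpectrum (𝓞 K) |
      ClassGroup.mk0 ⟨v.asIdeal, mem_nonZeroDivisors_of_ne_zero v.ne_bot⟩ = C}.Infinite := by
  have h := infinite_pr_of_nonvanishing hNV C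
  let φ : Pr K → IsDedekindDomain.HeightOneSpectrum (𝓞 K) := fun P =>
    ⟨P.1, Ideal.isPrime_of_prime P.2, P.2.ne_zero⟩
  have hφ : Function.Injective φ := by
    intro P Q h
    have h1 : (P.1 : Ideal (𝓞 K)) = Q.1 := congrArg (fun v => v.asIdeal) h
    exact Subtype.ext (Subtype.ext h1)
  refine (h.image hφ.injOn).mono ?_
  rintro _ ⟨P, hP, rfl⟩
  exact hP

end Fermat.Agent.Cor
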