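import Fermat.Agent.Corollaries.ZetaK.LogDeriv

/-!
# The L-function of a completely multiplicative function on the ideals

`ψ : (Ideal (𝓞 K))⁰ →* ℂ` with `|ψ| ≤ 1` (values zero are allowed, e.g. a ray class character
extended by zero). Euler product, logarithm, and `-L'/L` as a sum over the prime powers.
-/

set_option autoImplicit false
set_option linter.unusedSectionVars false

noncomputable section

open NumberField nonZeroDivisors Complex Filter Topology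

open scoped Classical

namespace Fermat.Agent.Cor.Psi

open Fermat.Agent.ClassL

variable {K : Type*} [Field K] [NumberField K]

/-- `I ↦ ψ(I) N(I)^{-s}` -/
def psHom (ψ : (Ideal (𝓞 K))⁰ →* ℂ) (s : ℂ) : (Ideal (𝓞 K))⁰ →* ℂ where
  toFun I := ψ I * (Ideal.absNorm (I : Ideal (𝓞 K)) : ℂ) ^ (-s)
  map_one' := by simp
  map_mul' I J := by
    rw [map_mul, Submonoid.coe_mul, map_mul, Nat.cast_mul, Complex.natCast_mul_natCast_cpow]
    ring

theorem psHom_apply (ψ : (Ideal (𝓞 K))⁰ →* ℂ) (s : ℂ) (I : (Ideal (𝓞 K))⁰) :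
    psHom ψ s I = ψ I * (Ideal.absNorm (I : Ideal (𝓞 K)) : ℂ) ^ (-s) := rfl

theorem psHom_pr (ψ : (Ideal (𝓞 K))⁰ →* ℂ) (s : ℂ) (P : Pr K) :
    psHom ψ s P.1 = ψ P.1 * (nP P : ℂ) ^ (-s) := rfl

/-- `∑_I ψ(I) N(I)^{-s}` -/
def Lp (ψ : (Ideal (𝓞 K))⁰ →* ℂ) (s : ℂ) : ℂ :=
  ∑' I : (Ideal (𝓞 K))⁰, ψ I * (Ideal.absNorm (I : Ideal (𝓞 K)) : ℂ) ^ (-s)

variable {ψ : (Ideal (𝓞 K))⁰ →* ℂ} (hψ : ∀ I, ‖ψ I‖ ≤ 1)

include hψ

theorem norm_psHom_le (s : ℂ) (I : (Ideal (𝓞 K))⁰) :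
    ‖psHom ψ s I‖ ≤ ‖chiHom (1 : ClassGroup (𝓞 K) →* ℂˣ) s I‖ := by
  rw [psHom_apply, chiHom_apply, norm_mul, norm_mul, norm_chi]
  exact mul_le_mul_of_nonneg_right (hψ I) (norm_nonneg _)

theorem summable_norm_psHom {s : ℂ} (hs : 1 < s.re) :
    Summable fun I : (Ideal (𝓞 K))⁰ => ‖psHom ψ s I‖ :=
  Summable.of_nonneg_of_le (fun _ => norm_nonneg _) (fun I => norm_psHom_le hψ s I)
    (summable_norm_chiHom 1 hs)

theorem exp_tsum_log_ps {s : ℂ} (hs : 1 < s.re) :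
    Complex.exp (∑' P : Pr K, -Complex.log (1 - psHom ψ s P.1)) = Lp ψ s :=
  exp_tsum_log (summable_norm_psHom hψ hs)

theorem Lp_ne_zero {s : ℂ} (hs : 1 < s.re) : Lp ψ s ≠ 0 :=
  tsum_ne_zero (summable_norm_psHom hψ hs)

theorem norm_psHom_pr_le (s : ℂ) (P : Pr K) : ‖psHom ψ s P.1‖ ≤ (nP P : ℝ) ^ (-s.re) := by
  rw [← norm_chiHom_pr 1 s P]
  exact norm_psHom_le hψ s P.1

theorem norm_psHom_pr_le_half {s : ℂ} (hs : 1 < s.re) (P : Pr K) :
    ‖psHom ψ s P.1‖ ≤ 1 / 2 :=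
  (norm_psHom_le hψ s P.1).trans (norm_chiHom_pr_le_half 1 hs P)

omit hψ in
theorem hasDerivAt_psHom (ψ : (Ideal (𝓞 K))⁰ →* ℂ) (s : ℂ) (P : Pr K) :
    HasDerivAt (fun w => psHom ψ w P.1) (-(Real.log (nP P) : ℂ) * psHom ψ s P.1) s := by
  have h0 : (nP P : ℂ) ≠ 0 := by exact_mod_cast (nP_pos P).ne'
  have h1 : HasDerivAt (fun w : ℂ => (nP P : ℂ) ^ (-w))
      ((nP P : ℂ) ^ (-s) * Complex.log (nP P) * (-1)) s :=
    ((hasDerivAt_id s).neg).const_cpow (Or.inl h0)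
  have h2 := h1.const_mul (ψ P.1)
  refine h2.congr_deriv ?_
  rw [psHom_pr, Complex.natCast_log]
  ring

theorem hasDerivAt_neg_log_ps {s : ℂ} (hs : 1 < s.re) (P : Pr K) :
    HasDerivAt (fun w => -Complex.log (1 - psHom ψ w P.1))
      (-((Real.log (nP P) : ℂ) * (psHom ψ s P.1 / (1 - psHom ψ s P.1)))) s := by
  have hz := norm_psHom_pr_le_half hψ hs P
  have hre : (psHom ψ s P.1).re < 1 := lt_of_le_of_lt ((Complex.re_le_norm _).trans hz)
    (by norm_num)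
  have hslit : (1 - psHom ψ s P.1) ∈ Complex.slitPlane := by
    left
    rw [sub_re, one_re]
    linarith
  have h1 := (((hasDerivAt_psHom ψ s P).const_sub 1).clog hslit).neg
  refine h1.congr_deriv ?_
  ring

theorem norm_log_le {σ : ℝ} (hσ1 : 1 < σ) (P : Pr K) {w : ℂ} (hw : σ < w.re) :
    ‖-Complex.log (1 - psHom ψ w P.1)‖ ≤ 3 / 2 * (nP P : ℝ) ^ (-σ) := by
  rw [norm_neg, sub_eq_add_neg]
  refine (Complex.norm_log_one_add_half_le_self ?_).trans ?_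
  · rw [norm_neg]
    exact norm_psHom_pr_le_half hψ (hσ1.trans hw) P
  · rw [norm_neg]
    refine mul_le_mul_of_nonneg_left ?_ (by norm_num)
    refine (norm_psHom_pr_le hψ w P).trans ?_
    exact Real.rpow_le_rpow_of_exponent_le
      (by exact_mod_cast (one_le_two.trans (two_le_nP P))) (neg_le_neg (le_of_lt hw))

theorem differentiableOn_tsum_log {σ : ℝ} (hσ1 : 1 < σ) :
    DifferentiableOn ℂ (fun w : ℂ => ∑' P : Pr K, -Complex.log (1 - psHom ψ w P.1))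
      {w : ℂ | σ < w.re} :=
  differentiableOn_tsum_of_summable_norm (ι := Pr K)
    (F := fun P w => -Complex.log (1 - psHom ψ w P.1)) (U := {w : ℂ | σ < w.re})
    (u := fun P => 3 / 2 * (nP P : ℝ) ^ (-σ)) ((summable_pr_rpow hσ1).mul_left _)
    (fun P w hw =>
      (hasDerivAt_neg_log_ps hψ (hσ1.trans hw) P).differentiableAt.differentiableWithinAt)
    (isOpen_lt continuous_const Complex.continuous_re) (fun P _ hw => norm_log_le hψ hσ1 P hw)

/-- **The logarithmic derivative as a sum over the primes.** -/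
theorem hasSum_log_deriv_ps {s : ℂ} (hs : 1 < s.re) :
    HasSum (fun P : Pr K => (Real.log (nP P) : ℂ) * (psHom ψ s P.1 / (1 - psHom ψ s P.1)))
      (-(deriv (Lp ψ) s / Lp ψ s)) := by
  obtain ⟨σ, hσ1, hσ⟩ := exists_between hs
  have hU : IsOpen {w : ℂ | σ < w.re} := isOpen_lt continuous_const Complex.continuous_re
  have key := hasSum_deriv_of_summable_norm (ι := Pr K)
    (F := fun P w => -Complex.log (1 - psHom ψ w P.1)) (U := {w : ℂ | σ < w.re}) (z := s)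
    (u := fun P => 3 / 2 * (nP P : ℝ) ^ (-σ)) ((summable_pr_rpow hσ1).mul_left _)
    (fun P w hw =>
      (hasDerivAt_neg_log_ps hψ (hσ1.trans hw) P).differentiableAt.differentiableWithinAt)
    hU (fun P w hw => norm_log_le hψ hσ1 P hw) hσ
  have h1 : (fun P : Pr K => deriv (fun w => -Complex.log (1 - psHom ψ w P.1)) s) =
      fun P : Pr K => -((Real.log (nP P) : ℂ) * (psHom ψ s P.1 / (1 - psHom ψ s P.1))) :=
    funext fun P => (hasDerivAt_neg_log_ps hψ hs P).deriv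
  have h2 : deriv (Lp ψ) s = deriv (fun w : ℂ => ∑' P : Pr K,
      -Complex.log (1 - psHom ψ w P.1)) s * Lp ψ s := by
    have h3 : Lp ψ =ᶠ[𝓝 s] fun w => Complex.exp (∑' P : Pr K,
        -Complex.log (1 - psHom ψ w P.1)) := by
      filter_upwards [hU.mem_nhds hσ] with w hw
      exact (exp_tsum_log_ps hψ (hσ1.trans hw)).symm
    have h4 : DifferentiableAt ℂ (fun w : ℂ => ∑' P : Pr K,
        -Complex.log (1 - psHom ψ w P.1)) s :=
      (differentiableOn_tsum_log hψ hσ1).differentiableAt (hU.mem_nhds hσ)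
    rw [h3.deriv_eq, deriv_cexp h4, mul_comm, ← h3.eq_of_nhds]
  have h6 : Lp ψ s ≠ 0 := Lp_ne_zero hψ hs
  rw [h1] at key
  have h7 := key.neg
  simp only [neg_neg] at h7
  rw [h2, mul_div_assoc, div_self h6, mul_one]
  exact h7

omit hψ in
/-- `log N(P) · ψ(P^(k+1)) N(P^(k+1))^{-s}` -/
def vmp (ψ : (Ideal (𝓞 K))⁰ →* ℂ) (s : ℂ) (q : Pr K × ℕ) : ℂ :=
  (Real.log (nP q.1) : ℂ) * psHom ψ s (q.1.1 ^ (q.2 + 1))

omit hψ in
theorem vmp_eq (ψ : (Ideal (𝓞 K))⁰ →* ℂ) (s : ℂ) (q : Pr K × ℕ) :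
    vmp ψ s q = (Real.log (nP q.1) : ℂ) * psHom ψ s q.1.1 ^ (q.2 + 1) := by
  rw [vmp, map_pow]

omit hψ in
theorem vmp_eq' (ψ : (Ideal (𝓞 K))⁰ →* ℂ) (s : ℂ) (q : Pr K × ℕ) :
    vmp ψ s q = (Real.log (nP q.1) : ℂ) * ψ q.1.1 ^ (q.2 + 1) *
      ((nP q.1 ^ (q.2 + 1) : ℕ) : ℂ) ^ (-s) := by
  have h : Ideal.absNorm ((q.1.1 ^ (q.2 + 1) : (Ideal (𝓞 K))⁰) : Ideal (𝓞 K)) =
      nP q.1 ^ (q.2 + 1) := by
    rw [SubmonoidClass.coe_pow, map_pow]
    rfl
  rw [vmp, psHom_apply, h, map_pow, ← mul_assoc]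

theorem summable_norm_vmp {s : ℂ} (hs : 1 < s.re) :
    Summable fun q : Pr K × ℕ => ‖vmp ψ s q‖ := by
  refine Summable.of_nonneg_of_le (fun _ => norm_nonneg _) (fun q => ?_)
    (summable_norm_vm (1 : ClassGroup (𝓞 K) →* ℂˣ) hs)
  rw [vmp, vm, norm_mul, norm_mul]
  exact mul_le_mul_of_nonneg_left (norm_psHom_le hψ s _) (norm_nonneg _)

/-- **The logarithmic derivative as a sum over the prime powers.** -/
theorem hasSum_vmp {s : ℂ} (hs : 1 < s.re) :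
    HasSum (fun q : Pr K × ℕ => vmp ψ s q) (-(deriv (Lp ψ) s / Lp ψ s)) := by
  have h0 : ∀ P : Pr K, HasSum (fun k : ℕ => vmp ψ s (P, k))
      ((Real.log (nP P) : ℂ) * (psHom ψ s P.1 / (1 - psHom ψ s P.1))) := by
    intro P
    have hz : ‖psHom ψ s P.1‖ < 1 :=
      (norm_psHom_pr_le_half hψ hs P).trans_lt (by norm_num)
    have h := ((hasSum_geometric_of_norm_lt_one hz).mul_left (psHom ψ s P.1)).mul_left
      (Real.log (nP P) : ℂ)
    have e : (fun k : ℕ => vmp ψ s (P, k)) = fun k : ℕ =>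
        (Real.log (nP P) : ℂ) * (psHom ψ s P.1 * psHom ψ s P.1 ^ k) := by
      funext k
      rw [vmp_eq, pow_succ']
    rw [e, div_eq_mul_inv]
    exact h
  have h1 : Summable fun q : Pr K × ℕ => vmp ψ s q := (summable_norm_vmp hψ hs).of_norm
  have h2 := h1.hasSum.prod_fiberwise fun P => h0 P
  have h3 := h2.unique (hasSum_log_deriv_ps hψ hs)
  rw [← h3]
  exact h1.hasSum

end Fermat.Agent.Cor.Psi

end
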