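import Fermat.Agent.Corollaries.ZetaK.RelClass
import Fermat.Agent.Corollaries.Diri.LVal

/-!
# The relative class number formula with generalised Bernoulli numbers

`bernOne χ = B_{1,χ} = (1/f) ∑_{a mod f} a χ(a)`.

* `relative_class_number_bernoulli`: `h(F) = h(F⁺) Q w ∏_{χ odd} (-B_{1,χ*} / 2)`;
* `relative_class_number_cyclotomic`: `F = ℚ(ζ_n)`, the product over all odd characters mod `n`;
* `relative_class_number_prime`: `F = ℚ(ζ_p)`, `p` an odd prime:
  `h(F) = h(F⁺) Q (2p) ∏_{χ mod p odd} (-(1/(2p)) ∑_{a mod p} a χ(a))`.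
-/

set_option autoImplicit false

noncomputable section

universe u v

open Finset DirichletCharacter NumberField NumberField.Units

namespace Fermat.Agent.Cor.RelClass

/-- The generalised Bernoulli number `B_{1,χ}` (`χ ≠ 1`). -/
def bernOne {N : ℕ} [NeZero N] (χ : DirichletCharacter ℂ N) : ℂ :=
  (1 / N) * ∑ a : ZMod N, (a.val : ℂ) * χ a

section general

variable {n : ℕ} [NeZero n]

theorem ne_one_of_odd {χ : DirichletCharacter ℂ n} (h : χ.Odd) : χ ≠ 1 := by
  intro h1
  exact conductor_ne_one_of_odd h (eq_one_iff_conductor_eq_one.mp h1)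

theorem LFunction_prim_zero {χ : DirichletCharacter ℂ n} (h : χ.Odd) :
    LFunction χ.primitiveCharacter 0 = -bernOne χ.primitiveCharacter := by
  rw [Diri.LFunction_zero (prim_ne_one (ne_one_of_odd h)), bernOne, neg_mul]

variable (n) {K : Type u} [Field K] [NumberField K] [hK : IsCyclotomicExtension {n} ℚ K]
  {F : Type v} [Field F] [NumberField F] [IsCMField F] (e : F →ₐ[ℚ] K)

/-- **The relative class number formula**: `h(F) = h(F⁺) Q w ∏_{χ odd} (-B_{1,χ*} / 2)`. -/
theorem relative_class_number_bernoulli :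
    (classNumber F : ℂ) = classNumber (maximalRealSubfield F) * IsCMField.indexRealUnits F *
      torsionOrder F * ∏ χ : OddOf (charGroup n e.fieldRange),
        (-bernOne (χ : DirichletCharacter ℂ n).primitiveCharacter / 2) := by
  rw [relative_class_number n e]
  congr 1
  exact Finset.prod_congr rfl fun χ _ => by rw [LFunction_prim_zero χ.2.2]

end general

section cyclotomic

variable (n : ℕ) [NeZero n] (K : Type u) [Field K] [NumberField K]
  [hK : IsCyclotomicExtension {n} ℚ K]

theorem charGroup_id : charGroup n (AlgHom.id ℚ K).fieldRange = ⊤ := by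
  have h : (AlgHom.id ℚ K).fieldRange = ⊤ := by
    rw [eq_top_iff]
    intro x _
    exact ⟨x, rfl⟩
  rw [h, AbLaw.charGroup_top]

/-- The odd characters modulo `n`. -/
abbrev OddChar (n : ℕ) : Type := {χ : DirichletCharacter ℂ n // χ.Odd}

instance : Fintype (OddChar n) := Fintype.ofFinite _

/-- The relative class number formula for `ℚ(ζ_n)`. -/
theorem relative_class_number_cyclotomic [IsCMField K] :
    (classNumber K : ℂ) = classNumber (maximalRealSubfield K) * IsCMField.indexRealUnits K *
      torsionOrder K * ∏ χ : OddChar n,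
        (-bernOne (χ : DirichletCharacter ℂ n).primitiveCharacter / 2) := by
  rw [relative_class_number_bernoulli n (AlgHom.id ℚ K)]
  congr 1
  let E : OddOf (charGroup n (AlgHom.id ℚ K).fieldRange) ≃ OddChar n :=
    { toFun := fun χ => ⟨χ.1, χ.2.2⟩
      invFun := fun χ => ⟨χ.1, by rw [charGroup_id]; exact Subgroup.mem_top _, χ.2⟩
      left_inv := fun χ => rfl
      right_inv := fun χ => rfl }
  exact Fintype.prod_equiv E _ _ fun χ => rfl

end cyclotomic

section prime

theorem bernOne_of_changeLevel {n : ℕ} [NeZero n] {N₁ N₂ : ℕ} [NeZero N₁] [NeZero N₂]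
    (h₁ : N₁ ∣ n) (h₂ : N₂ ∣ n) (hN : N₁ = N₂) (χ₁ : DirichletCharacter ℂ N₁)
    (χ₂ : DirichletCharacter ℂ N₂) (h : changeLevel h₁ χ₁ = changeLevel h₂ χ₂) :
    bernOne χ₁ = bernOne χ₂ := by
  subst hN
  rw [changeLevel_injective h₁ h]

variable (p : ℕ) [hp : Fact p.Prime]

theorem bernOne_prime {χ : DirichletCharacter ℂ p} (h : χ ≠ 1) :
    bernOne χ.primitiveCharacter = bernOne χ := by
  have h1 : χ.conductor = p :=
    ((Nat.dvd_prime hp.out).mp χ.conductor_dvd_level).resolve_left
      (fun h2 => h (eq_one_iff_conductor_eq_one.mpr h2))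
  refine bernOne_of_changeLevel χ.conductor_dvd_level dvd_rfl h1 _ _ ?_
  rw [changeLevel_primitiveCharacter, changeLevel_self]

/-- **Kummer's formula for the relative class number of `ℚ(ζ_p)`**, `p` an odd prime. -/
theorem relative_class_number_prime (hp2 : p ≠ 2) (K : Type u) [Field K] [NumberField K]
    [IsCyclotomicExtension {p} ℚ K] [IsCMField K] :
    (classNumber K : ℂ) = classNumber (maximalRealSubfield K) * IsCMField.indexRealUnits K *
      (2 * p) * ∏ χ : OddChar p,
        (-(1 / (2 * p)) * ∑ a : ZMod p, (a.val : ℂ) * (χ : DirichletCharacter ℂ p) a) := by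
  rw [relative_class_number_cyclotomic p K, IsCyclotomicExtension.Rat.torsionOrder_eq (n := p),
    if_neg (Nat.not_even_iff_odd.mpr (hp.out.odd_of_ne_two hp2))]
  push_cast
  congr 1
  refine Finset.prod_congr rfl fun χ _ => ?_
  rw [bernOne_prime p (ne_one_of_odd χ.2), bernOne]
  have : (p : ℂ) ≠ 0 := by exact_mod_cast hp.out.ne_zero
  field_simp

end prime

end Fermat.Agent.Cor.RelClass
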