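import Fermat.Agent.Corollaries.ZetaK.AbLaw

/-!
# The relative class number of an abelian CM field

`F` a CM field with an embedding `e` into the `n`-th cyclotomic field, `X` its group of Dirichlet
characters, `F⁺` its maximal real subfield, `Q` Hasse's unit index (Mathlib `indexRealUnits`), `w`
the number of roots of unity of `F`:

`relative_class_number`: **`h(F) = h(F⁺) Q w ∏_{χ ∈ X odd} L(0, χ*) / 2`**.

Proof: the class number formulas of `F` and `F⁺` (`residue_abelian`), the characters of `F⁺` are
the even characters of `F`, the functional equation of the `L(s, χ)`, the conductor-discriminant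
formula and the product of the root numbers for `F` and `F⁺`, and Mathlib's formula for the
quotient of the regulators.
-/

set_option autoImplicit false

noncomputable section

universe u v

open Finset DirichletCharacter NumberField NumberField.Units

namespace Fermat.Agent.Cor.RelClass

/-! ### Real fields have two roots of unity -/

set_option backward.isDefEq.respectTransparency false in
theorem torsionOrder_eq_two {F : Type u} [Field F] [NumberField F]
    (h : 0 < InfinitePlace.nrRealPlaces F) : torsionOrder F = 2 := by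
  classical
  have key : ∀ x : torsion F, (x : (𝓞 F)ˣ) = 1 ∨ (x : (𝓞 F)ˣ) = -1 := by
    intro x
    by_cases! hc : 2 < orderOf (x : (𝓞 F)ˣ)
    · rw [← orderOf_units, ← orderOf_submonoid] at hc
      have := NumberField.InfinitePlace.IsPrimitiveRoot.nrRealPlaces_eq_zero_of_two_lt hc
        (IsPrimitiveRoot.orderOf (x.1 : F))
      omega
    · interval_cases hi : orderOf (x : (𝓞 F)ˣ)
      · linarith [orderOf_pos_iff.2 ((CommGroup.mem_torsion x.1).1 x.2)]
      · exact Or.intro_left _ (orderOf_eq_one_iff.1 hi)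
      · rw [← orderOf_units, CharP.orderOf_eq_two_iff 0 (by decide)] at hi
        simp [← Units.val_inj, Units.val_neg, Units.val_one, hi]
  let := Fintype.ofFinite (torsion F)
  rw [torsionOrder, Nat.card_eq_fintype_card]
  refine (Finset.card_eq_two.2 ⟨1, ⟨-1, neg_one_mem_torsion⟩,
    by simp [← Subtype.coe_ne_coe], Finset.ext fun x ↦ ⟨fun _ ↦ ?_, fun _ ↦ Finset.mem_univ _⟩⟩)
  rw [Finset.mem_insert, Finset.mem_singleton, ← Subtype.val_inj, ← Subtype.val_inj]
  exact key x

/-! ### Even and odd characters -/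

section parity

variable {n : ℕ} [NeZero n]

/-- The even characters of `Y`. -/
def evenPart (Y : Subgroup (DirichletCharacter ℂ n)) : Subgroup (DirichletCharacter ℂ n) :=
  Y ⊓ (evalAt (-1 : ZMod n) isUnit_one.neg).ker

omit [NeZero n] in
theorem mem_evenPart {Y : Subgroup (DirichletCharacter ℂ n)} {χ : DirichletCharacter ℂ n} :
    χ ∈ evenPart Y ↔ χ ∈ Y ∧ χ (-1) = 1 := Iff.rfl

/-- The odd characters of `Y`. -/
abbrev OddOf (Y : Subgroup (DirichletCharacter ℂ n)) : Type :=
  {χ : DirichletCharacter ℂ n // χ ∈ Y ∧ χ.Odd}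

instance (Y : Subgroup (DirichletCharacter ℂ n)) : Fintype (OddOf Y) := Fintype.ofFinite _

variable {M : Type*} [CommMonoid M] (Y : Subgroup (DirichletCharacter ℂ n))

theorem split_prod (g : DirichletCharacter ℂ n → M) :
    ∏ χ : Y, g χ = (∏ χ : evenPart Y, g χ) * ∏ χ : OddOf Y, g χ := by
  classical
  have hne : (1 : ℂ) ≠ -1 := by norm_num
  have h1 : ∏ χ : Y, g χ = ∏ χ ∈ univ.filter (· ∈ Y), g χ :=
    (Finset.prod_subtype (univ.filter (· ∈ Y)) (by simp) g).symm
  have h2 : ∏ χ : evenPart Y, g χ = ∏ χ ∈ (univ.filter (· ∈ Y)).filter (fun χ => χ (-1) = 1),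
      g χ :=
    (Finset.prod_subtype _ (by simp [mem_evenPart]) g).symm
  have h3 : ∏ χ : OddOf Y, g χ = ∏ χ ∈ (univ.filter (· ∈ Y)).filter (fun χ => ¬ χ (-1) = 1),
      g χ := by
    refine (Finset.prod_subtype _ (fun χ => ?_) g).symm
    rw [Finset.mem_filter, Finset.mem_filter]
    constructor
    · rintro ⟨⟨-, h⟩, h'⟩
      exact ⟨h, (one_or_neg_one χ).resolve_left h'⟩
    · rintro ⟨h, h'⟩
      exact ⟨⟨mem_univ _, h⟩, by rw [show χ (-1) = -1 from h']; exact hne.symm⟩
  rw [h1, h2, h3, Finset.prod_filter_mul_prod_filter_not]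

theorem split_prod_erase (g : DirichletCharacter ℂ n → M) :
    ∏ χ ∈ (univ : Finset Y).erase 1, g χ =
      (∏ χ ∈ (univ : Finset (evenPart Y)).erase 1, g χ) * ∏ χ : OddOf Y, g χ := by
  classical
  have hne : (1 : ℂ) ≠ -1 := by norm_num
  set g' : DirichletCharacter ℂ n → M := fun χ => if χ = 1 then 1 else g χ with hg'
  have h1 : ∀ Z : Subgroup (DirichletCharacter ℂ n),
      ∏ χ ∈ (univ : Finset Z).erase 1, g χ = ∏ χ : Z, g' χ := by
    intro Z
    have h2 : ∏ χ ∈ (univ : Finset Z).erase 1, g χ = ∏ χ ∈ (univ : Finset Z).erase 1, g' χ := by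
      refine Finset.prod_congr rfl fun χ hχ => ?_
      have h3 : (χ : DirichletCharacter ℂ n) ≠ 1 := fun h =>
        (Finset.mem_erase.mp hχ).1 (Subtype.ext h)
      rw [hg']
      exact (if_neg h3).symm
    rw [h2]
    exact Finset.prod_erase _ (by simp [hg'])
  have h4 : ∏ χ : OddOf Y, g χ = ∏ χ : OddOf Y, g' χ := by
    refine Finset.prod_congr rfl fun χ _ => ?_
    have h3 : (χ : DirichletCharacter ℂ n) ≠ 1 := by
      intro h
      have h5 := χ.2.2
      rw [h] at h5
      have h6 : (1 : DirichletCharacter ℂ n) (-1) = 1 := MulChar.one_apply isUnit_one.neg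
      rw [DirichletCharacter.Odd, h6] at h5
      exact hne h5
    rw [hg']
    exact (if_neg h3).symm
  rw [h1, h1, h4, split_prod]

theorem card_oddOf : Fintype.card Y = Fintype.card (evenPart Y) + Fintype.card (OddOf Y) := by
  have h := split_prod Y (fun _ => Multiplicative.ofAdd (1 : ℕ))
  simp only [Finset.prod_const, Finset.card_univ] at h
  rw [← ofAdd_nsmul, ← ofAdd_nsmul, ← ofAdd_nsmul, ← ofAdd_add] at h
  exact Multiplicative.ofAdd.injective (by simpa using h)

end parity

/-! ### The value at `0` of an odd `L`-function -/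

section odd

variable {n : ℕ} [NeZero n]

theorem conductor_ne_one_of_odd {χ : DirichletCharacter ℂ n} (h : χ.Odd) : χ.conductor ≠ 1 := by
  intro h1
  have h2 : χ = 1 := eq_one_iff_conductor_eq_one.mpr h1
  have h5 : χ (-1) = -1 := h
  have h6 : (1 : DirichletCharacter ℂ n) (-1) = 1 := MulChar.one_apply isUnit_one.neg
  rw [h2, h6] at h5
  norm_num at h5

omit [NeZero n] in
theorem odd_inv {χ : DirichletCharacter ℂ n} (h : χ.Odd) : (χ⁻¹).Odd := by
  have h1 : χ (-1) * χ⁻¹ (-1) = 1 := by
    rw [← MulChar.mul_apply, mul_inv_cancel]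
    exact MulChar.one_apply isUnit_one.neg
  have h5 : χ (-1) = -1 := h
  rw [h5] at h1
  change χ⁻¹ (-1) = -1
  linear_combination -h1

theorem LFunction_eq_completed {χ : DirichletCharacter ℂ n} (h : χ.Odd) {s : ℂ} :
    LFunction χ.primitiveCharacter s =
      completedLFunction χ.primitiveCharacter s / Complex.Gammaℝ (s + 1) := by
  rw [LFunction_eq_completed_div_gammaFactor _ s (Or.inr (conductor_ne_one_of_odd h)),
    gammaFactor_prim_of_odd h]

theorem LFunction_zero_of_odd {χ : DirichletCharacter ℂ n} (h : χ.Odd) :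
    LFunction χ.primitiveCharacter 0 = (χ.conductor : ℂ) ^ (1 / 2 : ℂ) *
      rootNumber χ.primitiveCharacter * LFunction (χ⁻¹).primitiveCharacter 1 / Real.pi := by
  have h1 := χ.primitiveCharacter_isPrimitive.completedLFunction_one_sub (s := 1)
  rw [completed_inv, sub_self] at h1
  rw [LFunction_eq_completed h, LFunction_eq_completed (odd_inv h), h1, zero_add,
    Complex.Gammaℝ_one, div_one]
  have h2 : Complex.Gammaℝ (1 + 1) = (Real.pi : ℂ)⁻¹ := by
    rw [Complex.Gammaℝ_def]
    norm_num
    rw [Complex.cpow_neg_one]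
  have hpi : (Real.pi : ℂ) ≠ 0 := by exact_mod_cast Real.pi_ne_zero
  rw [h2]
  field_simp
  norm_num
  ring

/-- `∏ L(0, χ*)` over the odd characters of a group `Y`. -/
theorem prod_LFunction_zero (Y : Subgroup (DirichletCharacter ℂ n)) :
    ∏ χ : OddOf Y, LFunction (χ : DirichletCharacter ℂ n).primitiveCharacter 0 =
      ((∏ χ : OddOf Y, (χ : DirichletCharacter ℂ n).conductor : ℕ) : ℂ) ^ (1 / 2 : ℂ) *
      (∏ χ : OddOf Y, rootNumber (χ : DirichletCharacter ℂ n).primitiveCharacter) *
      (∏ χ : OddOf Y, LFunction (χ : DirichletCharacter ℂ n).primitiveCharacter 1) /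
      (Real.pi : ℂ) ^ Fintype.card (OddOf Y) := by
  have h1 : ∀ χ : OddOf Y, LFunction (χ : DirichletCharacter ℂ n).primitiveCharacter 0 =
      ((χ : DirichletCharacter ℂ n).conductor : ℂ) ^ (1 / 2 : ℂ) *
      rootNumber (χ : DirichletCharacter ℂ n).primitiveCharacter *
      LFunction ((χ : DirichletCharacter ℂ n)⁻¹).primitiveCharacter 1 / Real.pi :=
    fun χ => LFunction_zero_of_odd χ.2.2
  rw [Finset.prod_congr rfl fun χ _ => h1 χ, Finset.prod_div_distrib, Finset.prod_mul_distrib,
    Finset.prod_mul_distrib, natCast_prod_cpow, Finset.prod_const, Finset.card_univ]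
  congr 2
  let e : OddOf Y ≃ OddOf Y :=
    { toFun := fun χ => ⟨χ.1⁻¹, Y.inv_mem χ.2.1, odd_inv χ.2.2⟩
      invFun := fun χ => ⟨χ.1⁻¹, Y.inv_mem χ.2.1, odd_inv χ.2.2⟩
      left_inv := fun χ => Subtype.ext (inv_inv χ.1)
      right_inv := fun χ => Subtype.ext (inv_inv χ.1) }
  exact Equiv.prod_comp e fun χ : OddOf Y =>
    LFunction (χ : DirichletCharacter ℂ n).primitiveCharacter 1

end odd

/-! ### The characters of the maximal real subfield -/

section data

variable {n : ℕ} [NeZero n]

/-- `Y` is the group of the Dirichlet characters of the number field `F`: class number formula,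
conductor-discriminant formula, root numbers, degree. -/
structure CharData (F : Type u) [Field F] [NumberField F]
    (Y : Subgroup (DirichletCharacter ℂ n)) : Prop where
  res : (dedekindZeta_residue F : ℂ) = ∏ χ ∈ (univ : Finset Y).erase 1,
    LFunction (χ : DirichletCharacter ℂ n).primitiveCharacter 1
  disc : ∏ χ : Y, (χ : DirichletCharacter ℂ n).conductor = (discr F).natAbs
  root : ∏ χ : Y, rootNumber (χ : DirichletCharacter ℂ n).primitiveCharacter = 1
  card : Fintype.card Y = Module.finrank ℚ F

theorem CharData.congr {F : Type u} [Field F] [NumberField F] {F' : Type v} [Field F']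
    [NumberField F'] {Y : Subgroup (DirichletCharacter ℂ n)} (h : CharData F Y) (e : F ≃+* F') :
    CharData F' Y where
  res := by rw [← ZCongr.dedekindZeta_residue_congr e, h.res]
  disc := by rw [← discr_eq_discr_of_ringEquiv F e, h.disc]
  root := h.root
  card := h.card.trans (LinearEquiv.finrank_eq (AlgEquiv.ofRingEquiv (f := e) (R := ℚ)
    fun _ => by simp).toLinearEquiv)

variable (n) {K : Type u} [Field K] [NumberField K] [hK : IsCyclotomicExtension {n} ℚ K]

omit [NeZero n] in
include hK in
theorem isGalois_sub (L : IntermediateField ℚ K) : IsGalois ℚ L := by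
  have : IsAbelianGalois ℚ K := IsCyclotomicExtension.isAbelianGalois {n} ℚ K
  have h : IsAbelianGalois ℚ L := IsAbelianGalois.tower_bot ℚ L K
  exact h.toIsGalois

theorem charData (L : IntermediateField ℚ K) : CharData L (charGroup n L) := by
  have := isGalois_sub n L
  exact ⟨residue_abelian n L, conductor_discriminant n L, prod_rootNumber n L,
    card_charGroup n L⟩

theorem charGroup_mono {L L' : IntermediateField ℚ K} (h : L' ≤ L) :
    charGroup n L' ≤ charGroup n L := by
  intro χ hχ
  rw [charGroup, mem_ann] at hχ ⊢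
  intro a ha
  exact hχ a (Subgroup.map_mono (IntermediateField.fixingSubgroup_le h) ha)

variable {F : Type v} [Field F] [NumberField F] (e : F →ₐ[ℚ] K)

/-- The embedding of the maximal real subfield. -/
def plusEmb : maximalRealSubfield F →ₐ[ℚ] K :=
  e.comp (algebraMap (maximalRealSubfield F) F).toRatAlgHom

theorem plusEmb_le : (plusEmb e).fieldRange ≤ e.fieldRange := by
  rintro _ ⟨x, rfl⟩
  exact ⟨algebraMap (maximalRealSubfield F) F x, rfl⟩

theorem charData_emb {F' : Type v} [Field F'] [NumberField F'] (e : F' →ₐ[ℚ] K) :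
    CharData F' (charGroup n e.fieldRange) :=
  (charData n e.fieldRange).congr
    ((AlgEquiv.ofInjectiveField e).symm : e.fieldRange ≃ₐ[ℚ] F').toRingEquiv

theorem even_of_mem_plus {χ : DirichletCharacter ℂ n}
    (h : χ ∈ charGroup n (plusEmb e).fieldRange) : χ (-1) = 1 := by
  have h1 : (-1 : (ZMod n)ˣ) ∈ galSub n (plusEmb e).fieldRange := by
    obtain ⟨φ⟩ := (inferInstance : Nonempty (maximalRealSubfield F →+* ℂ))
    set f : (plusEmb e).fieldRange ≃ₐ[ℚ] maximalRealSubfield F :=
      (AlgEquiv.ofInjectiveField (plusEmb e)).symm with hf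
    rw [← isReal_iff n _ (φ.comp (f : (plusEmb e).fieldRange →+* maximalRealSubfield F))]
    have h2 : ComplexEmbedding.IsReal φ := by
      rw [← InfinitePlace.isReal_mk_iff]
      exact IsTotallyReal.isReal _
    refine RingHom.ext fun x => ?_
    exact RingHom.congr_fun h2 (f x)
  have h3 := mem_ann.mp h _ h1
  rwa [Units.val_neg, Units.val_one] at h3

theorem exists_odd [IsTotallyComplex F] : ∃ χ ∈ charGroup n e.fieldRange, χ (-1) = -1 := by
  have h0 : (-1 : (ZMod n)ˣ) ∉ galSub n e.fieldRange := by
    intro h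
    obtain ⟨ψ⟩ := (inferInstance : Nonempty (e.fieldRange →+* ℂ))
    have h1 := (isReal_iff n _ ψ).mpr h
    set f : F ≃ₐ[ℚ] e.fieldRange := AlgEquiv.ofInjectiveField e with hf
    refine IsTotallyComplex.complexEmbedding_not_isReal
      (ψ.comp (f : F →+* e.fieldRange)) ?_
    refine RingHom.ext fun x => ?_
    exact RingHom.congr_fun h1 (f x)
  by_contra hcon
  push Not at hcon
  refine h0 (mem_of_ann fun χ hχ => ?_)
  rw [Units.val_neg, Units.val_one]
  exact (one_or_neg_one χ).resolve_right (hcon χ hχ)

/-- **The characters of the maximal real subfield are the even characters.** -/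
theorem charGroup_plus [IsCMField F] :
    charGroup n (plusEmb e).fieldRange = evenPart (charGroup n e.fieldRange) := by
  set Y := charGroup n e.fieldRange with hY
  have h1 : charGroup n (plusEmb e).fieldRange ≤ evenPart Y := fun χ hχ =>
    mem_evenPart.mpr ⟨charGroup_mono n (plusEmb_le e) hχ, even_of_mem_plus n e hχ⟩
  have h2 : Nat.card (charGroup n (plusEmb e).fieldRange) =
      Module.finrank ℚ (maximalRealSubfield F) := by
    rw [Nat.card_eq_fintype_card]
    exact (charData_emb n (plusEmb e)).card
  have h3 : Nat.card Y = Module.finrank ℚ F := by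
    rw [Nat.card_eq_fintype_card]
    exact (charData_emb n e).card
  have h4 : Module.finrank ℚ F = Module.finrank ℚ (maximalRealSubfield F) * 2 := by
    rw [← Module.finrank_mul_finrank ℚ (maximalRealSubfield F) F,
      Algebra.IsQuadraticExtension.finrank_eq_two (maximalRealSubfield F) F]
  have h5 : evenPart Y ≤ Y := fun χ hχ => (mem_evenPart.mp hχ).1
  have h6 : Nat.card (evenPart Y) ∣ Nat.card Y := Subgroup.card_dvd_of_le h5
  have h7 : Nat.card (evenPart Y) ≠ Nat.card Y := by
    intro h
    have h8 : evenPart Y = Y := Subgroup.eq_of_le_of_card_ge h5 h.ge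
    obtain ⟨χ, hχ, hodd⟩ := exists_odd n e
    rw [← hY, ← h8, mem_evenPart, hodd] at hχ
    norm_num at hχ
  refine Subgroup.eq_of_le_of_card_ge h1 ?_
  obtain ⟨c, hc⟩ := h6
  have hpos : 0 < Nat.card Y := Nat.card_pos
  have hc2 : 2 ≤ c := by
    rcases c with _ | _ | c
    · omega
    · omega
    · omega
  rw [h2]
  rw [h3, h4] at hc
  nlinarith

/-- The characters of `F` and of its maximal real subfield. -/
theorem charData_plus [IsCMField F] :
    CharData (maximalRealSubfield F) (evenPart (charGroup n e.fieldRange)) := by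
  rw [← charGroup_plus]
  exact charData_emb n (plusEmb e)

end data

section main

variable {n : ℕ} [NeZero n] {F : Type u} [Field F] [NumberField F] [IsCMField F]
  {Y : Subgroup (DirichletCharacter ℂ n)}

local notation3 "F⁺" => maximalRealSubfield F

theorem finrank_plus : Module.finrank ℚ F = Module.finrank ℚ F⁺ * 2 := by
  rw [← Module.finrank_mul_finrank ℚ F⁺ F, Algebra.IsQuadraticExtension.finrank_eq_two F⁺ F]

omit [IsCMField F] in
theorem nrReal_plus : InfinitePlace.nrRealPlaces F⁺ = Module.finrank ℚ F⁺ :=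
  (IsTotallyReal.finrank (K := F⁺)).symm

theorem nrComplex_eq : InfinitePlace.nrComplexPlaces F = Module.finrank ℚ F⁺ := by
  have h := IsTotallyComplex.finrank (K := F)
  have h2 := finrank_plus (F := F)
  omega

theorem rank_eq : Units.rank F = Module.finrank ℚ F⁺ - 1 := by
  rw [Units.rank, InfinitePlace.card_eq_nrRealPlaces_add_nrComplexPlaces,
    IsTotallyComplex.nrRealPlaces_eq_zero F, nrComplex_eq, zero_add]

theorem regulator_eq : regulator F =
    regulator F⁺ * (2 ^ (Module.finrank ℚ F⁺ - 1) * (IsCMField.indexRealUnits F : ℝ)⁻¹) := by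
  have h := IsCMField.regulator_div_regulator_eq_two_pow_mul_indexRealUnits_inv F
  rw [rank_eq] at h
  rw [← h, mul_div_cancel₀ _ (regulator_pos F⁺).ne']

/-- The relative class number, from the character data of `F` and `F⁺`. -/
theorem relative_class_number_of (hF : CharData F Y) (hFp : CharData F⁺ (evenPart Y)) :
    (classNumber F : ℂ) = classNumber F⁺ * IsCMField.indexRealUnits F * torsionOrder F *
      ∏ χ : OddOf Y, (LFunction (χ : DirichletCharacter ℂ n).primitiveCharacter 0 / 2) := by
  set N := Module.finrank ℚ F⁺ with hN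
  have hN0 : 0 < N := Module.finrank_pos
  have hcard : Fintype.card (OddOf Y) = N := by
    have h1 := card_oddOf Y
    rw [hF.card, hFp.card, finrank_plus] at h1
    omega
  set f : ℕ := ∏ χ : OddOf Y, (χ : DirichletCharacter ℂ n).conductor with hf
  have hdisc : (discr F).natAbs = (discr F⁺).natAbs * f := by
    rw [← hF.disc, ← hFp.disc, split_prod Y fun χ => χ.conductor]
  have hroot : ∏ χ : OddOf Y, rootNumber (χ : DirichletCharacter ℂ n).primitiveCharacter = 1 := by
    have h1 := split_prod Y fun χ => rootNumber χ.primitiveCharacter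
    rw [hF.root, hFp.root, one_mul] at h1
    exact h1.symm
  have hres : (dedekindZeta_residue F : ℂ) = dedekindZeta_residue F⁺ *
      ∏ χ : OddOf Y, LFunction (χ : DirichletCharacter ℂ n).primitiveCharacter 1 := by
    rw [hF.res, hFp.res, split_prod_erase Y fun χ => LFunction χ.primitiveCharacter 1]
  have hZ := prod_LFunction_zero Y
  rw [hroot, mul_one, ← hf, hcard] at hZ
  -- real numbers
  have hrp : (0 : ℝ) < dedekindZeta_residue F⁺ := dedekindZeta_residue_pos _
  have hP : ∏ χ : OddOf Y, LFunction (χ : DirichletCharacter ℂ n).primitiveCharacter 1 =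
      ((dedekindZeta_residue F / dedekindZeta_residue F⁺ : ℝ) : ℂ) := by
    have hrpc : (dedekindZeta_residue F⁺ : ℂ) ≠ 0 := by exact_mod_cast hrp.ne'
    rw [Complex.ofReal_div, hres, mul_div_cancel_left₀ _ hrpc]
  have hsq : (f : ℂ) ^ (1 / 2 : ℂ) = ((Real.sqrt f : ℝ) : ℂ) := by
    rw [Real.sqrt_eq_rpow, Complex.ofReal_cpow (Nat.cast_nonneg f)]
    norm_num
  rw [hP, hsq] at hZ
  rw [Finset.prod_div_distrib, hZ, Finset.prod_const, Finset.card_univ, hcard]
  have hw := torsionOrder_pos F
  have hh := classNumber_pos F⁺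
  have hQ : (0 : ℝ) < IsCMField.indexRealUnits F := by
    rcases IsCMField.indexRealUnits_eq_one_or_two F with h | h <;> rw [h] <;> norm_num
  have hfpos : 0 < f := by
    refine Finset.prod_pos fun χ _ => Nat.pos_of_ne_zero ?_
    exact (χ : DirichletCharacter ℂ n).conductor_ne_zero
  have hd : Real.sqrt |(discr F : ℝ)| = Real.sqrt |(discr F⁺ : ℝ)| * Real.sqrt f := by
    rw [← Real.sqrt_mul (abs_nonneg _)]
    congr 1
    have h1 : ((discr F).natAbs : ℝ) = ((discr F⁺).natAbs : ℝ) * f := by exact_mod_cast hdisc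
    rwa [Nat.cast_natAbs, Nat.cast_natAbs, Int.cast_abs, Int.cast_abs] at h1
  have hdp : 0 < Real.sqrt |(discr F⁺ : ℝ)| :=
    Real.sqrt_pos_of_pos (abs_pos.mpr (Int.cast_ne_zero.mpr (discr_ne_zero _)))
  have hfs : 0 < Real.sqrt f := Real.sqrt_pos_of_pos (by exact_mod_cast hfpos)
  have hR := regulator_pos F⁺
  have key : (classNumber F : ℝ) = classNumber F⁺ * IsCMField.indexRealUnits F * torsionOrder F *
      (Real.sqrt f * (dedekindZeta_residue F / dedekindZeta_residue F⁺) / Real.pi ^ N / 2 ^ N) := by
    rw [dedekindZeta_residue_def, dedekindZeta_residue_def, regulator_eq, ← hN, hd,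
      IsTotallyComplex.nrRealPlaces_eq_zero F, nrComplex_eq, nrReal_plus, ← hN,
      IsTotallyReal.nrComplexPlaces_eq_zero, pow_zero, pow_zero,
      torsionOrder_eq_two (F := F⁺) (by rw [nrReal_plus]; exact hN0)]
    obtain ⟨m, hm⟩ : ∃ m, N = m + 1 := ⟨N - 1, by omega⟩
    have hpi := Real.pi_pos
    have hw' : (0 : ℝ) < torsionOrder F := by exact_mod_cast hw
    have hh' : (0 : ℝ) < classNumber F⁺ := by exact_mod_cast hh
    rw [hm, Nat.add_sub_cancel, mul_pow]
    push_cast
    field_simp
    ring
  have key' := congrArg (fun x : ℝ => (x : ℂ)) key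
  push_cast at key' ⊢
  exact key'

end main

section final

variable (n : ℕ) [NeZero n] {K : Type u} [Field K] [NumberField K]
  [hK : IsCyclotomicExtension {n} ℚ K] {F : Type v} [Field F] [NumberField F] [IsCMField F]
  (e : F →ₐ[ℚ] K)

/-- **The relative class number formula**: `h(F) = h(F⁺) Q w ∏_{χ odd} L(0, χ*) / 2` for a CM field
`F` embedded in the `n`-th cyclotomic field. -/
theorem relative_class_number :
    (classNumber F : ℂ) = classNumber (maximalRealSubfield F) * IsCMField.indexRealUnits F *
      torsionOrder F * ∏ χ : OddOf (charGroup n e.fieldRange),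
        (LFunction (χ : DirichletCharacter ℂ n).primitiveCharacter 0 / 2) :=
  relative_class_number_of (charData_emb n e) (charData_plus n e)

end final

end Fermat.Agent.Cor.RelClass
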