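import Fermat.Agent.Corollaries.ZetaK.SplitDensity
import Fermat.Agent.Corollaries.ZetaK.Landau

/-!
# The natural density of the primes which split completely

`split_density_galois`: for a finite Galois extension `K / ℚ` the prime numbers which split
completely in `K` have natural density `1 / [K : ℚ]`; unconditional, from the prime ideal theorem.
-/

set_option autoImplicit false

open NumberField IsDedekindDomain Ideal Filter Topology nonZeroDivisors

namespace Fermat.Agent.Cor

variable (K : Type*) [Field K] [NumberField K] [IsGalois ℚ K]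

/-- **The primes which split completely** in a finite Galois extension `K / ℚ` have natural density
`1 / [K : ℚ]`. -/
theorem split_density_galois :
    Tendsto (fun x : ℕ => (Nat.card {p : ℕ // p.Prime ∧ p ≤ x ∧ SplitsIn K p} : ℝ) *
      Real.log x / x) atTop (𝓝 (1 / Module.finrank ℚ K)) :=
  split_density K (prime_ideal_theorem K)

/-- Infinitely many prime numbers split completely in `K`. -/
theorem infinite_splitsIn : {p : ℕ | p.Prime ∧ SplitsIn K p}.Infinite := by
  intro hfin
  have h0 : Tendsto (fun x : ℕ => (Nat.card {p : ℕ // p.Prime ∧ p ≤ x ∧ SplitsIn K p} : ℝ) *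
      Real.log x / x) atTop (𝓝 0) := by
    have hlog : Tendsto (fun x : ℕ => Real.log x / x) atTop (𝓝 0) := by
      have h1 := (Real.isLittleO_log_id_atTop.tendsto_div_nhds_zero).comp
        tendsto_natCast_atTop_atTop
      exact h1
    have h2 : Tendsto (fun x : ℕ => (Nat.card {p : ℕ | p.Prime ∧ SplitsIn K p} : ℝ) *
        (Real.log x / x)) atTop (𝓝 0) := by
      simpa using hlog.const_mul (Nat.card {p : ℕ | p.Prime ∧ SplitsIn K p} : ℝ)
    refine squeeze_zero' ?_ ?_ h2
    · filter_upwards [eventually_ge_atTop 1] with x hx
      have hx1 : (1 : ℝ) ≤ x := by exact_mod_cast hx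
      exact div_nonneg (mul_nonneg (Nat.cast_nonneg _) (Real.log_nonneg hx1)) (by linarith)
    · filter_upwards [eventually_ge_atTop 1] with x hx
      have hx1 : (1 : ℝ) ≤ x := by exact_mod_cast hx
      rw [mul_div_assoc]
      refine mul_le_mul_of_nonneg_right ?_ (div_nonneg (Real.log_nonneg hx1) (by linarith))
      have := hfin.to_subtype
      exact_mod_cast Nat.card_le_card_of_injective
        (fun q : {p : ℕ // p.Prime ∧ p ≤ x ∧ SplitsIn K p} =>
          (⟨q.1, q.2.1, q.2.2.2⟩ : {p : ℕ | p.Prime ∧ SplitsIn K p}))
        (fun a b h => by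
          have h1 := congrArg (fun z : {p : ℕ | p.Prime ∧ SplitsIn K p} => z.1) h
          exact Subtype.ext h1)
  have h1 := tendsto_nhds_unique h0 (split_density_galois K)
  have h2 : (0 : ℝ) < 1 / Module.finrank ℚ K :=
    one_div_pos.mpr (by exact_mod_cast Module.finrank_pos)
  exact absurd h1 h2.ne

end Fermat.Agent.Cor
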