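import Fermat.Agent.Corollaries.ZetaK.Fejer

/-!
# A Tauberian theorem for Laplace transforms (Ikehara, Bochner)

`S ≥ 0` on `[0, ∞)`, `e ^ t S(t)` nondecreasing, and the Laplace transform of `S - A` extends
continuously to the closed half plane `0 ≤ Re s`.  Then `S(t) → A`.
-/

set_option autoImplicit false

open MeasureTheory Set Filter Topology

namespace Fermat.Agent.Cor

/-- the hypotheses of the Tauberian theorem -/
structure TauberDat (S : ℝ → ℝ) (A : ℝ) (g : ℂ → ℂ) : Prop where
  nonneg : ∀ t, 0 ≤ S t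
  mono : ∀ x y, 0 ≤ x → x ≤ y → S x * Real.exp x ≤ S y * Real.exp y
  meas : Measurable S
  int : ∀ ε : ℝ, 0 < ε → IntegrableOn (fun t => S t * Real.exp (-(ε * t))) (Ioi 0)
  cont : ContinuousOn g {s : ℂ | 0 ≤ s.re}
  lap : ∀ s : ℂ, 0 < s.re →
    g s = ∫ t in Ioi (0 : ℝ), ((S t - A : ℝ) : ℂ) * Complex.exp (-(s * t))

/-- the Fourier side -/
noncomputable def tauH (g : ℂ → ℂ) (ε l x : ℝ) : ℂ :=
  ∫ u in (-l)..l, ((1 - |u| / l : ℝ) : ℂ) * Complex.exp (Complex.I * u * x) *
    g (ε + u * Complex.I)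

/-- the scaled kernel -/
noncomputable def fejL (l x : ℝ) : ℝ := l * fejK (l * x)

theorem fejL_nonneg {l : ℝ} (hl : 0 < l) (x : ℝ) : 0 ≤ fejL l x :=
  mul_nonneg hl.le (fejK_nonneg _)

theorem fejL_le {l : ℝ} (hl : 0 < l) (x : ℝ) : fejL l x ≤ l := by
  unfold fejL
  have := fejK_le_one (l * x)
  nlinarith

theorem measurable_fejL (l : ℝ) : Measurable (fejL l) :=
  (measurable_fejK.comp (measurable_const_mul l)).const_mul l

theorem integrable_fejL {l : ℝ} (hl : 0 < l) : Integrable (fejL l) :=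
  (integrable_fejK.comp_mul_left' hl.ne').const_mul l

theorem integral_fejL {l : ℝ} (hl : 0 < l) : ∫ x, fejL l x = fejC := by
  unfold fejL fejC
  rw [integral_const_mul, Measure.integral_comp_mul_left, abs_of_pos (inv_pos.mpr hl), smul_eq_mul,
    ← mul_assoc, mul_inv_cancel₀ hl.ne', one_mul]

theorem integrable_fejL_sub {l : ℝ} (hl : 0 < l) (x : ℝ) :
    Integrable fun t => fejL l (x - t) :=
  (integrable_fejL hl).comp_sub_left x

theorem integral_fejL_sub {l : ℝ} (hl : 0 < l) (x : ℝ) : ∫ t, fejL l (x - t) = fejC := by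
  rw [integral_sub_left_eq_self (fejL l), integral_fejL hl]

/-- partial mass -/
noncomputable def fejc (R : ℝ) : ℝ := ∫ v in (-R)..R, fejK v

theorem fejc_tendsto : Tendsto fejc atTop (𝓝 fejC) :=
  intervalIntegral_tendsto_integral integrable_fejK tendsto_neg_atTop_atBot tendsto_id

theorem integral_fejL_interval {l : ℝ} (hl : 0 < l) (x δ : ℝ) :
    ∫ t in (x - δ)..(x + δ), fejL l (x - t) = fejc (l * δ) := by
  unfold fejL fejc
  rw [intervalIntegral.integral_const_mul]
  have h : ∀ t : ℝ, l * (x - t) = l * x - l * t := fun t => by ring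
  simp only [h]
  rw [intervalIntegral.integral_comp_sub_mul _ hl.ne', smul_eq_mul, ← mul_assoc,
    mul_inv_cancel₀ hl.ne', one_mul]
  congr 1 <;> ring

theorem fejc_le {R : ℝ} (hR : 0 ≤ R) : fejc R ≤ fejC := by
  unfold fejc fejC
  rw [intervalIntegral.integral_of_le (by linarith)]
  exact setIntegral_le_integral integrable_fejK (Eventually.of_forall fejK_nonneg)

variable {S : ℝ → ℝ} {A : ℝ} {g : ℂ → ℂ}

theorem integrableOn_exp_neg {ε : ℝ} (hε : 0 < ε) :
    IntegrableOn (fun t : ℝ => Real.exp (-(ε * t))) (Ioi 0) := by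
  have := integrableOn_exp_mul_Ioi (a := -ε) (by linarith) 0
  simpa only [neg_mul] using this

/-- **The identity.** -/
theorem TauberDat.identity (D : TauberDat S A g) {ε l : ℝ} (hε : 0 < ε) (hl : 0 < l) (x : ℝ) :
    ((∫ t in Ioi (0 : ℝ), (S t - A) * Real.exp (-(ε * t)) * fejL l (x - t) : ℝ) : ℂ) =
      tauH g ε l x := by
  have hT : Integrable (fun t => (S t - A) * Real.exp (-(ε * t))) (volume.restrict (Ioi 0)) := by
    have h1 := (D.int ε hε).sub ((integrableOn_exp_neg hε).const_mul A)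
    refine h1.congr (Eventually.of_forall fun t => ?_)
    simp only [Pi.sub_apply]
    ring
  have hk : Integrable (fun u : ℝ => ((1 - |u| / l : ℝ) : ℂ)) (volume.restrict (Ioc (-l) l)) := by
    have hc : Continuous fun u : ℝ => ((1 - |u| / l : ℝ) : ℂ) := by fun_prop
    exact (hc.intervalIntegrable (-l) l).1
  have hprod : Integrable (fun z : ℝ × ℝ => (((S z.1 - A) * Real.exp (-(ε * z.1)) : ℝ) : ℂ) *
      ((1 - |z.2| / l : ℝ) : ℂ)) ((volume.restrict (Ioi 0)).prod (volume.restrict (Ioc (-l) l))) :=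
    hT.ofReal.mul_prod hk
  have hprod2 : Integrable (fun z : ℝ × ℝ => (((S z.1 - A) * Real.exp (-(ε * z.1)) : ℝ) : ℂ) *
      ((1 - |z.2| / l : ℝ) : ℂ) * Complex.exp (Complex.I * z.2 * (x - z.1)))
      ((volume.restrict (Ioi 0)).prod (volume.restrict (Ioc (-l) l))) := by
    have hc : Continuous fun z : ℝ × ℝ => Complex.exp (Complex.I * z.2 * (x - z.1)) := by
      fun_prop
    refine hprod.mul_bdd (c := 1) hc.aestronglyMeasurable (Eventually.of_forall fun z => ?_)
    rw [Complex.norm_exp]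
    simp
  rw [← integral_complex_ofReal]
  have e1 : ∀ t : ℝ, (((S t - A) * Real.exp (-(ε * t)) * fejL l (x - t) : ℝ) : ℂ) =
      ∫ u in Ioc (-l) l, (((S t - A) * Real.exp (-(ε * t)) : ℝ) : ℂ) *
      ((1 - |u| / l : ℝ) : ℂ) * Complex.exp (Complex.I * u * (x - t)) := by
    intro t
    have h1 := fejK_fourier hl (x - t)
    rw [intervalIntegral.integral_of_le (by linarith)] at h1
    rw [Complex.ofReal_mul, fejL, ← h1, ← integral_const_mul]
    congr 1
    ext u
    push_cast
    ring
  simp only [e1]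
  rw [integral_integral_swap hprod2]
  unfold tauH
  rw [intervalIntegral.integral_of_le (by linarith)]
  congr 1
  ext u
  rw [D.lap _ (by simpa using hε), ← integral_const_mul]
  congr 1
  ext t
  have h2 : Complex.exp (Complex.I * u * (x - t)) =
      Complex.exp (Complex.I * u * x) * Complex.exp (-(Complex.I * u * t)) := by
    rw [← Complex.exp_add]
    congr 1
    ring
  have h3 : Complex.exp (-((ε + u * Complex.I) * t)) =
      ((Real.exp (-(ε * t)) : ℝ) : ℂ) * Complex.exp (-(Complex.I * u * t)) := by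
    rw [Complex.ofReal_exp, ← Complex.exp_add]
    congr 1
    push_cast
    ring
  rw [h2, h3]
  push_cast
  ring

theorem integrableOn_mul_fejL {F : ℝ → ℝ} {l : ℝ} (hl : 0 < l) (x : ℝ)
    (hF : IntegrableOn F (Ioi 0)) : IntegrableOn (fun t => F t * fejL l (x - t)) (Ioi 0) := by
  refine Integrable.mul_bdd (c := l) hF ?_ (Eventually.of_forall fun t => ?_)
  · exact ((measurable_fejL l).comp (measurable_const.sub measurable_id)).aestronglyMeasurable
  · rw [Real.norm_of_nonneg (fejL_nonneg hl _)]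
    exact fejL_le hl _

/-- the smoothed average -/
noncomputable def tauJ (S : ℝ → ℝ) (ε l x : ℝ) : ℝ :=
  ∫ t in Ioi (0 : ℝ), S t * Real.exp (-(ε * t)) * fejL l (x - t)

noncomputable def tauI (ε l x : ℝ) : ℝ :=
  ∫ t in Ioi (0 : ℝ), Real.exp (-(ε * t)) * fejL l (x - t)

theorem TauberDat.identity' (D : TauberDat S A g) {ε l : ℝ} (hε : 0 < ε) (hl : 0 < l) (x : ℝ) :
    tauJ S ε l x = A * tauI ε l x + (tauH g ε l x).re := by
  rw [← D.identity hε hl x, Complex.ofReal_re, tauJ, tauI, ← integral_const_mul, ← integral_add]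
  · congr 1
    ext t
    ring
  · exact (integrableOn_mul_fejL hl x (integrableOn_exp_neg hε)).const_mul A
  · refine integrableOn_mul_fejL hl x ?_
    have h1 := (D.int ε hε).sub ((integrableOn_exp_neg hε).const_mul A)
    refine h1.congr (Eventually.of_forall fun t => ?_)
    simp only [Pi.sub_apply]
    ring

/-- `ε → 0` on the Fourier side -/
theorem tauH_tendsto_zero (hg : ContinuousOn g {s : ℂ | 0 ≤ s.re}) {l : ℝ} (hl : 0 < l) (x : ℝ) :
    Tendsto (fun ε => tauH g ε l x) (𝓝[>] 0) (𝓝 (tauH g 0 l x)) := by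
  -- `g` is bounded on a compact set
  have hK : IsCompact (Icc (0 : ℝ) 1 ×ℂ Icc (-l) l) := isCompact_Icc.reProdIm isCompact_Icc
  have hsub : (Icc (0 : ℝ) 1 ×ℂ Icc (-l) l) ⊆ {s : ℂ | 0 ≤ s.re} := fun s hs => hs.1.1
  obtain ⟨C, hC⟩ := hK.exists_bound_of_continuousOn (hg.mono hsub)
  have hcg : ∀ ε : ℝ, 0 ≤ ε → Continuous fun u : ℝ => g (ε + u * Complex.I) := by
    intro ε hε
    refine hg.comp_continuous (by fun_prop) fun u => ?_
    simpa using hε
  refine intervalIntegral.tendsto_integral_filter_of_dominated_convergence (fun _ => C) ?_ ?_ ?_ ?_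
  · filter_upwards [self_mem_nhdsWithin] with ε hε
    have hc := hcg ε (le_of_lt hε)
    have : Continuous fun u : ℝ => ((1 - |u| / l : ℝ) : ℂ) * Complex.exp (Complex.I * u * x) *
        g (ε + u * Complex.I) := by
      refine Continuous.mul ?_ hc
      fun_prop
    exact this.aestronglyMeasurable
  · filter_upwards [self_mem_nhdsWithin, Ioo_mem_nhdsGT (show (0 : ℝ) < 1 by norm_num)]
      with ε hε hε1
    refine Eventually.of_forall fun u hu => ?_
    rw [uIoc_of_le (by linarith)] at hu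
    rw [norm_mul, norm_mul, Complex.norm_real, Complex.norm_exp]
    have h1 : ‖g (ε + u * Complex.I)‖ ≤ C := by
      refine hC _ ⟨?_, ?_⟩
      · simpa using ⟨hε1.1.le, hε1.2.le⟩
      · simpa using ⟨hu.1.le, hu.2⟩
    have h2 : ‖(1 - |u| / l : ℝ)‖ ≤ 1 := by
      have h3 : |u| ≤ l := abs_le.mpr ⟨hu.1.le, hu.2⟩
      have h4 : |u| / l ≤ 1 := (div_le_one hl).mpr h3
      have h5 : 0 ≤ |u| / l := by positivity
      rw [Real.norm_of_nonneg (by linarith)]
      linarith
    have h3 : (Complex.I * u * x).re = 0 := by simp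
    rw [h3, Real.exp_zero, mul_one]
    calc ‖(1 - |u| / l : ℝ)‖ * ‖g (ε + u * Complex.I)‖ ≤ 1 * C := by gcongr
      _ = C := one_mul C
  · simp
  · refine Eventually.of_forall fun u _ => ?_
    have h1 : ContinuousWithinAt g {s : ℂ | 0 ≤ s.re} (((0 : ℝ) : ℂ) + u * Complex.I) := by
      refine hg _ ?_
      simp
    have h2 : Tendsto (fun ε : ℝ => ((ε : ℂ) + u * Complex.I)) (𝓝[>] 0)
        (𝓝[{s : ℂ | 0 ≤ s.re}] (((0 : ℝ) : ℂ) + u * Complex.I)) := by
      refine tendsto_nhdsWithin_iff.mpr ⟨?_, ?_⟩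
      · have : Continuous fun ε : ℝ => ((ε : ℂ) + u * Complex.I) := by fun_prop
        exact (this.tendsto 0).mono_left nhdsWithin_le_nhds
      · filter_upwards [self_mem_nhdsWithin] with ε hε
        simpa using le_of_lt hε
    exact (h1.tendsto.comp h2).const_mul _

/-- Riemann-Lebesgue -/
theorem tauH_tendsto (g : ℂ → ℂ) {l : ℝ} (hl : 0 < l) :
    Tendsto (fun x => (tauH g 0 l x).re) atTop (𝓝 0) := by
  have h1 := Real.tendsto_integral_exp_smul_cocompact (fun u : ℝ => (Ioc (-l) l).indicator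
    (fun u : ℝ => ((1 - |u| / l : ℝ) : ℂ) * g (((0 : ℝ) : ℂ) + u * Complex.I)) u)
  have h2 : Tendsto (fun x : ℝ => -(x / (2 * Real.pi))) atTop (cocompact ℝ) := by
    refine Tendsto.mono_right ?_ atBot_le_cocompact
    exact tendsto_neg_atTop_atBot.comp (tendsto_id.atTop_div_const (by positivity))
  have h3 := h1.comp h2
  have h4 : (fun x => tauH g 0 l x) = (fun w : ℝ => ∫ v : ℝ, Real.fourierChar (-(v * w)) •
      (Ioc (-l) l).indicator (fun u : ℝ => ((1 - |u| / l : ℝ) : ℂ) *
        g (((0 : ℝ) : ℂ) + u * Complex.I)) v) ∘ fun x : ℝ => -(x / (2 * Real.pi)) := by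
    ext x
    unfold tauH
    rw [intervalIntegral.integral_of_le (by linarith), ← integral_indicator measurableSet_Ioc]
    show _ = ∫ v : ℝ, _
    congr 1
    ext u
    by_cases hu : u ∈ Ioc (-l) l
    · rw [indicator_of_mem hu, indicator_of_mem hu, Circle.smul_def, Real.fourierChar_apply,
        smul_eq_mul]
      have : Complex.exp (Complex.I * u * x) =
          Complex.exp (((2 * Real.pi * -(u * -(x / (2 * Real.pi))) : ℝ) : ℂ) * Complex.I) := by
        congr 1
        have hpi : (Real.pi : ℂ) ≠ 0 := Complex.ofReal_ne_zero.mpr Real.pi_ne_zero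
        push_cast
        field_simp
      rw [this]
      ring
    · rw [indicator_of_notMem hu, indicator_of_notMem hu, smul_zero]
  rw [← h4] at h3
  have h5 := (Complex.continuous_re.tendsto 0).comp h3
  simpa [Function.comp_def] using h5

/-- `ε → 0` in the main term -/
theorem tauI_tendsto_zero {l : ℝ} (hl : 0 < l) (x : ℝ) :
    Tendsto (fun ε => tauI ε l x) (𝓝[>] 0) (𝓝 (tauI 0 l x)) := by
  refine tendsto_integral_filter_of_dominated_convergence (fun t => fejL l (x - t)) ?_ ?_ ?_ ?_
  · refine Eventually.of_forall fun ε => ?_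
    have h1 : Measurable fun t => Real.exp (-(ε * t)) := by fun_prop
    exact (h1.mul ((measurable_fejL l).comp
      (measurable_const.sub measurable_id))).aestronglyMeasurable
  · filter_upwards [self_mem_nhdsWithin] with ε hε
    refine (ae_restrict_iff' measurableSet_Ioi).mpr (Eventually.of_forall fun t ht => ?_)
    rw [norm_mul, Real.norm_of_nonneg (Real.exp_pos _).le, Real.norm_of_nonneg (fejL_nonneg hl _)]
    have h1 : Real.exp (-(ε * t)) ≤ 1 := by
      rw [Real.exp_le_one_iff]
      have := mul_pos (show 0 < ε from hε) (show 0 < t from ht)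
      linarith
    have := fejL_nonneg hl (x - t)
    nlinarith
  · exact (integrable_fejL_sub hl x).integrableOn
  · refine Eventually.of_forall fun t => ?_
    have h1 : Continuous fun ε : ℝ => Real.exp (-(ε * t)) * fejL l (x - t) := by fun_prop
    exact (h1.tendsto 0).mono_left nhdsWithin_le_nhds

theorem tauI_zero (l x : ℝ) : tauI 0 l x = ∫ t in Ioi (0 : ℝ), fejL l (x - t) := by
  unfold tauI
  congr 1
  ext t
  simp

theorem tauI_le {l : ℝ} (hl : 0 < l) (x : ℝ) : tauI 0 l x ≤ fejC := by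
  rw [tauI_zero, ← integral_fejL_sub hl x]
  exact setIntegral_le_integral (integrable_fejL_sub hl x)
    (Eventually.of_forall fun t => fejL_nonneg hl _)

theorem le_tauI {l x : ℝ} (hl : 0 < l) (hx : 0 ≤ x) : fejc (l * x) ≤ tauI 0 l x := by
  rw [tauI_zero, ← integral_fejL_interval hl x x, sub_self,
    intervalIntegral.integral_of_le (by linarith)]
  refine setIntegral_mono_set (integrable_fejL_sub hl x).integrableOn
    (Eventually.of_forall fun t => fejL_nonneg hl _) (Eventually.of_forall ?_)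
  intro t ht
  exact ht.1

theorem tauI_tendsto {l : ℝ} (hl : 0 < l) : Tendsto (fun x => tauI 0 l x) atTop (𝓝 fejC) := by
  have h1 : Tendsto (fun x : ℝ => fejc (l * x)) atTop (𝓝 fejC) :=
    fejc_tendsto.comp (tendsto_id.const_mul_atTop hl)
  refine tendsto_of_tendsto_of_tendsto_of_le_of_le' h1 tendsto_const_nhds ?_ ?_
  · filter_upwards [eventually_ge_atTop 0] with x hx using le_tauI hl hx
  · exact Eventually.of_forall fun x => tauI_le hl x

/-! ### The two inequalities -/

theorem TauberDat.upper_aux (D : TauberDat S A g) {ε l δ x : ℝ} (hε : 0 < ε) (hl : 0 < l)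
    (hδ : 0 < δ) (hx : 0 ≤ x) :
    S x * Real.exp (-(2 * δ)) * Real.exp (-(ε * (x + 2 * δ))) * fejc (l * δ) ≤
      tauJ S ε l (x + δ) := by
  unfold tauJ
  rw [← integral_fejL_interval hl (x + δ) δ, ← intervalIntegral.integral_const_mul,
    intervalIntegral.integral_of_le (by linarith)]
  have hint := integrableOn_mul_fejL hl (x + δ) (D.int ε hε)
  have hsub : Ioc (x + δ - δ) (x + δ + δ) ⊆ Ioi 0 := fun t ht => by
    have := ht.1
    show 0 < t
    linarith
  refine le_trans (setIntegral_mono_on ?_ (hint.mono_set hsub) measurableSet_Ioc ?_)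
    (setIntegral_mono_set hint ?_ (Eventually.of_forall fun t ht => hsub ht))
  · exact ((integrable_fejL_sub hl (x + δ)).const_mul _).integrableOn
  · intro t ht
    have h1 : x ≤ t := by linarith [ht.1]
    have h2 : t ≤ x + 2 * δ := by linarith [ht.2]
    have h3 := D.mono x t hx h1
    have h4 : S x * Real.exp (-(2 * δ)) ≤ S t := by
      have h5 : S x * Real.exp x * Real.exp (-t) ≤ S t := by
        have h6 := mul_le_mul_of_nonneg_right h3 (Real.exp_pos (-t)).le
        rwa [mul_assoc (S t), ← Real.exp_add, add_neg_cancel, Real.exp_zero, mul_one] at h6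
      refine le_trans ?_ h5
      rw [mul_assoc, ← Real.exp_add]
      have := D.nonneg x
      gcongr
      linarith
    have h5 : Real.exp (-(ε * (x + 2 * δ))) ≤ Real.exp (-(ε * t)) := by
      gcongr
    have h6 := fejL_nonneg hl (x + δ - t)
    have h7 := D.nonneg t
    show S x * Real.exp (-(2 * δ)) * Real.exp (-(ε * (x + 2 * δ))) * fejL l (x + δ - t) ≤
        S t * Real.exp (-(ε * t)) * fejL l (x + δ - t)
    gcongr
  · refine (ae_restrict_iff' measurableSet_Ioi).mpr (Eventually.of_forall fun t _ => ?_)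
    have h6 := fejL_nonneg hl (x + δ - t)
    have h7 := D.nonneg t
    positivity

theorem TauberDat.upper (D : TauberDat S A g) {l δ x : ℝ} (hl : 0 < l)
    (hδ : 0 < δ) (hx : 0 ≤ x) :
    S x * Real.exp (-(2 * δ)) * fejc (l * δ) ≤ A * tauI 0 l (x + δ) + (tauH g 0 l (x + δ)).re := by
  have h1 : Tendsto (fun ε => S x * Real.exp (-(2 * δ)) * Real.exp (-(ε * (x + 2 * δ))) *
      fejc (l * δ)) (𝓝[>] 0) (𝓝 (S x * Real.exp (-(2 * δ)) * fejc (l * δ))) := by
    have hc : Continuous fun ε : ℝ => S x * Real.exp (-(2 * δ)) *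
        Real.exp (-(ε * (x + 2 * δ))) * fejc (l * δ) := by fun_prop
    have := (hc.tendsto 0).mono_left (nhdsWithin_le_nhds (s := Ioi (0 : ℝ)))
    simpa using this
  have h2 : Tendsto (fun ε => A * tauI ε l (x + δ) + (tauH g ε l (x + δ)).re) (𝓝[>] 0)
      (𝓝 (A * tauI 0 l (x + δ) + (tauH g 0 l (x + δ)).re)) :=
    ((tauI_tendsto_zero hl _).const_mul A).add
      ((Complex.continuous_re.tendsto _).comp (tauH_tendsto_zero D.cont hl _))
  refine le_of_tendsto_of_tendsto h1 h2 ?_
  filter_upwards [self_mem_nhdsWithin] with ε hε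
  rw [← D.identity' hε hl]
  exact D.upper_aux hε hl hδ hx

theorem TauberDat.lower_aux (D : TauberDat S A g) {B : ℝ} (hB : ∀ t, 0 ≤ t → S t ≤ B)
    {ε l δ x : ℝ} (hε : 0 < ε) (hl : 0 < l) (hδ : 0 < δ) (hx : 2 * δ ≤ x) :
    tauJ S ε l (x - δ) ≤ S x * Real.exp (2 * δ) * fejc (l * δ) + B * (fejC - fejc (l * δ)) := by
  have hB0 : 0 ≤ B := (D.nonneg 0).trans (hB 0 le_rfl)
  have hF := integrable_fejL_sub hl (x - δ)
  have hI : Integrable ((Ioc (x - δ - δ) (x - δ + δ)).indicator fun t => fejL l (x - δ - t)) :=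
    hF.indicator measurableSet_Ioc
  have e1 : ∫ t, (Ioc (x - δ - δ) (x - δ + δ)).indicator (fun t => fejL l (x - δ - t)) t =
      fejc (l * δ) := by
    rw [integral_indicator measurableSet_Ioc, ← intervalIntegral.integral_of_le (by linarith),
      integral_fejL_interval hl]
  have e2 : S x * Real.exp (2 * δ) * fejc (l * δ) + B * (fejC - fejc (l * δ)) =
      ∫ t, (B * fejL l (x - δ - t) + (S x * Real.exp (2 * δ) - B) *
        (Ioc (x - δ - δ) (x - δ + δ)).indicator (fun t => fejL l (x - δ - t)) t) := by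
    rw [integral_add (hF.const_mul B) (hI.const_mul _), integral_const_mul, integral_const_mul, e1,
      integral_fejL_sub hl]
    ring
  rw [e2, tauJ, ← integral_indicator measurableSet_Ioi]
  have hint := integrableOn_mul_fejL hl (x - δ) (D.int ε hε)
  refine integral_mono (hint.integrable_indicator measurableSet_Ioi)
    ((hF.const_mul B).add (hI.const_mul _)) fun t => ?_
  have h6 := fejL_nonneg hl (x - δ - t)
  simp only
  by_cases ht : t ∈ Ioi (0 : ℝ)
  · rw [indicator_of_mem ht]
    have ht0 : 0 < t := ht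
    have h1 : Real.exp (-(ε * t)) ≤ 1 := by
      rw [Real.exp_le_one_iff]
      have := mul_pos hε ht0
      linarith
    have h7 := D.nonneg t
    by_cases ht2 : t ∈ Ioc (x - δ - δ) (x - δ + δ)
    · rw [indicator_of_mem ht2]
      have h3 := D.mono t x ht0.le (by linarith [ht2.2])
      have h4 : S t ≤ S x * Real.exp (2 * δ) := by
        have h5 := mul_le_mul_of_nonneg_right h3 (Real.exp_pos (-t)).le
        rw [mul_assoc (S t), ← Real.exp_add, add_neg_cancel, Real.exp_zero, mul_one, mul_assoc,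
          ← Real.exp_add] at h5
        refine h5.trans ?_
        have := D.nonneg x
        gcongr
        linarith [ht2.1]
      have h8 := h7.trans h4
      calc S t * Real.exp (-(ε * t)) * fejL l (x - δ - t) ≤
          (S x * Real.exp (2 * δ)) * 1 * fejL l (x - δ - t) := by gcongr
        _ = _ := by ring
    · rw [indicator_of_notMem ht2]
      calc S t * Real.exp (-(ε * t)) * fejL l (x - δ - t) ≤ B * 1 * fejL l (x - δ - t) := by
            gcongr
            exact hB t ht0.le
        _ = _ := by ring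
  · rw [indicator_of_notMem ht]
    have ht2 : t ∉ Ioc (x - δ - δ) (x - δ + δ) := fun h => ht (by
      show 0 < t
      linarith [h.1])
    rw [indicator_of_notMem ht2, mul_zero, add_zero]
    exact mul_nonneg hB0 h6

theorem TauberDat.lower (D : TauberDat S A g) {B : ℝ} (hB : ∀ t, 0 ≤ t → S t ≤ B) {l δ x : ℝ}
    (hl : 0 < l) (hδ : 0 < δ) (hx : 2 * δ ≤ x) :
    A * tauI 0 l (x - δ) + (tauH g 0 l (x - δ)).re ≤
      S x * Real.exp (2 * δ) * fejc (l * δ) + B * (fejC - fejc (l * δ)) := by
  have h2 : Tendsto (fun ε => A * tauI ε l (x - δ) + (tauH g ε l (x - δ)).re) (𝓝[>] 0)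
      (𝓝 (A * tauI 0 l (x - δ) + (tauH g 0 l (x - δ)).re)) :=
    ((tauI_tendsto_zero hl _).const_mul A).add
      ((Complex.continuous_re.tendsto _).comp (tauH_tendsto_zero D.cont hl _))
  refine le_of_tendsto h2 ?_
  filter_upwards [self_mem_nhdsWithin] with ε hε
  rw [← D.identity' hε hl]
  exact D.lower_aux hB hε hl hδ hx

/-- **limsup** -/
theorem TauberDat.eventually_lt (D : TauberDat S A g) {C : ℝ} (hC : A < C) :
    ∀ᶠ x in atTop, S x < C := by
  -- choice of the parameters
  have hc := fejC_pos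
  have h1 : Tendsto (fun n : ℝ => A * fejC * (Real.exp (2 * n⁻¹) / fejc n)) atTop (𝓝 A) := by
    have h2 : Tendsto (fun n : ℝ => Real.exp (2 * n⁻¹)) atTop (𝓝 1) := by
      have := (Real.continuous_exp.tendsto 0).comp
        (by simpa using (tendsto_inv_atTop_zero (𝕜 := ℝ)).const_mul 2 :
          Tendsto (fun n : ℝ => 2 * n⁻¹) atTop (𝓝 0))
      simpa [Function.comp_def] using this
    have h3 := (h2.div fejc_tendsto hc.ne').const_mul (A * fejC)
    have e : A * fejC * (1 / fejC) = A := by field_simp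
    rwa [e] at h3
  obtain ⟨n, hn, hn0, hcn⟩ := ((h1.eventually (gt_mem_nhds hC)).and
    ((eventually_gt_atTop (0 : ℝ)).and (fejc_tendsto.eventually (lt_mem_nhds hc)))).exists
  have hδ : 0 < n⁻¹ := inv_pos.mpr hn0
  have hl : 0 < n * n := mul_pos hn0 hn0
  have hlδ : n * n * n⁻¹ = n := by field_simp
  -- the limit in `x`
  have h4 : Tendsto (fun x => (A * tauI 0 (n * n) (x + n⁻¹) +
      (tauH g 0 (n * n) (x + n⁻¹)).re) * (Real.exp (2 * n⁻¹) / fejc n)) atTop
      (𝓝 ((A * fejC + 0) * (Real.exp (2 * n⁻¹) / fejc n))) := by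
    have hs : Tendsto (fun x : ℝ => x + n⁻¹) atTop atTop := tendsto_atTop_add_const_right _ _ tendsto_id
    exact ((((tauI_tendsto hl).comp hs).const_mul A).add ((tauH_tendsto g hl).comp hs)).mul_const _
  rw [add_zero] at h4
  filter_upwards [h4.eventually (gt_mem_nhds hn), eventually_ge_atTop (0 : ℝ)] with x hx hx0
  refine lt_of_le_of_lt ?_ hx
  have h5 := D.upper hl hδ hx0
  rw [hlδ] at h5
  have h6 : S x = S x * Real.exp (-(2 * n⁻¹)) * fejc n * (Real.exp (2 * n⁻¹) / fejc n) := by
    rw [Real.exp_neg]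
    field_simp
  rw [h6]
  have : 0 ≤ Real.exp (2 * n⁻¹) / fejc n := by positivity
  gcongr

/-- **liminf** -/
theorem TauberDat.eventually_gt (D : TauberDat S A g) {C : ℝ} (hC : C < A) :
    ∀ᶠ x in atTop, C < S x := by
  have hc := fejC_pos
  -- `S` is bounded on `[0, ∞)`
  obtain ⟨B, hB⟩ : ∃ B, ∀ t, 0 ≤ t → S t ≤ B := by
    obtain ⟨X, hX⟩ := eventually_atTop.mp (D.eventually_lt (lt_add_one A))
    refine ⟨max (A + 1) (S (max X 0) * Real.exp (max X 0)), fun t ht => ?_⟩
    by_cases h : X ≤ t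
    · exact (hX t h).le.trans (le_max_left _ _)
    · refine le_trans ?_ (le_max_right _ _)
      have h1 := D.mono t (max X 0) ht ((le_of_not_ge h).trans (le_max_left _ _))
      refine le_trans ?_ h1
      have h2 := D.nonneg t
      have h3 : 1 ≤ Real.exp t := Real.one_le_exp ht
      nlinarith
  have h1 : Tendsto (fun n : ℝ => (A * fejC - B * (fejC - fejc n)) *
      (Real.exp (-(2 * n⁻¹)) / fejc n)) atTop (𝓝 A) := by
    have h2 : Tendsto (fun n : ℝ => Real.exp (-(2 * n⁻¹))) atTop (𝓝 1) := by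
      have := (Real.continuous_exp.tendsto 0).comp
        (by simpa using ((tendsto_inv_atTop_zero (𝕜 := ℝ)).const_mul 2).neg :
          Tendsto (fun n : ℝ => -(2 * n⁻¹)) atTop (𝓝 0))
      simpa [Function.comp_def] using this
    have h3 := ((((fejc_tendsto.const_sub fejC).const_mul B).const_sub (A * fejC))).mul
      (h2.div fejc_tendsto hc.ne')
    have e : (A * fejC - B * (fejC - fejC)) * (1 / fejC) = A := by field_simp; ring
    rwa [e] at h3
  obtain ⟨n, hn, hn0, hcn⟩ := ((h1.eventually (lt_mem_nhds hC)).and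
    ((eventually_gt_atTop (0 : ℝ)).and (fejc_tendsto.eventually (lt_mem_nhds hc)))).exists
  have hδ : 0 < n⁻¹ := inv_pos.mpr hn0
  have hl : 0 < n * n := mul_pos hn0 hn0
  have hlδ : n * n * n⁻¹ = n := by field_simp
  have h4 : Tendsto (fun x => (A * tauI 0 (n * n) (x - n⁻¹) +
      (tauH g 0 (n * n) (x - n⁻¹)).re - B * (fejC - fejc n)) *
        (Real.exp (-(2 * n⁻¹)) / fejc n)) atTop
      (𝓝 ((A * fejC + 0 - B * (fejC - fejc n)) * (Real.exp (-(2 * n⁻¹)) / fejc n))) := by
    have hs : Tendsto (fun x : ℝ => x - n⁻¹) atTop atTop := tendsto_atTop_add_const_right _ _ tendsto_id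
    exact (((((tauI_tendsto hl).comp hs).const_mul A).add
      ((tauH_tendsto g hl).comp hs)).sub_const _).mul_const _
  rw [add_zero] at h4
  filter_upwards [h4.eventually (lt_mem_nhds hn), eventually_ge_atTop (2 * n⁻¹)] with x hx hx0
  refine lt_of_lt_of_le hx ?_
  have h5 := D.lower hB hl hδ hx0
  rw [hlδ] at h5
  have h6 : S x = (S x * Real.exp (2 * n⁻¹) * fejc n) * (Real.exp (-(2 * n⁻¹)) / fejc n) := by
    rw [Real.exp_neg]
    field_simp
  rw [h6]
  have : 0 ≤ Real.exp (-(2 * n⁻¹)) / fejc n := by positivity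
  gcongr
  linarith

/-- **Tauberian theorem** for Laplace transforms. -/
theorem TauberDat.tendsto (D : TauberDat S A g) : Tendsto S atTop (𝓝 A) := by
  rw [tendsto_order]
  exact ⟨fun _ h => D.eventually_gt h, fun _ h => D.eventually_lt h⟩

end Fermat.Agent.Cor
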